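/-
Fermat/Agent/Jac/Core.lean  (helper41)

Shared algebraic vocabulary for the S25 programme (existence of the Jacobian).

A smooth projective curve `C` over a field `k` is presented by two affine charts
`Spec B0 ∪ Spec B1 = C` with overlap `Spec B01 = D(t) = D(s)`, `t * s = 1`, where `t : C → ℙ¹` is a
finite morphism.  For a `k`-algebra `A` the base change `C_A` has charts
`(A ⊗ B0, A ⊗ B1, A ⊗ B01)`.  A quasi-coherent sheaf on `C_A` is a "two-chart module" `QC2`.
Cohomology is *defined* by the two-term Čech complex `N0 × N1 → N01`.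
Only definitions and trivial lemmas live in this file.
-/
import Mathlib

set_option autoImplicit false

universe u

open TensorProduct

namespace Fermat.Agent.Jac

/-! ### Two-chart rings -/

/-- A *two-chart ring* over a base ring `A`: rings of functions `R0`, `R1` on two affine opens and
`R01` on their intersection, which is the basic open `D(t)` of the first and `D(s)` of the second,
with `t * s = 1` on the overlap (a relative curve over `Spec A`, glued like `ℙ¹`). -/
structure TwoChart (A R0 R1 R01 : Type u) [CommRing A] [CommRing R0] [CommRing R1] [CommRing R01]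
    [Algebra A R0] [Algebra A R1] [Algebra A R01] [Algebra R0 R01] [Algebra R1 R01]
    [IsScalarTower A R0 R01] [IsScalarTower A R1 R01] where
  /-- coordinate on the first chart (pulled back from `𝔸¹ ⊆ ℙ¹`) -/
  t : R0
  /-- coordinate on the second chart -/
  s : R1
  away0 : IsLocalization.Away t R01
  away1 : IsLocalization.Away s R01
  ts : algebraMap R0 R01 t * algebraMap R1 R01 s = 1

/-! ### Two-chart modules -/

section QC2

variable (A R0 R1 R01 : Type u) [CommRing A] [CommRing R0] [CommRing R1] [CommRing R01]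
  [Algebra A R0] [Algebra A R1] [Algebra A R01] [Algebra R0 R01] [Algebra R1 R01]
  [IsScalarTower A R0 R01] [IsScalarTower A R1 R01]

/-- A quasi-coherent module on the `A`-scheme glued from `Spec R0` and `Spec R1` along `Spec R01`:
modules of sections on the three opens with restriction maps that are base changes. -/
structure QC2 where
  N0 : Type u
  N1 : Type u
  N01 : Type u
  [acg0 : AddCommGroup N0] [acg1 : AddCommGroup N1] [acg01 : AddCommGroup N01]
  [modA0 : Module A N0] [mod0 : Module R0 N0] [towerA0 : IsScalarTower A R0 N0]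
  [modA1 : Module A N1] [mod1 : Module R1 N1] [towerA1 : IsScalarTower A R1 N1]
  [modA01 : Module A N01] [mod01 : Module R01 N01] [towerA01 : IsScalarTower A R01 N01]
  [mod001 : Module R0 N01] [mod101 : Module R1 N01]
  [tower0 : IsScalarTower R0 R01 N01] [tower1 : IsScalarTower R1 R01 N01]
  [towerA001 : IsScalarTower A R0 N01] [towerA101 : IsScalarTower A R1 N01]
  r0 : N0 →ₗ[R0] N01
  r1 : N1 →ₗ[R1] N01
  bc0 : IsBaseChange R01 r0
  bc1 : IsBaseChange R01 r1

attribute [instance] QC2.acg0 QC2.acg1 QC2.acg01 QC2.modA0 QC2.mod0 QC2.towerA0 QC2.modA1 QC2.mod1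
  QC2.towerA1 QC2.modA01 QC2.mod01 QC2.towerA01 QC2.mod001 QC2.mod101 QC2.tower0 QC2.tower1
  QC2.towerA001 QC2.towerA101

namespace QC2

variable {A R0 R1 R01}

/-- The Čech differential `N0 × N1 → N01`, `(x0, x1) ↦ r0 x0 - r1 x1`, as an `A`-linear map. -/
def d (L : QC2 A R0 R1 R01) : (L.N0 × L.N1) →ₗ[A] L.N01 :=
  (L.r0.restrictScalars A).coprod (-(L.r1.restrictScalars A))

/-- Global sections `H⁰ = ker d`. -/
def H0 (L : QC2 A R0 R1 R01) : Submodule A (L.N0 × L.N1) := LinearMap.ker L.d

/-- First cohomology `H¹ = coker d`. -/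
abbrev H1 (L : QC2 A R0 R1 R01) : Type u := L.N01 ⧸ LinearMap.range L.d

/-- A morphism of two-chart modules. -/
structure Hom (L M : QC2 A R0 R1 R01) where
  f0 : L.N0 →ₗ[R0] M.N0
  f1 : L.N1 →ₗ[R1] M.N1
  f01 : L.N01 →ₗ[R01] M.N01
  comm0 : ∀ x, f01 (L.r0 x) = M.r0 (f0 x)
  comm1 : ∀ x, f01 (L.r1 x) = M.r1 (f1 x)

/-- An isomorphism of two-chart modules. -/
structure Iso (L M : QC2 A R0 R1 R01) where
  e0 : L.N0 ≃ₗ[R0] M.N0
  e1 : L.N1 ≃ₗ[R1] M.N1
  e01 : L.N01 ≃ₗ[R01] M.N01
  comm0 : ∀ x, e01 (L.r0 x) = M.r0 (e0 x)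
  comm1 : ∀ x, e01 (L.r1 x) = M.r1 (e1 x)

/-- `L` is a line bundle: invertible on both charts. -/
structure IsLine (L : QC2 A R0 R1 R01) : Prop where
  inv0 : Module.Invertible R0 L.N0
  inv1 : Module.Invertible R1 L.N1

/-- `L` is a vector bundle: finitely generated projective on both charts. -/
structure IsVB (L : QC2 A R0 R1 R01) : Prop where
  fin0 : Module.Finite R0 L.N0
  proj0 : Module.Projective R0 L.N0
  fin1 : Module.Finite R1 L.N1
  proj1 : Module.Projective R1 L.N1

/-- The Čech differential of the base change of `L` to an `A`-algebra `A'`, computed intrinsically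
as `A' ⊗[A] d`.  (For an honest base-changed two-chart module `L'` over
`(A', A' ⊗ R0, A' ⊗ R1, A' ⊗ R01)` the complex `L'.d` is isomorphic to this one.) -/
def dBC (L : QC2 A R0 R1 R01) (A' : Type u) [CommRing A'] [Algebra A A'] :
    A' ⊗[A] (L.N0 × L.N1) →ₗ[A'] A' ⊗[A] L.N01 :=
  L.d.baseChange A'

/-- `H⁰` of the base change of `L` to `A'`. -/
def H0BC (L : QC2 A R0 R1 R01) (A' : Type u) [CommRing A'] [Algebra A A'] :
    Submodule A' (A' ⊗[A] (L.N0 × L.N1)) :=
  LinearMap.ker (L.dBC A')

/-- `H¹` of the base change of `L` to `A'`. -/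
abbrev H1BC (L : QC2 A R0 R1 R01) (A' : Type u) [CommRing A'] [Algebra A A'] : Type u :=
  (A' ⊗[A] L.N01) ⧸ LinearMap.range (L.dBC A')

/-- The comparison map `A' ⊗ H⁰(L) → H⁰(L_{A'})`. -/
def H0BCMap (L : QC2 A R0 R1 R01) (A' : Type u) [CommRing A'] [Algebra A A'] :
    A' ⊗[A] L.H0 →ₗ[A'] L.H0BC A' :=
  LinearMap.codRestrict _ (L.H0.subtype.baseChange A') (fun x => by
    induction x using TensorProduct.induction_on with
    | zero => simp
    | tmul a x =>
      have hx : L.d x.1 = 0 := x.2
      simp [H0BC, dBC, hx]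
    | add x y hx hy => simpa using Submodule.add_mem _ hx hy)

/-- The structure sheaf. -/
def unit : QC2 A R0 R1 R01 where
  N0 := R0
  N1 := R1
  N01 := R01
  r0 := Algebra.linearMap R0 R01
  r1 := Algebra.linearMap R1 R01
  bc0 := IsBaseChange.linearMap R0 R01
  bc1 := IsBaseChange.linearMap R1 R01

end QC2

end QC2

/-! ### Finiteness over the projective line

`N0` is regarded as a module over `A[X]` with `X` acting as `t`, via `Module.AEval`. -/

section Line

variable {A R0 R1 R01 : Type u} [CommRing A] [CommRing R0] [CommRing R1] [CommRing R01]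
  [Algebra A R0] [Algebra A R1] [Algebra A R01] [Algebra R0 R01] [Algebra R1 R01]
  [IsScalarTower A R0 R01] [IsScalarTower A R1 R01]

open Polynomial in
/-- Both chart modules of `L` are finitely generated over the polynomial rings `A[t]`, `A[s]`. -/
structure QC2.FiniteOverLine (c : TwoChart A R0 R1 R01) (L : QC2 A R0 R1 R01) : Prop where
  fin0 : Module.Finite A[X] (Module.AEval A L.N0 c.t)
  fin1 : Module.Finite A[X] (Module.AEval A L.N1 c.s)

open Polynomial in
/-- Both chart modules of `L` are projective over the polynomial rings `A[t]`, `A[s]`. -/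
structure QC2.ProjOverLine (c : TwoChart A R0 R1 R01) (L : QC2 A R0 R1 R01) : Prop where
  proj0 : Module.Projective A[X] (Module.AEval A L.N0 c.t)
  proj1 : Module.Projective A[X] (Module.AEval A L.N1 c.s)

open Polynomial in
/-- The charts themselves are finite projective over the line: `R0` over `A[t]`, `R1` over `A[s]`. -/
structure TwoChart.FiniteProjOverLine (c : TwoChart A R0 R1 R01) : Prop where
  fin0 : Module.Finite A[X] (Module.AEval A R0 c.t)
  proj0 : Module.Projective A[X] (Module.AEval A R0 c.t)
  fin1 : Module.Finite A[X] (Module.AEval A R1 c.s)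
  proj1 : Module.Projective A[X] (Module.AEval A R1 c.s)

end Line

end Fermat.Agent.Jac
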