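/-
Fermat/Agent/Jac/CurveCharts.lean  (helper41)

Interface between the scheme side and the algebra side of the S25 programme:
the output of brick C2 (a smooth proper curve is covered by two affine charts pulled back from
the projective line) and the input of bricks B1a/B1b (dictionary between sheaves on `C ×ₖ Spec A`
and two-chart modules).
-/
import Mathlib
import Fermat.Prelude.Def_AlgebraicGeometry_RelativePicardFunctor
import Fermat.Agent.Jac.Core

set_option autoImplicit false

open CategoryTheory CategoryTheory.Limits AlgebraicGeometry TopologicalSpace Opposite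
open NeronModelInfra

universe u

noncomputable section

namespace Fermat.Agent.Jac

variable {k : Type u} [Field k]

/-- The structure morphism `Spec A ⟶ Spec k` of a `k`-algebra. -/
def specStr (A : Type u) [CommRing A] [Algebra k A] :
    Spec (CommRingCat.of A) ⟶ Spec (CommRingCat.of k) :=
  Spec.map (CommRingCat.ofHom (algebraMap k A))

/-- The ring homomorphism `k → Γ(C, U)` for a `k`-scheme `c : C ⟶ Spec k` and an open `U`. -/
def sectionsRingHom {C : Scheme.{u}} (c : C ⟶ Spec (CommRingCat.of k)) (U : C.Opens) :
    k →+* Γ(C, U) :=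
  ((Scheme.ΓSpecIso (CommRingCat.of k)).inv ≫ c.appTop ≫
    C.presheaf.map (homOfLE (le_top : U ≤ ⊤)).op).hom

/-- The `k`-algebra structure on `Γ(C, U)` (a definition, to be activated locally with
`letI`/`attribute [local instance]`). -/
@[reducible] def sectionsAlgebra {C : Scheme.{u}} (c : C ⟶ Spec (CommRingCat.of k))
    (U : C.Opens) : Algebra k Γ(C, U) :=
  (sectionsRingHom c U).toAlgebra

/-- Two affine charts on a curve `c : C ⟶ Spec k` pulled back from the standard charts of the
projective line along a finite morphism `t : C ⟶ ℙ¹` with `t(P₀) = ∞`, where `P₀ = ε`. -/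
structure CurveCharts {C : Scheme.{u}} (c : C ⟶ Spec (CommRingCat.of k))
    (ε : SchemeHomOver (𝟙 (Spec (CommRingCat.of k))) c) where
  /-- the locus where `t` is regular -/
  U0 : C.Opens
  /-- the locus where `s = 1/t` is regular -/
  U1 : C.Opens
  affine0 : IsAffineOpen U0
  affine1 : IsAffineOpen U1
  cover : U0 ⊔ U1 = ⊤
  t : Γ(C, U0)
  s : Γ(C, U1)
  inter0 : U0 ⊓ U1 = C.basicOpen t
  inter1 : U0 ⊓ U1 = C.basicOpen s
  ts : (C.presheaf.map (homOfLE (inf_le_left : U0 ⊓ U1 ≤ U0)).op).hom t *
    (C.presheaf.map (homOfLE (inf_le_right : U0 ⊓ U1 ≤ U1)).op).hom s = 1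
  /-- the base point lies in the chart at infinity -/
  base_mem : ε.1 ⁻¹ᵁ U1 = ⊤
  /-- `s` vanishes at the base point -/
  s_base : (ε.1.app U1).hom s = 0
  /-- `Γ(C, U0)` is a finite free module over `k[t]` -/
  finite0 : letI := sectionsAlgebra c U0
    Module.Finite (Polynomial k) (Module.AEval k Γ(C, U0) t)
  free0 : letI := sectionsAlgebra c U0
    Module.Free (Polynomial k) (Module.AEval k Γ(C, U0) t)
  finite1 : letI := sectionsAlgebra c U1
    Module.Finite (Polynomial k) (Module.AEval k Γ(C, U1) s)
  free1 : letI := sectionsAlgebra c U1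
    Module.Free (Polynomial k) (Module.AEval k Γ(C, U1) s)
  dedekind0 : IsDedekindDomain Γ(C, U0)
  dedekind1 : IsDedekindDomain Γ(C, U1)
  /-- global functions are constant -/
  global_const : Function.Bijective (sectionsRingHom c (⊤ : C.Opens))

end Fermat.Agent.Jac
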