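import Mathlib

/-!
# Brick G1 (programme JAC): geometric integrality over algebraically closed fields

Part 1 (this file): commutative algebra.
* `exists_algHom_ne_zero`: for a finitely generated domain `A` over an algebraically closed field `k`
  and `a ≠ 0` there is a `k`-algebra map `χ : A → k` with `χ a ≠ 0`.
* `isDomain_tensorProduct`: for `k` algebraically closed and `k`-algebras `A`, `B` that are
  domains, `A ⊗[k] B` is a domain.
-/

set_option autoImplicit false

open TensorProduct

namespace Fermat.Agent.Jac.GeomIntegral40

section Algebra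

variable (k : Type*) [Field k] [IsAlgClosed k]

/-- Nullstellensatz form: a nonzero element of a finitely generated reduced `k`-algebra
is nonzero at some `k`-point. -/
theorem exists_algHom_ne_zero (A : Type*) [CommRing A] [Algebra k A] [Algebra.FiniteType k A]
    [IsReduced A] {a : A} (ha : a ≠ 0) : ∃ χ : A →ₐ[k] k, χ a ≠ 0 := by
  classical
  have : IsJacobsonRing A := isJacobsonRing_of_finiteType (A := k)
  -- the Jacobson radical of `⊥` is `⊥`
  have hjac : (⊥ : Ideal A).jacobson = ⊥ := by
    rw [← Ideal.radical_eq_jacobson]
    exact nilradical_eq_zero A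
  have hnot : a ∉ (⊥ : Ideal A).jacobson := by
    rw [hjac]; simpa using ha
  rw [Ideal.jacobson, Ideal.mem_sInf] at hnot
  push Not at hnot
  obtain ⟨m, ⟨-, hm⟩, ham⟩ := hnot
  have := hm
  letI : Field (A ⧸ m) := Ideal.Quotient.field m
  have : Algebra.FiniteType k (A ⧸ m) :=
    Algebra.FiniteType.of_surjective (Ideal.Quotient.mkₐ k m) (Ideal.Quotient.mkₐ_surjective k m)
  have : Module.Finite k (A ⧸ m) := finite_of_finite_type_of_isJacobsonRing k (A ⧸ m)
  have : Algebra.IsIntegral k (A ⧸ m) := Algebra.IsIntegral.of_finite k (A ⧸ m)
  have hbij : Function.Bijective (algebraMap k (A ⧸ m)) :=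
    IsAlgClosed.algebraMap_bijective_of_isIntegral
  let e : k ≃ₐ[k] (A ⧸ m) := AlgEquiv.ofBijective (Algebra.ofId k (A ⧸ m)) hbij
  refine ⟨(e.symm : (A ⧸ m) →ₐ[k] k).comp (Ideal.Quotient.mkₐ k m), ?_⟩
  intro h
  apply ham
  have : (Ideal.Quotient.mkₐ k m) a = 0 := by
    have h' : e.symm ((Ideal.Quotient.mkₐ k m) a) = 0 := h
    simpa using h'
  simpa [Ideal.Quotient.eq_zero_iff_mem] using this

/-- The evaluation map `A ⊗[k] B → B` attached to a `k`-point `χ` of `A`. -/
noncomputable def evalAt {k : Type*} [Field k] {A : Type*} [CommRing A] [Algebra k A]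
    (B : Type*) [CommRing B] [Algebra k B] (χ : A →ₐ[k] k) : A ⊗[k] B →ₐ[k] B :=
  Algebra.TensorProduct.lift ((Algebra.ofId k B).comp χ) (AlgHom.id k B)
    (fun _ _ => Commute.all _ _)

theorem evalAt_tmul {k : Type*} [Field k] {A : Type*} [CommRing A] [Algebra k A]
    (B : Type*) [CommRing B] [Algebra k B] (χ : A →ₐ[k] k) (a : A) (m : B) :
    evalAt B χ (a ⊗ₜ m) = χ a • m := by
  simp [evalAt, Algebra.smul_def, Algebra.ofId_apply]

theorem repr_evalAt {k : Type*} [Field k] {A : Type*} [CommRing A] [Algebra k A]
    {B : Type*} [CommRing B] [Algebra k B] {ι : Type*} (b : Module.Basis ι k B)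
    (χ : A →ₐ[k] k) (z : A ⊗[k] B) (l : ι) :
    b.repr (evalAt B χ z) l = χ ((Algebra.TensorProduct.basis A b).repr z l) := by
  induction z using TensorProduct.induction_on with
  | zero => simp
  | tmul a m =>
    rw [evalAt_tmul, Algebra.TensorProduct.basis_repr_tmul, map_smul]
    simp
  | add x y hx hy => simp [map_add, hx, hy]

/-- Finitely generated case of `isDomain_tensorProduct`. -/
theorem noZeroDivisors_tensorProduct_of_finiteType (A B : Type*) [CommRing A] [Algebra k A]
    [Algebra.FiniteType k A] [IsDomain A] [CommRing B] [Algebra k B] [IsDomain B] :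
    NoZeroDivisors (A ⊗[k] B) := by
  classical
  refine ⟨fun {x y} hxy => ?_⟩
  by_contra hne
  push Not at hne
  obtain ⟨hx, hy⟩ := hne
  let b := Module.Basis.ofVectorSpace k B
  let bA := Algebra.TensorProduct.basis A b
  have hex : ∀ z : A ⊗[k] B, z ≠ 0 → ∃ i, bA.repr z i ≠ 0 := by
    intro z hz
    by_contra h
    push Not at h
    apply hz
    apply bA.repr.injective
    ext i
    simp [h i]
  obtain ⟨i, hi⟩ := hex x hx
  obtain ⟨j, hj⟩ := hex y hy
  obtain ⟨χ, hχ⟩ := exists_algHom_ne_zero k A (mul_ne_zero hi hj)
  have key : ∀ z : A ⊗[k] B, evalAt B χ z = 0 → ∀ l, χ (bA.repr z l) = 0 := by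
    intro z hz l
    rw [← repr_evalAt b χ z l, hz]
    simp
  have h0 : evalAt B χ x * evalAt B χ y = 0 := by rw [← map_mul, hxy, map_zero]
  rcases mul_eq_zero.mp h0 with h | h
  · exact hχ (by rw [map_mul, key x h i, zero_mul])
  · exact hχ (by rw [map_mul, key y h j, mul_zero])

/-- Finitely generated case of `isDomain_tensorProduct`, with the finitely generated factor
on the right. -/
theorem noZeroDivisors_tensorProduct_of_finiteType_right (A B : Type*) [CommRing A] [Algebra k A]
    [IsDomain A] [CommRing B] [Algebra k B] [Algebra.FiniteType k B] [IsDomain B] :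
    NoZeroDivisors (A ⊗[k] B) := by
  have := noZeroDivisors_tensorProduct_of_finiteType k B A
  exact (Algebra.TensorProduct.comm k A B).toMulEquiv.noZeroDivisors

/-- Over an algebraically closed field, the tensor product of two domains has no zero divisors. -/
theorem noZeroDivisors_tensorProduct (A B : Type*) [CommRing A] [Algebra k A]
    [IsDomain A] [CommRing B] [Algebra k B] [IsDomain B] :
    NoZeroDivisors (A ⊗[k] B) := by
  classical
  refine ⟨fun {x y} hxy => ?_⟩
  obtain ⟨Sx, hSx⟩ := TensorProduct.exists_finset x
  obtain ⟨Sy, hSy⟩ := TensorProduct.exists_finset y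
  let D : Subalgebra k B := Algebra.adjoin k (((Sx ∪ Sy).image fun j ↦ j.2 : Finset B) : Set B)
  have hDfg : D.FG := Subalgebra.fg_adjoin_finset _
  have : Algebra.FiniteType k D := (Subalgebra.fg_iff_finiteType D).mp hDfg
  have hxD : x ∈ D.baseChange A := by
    rw [hSx]
    exact Subalgebra.sum_mem _ fun s hs ↦ Subalgebra.tmul_mem_baseChange
      (Algebra.subset_adjoin (Finset.mem_coe.mpr (Finset.mem_image_of_mem _
        (Finset.mem_union_left _ hs)))) s.1
  have hyD : y ∈ D.baseChange A := by
    rw [hSy]
    exact Subalgebra.sum_mem _ fun s hs ↦ Subalgebra.tmul_mem_baseChange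
      (Algebra.subset_adjoin (Finset.mem_coe.mpr (Finset.mem_image_of_mem _
        (Finset.mem_union_right _ hs)))) s.1
  have h_inj : Function.Injective (Algebra.TensorProduct.map (AlgHom.id A A) D.val) :=
    Module.Flat.lTensor_preserves_injective_linearMap _ Subtype.val_injective
  obtain ⟨x', rfl⟩ := hxD
  obtain ⟨y', rfl⟩ := hyD
  have := noZeroDivisors_tensorProduct_of_finiteType_right k A D
  have h0 : x' * y' = 0 := by
    apply h_inj
    rw [map_mul, map_zero]
    exact hxy
  rcases mul_eq_zero.mp h0 with h | h
  · left; rw [h]; exact map_zero _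
  · right; rw [h]; exact map_zero _

/-- **E1.** Over an algebraically closed field `k`, the tensor product of two `k`-algebras that are
domains is a domain. -/
theorem isDomain_tensorProduct (A B : Type*) [CommRing A] [Algebra k A]
    [IsDomain A] [CommRing B] [Algebra k B] [IsDomain B] :
    IsDomain (A ⊗[k] B) := by
  have := noZeroDivisors_tensorProduct k A B
  have : Nontrivial (A ⊗[k] B) :=
    Algebra.TensorProduct.nontrivial_of_algebraMap_injective_of_flat_left (R := k) A B
      (FaithfulSMul.algebraMap_injective k B)
  exact NoZeroDivisors.to_isDomain _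

end Algebra

section Schemes

universe u

open CategoryTheory CategoryTheory.Limits AlgebraicGeometry

variable {k : Type u} [Field k] [IsAlgClosed k]

/-- **E2a.** Over an algebraically closed field `k`, every `Spec K ⟶ Spec k` with `K` a field is
geometrically integral. -/
theorem geometricallyIntegral_Spec_field {K : Type u} [Field K]
    (y : Spec (CommRingCat.of K) ⟶ Spec (CommRingCat.of k)) : GeometricallyIntegral y := by
  refine ⟨fun L _ z Z fst snd h => ?_⟩
  obtain ⟨φ, rfl⟩ := Spec.map_surjective y
  obtain ⟨ψ, rfl⟩ := Spec.map_surjective z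
  algebraize [φ.hom, ψ.hom]
  have : IsDomain (K ⊗[k] L) := isDomain_tensorProduct k K L
  have : IsIntegral (Spec (CommRingCat.of (K ⊗[k] L))) := inferInstance
  have : IsIntegral (pullback (Spec.map (CommRingCat.ofHom (algebraMap k K)))
      (Spec.map (CommRingCat.ofHom (algebraMap k L)))) :=
    IsIntegral.of_isIso (pullbackSpecIso k K L).inv
  exact IsIntegral.of_isIso h.isoPullback.inv

/-- **E2.** An integral, locally noetherian scheme over an algebraically closed field `k` is
geometrically integral over `k`. -/
theorem geometricallyIntegral_of_isAlgClosed {X : Scheme.{u}} (f : X ⟶ Spec (CommRingCat.of k))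
    [IsIntegral X] [IsLocallyNoetherian X] : GeometricallyIntegral f := by
  refine ⟨fun K _ y Z fst snd h => ?_⟩
  have := geometricallyIntegral_Spec_field y
  have : IsIntegral (pullback f y) := inferInstance
  exact IsIntegral.of_isIso h.isoPullback.inv

/-- **E2'.** An integral scheme locally of finite type over an algebraically closed field is
geometrically integral. -/
theorem geometricallyIntegral_of_locallyOfFiniteType {X : Scheme.{u}}
    (f : X ⟶ Spec (CommRingCat.of k)) [IsIntegral X] [LocallyOfFiniteType f] :
    GeometricallyIntegral f := by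
  have : IsLocallyNoetherian X := LocallyOfFiniteType.isLocallyNoetherian f
  exact geometricallyIntegral_of_isAlgClosed f

/-- Base change of an integral locally noetherian `k`-scheme to any field is integral. -/
theorem isIntegral_pullback_Spec_field {X : Scheme.{u}} (f : X ⟶ Spec (CommRingCat.of k))
    [IsIntegral X] [IsLocallyNoetherian X] {K : Type u} [Field K]
    (y : Spec (CommRingCat.of K) ⟶ Spec (CommRingCat.of k)) : IsIntegral (pullback f y) := by
  have := geometricallyIntegral_Spec_field y
  infer_instance

/-- **E3.** The fibre product over an algebraically closed field `k` of two integral `k`-schemes,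
the first locally of finite type, the second locally noetherian, is integral. -/
theorem isIntegral_pullback {X Y : Scheme.{u}} (f : X ⟶ Spec (CommRingCat.of k))
    (g : Y ⟶ Spec (CommRingCat.of k)) [IsIntegral X] [LocallyOfFiniteType f]
    [IsIntegral Y] [IsLocallyNoetherian Y] : IsIntegral (pullback f g) := by
  have := geometricallyIntegral_of_locallyOfFiniteType f
  infer_instance

/-- **E3'.** The fibre product over an algebraically closed field `k` of two integral `k`-schemes
locally of finite type is geometrically integral over `k`. -/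
theorem geometricallyIntegral_pullback {X Y : Scheme.{u}} (f : X ⟶ Spec (CommRingCat.of k))
    (g : Y ⟶ Spec (CommRingCat.of k)) [IsIntegral X] [LocallyOfFiniteType f]
    [IsIntegral Y] [LocallyOfFiniteType g] :
    GeometricallyIntegral (pullback.fst f g ≫ f) := by
  have : IsLocallyNoetherian Y := LocallyOfFiniteType.isLocallyNoetherian g
  have := isIntegral_pullback f g
  exact geometricallyIntegral_of_locallyOfFiniteType _

omit [IsAlgClosed k] in
/-- A geometrically integral morphism is geometrically connected. -/
theorem geometricallyConnected_of_geometricallyIntegral {X S : Scheme.{u}} (f : X ⟶ S)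
    [GeometricallyIntegral f] : GeometricallyConnected f := by
  refine ⟨fun K _ y Z fst snd h => ?_⟩
  have : IsIntegral Z := GeometricallyIntegral.geometrically_isIntegral y fst snd h
  infer_instance

omit [IsAlgClosed k] in
/-- **E4.** If `p : X ⟶ Y` is surjective and `X` is geometrically connected over `S`, then so is
`Y`. -/
theorem geometricallyConnected_of_surjective {X Y S : Scheme.{u}} (p : X ⟶ Y) (g : Y ⟶ S)
    [Surjective p] [GeometricallyConnected (p ≫ g)] : GeometricallyConnected g := by
  refine ⟨geometrically_iff_of_isClosedUnderIsomorphisms.mpr fun K _ y => ?_⟩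
  have : ConnectedSpace ↥(pullback (p ≫ g) y) :=
    GeometricallyConnected.geometrically_connectedSpace y _ _ (.of_hasPullback _ _)
  let q : pullback (p ≫ g) y ⟶ pullback g y :=
    pullback.map (p ≫ g) y g y p (𝟙 _) (𝟙 _) (by simp) (by simp)
  have hq : IsPullback q (pullback.fst (p ≫ g) y) (pullback.fst g y) p := by
    refine IsPullback.of_right ?_ (pullback.lift_fst _ _ _) (IsPullback.of_hasPullback g y).flip
    have h2 : q ≫ pullback.snd g y = pullback.snd (p ≫ g) y :=
      (pullback.lift_snd _ _ _).trans (Category.comp_id _)
    rw [h2]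
    exact (IsPullback.of_hasPullback (p ≫ g) y).flip
  have : Surjective q := MorphismProperty.of_isPullback hq.flip ‹Surjective p›
  rw [connectedSpace_iff_univ, ← Set.range_eq_univ.mpr q.surjective, ← Set.image_univ]
  exact isConnected_univ.image _ q.continuous.continuousOn

/-- A `k`-variety in the weak sense used by programme JAC: an integral scheme, locally of finite
type over `k`. -/
structure IsVar {X : Scheme.{u}} (f : X ⟶ Spec (CommRingCat.of k)) : Prop where
  isIntegral : IsIntegral X
  locallyOfFiniteType : LocallyOfFiniteType f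

omit [IsAlgClosed k] in
theorem IsVar.id : IsVar (𝟙 (Spec (CommRingCat.of k))) :=
  ⟨inferInstance, inferInstance⟩

theorem IsVar.geometricallyIntegral {X : Scheme.{u}} {f : X ⟶ Spec (CommRingCat.of k)}
    (hf : IsVar f) : GeometricallyIntegral f := by
  have := hf.isIntegral
  have := hf.locallyOfFiniteType
  exact geometricallyIntegral_of_locallyOfFiniteType f

theorem IsVar.geometricallyConnected {X : Scheme.{u}} {f : X ⟶ Spec (CommRingCat.of k)}
    (hf : IsVar f) : GeometricallyConnected f := by
  have := hf.geometricallyIntegral
  exact geometricallyConnected_of_geometricallyIntegral f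

/-- Fibre products of `k`-varieties are `k`-varieties (`k` algebraically closed). -/
theorem IsVar.pullback {X Y : Scheme.{u}} {f : X ⟶ Spec (CommRingCat.of k)}
    {g : Y ⟶ Spec (CommRingCat.of k)} (hf : IsVar f) (hg : IsVar g) :
    IsVar (pullback.fst f g ≫ f) := by
  have := hf.isIntegral
  have := hf.locallyOfFiniteType
  have := hg.isIntegral
  have := hg.locallyOfFiniteType
  have : IsLocallyNoetherian Y := LocallyOfFiniteType.isLocallyNoetherian g
  exact ⟨isIntegral_pullback f g, inferInstance⟩

/-- Base change of a `k`-variety (`k` algebraically closed) to an arbitrary field `K` is a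
`K`-variety. -/
theorem IsVar.baseChange {X : Scheme.{u}} {f : X ⟶ Spec (CommRingCat.of k)} (hf : IsVar f)
    {K : Type u} [Field K] (y : Spec (CommRingCat.of K) ⟶ Spec (CommRingCat.of k)) :
    IsIntegral (Limits.pullback f y) ∧ LocallyOfFiniteType (pullback.snd f y) := by
  have := hf.isIntegral
  have := hf.locallyOfFiniteType
  have : IsLocallyNoetherian X := LocallyOfFiniteType.isLocallyNoetherian f
  exact ⟨isIntegral_pullback_Spec_field f y, inferInstance⟩

open MonoidalCategory in
/-- Products in `Over (Spec k)` of `k`-varieties are `k`-varieties. -/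
theorem IsVar.tensorObj (X Y : Over (Spec (CommRingCat.of k))) (hX : IsVar X.hom)
    (hY : IsVar Y.hom) : IsVar (X ⊗ Y).hom :=
  hX.pullback hY

open MonoidalCategory in
omit [IsAlgClosed k] in
theorem IsVar.tensorUnit : IsVar (𝟙_ (Over (Spec (CommRingCat.of k)))).hom :=
  IsVar.id

end Schemes

end Fermat.Agent.Jac.GeomIntegral40
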