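/-
JAC programme, brick Q5 (helper79), abstract scheme-level part:
if `D.P` represents a cut of the rigidified relative Picard functor and receives a surjective
`k`-morphism `a : X ⟶ D.P` from a geometrically integral `k`-scheme locally of finite type with a
rational point `x0` mapping to the zero section, then the Poincaré bundle is fibrewise
algebraically equivalent to zero (`FibrewiseAlgEquivZero`), i.e. lies in the frozen cut
`algEquivZeroCut`.

The connecting family over `T' = X_K` is the pullback of the Poincaré bundle along `1 × a_K`.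
-/
import Mathlib
import Fermat.Prelude.Def_AlgebraicGeometry_RelPicardAlgEquivZeroCut

set_option autoImplicit false

noncomputable section

universe u

open CategoryTheory CategoryTheory.Limits AlgebraicGeometry AlgebraicGeometry.RelPicard
  NeronModelInfra GoodReductionJacobian

namespace Fermat.Agent.Jac.PoincareMem79

/-- Over an algebraically closed field `K`, a rational point of the target of a surjective
morphism of `K`-schemes, with source locally of finite type, lifts to a rational point of the
source. -/
theorem exists_rational_lift {K : Type u} [Field K] [IsAlgClosed K] {T' JK : Scheme.{u}}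
    (b : T' ⟶ JK) (jK : JK ⟶ Spec (CommRingCat.of K)) [LocallyOfFiniteType (b ≫ jK)]
    [Surjective b] (s' : Spec (CommRingCat.of K) ⟶ JK) :
    ∃ t1 : Spec (CommRingCat.of K) ⟶ T', t1 ≫ b = s' := by
  have hb : LocallyOfFiniteType b := locallyOfFiniteType_of_comp b jK
  have hsnd : LocallyOfFiniteType (pullback.snd b s') := inferInstance
  have : JacobsonSpace ↥(pullback b s') := LocallyOfFiniteType.jacobsonSpace (pullback.snd b s')
  have hne : (Set.univ : Set ↥(pullback b s')).Nonempty := by
    have hr : Set.range (pullback.snd b s') = Set.univ := by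
      rw [Scheme.Pullback.range_snd, Set.range_eq_univ.mpr b.surjective, Set.preimage_univ]
    have : (IsLocalRing.closedPoint K : ↥(Spec (CommRingCat.of K))) ∈
        Set.range (pullback.snd b s') := hr ▸ Set.mem_univ _
    obtain ⟨z, -⟩ := this
    exact ⟨z, trivial⟩
  obtain ⟨z, -, hz'⟩ := nonempty_inter_closedPoints hne isOpen_univ.isLocallyClosed
  have hz : IsClosed ({z} : Set ↥(pullback b s')) := hz'
  refine ⟨pointOfClosedPoint (pullback.snd b s') z hz ≫ pullback.fst b s', ?_⟩
  rw [Category.assoc, pullback.condition, ← Category.assoc, pointOfClosedPoint_comp,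
    Category.id_comp]

section BaseChangeSnd

variable {R : Type u} [CommRing R] {C T T' : Scheme.{u}} (c : C ⟶ Spec (CommRingCat.of R))
  {t : T ⟶ Spec (CommRingCat.of R)} {t' : T' ⟶ Spec (CommRingCat.of R)}

@[reassoc (attr := simp)]
theorem baseChangeSnd_fst (ψ : SchemeHomOver t' t) :
    baseChangeSnd c ψ ≫ pullback.fst c t = pullback.fst c t' := by
  unfold baseChangeSnd
  simp only [pullback.lift_fst, Category.comp_id]

@[reassoc (attr := simp)]
theorem baseChangeSnd_snd (ψ : SchemeHomOver t' t) :
    baseChangeSnd c ψ ≫ pullback.snd c t = pullback.snd c t' ≫ ψ.1 := by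
  unfold baseChangeSnd
  simp only [pullback.lift_snd]

end BaseChangeSnd

section Family

variable {k K : Type u} [Field k] [Field K] {C J T' : Scheme.{u}}
  (c : C ⟶ Spec (CommRingCat.of k)) (j : J ⟶ Spec (CommRingCat.of k))
  (s : Spec (CommRingCat.of K) ⟶ J) (hT : T' ⟶ Spec (CommRingCat.of K)) (w : T' ⟶ J)
  (hw : w ≫ j = hT ≫ s ≫ j)

/-- `C_K ⟶ C`, where `C_K` is the fibre of `C × J ⟶ J` over `s`. -/
abbrev fibreToCurve : pullback (pullback.snd c j) s ⟶ C :=
  pullback.fst (pullback.snd c j) s ≫ pullback.fst c j

theorem fibreToCurve_comp :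
    fibreToCurve c j s ≫ c = pullback.snd (pullback.snd c j) s ≫ s ≫ j := by
  rw [fibreToCurve, Category.assoc, pullback.condition, ← Category.assoc, pullback.condition,
    Category.assoc]

/-- The morphism `C_K ×_K T' ⟶ C × J`, `(x, y) ↦ (x, w y)`. -/
def famMap : pullback (pullback.snd (pullback.snd c j) s) hT ⟶ pullback c j :=
  pullback.lift (pullback.fst _ hT ≫ fibreToCurve c j s) (pullback.snd _ hT ≫ w) (by
    rw [Category.assoc, fibreToCurve_comp, Category.assoc, hw, ← Category.assoc,
      ← Category.assoc, pullback.condition, Category.assoc, Category.assoc])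

@[reassoc (attr := simp)]
theorem famMap_fst : famMap c j s hT w hw ≫ pullback.fst c j =
    pullback.fst _ hT ≫ fibreToCurve c j s :=
  pullback.lift_fst _ _ _

@[reassoc (attr := simp)]
theorem famMap_snd : famMap c j s hT w hw ≫ pullback.snd c j = pullback.snd _ hT ≫ w :=
  pullback.lift_snd _ _ _

/-- Restricting the family to a rational point `t1` of `T'` with `w(t1) = s` gives the fibre
inclusion `C_K ⟶ C × J`. -/
theorem baseChangeSnd_famMap_of_eq (t1 : SchemeHomOver (𝟙 (Spec (CommRingCat.of K))) hT)
    (ht1 : t1.1 ≫ w = s) :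
    baseChangeSnd (pullback.snd (pullback.snd c j) s) t1 ≫ famMap c j s hT w hw =
      pullback.fst (pullback.snd (pullback.snd c j) s) (𝟙 _) ≫
        pullback.fst (pullback.snd c j) s := by
  apply pullback.hom_ext
  · simp only [Category.assoc, famMap_fst, baseChangeSnd_fst_assoc, fibreToCurve]
  · simp only [Category.assoc, famMap_snd, baseChangeSnd_snd_assoc, ht1]
    rw [pullback.condition, ← Category.assoc, pullback.condition, Category.assoc,
      Category.id_comp]

/-- The morphism `C_K ×_K Spec K ⟶ C ×_k Spec k`. -/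
def fibreToUnit : pullback (pullback.snd (pullback.snd c j) s) (𝟙 (Spec (CommRingCat.of K))) ⟶
    pullback c (𝟙 (Spec (CommRingCat.of k))) :=
  pullback.lift (pullback.fst _ (𝟙 _) ≫ fibreToCurve c j s) (pullback.snd _ (𝟙 _) ≫ s ≫ j) (by
    rw [Category.assoc, fibreToCurve_comp, Category.comp_id, ← Category.assoc,
      pullback.condition, Category.assoc, Category.id_comp])

/-- Restricting the family to a rational point `t0` of `T'` with `w(t0)` the zero section factors
through the restriction of `C × J` to the zero section. -/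
theorem baseChangeSnd_famMap_of_zero (t0 : SchemeHomOver (𝟙 (Spec (CommRingCat.of K))) hT)
    (z : SchemeHomOver (𝟙 (Spec (CommRingCat.of k))) j) (ht0 : t0.1 ≫ w = (s ≫ j) ≫ z.1) :
    baseChangeSnd (pullback.snd (pullback.snd c j) s) t0 ≫ famMap c j s hT w hw =
      fibreToUnit c j s ≫ baseChangeSnd c z := by
  apply pullback.hom_ext
  · simp only [Category.assoc, famMap_fst, baseChangeSnd_fst_assoc, baseChangeSnd_fst,
      fibreToUnit, pullback.lift_fst]
  · simp only [Category.assoc, famMap_snd, baseChangeSnd_snd_assoc, baseChangeSnd_snd, ht0,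
      fibreToUnit, pullback.lift_snd_assoc]

end Family

variable {k : Type u} [Field k] {C : Scheme.{u}} {c : C ⟶ Spec (CommRingCat.of k)}
  {ε : SchemeHomOver (𝟙 (Spec (CommRingCat.of k))) c} {P : SubPicCondition c ε}
  {D : RelativePic0Designation k c}

/-- **Q5 (abstract form).** The Poincaré bundle of a representing scheme dominated by a
geometrically integral scheme through the zero section is fibrewise algebraically equivalent to
zero. -/
theorem fibrewiseAlgEquivZero_poincare (h : RepresentsRelSubPic c ε P D)
    {X : Scheme.{u}} (a : X ⟶ D.P) [LocallyOfFiniteType (a ≫ D.toBase)]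
    [GeometricallyIntegral (a ≫ D.toBase)] [Surjective a]
    (x0 : Spec (CommRingCat.of k) ⟶ X) (hx0 : x0 ≫ a = D.zeroSection) :
    FibrewiseAlgEquivZero h.poincare := by
  intro K _ _ s
  -- `a_K : X_K ⟶ J_K`
  have hb_snd : ((pullbackRightPullbackFstIso D.toBase (s ≫ D.toBase) a).inv ≫
      pullback.snd a (pullback.fst D.toBase (s ≫ D.toBase))) ≫
        pullback.snd D.toBase (s ≫ D.toBase) = pullback.snd (a ≫ D.toBase) (s ≫ D.toBase) := by
    rw [Category.assoc]
    exact pullbackRightPullbackFstIso_inv_snd_snd D.toBase (s ≫ D.toBase) a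
  have hb_fst : ((pullbackRightPullbackFstIso D.toBase (s ≫ D.toBase) a).inv ≫
      pullback.snd a (pullback.fst D.toBase (s ≫ D.toBase))) ≫
        pullback.fst D.toBase (s ≫ D.toBase) =
      pullback.fst (a ≫ D.toBase) (s ≫ D.toBase) ≫ a := by
    rw [Category.assoc]
    exact pullbackRightPullbackFstIso_inv_snd_fst D.toBase (s ≫ D.toBase) a
  have hbsurj : Surjective ((pullbackRightPullbackFstIso D.toBase (s ≫ D.toBase) a).inv ≫
      pullback.snd a (pullback.fst D.toBase (s ≫ D.toBase))) := inferInstance
  have hlft : LocallyOfFiniteType (((pullbackRightPullbackFstIso D.toBase (s ≫ D.toBase) a).inv ≫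
      pullback.snd a (pullback.fst D.toBase (s ≫ D.toBase))) ≫
        pullback.snd D.toBase (s ≫ D.toBase)) := by
    rw [hb_snd]; infer_instance
  -- the rational point of `J_K` defined by `s`, and its lift `t1` to `X_K`
  obtain ⟨t1, ht1⟩ := exists_rational_lift
    ((pullbackRightPullbackFstIso D.toBase (s ≫ D.toBase) a).inv ≫
      pullback.snd a (pullback.fst D.toBase (s ≫ D.toBase)))
    (pullback.snd D.toBase (s ≫ D.toBase))
    (pullback.lift s (𝟙 _) (by simp) :
      Spec (CommRingCat.of K) ⟶ pullback D.toBase (s ≫ D.toBase))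
  have ht1T : t1 ≫ pullback.snd (a ≫ D.toBase) (s ≫ D.toBase) = 𝟙 _ := by
    rw [← hb_snd, ← Category.assoc, ht1, pullback.lift_snd]
  have ht1a : t1 ≫ pullback.fst (a ≫ D.toBase) (s ≫ D.toBase) ≫ a = s := by
    rw [← hb_fst, ← Category.assoc, ht1, pullback.lift_fst]
  -- the rational point `t0` of `X_K` over `x0`
  have hx0j : x0 ≫ a ≫ D.toBase = 𝟙 _ := by
    rw [← Category.assoc, hx0, D.zeroSection_toBase]
  have ht0T : pullback.lift ((s ≫ D.toBase) ≫ x0) (𝟙 _)
      (by rw [Category.assoc, hx0j, Category.comp_id, Category.id_comp]) ≫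
      pullback.snd (a ≫ D.toBase) (s ≫ D.toBase) = 𝟙 (Spec (CommRingCat.of K)) :=
    pullback.lift_snd _ _ _
  have ht0a : pullback.lift ((s ≫ D.toBase) ≫ x0) (𝟙 _)
      (by rw [Category.assoc, hx0j, Category.comp_id, Category.id_comp]) ≫
      pullback.fst (a ≫ D.toBase) (s ≫ D.toBase) ≫ a = (s ≫ D.toBase) ≫ D.zeroSection := by
    rw [pullback.lift_fst_assoc, Category.assoc, hx0]
  have hw : (pullback.fst (a ≫ D.toBase) (s ≫ D.toBase) ≫ a) ≫ D.toBase =
      pullback.snd (a ≫ D.toBase) (s ≫ D.toBase) ≫ s ≫ D.toBase := by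
    rw [Category.assoc]
    exact pullback.condition
  refine ⟨pullback (a ≫ D.toBase) (s ≫ D.toBase), pullback.snd (a ≫ D.toBase) (s ≫ D.toBase),
    inferInstance, inferInstance,
    (Scheme.Modules.pullback (famMap c D.toBase s _ _ hw)).obj h.poincare.L,
    h.poincare.isInvertible.pullback _, ⟨_, ht0T⟩, ⟨t1, ht1T⟩, ⟨?_⟩, ⟨?_⟩⟩
  · -- restriction to `t0` is trivial, by `h.zero`
    have hfac := baseChangeSnd_famMap_of_zero c D.toBase s _ _ hw ⟨_, ht0T⟩
      ⟨D.zeroSection, D.zeroSection_toBase⟩ ht0a
    exact (Scheme.Modules.pullbackComp _ _).app h.poincare.L ≪≫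
      (Scheme.Modules.pullbackCongr hfac).app h.poincare.L ≪≫
      ((Scheme.Modules.pullbackComp _ _).app h.poincare.L).symm ≪≫
      (Scheme.Modules.pullback (fibreToUnit c D.toBase s)).mapIso h.zero.some ≪≫
      Scheme.Modules.pullbackUnitIso (fibreToUnit c D.toBase s)
  · -- restriction to `t1` is the fibre of the Poincaré bundle at `s`
    have hfac := baseChangeSnd_famMap_of_eq c D.toBase s _ _ hw ⟨t1, ht1T⟩ ht1a
    exact (Scheme.Modules.pullbackComp _ _).app h.poincare.L ≪≫
      (Scheme.Modules.pullbackCongr hfac).app h.poincare.L ≪≫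
      ((Scheme.Modules.pullbackComp _ _).app h.poincare.L).symm

end Fermat.Agent.Jac.PoincareMem79

end
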