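import Mathlib

/-!
# JAC brick A5 (LiftNilp85, hedge copy by helper85): lifting along surjections with nilpotent kernel

Setting: `A → A'` a surjective algebra map of commutative rings whose kernel is a nilpotent
ideal (hypotheses `hs : Function.Surjective (algebraMap A A')` and
`hn : IsNilpotent (RingHom.ker (algebraMap A A'))`).

Main results (all in namespace `Fermat.Agent.Jac.LiftNilp85`):

* `ker_mk_one` : the kernel of `m ↦ 1 ⊗ₜ m : M → A' ⊗[A] M` is `ker • ⊤`.
* `exists_baseChange_eq` : linear maps `A' ⊗ M → A' ⊗ N` with `M` projective lift to `M → N`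
  (only surjectivity needed).
* `isNilpotent_of_baseChange_eq_zero`, `isUnit_of_baseChange_eq_one`.
* `bijective_of_baseChange_bijective` : a map between projective modules which is bijective after
  base change is bijective.
* `exists_linearEquiv_baseChange_eq` : linear equivalences between base changes of projective
  modules lift.
* `exists_isIdempotentElem_baseChange_eq` : idempotent endomorphisms lift.
* `exists_finite_projective_lift` : finitely generated projective `A'`-modules lift.
* `invertible_of_baseChange_invertible` : projective + invertible after base change implies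
  invertible.
* `exists_invertible_lift` : invertible `A'`-modules lift to invertible `A`-modules.
* `IsBaseChange` forms: `exists_linearMap_of_isBaseChange`, `exists_linearEquiv_of_isBaseChange`.
* `surjective_map_id` / `isNilpotent_ker_map_id` : for `f : R →ₐ[k] R'` surjective with nilpotent
  kernel, `B ⊗[k] R → B ⊗[k] R'` is again surjective with nilpotent kernel.
* quotient forms `surjective_algebraMap_quotient`, `isNilpotent_ker_algebraMap_quotient`.
-/

open TensorProduct

namespace Fermat.Agent.Jac.LiftNilp85

universe u v w w' x x'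

section Basic

variable {A : Type u} {A' : Type v} [CommRing A] [CommRing A'] [Algebra A A']
variable {M : Type w} [AddCommGroup M] [Module A M]
variable {N : Type w'} [AddCommGroup N] [Module A N]

/-- For a surjective algebra map `A → A'` with kernel `I`, the kernel of `m ↦ 1 ⊗ m` is `I • ⊤`. -/
theorem ker_mk_one (hs : Function.Surjective (algebraMap A A')) :
    LinearMap.ker (TensorProduct.mk A A' M 1) =
      (RingHom.ker (algebraMap A A')) • (⊤ : Submodule A M) := by
  set I := RingHom.ker (algebraMap A A') with hI
  let e : (A ⧸ I) ≃ₐ[A] A' := Ideal.quotientKerAlgEquivOfSurjective (f := Algebra.ofId A A') hs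
  have h1 := LinearMap.ker_tensorProductMk (R := A) (Q := M) (I := I)
  rw [← h1]
  have : TensorProduct.mk A A' M 1 =
      (LinearEquiv.rTensor M e.toLinearEquiv).toLinearMap ∘ₗ TensorProduct.mk A (A ⧸ I) M 1 := by
    ext m
    simp
  rw [this, LinearEquiv.ker_comp]

/-- `m ↦ 1 ⊗ m` is surjective when `A → A'` is. -/
theorem mk_one_surjective (hs : Function.Surjective (algebraMap A A')) :
    Function.Surjective (TensorProduct.mk A A' M 1) := by
  intro z
  induction z using TensorProduct.induction_on with
  | zero => exact ⟨0, by simp⟩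
  | tmul a m =>
    obtain ⟨r, rfl⟩ := hs a
    refine ⟨r • m, ?_⟩
    simp only [TensorProduct.mk_apply, TensorProduct.tmul_smul]
    rw [TensorProduct.smul_tmul', Algebra.smul_def, mul_one]
  | add x y hx hy =>
    obtain ⟨a, rfl⟩ := hx
    obtain ⟨b, rfl⟩ := hy
    exact ⟨a + b, by simp [TensorProduct.tmul_add]⟩

/-- Linear maps out of a projective module lift along a surjective base change. -/
theorem exists_baseChange_eq (hs : Function.Surjective (algebraMap A A'))
    [Module.Projective A M] (g' : A' ⊗[A] M →ₗ[A'] A' ⊗[A] N) :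
    ∃ g : M →ₗ[A] N, g.baseChange A' = g' := by
  obtain ⟨g, hg⟩ := Module.projective_lifting_property (TensorProduct.mk A A' N 1)
    ((g'.restrictScalars A) ∘ₗ TensorProduct.mk A A' M 1) (mk_one_surjective hs)
  refine ⟨g, ?_⟩
  ext m
  have := LinearMap.congr_fun hg m
  simpa using this

/-- If the base change of `φ` vanishes then `φ` takes values in `I • ⊤`. -/
theorem mem_smul_top_of_baseChange_eq_zero (hs : Function.Surjective (algebraMap A A'))
    (φ : M →ₗ[A] N) (h : φ.baseChange A' = 0) (x : M) :
    φ x ∈ (RingHom.ker (algebraMap A A')) • (⊤ : Submodule A N) := by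
  rw [← ker_mk_one hs, LinearMap.mem_ker]
  have := LinearMap.congr_fun h (1 ⊗ₜ x)
  simpa using this

/-- An endomorphism whose values all lie in `I • ⊤` with `I ^ k = 0` satisfies `φ ^ k = 0`. -/
theorem pow_eq_zero_of_forall_mem_smul_top {I : Ideal A} {k : ℕ} (hk : I ^ k = ⊥)
    (φ : Module.End A M) (hφ : ∀ x, φ x ∈ I • (⊤ : Submodule A M)) : φ ^ k = 0 := by
  have key : ∀ j : ℕ, ∀ x, (φ ^ j) x ∈ (I ^ j) • (⊤ : Submodule A M) := by
    intro j
    induction j with
    | zero => intro x; simp
    | succ j ih =>
      intro x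
      have e1 : (φ ^ (j + 1)) x = φ ((φ ^ j) x) := by
        rw [pow_succ' φ j, Module.End.mul_apply]
      rw [e1]
      have hx := ih x
      have hmap : Submodule.map φ ((I ^ j) • (⊤ : Submodule A M)) ≤ (I ^ (j+1)) • ⊤ := by
        rw [Submodule.map_smul'', pow_succ, mul_smul]
        apply Submodule.smul_mono le_rfl
        rintro _ ⟨y, -, rfl⟩
        exact hφ y
      exact hmap ⟨_, hx, rfl⟩
  ext x
  have := key k x
  rw [hk] at this
  simpa using this

/-- An endomorphism with vanishing base change along a surjection with nilpotent kernel is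
nilpotent. -/
theorem isNilpotent_of_baseChange_eq_zero (hs : Function.Surjective (algebraMap A A'))
    (hn : IsNilpotent (RingHom.ker (algebraMap A A')))
    (φ : Module.End A M) (h : φ.baseChange A' = 0) : IsNilpotent φ := by
  obtain ⟨k, hk⟩ := hn
  exact ⟨k, pow_eq_zero_of_forall_mem_smul_top (by simpa using hk) φ
    (mem_smul_top_of_baseChange_eq_zero hs φ h)⟩

/-- An endomorphism whose base change is the identity is a unit. -/
theorem isUnit_of_baseChange_eq_one (hs : Function.Surjective (algebraMap A A'))
    (hn : IsNilpotent (RingHom.ker (algebraMap A A')))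
    (φ : Module.End A M) (h : φ.baseChange A' = 1) : IsUnit φ := by
  have h0 : (φ - 1).baseChange A' = 0 := by
    rw [LinearMap.baseChange_sub, h, LinearMap.baseChange_one]
    exact sub_self (1 : Module.End A' (A' ⊗[A] M))
  have := (isNilpotent_of_baseChange_eq_zero hs hn _ h0).isUnit_add_one
  simpa using this

/-- A linear map between projective modules whose base change along a surjection with nilpotent
kernel is bijective, is bijective. -/
theorem bijective_of_baseChange_bijective (hs : Function.Surjective (algebraMap A A'))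
    (hn : IsNilpotent (RingHom.ker (algebraMap A A')))
    [Module.Projective A M] [Module.Projective A N] (g : M →ₗ[A] N)
    (hg : Function.Bijective (g.baseChange A')) : Function.Bijective g := by
  let e' := LinearEquiv.ofBijective _ hg
  obtain ⟨h, hh⟩ := exists_baseChange_eq (M := N) (N := M) hs e'.symm.toLinearMap
  have h1 : (h ∘ₗ g : Module.End A M).baseChange A' = 1 := by
    rw [LinearMap.baseChange_comp, hh]
    apply LinearMap.ext
    intro z
    exact e'.symm_apply_apply z
  have h2 : (g ∘ₗ h : Module.End A N).baseChange A' = 1 := by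
    rw [LinearMap.baseChange_comp, hh]
    apply LinearMap.ext
    intro z
    exact e'.apply_symm_apply z
  have u1 := isUnit_of_baseChange_eq_one hs hn _ h1
  have u2 := isUnit_of_baseChange_eq_one hs hn _ h2
  rw [Module.End.isUnit_iff] at u1 u2
  constructor
  · exact Function.Injective.of_comp (f := h) (by simpa using u1.1)
  · exact Function.Surjective.of_comp (g := h) (by simpa using u2.2)

/-- Lifting linear equivalences between projective modules. -/
theorem exists_linearEquiv_baseChange_eq (hs : Function.Surjective (algebraMap A A'))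
    (hn : IsNilpotent (RingHom.ker (algebraMap A A')))
    [Module.Projective A M] [Module.Projective A N]
    (e' : A' ⊗[A] M ≃ₗ[A'] A' ⊗[A] N) :
    ∃ e : M ≃ₗ[A] N, (e : M →ₗ[A] N).baseChange A' = e' := by
  obtain ⟨g, hg⟩ := exists_baseChange_eq (M := M) (N := N) hs e'.toLinearMap
  have hb : Function.Bijective (g.baseChange A') := by
    rw [hg]; exact e'.bijective
  exact ⟨LinearEquiv.ofBijective g (bijective_of_baseChange_bijective hs hn g hb), by
    rw [← hg]; rfl⟩

/-- Idempotent endomorphisms of the base change of a projective module lift. -/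
theorem exists_isIdempotentElem_baseChange_eq (hs : Function.Surjective (algebraMap A A'))
    (hn : IsNilpotent (RingHom.ker (algebraMap A A'))) [Module.Projective A M]
    (e' : Module.End A' (A' ⊗[A] M)) (he' : IsIdempotentElem e') :
    ∃ e : Module.End A M, IsIdempotentElem e ∧ e.baseChange A' = e' := by
  have key : ∀ x : Module.End A M,
      (Module.End.baseChangeHom A A' M).toRingHom x = x.baseChange A' := fun x => rfl
  have := exists_isIdempotentElem_eq_of_ker_isNilpotent
    (Module.End.baseChangeHom A A' M).toRingHom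
    (fun x hx => isNilpotent_of_baseChange_eq_zero hs hn x (by
      rw [RingHom.mem_ker, key] at hx; exact hx))
    e' (by
      obtain ⟨g, hg⟩ := exists_baseChange_eq (M := M) (N := M) hs e'
      exact ⟨g, by rw [key]; exact hg⟩) he'
  obtain ⟨e, he, hee⟩ := this
  exact ⟨e, he, by rw [key] at hee; exact hee⟩

/-- The range of an idempotent endomorphism of a projective module is projective. -/
theorem projective_range_of_isIdempotentElem [Module.Projective A M]
    (e : Module.End A M) (he : IsIdempotentElem e) : Module.Projective A (LinearMap.range e) := by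
  refine Module.Projective.of_split (LinearMap.range e).subtype e.rangeRestrict ?_
  ext ⟨x, y, rfl⟩
  simp only [LinearMap.coe_comp, Function.comp_apply, Submodule.subtype_apply,
    LinearMap.id_coe, id_eq]
  show e (e y) = e y
  rw [← Module.End.mul_apply, he.eq]

/-- If `P'` is a retract of `A' ⊗ M` whose associated idempotent is the base change of the
idempotent `e`, then `A' ⊗ range e ≃ P'`. -/
noncomputable def baseChangeRangeEquiv {P' : Type w'} [AddCommGroup P'] [Module A' P']
    (e : Module.End A M) (he : IsIdempotentElem e)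
    (s' : P' →ₗ[A'] A' ⊗[A] M) (π' : A' ⊗[A] M →ₗ[A'] P')
    (h1 : π' ∘ₗ s' = LinearMap.id) (h2 : s' ∘ₗ π' = e.baseChange A') :
    A' ⊗[A] (LinearMap.range e) ≃ₗ[A'] P' :=
  LinearEquiv.ofLinearMap (π' ∘ₗ (LinearMap.range e).subtype.baseChange A')
    (e.rangeRestrict.baseChange A' ∘ₗ s')
    (by
      have : (LinearMap.range e).subtype ∘ₗ e.rangeRestrict = e := by
        ext x; rfl
      calc (π' ∘ₗ (LinearMap.range e).subtype.baseChange A') ∘ₗ
            (e.rangeRestrict.baseChange A' ∘ₗ s')
          = π' ∘ₗ (((LinearMap.range e).subtype ∘ₗ e.rangeRestrict).baseChange A') ∘ₗ s' := by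
            rw [LinearMap.baseChange_comp]; rfl
        _ = π' ∘ₗ (s' ∘ₗ π') ∘ₗ s' := by rw [this, h2]
        _ = (π' ∘ₗ s') ∘ₗ (π' ∘ₗ s') := rfl
        _ = LinearMap.id := by rw [h1]; rfl)
    (by
      have hri : e.rangeRestrict ∘ₗ (LinearMap.range e).subtype = LinearMap.id := by
        ext ⟨x, y, rfl⟩
        show e (e y) = e y
        rw [← Module.End.mul_apply, he.eq]
      have hir : (LinearMap.range e).subtype ∘ₗ e.rangeRestrict = e := by
        ext x; rfl
      calc (e.rangeRestrict.baseChange A' ∘ₗ s') ∘ₗ
            (π' ∘ₗ (LinearMap.range e).subtype.baseChange A')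
          = e.rangeRestrict.baseChange A' ∘ₗ (s' ∘ₗ π') ∘ₗ
              (LinearMap.range e).subtype.baseChange A' := rfl
        _ = e.rangeRestrict.baseChange A' ∘ₗ
              (((LinearMap.range e).subtype ∘ₗ e.rangeRestrict).baseChange A') ∘ₗ
              (LinearMap.range e).subtype.baseChange A' := by rw [h2, hir]
        _ = ((e.rangeRestrict ∘ₗ (LinearMap.range e).subtype).baseChange A') ∘ₗ
              ((e.rangeRestrict ∘ₗ (LinearMap.range e).subtype).baseChange A') := by
            simp only [LinearMap.baseChange_comp]; rfl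
        _ = LinearMap.id := by rw [hri]; simp)

/-- Finitely generated projective modules lift along surjections with nilpotent kernel. -/
theorem exists_finite_projective_lift (hs : Function.Surjective (algebraMap A A'))
    (hn : IsNilpotent (RingHom.ker (algebraMap A A')))
    (P' : Type w') [AddCommGroup P'] [Module A' P'] [Module.Finite A' P']
    [Module.Projective A' P'] :
    ∃ (n : ℕ) (P : Submodule A (Fin n → A)), Module.Projective A P ∧ Module.Finite A P ∧
      Nonempty (A' ⊗[A] P ≃ₗ[A'] P') := by
  classical
  obtain ⟨n, π₀, hπ₀⟩ := Module.Finite.exists_fin' A' P'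
  obtain ⟨s₀, hs₀⟩ := Module.projective_lifting_property π₀ LinearMap.id hπ₀
  let φ : A' ⊗[A] (Fin n → A) ≃ₗ[A'] (Fin n → A') := TensorProduct.piScalarRight A A' A' (Fin n)
  let π' : A' ⊗[A] (Fin n → A) →ₗ[A'] P' := π₀ ∘ₗ φ.toLinearMap
  let s' : P' →ₗ[A'] A' ⊗[A] (Fin n → A) := φ.symm.toLinearMap ∘ₗ s₀
  have h1 : π' ∘ₗ s' = LinearMap.id := by
    ext x
    simp only [π', s', LinearMap.coe_comp, LinearEquiv.coe_coe, Function.comp_apply,
      LinearEquiv.apply_symm_apply, LinearMap.id_coe, id_eq]
    exact LinearMap.congr_fun hs₀ x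
  have hidem : IsIdempotentElem (s' ∘ₗ π' : Module.End A' (A' ⊗[A] (Fin n → A))) := by
    show (s' ∘ₗ π') ∘ₗ (s' ∘ₗ π') = s' ∘ₗ π'
    calc (s' ∘ₗ π') ∘ₗ (s' ∘ₗ π') = s' ∘ₗ (π' ∘ₗ s') ∘ₗ π' := rfl
      _ = s' ∘ₗ π' := by rw [h1]; rfl
  obtain ⟨e, he, hee⟩ := exists_isIdempotentElem_baseChange_eq hs hn _ hidem
  refine ⟨n, LinearMap.range e, projective_range_of_isIdempotentElem e he, ?_, ?_⟩
  · exact Module.Finite.range e
  · exact ⟨baseChangeRangeEquiv e he s' π' h1 hee.symm⟩

/-- A projective module whose base change along a surjection with nilpotent kernel is invertible,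
is invertible. -/
theorem invertible_of_baseChange_invertible (hs : Function.Surjective (algebraMap A A'))
    (hn : IsNilpotent (RingHom.ker (algebraMap A A')))
    [Module.Projective A M] [Module.Invertible A' (A' ⊗[A] M)] : Module.Invertible A M := by
  obtain ⟨n, D, hDp, hDf, ⟨ψ⟩⟩ := exists_finite_projective_lift hs hn
    (Module.Dual A' (A' ⊗[A] M))
  have e' : A' ⊗[A] (D ⊗[A] M) ≃ₗ[A'] A' ⊗[A] A :=
    (AlgebraTensorModule.distribBaseChange A A' D M) ≪≫ₗ
      (TensorProduct.congr ψ (LinearEquiv.refl A' (A' ⊗[A] M))) ≪≫ₗ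
      (Module.Invertible.linearEquiv A' (A' ⊗[A] M)) ≪≫ₗ
      (AlgebraTensorModule.rid A A' A').symm
  obtain ⟨e, -⟩ := exists_linearEquiv_baseChange_eq (M := D ⊗[A] M) (N := A) hs hn e'
  exact Module.Invertible.right e

/-- Invertible modules lift along surjections with nilpotent kernel. -/
theorem exists_invertible_lift (hs : Function.Surjective (algebraMap A A'))
    (hn : IsNilpotent (RingHom.ker (algebraMap A A')))
    (L' : Type w') [AddCommGroup L'] [Module A' L'] [Module.Invertible A' L'] :
    ∃ (n : ℕ) (L : Submodule A (Fin n → A)), Module.Invertible A L ∧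
      Nonempty (A' ⊗[A] L ≃ₗ[A'] L') := by
  obtain ⟨n, L, hLp, hLf, ⟨ψ⟩⟩ := exists_finite_projective_lift hs hn L'
  have : Module.Invertible A' (A' ⊗[A] L) := Module.Invertible.congr ψ.symm
  exact ⟨n, L, invertible_of_baseChange_invertible hs hn, ⟨ψ⟩⟩

end Basic

section IsBaseChangeForms

variable {A : Type u} {A' : Type v} [CommRing A] [CommRing A'] [Algebra A A']
variable {M : Type w} [AddCommGroup M] [Module A M]
variable {N : Type w'} [AddCommGroup N] [Module A N]
variable {M' : Type x} [AddCommGroup M'] [Module A M'] [Module A' M'] [IsScalarTower A A' M']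
variable {N' : Type x'} [AddCommGroup N'] [Module A N'] [Module A' N'] [IsScalarTower A A' N']

/-- `IsBaseChange` form of `exists_baseChange_eq`. -/
theorem exists_linearMap_of_isBaseChange (hs : Function.Surjective (algebraMap A A'))
    [Module.Projective A M] {fM : M →ₗ[A] M'} {fN : N →ₗ[A] N'}
    (hM : IsBaseChange A' fM) (hN : IsBaseChange A' fN) (g' : M' →ₗ[A'] N') :
    ∃ g : M →ₗ[A] N, ∀ m, fN (g m) = g' (fM m) := by
  obtain ⟨g, hg⟩ := exists_baseChange_eq (M := M) (N := N) hs
    (hN.equiv.symm.toLinearMap ∘ₗ g' ∘ₗ hM.equiv.toLinearMap)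
  refine ⟨g, fun m => ?_⟩
  have := LinearMap.congr_fun hg (1 ⊗ₜ m)
  simp only [LinearMap.baseChange_tmul, LinearMap.coe_comp, LinearEquiv.coe_coe,
    Function.comp_apply, IsBaseChange.equiv_tmul, one_smul] at this
  have h2 := congrArg hN.equiv this
  simpa [IsBaseChange.equiv_tmul] using h2

/-- `IsBaseChange` form of `exists_linearEquiv_baseChange_eq`. -/
theorem exists_linearEquiv_of_isBaseChange (hs : Function.Surjective (algebraMap A A'))
    (hn : IsNilpotent (RingHom.ker (algebraMap A A')))
    [Module.Projective A M] [Module.Projective A N] {fM : M →ₗ[A] M'} {fN : N →ₗ[A] N'}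
    (hM : IsBaseChange A' fM) (hN : IsBaseChange A' fN) (e' : M' ≃ₗ[A'] N') :
    ∃ e : M ≃ₗ[A] N, ∀ m, fN (e m) = e' (fM m) := by
  obtain ⟨e, he⟩ := exists_linearEquiv_baseChange_eq (M := M) (N := N) hs hn
    (hM.equiv ≪≫ₗ e' ≪≫ₗ hN.equiv.symm)
  refine ⟨e, fun m => ?_⟩
  have := LinearMap.congr_fun he (1 ⊗ₜ m)
  simp only [LinearMap.baseChange_tmul, LinearEquiv.coe_coe, LinearEquiv.trans_apply,
    IsBaseChange.equiv_tmul, one_smul] at this
  have h2 := congrArg hN.equiv this
  simpa [IsBaseChange.equiv_tmul] using h2

/-- `IsBaseChange` form of `invertible_of_baseChange_invertible`. -/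
theorem invertible_of_isBaseChange (hs : Function.Surjective (algebraMap A A'))
    (hn : IsNilpotent (RingHom.ker (algebraMap A A')))
    [Module.Projective A M] {fM : M →ₗ[A] M'} (hM : IsBaseChange A' fM)
    [Module.Invertible A' M'] : Module.Invertible A M := by
  have : Module.Invertible A' (A' ⊗[A] M) := Module.Invertible.congr hM.equiv.symm
  exact invertible_of_baseChange_invertible hs hn

end IsBaseChangeForms

section Quotient

variable {A : Type u} [CommRing A] (I : Ideal A)

theorem surjective_algebraMap_quotient : Function.Surjective (algebraMap A (A ⧸ I)) :=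
  Ideal.Quotient.mk_surjective

theorem isNilpotent_ker_algebraMap_quotient (hI : IsNilpotent I) :
    IsNilpotent (RingHom.ker (algebraMap A (A ⧸ I))) := by
  have : RingHom.ker (algebraMap A (A ⧸ I)) = I := Ideal.mk_ker
  rw [this]; exact hI

/-- A square-zero ideal is nilpotent. -/
theorem isNilpotent_of_sq_eq_bot (hI : I ^ 2 = ⊥) : IsNilpotent I := ⟨2, by simpa using hI⟩

end Quotient

section TensorAlgebra

variable {k : Type u} {B : Type v} {R : Type w} {R' : Type w'}
  [CommRing k] [CommRing B] [CommRing R] [CommRing R']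
  [Algebra k B] [Algebra k R] [Algebra k R']

/-- `B ⊗[k] R → B ⊗[k] R'` is surjective when `R → R'` is. -/
theorem surjective_map_id (f : R →ₐ[k] R') (hf : Function.Surjective f) :
    Function.Surjective (Algebra.TensorProduct.map (AlgHom.id k B) f) :=
  Algebra.TensorProduct.map_surjective (AlgHom.id k B) f Function.surjective_id hf

/-- The kernel of `B ⊗[k] R → B ⊗[k] R'` is nilpotent when the kernel of the surjection
`R → R'` is. -/
theorem isNilpotent_ker_map_id (f : R →ₐ[k] R') (hf : Function.Surjective f)
    (hn : IsNilpotent (RingHom.ker f)) :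
    IsNilpotent (RingHom.ker (Algebra.TensorProduct.map (AlgHom.id k B) f)) := by
  rw [Algebra.TensorProduct.lTensor_ker (A := B) f hf]
  obtain ⟨n, hn⟩ := hn
  refine ⟨n, ?_⟩
  rw [← Ideal.map_pow, hn]
  simp

end TensorAlgebra

end Fermat.Agent.Jac.LiftNilp85
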