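import Mathlib
import Fermat.Agent.Jac.Core
import Fermat.Agent.Jac.LiftNilp85

/-!
# JAC brick Q1 (Smooth), algebra core  (helper85)

Formal smoothness of the Picard functor in the two-chart model: line bundles (`QC2` with `IsLine`)
and rigidifications lift along surjections with nilpotent kernel.

* `GlueLift`, `nonempty_glueLift` : generic statement for rings `R0 → R01 ← R1` over
  `R0' → R01' ← R1'` (vertical maps surjective with nilpotent kernels): a gluing datum of
  invertible modules over the primed rings lifts, with base-change maps (Mathlib `IsBaseChange`).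
* `LiftData L L'` : tensor-form relation "`L'` is the chartwise base change of `L`".
* `exists_lift_line` : every `L' : QC2 A' R0' R1' R01'` with `IsLine` is the chartwise base change
  of some `L : QC2 A R0 R1 R01` with `IsLine`.
* `pullbackCompare`, `exists_rigidification_lift` : if the pullback of `N'` along a section
  `R' → A'` is free of rank one then so is the pullback of the lifted module along `R → A`.
-/

open TensorProduct

namespace Fermat.Agent.Jac.JSmooth85Alg

set_option linter.style.haveILetI false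
set_option linter.unusedSectionVars false

universe u

section GlueLift

variable {R0 R1 R01 R0' R1' R01' : Type u}
  [CommRing R0] [CommRing R1] [CommRing R01] [CommRing R0'] [CommRing R1'] [CommRing R01']
  [Algebra R0 R01] [Algebra R1 R01] [Algebra R0' R01'] [Algebra R1' R01']
  [Algebra R0 R0'] [Algebra R1 R1'] [Algebra R01 R01']
  [Algebra R0 R01'] [Algebra R1 R01']
  [IsScalarTower R0 R0' R01'] [IsScalarTower R0 R01 R01']
  [IsScalarTower R1 R1' R01'] [IsScalarTower R1 R01 R01']

variable {N0' N1' N01' : Type u} [AddCommGroup N0'] [AddCommGroup N1'] [AddCommGroup N01']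
  [Module R0' N0'] [Module R0 N0'] [IsScalarTower R0 R0' N0']
  [Module R1' N1'] [Module R1 N1'] [IsScalarTower R1 R1' N1']
  [Module R01' N01'] [Module R0' N01'] [Module R1' N01']
  [IsScalarTower R0' R01' N01'] [IsScalarTower R1' R01' N01']
  [Module R01 N01'] [Module R0 N01'] [Module R1 N01']
  [IsScalarTower R01 R01' N01']
  [IsScalarTower R0 R01 N01'] [IsScalarTower R0 R0' N01'] [IsScalarTower R0 R01' N01']
  [IsScalarTower R1 R01 N01'] [IsScalarTower R1 R1' N01'] [IsScalarTower R1 R01' N01']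

/-- Output of the lifting construction: a gluing datum of invertible modules over the unprimed
rings together with base-change maps to the given primed gluing datum. -/
structure GlueLift (R0 R1 R01 R01' : Type u) {R0' R1' : Type u}
    [CommRing R0] [CommRing R1] [CommRing R01] [CommRing R0'] [CommRing R1'] [CommRing R01']
    [Algebra R0 R01] [Algebra R1 R01]
    [Algebra R0 R0'] [Algebra R1 R1'] [Algebra R01 R01']
    {N0' N1' N01' : Type u} [AddCommGroup N0'] [AddCommGroup N1'] [AddCommGroup N01']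
    [Module R0' N0'] [Module R0 N0'] [IsScalarTower R0 R0' N0']
    [Module R1' N1'] [Module R1 N1'] [IsScalarTower R1 R1' N1']
    [Module R01' N01'] [Module R0' N01'] [Module R1' N01']
    [Module R01 N01'] [IsScalarTower R01 R01' N01']
    (r0' : N0' →ₗ[R0'] N01') (r1' : N1' →ₗ[R1'] N01') where
  N0 : Type u
  N1 : Type u
  N01 : Type u
  [acg0 : AddCommGroup N0] [acg1 : AddCommGroup N1] [acg01 : AddCommGroup N01]
  [mod0 : Module R0 N0] [mod1 : Module R1 N1] [mod01 : Module R01 N01]
  [mod001 : Module R0 N01] [mod101 : Module R1 N01]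
  [tower0 : IsScalarTower R0 R01 N01] [tower1 : IsScalarTower R1 R01 N01]
  r0 : N0 →ₗ[R0] N01
  r1 : N1 →ₗ[R1] N01
  bc0 : IsBaseChange R01 r0
  bc1 : IsBaseChange R01 r1
  inv0 : Module.Invertible R0 N0
  inv1 : Module.Invertible R1 N1
  f0 : N0 →ₗ[R0] N0'
  f1 : N1 →ₗ[R1] N1'
  f01 : N01 →ₗ[R01] N01'
  fbc0 : IsBaseChange R0' f0
  fbc1 : IsBaseChange R1' f1
  fbc01 : IsBaseChange R01' f01
  comm0 : ∀ x, f01 (r0 x) = r0' (f0 x)
  comm1 : ∀ x, f01 (r1 x) = r1' (f1 x)

attribute [instance] GlueLift.acg0 GlueLift.acg1 GlueLift.acg01 GlueLift.mod0 GlueLift.mod1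
  GlueLift.mod01 GlueLift.mod001 GlueLift.mod101 GlueLift.tower0 GlueLift.tower1

theorem nonempty_glueLift
    (h0 : Function.Surjective (algebraMap R0 R0'))
    (n0 : IsNilpotent (RingHom.ker (algebraMap R0 R0')))
    (h1 : Function.Surjective (algebraMap R1 R1'))
    (n1 : IsNilpotent (RingHom.ker (algebraMap R1 R1')))
    (h01 : Function.Surjective (algebraMap R01 R01'))
    (n01 : IsNilpotent (RingHom.ker (algebraMap R01 R01')))
    [Module.Invertible R0' N0'] [Module.Invertible R1' N1']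
    (r0' : N0' →ₗ[R0'] N01') (r1' : N1' →ₗ[R1'] N01')
    (bc0' : IsBaseChange R01' r0') (bc1' : IsBaseChange R01' r1') :
    Nonempty (GlueLift R0 R1 R01 R01' r0' r1') := by
  classical
  -- lift the two chart modules
  obtain ⟨m0, N0, hN0, ⟨ψ0⟩⟩ := LiftNilp85.exists_invertible_lift h0 n0 N0'
  obtain ⟨m1, N1, hN1, ⟨ψ1⟩⟩ := LiftNilp85.exists_invertible_lift h1 n1 N1'
  let f0 : N0 →ₗ[R0] N0' := (ψ0.toLinearMap.restrictScalars R0) ∘ₗ (TensorProduct.mk R0 R0' N0 1)
  have fbc0 : IsBaseChange R0' f0 := IsBaseChange.of_equiv ψ0 (fun x => rfl)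
  let f1 : N1 →ₗ[R1] N1' := (ψ1.toLinearMap.restrictScalars R1) ∘ₗ (TensorProduct.mk R1 R1' N1 1)
  have fbc1 : IsBaseChange R1' f1 := IsBaseChange.of_equiv ψ1 (fun x => rfl)
  -- the overlap module
  let N01 := R01 ⊗[R0] N0
  have tower1 : IsScalarTower R1 R01 N01 := inferInstance
  let r0 : N0 →ₗ[R0] N01 := TensorProduct.mk R0 R01 N0 1
  have bc0 : IsBaseChange R01 r0 := TensorProduct.isBaseChange R0 N0 R01
  let f01 : N01 →ₗ[R01] N01' := bc0.lift ((r0'.restrictScalars R0) ∘ₗ f0)
  have comm0 : ∀ x, f01 (r0 x) = r0' (f0 x) := fun x => bc0.lift_eq _ x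
  have fbc01 : IsBaseChange R01' f01 := by
    apply IsBaseChange.of_comp bc0
    have : (f01.restrictScalars R0) ∘ₗ r0 = (r0'.restrictScalars R0) ∘ₗ f0 := bc0.lift_comp _
    rw [this]
    exact IsBaseChange.comp fbc0 bc0'
  -- the second restriction map
  let P1 := R01 ⊗[R1] N1
  let g1 : N1 →ₗ[R1] P1 := TensorProduct.mk R1 R01 N1 1
  have bcg1 : IsBaseChange R01 g1 := TensorProduct.isBaseChange R1 N1 R01
  let k1 : P1 →ₗ[R01] N01' := bcg1.lift ((r1'.restrictScalars R1) ∘ₗ f1)
  have hk1 : ∀ x, k1 (g1 x) = r1' (f1 x) := fun x => bcg1.lift_eq _ x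
  have kbc1 : IsBaseChange R01' k1 := by
    apply IsBaseChange.of_comp bcg1
    have : (k1.restrictScalars R1) ∘ₗ g1 = (r1'.restrictScalars R1) ∘ₗ f1 := bcg1.lift_comp _
    rw [this]
    exact IsBaseChange.comp fbc1 bc1'
  obtain ⟨e, he⟩ := LiftNilp85.exists_linearEquiv_of_isBaseChange h01 n01 kbc1 fbc01
    (LinearEquiv.refl R01' N01')
  let r1 : N1 →ₗ[R1] N01 := (e.toLinearMap.restrictScalars R1) ∘ₗ g1
  have bc1 : IsBaseChange R01 r1 := IsBaseChange.of_equiv e (fun x => rfl)
  have comm1 : ∀ x, f01 (r1 x) = r1' (f1 x) := fun x => by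
    have := he (g1 x)
    simp only [LinearEquiv.refl_apply] at this
    rw [← hk1 x, ← this]
    rfl
  exact ⟨{ N0 := N0, N1 := N1, N01 := N01, r0 := r0, r1 := r1, bc0 := bc0, bc1 := bc1,
           inv0 := hN0, inv1 := hN1, f0 := f0, f1 := f1, f01 := f01,
           fbc0 := fbc0, fbc1 := fbc1, fbc01 := fbc01, comm0 := comm0, comm1 := comm1 }⟩

end GlueLift

section QC2Lift

variable {A R0 R1 R01 A' R0' R1' R01' : Type u}
  [CommRing A] [CommRing R0] [CommRing R1] [CommRing R01]
  [Algebra A R0] [Algebra A R1] [Algebra A R01] [Algebra R0 R01] [Algebra R1 R01]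
  [IsScalarTower A R0 R01] [IsScalarTower A R1 R01]
  [CommRing A'] [CommRing R0'] [CommRing R1'] [CommRing R01']
  [Algebra A' R0'] [Algebra A' R1'] [Algebra A' R01'] [Algebra R0' R01'] [Algebra R1' R01']
  [IsScalarTower A' R0' R01'] [IsScalarTower A' R1' R01']
  [Algebra R0 R0'] [Algebra R1 R1'] [Algebra R01 R01']

/-- `L'` is (isomorphic to) the chartwise base change of `L` along `R0 → R0'`, `R1 → R1'`,
`R01 → R01'` (tensor form; no module structures over the unprimed rings on `L'` needed). -/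
structure LiftData (L : QC2 A R0 R1 R01) (L' : QC2 A' R0' R1' R01') where
  e0 : R0' ⊗[R0] L.N0 ≃ₗ[R0'] L'.N0
  e1 : R1' ⊗[R1] L.N1 ≃ₗ[R1'] L'.N1
  e01 : R01' ⊗[R01] L.N01 ≃ₗ[R01'] L'.N01
  comm0 : ∀ x, e01 (1 ⊗ₜ L.r0 x) = L'.r0 (e0 (1 ⊗ₜ x))
  comm1 : ∀ x, e01 (1 ⊗ₜ L.r1 x) = L'.r1 (e1 (1 ⊗ₜ x))

theorem exists_lift_line
    (hc0 : (algebraMap R0' R01').comp (algebraMap R0 R0') =
      (algebraMap R01 R01').comp (algebraMap R0 R01))
    (hc1 : (algebraMap R1' R01').comp (algebraMap R1 R1') =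
      (algebraMap R01 R01').comp (algebraMap R1 R01))
    (h0 : Function.Surjective (algebraMap R0 R0'))
    (n0 : IsNilpotent (RingHom.ker (algebraMap R0 R0')))
    (h1 : Function.Surjective (algebraMap R1 R1'))
    (n1 : IsNilpotent (RingHom.ker (algebraMap R1 R1')))
    (h01 : Function.Surjective (algebraMap R01 R01'))
    (n01 : IsNilpotent (RingHom.ker (algebraMap R01 R01')))
    (L' : QC2 A' R0' R1' R01') (hL' : L'.IsLine) :
    ∃ L : QC2 A R0 R1 R01, L.IsLine ∧ Nonempty (LiftData L L') := by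
  -- ring-level plumbing
  letI alg0 : Algebra R0 R01' := ((algebraMap R01 R01').comp (algebraMap R0 R01)).toAlgebra
  letI alg1 : Algebra R1 R01' := ((algebraMap R01 R01').comp (algebraMap R1 R01)).toAlgebra
  haveI t0a : IsScalarTower R0 R01 R01' := IsScalarTower.of_algebraMap_eq (fun x => rfl)
  haveI t1a : IsScalarTower R1 R01 R01' := IsScalarTower.of_algebraMap_eq (fun x => rfl)
  haveI t0b : IsScalarTower R0 R0' R01' :=
    IsScalarTower.of_algebraMap_eq (fun x => (RingHom.congr_fun hc0 x).symm)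
  haveI t1b : IsScalarTower R1 R1' R01' :=
    IsScalarTower.of_algebraMap_eq (fun x => (RingHom.congr_fun hc1 x).symm)
  -- module-level plumbing on the primed modules
  letI m0 : Module R0 L'.N0 := Module.compHom L'.N0 (algebraMap R0 R0')
  haveI : IsScalarTower R0 R0' L'.N0 := IsScalarTower.of_algebraMap_smul (fun r x => rfl)
  letI m1 : Module R1 L'.N1 := Module.compHom L'.N1 (algebraMap R1 R1')
  haveI : IsScalarTower R1 R1' L'.N1 := IsScalarTower.of_algebraMap_smul (fun r x => rfl)
  letI m01 : Module R01 L'.N01 := Module.compHom L'.N01 (algebraMap R01 R01')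
  haveI : IsScalarTower R01 R01' L'.N01 := IsScalarTower.of_algebraMap_smul (fun r x => rfl)
  letI m001 : Module R0 L'.N01 := Module.compHom L'.N01 (algebraMap R0 R01')
  haveI : IsScalarTower R0 R01' L'.N01 := IsScalarTower.of_algebraMap_smul (fun r x => rfl)
  haveI : IsScalarTower R0 R01 L'.N01 := IsScalarTower.of_algebraMap_smul (fun r x => rfl)
  haveI : IsScalarTower R0 R0' L'.N01 := IsScalarTower.of_algebraMap_smul (fun r x => by
    rw [← algebraMap_smul R01' (algebraMap R0 R0' r) x]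
    show (algebraMap R0' R01') ((algebraMap R0 R0') r) • x = (algebraMap R0 R01' r) • x
    rw [← IsScalarTower.algebraMap_apply R0 R0' R01'])
  letI m101 : Module R1 L'.N01 := Module.compHom L'.N01 (algebraMap R1 R01')
  haveI : IsScalarTower R1 R01' L'.N01 := IsScalarTower.of_algebraMap_smul (fun r x => rfl)
  haveI : IsScalarTower R1 R01 L'.N01 := IsScalarTower.of_algebraMap_smul (fun r x => rfl)
  haveI : IsScalarTower R1 R1' L'.N01 := IsScalarTower.of_algebraMap_smul (fun r x => by
    rw [← algebraMap_smul R01' (algebraMap R1 R1' r) x]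
    show (algebraMap R1' R01') ((algebraMap R1 R1') r) • x = (algebraMap R1 R01' r) • x
    rw [← IsScalarTower.algebraMap_apply R1 R1' R01'])
  haveI := hL'.inv0
  haveI := hL'.inv1
  obtain ⟨G⟩ := nonempty_glueLift (R0 := R0) (R1 := R1) (R01 := R01) h0 n0 h1 n1 h01 n01
    L'.r0 L'.r1 L'.bc0 L'.bc1
  -- `A`-module structures on the lifted modules
  letI a0 : Module A G.N0 := Module.compHom G.N0 (algebraMap A R0)
  haveI : IsScalarTower A R0 G.N0 := IsScalarTower.of_algebraMap_smul (fun r x => rfl)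
  letI a1 : Module A G.N1 := Module.compHom G.N1 (algebraMap A R1)
  haveI : IsScalarTower A R1 G.N1 := IsScalarTower.of_algebraMap_smul (fun r x => rfl)
  letI a01 : Module A G.N01 := Module.compHom G.N01 (algebraMap A R01)
  haveI : IsScalarTower A R01 G.N01 := IsScalarTower.of_algebraMap_smul (fun r x => rfl)
  haveI : IsScalarTower A R0 G.N01 := IsScalarTower.of_algebraMap_smul (fun r x => by
    rw [← algebraMap_smul R01 (algebraMap A R0 r) x]
    show (algebraMap R0 R01) ((algebraMap A R0) r) • x = (algebraMap A R01 r) • x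
    rw [← IsScalarTower.algebraMap_apply A R0 R01])
  haveI : IsScalarTower A R1 G.N01 := IsScalarTower.of_algebraMap_smul (fun r x => by
    rw [← algebraMap_smul R01 (algebraMap A R1 r) x]
    show (algebraMap R1 R01) ((algebraMap A R1) r) • x = (algebraMap A R01 r) • x
    rw [← IsScalarTower.algebraMap_apply A R1 R01])
  let L : QC2 A R0 R1 R01 :=
    { N0 := G.N0, N1 := G.N1, N01 := G.N01, r0 := G.r0, r1 := G.r1, bc0 := G.bc0, bc1 := G.bc1 }
  refine ⟨L, ⟨G.inv0, G.inv1⟩, ⟨?_⟩⟩
  exact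
    { e0 := G.fbc0.equiv
      e1 := G.fbc1.equiv
      e01 := G.fbc01.equiv
      comm0 := fun x => by
        rw [IsBaseChange.equiv_tmul, IsBaseChange.equiv_tmul, one_smul, one_smul]
        exact G.comm0 x
      comm1 := fun x => by
        rw [IsBaseChange.equiv_tmul, IsBaseChange.equiv_tmul, one_smul, one_smul]
        exact G.comm1 x }

end QC2Lift

section Rigid

variable {A A' R R' : Type u} [CommRing A] [CommRing A'] [CommRing R] [CommRing R']
  [Algebra A A'] [Algebra R R'] [Algebra R A] [Algebra R' A'] [Algebra R A']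
  [IsScalarTower R A A'] [IsScalarTower R R' A']
variable {N N' : Type u} [AddCommGroup N] [Module R N] [AddCommGroup N'] [Module R' N']

/-- The comparison isomorphism `A' ⊗[A] (A ⊗[R] N) ≃ A' ⊗[R'] N'` induced by an identification
`R' ⊗[R] N ≃ N'` (sections `R → A`, `R' → A'` compatible with `R → R'`, `A → A'`). -/
noncomputable def pullbackCompare (e : R' ⊗[R] N ≃ₗ[R'] N') :
    A' ⊗[A] (A ⊗[R] N) ≃ₗ[A'] A' ⊗[R'] N' :=
  (AlgebraTensorModule.cancelBaseChange R A A' A' N) ≪≫ₗ
    (AlgebraTensorModule.cancelBaseChange R R' A' A' N).symm ≪≫ₗ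
    (AlgebraTensorModule.congr (LinearEquiv.refl A' A') e)

theorem pullbackCompare_tmul (e : R' ⊗[R] N ≃ₗ[R'] N') (n : N) :
    pullbackCompare (A := A) (A' := A') e (1 ⊗ₜ (1 ⊗ₜ n)) = 1 ⊗ₜ e (1 ⊗ₜ n) := by
  simp [pullbackCompare]

/-- Rigidifiability lifts: if the pullback of `N'` along `R' → A'` is free of rank one, then so is
the pullback of the invertible lift `N` along `R → A`. -/
theorem exists_rigidification_lift
    (hs : Function.Surjective (algebraMap A A'))
    (hn : IsNilpotent (RingHom.ker (algebraMap A A')))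
    [Module.Invertible R N] (e : R' ⊗[R] N ≃ₗ[R'] N') (ρ' : A' ⊗[R'] N' ≃ₗ[A'] A') :
    ∃ ρ : A ⊗[R] N ≃ₗ[A] A, ∀ n : N,
      algebraMap A A' (ρ (1 ⊗ₜ n)) = ρ' (1 ⊗ₜ e (1 ⊗ₜ n)) := by
  let E : A' ⊗[A] (A ⊗[R] N) ≃ₗ[A'] A' ⊗[A] A :=
    (pullbackCompare (A := A) (A' := A') e) ≪≫ₗ ρ' ≪≫ₗ (AlgebraTensorModule.rid A A' A').symm
  obtain ⟨ρ, hρ⟩ := LiftNilp85.exists_linearEquiv_baseChange_eq
    (M := A ⊗[R] N) (N := A) hs hn E
  refine ⟨ρ, fun n => ?_⟩
  have := LinearMap.congr_fun hρ (1 ⊗ₜ (1 ⊗ₜ n))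
  simp only [LinearMap.baseChange_tmul, LinearEquiv.coe_coe, E, LinearEquiv.trans_apply,
    pullbackCompare_tmul] at this
  have h2 := congrArg (AlgebraTensorModule.rid A A' A') this
  simp only [LinearEquiv.apply_symm_apply] at h2
  rw [← h2]
  simp [Algebra.smul_def]

end Rigid

end Fermat.Agent.Jac.JSmooth85Alg
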