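/-
Fermat/Agent/Jac/P1CohH1.lean  (helper42, brick A1a of programme JAC / S25)

First cohomology of a two-chart module `L : QC2 A R0 R1 R01` over a two-chart ring
`c : TwoChart A R0 R1 R01` which is finite over the projective line:

* `finite_H1` (T1): `L.FiniteOverLine c → Module.Finite A L.H1`;
* `H1BCEquiv` (T2): `A' ⊗[A] L.H1 ≃ₗ[A'] L.H1BC A'` (right exactness of base change);
* `subsingleton_H1_of_forall_maximal` (T3): fibrewise vanishing at all closed points implies
  vanishing (Nakayama);
* `isOpen_setOf_subsingleton_H1BC_residueField` (T4): the vanishing locus of the fibrewise `H¹`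
  is open in `Spec A`;
* `subsingleton_H1BC` (T4'): `H¹ = 0` implies `H¹ = 0` after every base change.
-/
import Fermat.Agent.Jac.Core

set_option autoImplicit false
set_option linter.unusedSectionVars false

universe u

open TensorProduct Polynomial

namespace Fermat.Agent.Jac.P1CohH1

noncomputable section

/-! ### Generic module lemmas -/

section Generic

variable {A : Type u} [CommRing A] {M N : Type u} [AddCommGroup M] [AddCommGroup N]
  [Module A M] [Module A N]

/-- Right exactness of base change: `A' ⊗ coker f ≃ coker (A' ⊗ f)`, as `A'`-modules. -/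
def cokerBaseChangeEquiv (f : M →ₗ[A] N) (A' : Type u) [CommRing A'] [Algebra A A'] :
    (A' ⊗[A] (N ⧸ LinearMap.range f)) ≃ₗ[A']
      (A' ⊗[A] N) ⧸ LinearMap.range (f.baseChange A') := by
  let q : A' ⊗[A] N →ₗ[A'] A' ⊗[A] (N ⧸ LinearMap.range f) :=
    (LinearMap.range f).mkQ.baseChange A'
  have hq : Function.Surjective q := by
    have := LinearMap.lTensor_surjective A' (Submodule.mkQ_surjective (LinearMap.range f))
    intro y
    obtain ⟨x, hx⟩ := this y
    exact ⟨x, by rw [← hx]; rfl⟩
  have hex : Function.Exact f (LinearMap.range f).mkQ := by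
    intro y
    rw [Submodule.mkQ_apply, Submodule.Quotient.mk_eq_zero]
    rfl
  have hker : LinearMap.ker q = LinearMap.range (f.baseChange A') := by
    have h := lTensor_exact A' hex (Submodule.mkQ_surjective (LinearMap.range f))
    ext x
    rw [LinearMap.mem_ker, LinearMap.mem_range]
    exact h x
  exact ((Submodule.quotEquivOfEq _ _ hker.symm).trans (q.quotKerEquivOfSurjective hq)).symm

@[simp]
lemma cokerBaseChangeEquiv_symm_mk (f : M →ₗ[A] N) (A' : Type u) [CommRing A'] [Algebra A A']
    (x : A' ⊗[A] N) :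
    (cokerBaseChangeEquiv f A').symm (Submodule.Quotient.mk x) =
      (LinearMap.range f).mkQ.baseChange A' x := rfl

lemma cokerBaseChangeEquiv_tmul (f : M →ₗ[A] N) (A' : Type u) [CommRing A'] [Algebra A A']
    (a : A') (y : N) :
    cokerBaseChangeEquiv f A' (a ⊗ₜ[A] (LinearMap.range f).mkQ y) =
      Submodule.Quotient.mk (a ⊗ₜ[A] y) := by
  rw [← LinearEquiv.eq_symm_apply, cokerBaseChangeEquiv_symm_mk, LinearMap.baseChange_tmul]

/-- Global Nakayama: a finite module all of whose fibres at maximal ideals vanish is zero. -/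
theorem subsingleton_of_forall_maximal [Module.Finite A M]
    (h : ∀ m : MaximalSpectrum A, Subsingleton ((A ⧸ m.asIdeal) ⊗[A] M)) : Subsingleton M := by
  by_contra hM
  rw [not_subsingleton_iff_nontrivial] at hM
  obtain ⟨p, hp⟩ := Module.nonempty_support_of_nontrivial (R := A) (M := M)
  obtain ⟨m, hm, hpm⟩ := Ideal.exists_le_maximal p.asIdeal p.2.ne_top
  let q : PrimeSpectrum A := ⟨m, hm.isPrime⟩
  have hq : q ∈ Module.support A M := Module.mem_support_mono (p := p) (q := q) hpm hp
  rw [Module.mem_support_iff_nontrivial_residueField_tensorProduct] at hq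
  have hsub : Subsingleton ((A ⧸ m) ⊗[A] M) := h ⟨m, hm⟩
  have : Subsingleton (m.ResidueField ⊗[A ⧸ m] ((A ⧸ m) ⊗[A] M)) := inferInstance
  have e := AlgebraTensorModule.cancelBaseChange A (A ⧸ m) m.ResidueField m.ResidueField M
  have : Subsingleton (m.ResidueField ⊗[A] M) := e.symm.toEquiv.subsingleton
  exact not_subsingleton _ this

end Generic

/-! ### Two-chart modules -/

section TwoChartModules

variable {A R0 R1 R01 : Type u} [CommRing A] [CommRing R0] [CommRing R1] [CommRing R01]
  [Algebra A R0] [Algebra A R1] [Algebra A R01] [Algebra R0 R01] [Algebra R1 R01]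
  [IsScalarTower A R0 R01] [IsScalarTower A R1 R01]

/-- (T2) Base change of `H¹`: `A' ⊗[A] H¹(L) ≃ H¹(L_{A'})`, by right exactness of `⊗`. -/
def H1BCEquiv (L : QC2 A R0 R1 R01) (A' : Type u) [CommRing A'] [Algebra A A'] :
    (A' ⊗[A] L.H1) ≃ₗ[A'] L.H1BC A' :=
  cokerBaseChangeEquiv L.d A'

lemma H1BCEquiv_tmul (L : QC2 A R0 R1 R01) (A' : Type u) [CommRing A'] [Algebra A A']
    (a : A') (z : L.N01) :
    H1BCEquiv L A' (a ⊗ₜ[A] (LinearMap.range L.d).mkQ z) = Submodule.Quotient.mk (a ⊗ₜ[A] z) :=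
  cokerBaseChangeEquiv_tmul L.d A' a z

/-- (T4') If `H¹(L) = 0` then `H¹` vanishes after every base change. -/
theorem subsingleton_H1BC (L : QC2 A R0 R1 R01) (h : Subsingleton L.H1)
    (A' : Type u) [CommRing A'] [Algebra A A'] : Subsingleton (L.H1BC A') :=
  (H1BCEquiv L A').symm.toEquiv.subsingleton

variable (c : TwoChart A R0 R1 R01) (L : QC2 A R0 R1 R01)

/-- The coordinate `t`, as a unit of the overlap ring `R01` (its inverse is `s`). -/
def tUnit : R01ˣ where
  val := algebraMap R0 R01 c.t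
  inv := algebraMap R1 R01 c.s
  val_inv := c.ts
  inv_val := by rw [mul_comm]; exact c.ts

lemma tUnit_zpow_natCast (n : ℕ) :
    ((tUnit c ^ (n : ℤ) : R01ˣ) : R01) = algebraMap R0 R01 (c.t ^ n) := by
  rw [zpow_natCast, Units.val_pow_eq_pow_val, map_pow]; rfl

lemma tUnit_zpow_neg_natCast (n : ℕ) :
    ((tUnit c ^ (-(n : ℤ)) : R01ˣ) : R01) = algebraMap R1 R01 (c.s ^ n) := by
  rw [zpow_neg, zpow_natCast, ← inv_pow, Units.val_pow_eq_pow_val, map_pow]; rfl

lemma zpow_smul_zpow_smul (k l : ℤ) (z : L.N01) :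
    ((tUnit c ^ k : R01ˣ) : R01) • ((tUnit c ^ l : R01ˣ) : R01) • z =
      ((tUnit c ^ (k + l) : R01ˣ) : R01) • z := by
  rw [smul_smul, ← Units.val_mul, ← zpow_add]

lemma r0_pow_smul (n : ℕ) (x : L.N0) :
    L.r0 (c.t ^ n • x) = ((tUnit c ^ (n : ℤ) : R01ˣ) : R01) • L.r0 x := by
  rw [map_smul, tUnit_zpow_natCast, algebraMap_smul]

lemma r1_pow_smul (n : ℕ) (y : L.N1) :
    L.r1 (c.s ^ n • y) = ((tUnit c ^ (-(n : ℤ)) : R01ˣ) : R01) • L.r1 y := by
  rw [map_smul, tUnit_zpow_neg_natCast, algebraMap_smul]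

lemma r0_monomial_smul (n : ℕ) (a : A) (y : L.N0) :
    L.r0 (aeval c.t (monomial n a) • y) = a • ((tUnit c ^ (n : ℤ) : R01ˣ) : R01) • L.r0 y := by
  rw [← C_mul_X_pow_eq_monomial, map_mul, aeval_C, aeval_X_pow, mul_smul, algebraMap_smul,
    LinearMap.map_smul_of_tower, r0_pow_smul]

/-- Every section on the overlap becomes a section on the first chart after multiplying by a
power of `t`. -/
lemma exists_zpow_smul_eq_r0 (z : L.N01) :
    ∃ (n : ℕ) (x : L.N0), ((tUnit c ^ (n : ℤ) : R01ˣ) : R01) • z = L.r0 x := by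
  have := c.away0
  have : IsLocalizedModule (Submonoid.powers c.t) L.r0 :=
    (isLocalizedModule_iff_isBaseChange (Submonoid.powers c.t) R01 L.r0).mpr L.bc0
  obtain ⟨⟨x, ⟨s, n, rfl⟩⟩, hx⟩ := IsLocalizedModule.surj (Submonoid.powers c.t) L.r0 z
  refine ⟨n, x, ?_⟩
  rw [tUnit_zpow_natCast, algebraMap_smul]
  exact hx

/-- Every section on the overlap becomes a section on the second chart after multiplying by a
power of `s = t⁻¹`. -/
lemma exists_zpow_neg_smul_eq_r1 (z : L.N01) :
    ∃ (n : ℕ) (y : L.N1), ((tUnit c ^ (-(n : ℤ)) : R01ˣ) : R01) • z = L.r1 y := by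
  have := c.away1
  have : IsLocalizedModule (Submonoid.powers c.s) L.r1 :=
    (isLocalizedModule_iff_isBaseChange (Submonoid.powers c.s) R01 L.r1).mpr L.bc1
  obtain ⟨⟨y, ⟨s, n, rfl⟩⟩, hy⟩ := IsLocalizedModule.surj (Submonoid.powers c.s) L.r1 z
  refine ⟨n, y, ?_⟩
  rw [tUnit_zpow_neg_natCast, algebraMap_smul]
  exact hy

lemma r0_mem_range_d (x : L.N0) : L.r0 x ∈ LinearMap.range L.d :=
  ⟨(x, 0), by simp [QC2.d]⟩

lemma r1_mem_range_d (y : L.N1) : L.r1 y ∈ LinearMap.range L.d :=
  ⟨(0, -y), by simp [QC2.d]⟩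

/-- Closure lemma: an `A`-submodule `W` of `N01` containing all `t^k • r0 e`, `k : ℤ`, for `e` in a
generating set of the `A[t]`-module `N0`, is everything. -/
theorem eq_top_of_forall_zpow_smul_mem (W : Submodule A L.N01)
    (S : Set (Module.AEval A L.N0 c.t)) (hS : Submodule.span A[X] S = ⊤)
    (h : ∀ e ∈ S, ∀ k : ℤ,
      ((tUnit c ^ k : R01ˣ) : R01) • L.r0 ((Module.AEval.of A L.N0 c.t).symm e) ∈ W) :
    W = ⊤ := by
  let N : Submodule A[X] (Module.AEval A L.N0 c.t) :=
    { carrier := {x | ∀ k : ℤ,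
        ((tUnit c ^ k : R01ˣ) : R01) • L.r0 ((Module.AEval.of A L.N0 c.t).symm x) ∈ W}
      add_mem' := by
        intro x y hx hy k
        simp only [Set.mem_ofPred_eq] at hx hy ⊢
        rw [map_add, map_add, smul_add]
        exact W.add_mem (hx k) (hy k)
      zero_mem' := by
        intro k
        simp
      smul_mem' := by
        intro p x hx
        simp only [Set.mem_ofPred_eq] at hx ⊢
        induction p using Polynomial.induction_on' with
        | add p q hp hq =>
          intro k
          rw [add_smul, map_add, map_add, smul_add]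
          exact W.add_mem (hp k) (hq k)
        | monomial n a =>
          intro k
          rw [Module.AEval.of_symm_smul, r0_monomial_smul, smul_comm, zpow_smul_zpow_smul]
          exact W.smul_mem a (hx _) }
  have hN : N = ⊤ := by
    rw [eq_top_iff, ← hS, Submodule.span_le]
    intro e he
    exact h e he
  rw [eq_top_iff]
  intro z _
  obtain ⟨n, x, hx⟩ := exists_zpow_smul_eq_r0 c L z
  have hxN : Module.AEval.of A L.N0 c.t x ∈ N := hN ▸ Submodule.mem_top
  have := hxN (-(n : ℤ))
  rwa [LinearEquiv.symm_apply_apply, ← hx, zpow_smul_zpow_smul, neg_add_cancel, zpow_zero,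
    Units.val_one, one_smul] at this

/-- For a finite subset of `N0` there is a uniform bound `b` such that `t^{-i} • r0 e` lies in the
image of `r1` for all `i ≥ b`. -/
theorem exists_bound_zpow_neg_smul_mem_range (S : Finset L.N0) :
    ∃ b : ℕ, ∀ e ∈ S, ∀ i : ℕ, b ≤ i →
      ∃ y : L.N1, ((tUnit c ^ (-(i : ℤ)) : R01ˣ) : R01) • L.r0 e = L.r1 y := by
  classical
  choose n x hx using fun e : L.N0 => exists_zpow_neg_smul_eq_r1 c L (L.r0 e)
  refine ⟨S.sup n, fun e he i hi => ?_⟩
  have hne : n e ≤ i := le_trans (Finset.le_sup he) hi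
  refine ⟨c.s ^ (i - n e) • x e, ?_⟩
  rw [r1_pow_smul, ← hx e, zpow_smul_zpow_smul]
  congr 4
  push_cast [Nat.cast_sub hne]
  ring

/-- If `N0` is a finite `A[t]`-module then `N01 = range d + V` for a finitely generated
`A`-submodule `V`. -/
theorem exists_fg_sup_eq_top (h0 : Module.Finite A[X] (Module.AEval A L.N0 c.t)) :
    ∃ V : Submodule A L.N01, V.FG ∧ LinearMap.range L.d ⊔ V = ⊤ := by
  classical
  obtain ⟨S, hS⟩ := (Module.finite_def (R := A[X]) (M := Module.AEval A L.N0 c.t)).1 h0
  let S' : Finset L.N0 := S.image (Module.AEval.of A L.N0 c.t).symm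
  obtain ⟨b, hb⟩ := exists_bound_zpow_neg_smul_mem_range c L S'
  let F : Finset L.N01 := (S' ×ˢ Finset.range b).image
    (fun p => ((tUnit c ^ (-(p.2 : ℤ)) : R01ˣ) : R01) • L.r0 p.1)
  refine ⟨Submodule.span A (F : Set L.N01), ⟨F, rfl⟩, ?_⟩
  apply eq_top_of_forall_zpow_smul_mem c L _ (S : Set (Module.AEval A L.N0 c.t)) hS
  intro e he k
  have he' : (Module.AEval.of A L.N0 c.t).symm e ∈ S' := Finset.mem_image_of_mem _ he
  rcases le_or_gt 0 k with hk | hk
  · obtain ⟨n, rfl⟩ := Int.eq_ofNat_of_zero_le hk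
    rw [← r0_pow_smul]
    exact Submodule.mem_sup_left (r0_mem_range_d L _)
  · obtain ⟨i, rfl⟩ : ∃ i : ℕ, k = -(i : ℤ) := ⟨k.natAbs, by omega⟩
    rcases lt_or_ge i b with hi | hi
    · apply Submodule.mem_sup_right
      apply Submodule.subset_span
      simp only [F, Finset.coe_image, Set.mem_image, Finset.mem_coe, Finset.mem_product,
        Finset.mem_range]
      exact ⟨((Module.AEval.of A L.N0 c.t).symm e, i), ⟨he', hi⟩, rfl⟩
    · obtain ⟨y, hy⟩ := hb _ he' i hi
      rw [hy]
      exact Submodule.mem_sup_left (r1_mem_range_d L y)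

/-- (T1) `H¹(L)` is a finite `A`-module as soon as `N0` is a finite `A[t]`-module. -/
theorem finite_H1_of_finite0 (h0 : Module.Finite A[X] (Module.AEval A L.N0 c.t)) :
    Module.Finite A L.H1 := by
  obtain ⟨V, hV, hsup⟩ := exists_fg_sup_eq_top c L h0
  have hsurj : Function.Surjective (((LinearMap.range L.d).mkQ).comp V.subtype) := by
    intro q
    obtain ⟨z, rfl⟩ := (LinearMap.range L.d).mkQ_surjective q
    have hz : z ∈ LinearMap.range L.d ⊔ V := hsup ▸ Submodule.mem_top
    obtain ⟨w, hw, v, hv, rfl⟩ := Submodule.mem_sup.1 hz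
    refine ⟨⟨v, hv⟩, ?_⟩
    simp only [LinearMap.coe_comp, Submodule.coe_subtype, Function.comp_apply,
      Submodule.mkQ_apply, map_add]
    rw [(Submodule.Quotient.mk_eq_zero _).2 hw, zero_add]
  have : Module.Finite A V := Module.Finite.iff_fg.2 hV
  exact Module.Finite.of_surjective _ hsurj

/-- (T1) `H¹(L)` is a finite `A`-module if `L` is finite over the line. -/
theorem finite_H1 (h : L.FiniteOverLine c) : Module.Finite A L.H1 :=
  finite_H1_of_finite0 c L h.fin0

/-- (T3) Fibrewise vanishing of `H¹` at all closed points implies `H¹ = 0` (Nakayama). -/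
theorem subsingleton_H1_of_forall_maximal (h : L.FiniteOverLine c)
    (hm : ∀ m : MaximalSpectrum A, Subsingleton (L.H1BC (A ⧸ m.asIdeal))) :
    Subsingleton L.H1 := by
  have := finite_H1 c L h
  refine subsingleton_of_forall_maximal (A := A) (fun m => ?_)
  have := hm m
  exact (H1BCEquiv L (A ⧸ m.asIdeal)).toEquiv.subsingleton

/-- The fibrewise vanishing locus of `H¹` is the complement of the support of `H¹(L)`. -/
theorem setOf_subsingleton_H1BC_residueField_eq (h : L.FiniteOverLine c) :
    {p : PrimeSpectrum A | Subsingleton (L.H1BC p.asIdeal.ResidueField)} =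
      (Module.support A L.H1)ᶜ := by
  have := finite_H1 c L h
  ext p
  rw [Set.mem_compl_iff, Module.mem_support_iff_nontrivial_residueField_tensorProduct,
    not_nontrivial_iff_subsingleton]
  exact (H1BCEquiv L p.asIdeal.ResidueField).toEquiv.subsingleton_congr.symm

/-- (T4) The locus of points of `Spec A` where the fibrewise `H¹` vanishes is open. -/
theorem isOpen_setOf_subsingleton_H1BC_residueField (h : L.FiniteOverLine c) :
    IsOpen {p : PrimeSpectrum A | Subsingleton (L.H1BC p.asIdeal.ResidueField)} := by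
  have := finite_H1 c L h
  rw [setOf_subsingleton_H1BC_residueField_eq c L h]
  exact (Module.isClosed_support (R := A) (M := L.H1)).isOpen_compl

end TwoChartModules

end

end Fermat.Agent.Jac.P1CohH1
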