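/-
Fermat/Agent/Jac/P1CohH0.lean  (helper76)

JAC brick A1b (T5): for a two-chart module `L` which is finitely generated projective over the
line, if `H¹(L) = 0` then `H⁰(L)` is a finitely generated projective `A`-module whose formation
commutes with every base change.

Proof.  Laurent coordinates on `N01` (file `P1Coh76/Laurent.lean`) show that `N01` is a projective
`A`-module, so the surjection `d : N0 × N1 → N01` splits; hence `H⁰ = ker d` is a direct summand
of the projective `A`-module `N0 × N1` and commutes with base change.  The degree bound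
(`P1Coh76/Main.lean`, `exists_data`) shows that `H⁰` is contained in the image of a finite free
`A`-module, and the retraction onto `H⁰` then shows that `H⁰` is finitely generated.
-/
import Fermat.Agent.Jac.Core
import Fermat.Agent.Jac.P1CohH1
import Fermat.Agent.Jac.P1Coh76.Main
import Fermat.Agent.Jac.P1Coh76.SplitKer

set_option autoImplicit false

universe u

open Polynomial LaurentPolynomial TensorProduct

namespace Fermat.Agent.Jac.P1CohH0

open Fermat.Agent.Jac.P1Coh76

variable {A R0 R1 R01 : Type u} [CommRing A] [CommRing R0] [CommRing R1] [CommRing R01]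
  [Algebra A R0] [Algebra A R1] [Algebra A R01] [Algebra R0 R01] [Algebra R1 R01]
  [IsScalarTower A R0 R01] [IsScalarTower A R1 R01]
  (c : TwoChart A R0 R1 R01) (L : QC2 A R0 R1 R01)

/-- `N01` is a projective `A`-module (a direct summand of a module of Laurent vectors). -/
theorem projective_N01 (hf : L.FiniteOverLine c) (hp : L.ProjOverLine c) :
    Module.Projective A L.N01 := by
  obtain ⟨n0, n1, D0, D1, ⟨D⟩⟩ := Main.exists_data c L hf hp
  exact Module.Projective.of_split D.i' D.p' D.p'_i'

/-- `N0 × N1` is a projective `A`-module. -/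
theorem projective_N0_prod_N1 (hf : L.FiniteOverLine c) (hp : L.ProjOverLine c) :
    Module.Projective A (L.N0 × L.N1) := by
  obtain ⟨n0, n1, D0, D1, ⟨D⟩⟩ := Main.exists_data c L hf hp
  exact Module.Projective.of_split D.i D.p D.p_i

omit [IsScalarTower A R0 R01] [IsScalarTower A R1 R01] in
theorem d_surjective_of_subsingleton_H1 (h : Subsingleton L.H1) : Function.Surjective L.d := by
  rw [← LinearMap.range_eq_top]
  exact Submodule.Quotient.subsingleton_iff.mp h

/-- **Degree bound**: `H⁰` is contained in the image of a finite free `A`-module. -/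
theorem exists_finite_free_cover (hf : L.FiniteOverLine c) (hp : L.ProjOverLine c) :
    ∃ (a : ℕ) (π : (Fin a → A) →ₗ[A] (L.N0 × L.N1)), ∀ x, L.d x = 0 → ∃ y, π y = x := by
  obtain ⟨n0, n1, D0, D1, ⟨D⟩⟩ := Main.exists_data c L hf hp
  obtain ⟨a, q, hq⟩ := Module.Finite.exists_fin' A
    ((Fin n0 → Fin (D0 + 1) → A) × (Fin n1 → Fin (D1 + 1) → A))
  refine ⟨a, D.π ∘ₗ q, fun x hx => ?_⟩
  obtain ⟨y, hy⟩ := hq (D.j x)
  exact ⟨y, by rw [LinearMap.comp_apply, hy, D.π_j_of_mem hx]⟩

/-- **T5.** If `L` is finitely generated projective over the line and `H¹(L) = 0`, then `H⁰(L)` is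
a finitely generated projective `A`-module and its formation commutes with every base change. -/
theorem T5 (hf : L.FiniteOverLine c) (hp : L.ProjOverLine c) (h1 : Subsingleton L.H1) :
    Module.Finite A L.H0 ∧ Module.Projective A L.H0 ∧
      ∀ (A' : Type u) [CommRing A'] [Algebra A A'], Function.Bijective (L.H0BCMap A') := by
  have hN01 : Module.Projective A L.N01 := projective_N01 c L hf hp
  have hM : Module.Projective A (L.N0 × L.N1) := projective_N0_prod_N1 c L hf hp
  have hd : Function.Surjective L.d := d_surjective_of_subsingleton_H1 L h1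
  obtain ⟨a, π, hπ⟩ := exists_finite_free_cover c L hf hp
  refine ⟨?_, ?_, ?_⟩
  · exact SplitKer.finite_ker L.d hd π hπ
  · exact SplitKer.projective_ker L.d hd
  · intro A' _ _
    constructor
    · intro z1 z2 h
      apply SplitKer.baseChange_subtype_injective L.d A' hd
      exact congrArg Subtype.val h
    · intro y
      obtain ⟨z, hz⟩ := SplitKer.exists_of_baseChange_eq_zero L.d A' hd (x := y.1) y.2
      exact ⟨z, Subtype.ext hz⟩

/-- **T5**, with the signature of the bricks table (the projectivity of `N01` over `A` is in fact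
automatic, see `projective_N01`). -/
theorem T5_of_projective_N01 (hf : L.FiniteOverLine c) (hp : L.ProjOverLine c)
    (_hN : Module.Projective A L.N01) (h1 : Subsingleton L.H1) :
    Module.Finite A L.H0 ∧ Module.Projective A L.H0 ∧
      ∀ (A' : Type u) [CommRing A'] [Algebra A A'], Function.Bijective (L.H0BCMap A') :=
  T5 c L hf hp h1

/-- **T5''.** Fibrewise vanishing of `H¹` at all maximal ideals suffices. -/
theorem T5_of_forall_maximal (hf : L.FiniteOverLine c) (hp : L.ProjOverLine c)
    (hm : ∀ m : MaximalSpectrum A, Subsingleton (L.H1BC (A ⧸ m.asIdeal))) :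
    Subsingleton L.H1 ∧ Module.Finite A L.H0 ∧ Module.Projective A L.H0 ∧
      ∀ (A' : Type u) [CommRing A'] [Algebra A A'], Function.Bijective (L.H0BCMap A') :=
  have h1 : Subsingleton L.H1 := P1CohH1.subsingleton_H1_of_forall_maximal c L hf hm
  ⟨h1, T5 c L hf hp h1⟩

end Fermat.Agent.Jac.P1CohH0
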