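/-
Programme JAC (S25), brick A1d "FlatBC+Support", parts (1) and (2)  (helper60).

Intrinsic base change of the two-term Čech complex of a two-chart module (`Core.lean`):

* (1) flat base change: for a flat `A`-algebra `A'`, `A' ⊗ ker d ≃ ker (A' ⊗ d)`
  (`H0BCMap_bijective`), and for every `A'`, `coker (A' ⊗ d) ≃ A' ⊗ coker d` (`H1BCEquiv`);
* (2) transitivity: for `A → A' → A''`, the base change to `A''` of `L.dBC A'` is isomorphic (as an
  arrow) to `L.dBC A''`, so `H0BC`/`H1BC` over `A''` can be computed from the complex over `A'`.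
-/
import Mathlib
import Fermat.Agent.Jac.Core

set_option autoImplicit false
set_option linter.unusedSectionVars false

open TensorProduct

namespace Fermat.Agent.Jac.FlatBC60

universe u

/-! ### General linear algebra -/

section General

variable {A : Type*} [CommRing A] {K0 K1 : Type*} [AddCommGroup K0] [AddCommGroup K1]
  [Module A K0] [Module A K1] (d : K0 →ₗ[A] K1)
  (A' : Type*) [CommRing A'] [Algebra A A']

/-- The comparison map `A' ⊗ ker d → ker (A' ⊗ d)`. -/
noncomputable def kerBCMap :
    A' ⊗[A] (LinearMap.ker d) →ₗ[A'] LinearMap.ker (d.baseChange A') :=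
  LinearMap.codRestrict _ ((LinearMap.ker d).subtype.baseChange A') (fun x => by
    induction x using TensorProduct.induction_on with
    | zero => simp
    | tmul a x =>
      have hx : d x.1 = 0 := x.2
      simp [hx]
    | add x y hx hy => simpa using Submodule.add_mem _ hx hy)

@[simp] theorem kerBCMap_coe (x : A' ⊗[A] (LinearMap.ker d)) :
    ((kerBCMap d A' x : LinearMap.ker (d.baseChange A')) : A' ⊗[A] K0) =
      (LinearMap.ker d).subtype.baseChange A' x := rfl

/-- Flat base change commutes with kernels. -/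
theorem kerBCMap_bijective [Module.Flat A A'] : Function.Bijective (kerBCMap d A') := by
  constructor
  · intro x y h
    have h' := congrArg (Subtype.val) h
    simp only [kerBCMap_coe] at h'
    exact Module.Flat.lTensor_preserves_injective_linearMap (M := A') (LinearMap.ker d).subtype
      (LinearMap.ker d).injective_subtype h'
  · rintro ⟨y, hy⟩
    have hex : Function.Exact ((LinearMap.ker d).subtype.lTensor A') (d.lTensor A') :=
      Module.Flat.lTensor_exact A' (LinearMap.exact_subtype_ker_map d)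
    have hy' : (d.lTensor A') y = 0 := LinearMap.mem_ker.mp hy
    obtain ⟨x, hx⟩ := (hex y).mp hy'
    exact ⟨x, Subtype.ext hx⟩

/-- Flat base change commutes with kernels, as an equivalence. -/
noncomputable def kerBCEquiv [Module.Flat A A'] :
    A' ⊗[A] (LinearMap.ker d) ≃ₗ[A'] LinearMap.ker (d.baseChange A') :=
  LinearEquiv.ofBijective (kerBCMap d A') (kerBCMap_bijective d A')

/-- The comparison map `A' ⊗ K1 → A' ⊗ coker d`. -/
noncomputable def cokerBCAux :
    A' ⊗[A] K1 →ₗ[A'] A' ⊗[A] (K1 ⧸ LinearMap.range d) :=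
  (LinearMap.range d).mkQ.baseChange A'

theorem cokerBCAux_surjective : Function.Surjective (cokerBCAux d A') :=
  LinearMap.lTensor_surjective A' (Submodule.mkQ_surjective _)

theorem ker_cokerBCAux : LinearMap.ker (cokerBCAux d A') = LinearMap.range (d.baseChange A') := by
  have hex : Function.Exact (d.lTensor A') ((LinearMap.range d).mkQ.lTensor A') :=
    lTensor_exact A' (f := d) (g := (LinearMap.range d).mkQ)
      (fun y => by simp [Submodule.Quotient.mk_eq_zero]) (Submodule.mkQ_surjective _)
  ext y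
  exact hex y

/-- Base change commutes with cokernels (no flatness needed). -/
noncomputable def cokerBCEquiv :
    ((A' ⊗[A] K1) ⧸ LinearMap.range (d.baseChange A')) ≃ₗ[A']
      A' ⊗[A] (K1 ⧸ LinearMap.range d) :=
  (Submodule.quotEquivOfEq _ _ (ker_cokerBCAux d A').symm).trans
    ((cokerBCAux d A').quotKerEquivOfSurjective (cokerBCAux_surjective d A'))

@[simp] theorem cokerBCEquiv_mk_tmul (a : A') (x : K1) :
    cokerBCEquiv d A' (Submodule.Quotient.mk (a ⊗ₜ[A] x)) =
      a ⊗ₜ[A] (Submodule.Quotient.mk x : K1 ⧸ LinearMap.range d) := rfl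

end General

/-! ### Transitivity of base change, general form -/

section Trans

variable {A : Type*} [CommRing A] {K0 K1 : Type*} [AddCommGroup K0] [AddCommGroup K1]
  [Module A K0] [Module A K1] (d : K0 →ₗ[A] K1)
  (A' A'' : Type*) [CommRing A'] [CommRing A''] [Algebra A A'] [Algebra A' A''] [Algebra A A'']
  [IsScalarTower A A' A'']

/-- `A'' ⊗[A'] (A' ⊗[A] K) ≃ A'' ⊗[A] K`. -/
noncomputable def transEquiv (K : Type*) [AddCommGroup K] [Module A K] :
    A'' ⊗[A'] (A' ⊗[A] K) ≃ₗ[A''] A'' ⊗[A] K :=
  TensorProduct.AlgebraTensorModule.cancelBaseChange A A' A'' A'' K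

@[simp] theorem transEquiv_tmul (K : Type*) [AddCommGroup K] [Module A K]
    (a'' : A'') (a' : A') (x : K) :
    transEquiv A' A'' K (a'' ⊗ₜ[A'] (a' ⊗ₜ[A] x)) = (a' • a'') ⊗ₜ[A] x := rfl

@[simp] theorem transEquiv_symm_tmul (K : Type*) [AddCommGroup K] [Module A K]
    (a'' : A'') (x : K) :
    (transEquiv A' A'' K).symm (a'' ⊗ₜ[A] x) = a'' ⊗ₜ[A'] ((1 : A') ⊗ₜ[A] x) := rfl

/-- Naturality: base change in two steps equals base change in one step. -/
theorem transEquiv_comm :
    (transEquiv A' A'' K1).toLinearMap ∘ₗ (d.baseChange A').baseChange A'' =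
      d.baseChange A'' ∘ₗ (transEquiv A' A'' K0).toLinearMap := by
  apply LinearMap.ext
  intro z
  induction z using TensorProduct.induction_on with
  | zero => simp
  | tmul a'' y =>
    induction y using TensorProduct.induction_on with
    | zero => simp
    | tmul a' x => simp
    | add y y' hy hy' =>
      simp only [TensorProduct.tmul_add, map_add]
      rw [hy, hy']
  | add z z' hz hz' => rw [map_add, map_add, hz, hz']

theorem transEquiv_comm_apply (z : A'' ⊗[A'] (A' ⊗[A] K0)) :
    transEquiv A' A'' K1 ((d.baseChange A').baseChange A'' z) =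
      d.baseChange A'' (transEquiv A' A'' K0 z) :=
  LinearMap.congr_fun (transEquiv_comm d A' A'') z

/-- Kernel of the two-step base change is the kernel of the one-step base change. -/
noncomputable def kerTransEquiv :
    LinearMap.ker ((d.baseChange A').baseChange A'') ≃ₗ[A''] LinearMap.ker (d.baseChange A'') :=
  LinearEquiv.ofSubmodules (transEquiv A' A'' K0) _ _ (by
    ext y
    simp only [Submodule.mem_map, LinearMap.mem_ker, LinearEquiv.coe_coe]
    constructor
    · rintro ⟨z, hz, rfl⟩
      rw [← transEquiv_comm_apply, hz, map_zero]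
    · intro hy
      refine ⟨(transEquiv A' A'' K0).symm y, ?_, by simp⟩
      apply (transEquiv A' A'' K1).injective
      rw [transEquiv_comm_apply, LinearEquiv.apply_symm_apply, hy, map_zero])

@[simp] theorem kerTransEquiv_coe (z : LinearMap.ker ((d.baseChange A').baseChange A'')) :
    ((kerTransEquiv d A' A'' z : LinearMap.ker (d.baseChange A'')) : A'' ⊗[A] K0) =
      transEquiv A' A'' K0 z := rfl

/-- Cokernel of the two-step base change is the cokernel of the one-step base change. -/
noncomputable def cokerTransEquiv :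
    ((A'' ⊗[A'] (A' ⊗[A] K1)) ⧸ LinearMap.range ((d.baseChange A').baseChange A'')) ≃ₗ[A'']
      ((A'' ⊗[A] K1) ⧸ LinearMap.range (d.baseChange A'')) :=
  Submodule.Quotient.equiv _ _ (transEquiv A' A'' K1) (by
    ext y
    simp only [Submodule.mem_map, LinearMap.mem_range, LinearEquiv.coe_coe]
    constructor
    · rintro ⟨_, ⟨z, rfl⟩, rfl⟩
      exact ⟨transEquiv A' A'' K0 z, (transEquiv_comm_apply d A' A'' z).symm⟩
    · rintro ⟨w, rfl⟩
      refine ⟨(d.baseChange A').baseChange A'' ((transEquiv A' A'' K0).symm w), ⟨_, rfl⟩, ?_⟩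
      rw [transEquiv_comm_apply, LinearEquiv.apply_symm_apply])

@[simp] theorem cokerTransEquiv_mk (y : A'' ⊗[A'] (A' ⊗[A] K1)) :
    cokerTransEquiv d A' A'' (Submodule.Quotient.mk y) =
      Submodule.Quotient.mk (transEquiv A' A'' K1 y) := rfl

end Trans

/-! ### Specialisation to two-chart modules -/

section QC2

variable {A R0 R1 R01 : Type u} [CommRing A] [CommRing R0] [CommRing R1] [CommRing R01]
  [Algebra A R0] [Algebra A R1] [Algebra A R01] [Algebra R0 R01] [Algebra R1 R01]
  [IsScalarTower A R0 R01] [IsScalarTower A R1 R01]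
  (L : QC2 A R0 R1 R01) (A' : Type u) [CommRing A'] [Algebra A A']

/-- **Flat base change for `H⁰`**: the comparison map `A' ⊗ H⁰(L) → H⁰(L_{A'})` of `Core.lean` is
bijective when `A'` is flat over `A`. -/
theorem H0BCMap_bijective [Module.Flat A A'] : Function.Bijective (L.H0BCMap A') :=
  kerBCMap_bijective L.d A'

/-- Flat base change for `H⁰`, as an equivalence. -/
noncomputable def H0BCEquiv [Module.Flat A A'] : A' ⊗[A] L.H0 ≃ₗ[A'] L.H0BC A' :=
  LinearEquiv.ofBijective (L.H0BCMap A') (H0BCMap_bijective L A')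

@[simp] theorem H0BCEquiv_coe [Module.Flat A A'] (x : A' ⊗[A] L.H0) :
    ((H0BCEquiv L A' x : L.H0BC A') : A' ⊗[A] (L.N0 × L.N1)) =
      L.H0.subtype.baseChange A' x := rfl

/-- Over a field every algebra is flat: `H⁰` commutes with every base change. -/
theorem H0BCMap_bijective_of_field {k R0 R1 R01 : Type u} [Field k] [CommRing R0] [CommRing R1]
    [CommRing R01] [Algebra k R0] [Algebra k R1] [Algebra k R01] [Algebra R0 R01] [Algebra R1 R01]
    [IsScalarTower k R0 R01] [IsScalarTower k R1 R01]
    (L : QC2 k R0 R1 R01) (A' : Type u) [CommRing A'] [Algebra k A'] :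
    Function.Bijective (L.H0BCMap A') :=
  H0BCMap_bijective L A'

/-- **Base change for `H¹`** (always): `H¹(L_{A'}) ≃ A' ⊗ H¹(L)`. -/
noncomputable def H1BCEquiv : L.H1BC A' ≃ₗ[A'] A' ⊗[A] L.H1 :=
  cokerBCEquiv L.d A'

@[simp] theorem H1BCEquiv_mk_tmul (a : A') (x : L.N01) :
    H1BCEquiv L A' (Submodule.Quotient.mk (a ⊗ₜ[A] x)) =
      a ⊗ₜ[A] (Submodule.Quotient.mk x : L.H1) := rfl

/-- `H¹(L_{A'}) = 0` as soon as `H¹(L) = 0`. -/
theorem subsingleton_H1BC_of_subsingleton_H1 [Subsingleton L.H1] : Subsingleton (L.H1BC A') :=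
  (H1BCEquiv L A').toEquiv.subsingleton

variable (A'' : Type u) [CommRing A''] [Algebra A' A''] [Algebra A A''] [IsScalarTower A A' A'']

/-- **Transitivity**: `(L.dBC A').baseChange A''` is isomorphic as an arrow to `L.dBC A''`. -/
theorem dBC_trans :
    (transEquiv A' A'' L.N01).toLinearMap ∘ₗ (L.dBC A').baseChange A'' =
      L.dBC A'' ∘ₗ (transEquiv A' A'' (L.N0 × L.N1)).toLinearMap :=
  transEquiv_comm L.d A' A''

/-- `H⁰` over `A''` computed from the complex over `A'`. -/
noncomputable def H0BCTransEquiv :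
    LinearMap.ker ((L.dBC A').baseChange A'') ≃ₗ[A''] L.H0BC A'' :=
  kerTransEquiv L.d A' A''

/-- `H¹` over `A''` computed from the complex over `A'`. -/
noncomputable def H1BCTransEquiv :
    ((A'' ⊗[A'] (A' ⊗[A] L.N01)) ⧸ LinearMap.range ((L.dBC A').baseChange A'')) ≃ₗ[A'']
      L.H1BC A'' :=
  cokerTransEquiv L.d A' A''

/-- `H¹` over `A''` is the base change of `H¹` over `A'`. -/
noncomputable def H1BCBaseChangeEquiv : L.H1BC A'' ≃ₗ[A''] A'' ⊗[A'] L.H1BC A' :=
  (H1BCTransEquiv L A' A'').symm.trans (cokerBCEquiv (L.dBC A') A'')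

/-- If `A''` is flat over `A'`, `H⁰` over `A''` is the base change of `H⁰` over `A'`. -/
noncomputable def H0BCBaseChangeEquiv [Module.Flat A' A''] :
    A'' ⊗[A'] L.H0BC A' ≃ₗ[A''] L.H0BC A'' :=
  (kerBCEquiv (L.dBC A') A'').trans (H0BCTransEquiv L A' A'')

end QC2

end Fermat.Agent.Jac.FlatBC60
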