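/-
Fermat/Agent/Jac/SmallClasses42Field.lean  (helper42, brick S1 part (2) of programme JAC / S25)

Invariance of the fibrewise cohomology of a two-chart module under extension of the base field:
for `A`-fields `K → K'`, `dim_{K'} Hⁱ(L_{K'}) = dim_K Hⁱ(L_K)` (no finiteness hypothesis), hence
the Euler characteristic `L.chiField` and the vanishing of `Hⁱ` do not depend on the field.
-/
import Fermat.Agent.Jac.FlatBC60
import Fermat.Agent.Jac.P1CohChi.Chi

set_option autoImplicit false
set_option linter.unusedSectionVars false

universe u

open TensorProduct

namespace Fermat.Agent.Jac.SmallClasses42Field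

variable {A R0 R1 R01 : Type u} [CommRing A] [CommRing R0] [CommRing R1] [CommRing R01]
  [Algebra A R0] [Algebra A R1] [Algebra A R01] [Algebra R0 R01] [Algebra R1 R01]
  [IsScalarTower A R0 R01] [IsScalarTower A R1 R01]
  (L : QC2 A R0 R1 R01) (K K' : Type u) [Field K] [Field K'] [Algebra A K] [Algebra A K']
  [Algebra K K'] [IsScalarTower A K K']

/-- A vector space which vanishes after a field extension vanishes. -/
theorem subsingleton_of_subsingleton_tensor (K K' V : Type u) [Field K] [Field K'] [Algebra K K']
    [AddCommGroup V] [Module K V] (h : Subsingleton (K' ⊗[K] V)) : Subsingleton V := by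
  by_contra hn
  rw [not_subsingleton_iff_nontrivial] at hn
  have : Nontrivial (K' ⊗[K] V) := inferInstance
  exact not_subsingleton _ h

/-- `dim H¹` of a fibre is invariant under extension of the base field. -/
theorem finrank_H1BC_eq : Module.finrank K' (L.H1BC K') = Module.finrank K (L.H1BC K) := by
  rw [(FlatBC60.H1BCBaseChangeEquiv L K K').finrank_eq, Module.finrank_baseChange]

/-- `dim H⁰` of a fibre is invariant under extension of the base field. -/
theorem finrank_H0BC_eq : Module.finrank K' (L.H0BC K') = Module.finrank K (L.H0BC K) := by
  have : Module.Free K (L.H0BC K) :=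
    @Module.Free.of_divisionRing K (L.H0BC K) _ inferInstance inferInstance
  rw [← (FlatBC60.H0BCBaseChangeEquiv L K K').finrank_eq, Module.finrank_baseChange]

/-- The Euler characteristic of a fibre is invariant under extension of the base field. -/
theorem chiField_eq : L.chiField K' = L.chiField K := by
  rw [QC2.chiField, QC2.chiField, finrank_H0BC_eq L K K', finrank_H1BC_eq L K K']

/-- Vanishing of `H¹` of a fibre is invariant under extension of the base field. -/
theorem subsingleton_H1BC_iff : Subsingleton (L.H1BC K') ↔ Subsingleton (L.H1BC K) := by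
  constructor
  · intro h
    have e := FlatBC60.H1BCBaseChangeEquiv L K K'
    have h' : Subsingleton (K' ⊗[K] L.H1BC K) := e.symm.toEquiv.subsingleton
    exact subsingleton_of_subsingleton_tensor K K' (L.H1BC K) h'
  · intro h
    exact (FlatBC60.H1BCBaseChangeEquiv L K K').toEquiv.subsingleton

/-- Vanishing of `H⁰` of a fibre is invariant under extension of the base field. -/
theorem subsingleton_H0BC_iff : Subsingleton (L.H0BC K') ↔ Subsingleton (L.H0BC K) := by
  constructor
  · intro h
    have e := FlatBC60.H0BCBaseChangeEquiv L K K'
    have h' : Subsingleton (K' ⊗[K] L.H0BC K) := e.toEquiv.subsingleton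
    exact @subsingleton_of_subsingleton_tensor K K' (L.H0BC K) _ _ _
      inferInstance inferInstance h'
  · intro h
    exact (FlatBC60.H0BCBaseChangeEquiv L K K').symm.toEquiv.subsingleton

/-- Finite-dimensionality of `H¹` of a fibre passes to field extensions. -/
theorem finiteDimensional_H1BC [FiniteDimensional K (L.H1BC K)] :
    FiniteDimensional K' (L.H1BC K') :=
  Module.Finite.equiv (FlatBC60.H1BCBaseChangeEquiv L K K').symm

/-- Finite-dimensionality of `H⁰` of a fibre passes to field extensions. -/
theorem finiteDimensional_H0BC [FiniteDimensional K (L.H0BC K)] :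
    FiniteDimensional K' (L.H0BC K') :=
  Module.Finite.equiv (FlatBC60.H0BCBaseChangeEquiv L K K')

end Fermat.Agent.Jac.SmallClasses42Field
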