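/-
JAC programme, brick B2 (helper36): behaviour of the fibrewise Euler characteristic `QC2.chi`
(helper14, `P1CohChi`) under isomorphisms and under base change (`JSmooth85Alg.LiftData`).

* `chiField_iso`, `chi_iso`           : invariance under `QC2.Iso`;
* `chiField_liftData`                 : `L'.chiField K = L.chiField K` for `LiftData L L'` over
                                        `A → A'` and a field `K` over `A'`;
* `chi_liftData`                      : `L'.chi p' = L.chi (comap p')`.
-/
import Mathlib
import Fermat.Agent.Jac.BaseChange75.Tensor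
import Fermat.Agent.Jac.SmallClasses42Field
import Fermat.Agent.Jac.P1CohChi.Main

set_option autoImplicit false
set_option linter.style.haveILetI false
set_option linter.unusedSectionVars false

open TensorProduct

noncomputable section

namespace Fermat.Agent.Jac.ChiBC36

universe u

open JSmooth85Alg BaseChange75

section Linear

variable {K : Type*} [Field K] {M1 N1 M2 N2 : Type*}
  [AddCommGroup M1] [Module K M1] [AddCommGroup N1] [Module K N1]
  [AddCommGroup M2] [Module K M2] [AddCommGroup N2] [Module K N2]

/-- Conjugate linear maps have kernels of the same dimension. -/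
theorem finrank_ker_eq_of_conj (d1 : M1 →ₗ[K] N1) (d2 : M2 →ₗ[K] N2) (eM : M1 ≃ₗ[K] M2)
    (eN : N1 ≃ₗ[K] N2) (h : d2 ∘ₗ eM.toLinearMap = eN.toLinearMap ∘ₗ d1) :
    Module.finrank K (LinearMap.ker d1) = Module.finrank K (LinearMap.ker d2) := by
  have hmap : (LinearMap.ker d1).map eM.toLinearMap = LinearMap.ker d2 := by
    ext y
    simp only [Submodule.mem_map, LinearMap.mem_ker, LinearEquiv.coe_coe]
    constructor
    · rintro ⟨x, hx, rfl⟩
      have := LinearMap.congr_fun h x
      simp only [LinearMap.coe_comp, LinearEquiv.coe_coe, Function.comp_apply] at this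
      rw [this, hx, map_zero]
    · intro hy
      refine ⟨eM.symm y, ?_, by simp⟩
      have := LinearMap.congr_fun h (eM.symm y)
      simp only [LinearMap.coe_comp, LinearEquiv.coe_coe, Function.comp_apply,
        LinearEquiv.apply_symm_apply] at this
      apply eN.injective
      rw [← this, hy, map_zero]
  exact (LinearEquiv.ofSubmodules eM _ _ hmap).finrank_eq

/-- Conjugate linear maps have cokernels of the same dimension. -/
theorem finrank_coker_eq_of_conj (d1 : M1 →ₗ[K] N1) (d2 : M2 →ₗ[K] N2) (eM : M1 ≃ₗ[K] M2)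
    (eN : N1 ≃ₗ[K] N2) (h : d2 ∘ₗ eM.toLinearMap = eN.toLinearMap ∘ₗ d1) :
    Module.finrank K (N1 ⧸ LinearMap.range d1) = Module.finrank K (N2 ⧸ LinearMap.range d2) := by
  have hmap : (LinearMap.range d1).map eN.toLinearMap = LinearMap.range d2 := by
    ext y
    simp only [Submodule.mem_map, LinearMap.mem_range, LinearEquiv.coe_coe]
    constructor
    · rintro ⟨_, ⟨x, rfl⟩, rfl⟩
      refine ⟨eM x, ?_⟩
      have := LinearMap.congr_fun h x
      simpa only [LinearMap.coe_comp, LinearEquiv.coe_coe, Function.comp_apply] using this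
    · rintro ⟨w, rfl⟩
      refine ⟨d1 (eM.symm w), ⟨_, rfl⟩, ?_⟩
      have := LinearMap.congr_fun h (eM.symm w)
      simp only [LinearMap.coe_comp, LinearEquiv.coe_coe, Function.comp_apply,
        LinearEquiv.apply_symm_apply] at this
      exact this.symm
  exact (Submodule.Quotient.equiv _ _ eN hmap).finrank_eq

end Linear

section Iso

variable {A R0 R1 R01 : Type u} [CommRing A] [CommRing R0] [CommRing R1] [CommRing R01]
  [Algebra A R0] [Algebra A R1] [Algebra A R01] [Algebra R0 R01] [Algebra R1 R01]
  [IsScalarTower A R0 R01] [IsScalarTower A R1 R01]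

variable {L L' : QC2 A R0 R1 R01}

/-- The `A`-linear equivalence of the degree-zero terms of the Čech complexes induced by an
isomorphism. -/
def isoProd (e : QC2.Iso L L') : (L.N0 × L.N1) ≃ₗ[A] (L'.N0 × L'.N1) :=
  LinearEquiv.prodCongr (e.e0.restrictScalars A) (e.e1.restrictScalars A)

theorem iso_d_comp (e : QC2.Iso L L') :
    L'.d ∘ₗ (isoProd e).toLinearMap = (e.e01.restrictScalars A).toLinearMap ∘ₗ L.d := by
  apply LinearMap.ext
  rintro ⟨x0, x1⟩
  simp only [isoProd, QC2.d, LinearMap.coe_comp, LinearEquiv.coe_coe, Function.comp_apply,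
    LinearEquiv.prodCongr_apply, LinearMap.coprod_apply, LinearMap.coe_restrictScalars,
    LinearMap.neg_apply, LinearEquiv.restrictScalars_apply, map_add, map_neg, e.comm0, e.comm1]

theorem iso_dBC_comp (e : QC2.Iso L L') (K : Type u) [CommRing K] [Algebra A K] :
    L'.dBC K ∘ₗ ((isoProd e).baseChange A K).toLinearMap =
      ((e.e01.restrictScalars A).baseChange A K).toLinearMap ∘ₗ L.dBC K := by
  have h := congrArg (LinearMap.baseChange K) (iso_d_comp e)
  rw [LinearMap.baseChange_comp, LinearMap.baseChange_comp] at h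
  exact h

/-- The Euler characteristic of a fibre is invariant under isomorphisms. -/
theorem chiField_iso (e : QC2.Iso L L') (K : Type u) [Field K] [Algebra A K] :
    L.chiField K = L'.chiField K := by
  unfold QC2.chiField QC2.H0BC QC2.H1BC
  rw [finrank_ker_eq_of_conj (L.dBC K) (L'.dBC K) _ _ (iso_dBC_comp e K),
    finrank_coker_eq_of_conj (L.dBC K) (L'.dBC K) _ _ (iso_dBC_comp e K)]

/-- The fibrewise Euler characteristic is invariant under isomorphisms. -/
theorem chi_iso (e : QC2.Iso L L') : L.chi = L'.chi :=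
  funext fun _ => chiField_iso e _

end Iso

section Lift

variable {A R0 R1 R01 A' R0' R1' R01' : Type u}
  [CommRing A] [CommRing R0] [CommRing R1] [CommRing R01]
  [Algebra A R0] [Algebra A R1] [Algebra A R01] [Algebra R0 R01] [Algebra R1 R01]
  [IsScalarTower A R0 R01] [IsScalarTower A R1 R01]
  [CommRing A'] [CommRing R0'] [CommRing R1'] [CommRing R01']
  [Algebra A' R0'] [Algebra A' R1'] [Algebra A' R01'] [Algebra R0' R01'] [Algebra R1' R01']
  [IsScalarTower A' R0' R01'] [IsScalarTower A' R1' R01']
  [Algebra R0 R0'] [Algebra R1 R1'] [Algebra R01 R01']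
  [Algebra A A']
  [Algebra A R0'] [IsScalarTower A A' R0'] [IsScalarTower A R0 R0'] [Algebra.IsPushout A A' R0 R0']
  [Algebra A R1'] [IsScalarTower A A' R1'] [IsScalarTower A R1 R1'] [Algebra.IsPushout A A' R1 R1']
  [Algebra A R01'] [IsScalarTower A A' R01'] [IsScalarTower A R01 R01']
  [Algebra.IsPushout A A' R01 R01']

variable {L : QC2 A R0 R1 R01} {L' : QC2 A' R0' R1' R01'}

/-- The Euler characteristic of a fibre of a base change `L'` of `L` along `A → A'` is the Euler
characteristic of the corresponding fibre of `L`. -/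
theorem chiField_liftData (h : LiftData L L') (K : Type u) [Field K] [Algebra A' K] [Algebra A K]
    [IsScalarTower A A' K] : L'.chiField K = L.chiField K := by
  have h2 : L'.dBC K ∘ₗ ((LiftData.eProd h).baseChange A' K).toLinearMap =
      ((LiftData.e01A h).baseChange A' K).toLinearMap ∘ₗ (L.dBC A').baseChange K := by
    have := congrArg (LinearMap.baseChange K) (LiftData.d_comp h)
    rw [LinearMap.baseChange_comp, LinearMap.baseChange_comp] at this
    exact this
  unfold QC2.chiField
  rw [← (FlatBC60.H0BCTransEquiv L A' K).finrank_eq, ← (FlatBC60.H1BCTransEquiv L A' K).finrank_eq]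
  unfold QC2.H0BC QC2.H1BC
  rw [finrank_ker_eq_of_conj _ _ _ _ h2, finrank_coker_eq_of_conj _ _ _ _ h2]

/-- The fibrewise Euler characteristic of a base change `L'` of `L` along `A → A'`, at a prime
`p'` of `A'`, is that of `L` at the contraction of `p'`. -/
theorem chi_liftData (h : LiftData L L') (p' : PrimeSpectrum A') :
    L'.chi p' = L.chi (PrimeSpectrum.comap (algebraMap A A') p') := by
  let p : PrimeSpectrum A := PrimeSpectrum.comap (algebraMap A A') p'
  let j : p.asIdeal.ResidueField →+* p'.asIdeal.ResidueField :=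
    Ideal.ResidueField.map p.asIdeal p'.asIdeal (algebraMap A A') rfl
  letI algK : Algebra p.asIdeal.ResidueField p'.asIdeal.ResidueField := j.toAlgebra
  letI algA : Algebra A p'.asIdeal.ResidueField :=
    ((algebraMap A' p'.asIdeal.ResidueField).comp (algebraMap A A')).toAlgebra
  haveI : IsScalarTower A A' p'.asIdeal.ResidueField :=
    IsScalarTower.of_algebraMap_eq (fun _ => rfl)
  haveI : IsScalarTower A p.asIdeal.ResidueField p'.asIdeal.ResidueField :=
    IsScalarTower.of_algebraMap_eq (fun r =>
      (Ideal.ResidueField.map_algebraMap p.asIdeal p'.asIdeal (algebraMap A A') rfl r).symm)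
  show L'.chiField p'.asIdeal.ResidueField = L.chiField p.asIdeal.ResidueField
  rw [chiField_liftData h p'.asIdeal.ResidueField]
  exact SmallClasses42Field.chiField_eq L p.asIdeal.ResidueField p'.asIdeal.ResidueField

end Lift

section Unit

variable {A R0 R1 R01 A' R0' R1' R01' : Type u}
  [CommRing A] [CommRing R0] [CommRing R1] [CommRing R01]
  [Algebra A R0] [Algebra A R1] [Algebra A R01] [Algebra R0 R01] [Algebra R1 R01]
  [IsScalarTower A R0 R01] [IsScalarTower A R1 R01]
  [CommRing A'] [CommRing R0'] [CommRing R1'] [CommRing R01']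
  [Algebra A' R0'] [Algebra A' R1'] [Algebra A' R01'] [Algebra R0' R01'] [Algebra R1' R01']
  [IsScalarTower A' R0' R01'] [IsScalarTower A' R1' R01']
  [Algebra R0 R0'] [Algebra R1 R1'] [Algebra R01 R01']

/-- The structure sheaf base changes to the structure sheaf. -/
def liftDataUnit
    (hc0 : (algebraMap R0' R01').comp (algebraMap R0 R0') =
      (algebraMap R01 R01').comp (algebraMap R0 R01))
    (hc1 : (algebraMap R1' R01').comp (algebraMap R1 R1') =
      (algebraMap R01 R01').comp (algebraMap R1 R01)) :
    LiftData (QC2.unit : QC2 A R0 R1 R01) (QC2.unit : QC2 A' R0' R1' R01') where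
  e0 := TensorProduct.AlgebraTensorModule.rid R0 R0' R0'
  e1 := TensorProduct.AlgebraTensorModule.rid R1 R1' R1'
  e01 := TensorProduct.AlgebraTensorModule.rid R01 R01' R01'
  comm0 x := by
    show TensorProduct.AlgebraTensorModule.rid R01 R01' R01' (1 ⊗ₜ[R01] algebraMap R0 R01 x) =
      algebraMap R0' R01' (TensorProduct.AlgebraTensorModule.rid R0 R0' R0' (1 ⊗ₜ[R0] x))
    rw [TensorProduct.AlgebraTensorModule.rid_tmul, TensorProduct.AlgebraTensorModule.rid_tmul,
      Algebra.smul_def, Algebra.smul_def, mul_one, mul_one]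
    exact (RingHom.congr_fun hc0 x).symm
  comm1 x := by
    show TensorProduct.AlgebraTensorModule.rid R01 R01' R01' (1 ⊗ₜ[R01] algebraMap R1 R01 x) =
      algebraMap R1' R01' (TensorProduct.AlgebraTensorModule.rid R1 R1' R1' (1 ⊗ₜ[R1] x))
    rw [TensorProduct.AlgebraTensorModule.rid_tmul, TensorProduct.AlgebraTensorModule.rid_tmul,
      Algebra.smul_def, Algebra.smul_def, mul_one, mul_one]
    exact (RingHom.congr_fun hc1 x).symm

end Unit

section Field

variable {k R0 R1 R01 : Type u} [Field k] [CommRing R0] [CommRing R1] [CommRing R01]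
  [Algebra k R0] [Algebra k R1] [Algebra k R01] [Algebra R0 R01] [Algebra R1 R01]
  [IsScalarTower k R0 R01] [IsScalarTower k R1 R01]

/-- Over a field, the fibrewise Euler characteristic is the Euler characteristic. -/
theorem chi_eq_chiField_of_field (L : QC2 k R0 R1 R01) (p : PrimeSpectrum k) :
    L.chi p = L.chiField k :=
  SmallClasses42Field.chiField_eq L k p.asIdeal.ResidueField

end Field

section Tensor

open scoped Fermat.Agent.Jac.BaseChange75

variable {k B0 B1 B01 : Type u} [Field k] [CommRing B0] [CommRing B1] [CommRing B01]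
  [Algebra k B0] [Algebra k B1] [Algebra k B01] [Algebra B0 B01] [Algebra B1 B01]
  [IsScalarTower k B0 B01] [IsScalarTower k B1 B01]
  {A : Type u} [CommRing A] [Algebra k A]
  (A' : Type u) [CommRing A'] [Algebra k A'] [Algebra A A'] [IsScalarTower k A A']

/-- The fibrewise Euler characteristic of the base change to `A'`. -/
theorem chi_baseChange (L : QC2 A (A ⊗[k] B0) (A ⊗[k] B1) (A ⊗[k] B01)) (p' : PrimeSpectrum A') :
    (L.baseChange A').chi p' = L.chi (PrimeSpectrum.comap (algebraMap A A') p') :=
  chi_liftData (baseChange_liftData A' L) p'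

/-- The fibrewise Euler characteristic of any base change (`LiftData`) over the tensor rings. -/
theorem chi_liftData_tensor {L : QC2 A (A ⊗[k] B0) (A ⊗[k] B1) (A ⊗[k] B01)}
    {L' : QC2 A' (A' ⊗[k] B0) (A' ⊗[k] B1) (A' ⊗[k] B01)} (h : LiftData L L')
    (p' : PrimeSpectrum A') :
    L'.chi p' = L.chi (PrimeSpectrum.comap (algebraMap A A') p') :=
  chi_liftData h p'

variable (k B0 B1 B01) in
/-- The Euler characteristic of the structure sheaf of the curve over `k`
(`= 1 - g`), computed on the tensor rings `k ⊗[k] B_i`. -/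
def chiUnit : ℤ :=
  (QC2.unit : QC2 k (k ⊗[k] B0) (k ⊗[k] B1) (k ⊗[k] B01)).chiField k

/-- The structure sheaf has constant fibrewise Euler characteristic `chiUnit`. -/
theorem chi_unit (A : Type u) [CommRing A] [Algebra k A] (p : PrimeSpectrum A) :
    (QC2.unit : QC2 A (A ⊗[k] B0) (A ⊗[k] B1) (A ⊗[k] B01)).chi p = chiUnit k B0 B1 B01 := by
  have h : LiftData (QC2.unit : QC2 k (k ⊗[k] B0) (k ⊗[k] B1) (k ⊗[k] B01))
      (QC2.unit : QC2 A (A ⊗[k] B0) (A ⊗[k] B1) (A ⊗[k] B01)) :=
    liftDataUnit (square_comm k k A B0 B01) (square_comm k k A B1 B01)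
  rw [chi_liftData h p, chi_eq_chiField_of_field]
  rfl

end Tensor

end Fermat.Agent.Jac.ChiBC36
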