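/-
Programme JAC (S25), brick C1 (CurveLocal), ring-level core (helper98).  Mathlib only.

`k` an algebraically closed field, `B` a finite type, formally smooth `k`-algebra which is a domain
and whose module of differentials `Ω[B⁄k]` is cyclic and nonzero (e.g. `B` standard smooth of
relative dimension `1`: coordinate ring of an affine chart of a smooth integral curve).  Then
* `bijective_algebraMap_quotient` : every maximal ideal `m` has residue field `k`;
* `exists_le_span_sup_sq`         : `m = (t) + m²` for some `t ∈ m`;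
* `isDiscreteValuationRing_atPrime` : `B_m` is a discrete valuation ring;
* `isMaximal_of_isPrime`, `isDedekindDomain`, `not_isField`, `infinite_maximalSpectrum`.
-/
import Mathlib

set_option autoImplicit false

open TensorProduct KaehlerDifferential IsLocalRing

namespace Fermat.Agent.Jac.CurveLocal98Ring

/-! ### 1. Residue fields (Nullstellensatz) -/

section Residue

variable (k : Type*) [Field k] [IsAlgClosed k] (B : Type*) [CommRing B] [Algebra k B]
  [Algebra.FiniteType k B]

/-- Nullstellensatz: over an algebraically closed field, maximal ideals of a finite type algebra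
have residue field `k`. -/
theorem bijective_algebraMap_quotient (m : Ideal B) [hm : m.IsMaximal] :
    Function.Bijective (algebraMap k (B ⧸ m)) := by
  let _ := Ideal.Quotient.field m
  have : Module.Finite k (B ⧸ m) := finite_of_finite_type_of_isJacobsonRing k (B ⧸ m)
  have : Algebra.IsIntegral k (B ⧸ m) := Algebra.IsIntegral.of_finite k (B ⧸ m)
  exact IsAlgClosed.algebraMap_bijective_of_isIntegral

end Residue

/-! ### 2. The cotangent space of a rational point of a formally smooth algebra -/

section Cotangent

variable (k : Type*) [Field k] (B : Type*) [CommRing B] [Algebra k B]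
  [Algebra.FormallySmooth k B]

/-- `I/I² → (B/m) ⊗ Ω[B⁄k]` is bijective when `B/m = k`. -/
theorem kerCotangentToTensor_bijective (m : Ideal B)
    (hbij : Function.Bijective (algebraMap k (B ⧸ m))) :
    Function.Bijective (kerCotangentToTensor k B (B ⧸ m)) := by
  have hsurj : Function.Surjective (algebraMap B (B ⧸ m)) := Ideal.Quotient.mk_surjective
  constructor
  · have hfs : Algebra.FormallySmooth k (B ⧸ m) :=
      Algebra.FormallySmooth.of_equiv (AlgEquiv.ofBijective (Algebra.ofId k (B ⧸ m)) hbij)
    obtain ⟨l, hl⟩ := (Algebra.FormallySmooth.iff_split_injection (R := k) (P := B)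
      (A := B ⧸ m) hsurj).mp hfs
    intro x y hxy
    have := congrArg l hxy
    simpa [← LinearMap.comp_apply, hl] using this
  · have hex := exact_kerCotangentToTensor_mapBaseChange k B (B ⧸ m) hsurj
    have : Subsingleton Ω[(B ⧸ m)⁄k] := KaehlerDifferential.subsingleton_of_surjective k _ hbij.2
    intro y
    exact (hex y).mp (Subsingleton.elim _ _)

theorem ker_algebraMap_quotient (m : Ideal B) : RingHom.ker (algebraMap B (B ⧸ m)) = m := by
  rw [Ideal.Quotient.algebraMap_eq, Ideal.mk_ker]

/-- If `Ω[B⁄k]` is generated by one element, an ideal `m` with `B/m = k` is generated by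
one element modulo its square. -/
theorem exists_le_span_sup_sq (m : Ideal B)
    (hbij : Function.Bijective (algebraMap k (B ⧸ m)))
    (ω : Ω[B⁄k]) (hω : ∀ η : Ω[B⁄k], ∃ f : B, η = f • ω) :
    ∃ t ∈ m, m ≤ Ideal.span {t} ⊔ m ^ 2 := by
  obtain ⟨hinj, hsurj⟩ := kerCotangentToTensor_bijective k B m hbij
  have hI : RingHom.ker (algebraMap B (B ⧸ m)) = m := ker_algebraMap_quotient B m
  obtain ⟨c, hc⟩ := hsurj ((1 : B ⧸ m) ⊗ₜ[B] ω)
  obtain ⟨⟨t, ht⟩, rfl⟩ := Ideal.toCotangent_surjective _ c
  rw [kerCotangentToTensor_toCotangent] at hc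
  have htm : t ∈ m := hI ▸ ht
  refine ⟨t, htm, fun x hx => ?_⟩
  have hxI : x ∈ RingHom.ker (algebraMap B (B ⧸ m)) := hI.symm ▸ hx
  obtain ⟨f, hf⟩ := hω (D k B x)
  have hzI : x - f * t ∈ RingHom.ker (algebraMap B (B ⧸ m)) :=
    Ideal.sub_mem _ hxI (Ideal.mul_mem_left _ f ht)
  have ht0 : algebraMap B (B ⧸ m) t = 0 := RingHom.mem_ker.mp ht
  have hz : kerCotangentToTensor k B (B ⧸ m) (Ideal.toCotangent _ ⟨x - f * t, hzI⟩) = 0 := by
    rw [kerCotangentToTensor_toCotangent]
    have hc' : (1 : B ⧸ m) ⊗ₜ[B] (D k B t) = 1 ⊗ₜ[B] ω := hc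
    have h0 : t • ((1 : B ⧸ m) ⊗ₜ[B] (D k B f)) = 0 := by
      rw [smul_tmul', Algebra.smul_def, mul_one, ht0, zero_tmul]
    show (1 : B ⧸ m) ⊗ₜ[B] (D k B (x - f * t)) = 0
    rw [map_sub, Derivation.leibniz, tmul_sub, tmul_add, hf, tmul_smul, tmul_smul, tmul_smul,
      hc', h0, add_zero, sub_self]
  have hz' : Ideal.toCotangent _ (⟨x - f * t, hzI⟩ : RingHom.ker (algebraMap B (B ⧸ m))) = 0 :=
    hinj (by rw [hz, map_zero])
  rw [Ideal.toCotangent_eq_zero] at hz'
  have hz2 : x - f * t ∈ m ^ 2 := by
    have := hz'
    simp only at this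
    rwa [hI] at this
  have : x = f * t + (x - f * t) := by ring
  rw [this]
  exact Submodule.add_mem_sup (Ideal.mem_span_singleton'.mpr ⟨f, rfl⟩) hz2

end Cotangent

/-! ### 3. Nakayama and localisation -/

section Local

/-- In a noetherian local domain which is not a field, if the maximal ideal is generated by one
element modulo its square, the ring is a discrete valuation ring. -/
theorem isDiscreteValuationRing_of_le_span_sup_sq {A : Type*} [CommRing A] [IsDomain A]
    [IsNoetherianRing A] [IsLocalRing A] (hA : ¬ IsField A) {t : A} (ht : t ∈ maximalIdeal A)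
    (h : maximalIdeal A ≤ Ideal.span {t} ⊔ maximalIdeal A ^ 2) :
    IsDiscreteValuationRing A := by
  have hle : maximalIdeal A ≤ Ideal.span {t} := by
    refine Submodule.le_of_le_smul_of_le_jacobson_bot (I := maximalIdeal A)
      (IsNoetherian.noetherian _) (IsLocalRing.maximalIdeal_le_jacobson _) ?_
    rwa [smul_eq_mul, ← pow_two]
  have heq : maximalIdeal A = Ideal.span {t} :=
    le_antisymm hle ((Ideal.span_singleton_le_iff_mem _).mpr ht)
  have hprin : (maximalIdeal A).IsPrincipal := ⟨⟨t, heq⟩⟩
  exact ((IsDiscreteValuationRing.TFAE A hA).out 0 4).mpr hprin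

/-- Localisation step: a nonzero prime `m` of a noetherian domain with `m = (t) + m²` has a
discrete valuation ring as localisation. -/
theorem isDiscreteValuationRing_of_isLocalization {B : Type*} [CommRing B] [IsDomain B]
    [IsNoetherianRing B] (m : Ideal B) [hm : m.IsPrime] (hm0 : m ≠ ⊥) {t : B} (ht : t ∈ m)
    (h : m ≤ Ideal.span {t} ⊔ m ^ 2)
    (A : Type*) [CommRing A] [IsDomain A] [Algebra B A] [IsLocalization.AtPrime A m] :
    IsDiscreteValuationRing A := by
  have hloc : IsLocalRing A := IsLocalization.AtPrime.isLocalRing A m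
  have hnoeth : IsNoetherianRing A := IsLocalization.isNoetherianRing m.primeCompl A inferInstance
  have hmax : Ideal.map (algebraMap B A) m = maximalIdeal A :=
    IsLocalization.AtPrime.map_eq_maximalIdeal m A
  have hinj : Function.Injective (algebraMap B A) :=
    IsLocalization.injective A (Ideal.primeCompl_le_nonZeroDivisors m)
  refine isDiscreteValuationRing_of_le_span_sup_sq (t := algebraMap B A t) ?_ ?_ ?_
  · intro hfield
    have h0 : maximalIdeal A = ⊥ := IsLocalRing.isField_iff_maximalIdeal_eq.mp hfield
    apply hm0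
    rw [eq_bot_iff]
    intro x hx
    have : algebraMap B A x ∈ maximalIdeal A := hmax ▸ Ideal.mem_map_of_mem _ hx
    rw [h0, Ideal.mem_bot] at this
    exact (Ideal.mem_bot).mpr (hinj (by rw [this, map_zero]))
  · rw [← hmax]; exact Ideal.mem_map_of_mem _ ht
  · have := Ideal.map_mono (f := algebraMap B A) h
    rwa [Ideal.map_sup, Ideal.map_pow, Ideal.map_span, Set.image_singleton, hmax] at this

end Local

end Fermat.Agent.Jac.CurveLocal98Ring
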