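/-
Programme JAC (S25), brick C1a (CurveLocal), ring-level core, part 2 (helper98).

Assembly: for `k` algebraically closed and `B` a `k`-algebra which is a domain and standard smooth
of relative dimension one (resp. locally so), all localisations at maximal ideals are discrete
valuation rings, `B` is a Dedekind domain, not a field, residue fields are `k`, and `B` has
infinitely many maximal ideals.
-/
import Fermat.Agent.Jac.CurveLocal98Ring

set_option autoImplicit false

open TensorProduct KaehlerDifferential IsLocalRing

namespace Fermat.Agent.Jac.CurveLocal98Dedekind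

open Fermat.Agent.Jac.CurveLocal98Ring

/-! ### 1. Pure algebra: domains whose localisations at maximal ideals are DVRs -/

section General

variable {B : Type*} [CommRing B] [IsDomain B]

/-- In a domain all of whose localisations at maximal ideals are discrete valuation rings, every
nonzero prime ideal is maximal. -/
theorem isMaximal_of_isPrime
    (h : ∀ (m : Ideal B) [m.IsMaximal], IsDiscreteValuationRing (Localization.AtPrime m))
    (P : Ideal B) [hP : P.IsPrime] (hP0 : P ≠ ⊥) : P.IsMaximal := by
  obtain ⟨m, hm, hPm⟩ := Ideal.exists_le_maximal P hP.ne_top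
  have := hm
  have := h m
  have hdisj : Disjoint (m.primeCompl : Set B) P := by
    rw [Set.disjoint_left]
    intro x hx hxP
    exact hx (hPm hxP)
  have hprime : (Ideal.map (algebraMap B (Localization.AtPrime m)) P).IsPrime :=
    IsLocalization.isPrime_of_isPrime_disjoint m.primeCompl _ P hP hdisj
  have hcomap : Ideal.comap (algebraMap B (Localization.AtPrime m))
      (Ideal.map (algebraMap B (Localization.AtPrime m)) P) = P :=
    IsLocalization.under_map_of_isPrime_disjoint m.primeCompl _ hP hdisj
  have hinj : Function.Injective (algebraMap B (Localization.AtPrime m)) :=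
    IsLocalization.injective _ (Ideal.primeCompl_le_nonZeroDivisors m)
  have hne : Ideal.map (algebraMap B (Localization.AtPrime m)) P ≠ ⊥ := fun h0 =>
    hP0 ((Ideal.map_eq_bot_iff_of_injective hinj).mp h0)
  have hmaxl : Ideal.map (algebraMap B (Localization.AtPrime m)) P =
      maximalIdeal (Localization.AtPrime m) :=
    IsLocalRing.eq_maximalIdeal (hprime.isMaximal hne)
  have hPm' : P = m := by
    rw [← hcomap, hmaxl]
    exact IsLocalization.AtPrime.under_maximalIdeal (Localization.AtPrime m) m
  exact hPm' ▸ hm

/-- A noetherian domain all of whose localisations at maximal ideals are discrete valuation rings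
is a Dedekind domain. -/
theorem isDedekindDomain_of_forall_dvr [IsNoetherianRing B]
    (h : ∀ (m : Ideal B) [m.IsMaximal], IsDiscreteValuationRing (Localization.AtPrime m)) :
    IsDedekindDomain B := by
  have hd : IsDedekindDomainDvr B :=
    { is_dvr_at_nonzero_prime := fun P hP0 hP => by
        have := hP
        have := isMaximal_of_isPrime h P hP0
        exact h P }
  infer_instance

end General

/-! ### 2. Finite type domains over a field have infinitely many maximal ideals -/

section Infinite

/-- A finite type domain over a field which is not a field has infinitely many maximal ideals. -/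
theorem infinite_maximalSpectrum (k : Type*) [Field k] (B : Type*) [CommRing B] [Algebra k B]
    [Algebra.FiniteType k B] [IsDomain B] (hB : ¬ IsField B) : Infinite (MaximalSpectrum B) := by
  have hJ : IsJacobsonRing B := isJacobsonRing_of_finiteType (A := k) (B := B)
  rw [← not_finite_iff_infinite]
  intro hfin
  have hfin' : Fintype (MaximalSpectrum B) := Fintype.ofFinite _
  -- the product of all maximal ideals is nonzero ...
  have hprod : (∏ m : MaximalSpectrum B, m.asIdeal) ≠ ⊥ := by
    rw [← Ideal.zero_eq_bot, Ne, Finset.prod_eq_zero_iff]
    rintro ⟨m, -, hm0⟩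
    have hmax : (⊥ : Ideal B).IsMaximal := by
      rw [← Ideal.zero_eq_bot, ← hm0]
      exact m.isMaximal
    exact hB (Ring.isField_iff_maximal_bot.mpr hmax)
  -- ... but contained in the Jacobson radical, which is zero
  have hjac : Ideal.jacobson (⊥ : Ideal B) = ⊥ :=
    hJ.out (Ideal.isRadical_bot (R := B))
  apply hprod
  rw [eq_bot_iff, ← hjac, Ideal.jacobson, le_sInf_iff]
  rintro J ⟨-, hJmax⟩
  exact (Ideal.prod_le_inf.trans (Finset.inf_le (Finset.mem_univ (⟨J, hJmax⟩ : MaximalSpectrum B))))

end Infinite

/-! ### 3. Standard smooth algebras of relative dimension one -/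

section StdSmooth

variable (k : Type*) [Field k] (B : Type*) [CommRing B] [Algebra k B]
  [Algebra.IsStandardSmoothOfRelativeDimension 1 k B]

/-- For `B` standard smooth of relative dimension one, `Ω[B⁄k]` is generated by one nonzero
element. -/
theorem exists_generator_kaehler [Nontrivial B] :
    ∃ ω : Ω[B⁄k], ω ≠ 0 ∧ ∀ η : Ω[B⁄k], ∃ f : B, η = f • ω := by
  have : Algebra.IsStandardSmooth k B :=
    Algebra.IsStandardSmoothOfRelativeDimension.isStandardSmooth 1
  have hr : Module.rank B Ω[B⁄k] = 1 := by
    simpa using
      Algebra.IsStandardSmoothOfRelativeDimension.rank_kaehlerDifferential (R := k) (S := B) 1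
  obtain ⟨ω, hω0, hω⟩ := rank_eq_one_iff.mp hr
  exact ⟨ω, hω0, fun η => let ⟨f, hf⟩ := hω η; ⟨f, hf.symm⟩⟩

/-- A nonzero standard smooth algebra of relative dimension one is not a quotient of `k`. -/
theorem not_surjective_algebraMap [Nontrivial B] : ¬ Function.Surjective (algebraMap k B) := by
  intro hs
  have : Subsingleton Ω[B⁄k] := KaehlerDifferential.subsingleton_of_surjective k B hs
  obtain ⟨ω, hω0, -⟩ := exists_generator_kaehler k B
  exact hω0 (Subsingleton.elim _ _)

variable [IsAlgClosed k] [IsDomain B]

include k

/-- Maximal ideals are nonzero. -/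
theorem maximal_ne_bot (m : Ideal B) [hm : m.IsMaximal] : m ≠ ⊥ := by
  intro hm0
  have : Algebra.IsStandardSmooth k B :=
    Algebra.IsStandardSmoothOfRelativeDimension.isStandardSmooth 1
  have hb := bijective_algebraMap_quotient k B m
  apply not_surjective_algebraMap k B
  intro b
  obtain ⟨c, hc⟩ := hb.2 (Ideal.Quotient.mk m b)
  refine ⟨c, ?_⟩
  have h1 : Ideal.Quotient.mk m (algebraMap k B c) = Ideal.Quotient.mk m b := by
    rw [← hc]; rfl
  rwa [Ideal.Quotient.eq, hm0, Ideal.mem_bot, sub_eq_zero] at h1

theorem not_isField : ¬ IsField B := fun hf =>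
  haveI := Ring.isField_iff_maximal_bot.mp hf
  maximal_ne_bot k B ⊥ rfl

/-- **Local structure.** Any localisation of `B` at a maximal ideal is a discrete valuation
ring. -/
theorem isDiscreteValuationRing_of_isLocalization_atPrime (m : Ideal B) [hm : m.IsMaximal]
    (A : Type*) [CommRing A] [IsDomain A] [Algebra B A] [IsLocalization.AtPrime A m] :
    IsDiscreteValuationRing A := by
  have : Algebra.IsStandardSmooth k B :=
    Algebra.IsStandardSmoothOfRelativeDimension.isStandardSmooth 1
  have hN : IsNoetherianRing B := Algebra.FiniteType.isNoetherianRing k B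
  obtain ⟨ω, -, hω⟩ := exists_generator_kaehler k B
  obtain ⟨t, ht, hle⟩ := exists_le_span_sup_sq k B m (bijective_algebraMap_quotient k B m) ω hω
  exact isDiscreteValuationRing_of_isLocalization m (maximal_ne_bot k B m) ht hle A

theorem isDiscreteValuationRing_atPrime (m : Ideal B) [hm : m.IsMaximal] :
    IsDiscreteValuationRing (Localization.AtPrime m) :=
  isDiscreteValuationRing_of_isLocalization_atPrime k B m _

theorem isDedekindDomain : IsDedekindDomain B := by
  have : Algebra.IsStandardSmooth k B :=
    Algebra.IsStandardSmoothOfRelativeDimension.isStandardSmooth 1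
  have hN : IsNoetherianRing B := Algebra.FiniteType.isNoetherianRing k B
  exact isDedekindDomain_of_forall_dvr (fun m _ => isDiscreteValuationRing_atPrime k B m)

theorem infinite_maximalSpectrum_of_stdSmooth : Infinite (MaximalSpectrum B) := by
  have : Algebra.IsStandardSmooth k B :=
    Algebra.IsStandardSmoothOfRelativeDimension.isStandardSmooth 1
  exact infinite_maximalSpectrum k B (not_isField k B)

end StdSmooth

/-! ### 4. Locally standard smooth algebras of relative dimension one

This is the shape delivered by `AlgebraicGeometry.SmoothOfRelativeDimension 1` on an arbitrary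
affine open (`HasRingHomProperty.appLE`). -/

section Locally

universe u

variable (k : Type u) [Field k] (B : Type u) [CommRing B] [Algebra k B]

/-- Unfolding of `RingHom.Locally` for an algebra map. -/
theorem exists_span_eq_top_stdSmooth
    (h : (algebraMap k B).Locally (RingHom.IsStandardSmoothOfRelativeDimension 1)) :
    ∃ s : Set B, Ideal.span s = ⊤ ∧
      ∀ t ∈ s, Algebra.IsStandardSmoothOfRelativeDimension 1 k (Localization.Away t) := by
  obtain ⟨s, hs, hP⟩ := h
  refine ⟨s, hs, fun t ht => ?_⟩
  have := hP t ht
  rwa [← IsScalarTower.algebraMap_eq, RingHom.isStandardSmoothOfRelativeDimension_algebraMap]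
    at this

theorem smooth_of_locally
    (h : (algebraMap k B).Locally (RingHom.IsStandardSmoothOfRelativeDimension 1)) :
    Algebra.Smooth k B := by
  rw [← RingHom.smooth_algebraMap, RingHom.smooth_iff_locally_isStandardSmooth]
  exact RingHom.locally_of_locally (fun hf => hf.isStandardSmooth) h

theorem finiteType_of_locally
    (h : (algebraMap k B).Locally (RingHom.IsStandardSmoothOfRelativeDimension 1)) :
    Algebra.FiniteType k B := by
  have := smooth_of_locally k B h
  infer_instance

theorem isNoetherianRing_of_locally
    (h : (algebraMap k B).Locally (RingHom.IsStandardSmoothOfRelativeDimension 1)) :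
    IsNoetherianRing B := by
  have := finiteType_of_locally k B h
  exact Algebra.FiniteType.isNoetherianRing k B

/-- Around every maximal ideal there is a standard smooth principal open. -/
theorem exists_away_of_locally
    (h : (algebraMap k B).Locally (RingHom.IsStandardSmoothOfRelativeDimension 1))
    (m : Ideal B) [hm : m.IsMaximal] :
    ∃ t : B, t ∉ m ∧ Algebra.IsStandardSmoothOfRelativeDimension 1 k (Localization.Away t) := by
  obtain ⟨s, hs, hP⟩ := exists_span_eq_top_stdSmooth k B h
  by_contra hcon
  push Not at hcon
  have hsm : Ideal.span s ≤ m := Ideal.span_le.mpr (fun t ht => by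
    by_contra htm
    exact hcon t htm (hP t ht))
  rw [hs] at hsm
  exact hm.ne_top (top_le_iff.mp hsm)

variable [IsAlgClosed k] [IsDomain B]
  (h : (algebraMap k B).Locally (RingHom.IsStandardSmoothOfRelativeDimension 1))

include h

omit [IsDomain B] in
/-- Residue fields of maximal ideals are `k`. -/
theorem bijective_algebraMap_quotient_of_locally (m : Ideal B) [hm : m.IsMaximal] :
    Function.Bijective (algebraMap k (B ⧸ m)) := by
  have := finiteType_of_locally k B h
  exact bijective_algebraMap_quotient k B m

omit [IsAlgClosed k] [IsDomain B] in
/-- Passage to a standard smooth principal open around a maximal ideal. -/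
theorem exists_away_maximal (m : Ideal B) [hm : m.IsMaximal] :
    ∃ t : B, t ∉ m ∧ t ≠ 0 ∧
      Algebra.IsStandardSmoothOfRelativeDimension 1 k (Localization.Away t) ∧
      (Ideal.map (algebraMap B (Localization.Away t)) m).IsMaximal ∧
      Ideal.comap (algebraMap B (Localization.Away t))
        (Ideal.map (algebraMap B (Localization.Away t)) m) = m := by
  obtain ⟨t, htm, hP⟩ := exists_away_of_locally k B h m
  have hft := finiteType_of_locally k B h
  have hJ : IsJacobsonRing B := isJacobsonRing_of_finiteType (A := k) (B := B)
  refine ⟨t, htm, fun h0 => htm (h0 ▸ m.zero_mem), hP,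
    IsLocalization.isMaximal_of_isMaximal_disjoint t m hm htm,
    IsLocalization.under_map_of_isPrime_disjoint (Submonoid.powers t) _ hm.isPrime
      ((Ideal.disjoint_powers_iff_notMem_of_isPrime t).mpr htm)⟩

theorem maximal_ne_bot_of_locally (m : Ideal B) [hm : m.IsMaximal] : m ≠ ⊥ := by
  obtain ⟨t, htm, ht0, hP, hmax, hcomap⟩ := exists_away_maximal k B h m
  have hdom : IsDomain (Localization.Away t) :=
    IsLocalization.isDomain_localization (powers_le_nonZeroDivisors_of_noZeroDivisors ht0)
  intro hm0
  apply maximal_ne_bot k (Localization.Away t) (Ideal.map (algebraMap B (Localization.Away t)) m)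
  rw [hm0, Ideal.map_bot]

theorem not_isField_of_locally : ¬ IsField B := fun hf =>
  haveI := Ring.isField_iff_maximal_bot.mp hf
  maximal_ne_bot_of_locally k B h ⊥ rfl

/-- **Local structure, general affine chart.** The localisation at any maximal ideal is a
discrete valuation ring. -/
theorem isDiscreteValuationRing_atPrime_of_locally (m : Ideal B) [hm : m.IsMaximal] :
    IsDiscreteValuationRing (Localization.AtPrime m) := by
  obtain ⟨t, htm, ht0, hP, hmax, hcomap⟩ := exists_away_maximal k B h m
  have hdom : IsDomain (Localization.Away t) :=
    IsLocalization.isDomain_localization (powers_le_nonZeroDivisors_of_noZeroDivisors ht0)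
  have hdvr : IsDiscreteValuationRing
      (Localization.AtPrime (Ideal.map (algebraMap B (Localization.Away t)) m)) :=
    isDiscreteValuationRing_atPrime k (Localization.Away t) _
  have hloc0 : IsLocalization.AtPrime
      (Localization.AtPrime (Ideal.map (algebraMap B (Localization.Away t)) m))
      (Ideal.comap (algebraMap B (Localization.Away t))
        (Ideal.map (algebraMap B (Localization.Away t)) m)) := inferInstance
  have hloc : IsLocalization m.primeCompl
      (Localization.AtPrime (Ideal.map (algebraMap B (Localization.Away t)) m)) := by
    have := hloc0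
    simp only [hcomap] at this
    exact this
  let e : Localization.AtPrime (Ideal.map (algebraMap B (Localization.Away t)) m) ≃ₐ[B]
      Localization.AtPrime m := IsLocalization.algEquiv m.primeCompl _ _
  exact IsDiscreteValuationRing.RingEquivClass.isDiscreteValuationRing e

/-- Any localisation at a maximal ideal is a discrete valuation ring. -/
theorem isDiscreteValuationRing_of_isLocalization_of_locally (m : Ideal B) [hm : m.IsMaximal]
    (A : Type*) [CommRing A] [IsDomain A] [Algebra B A] [IsLocalization.AtPrime A m] :
    IsDiscreteValuationRing A := by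
  have := isDiscreteValuationRing_atPrime_of_locally k B h m
  let e : Localization.AtPrime m ≃ₐ[B] A := IsLocalization.algEquiv m.primeCompl _ _
  exact IsDiscreteValuationRing.RingEquivClass.isDiscreteValuationRing e

theorem isDedekindDomain_of_locally : IsDedekindDomain B := by
  have hN : IsNoetherianRing B := isNoetherianRing_of_locally k B h
  exact isDedekindDomain_of_forall_dvr
    (fun m _ => isDiscreteValuationRing_atPrime_of_locally k B h m)

theorem infinite_maximalSpectrum_of_locally : Infinite (MaximalSpectrum B) := by
  have := finiteType_of_locally k B h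
  exact infinite_maximalSpectrum k B (not_isField_of_locally k B h)

/-- Every nonzero prime ideal is maximal. -/
theorem isMaximal_of_isPrime_of_locally (P : Ideal B) [hP : P.IsPrime] (hP0 : P ≠ ⊥) :
    P.IsMaximal :=
  isMaximal_of_isPrime (fun m _ => isDiscreteValuationRing_atPrime_of_locally k B h m) P hP0

end Locally

end Fermat.Agent.Jac.CurveLocal98Dedekind
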