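/-
Programme JAC (S25), brick C1c (CurveBaseChange), part 1 (helper98).  Mathlib only.

Points of `K ⊗[k] B` coming from `k`-points of `B`.

Let `k` be a field, `B` a `k`-algebra, `Q : B →ₐ[k] k` a `k`-point with kernel `m`, and `K` any
commutative `k`-algebra (in the application: a field).  Then the extended ideal
`mK := m.map includeRight ⊆ K ⊗[k] B` is the kernel of the `K`-point `a ⊗ b ↦ a * Q b`; it is
`K`-rational, maximal when `K` is a field, contracts to `m`, and it is an invertible
`K ⊗[k] B`-module as soon as `m` is an invertible `B`-module (e.g. `B` Dedekind, `m ≠ 0`).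
-/
import Mathlib
import Fermat.Agent.Jac.CurveLocal98Dedekind

set_option autoImplicit false

open TensorProduct

namespace Fermat.Agent.Jac.CurveBaseChange98Point

/-! ### 1. The extended ideal of a rational point -/

section Point

variable {k : Type*} [Field k] (K : Type*) [CommRing K] [Algebra k K]
  {B : Type*} [CommRing B] [Algebra k B]

variable (k) in
/-- The extension of an ideal of `B` to `K ⊗[k] B`. -/
def extIdeal (m : Ideal B) : Ideal (K ⊗[k] B) :=
  Ideal.map (Algebra.TensorProduct.includeRight : B →ₐ[k] K ⊗[k] B) m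

theorem tmul_mem_extIdeal (m : Ideal B) (a : K) {b : B} (hb : b ∈ m) :
    a ⊗ₜ[k] b ∈ extIdeal k K m := by
  have h1 : (a ⊗ₜ[k] b : K ⊗[k] B) = (a ⊗ₜ[k] (1 : B)) * ((1 : K) ⊗ₜ[k] b) := by
    rw [Algebra.TensorProduct.tmul_mul_tmul, mul_one, one_mul]
  rw [h1]
  exact Ideal.mul_mem_left _ _ (Ideal.mem_map_of_mem _ hb)

/-- The `K`-point of `K ⊗[k] B` induced by a `k`-point `Q` of `B`: `a ⊗ b ↦ a * Q b`. -/
noncomputable def pointK (Q : B →ₐ[k] k) : K ⊗[k] B →ₐ[K] K :=
  Algebra.TensorProduct.lift (AlgHom.id K K) ((Algebra.ofId k K).comp Q)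
    (fun _ _ => Commute.all _ _)

@[simp]
theorem pointK_tmul (Q : B →ₐ[k] k) (a : K) (b : B) :
    pointK K Q (a ⊗ₜ[k] b) = a * algebraMap k K (Q b) := by
  simp [pointK, Algebra.ofId_apply]

/-- Every element of `K ⊗[k] B` is congruent to a constant modulo the extended ideal of a
`k`-point. -/
theorem exists_sub_mem_extIdeal (Q : B →ₐ[k] k) (x : K ⊗[k] B) :
    ∃ a : K, x - a ⊗ₜ[k] (1 : B) ∈ extIdeal k K (RingHom.ker Q) := by
  induction x using TensorProduct.induction_on with
  | zero => exact ⟨0, by simp⟩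
  | tmul a b =>
    refine ⟨a * algebraMap k K (Q b), ?_⟩
    have hb : b - algebraMap k B (Q b) ∈ RingHom.ker Q := by
      rw [RingHom.mem_ker, map_sub, AlgHom.commutes, Algebra.algebraMap_self,
        RingHom.id_apply, sub_self]
    have h2 : (a * algebraMap k K (Q b)) ⊗ₜ[k] (1 : B) = a ⊗ₜ[k] (algebraMap k B (Q b)) := by
      rw [Algebra.algebraMap_eq_smul_one (R := k) (A := B) (Q b), tmul_smul, smul_tmul',
        Algebra.smul_def, mul_comm]
    have h1 : a ⊗ₜ[k] b - (a * algebraMap k K (Q b)) ⊗ₜ[k] (1 : B) =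
        a ⊗ₜ[k] (b - algebraMap k B (Q b)) := by
      rw [tmul_sub, h2]
    rw [h1]
    exact tmul_mem_extIdeal K _ a hb
  | add x y hx hy =>
    obtain ⟨a, ha⟩ := hx
    obtain ⟨b, hb⟩ := hy
    refine ⟨a + b, ?_⟩
    have : x + y - (a + b) ⊗ₜ[k] (1 : B) = (x - a ⊗ₜ[k] (1 : B)) + (y - b ⊗ₜ[k] (1 : B)) := by
      rw [add_tmul]; ring
    rw [this]
    exact Ideal.add_mem _ ha hb

/-- The extended ideal of a `k`-point is the kernel of the induced `K`-point. -/
theorem ker_pointK (Q : B →ₐ[k] k) :
    RingHom.ker (pointK K Q) = extIdeal k K (RingHom.ker Q) := by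
  apply le_antisymm
  · intro x hx
    obtain ⟨a, ha⟩ := exists_sub_mem_extIdeal K Q x
    have h0 : pointK K Q (x - a ⊗ₜ[k] (1 : B)) = 0 := by
      have hle : extIdeal k K (RingHom.ker Q) ≤ RingHom.ker (pointK K Q) := by
        rw [extIdeal, Ideal.map_le_iff_le_comap]
        intro b hb
        rw [Ideal.mem_comap, RingHom.mem_ker]
        show pointK K Q ((1 : K) ⊗ₜ[k] b) = 0
        rw [pointK_tmul, (RingHom.mem_ker).mp hb, map_zero, mul_zero]
      exact (RingHom.mem_ker).mp (hle ha)
    rw [map_sub, (RingHom.mem_ker).mp hx, pointK_tmul, map_one, map_one, mul_one, zero_sub,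
      neg_eq_zero] at h0
    rw [h0, zero_tmul, sub_zero] at ha
    exact ha
  · rw [extIdeal, Ideal.map_le_iff_le_comap]
    intro b hb
    rw [Ideal.mem_comap, RingHom.mem_ker]
    show pointK K Q ((1 : K) ⊗ₜ[k] b) = 0
    rw [pointK_tmul, (RingHom.mem_ker).mp hb, map_zero, mul_zero]

theorem pointK_surjective (Q : B →ₐ[k] k) : Function.Surjective (pointK K Q) := fun a =>
  ⟨a ⊗ₜ[k] (1 : B), by rw [pointK_tmul, map_one, map_one, mul_one]⟩

/-- The extended ideal of a `k`-point is `K`-rational. -/
theorem rational_extIdeal (Q : B →ₐ[k] k) :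
    Function.Surjective (algebraMap K ((K ⊗[k] B) ⧸ extIdeal k K (RingHom.ker Q))) := by
  intro y
  obtain ⟨x, rfl⟩ := Ideal.Quotient.mk_surjective y
  obtain ⟨a, ha⟩ := exists_sub_mem_extIdeal K Q x
  refine ⟨a, ?_⟩
  rw [IsScalarTower.algebraMap_apply K (K ⊗[k] B) ((K ⊗[k] B) ⧸ extIdeal k K (RingHom.ker Q)),
    Ideal.Quotient.algebraMap_eq, eq_comm, Ideal.Quotient.eq,
    Algebra.TensorProduct.algebraMap_apply, Algebra.algebraMap_self, RingHom.id_apply]
  exact ha

end Point

/-! ### 2. Maximality and contraction (`K` a field) -/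

section Field

variable {k : Type*} [Field k] (K : Type*) [Field K] [Algebra k K]
  {B : Type*} [CommRing B] [Algebra k B]

theorem isMaximal_extIdeal (Q : B →ₐ[k] k) : (extIdeal k K (RingHom.ker Q)).IsMaximal := by
  rw [← ker_pointK]
  exact RingHom.ker_isMaximal_of_surjective (pointK K Q) (pointK_surjective K Q)

/-- The extended ideal of a maximal ideal contracts to that ideal, as soon as it is proper. -/
theorem comap_extIdeal (m : Ideal B) [hm : m.IsMaximal] (hne : extIdeal k K m ≠ ⊤) :
    Ideal.comap (Algebra.TensorProduct.includeRight : B →ₐ[k] K ⊗[k] B) (extIdeal k K m) = m := by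
  symm
  apply hm.eq_of_le
  · intro h
    apply hne
    rw [Ideal.eq_top_iff_one]
    have h1 : (1 : B) ∈ Ideal.comap (Algebra.TensorProduct.includeRight : B →ₐ[k] K ⊗[k] B)
        (extIdeal k K m) := h ▸ Submodule.mem_top
    rw [Ideal.mem_comap, map_one] at h1
    exact h1
  · exact Ideal.le_comap_map

theorem comap_extIdeal_ker (Q : B →ₐ[k] k) :
    Ideal.comap (Algebra.TensorProduct.includeRight : B →ₐ[k] K ⊗[k] B)
      (extIdeal k K (RingHom.ker Q)) = RingHom.ker Q := by
  have : (RingHom.ker Q).IsMaximal :=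
    RingHom.ker_isMaximal_of_surjective Q (fun c => ⟨algebraMap k B c, by simp⟩)
  exact comap_extIdeal K _ (isMaximal_extIdeal K Q).ne_top

end Field

/-! ### 3. Flatness of `K ⊗[k] B` over `B` and invertibility of extended ideals -/

section Invertible

attribute [local instance] Algebra.TensorProduct.rightAlgebra

/-- `K ⊗[k] B` is flat over `B` (right algebra structure) when `K` is flat over `k`. -/
theorem flat_rightAlgebra (k K B : Type*) [CommRing k] [CommRing K] [Algebra k K] [CommRing B]
    [Algebra k B] [Module.Flat k K] : Module.Flat B (K ⊗[k] B) :=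
  Module.Flat.isBaseChange (R := k) (M := K) (S := B) (K ⊗[k] B)
    (TensorProduct.isPushout' (R := k) (S := K) (T := B)).out

variable {R S : Type*} [CommRing R] [CommRing S] [Algebra R S]

/-- For a flat `R`-algebra `S` and an ideal `I` of `R`, `S ⊗[R] I ≃ I S`. -/
noncomputable def tensorEquivMap [Module.Flat R S] (I : Ideal R) :
    S ⊗[R] I ≃ₗ[S] (I.map (algebraMap R S)) := by
  let f : S ⊗[R] I →ₗ[S] S :=
    (AlgebraTensorModule.rid R S S).toLinearMap.comp (AlgebraTensorModule.lTensor S S I.subtype)
  have hf_tmul : ∀ (s : S) (a : I), f (s ⊗ₜ[R] a) = (a : R) • s := by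
    intro s a
    simp [f]
  have hf : Function.Injective f := by
    have h1 : Function.Injective (AlgebraTensorModule.lTensor S S I.subtype) := by
      have := Module.Flat.lTensor_preserves_injective_linearMap (M := S) I.subtype
        Subtype.val_injective
      exact this
    exact (AlgebraTensorModule.rid R S S).injective.comp h1
  have hr : LinearMap.range f = I.map (algebraMap R S) := by
    apply le_antisymm
    · rintro _ ⟨z, rfl⟩
      induction z using TensorProduct.induction_on with
      | zero => simp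
      | tmul s a =>
        rw [hf_tmul, Algebra.smul_def]
        exact Ideal.mul_mem_right _ _ (Ideal.mem_map_of_mem _ a.2)
      | add z z' hz hz' =>
        rw [map_add]
        exact Ideal.add_mem _ hz hz'
    · rw [Ideal.map, Ideal.span_le]
      rintro _ ⟨a, ha, rfl⟩
      refine ⟨(1 : S) ⊗ₜ[R] (⟨a, ha⟩ : I), ?_⟩
      rw [hf_tmul, Algebra.smul_def, mul_one]
  exact (LinearEquiv.ofInjective f hf).trans (LinearEquiv.ofEq _ _ hr)

/-- Extension of an invertible ideal along a flat algebra is an invertible module. -/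
theorem invertible_map_of_flat [Module.Flat R S] (I : Ideal R) [Module.Invertible R I] :
    Module.Invertible S (I.map (algebraMap R S)) :=
  Module.Invertible.congr (tensorEquivMap (S := S) I)

/-- The extended ideal `mK ⊆ K ⊗[k] B` of an invertible ideal `m` of `B` is an invertible
module. -/
theorem invertible_extIdeal {k : Type*} [Field k] (K : Type*) [CommRing K] [Algebra k K]
    {B : Type*} [CommRing B] [Algebra k B] (m : Ideal B) [Module.Invertible B m] :
    Module.Invertible (K ⊗[k] B) (extIdeal k K m) := by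
  have := flat_rightAlgebra k K B
  exact invertible_map_of_flat (R := B) (S := K ⊗[k] B) m

end Invertible

/-! ### 4. Nonzero ideals of Dedekind domains are invertible modules -/

section Dedekind

open scoped nonZeroDivisors

theorem invertible_of_ne_bot {B : Type*} [CommRing B] [IsDedekindDomain B] (I : Ideal B)
    (hI : I ≠ ⊥) : Module.Invertible B I := by
  have hJ : (I : FractionalIdeal B⁰ (FractionRing B)) ≠ 0 :=
    FractionalIdeal.coeIdeal_ne_zero.mpr hI
  let u : (FractionalIdeal B⁰ (FractionRing B))ˣ := Units.mk0 _ hJ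
  let v : (Submodule B (FractionRing B))ˣ :=
    Units.map (FractionalIdeal.coeSubmoduleHom B⁰ (FractionRing B)).toMonoidHom u
  have hv : (v : Submodule B (FractionRing B)) =
      Submodule.map (Algebra.linearMap B (FractionRing B)) I := rfl
  have hinv : Module.Invertible B (v : Submodule B (FractionRing B)) := inferInstance
  have e : I ≃ₗ[B] (v : Submodule B (FractionRing B)) :=
    (Submodule.equivMapOfInjective (Algebra.linearMap B (FractionRing B))
      (IsFractionRing.injective B (FractionRing B)) I).trans (LinearEquiv.ofEq _ _ hv.symm)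
  exact Module.Invertible.congr e.symm

end Dedekind

/-! ### 5. The points of `K ⊗[k] B` coming from maximal ideals of `B` (`k` algebraically closed) -/

section AlgClosed

variable (k : Type*) [Field k] [IsAlgClosed k] (B : Type*) [CommRing B] [Algebra k B]
  [Algebra.FiniteType k B]

/-- Nullstellensatz: a maximal ideal of a finite type algebra over an algebraically closed field is
the kernel of a `k`-point. -/
theorem exists_point_of_isMaximal (m : Ideal B) [hm : m.IsMaximal] :
    ∃ Q : B →ₐ[k] k, RingHom.ker Q = m := by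
  have hbij := CurveLocal98Ring.bijective_algebraMap_quotient k B m
  let e : k ≃ₐ[k] B ⧸ m := AlgEquiv.ofBijective (Algebra.ofId k (B ⧸ m)) hbij
  refine ⟨(e.symm : (B ⧸ m) →ₐ[k] k).comp (Ideal.Quotient.mkₐ k m), ?_⟩
  ext x
  rw [RingHom.mem_ker]
  show e.symm (Ideal.Quotient.mkₐ k m x) = 0 ↔ x ∈ m
  rw [map_eq_zero_iff _ e.symm.injective, Ideal.Quotient.mkₐ_eq_mk, Ideal.Quotient.eq_zero_iff_mem]

variable (K : Type*) [Field K] [Algebra k K]

/-- The `K`-points of `K ⊗[k] B` coming from the maximal ideals (= `k`-points) of `B`. -/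
def Pts : Set (Ideal (K ⊗[k] B)) :=
  Set.range (fun m : MaximalSpectrum B => extIdeal k K m.asIdeal)

omit [IsAlgClosed k] [Algebra.FiniteType k B] in
theorem mem_pts_iff (p : Ideal (K ⊗[k] B)) :
    p ∈ Pts k B K ↔ ∃ m : Ideal B, m.IsMaximal ∧ extIdeal k K m = p := by
  constructor
  · rintro ⟨m, rfl⟩
    exact ⟨m.asIdeal, m.isMaximal, rfl⟩
  · rintro ⟨m, hm, rfl⟩
    exact ⟨⟨m, hm⟩, rfl⟩

/-- Every member of `Pts` is the kernel of a `K`-point induced by a `k`-point. -/
theorem exists_point_of_mem_pts {p : Ideal (K ⊗[k] B)} (hp : p ∈ Pts k B K) :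
    ∃ Q : B →ₐ[k] k, p = extIdeal k K (RingHom.ker Q) ∧ p = RingHom.ker (pointK K Q) := by
  obtain ⟨m, rfl⟩ := hp
  have := m.isMaximal
  obtain ⟨Q, hQ⟩ := exists_point_of_isMaximal k B m.asIdeal
  refine ⟨Q, by simp only [hQ], ?_⟩
  rw [ker_pointK, hQ]

theorem isMaximal_of_mem_pts {p : Ideal (K ⊗[k] B)} (hp : p ∈ Pts k B K) : p.IsMaximal := by
  obtain ⟨Q, rfl, -⟩ := exists_point_of_mem_pts k B K hp
  exact isMaximal_extIdeal K Q

theorem rational_of_mem_pts {p : Ideal (K ⊗[k] B)} (hp : p ∈ Pts k B K) :
    Function.Surjective (algebraMap K ((K ⊗[k] B) ⧸ p)) := by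
  obtain ⟨Q, rfl, -⟩ := exists_point_of_mem_pts k B K hp
  exact rational_extIdeal K Q

/-- Different maximal ideals of `B` give different points of `K ⊗[k] B`. -/
theorem extIdeal_injective :
    Function.Injective (fun m : MaximalSpectrum B => extIdeal k K m.asIdeal) := by
  intro m m' h
  have hm := m.isMaximal
  have hm' := m'.isMaximal
  have h1 := comap_extIdeal K m.asIdeal (isMaximal_of_mem_pts k B K ⟨m, rfl⟩).ne_top
  have h2 := comap_extIdeal K m'.asIdeal (isMaximal_of_mem_pts k B K ⟨m', rfl⟩).ne_top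
  apply MaximalSpectrum.ext
  rw [← h1, ← h2]
  exact congrArg _ h

/-- If `B` is a domain and not a field, there are infinitely many such points. -/
theorem pts_infinite [IsDomain B] (hB : ¬ IsField B) : (Pts k B K).Infinite := by
  have := CurveLocal98Dedekind.infinite_maximalSpectrum k B hB
  exact Set.infinite_range_of_injective (extIdeal_injective k B K)

omit [IsAlgClosed k] [Algebra.FiniteType k B] in
/-- For a Dedekind domain `B` (not a field) all these points are invertible modules. -/
theorem invertible_of_mem_pts [IsDedekindDomain B] (hB : ¬ IsField B) {p : Ideal (K ⊗[k] B)}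
    (hp : p ∈ Pts k B K) : Module.Invertible (K ⊗[k] B) p := by
  obtain ⟨m, rfl⟩ := hp
  have hm0 : m.asIdeal ≠ ⊥ := by
    intro h0
    apply hB
    rw [Ring.isField_iff_maximal_bot, ← h0]
    exact m.isMaximal
  have := invertible_of_ne_bot m.asIdeal hm0
  exact invertible_extIdeal K m.asIdeal

end AlgClosed

end Fermat.Agent.Jac.CurveBaseChange98Point
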