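/-
Programme JAC (S25), brick A1d "FlatBC+Support", part (4)  (helper60).

McCoy-type injectivity.  Let `R` be an `A`-algebra which is free as an `A`-module and all of whose
fibres `κ(p) ⊗[A] R` (`p` a prime of `A`) are domains (e.g. `R = A ⊗[k] B` with `B` a
geometrically integral algebra over a field `k`).  Let `N` be a projective `R`-module and `x : N`
an element whose image in `κ(p) ⊗[A] N` is nonzero for every prime `p` of `A`.  Then
`r ↦ r • x : R → N` is injective.  No noetherian hypothesis on `A`.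
-/
import Mathlib

set_option autoImplicit false
set_option linter.unusedSectionVars false

open TensorProduct

namespace Fermat.Agent.Jac.FlatBC60McCoy

section Core

variable {A : Type*} [CommRing A] {R : Type*} [CommRing R] [Algebra A R]

/-- The multiplication map `R ⊗[A] 𝔫 → R` for an ideal `𝔫` of `A`. -/
noncomputable def mulMap (𝔫 : Ideal A) : R ⊗[A] 𝔫 →ₗ[R] R :=
  LinearMap.liftBaseChange R ((Algebra.linearMap A R) ∘ₗ (Submodule.subtype 𝔫))

@[simp] theorem mulMap_tmul (𝔫 : Ideal A) (s : R) (n : 𝔫) :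
    mulMap (R := R) 𝔫 (s ⊗ₜ[A] n) = s * algebraMap A R (n : A) := by
  simp [mulMap]

/-- For flat `R`, the multiplication map `R ⊗[A] 𝔫 → R` is injective. -/
theorem mulMap_injective [Module.Flat A R] (𝔫 : Ideal A) :
    Function.Injective (mulMap (R := R) 𝔫) := by
  have h1 : Function.Injective ((Submodule.subtype 𝔫).lTensor R) :=
    Module.Flat.lTensor_preserves_injective_linearMap _ (Submodule.injective_subtype 𝔫)
  have h2 : ∀ z : R ⊗[A] 𝔫,
      mulMap (R := R) 𝔫 z = TensorProduct.rid A R ((Submodule.subtype 𝔫).lTensor R z) := by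
    intro z
    induction z using TensorProduct.induction_on with
    | zero => simp
    | tmul s n => simp [Algebra.smul_def, mul_comm]
    | add z z' hz hz' => simp only [map_add, hz, hz']
  intro z z' h
  rw [h2, h2] at h
  exact h1 ((TensorProduct.rid A R).injective h)

/-- In `R ⊗[A] κ` the scalar action of `y : R` is multiplication by `y ⊗ 1`. -/
theorem smul_eq_tmul_one_mul {κ : Type*} [CommRing κ] [Algebra A κ] (y : R) (z : R ⊗[A] κ) :
    y • z = (y ⊗ₜ[A] (1 : κ)) * z := by
  induction z using TensorProduct.induction_on with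
  | zero => simp
  | tmul s c =>
    rw [TensorProduct.smul_tmul', Algebra.TensorProduct.tmul_mul_tmul, one_mul, smul_eq_mul]
  | add z z' hz hz' => rw [smul_add, mul_add, hz, hz']

/-- **McCoy-type lemma, core form.**  `R` free over `A` with all fibres `κ(p) ⊗[A] R` domains.
If `r : R` is killed by a set `Y ⊆ R` which is nonzero in every fibre, then `r = 0`. -/
theorem eq_zero_of_mul_eq_zero_of_fibrewise_ne_zero [Module.Free A R]
    (hdom : ∀ p : PrimeSpectrum A, IsDomain (p.asIdeal.ResidueField ⊗[A] R))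
    (Y : Set R)
    (hY : ∀ p : PrimeSpectrum A, ∃ y ∈ Y, (1 : p.asIdeal.ResidueField) ⊗ₜ[A] y ≠ 0)
    (r : R) (hr : ∀ y ∈ Y, y * r = 0) : r = 0 := by
  classical
  by_contra hr0
  let b := Module.Free.chooseBasis A R
  set a := b.repr r with ha
  let 𝔫 : Ideal A := Ideal.span (Set.range a)
  let g : (Module.Free.ChooseBasisIndex A R) → 𝔫 :=
    fun j => ⟨a j, Ideal.subset_span (Set.mem_range_self j)⟩
  have hfg : Module.Finite A 𝔫 :=
    Module.Finite.iff_fg.mpr (Submodule.fg_span a.finite_range)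
  have ha0 : a ≠ 0 := by
    intro h
    apply hr0
    have := b.repr.injective (h.trans (map_zero b.repr).symm)
    exact this
  have hnt : Nontrivial 𝔫 := by
    obtain ⟨j, hj⟩ : ∃ j, a j ≠ 0 := by
      by_contra hall
      push Not at hall
      exact ha0 (Finsupp.ext hall)
    refine ⟨⟨g j, 0, ?_⟩⟩
    intro h
    exact hj (congrArg Subtype.val h)
  obtain ⟨p, hp⟩ := Module.nonempty_support_of_nontrivial (R := A) (M := 𝔫)
  rw [Module.mem_support_iff_nontrivial_residueField_tensorProduct] at hp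
  set κ := p.asIdeal.ResidueField with hκ
  -- some generator survives in the fibre
  have hj0 : ∃ j0, (1 : κ) ⊗ₜ[A] g j0 ≠ 0 := by
    by_contra hall
    push Not at hall
    have hgen : ∀ (v : A) (hv : v ∈ 𝔫), (1 : κ) ⊗ₜ[A] (⟨v, hv⟩ : 𝔫) = 0 := by
      intro v hv
      refine Submodule.span_induction
        (p := fun v hv => (1 : κ) ⊗ₜ[A] (⟨v, hv⟩ : 𝔫) = 0) ?_ ?_ ?_ ?_ hv
      · rintro _ ⟨j, rfl⟩
        exact hall j
      · exact TensorProduct.tmul_zero _ _
      · intro v w hv hw h1 h2
        have : (⟨v + w, Submodule.add_mem _ hv hw⟩ : 𝔫) = ⟨v, hv⟩ + ⟨w, hw⟩ := rfl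
        rw [this, TensorProduct.tmul_add, h1, h2, add_zero]
      · intro c v hv h1
        have : (⟨c • v, Submodule.smul_mem _ c hv⟩ : 𝔫) = c • ⟨v, hv⟩ := rfl
        rw [this, TensorProduct.tmul_smul, h1, smul_zero]
    have hsub : Subsingleton (κ ⊗[A] 𝔫) := by
      refine ⟨fun z z' => ?_⟩
      have hz : ∀ z : κ ⊗[A] 𝔫, z = 0 := by
        intro z
        induction z using TensorProduct.induction_on with
        | zero => rfl
        | tmul c n =>
          have : c ⊗ₜ[A] n = c • ((1 : κ) ⊗ₜ[A] n) := by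
            rw [TensorProduct.smul_tmul', smul_eq_mul, mul_one]
          rw [this, hgen n.1 n.2, smul_zero]
        | add z z' hz hz' => rw [hz, hz', add_zero]
      rw [hz z, hz z']
    exact not_subsingleton _ hsub
  obtain ⟨j0, hj0⟩ := hj0
  obtain ⟨φ, hφ⟩ : ∃ φ : Module.Dual κ (κ ⊗[A] 𝔫), φ ((1 : κ) ⊗ₜ[A] g j0) ≠ 0 := by
    by_contra h
    push Not at h
    exact hj0 ((Module.forall_dual_apply_eq_zero_iff κ _).mp h)
  let lam : 𝔫 →ₗ[A] κ := (φ.restrictScalars A) ∘ₗ (TensorProduct.mk A κ 𝔫 1)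
  have hlam : lam (g j0) ≠ 0 := hφ
  let Lam : R ⊗[A] 𝔫 →ₗ[R] R ⊗[A] κ := lam.baseChange R
  let ρ : R ⊗[A] 𝔫 := ∑ j ∈ a.support, b j ⊗ₜ[A] g j
  have hμρ : mulMap (R := R) 𝔫 ρ = r := by
    simp only [ρ, map_sum, mulMap_tmul, g]
    have h1 := b.linearCombination_repr r
    rw [Finsupp.linearCombination_apply, Finsupp.sum] at h1
    rw [← h1]
    refine Finset.sum_congr rfl fun j _ => ?_
    rw [Algebra.smul_def, mul_comm]
  have hyρ : ∀ y ∈ Y, y • ρ = 0 := fun y hy =>
    mulMap_injective (R := R) 𝔫 (by rw [map_smul, hμρ, smul_eq_mul, hr y hy, map_zero])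
  have hyL : ∀ y ∈ Y, y • Lam ρ = 0 := fun y hy => by rw [← map_smul, hyρ y hy, map_zero]
  -- `Lam ρ ≠ 0`, detected by the `j0`-th coordinate
  have hj0supp : j0 ∈ a.support := by
    rw [Finsupp.mem_support_iff]
    intro h
    apply hj0
    have : g j0 = 0 := Subtype.ext h
    rw [this, TensorProduct.tmul_zero]
  have hLne : Lam ρ ≠ 0 := by
    intro h
    let π : R ⊗[A] κ →ₗ[A] κ := (TensorProduct.lid A κ).toLinearMap ∘ₗ ((b.coord j0).rTensor κ)
    have h1 : π (Lam ρ) = lam (g j0) := by
      simp only [ρ, Lam, map_sum, LinearMap.baseChange_tmul, π, LinearMap.coe_comp,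
        LinearEquiv.coe_coe, Function.comp_apply, LinearMap.rTensor_tmul, TensorProduct.lid_tmul,
        Module.Basis.coord_apply, Module.Basis.repr_self]
      rw [Finset.sum_eq_single j0]
      · simp
      · intro j _ hj
        rw [Finsupp.single_eq_of_ne hj.symm, zero_smul]
      · intro hj
        exact absurd hj0supp hj
    rw [h, map_zero] at h1
    exact hlam h1.symm
  have : IsDomain (κ ⊗[A] R) := hdom p
  have : IsDomain (R ⊗[A] κ) :=
    MulEquiv.isDomain (κ ⊗[A] R) (Algebra.TensorProduct.comm A R κ).toMulEquiv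
  obtain ⟨y, hyY, hy⟩ := hY p
  have h1 : (y ⊗ₜ[A] (1 : κ)) * Lam ρ = 0 := by
    rw [← smul_eq_tmul_one_mul]
    exact hyL y hyY
  have h2 : y ⊗ₜ[A] (1 : κ) = 0 := (mul_eq_zero.mp h1).resolve_right hLne
  apply hy
  have := congrArg (Algebra.TensorProduct.comm A R κ) h2
  simpa using this

/-- **McCoy-type lemma for projective modules.**  `R` free over `A` with all fibres
`κ(p) ⊗[A] R` domains, `N` a projective `R`-module, `x : N` nonzero in every fibre
`κ(p) ⊗[A] N`.  Then `r ↦ r • x` is injective. -/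
theorem smul_injective_of_fibrewise_ne_zero [Module.Free A R]
    (hdom : ∀ p : PrimeSpectrum A, IsDomain (p.asIdeal.ResidueField ⊗[A] R))
    {N : Type*} [AddCommGroup N] [Module R N] [Module A N] [IsScalarTower A R N]
    [Module.Projective R N] (x : N)
    (hx : ∀ p : PrimeSpectrum A, (1 : p.asIdeal.ResidueField) ⊗ₜ[A] x ≠ 0) :
    Function.Injective (fun r : R => r • x) := by
  classical
  obtain ⟨s, hs⟩ := Module.projective_def'.mp (inferInstance : Module.Projective R N)
  let Y : Set R := Set.range (fun n : N => s x n)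
  intro r r' h
  have h0 : (r - r') • x = 0 := by
    rw [sub_smul]
    exact sub_eq_zero.mpr h
  suffices hsub : r - r' = 0 from sub_eq_zero.mp hsub
  refine eq_zero_of_mul_eq_zero_of_fibrewise_ne_zero hdom Y ?_ (r - r') ?_
  · intro p
    by_contra hall
    push Not at hall
    apply hx p
    have hx' : x = (s x).sum fun n c => c • n := by
      have := LinearMap.congr_fun hs x
      simpa [Finsupp.linearCombination_apply] using this.symm
    rw [hx', Finsupp.sum, TensorProduct.tmul_sum]
    refine Finset.sum_eq_zero fun n _ => ?_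
    have hc : (1 : p.asIdeal.ResidueField) ⊗ₜ[A] (s x n) = 0 := hall _ ⟨n, rfl⟩
    let T : R →ₗ[A] N := (LinearMap.toSpanSingleton R N n).restrictScalars A
    have := congrArg (T.lTensor p.asIdeal.ResidueField) hc
    simpa [T] using this
  · rintro _ ⟨n, rfl⟩
    have h1 : s ((r - r') • x) n = (r - r') * s x n := by
      rw [map_smul]
      rfl
    rw [h0, map_zero] at h1
    rw [mul_comm]
    exact h1.symm

end Core

section Tensor

variable {k : Type*} [Field k] {A : Type*} [CommRing A] [Algebra k A]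
  {B : Type*} [CommRing B] [Algebra k B]

/-- The fibres of `A ⊗[k] B` over `A` are `κ(p) ⊗[k] B`. -/
theorem isDomain_fibre_of_isDomain_tensor (p : PrimeSpectrum A)
    (h : IsDomain (p.asIdeal.ResidueField ⊗[k] B)) :
    IsDomain (p.asIdeal.ResidueField ⊗[A] (A ⊗[k] B)) :=
  MulEquiv.isDomain (p.asIdeal.ResidueField ⊗[k] B)
    (Algebra.TensorProduct.cancelBaseChange k A p.asIdeal.ResidueField
      p.asIdeal.ResidueField B).toMulEquiv

/-- **McCoy-type lemma**, tensor form: `B` a `k`-algebra (`k` a field) with `κ(p) ⊗[k] B` a domain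
for every prime `p` of the `k`-algebra `A`; `N` a projective `A ⊗[k] B`-module; `x : N` nonzero in
every fibre `κ(p) ⊗[A] N`.  Then `r ↦ r • x : A ⊗[k] B → N` is injective. -/
theorem smul_injective_of_fibrewise_ne_zero_tensor
    (hB : ∀ p : PrimeSpectrum A, IsDomain (p.asIdeal.ResidueField ⊗[k] B))
    {N : Type*} [AddCommGroup N] [Module (A ⊗[k] B) N] [Module A N]
    [IsScalarTower A (A ⊗[k] B) N] [Module.Projective (A ⊗[k] B) N] (x : N)
    (hx : ∀ p : PrimeSpectrum A, (1 : p.asIdeal.ResidueField) ⊗ₜ[A] x ≠ 0) :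
    Function.Injective (fun r : A ⊗[k] B => r • x) :=
  smul_injective_of_fibrewise_ne_zero
    (fun p => isDomain_fibre_of_isDomain_tensor p (hB p)) x hx

end Tensor

end Fermat.Agent.Jac.FlatBC60McCoy
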