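/-
Programme JAC (S25), helper60, brick R2a piece (HC-U): the universal object of the Hilbert chart.

Setting of `AlgChart76/HilbCore.lean`: `c0 : TwoChart k B0 B1 B01` over an algebraically closed
field `k`, `B0` a finitely generated Dedekind `k`-algebra, `c0.FiniteProjOverLine`, `c0.t`
transcendental; `v : Fin g → B0`.  For every `k`-algebra `A` and every point
`I0 ∈ HilbChart87.HilbV k v A` of the Hilbert chart:

* `hilbBundle c0 hc ht v A I0 hI = O(Z(I0))` (`= ofDivisor cA (IdealPair.ofChart0 cA I0) _`,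
  `cA = c0.baseChange A`), `isLine_hilbBundle`, `hilbSection`;
* `rigidifiable_hilbBundle` : rigidifiable at every point at infinity `P0` (`P0 c0.s = 0`);
* `chi_hilbBundle` : fibrewise Euler characteristic `chiUnit + g`;
* `sectionIdeal_hilbBundle` (Lemma U), `le_sectionIdeal_hilbBundle`;
* `liftDataHilbBundle`, `bcRel_hilbBundle` : compatibility with base change;
* `hilbObj : (stdFam P0 1).Obj A`, `bc_hilbObj`, `univObj : (stdFam P0 1).Obj (HV k x v)`,
  `bc_univObj`.
-/
import Mathlib
import Fermat.Agent.Jac.ConverseDiv60Props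
import Fermat.Agent.Jac.AlgChart76.HilbCore
import Fermat.Agent.Jac.Chart43.RelCartierHilb
import Fermat.Agent.Jac.HilbChart87.Main
import Fermat.Agent.Jac.BaseChange75.Tensor

set_option autoImplicit false
set_option linter.unusedSectionVars false
set_option linter.style.haveILetI false

open TensorProduct Polynomial

namespace Fermat.Agent.Jac.ConverseDiv60Hilb

open scoped Fermat.Agent.Jac.BaseChange75
open Fermat.Agent.Jac Fermat.Agent.Jac.LineOps39 Fermat.Agent.Jac.JSmooth85Alg
open Fermat.Agent.Jac.BaseChange75 Fermat.Agent.Jac.AlgChart76 Fermat.Agent.Jac.HilbChart87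
open Fermat.Agent.Jac.ConverseDiv60Props

universe u

variable {k : Type u} [Field k] [IsAlgClosed k] {B0 B1 B01 : Type u}
  [CommRing B0] [CommRing B1] [CommRing B01]
  [Algebra k B0] [Algebra k B1] [Algebra k B01] [Algebra B0 B01] [Algebra B1 B01]
  [IsScalarTower k B0 B01] [IsScalarTower k B1 B01]
  [Algebra.FiniteType k B0] [IsDedekindDomain B0]
  (c0 : TwoChart k B0 B1 B01) (hc : c0.FiniteProjOverLine) (ht : Transcendental k c0.t)
  {g : ℕ} (v : Fin g → B0)

section Inst

variable {A : Type u} [CommRing A] [Algebra k A] {I0 : Ideal (A ⊗[k] B0)}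

theorem finite_of_mem (hI : I0 ∈ HilbV k v A) : Module.Finite A ((A ⊗[k] B0) ⧸ I0) :=
  HilbV.finite hI

theorem free_of_mem (hI : I0 ∈ HilbV k v A) : Module.Free A ((A ⊗[k] B0) ⧸ I0) :=
  HilbV.free hI

theorem flat_of_mem (hI : I0 ∈ HilbV k v A) : Module.Flat A ((A ⊗[k] B0) ⧸ I0) :=
  have := HilbV.free hI
  inferInstance

include hc ht in
theorem invertible_of_mem (hI : I0 ∈ HilbV k v A) : Module.Invertible (A ⊗[k] B0) I0 := by
  have hproj := (hc.baseChange A).proj0
  have hflat : Module.Flat A[X] (Module.AEval A (A ⊗[k] B0) ((1 : A) ⊗ₜ[k] c0.t)) := by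
    have : Module.Projective A[X] (Module.AEval A (A ⊗[k] B0) ((1 : A) ⊗ₜ[k] c0.t)) := hproj
    infer_instance
  exact Chart43.invertible_of_mem_hilbV c0.t ht v hI

end Inst

section RigidHom

variable {A R0 R1 R01 : Type u} [CommRing A] [CommRing R0] [CommRing R1] [CommRing R01]
  [Algebra A R0] [Algebra A R1] [Algebra A R01] [Algebra R0 R01] [Algebra R1 R01]
  [IsScalarTower A R0 R01] [IsScalarTower A R1 R01]
  (c : TwoChart A R0 R1 R01)

/-- Ring-homomorphism form of `nonempty_rigid_divisorBundle` (no ambient algebra instance). -/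
theorem nonempty_rigid_divisorBundle_hom {B : Type u} [CommRing B] (ev : R1 →+* B)
    (hs : ev c.s = 0) (I0 : Ideal R0) [Module.Finite A (R0 ⧸ I0)] [Module.Invertible R0 I0] :
    letI := ev.toAlgebra
    Nonempty (B ⊗[R1] (divisorBundle c I0).N1 ≃ₗ[B] B) := by
  letI := ev.toAlgebra
  exact nonempty_rigid_divisorBundle c hs I0

/-- Ring-homomorphism form of `nonempty_rigid_ofIdeals`. -/
theorem nonempty_rigid_ofIdeals_hom {B : Type u} [CommRing B] (ev : R1 →+* B)
    (hs : ev c.s = 0) (I0 : Ideal R0) [Module.Finite A (R0 ⧸ I0)] [Module.Invertible R0 I0] :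
    letI := ev.toAlgebra
    Nonempty (B ⊗[R1] (ofIdeals c (IdealPair.ofChart0 c I0)).N1 ≃ₗ[B] B) := by
  letI := ev.toAlgebra
  exact nonempty_rigid_ofIdeals c hs I0

end RigidHom

section SectionIdeal

variable {A R0 R1 R01 : Type u} [CommRing A] [CommRing R0] [CommRing R1] [CommRing R01]
  [Algebra A R0] [Algebra A R1] [Algebra A R01] [Algebra R0 R01] [Algebra R1 R01]
  [IsScalarTower A R0 R01] [IsScalarTower A R1 R01]
  (c : TwoChart A R0 R1 R01)

/-- The section ideal of `O(Z)` contains `I0`. -/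
theorem le_sectionIdeal_divisorBundle (I0 : Ideal R0) [Module.Finite A (R0 ⧸ I0)]
    [Module.Invertible R0 I0] : I0 ≤ sectionIdeal (divisorBundle c I0) := by
  intro x hx
  obtain ⟨φ, hφ⟩ := (exists_dual_divisorSection_iff c I0 x).2 hx
  rw [← hφ]
  exact mem_sectionIdeal_of _ (divisorSection c I0) φ

/-- **Lemma U**: if the canonical section generates `H⁰(O(Z))`, the section ideal of `O(Z)` is
`I0`. -/
theorem sectionIdeal_divisorBundle (I0 : Ideal R0) [Module.Finite A (R0 ⧸ I0)]
    [Module.Invertible R0 I0]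
    (hgen : ∀ σ : (divisorBundle c I0).H0, ∃ a : A, σ = a • divisorSection c I0) :
    sectionIdeal (divisorBundle c I0) = I0 := by
  ext x
  rw [mem_sectionIdeal_iff_of_generator _ (divisorSection c I0) hgen x,
    ← exists_dual_divisorSection_iff c I0 x]
  constructor
  · rintro ⟨φ, h⟩; exact ⟨φ, h.symm⟩
  · rintro ⟨φ, h⟩; exact ⟨φ, h.symm⟩

end SectionIdeal

section Bundle

variable (A : Type u) [CommRing A] [Algebra k A] (I0 : Ideal (A ⊗[k] B0))

/-- **The object `O(Z(I0))` of a point `I0` of the Hilbert chart.** -/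
noncomputable def hilbBundle (hI : I0 ∈ HilbV k v A) : QCA k B0 B1 B01 A :=
  haveI := finite_of_mem v hI
  haveI := invertible_of_mem c0 hc ht v hI
  divisorBundle (c0.baseChange A) I0

theorem isLine_hilbBundle (hI : I0 ∈ HilbV k v A) : (hilbBundle c0 hc ht v A I0 hI).IsLine :=
  haveI := finite_of_mem v hI
  haveI := invertible_of_mem c0 hc ht v hI
  isLine_divisorBundle (c0.baseChange A) I0

/-- The canonical section of `O(Z(I0))`. -/
noncomputable def hilbSection (hI : I0 ∈ HilbV k v A) : (hilbBundle c0 hc ht v A I0 hI).H0 :=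
  haveI := finite_of_mem v hI
  haveI := invertible_of_mem c0 hc ht v hI
  divisorSection (c0.baseChange A) I0

/-- `O(Z(I0))` is rigidifiable at every point at infinity. -/
theorem rigidifiable_hilbBundle (P0 : B1 →ₐ[k] k) (hP0 : P0 c0.s = 0) (hI : I0 ∈ HilbV k v A) :
    Rigidifiable P0 (hilbBundle c0 hc ht v A I0 hI) := by
  haveI := finite_of_mem v hI
  haveI := invertible_of_mem c0 hc ht v hI
  have hs : (evalA P0 A).toRingHom (c0.baseChange A).s = 0 := by
    show evalA P0 A ((1 : A) ⊗ₜ[k] c0.s) = 0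
    rw [evalA_tmul, hP0, map_zero, mul_zero]
  exact nonempty_rigid_divisorBundle_hom (c0.baseChange A) (evalA P0 A).toRingHom hs I0

/-- **Lemma U for the Hilbert chart**: if the canonical section generates `H⁰`, the section ideal
of `O(Z(I0))` is `I0`. -/
theorem sectionIdeal_hilbBundle (hI : I0 ∈ HilbV k v A)
    (hgen : ∀ σ : (hilbBundle c0 hc ht v A I0 hI).H0,
      ∃ a : A, σ = a • hilbSection c0 hc ht v A I0 hI) :
    sectionIdeal (hilbBundle c0 hc ht v A I0 hI) = I0 :=
  haveI := finite_of_mem v hI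
  haveI := invertible_of_mem c0 hc ht v hI
  sectionIdeal_divisorBundle (c0.baseChange A) I0 hgen

theorem le_sectionIdeal_hilbBundle (hI : I0 ∈ HilbV k v A) :
    I0 ≤ sectionIdeal (hilbBundle c0 hc ht v A I0 hI) :=
  haveI := finite_of_mem v hI
  haveI := invertible_of_mem c0 hc ht v hI
  le_sectionIdeal_divisorBundle (c0.baseChange A) I0

/-- The fibre of `(A ⊗ B0) ⧸ I0` at any `A`-field has dimension `g`, for `I0` in the Hilbert chart. -/
theorem finrank_fibre_of_mem (hI : I0 ∈ HilbV k v A) (K : Type u) [Field K] [Algebra A K] :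
    Module.finrank K (K ⊗[A] ((A ⊗[k] B0) ⧸ I0)) = g := by
  rw [Module.finrank_eq_card_basis ((quotBasis I0 hI).baseChange K), Fintype.card_fin]

/-- `O(Z(I0))` has fibrewise Euler characteristic `χ(O) + g`. -/
theorem chi_hilbBundle (hI : I0 ∈ HilbV k v A) (p : PrimeSpectrum A) :
    (hilbBundle c0 hc ht v A I0 hI).chi p = ChiBC36.chiUnit k B0 B1 B01 + g := by
  haveI := finite_of_mem v hI
  haveI := flat_of_mem v hI
  haveI := invertible_of_mem c0 hc ht v hI
  have key := chiField_divisorBundle_fibre (K := p.asIdeal.ResidueField)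
    (square_comm k A p.asIdeal.ResidueField B0 B01)
    (square_comm k A p.asIdeal.ResidueField B1 B01) (c0.baseChange A)
    (c0.baseChange p.asIdeal.ResidueField)
    (algebraMap_baseChange_s c0 A p.asIdeal.ResidueField)
    (hc.baseChange p.asIdeal.ResidueField) I0
  show (divisorBundle (c0.baseChange A) I0).chiField p.asIdeal.ResidueField = _
  rw [key, finrank_fibre_of_mem v A I0 hI]
  congr 1
  exact ChiBC36.chi_unit A p

end Bundle

section BaseChange

variable {A A' : Type u} [CommRing A] [CommRing A'] [Algebra k A] [Algebra k A']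

/-- The structure map `A ⊗ B → A' ⊗ B` of the tensor rings is `HilbChart87.tmap`. -/
theorem algebraMap_eq_tmap [Algebra A A'] [IsScalarTower k A A'] (B : Type u) [CommRing B]
    [Algebra k B] (z : A ⊗[k] B) :
    algebraMap (A ⊗[k] B) (A' ⊗[k] B) z = HilbChart87.tmap (IsScalarTower.toAlgHom k A A') z := by
  induction z using TensorProduct.induction_on with
  | zero => simp
  | add x y hx hy => rw [map_add, map_add, hx, hy]
  | tmul a b => rw [algebraMap_left_tmul, HilbChart87.tmap_tmul]; rfl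

theorem map_algebraMap_eq_map_tmap [Algebra A A'] [IsScalarTower k A A'] (B : Type u) [CommRing B]
    [Algebra k B] (I : Ideal (A ⊗[k] B)) :
    I.map (algebraMap (A ⊗[k] B) (A' ⊗[k] B)) =
      Ideal.map (HilbChart87.tmap (IsScalarTower.toAlgHom k A A')) I := by
  have h : (algebraMap (A ⊗[k] B) (A' ⊗[k] B)) =
      ((HilbChart87.tmap (IsScalarTower.toAlgHom k A A') : A ⊗[k] B →ₐ[k] A' ⊗[k] B) : A ⊗[k] B →+* A' ⊗[k] B) :=
    RingHom.ext (algebraMap_eq_tmap B)
  rw [h]
  rfl

theorem map_mem_hilbV [Algebra A A'] [IsScalarTower k A A'] {I0 : Ideal (A ⊗[k] B0)}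
    (hI : I0 ∈ HilbV k v A) :
    I0.map (algebraMap (A ⊗[k] B0) (A' ⊗[k] B0)) ∈ HilbV k v A' := by
  rw [map_algebraMap_eq_map_tmap]
  exact HilbV.map_mem _ hI

/-- **Base change of `O(Z(I0))`** along `A → A'`. -/
noncomputable def liftDataHilbBundle [Algebra A A'] [IsScalarTower k A A']
    {I0 : Ideal (A ⊗[k] B0)} (hI : I0 ∈ HilbV k v A)
    (hI' : I0.map (algebraMap (A ⊗[k] B0) (A' ⊗[k] B0)) ∈ HilbV k v A') :
    LiftData (hilbBundle c0 hc ht v A I0 hI)
      (hilbBundle c0 hc ht v A' (I0.map (algebraMap (A ⊗[k] B0) (A' ⊗[k] B0))) hI') :=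
  haveI := finite_of_mem v hI
  haveI := flat_of_mem v hI
  haveI := invertible_of_mem c0 hc ht v hI
  haveI := finite_of_mem v hI'
  haveI := invertible_of_mem c0 hc ht v hI'
  liftDataDivisorBundle (square_comm k A A' B0 B01) (square_comm k A A' B1 B01)
    (c0.baseChange A) (c0.baseChange A') (algebraMap_baseChange_s c0 A A') I0

/-- **Base change of `O(Z(I0))`** along a `k`-algebra homomorphism, in the vocabulary of
`AlgChart76.BCRel`. -/
theorem bcRel_hilbBundle (ψ : A →ₐ[k] A') {I0 : Ideal (A ⊗[k] B0)} (hI : I0 ∈ HilbV k v A)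
    (hI' : Ideal.map (HilbChart87.tmap ψ) I0 ∈ HilbV k v A') :
    BCRel ψ (hilbBundle c0 hc ht v A I0 hI)
      (hilbBundle c0 hc ht v A' (Ideal.map (HilbChart87.tmap ψ) I0) hI') := by
  letI := ψ.toRingHom.toAlgebra
  haveI : IsScalarTower k A A' := tower_of_algHom ψ
  have hψ : IsScalarTower.toAlgHom k A A' = ψ := AlgHom.ext (fun _ => rfl)
  have e : Ideal.map (HilbChart87.tmap ψ) I0 = I0.map (algebraMap (A ⊗[k] B0) (A' ⊗[k] B0)) := by
    rw [map_algebraMap_eq_map_tmap, hψ]
  revert hI'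
  rw [e]
  intro hI'
  exact ⟨liftDataHilbBundle c0 hc ht v hI hI'⟩

end BaseChange

section Obj

variable (P0 : B1 →ₐ[k] k) (hP0 : P0 c0.s = 0) (hg : ChiBC36.chiUnit k B0 B1 B01 + g = 1)

/-- **The object of `stdFam P0 1` defined by a point of the Hilbert chart.** -/
noncomputable def hilbObj (A : Type u) [CommRing A] [Algebra k A] (I0 : Ideal (A ⊗[k] B0))
    (hI : I0 ∈ HilbV k v A) : (stdFam (B0 := B0) (B01 := B01) P0 1).Obj A :=
  stdFam.mk (hilbBundle c0 hc ht v A I0 hI) (isLine_hilbBundle c0 hc ht v A I0 hI)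
    (rigidifiable_hilbBundle c0 hc ht v A I0 P0 hP0 hI)
    (fun p => by rw [chi_hilbBundle c0 hc ht v A I0 hI p, hg])

@[simp]
theorem hilbObj_val (A : Type u) [CommRing A] [Algebra k A] (I0 : Ideal (A ⊗[k] B0))
    (hI : I0 ∈ HilbV k v A) :
    (hilbObj c0 hc ht v P0 hP0 hg A I0 hI).1 = hilbBundle c0 hc ht v A I0 hI := rfl

/-- The objects `O(Z(I0))` are compatible with base change. -/
theorem bc_hilbObj {A A' : Type u} [CommRing A] [CommRing A'] [Algebra k A] [Algebra k A']
    (ψ : A →ₐ[k] A') {I0 : Ideal (A ⊗[k] B0)} (hI : I0 ∈ HilbV k v A) :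
    (stdFam (B0 := B0) (B01 := B01) P0 1).BC ψ (hilbObj c0 hc ht v P0 hP0 hg A I0 hI)
      (hilbObj c0 hc ht v P0 hP0 hg A' (Ideal.map (HilbChart87.tmap ψ) I0) (HilbV.map_mem ψ hI)) :=
  bcRel_hilbBundle c0 hc ht v ψ hI (HilbV.map_mem ψ hI)

/-- **The universal object** over the coordinate ring `HV k x v` of the Hilbert chart. -/
noncomputable def univObj {n : ℕ} (x : Fin n → B0) (hx : Algebra.adjoin k (Set.range x) = ⊤) :
    (stdFam (B0 := B0) (B01 := B01) P0 1).Obj (HV k x v) :=
  hilbObj c0 hc ht v P0 hP0 hg (HV k x v) (univIdeal v hx) (univIdeal_mem v hx)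

/-- Every `O(Z(I0))` is a base change of the universal object along the classifying
homomorphism of `I0`. -/
theorem bc_univObj {n : ℕ} (x : Fin n → B0) (hx : Algebra.adjoin k (Set.range x) = ⊤)
    {A : Type u} [CommRing A] [Algebra k A] (ψ : HV k x v →ₐ[k] A) :
    (stdFam (B0 := B0) (B01 := B01) P0 1).BC ψ (univObj c0 hc ht v P0 hP0 hg x hx)
      (hilbObj c0 hc ht v P0 hP0 hg A (Ideal.map (HilbChart87.tmap ψ) (univIdeal v hx))
        (HilbV.map_mem ψ (univIdeal_mem v hx))) :=
  bc_hilbObj c0 hc ht v P0 hP0 hg ψ (univIdeal_mem v hx)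

end Obj

end Fermat.Agent.Jac.ConverseDiv60Hilb
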