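/-
Programme JAC (S25), brick R2a, sub-lemma (H1-UNIT) (helper98).

`H¹` of the structure sheaf of the base-changed two-chart curve over any `k`-algebra `A` is a
finite projective (indeed free) `A`-module: it is finite by `P1CohH1` and isomorphic to
`A ⊗[k] H¹(O_k)` by right exactness of the tensor product.
-/
import Fermat.Agent.Jac.ChiBC36
import Fermat.Agent.Jac.FlatBC60
import Fermat.Agent.Jac.P1CohH1
import Fermat.Agent.Jac.BaseChange75.Complex
import Fermat.Agent.Jac.AlgChart76.LineFam

set_option autoImplicit false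

universe u

open TensorProduct

namespace Fermat.Agent.Jac.UnitH1_98

open scoped Fermat.Agent.Jac.BaseChange75
open JSmooth85Alg BaseChange75 AlgChart76

variable {k : Type u} [Field k] {B0 B1 B01 : Type u} [CommRing B0] [CommRing B1] [CommRing B01]
  [Algebra k B0] [Algebra k B1] [Algebra k B01] [Algebra B0 B01] [Algebra B1 B01]
  [IsScalarTower k B0 B01] [IsScalarTower k B1 B01]
  (c0 : TwoChart k B0 B1 B01)

/-- `H¹(O_A) ≃ A ⊗[k] H¹(O_k)`. -/
noncomputable def unitH1Equiv (A : Type u) [CommRing A] [Algebra k A] :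
    (QC2.unit : QCA k B0 B1 B01 A).H1 ≃ₗ[A] A ⊗[k] (QC2.unit : QCA k B0 B1 B01 k).H1 :=
  have := BaseChange75.towerLeft' k k A B0
  have := BaseChange75.towerLeft' k k A B1
  have := BaseChange75.towerLeft' k k A B01
  let h : LiftData (QC2.unit : QCA k B0 B1 B01 k) (QC2.unit : QCA k B0 B1 B01 A) :=
    ChiBC36.liftDataUnit (square_comm k k A B0 B01) (square_comm k k A B1 B01)
  (LiftData.h1Equiv h).symm ≪≫ₗ FlatBC60.H1BCEquiv (QC2.unit : QCA k B0 B1 B01 k) A

include c0 in
theorem unit_H1_finite (hc0 : c0.FiniteProjOverLine) (A : Type u) [CommRing A] [Algebra k A] :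
    Module.Finite A (QC2.unit : QCA k B0 B1 B01 A).H1 :=
  P1CohH1.finite_H1_of_finite0 (c0.baseChange A) (QC2.unit : QCA k B0 B1 B01 A)
    (hc0.baseChange A).fin0

theorem unit_H1_free (A : Type u) [CommRing A] [Algebra k A] :
    Module.Free A (QC2.unit : QCA k B0 B1 B01 A).H1 :=
  Module.Free.of_equiv (unitH1Equiv (B0 := B0) (B1 := B1) (B01 := B01) A).symm

/-- **(H1-UNIT)** `H¹` of the structure sheaf over `A` is finite and projective. -/
theorem unit_H1_finite_free (hc0 : c0.FiniteProjOverLine) (A : Type u) [CommRing A]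
    [Algebra k A] :
    Module.Finite A (QC2.unit : QCA k B0 B1 B01 A).H1 ∧
      Module.Projective A (QC2.unit : QCA k B0 B1 B01 A).H1 :=
  ⟨unit_H1_finite c0 hc0 A,
    have := unit_H1_free (k := k) (B0 := B0) (B1 := B1) (B01 := B01) A
    inferInstance⟩

end Fermat.Agent.Jac.UnitH1_98
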