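/-
Programme JAC (S25), brick A4b-c "ConverseDivisor", local algebra  (helper60).

* `invertible_of_localizationSpan_invertible` : a module which is invertible on a Zariski cover
  `D(r)`, `r ∈ s`, `span s = ⊤`, is `Module.Invertible` (variant of
  `AffineDict73.invertible_of_localizationSpan`, which asks for local freeness).
* `locEquivMap` : the localisation of an ideal `I` at `r` is the extended ideal, as a module over
  `Localization.Away r`.
* `invertible_map_of_flat` : extension of an invertible ideal along a flat algebra is an invertible
  module.
* `invertible_of_two_cover` : an ideal `I` of `R` which contains an element `v` and whose extension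
  to `Localization.Away s` is invertible, with `s, v` comaximal, is an invertible `R`-module.
-/
import Mathlib
import Fermat.Agent.Jac.AffineDict73.InvertibleLocal
import Fermat.Agent.Jac.FlatBC60McCoy

set_option autoImplicit false
set_option linter.unusedSectionVars false

open TensorProduct

namespace Fermat.Agent.Jac.ConverseDiv60Local

open Fermat.Agent.Jac.AffineDict73

section Criterion

variable {R : Type*} [CommRing R] {M : Type*} [AddCommGroup M] [Module R M]

/-- A module which is invertible on a Zariski cover is invertible. -/
theorem invertible_of_localizationSpan_invertible (s : Set R) (hs : Ideal.span s = ⊤)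
    (h : ∀ r : s, Module.Invertible (Localization.Away r.1) (LocalizedModule.Away r.1 M)) :
    Module.Invertible R M := by
  have hfp : Module.FinitePresentation R M :=
    finitePresentation_of_localizationSpan s hs (fun r => by
      have := h r
      exact Module.finitePresentation_of_projective _ _)
  constructor
  refine bijective_of_isLocalized_span s hs
    (fun r => Module.Dual (Localization.Away r.1) (LocalizedModule.Away r.1 M) ⊗[R]
      LocalizedModule.Away r.1 M)
    (fun r => dualTensorLoc (M := M) (Submonoid.powers r.1))
    (fun r => Localization.Away r.1)
    (fun r => Algebra.linearMap R (Localization.Away r.1)) (contractLeft R M) (fun r => ?_)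
  have heq : IsLocalizedModule.map (Submonoid.powers r.1)
      (dualTensorLoc (M := M) (Submonoid.powers r.1))
      (Algebra.linearMap R (Localization.Away r.1)) (contractLeft R M) =
      contractLoc (M := M) (Submonoid.powers r.1) := by
    apply IsLocalizedModule.linearMap_ext (Submonoid.powers r.1)
      (dualTensorLoc (M := M) (Submonoid.powers r.1))
      (Algebra.linearMap R (Localization.Away r.1))
    rw [IsLocalizedModule.map_comp, contractLoc_comp_dualTensorLoc]
  rw [heq]
  have := h r
  unfold contractLoc
  exact (Module.Invertible.bijective).comp (LinearEquiv.bijective _)

end Criterion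

section LocIdeal

variable {R : Type*} [CommRing R] (r : R) (I : Ideal R)

/-- The localisation of an ideal at `r` is the extended ideal, as modules over
`Localization.Away r`. -/
noncomputable def locEquivMap :
    LocalizedModule.Away r I ≃ₗ[Localization.Away r]
      (I.map (algebraMap R (Localization.Away r))) :=
  ((IsLocalizedModule.linearEquiv (Submonoid.powers r)
      (LocalizedModule.mkLinearMap (Submonoid.powers r) I)
      (Submodule.toLocalized' (Localization.Away r) (Submonoid.powers r)
        (Algebra.linearMap R (Localization.Away r)) I)).extendScalarsOfIsLocalization
      (Submonoid.powers r) (Localization.Away r)).trans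
    (LinearEquiv.ofEq _ _ (Ideal.localized'_eq_map (Localization.Away r) (Submonoid.powers r) I))

end LocIdeal

section FlatExt

variable {R0 S : Type*} [CommRing R0] [CommRing S] [Algebra R0 S]

open Fermat.Agent.Jac.FlatBC60McCoy in
/-- For a flat `R0`-algebra `S` and an ideal `I` of `R0`, `S ⊗[R0] I ≃ I S`. -/
noncomputable def tensorEquivMap [Module.Flat R0 S] (I : Ideal R0) :
    S ⊗[R0] I ≃ₗ[S] (I.map (algebraMap R0 S)) :=
  (LinearEquiv.ofInjective (mulMap (R := S) I) (mulMap_injective (R := S) I)).trans
    (LinearEquiv.ofEq _ _ (by
      apply le_antisymm
      · rintro _ ⟨z, rfl⟩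
        induction z using TensorProduct.induction_on with
        | zero => simp
        | tmul s a =>
          rw [mulMap_tmul]
          exact Ideal.mul_mem_left _ _ (Ideal.mem_map_of_mem _ a.2)
        | add z z' hz hz' =>
          rw [map_add]
          exact Ideal.add_mem _ hz hz'
      · rw [Ideal.map, Ideal.span_le]
        rintro _ ⟨a, ha, rfl⟩
        exact ⟨(1 : S) ⊗ₜ[R0] (⟨a, ha⟩ : I), by simp⟩))

/-- Extension of an invertible ideal along a flat algebra is an invertible module. -/
theorem invertible_map_of_flat [Module.Flat R0 S] (I : Ideal R0) [Module.Invertible R0 I] :
    Module.Invertible S (I.map (algebraMap R0 S)) :=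
  Module.Invertible.congr (tensorEquivMap (S := S) I)

end FlatExt

section TwoCover

variable {R : Type*} [CommRing R]

/-- An ideal `I` containing `v`, with `s, v` comaximal, whose extension to `Localization.Away s`
is an invertible module, is an invertible `R`-module. -/
theorem invertible_of_two_cover (I : Ideal R) (s v : R) (hv : v ∈ I)
    (hsv : Ideal.span ({s, v} : Set R) = ⊤)
    (hs : Module.Invertible (Localization.Away s) (I.map (algebraMap R (Localization.Away s)))) :
    Module.Invertible R I := by
  refine invertible_of_localizationSpan_invertible ({s, v} : Set R) hsv ?_
  rintro ⟨r, hr⟩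
  rcases hr with rfl | hr
  · exact Module.Invertible.congr (locEquivMap r I).symm
  · have hr' : r = v := hr
    subst hr'
    have htop : I.map (algebraMap R (Localization.Away r)) = ⊤ := by
      apply Ideal.eq_top_of_isUnit_mem _ (Ideal.mem_map_of_mem _ hv)
      exact IsLocalization.Away.algebraMap_isUnit r
    have e : LocalizedModule.Away r I ≃ₗ[Localization.Away r] Localization.Away r :=
      (locEquivMap r I).trans ((LinearEquiv.ofEq _ _ htop).trans Submodule.topEquiv)
    exact Module.Invertible.congr e.symm

end TwoCover

end Fermat.Agent.Jac.ConverseDiv60Local
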