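/-
Programme JAC (S25), helper60: closed subschemes of chart 0 which are finite over the base stay
away from infinity.

For a two-chart ring `c : TwoChart A R0 R1 R01` and an ideal `I0` of `R0` with `R0 ⧸ I0` a finite
`A`-module (e.g. a point of a Hilbert chart), the closure `IdealPair.ofChart0 c I0` of `V(I0)` in the
glued scheme does not meet the divisor `s = 0`:

* `exists_monic_aeval_mem` : a monic polynomial `P(t)` lies in `I0` (Cayley–Hamilton / integrality);
* `exists_one_add_s_mul_mem` : some `1 + s * w(s)` lies in the chart-1 ideal `I1`;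
* `exists_unit_mod_ofChart0` : `∃ u : R1, u * s - 1 ∈ I1` (the hypothesis of
  `LineOps39.restrictTo_bijective_r1`);
* consequences for `L|_D`: `r1` bijective, `H¹ = 0`, `H⁰ ≃ N0 ⧸ I0 N0`.
-/
import Mathlib
import Fermat.Agent.Jac.Core
import Fermat.Agent.Jac.LineOps39.Point

set_option autoImplicit false
set_option linter.unusedSectionVars false

open Polynomial

namespace Fermat.Agent.Jac.FiniteAwayInfty60

open Fermat.Agent.Jac.LineOps39

universe u

section General

variable {A R0 R1 R01 : Type u} [CommRing A] [CommRing R0] [CommRing R1] [CommRing R01]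
  [Algebra A R0] [Algebra A R1] [Algebra A R01] [Algebra R0 R01] [Algebra R1 R01]
  [IsScalarTower A R0 R01] [IsScalarTower A R1 R01]

/-- If `R0 ⧸ I0` is a finite `A`-module, some monic polynomial in `t` lies in `I0`. -/
theorem exists_monic_aeval_mem (x : R0) (I0 : Ideal R0) [Module.Finite A (R0 ⧸ I0)] :
    ∃ P : A[X], P.Monic ∧ aeval x P ∈ I0 := by
  have hint : IsIntegral A (Ideal.Quotient.mk I0 x) :=
    (Algebra.IsIntegral.of_finite A (R0 ⧸ I0)).isIntegral _
  obtain ⟨P, hP, hP0⟩ := hint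
  refine ⟨P, hP, ?_⟩
  rw [← Ideal.Quotient.eq_zero_iff_mem]
  have h1 : Ideal.Quotient.mk I0 (aeval x P) = aeval (Ideal.Quotient.mk I0 x) P := by
    have := Polynomial.aeval_algHom_apply (Ideal.Quotient.mkₐ A I0) x P
    simpa using this.symm
  rw [h1, aeval_def]
  exact hP0

variable (c : TwoChart A R0 R1 R01)

/-- If a monic `P(t)` lies in `I0`, then `1 + s * w(s)` lies in the chart-1 ideal of the closure of
`V(I0)`, for a suitable polynomial `w`. -/
theorem exists_one_add_s_mul_mem_of_monic (I0 : Ideal R0) (P : A[X]) (hP : P.Monic)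
    (hPI : aeval c.t P ∈ I0) :
    ∃ w : A[X], 1 + c.s * aeval c.s w ∈ (IdealPair.ofChart0 c I0).I1 := by
  set n := P.natDegree with hn
  set r := reflect n P with hr
  set τ : R01 := algebraMap R0 R01 c.t with hτ
  set σ : R01 := algebraMap R1 R01 c.s with hσ
  have hτσ : τ * σ = 1 := c.ts
  have hστ : σ * τ = 1 := by rw [mul_comm]; exact hτσ
  -- `r(σ) = σ^n * P(τ)`
  let inst : Invertible τ := ⟨σ, hστ, hτσ⟩
  have h1 : aeval σ r * τ ^ n = aeval τ P := by
    have := @eval₂_reflect_mul_pow A _ R01 _ (algebraMap A R01) τ inst n P le_rfl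
    have hinv : @Invertible.invOf R01 _ _ τ inst = σ := rfl
    rw [hinv] at this
    simpa [aeval_def] using this
  have h2 : σ ^ n * τ ^ n = 1 := by rw [← mul_pow, hστ, one_pow]
  have h3 : aeval σ r = σ ^ n * aeval τ P := by
    rw [← h1, mul_comm (aeval σ r), ← mul_assoc, h2, one_mul]
  -- constant coefficient of `r` is `1`
  have hr0 : r.coeff 0 = 1 := by
    rw [hr, coeff_reflect, revAt_le (Nat.zero_le n), Nat.sub_zero]
    exact hP.coeff_natDegree
  have hrdiv : r = divX r * X + 1 := by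
    conv_lhs => rw [← Polynomial.divX_mul_X_add r, hr0, map_one]
  refine ⟨divX r, ?_⟩
  have h4 : (1 : R1) + c.s * aeval c.s (divX r) = aeval c.s r := by
    conv_rhs => rw [hrdiv]
    rw [map_add, map_mul, aeval_X, map_one]
    ring
  rw [h4]
  show algebraMap R1 R01 (aeval c.s r) ∈ I0.map (algebraMap R0 R01)
  rw [← Polynomial.aeval_algebraMap_apply, ← hσ, h3]
  refine Ideal.mul_mem_left _ _ ?_
  rw [hτ, Polynomial.aeval_algebraMap_apply]
  exact Ideal.mem_map_of_mem _ hPI

/-- If `R0 ⧸ I0` is finite over `A`, some `1 + s * w(s)` lies in the chart-1 ideal of the closure of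
`V(I0)`. -/
theorem exists_one_add_s_mul_mem (I0 : Ideal R0) [Module.Finite A (R0 ⧸ I0)] :
    ∃ w : A[X], 1 + c.s * aeval c.s w ∈ (IdealPair.ofChart0 c I0).I1 := by
  obtain ⟨P, hP, hPI⟩ := exists_monic_aeval_mem (A := A) c.t I0
  exact exists_one_add_s_mul_mem_of_monic c I0 P hP hPI

/-- If `R0 ⧸ I0` is finite over `A`, then `s` is invertible modulo the chart-1 ideal of the closure
of `V(I0)`: the closure does not meet infinity. -/
theorem exists_unit_mod_ofChart0 (I0 : Ideal R0) [Module.Finite A (R0 ⧸ I0)] :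
    ∃ u : R1, u * c.s - 1 ∈ (IdealPair.ofChart0 c I0).I1 := by
  obtain ⟨w, hw⟩ := exists_one_add_s_mul_mem c I0
  refine ⟨-aeval c.s w, ?_⟩
  have : -aeval c.s w * c.s - 1 = -(1 + c.s * aeval c.s w) := by ring
  rw [this]
  exact neg_mem hw

/-- The chart-1 ideal of the closure of `V(I0)` is comaximal with `(s)`. -/
theorem ofChart0_I1_sup_span_s (I0 : Ideal R0) [Module.Finite A (R0 ⧸ I0)] :
    (IdealPair.ofChart0 c I0).I1 ⊔ Ideal.span {c.s} = ⊤ := by
  obtain ⟨u, hu⟩ := exists_unit_mod_ofChart0 c I0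
  rw [Ideal.eq_top_iff_one]
  have h1 : (1 : R1) = -(u * c.s - 1) + u * c.s := by ring
  rw [h1]
  exact Ideal.add_mem _ (Ideal.mem_sup_left (neg_mem hu))
    (Ideal.mem_sup_right (Ideal.mul_mem_left _ _ (Ideal.subset_span rfl)))

/-! ### Consequences for the restriction `L|_D` of a two-chart module to such a subscheme -/

variable (L : QC2 A R0 R1 R01)

/-- `L|_D` has bijective `r1` when `D` is the closure of `V(I0)` with `R0 ⧸ I0` finite over `A`. -/
theorem restrictTo_ofChart0_bijective_r1_of_finite (I0 : Ideal R0) [Module.Finite A (R0 ⧸ I0)] :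
    Function.Bijective (restrictTo c L (IdealPair.ofChart0 c I0)).r1 := by
  obtain ⟨u, hu⟩ := exists_unit_mod_ofChart0 c I0
  exact restrictTo_bijective_r1 c L _ u hu

/-- `H¹(L|_D) = 0`. -/
theorem subsingleton_H1_restrictTo_ofChart0_of_finite (I0 : Ideal R0)
    [Module.Finite A (R0 ⧸ I0)] :
    Subsingleton (restrictTo c L (IdealPair.ofChart0 c I0)).H1 :=
  subsingleton_H1_of_bijective_r1 _ (restrictTo_ofChart0_bijective_r1_of_finite c L I0)

/-- `H⁰(L|_D) ≃ N0 ⧸ I0 N0`. -/
noncomputable def H0RestrictToOfChart0OfFinite (I0 : Ideal R0) [Module.Finite A (R0 ⧸ I0)] :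
    (restrictTo c L (IdealPair.ofChart0 c I0)).H0 ≃ₗ[A]
      L.N0 ⧸ (I0 • ⊤ : Submodule R0 L.N0) :=
  H0EquivOfBijectiveR1 _ (restrictTo_ofChart0_bijective_r1_of_finite c L I0)

/-- Under `H0RestrictToOfChart0OfFinite`, the map `H⁰(L) → H⁰(L|_D)` is the reduction of the
chart-0 component modulo `I0`. -/
theorem H0RestrictToOfChart0OfFinite_homH0 (I0 : Ideal R0) [Module.Finite A (R0 ⧸ I0)]
    (σ : L.H0) :
    H0RestrictToOfChart0OfFinite c L I0
        (homH0 (restrictToHom c L (IdealPair.ofChart0 c I0)) σ) =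
      Submodule.Quotient.mk σ.1.1 := rfl

end General

end Fermat.Agent.Jac.FiniteAwayInfty60
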