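/-
Programme JAC (S25), brick A4b-c "ConverseDivisor"  (helper60).

Converse direction of the chart description (blueprint 271): an ideal `I0` of `R0` with `R0 ⧸ I0`
finite over `A` and `I0` an invertible `R0`-module defines a relative effective Cartier divisor `Z`
of the glued curve which does not meet infinity:

* `invertible_I1_ofChart0` : the chart-1 ideal `I1` of the closure is an invertible `R1`-module;
* `isLine_idealSheaf` : `O(-Z) := downTwist c unit (ofChart0 c I0)` is a line bundle;
* `restrictTo_unit_*` : the structure sheaf `O_Z = O / O(-Z)` has `H¹ = 0`, `H⁰ ≃ R0 ⧸ I0`.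
-/
import Mathlib
import Fermat.Agent.Jac.ConverseDiv60Local
import Fermat.Agent.Jac.FiniteAwayInfty60

set_option autoImplicit false
set_option linter.unusedSectionVars false

open Polynomial

namespace Fermat.Agent.Jac.ConverseDiv60

open Fermat.Agent.Jac.LineOps39 Fermat.Agent.Jac.FiniteAwayInfty60
  Fermat.Agent.Jac.ConverseDiv60Local

universe u

variable {A R0 R1 R01 : Type u} [CommRing A] [CommRing R0] [CommRing R1] [CommRing R01]
  [Algebra A R0] [Algebra A R1] [Algebra A R01] [Algebra R0 R01] [Algebra R1 R01]
  [IsScalarTower A R0 R01] [IsScalarTower A R1 R01]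
  (c : TwoChart A R0 R1 R01)

/-- If `I0` is an invertible `R0`-module and `R0 ⧸ I0` is finite over `A`, then the chart-1 ideal of
the closure of `V(I0)` is an invertible `R1`-module. -/
theorem invertible_I1_ofChart0 (I0 : Ideal R0) [Module.Finite A (R0 ⧸ I0)]
    [Module.Invertible R0 I0] :
    Module.Invertible R1 (IdealPair.ofChart0 c I0).I1 := by
  obtain ⟨w, hw⟩ := exists_one_add_s_mul_mem c I0
  refine invertible_of_two_cover _ c.s (1 + c.s * aeval c.s w) hw ?_ ?_
  · rw [Ideal.eq_top_iff_one, Ideal.mem_span_pair]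
    exact ⟨-(aeval c.s w), 1, by ring⟩
  · have := c.away1
    have := c.away0
    let e : R01 ≃ₐ[R1] Localization.Away c.s :=
      IsLocalization.algEquiv (Submonoid.powers c.s) R01 (Localization.Away c.s)
    let φ0 : R0 →+* Localization.Away c.s := (e : R01 →+* Localization.Away c.s).comp
      (algebraMap R0 R01)
    let _ : Algebra R0 (Localization.Away c.s) := φ0.toAlgebra
    have hflat01 : Module.Flat R0 R01 := IsLocalization.flat R01 (Submonoid.powers c.t)
    have hflat : Module.Flat R0 (Localization.Away c.s) := by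
      let eL : R01 ≃ₗ[R0] Localization.Away c.s :=
        { e.toLinearEquiv.toAddEquiv with
          map_smul' := by
            intro r x
            show e (r • x) = φ0 r * e x
            rw [Algebra.smul_def, map_mul]
            rfl }
      exact Module.Flat.of_linearEquiv eL.symm
    have hmap : (IdealPair.ofChart0 c I0).I1.map (algebraMap R1 (Localization.Away c.s)) =
        I0.map (algebraMap R0 (Localization.Away c.s)) := by
      have h1 : algebraMap R1 (Localization.Away c.s) =
          (e : R01 →+* Localization.Away c.s).comp (algebraMap R1 R01) := by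
        ext x
        exact (e.commutes x).symm
      have h2 : algebraMap R0 (Localization.Away c.s) =
          (e : R01 →+* Localization.Away c.s).comp (algebraMap R0 R01) := rfl
      have hc : I0.map (algebraMap R0 R01) =
          (IdealPair.ofChart0 c I0).I1.map (algebraMap R1 R01) := (IdealPair.ofChart0 c I0).compat
      rw [h1, h2, ← Ideal.map_map, ← Ideal.map_map, hc]
    rw [hmap]
    exact invertible_map_of_flat I0

/-- The ideal sheaf `O(-Z)` of the closure `Z` of `V(I0)` is a line bundle. -/
theorem isLine_idealSheaf (I0 : Ideal R0) [Module.Finite A (R0 ⧸ I0)]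
    [Module.Invertible R0 I0] :
    (downTwist c (QC2.unit : QC2 A R0 R1 R01) (IdealPair.ofChart0 c I0)).IsLine :=
  isLine_downTwist c isLine_unit _ (show Module.Invertible R0 I0 from inferInstance)
    (invertible_I1_ofChart0 c I0)

/-- The inclusion `O(-Z) → O`. -/
noncomputable def idealSheafHom (I0 : Ideal R0) :
    QC2.Hom (downTwist c (QC2.unit : QC2 A R0 R1 R01) (IdealPair.ofChart0 c I0)) QC2.unit :=
  downTwistHom c QC2.unit (IdealPair.ofChart0 c I0)

/-- The structure sheaf `O_Z = O / O(-Z)` of the closure `Z` of `V(I0)` has `H¹ = 0`. -/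
theorem subsingleton_H1_structureSheaf (I0 : Ideal R0) [Module.Finite A (R0 ⧸ I0)] :
    Subsingleton (restrictTo c (QC2.unit : QC2 A R0 R1 R01) (IdealPair.ofChart0 c I0)).H1 :=
  subsingleton_H1_restrictTo_ofChart0_of_finite c QC2.unit I0

/-- `I0 • ⊤ = I0` inside `R0`. -/
theorem smul_top_eq (I0 : Ideal R0) : (I0 • (⊤ : Submodule R0 R0) : Submodule R0 R0) = I0 := by
  rw [Ideal.smul_top_eq_map]
  simp

/-- `H⁰(O_Z) ≃ R0 ⧸ I0` as `A`-modules. -/
noncomputable def H0StructureSheafEquiv (I0 : Ideal R0) [Module.Finite A (R0 ⧸ I0)] :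
    (restrictTo c (QC2.unit : QC2 A R0 R1 R01) (IdealPair.ofChart0 c I0)).H0 ≃ₗ[A] (R0 ⧸ I0) :=
  (H0RestrictToOfChart0OfFinite c QC2.unit I0).trans
    ((Submodule.quotEquivOfEq _ _ (smul_top_eq I0)).restrictScalars A)

/-- Under `H0StructureSheafEquiv`, a global function `σ ∈ H⁰(O)` goes to the class of its chart-0
component. -/
theorem H0StructureSheafEquiv_homH0 (I0 : Ideal R0) [Module.Finite A (R0 ⧸ I0)]
    (σ : (QC2.unit : QC2 A R0 R1 R01).H0) :
    H0StructureSheafEquiv c I0
        (homH0 (restrictToHom c QC2.unit (IdealPair.ofChart0 c I0)) σ) =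
      Ideal.Quotient.mk I0 σ.1.1 := rfl

end Fermat.Agent.Jac.ConverseDiv60
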