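/-
Programme JAC (S25), helper60, brick A4b-c (ConverseDivisor), part 3: base change.

The ideal sheaf `O(-Z)` of the closure `Z` of `V(I0) ⊆ Spec R0` (for `R0 ⧸ I0` finite and flat over
the base `A`) commutes with base change along a cube of rings whose vertical faces are pushouts over
`A → A'` (the setting of `BaseChange75/Complex.lean`), in the vocabulary of
`JSmooth85Alg.LiftData`.

* `flat_of_isLocalizedModule` : a localization (at elements of an `A`-algebra `R`) of an `R`-module
  which is flat over `A` is flat over `A`.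
* `idealTensorMap`, `idealTensorEquiv` : `R' ⊗[R] I ≃ I R'` when `R ⧸ I` is flat over `A` and
  `R' = A' ⊗[A] R`.
* `structureQuot c D` : the structure sheaf `O / O(-D)` of an ideal pair; `flat_quot_I01`,
  `flat_quot_I1`.
* `map_I01_ofChart0`, `map_I1_ofChart0` : the ideals of the closure commute with base change.
* `liftDataOfIdeals` : `LiftData (ofIdeals c (ofChart0 c I0)) (ofIdeals c' (ofChart0 c' (I0 R0')))`.
-/
import Mathlib
import Fermat.Agent.Jac.Core
import Fermat.Agent.Jac.LineOps39.IdealSheaf
import Fermat.Agent.Jac.FiniteAwayInfty60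
import Fermat.Agent.Jac.JSmooth85Alg
import Fermat.Agent.Jac.BaseChange75.Cube

set_option autoImplicit false
set_option linter.unusedSectionVars false

open TensorProduct Polynomial

namespace Fermat.Agent.Jac.ConverseDiv60BC

open Fermat.Agent.Jac Fermat.Agent.Jac.LineOps39 Fermat.Agent.Jac.FiniteAwayInfty60
open Fermat.Agent.Jac.JSmooth85Alg

universe u

section FlatLoc

variable {A R M M' : Type u} [CommRing A] [CommRing R] [Algebra A R]
  [AddCommGroup M] [AddCommGroup M'] [Module A M] [Module A M'] [Module R M] [Module R M']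
  [IsScalarTower A R M] [IsScalarTower A R M']

/-- A localization (at a submonoid of an `A`-algebra `R`) of an `R`-module which is flat over `A`
is flat over `A`. -/
theorem flat_of_isLocalizedModule (S : Submonoid R) (g : M →ₗ[R] M') [IsLocalizedModule S g]
    [Module.Flat A M] : Module.Flat A M' := by
  rw [Module.Flat.iff_lTensor_preserves_injective_linearMap]
  intro N P _ _ _ _ f hf
  have h1 : Function.Injective (AlgebraTensorModule.lTensor R M f) :=
    Module.Flat.lTensor_preserves_injective_linearMap (M := M) f hf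
  have h2 := IsLocalizedModule.map_injective S (AlgebraTensorModule.rTensor A N g)
    (AlgebraTensorModule.rTensor A P g) (AlgebraTensorModule.lTensor R M f) h1
  rw [IsLocalizedModule.map_lTensor] at h2
  exact h2

end FlatLoc

section Chart

variable {A R0 R1 R01 : Type u} [CommRing A] [CommRing R0] [CommRing R1] [CommRing R01]
  [Algebra A R0] [Algebra A R1] [Algebra A R01] [Algebra R0 R01] [Algebra R1 R01]
  [IsScalarTower A R0 R01] [IsScalarTower A R1 R01]
  (c : TwoChart A R0 R1 R01)

/-- The structure sheaf of the closed subscheme cut out by an ideal pair, `O / O(-D)`, with chart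
modules `R0 ⧸ I0`, `R1 ⧸ I1`, `R01 ⧸ I01`. -/
noncomputable def structureQuot (D : IdealPair R0 R1 R01) : QC2 A R0 R1 R01 :=
  quot c QC2.unit (D.unitSubPair (A := A))

include c in
theorem flat_quot_I01 (D : IdealPair R0 R1 R01) [Module.Flat A (R0 ⧸ D.I0)] :
    Module.Flat A (R01 ⧸ D.I01) := by
  have := isLocalizedModule_r0 c (structureQuot c D)
  have h0 : Module.Flat A (structureQuot c D).N0 := ‹Module.Flat A (R0 ⧸ D.I0)›
  show Module.Flat A (structureQuot c D).N01
  exact flat_of_isLocalizedModule (A := A) (Submonoid.powers c.t) (structureQuot c D).r0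

theorem structureQuot_bijective_r1 (D : IdealPair R0 R1 R01) (u : R1) (hu : u * c.s - 1 ∈ D.I1) :
    Function.Bijective (structureQuot c D).r1 := by
  have := isLocalizedModule_r1 c (structureQuot c D)
  refine bijective_of_isLocalizedModule_of_unit c.s u _ ?_
  show ∀ x : R1 ⧸ D.I1, (u * c.s) • x = x
  intro x
  obtain ⟨y, rfl⟩ := Submodule.mkQ_surjective D.I1 x
  rw [← sub_eq_zero, ← map_smul, ← map_sub, Submodule.mkQ_apply, Submodule.Quotient.mk_eq_zero]
  have : (u * c.s) • y - y = (u * c.s - 1) * y := by rw [smul_eq_mul]; ring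
  rw [this]
  exact Ideal.mul_mem_right _ _ hu

theorem flat_quot_I1 (D : IdealPair R0 R1 R01) [Module.Flat A (R0 ⧸ D.I0)] (u : R1)
    (hu : u * c.s - 1 ∈ D.I1) : Module.Flat A (R1 ⧸ D.I1) := by
  have h01 := flat_quot_I01 c D
  let e : (R1 ⧸ D.I1) ≃ₗ[A] (R01 ⧸ D.I01) :=
    LinearEquiv.ofBijective ((structureQuot c D).r1.restrictScalars A)
      (structureQuot_bijective_r1 c D u hu)
  exact Module.Flat.of_linearEquiv e

end Chart

section IdealBC

variable {R R' : Type u} [CommRing R] [CommRing R'] [Algebra R R']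

/-- The multiplication map `R' ⊗[R] I → R'`, `b ⊗ x ↦ b * x`. -/
noncomputable def idealTensorMap (R' : Type u) [CommRing R'] [Algebra R R'] (I : Ideal R) :
    R' ⊗[R] I →ₗ[R'] R' :=
  LinearMap.liftBaseChange R' ((Algebra.linearMap R R') ∘ₗ I.subtype)

@[simp]
theorem idealTensorMap_tmul (I : Ideal R) (b : R') (x : I) :
    idealTensorMap R' I (b ⊗ₜ x) = b * algebraMap R R' x := by
  simp [idealTensorMap, LinearMap.liftBaseChange_tmul]

theorem range_idealTensorMap (I : Ideal R) :
    LinearMap.range (idealTensorMap R' I) = I.map (algebraMap R R') := by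
  apply le_antisymm
  · rintro _ ⟨z, rfl⟩
    induction z with
    | zero => simp
    | tmul b x =>
      rw [idealTensorMap_tmul]
      exact Ideal.mul_mem_left _ _ (Ideal.mem_map_of_mem _ x.2)
    | add x y hx hy =>
      rw [map_add]
      exact Ideal.add_mem _ hx hy
  · rw [Ideal.map, Ideal.span_le]
    rintro _ ⟨x, hx, rfl⟩
    exact ⟨1 ⊗ₜ ⟨x, hx⟩, by simp⟩

variable (A A' : Type u) [CommRing A] [CommRing A']
  [Algebra A A'] [Algebra A R] [Algebra A' R'] [Algebra A R']
  [IsScalarTower A A' R'] [IsScalarTower A R R'] [Algebra.IsPushout A A' R R']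

include A A' in
/-- If `R ⧸ I` is flat over `A` and `R' = A' ⊗[A] R`, then `R' ⊗[R] I → R'` is injective. -/
theorem idealTensorMap_injective (I : Ideal R) [Module.Flat A (R ⧸ I)] :
    Function.Injective (idealTensorMap R' I) := by
  -- the `A`-linear version of the inclusion
  have hinj : Function.Injective ((I.subtype.restrictScalars A).lTensor A') :=
    LinearMap.lTensor_injective_of_exact_of_flat
      ((Ideal.Quotient.mkₐ A I).toLinearMap) (Ideal.Quotient.mkₐ_surjective A I)
      (I.subtype.restrictScalars A) I.subtype_injective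
      (by
        intro x
        simp only [AlgHom.toLinearMap_apply, Ideal.Quotient.mkₐ_eq_mk,
          Ideal.Quotient.eq_zero_iff_mem]
        constructor
        · intro hx; exact ⟨⟨x, hx⟩, rfl⟩
        · rintro ⟨y, rfl⟩; exact y.2) A'
  -- compare through `cancelBaseChange`
  let eI := Algebra.IsPushout.cancelBaseChange A A' R R' I
  let eR := Algebra.IsPushout.cancelBaseChange A A' R R' R
  have key : ∀ z : A' ⊗[A] I, idealTensorMap R' I (eI.symm z) =
      TensorProduct.rid R R' (eR.symm ((I.subtype.restrictScalars A).lTensor A' z)) := by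
    intro z
    induction z with
    | zero =>
      rw [LinearEquiv.map_zero, LinearMap.map_zero, LinearMap.map_zero, LinearEquiv.map_zero,
        LinearEquiv.map_zero]
    | tmul a x =>
      simp [eI, eR, Algebra.IsPushout.cancelBaseChange_symm_tmul, Algebra.smul_def, mul_comm]
    | add x y hx hy =>
      rw [LinearEquiv.map_add, LinearMap.map_add, LinearMap.map_add, LinearEquiv.map_add,
        LinearEquiv.map_add, hx, hy]
  intro z w hzw
  obtain ⟨z, rfl⟩ := eI.symm.surjective z
  obtain ⟨w, rfl⟩ := eI.symm.surjective w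
  rw [key, key] at hzw
  have := hinj (eR.symm.injective ((TensorProduct.rid R R').injective hzw))
  rw [this]

/-- `R' ⊗[R] I ≃ J` for `J = I R'`, when `R ⧸ I` is flat over `A` and `R' = A' ⊗[A] R`. -/
noncomputable def idealTensorEquiv (I : Ideal R) [Module.Flat A (R ⧸ I)] (J : Ideal R')
    (hJ : I.map (algebraMap R R') = J) : R' ⊗[R] I ≃ₗ[R'] J :=
  (LinearEquiv.ofInjective (idealTensorMap R' I) (idealTensorMap_injective A A' I)).trans
    (LinearEquiv.ofEq _ _ ((range_idealTensorMap I).trans hJ))

@[simp]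
theorem idealTensorEquiv_tmul (I : Ideal R) [Module.Flat A (R ⧸ I)] (J : Ideal R')
    (hJ : I.map (algebraMap R R') = J) (b : R') (x : I) :
    (idealTensorEquiv A A' I J hJ (b ⊗ₜ x) : R') = b * algebraMap R R' x := by
  show idealTensorMap R' I (b ⊗ₜ x) = _
  rw [idealTensorMap_tmul]

end IdealBC

/-- If `1 + s * w ∈ J` and `s ^ n * x ∈ J` then `x ∈ J`. -/
theorem mem_of_pow_mul_mem {R : Type u} [CommRing R] (J : Ideal R) (s w x : R)
    (hu : 1 + s * w ∈ J) (n : ℕ) (hx : s ^ n * x ∈ J) : x ∈ J := by
  have h1 : (1 : R) - (-(s * w)) ^ n ∈ J := by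
    obtain ⟨q, hq⟩ := sub_dvd_pow_sub_pow (1 : R) (-(s * w)) n
    rw [one_pow] at hq
    rw [hq]
    have : (1 : R) - -(s * w) = 1 + s * w := by ring
    rw [this]
    exact Ideal.mul_mem_right _ _ hu
  have h2 : x = (1 - (-(s * w)) ^ n) * x + (-w) ^ n * (s ^ n * x) := by
    have : (-(s * w)) ^ n = (-w) ^ n * s ^ n := by
      rw [← mul_pow]; congr 1; ring
    rw [this]; ring
  rw [h2]
  exact Ideal.add_mem _ (Ideal.mul_mem_right _ _ h1) (Ideal.mul_mem_left _ _ hx)

section Cube

variable {A R0 R1 R01 A' R0' R1' R01' : Type u}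
  [CommRing A] [CommRing R0] [CommRing R1] [CommRing R01]
  [Algebra A R0] [Algebra A R1] [Algebra A R01] [Algebra R0 R01] [Algebra R1 R01]
  [IsScalarTower A R0 R01] [IsScalarTower A R1 R01]
  [CommRing A'] [CommRing R0'] [CommRing R1'] [CommRing R01']
  [Algebra A' R0'] [Algebra A' R1'] [Algebra A' R01'] [Algebra R0' R01'] [Algebra R1' R01']
  [IsScalarTower A' R0' R01'] [IsScalarTower A' R1' R01']
  [Algebra R0 R0'] [Algebra R1 R1'] [Algebra R01 R01']
  (hc0 : (algebraMap R0' R01').comp (algebraMap R0 R0') =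
    (algebraMap R01 R01').comp (algebraMap R0 R01))
  (hc1 : (algebraMap R1' R01').comp (algebraMap R1 R1') =
    (algebraMap R01 R01').comp (algebraMap R1 R01))
  (c : TwoChart A R0 R1 R01) (c' : TwoChart A' R0' R1' R01')
  (hs : algebraMap R1 R1' c.s = c'.s)

include hc0 in
/-- The overlap ideal of the closure of `V(I0)` commutes with base change. -/
theorem map_I01_ofChart0 (I0 : Ideal R0) :
    (IdealPair.ofChart0 c I0).I01.map (algebraMap R01 R01') =
      (IdealPair.ofChart0 c' (I0.map (algebraMap R0 R0'))).I01 := by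
  show (I0.map (algebraMap R0 R01)).map (algebraMap R01 R01') =
    (I0.map (algebraMap R0 R0')).map (algebraMap R0' R01')
  rw [Ideal.map_map, Ideal.map_map, hc0]

include hc0 hc1 hs in
/-- The chart-1 ideal of the closure of `V(I0)` commutes with base change, if `R0 ⧸ I0` is finite
over `A`. -/
theorem map_I1_ofChart0 (I0 : Ideal R0) [Module.Finite A (R0 ⧸ I0)] :
    (IdealPair.ofChart0 c I0).I1.map (algebraMap R1 R1') =
      (IdealPair.ofChart0 c' (I0.map (algebraMap R0 R0'))).I1 := by
  set D := IdealPair.ofChart0 c I0 with hD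
  set D' := IdealPair.ofChart0 c' (I0.map (algebraMap R0 R0')) with hD'
  have h01 : D.I01.map (algebraMap R01 R01') = D'.I01 := map_I01_ofChart0 hc0 c c' I0
  have hJ01 : (D.I1.map (algebraMap R1 R1')).map (algebraMap R1' R01') = D'.I01 := by
    rw [Ideal.map_map, hc1, ← Ideal.map_map, ← D.I01_eq', h01]
  apply le_antisymm
  · rw [Ideal.map_le_iff_le_comap]
    intro x hx
    show algebraMap R1' R01' (algebraMap R1 R1' x) ∈ D'.I01
    rw [← hJ01]
    exact Ideal.mem_map_of_mem _ (Ideal.mem_map_of_mem _ hx)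
  · intro x hx
    have hx' : algebraMap R1' R01' x ∈ (D.I1.map (algebraMap R1 R1')).map (algebraMap R1' R01') := by
      rw [hJ01]; exact hx
    have := c'.away1
    rw [IsLocalization.mem_map_algebraMap_iff (Submonoid.powers c'.s) R01'] at hx'
    obtain ⟨⟨j, ⟨_, n, rfl⟩⟩, hjm⟩ := hx'
    simp only at hjm
    rw [← map_mul] at hjm
    obtain ⟨⟨_, m, rfl⟩, hm⟩ := (IsLocalization.eq_iff_exists (Submonoid.powers c'.s) R01').mp hjm
    simp only at hm
    obtain ⟨w, hw⟩ := exists_one_add_s_mul_mem c I0
    have hu : 1 + c'.s * algebraMap R1 R1' (aeval c.s w) ∈ D.I1.map (algebraMap R1 R1') := by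
      have := Ideal.mem_map_of_mem (algebraMap R1 R1') hw
      rwa [map_add, map_one, map_mul, hs] at this
    refine mem_of_pow_mul_mem _ c'.s _ x hu (m + n) ?_
    have : c'.s ^ (m + n) * x = c'.s ^ m * (j : R1') := by
      rw [pow_add, mul_assoc, mul_comm (c'.s ^ n) x, hm]
    rw [this]
    exact Ideal.mul_mem_left _ _ j.2

end Cube

section LiftData

variable {A R0 R1 R01 A' R0' R1' R01' : Type u}
  [CommRing A] [CommRing R0] [CommRing R1] [CommRing R01]
  [Algebra A R0] [Algebra A R1] [Algebra A R01] [Algebra R0 R01] [Algebra R1 R01]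
  [IsScalarTower A R0 R01] [IsScalarTower A R1 R01]
  [CommRing A'] [CommRing R0'] [CommRing R1'] [CommRing R01']
  [Algebra A' R0'] [Algebra A' R1'] [Algebra A' R01'] [Algebra R0' R01'] [Algebra R1' R01']
  [IsScalarTower A' R0' R01'] [IsScalarTower A' R1' R01']
  [Algebra R0 R0'] [Algebra R1 R1'] [Algebra R01 R01']
  [Algebra A A']
  [Algebra A R0'] [IsScalarTower A A' R0'] [IsScalarTower A R0 R0'] [Algebra.IsPushout A A' R0 R0']
  [Algebra A R1'] [IsScalarTower A A' R1'] [IsScalarTower A R1 R1'] [Algebra.IsPushout A A' R1 R1']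
  [Algebra A R01'] [IsScalarTower A A' R01'] [IsScalarTower A R01 R01']
  [Algebra.IsPushout A A' R01 R01']
  (hc0 : (algebraMap R0' R01').comp (algebraMap R0 R0') =
    (algebraMap R01 R01').comp (algebraMap R0 R01))
  (hc1 : (algebraMap R1' R01').comp (algebraMap R1 R1') =
    (algebraMap R01 R01').comp (algebraMap R1 R01))
  (c : TwoChart A R0 R1 R01) (c' : TwoChart A' R0' R1' R01')
  (hs : algebraMap R1 R1' c.s = c'.s)

/-- **Base change of the ideal sheaf of a relative effective divisor.**  If `R0 ⧸ I0` is finite and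
flat over `A`, the ideal sheaf `O(-Z')` of the closure of `V(I0 R0')` is the base change of the ideal
sheaf `O(-Z)` of the closure of `V(I0)`. -/
noncomputable def liftDataOfIdeals (I0 : Ideal R0) [Module.Finite A (R0 ⧸ I0)]
    [Module.Flat A (R0 ⧸ I0)] :
    LiftData (ofIdeals c (IdealPair.ofChart0 c I0))
      (ofIdeals c' (IdealPair.ofChart0 c' (I0.map (algebraMap R0 R0')))) :=
  have hu := exists_unit_mod_ofChart0 c I0
  have : Module.Flat A (R0 ⧸ (IdealPair.ofChart0 c I0).I0) := ‹Module.Flat A (R0 ⧸ I0)›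
  have : Module.Flat A (R1 ⧸ (IdealPair.ofChart0 c I0).I1) :=
    flat_quot_I1 c (IdealPair.ofChart0 c I0) hu.choose hu.choose_spec
  have : Module.Flat A (R01 ⧸ (IdealPair.ofChart0 c I0).I01) :=
    flat_quot_I01 c (IdealPair.ofChart0 c I0)
  { e0 := idealTensorEquiv A A' I0 (I0.map (algebraMap R0 R0')) rfl
    e1 := idealTensorEquiv A A' (IdealPair.ofChart0 c I0).I1
      (IdealPair.ofChart0 c' (I0.map (algebraMap R0 R0'))).I1 (map_I1_ofChart0 hc0 hc1 c c' hs I0)
    e01 := idealTensorEquiv A A' (IdealPair.ofChart0 c I0).I01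
      (IdealPair.ofChart0 c' (I0.map (algebraMap R0 R0'))).I01 (map_I01_ofChart0 hc0 c c' I0)
    comm0 := fun x => Subtype.ext <| by
      refine (idealTensorEquiv_tmul A A' (IdealPair.ofChart0 c I0).I01
        (IdealPair.ofChart0 c' (I0.map (algebraMap R0 R0'))).I01 (map_I01_ofChart0 hc0 c c' I0) 1
        (((IdealPair.ofChart0 c I0).unitSubPair (A := A)).subR0 x)).trans ?_
      refine Eq.trans ?_ (congrArg (algebraMap R0' R01')
        (idealTensorEquiv_tmul A A' I0 (I0.map (algebraMap R0 R0')) rfl 1 x).symm)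
      rw [one_mul, one_mul]
      exact (RingHom.congr_fun hc0 x.1).symm
    comm1 := fun x => Subtype.ext <| by
      refine (idealTensorEquiv_tmul A A' (IdealPair.ofChart0 c I0).I01
        (IdealPair.ofChart0 c' (I0.map (algebraMap R0 R0'))).I01 (map_I01_ofChart0 hc0 c c' I0) 1
        (((IdealPair.ofChart0 c I0).unitSubPair (A := A)).subR1 x)).trans ?_
      refine Eq.trans ?_ (congrArg (algebraMap R1' R01')
        (idealTensorEquiv_tmul A A' (IdealPair.ofChart0 c I0).I1
          (IdealPair.ofChart0 c' (I0.map (algebraMap R0 R0'))).I1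
          (map_I1_ofChart0 hc0 hc1 c c' hs I0) 1 x).symm)
      rw [one_mul, one_mul]
      exact (RingHom.congr_fun hc1 x.1).symm }

end LiftData

end Fermat.Agent.Jac.ConverseDiv60BC
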