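/-
Fermat/Agent/Jac/DegAdd79Alg.lean  (helper79)

JAC brick DegAdd, part 1: the commutative algebra behind "a nonzero section of a line bundle on a
curve vanishes on a finite scheme".

Let `K` be a field, `R` a domain which is a finite module over `K[X]` (`X` acting as `t : R`),
`N` an invertible `R`-module and `x : N` nonzero.  Then `r ↦ r • x` is injective and
`N ⧸ R x` is finite-dimensional over `K`; the same holds after localising away from an element.
-/
import Mathlib
import Fermat.Agent.Jac.Riemann4.LocalFD

set_option autoImplicit false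
set_option linter.style.haveILetI false

open Polynomial

namespace Fermat.Agent.Jac.DegAdd79Alg

/-! ### Finitely generated torsion modules over `K[X]` are finite-dimensional -/

section Torsion

variable {K : Type*} [Field K] {Q : Type*} [AddCommGroup Q] [Module K Q] [Module K[X] Q]
  [IsScalarTower K K[X] Q]

/-- A finitely generated `K[X]`-module killed by a nonzero polynomial is finite-dimensional over
`K`. -/
theorem finite_of_polynomial_smul_eq_zero [Module.Finite K[X] Q] (c : K[X]) (hc : c ≠ 0)
    (h : ∀ q : Q, c • q = 0) : Module.Finite K Q := by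
  -- normalise `c` to a monic polynomial
  set g : K[X] := c * C c.leadingCoeff⁻¹ with hg
  have hgm : g.Monic := monic_mul_leadingCoeff_inv hc
  have hgQ : Module.IsTorsionBy K[X] Q g := by
    intro q
    rw [hg, mul_comm, mul_smul, h, smul_zero]
  letI : Module (K[X] ⧸ Ideal.span {g}) Q := hgQ.module
  haveI : IsScalarTower K[X] (K[X] ⧸ Ideal.span {g}) Q :=
    Module.IsTorsionBySet.isScalarTower _
  haveI : IsScalarTower K (K[X] ⧸ Ideal.span {g}) Q :=
    Module.IsTorsionBySet.isScalarTower _
  haveI : Module.Finite (K[X] ⧸ Ideal.span {g}) Q :=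
    Module.Finite.of_restrictScalars_finite K[X] (K[X] ⧸ Ideal.span {g}) Q
  haveI : Module.Finite K (K[X] ⧸ Ideal.span {g}) := hgm.finite_quotient
  exact Module.Finite.trans (K[X] ⧸ Ideal.span {g}) Q

end Torsion

/-! ### Integrality -/

section Integral

variable {B R : Type*} [CommRing B] [CommRing R] [IsDomain R]

/-- If a nonzero element `a` of a domain `R` is a root of a nonzero polynomial with coefficients
in `B` (through `f : B →+* R`), then `a` divides the image of some nonzero element of `B`:
the lowest nonvanishing coefficient. -/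
theorem exists_ne_zero_dvd_of_eval₂_eq_zero (f : B →+* R) (a : R) (ha : a ≠ 0) :
    ∀ (n : ℕ) (p : B[X]), p.natDegree ≤ n → p ≠ 0 → eval₂ f a p = 0 →
      ∃ c : B, c ≠ 0 ∧ a ∣ f c := by
  intro n
  induction n with
  | zero =>
    intro p hn hp h
    have hp' : p = C (p.coeff 0) := eq_C_of_natDegree_le_zero hn
    refine ⟨p.coeff 0, ?_, ?_⟩
    · intro h0
      apply hp
      rw [hp', h0, map_zero]
    · rw [hp', eval₂_C] at h
      rw [h]
      exact dvd_zero a
  | succ n ih =>
    intro p hn hp h
    by_cases h0 : p.coeff 0 = 0
    · -- `p = X * q`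
      have hq : p = divX p * X := by
        conv_lhs => rw [← divX_mul_X_add p, h0, map_zero, add_zero]
      have hq0 : divX p ≠ 0 := by
        intro hz
        apply hp
        rw [hq, hz, zero_mul]
      have hev : eval₂ f a (divX p) = 0 := by
        rw [hq, eval₂_mul, eval₂_X] at h
        exact (mul_eq_zero.mp h).resolve_right ha
      refine ih (divX p) ?_ hq0 hev
      rw [natDegree_divX_eq_natDegree_tsub_one]
      omega
    · refine ⟨p.coeff 0, h0, ?_⟩
      have hq : p = divX p * X + C (p.coeff 0) := (divX_mul_X_add p).symm
      rw [hq, eval₂_add, eval₂_mul, eval₂_X, eval₂_C] at h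
      refine ⟨-(eval₂ f a (divX p)), ?_⟩
      linear_combination h

end Integral

/-! ### Nonzero elements of invertible modules -/

section Curve

variable {K R : Type*} [Field K] [CommRing R] [Algebra K R] (t : R)

/-- In a domain `R` finite over `K[t]`, every nonzero element divides a nonzero polynomial in
`t`. -/
theorem exists_polynomial_ne_zero_dvd [IsDomain R]
    (hfin : Module.Finite K[X] (Module.AEval K R t)) (a : R) (ha : a ≠ 0) :
    ∃ c : K[X], c ≠ 0 ∧ a ∣ aeval t c := by
  letI : Algebra K[X] R := (Polynomial.aeval t).toRingHom.toAlgebra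
  let eR : R ≃ₗ[K[X]] Module.AEval K R t :=
    { (Module.AEval.of K R t).toAddEquiv with
      map_smul' := fun p r => by
        show Module.AEval.of K R t (Polynomial.aeval t p • r) = p • Module.AEval.of K R t r
        exact Module.AEval.of_aeval_smul t p r }
  haveI : Module.Finite K[X] R := Module.Finite.equiv eR.symm
  have hint : IsIntegral K[X] a := Algebra.IsIntegral.isIntegral a
  obtain ⟨p, hpm, hp⟩ := hint
  exact exists_ne_zero_dvd_of_eval₂_eq_zero (algebraMap K[X] R) a ha p.natDegree p le_rfl
    hpm.ne_zero hp

end Curve

section Invertible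

variable {R N : Type*} [CommRing R] [AddCommGroup N] [Module R N] [Module.Invertible R N]

/-- In an invertible module any two elements are "proportional": `φ x • y = φ y • x` for every
linear form `φ`. -/
theorem dual_smul_comm (φ : N →ₗ[R] R) (x y : N) : φ x • y = φ y • x := by
  have h := Module.Invertible.tmul_comm (R := R) (m₁ := x) (m₂ := y)
  have h2 := congrArg (TensorProduct.lift ((LinearMap.lsmul R N).comp φ)) h
  simpa using h2

/-- A nonzero element of an invertible module over a domain is not killed by a nonzero scalar. -/
theorem toSpanSingleton_injective [IsDomain R] (x : N) (hx : x ≠ 0) :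
    Function.Injective (LinearMap.toSpanSingleton R N x) := by
  obtain ⟨φ, hφ⟩ := Module.Projective.exists_dual_ne_zero R hx
  rw [injective_iff_map_eq_zero]
  intro r hr
  have h1 : φ (r • x) = 0 := by
    rw [LinearMap.toSpanSingleton_apply] at hr
    rw [hr, map_zero]
  rw [map_smul, smul_eq_mul] at h1
  exact (mul_eq_zero.mp h1).resolve_right hφ

end Invertible

section Main

variable {K R : Type*} [Field K] [CommRing R] [IsDomain R] [Algebra K R] (t : R)
  {N : Type*} [AddCommGroup N] [Module R N] [Module K N] [IsScalarTower K R N]
  [Module.Invertible R N]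

/-- **Finiteness of the zero scheme of a nonzero section.**  For a domain `R` finite over `K[t]`,
an invertible `R`-module `N` and a nonzero `x : N`, the quotient `N ⧸ R x` is finite-dimensional
over `K`. -/
theorem finite_quotient_span_singleton (hfin : Module.Finite K[X] (Module.AEval K R t))
    (x : N) (hx : x ≠ 0) : Module.Finite K (N ⧸ Submodule.span R {x}) := by
  obtain ⟨φ, hφ⟩ := Module.Projective.exists_dual_ne_zero R hx
  obtain ⟨c, hc, b, hb⟩ := exists_polynomial_ne_zero_dvd t hfin (φ x) hφ
  -- the `K[X]`-module structures
  letI : Algebra K[X] R := (Polynomial.aeval t).toRingHom.toAlgebra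
  let eR : R ≃ₗ[K[X]] Module.AEval K R t :=
    { (Module.AEval.of K R t).toAddEquiv with
      map_smul' := fun p r => by
        show Module.AEval.of K R t (Polynomial.aeval t p • r) = p • Module.AEval.of K R t r
        exact Module.AEval.of_aeval_smul t p r }
  haveI : Module.Finite K[X] R := Module.Finite.equiv eR.symm
  let Q := N ⧸ Submodule.span R {x}
  letI : Module K[X] Q := Module.compHom Q (Polynomial.aeval (R := K) t).toRingHom
  haveI : IsScalarTower K[X] R Q := ⟨fun p r n => mul_smul (Polynomial.aeval t p) r n⟩
  haveI : IsScalarTower K K[X] Q := ⟨fun k p q => by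
    show Polynomial.aeval t (k • p) • q = k • (Polynomial.aeval t p • q)
    rw [map_smul, smul_assoc]⟩
  haveI : Module.Finite K[X] Q := Module.Finite.trans R Q
  refine finite_of_polynomial_smul_eq_zero (Q := Q) c hc (fun q => ?_)
  obtain ⟨y, rfl⟩ := Submodule.Quotient.mk_surjective _ q
  show Polynomial.aeval t c • (Submodule.Quotient.mk y : Q) = 0
  rw [← Submodule.Quotient.mk_smul, Submodule.Quotient.mk_eq_zero, hb, mul_comm, mul_smul,
    dual_smul_comm φ x y, smul_smul]
  exact Submodule.smul_mem _ _ (Submodule.mem_span_singleton_self x)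

end Main

/-! ### Localisation -/

section Localization

variable {K R S : Type*} [Field K] [CommRing R] [CommRing S] [Algebra K R] [Algebra K S]
  [Algebra R S] (τ : R) [IsLocalization.Away τ S]
  {N N' : Type*} [AddCommGroup N] [Module K N] [Module R N] [IsScalarTower K R N]
  [AddCommGroup N'] [Module K N'] [Module R N'] [Module S N'] [IsScalarTower R S N']
  [IsScalarTower K R N'] [IsScalarTower K S N']

include τ in
/-- Finiteness of `N ⧸ R x` passes to the localisation away from `τ`. -/
theorem finite_quotient_span_singleton_of_isBaseChange (r : N →ₗ[R] N') (hbc : IsBaseChange S r)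
    (x : N) [Module.Finite K (N ⧸ Submodule.span R {x})] :
    Module.Finite K (N' ⧸ Submodule.span S {r x}) := by
  let P : Submodule R N := Submodule.span R {x}
  let W : Submodule S N' := Submodule.span S {r x}
  have hPW : ∀ y ∈ P, r y ∈ W := by
    intro y hy
    obtain ⟨a, rfl⟩ := Submodule.mem_span_singleton.mp hy
    rw [map_smul, ← algebraMap_smul S a (r x)]
    exact Submodule.smul_mem _ _ (Submodule.mem_span_singleton_self _)
  let g0 : N →ₗ[K] (N' ⧸ W) := (W.mkQ.restrictScalars K).comp (r.restrictScalars K)
  let g : (N ⧸ P.restrictScalars K) →ₗ[K] (N' ⧸ W) := (P.restrictScalars K).liftQ g0 (by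
    intro y hy
    have hy' : y ∈ P := hy
    simp only [g0, LinearMap.mem_ker, LinearMap.comp_apply, LinearMap.restrictScalars_apply,
      Submodule.mkQ_apply, Submodule.Quotient.mk_eq_zero]
    exact hPW y hy')
  have hg : Function.Surjective g := by
    intro z
    obtain ⟨z, rfl⟩ := Submodule.Quotient.mk_surjective _ z
    obtain ⟨y, hy⟩ :=
      Riemann4.LocalFD.exists_sub_mem_of_finiteDimensional (K := K) τ r hbc W P hPW z
    refine ⟨Submodule.Quotient.mk y, ?_⟩
    show Submodule.Quotient.mk (r y) = (Submodule.Quotient.mk z : N' ⧸ W)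
    rw [Submodule.Quotient.eq]
    have := W.neg_mem hy
    rwa [neg_sub] at this
  haveI : Module.Finite K (N ⧸ P.restrictScalars K) :=
    Module.Finite.equiv (Submodule.Quotient.restrictScalarsEquiv K P).symm
  exact Module.Finite.of_surjective g hg

end Localization

end Fermat.Agent.Jac.DegAdd79Alg
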