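import Mathlib
import Fermat.Agent.Jac.P1CohChi.Complex

/-!
# JAC brick Q2 (GroupSep), part 2: Euler characteristics of two-term complexes

* `eulerChar d = dim ker d - dim coker d`.
* `eulerChar_postcomp` : `χ(β ∘ d) = χ(d) - dim coker β` for `β` injective.
* `eulerChar_of_injective_map` : for an injective map `(α, β)` of two-term complexes `d → d'`
  with finite-dimensional cokernels, `χ(d') = χ(d) + dim coker α - dim coker β`.
(Uses `P1CohChi.Complex.euler_comp` of helper14.)
-/

open TensorProduct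

namespace Fermat.Agent.Jac.JGroup85Euler

open LinearMap Module

section

variable {K : Type*} [Field K]

/-- Rank-nullity for a short exact sequence. -/
theorem finrank_eq_add_of_exact {A B C : Type*} [AddCommGroup A] [AddCommGroup B] [AddCommGroup C]
    [Module K A] [Module K B] [Module K C] [FiniteDimensional K B] (f : A →ₗ[K] B) (g : B →ₗ[K] C)
    (hf : Function.Injective f) (hg : Function.Surjective g) (h : Function.Exact f g) :
    finrank K B = finrank K A + finrank K C := by
  have h1 := g.finrank_range_add_finrank_ker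
  have h2 : finrank K (range g) = finrank K C := by
    rw [range_eq_top.mpr hg, finrank_top]
  have h3 : finrank K (ker g) = finrank K A := by
    rw [h.linearMap_ker_eq]
    exact finrank_range_of_inj hf
  omega

/-- The Euler characteristic `dim ker - dim coker` of a linear map (junk unless both are
finite-dimensional). -/
noncomputable def eulerChar {X0 X1 : Type*} [AddCommGroup X0] [Module K X0] [AddCommGroup X1]
    [Module K X1] (d : X0 →ₗ[K] X1) : ℤ :=
  (finrank K (ker d) : ℤ) - finrank K (X1 ⧸ range d)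

variable {X0 X1 Y0 Y1 : Type*} [AddCommGroup X0] [Module K X0] [AddCommGroup X1] [Module K X1]
  [AddCommGroup Y0] [Module K Y0] [AddCommGroup Y1] [Module K Y1]

/-- Post-composition with an injective map `β` with finite-dimensional cokernel:
`χ(β ∘ d) = χ(d) - dim coker β`. -/
theorem eulerChar_postcomp (d : X0 →ₗ[K] X1) (β : X1 →ₗ[K] Y1) (hβ : Function.Injective β)
    [FiniteDimensional K (X1 ⧸ range d)] [FiniteDimensional K (Y1 ⧸ range β)] :
    FiniteDimensional K (Y1 ⧸ range (β ∘ₗ d)) ∧
      ker (β ∘ₗ d) = ker d ∧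
      eulerChar (β ∘ₗ d) = eulerChar d - finrank K (Y1 ⧸ range β) := by
  have hker : ker (β ∘ₗ d) = ker d := ker_comp_of_ker_eq_bot d (ker_eq_bot.mpr hβ)
  have hle : range (β ∘ₗ d) ≤ range β := range_comp_le_range d β
  -- the maps of the short exact sequence of cokernels
  let f : (X1 ⧸ range d) →ₗ[K] (Y1 ⧸ range (β ∘ₗ d)) :=
    (range d).mapQ (range (β ∘ₗ d)) β (by
      rintro _ ⟨x, rfl⟩
      exact ⟨x, rfl⟩)
  let g : (Y1 ⧸ range (β ∘ₗ d)) →ₗ[K] (Y1 ⧸ range β) :=
    (range (β ∘ₗ d)).mapQ (range β) LinearMap.id (by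
      intro y hy
      exact hle hy)
  have hf : Function.Injective f := by
    rw [← ker_eq_bot, eq_bot_iff]
    intro z hz
    obtain ⟨x, rfl⟩ := (range d).mkQ_surjective z
    rw [mem_ker] at hz
    have hz' : (range (β ∘ₗ d)).mkQ (β x) = 0 := hz
    rw [Submodule.mkQ_apply, Submodule.Quotient.mk_eq_zero] at hz'
    obtain ⟨w, hw⟩ := hz'
    have : d w = x := hβ hw
    rw [Submodule.mem_bot, Submodule.mkQ_apply, Submodule.Quotient.mk_eq_zero]
    exact ⟨w, this⟩
  have hg : Function.Surjective g := by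
    intro z
    obtain ⟨y, rfl⟩ := (range β).mkQ_surjective z
    exact ⟨(range (β ∘ₗ d)).mkQ y, rfl⟩
  have hfg : Function.Exact f g := by
    intro z
    constructor
    · intro hz
      obtain ⟨y, rfl⟩ := (range (β ∘ₗ d)).mkQ_surjective z
      have hz' : (range β).mkQ y = 0 := hz
      rw [Submodule.mkQ_apply, Submodule.Quotient.mk_eq_zero] at hz'
      obtain ⟨x, rfl⟩ := hz'
      exact ⟨(range d).mkQ x, rfl⟩
    · rintro ⟨w, rfl⟩
      obtain ⟨x, rfl⟩ := (range d).mkQ_surjective w
      show (range β).mkQ (β x) = 0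
      rw [Submodule.mkQ_apply, Submodule.Quotient.mk_eq_zero]
      exact ⟨x, rfl⟩
  have hfin : FiniteDimensional K (Y1 ⧸ range (β ∘ₗ d)) := Module.Finite.of_exact hfg hg
  refine ⟨hfin, hker, ?_⟩
  have e := finrank_eq_add_of_exact f g hf hg hfg
  unfold eulerChar
  rw [hker, e]
  push_cast
  ring

/-- If `d = d' ∘ φ` with `ker d`, `coker φ` finite-dimensional then `ker d'` is
finite-dimensional. -/
theorem finiteDimensional_ker_of_comp (d : X0 →ₗ[K] Y1) (d' : Y0 →ₗ[K] Y1) (φ : X0 →ₗ[K] Y0)
    (h : d = d' ∘ₗ φ) [FiniteDimensional K (ker d)] [FiniteDimensional K (Y0 ⧸ range φ)] :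
    FiniteDimensional K (ker d') := by
  have hex : Function.Exact (P1CohChi.Complex.kerMap d d' φ h)
      (P1CohChi.Complex.kerToCoker d' φ).rangeRestrict := by
    rw [LinearMap.exact_iff, LinearMap.ker_rangeRestrict]
    exact (P1CohChi.Complex.range_kerMap d d' φ h).symm
  exact Module.Finite.of_exact hex (LinearMap.surjective_rangeRestrict _)

/-- **Euler characteristic of an injective map of two-term complexes** with finite-dimensional
cokernels: `χ(d') = χ(d) + dim coker α - dim coker β`. -/
theorem eulerChar_of_injective_map (d : X0 →ₗ[K] X1) (d' : Y0 →ₗ[K] Y1) (α : X0 →ₗ[K] Y0)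
    (β : X1 →ₗ[K] Y1) (hα : Function.Injective α) (hβ : Function.Injective β)
    (hcomm : d' ∘ₗ α = β ∘ₗ d)
    [FiniteDimensional K (ker d)] [FiniteDimensional K (X1 ⧸ range d)]
    [FiniteDimensional K (Y0 ⧸ range α)] [FiniteDimensional K (Y1 ⧸ range β)] :
    FiniteDimensional K (ker d') ∧ FiniteDimensional K (Y1 ⧸ range d') ∧
      eulerChar d' = eulerChar d + finrank K (Y0 ⧸ range α) - finrank K (Y1 ⧸ range β) := by
  obtain ⟨hfin, hker, hchi⟩ := eulerChar_postcomp d β hβ
  have hfk : FiniteDimensional K (ker (β ∘ₗ d)) := by rw [hker]; infer_instance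
  have hfd' : FiniteDimensional K (ker d') :=
    finiteDimensional_ker_of_comp (β ∘ₗ d) d' α hcomm.symm
  obtain ⟨-, h2, h3⟩ := P1CohChi.Complex.euler_comp (β ∘ₗ d) d' α hcomm.symm hα
  refine ⟨hfd', h2, ?_⟩
  unfold eulerChar at hchi ⊢
  rw [h3]
  linarith

end

end Fermat.Agent.Jac.JGroup85Euler
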