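import Mathlib

/-!
# JAC brick Q2 (GroupSep), part 1: tensoring with an invertible module preserves dimension

`finrank_tensor_eq` : for a field `K`, a commutative `K`-algebra `R`, an invertible `R`-module `P`
and an `R`-module `Q` that is finite-dimensional over `K`:
`finrank K (P ⊗[R] Q) = finrank K Q` (and `P ⊗[R] Q` is finite-dimensional, `finite_tensor`).
Proof: induction on the dimension through a simple submodule `S ≅ R ⧸ m`, using
`P ⊗ (R ⧸ m) ≅ R ⧸ m` (Picard group of a field is trivial) and flatness of `P`.
Also `finrank_eq_add_of_exact` (rank-nullity for a short exact sequence).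
-/

open TensorProduct

namespace Fermat.Agent.Jac.JGroup85FinLen

set_option linter.style.haveILetI false
set_option linter.unusedSectionVars false

universe u v w x

section Simple

variable {R : Type u} [CommRing R] {P : Type v} [AddCommGroup P] [Module R P]
  [Module.Invertible R P]

/-- Tensoring an invertible module with `R ⧸ m` (`m` maximal) gives back `R ⧸ m`. -/
theorem nonempty_tensor_quot_equiv (m : Ideal R) [hm : m.IsMaximal] :
    Nonempty (P ⊗[R] (R ⧸ m) ≃ₗ[R] (R ⧸ m)) := by
  letI : Field (R ⧸ m) := Ideal.Quotient.field m
  have hfree : Module.Free (R ⧸ m) ((R ⧸ m) ⊗[R] P) := inferInstance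
  obtain ⟨e⟩ := Module.Invertible.free_iff_linearEquiv.mp hfree
  exact ⟨TensorProduct.comm R P (R ⧸ m) ≪≫ₗ e.restrictScalars R⟩

/-- Tensoring an invertible module with a simple module gives back the simple module. -/
theorem nonempty_tensor_simple_equiv (S : Type w) [AddCommGroup S] [Module R S]
    [IsSimpleModule R S] : Nonempty (P ⊗[R] S ≃ₗ[R] S) := by
  obtain ⟨m, hm, ⟨e⟩⟩ := isSimpleModule_iff_quot_maximal.mp (inferInstance : IsSimpleModule R S)
  obtain ⟨f⟩ := nonempty_tensor_quot_equiv (P := P) m
  exact ⟨(TensorProduct.congr (LinearEquiv.refl R P) e) ≪≫ₗ f ≪≫ₗ e.symm⟩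

end Simple

section Exact

variable {K : Type u} [Field K] {A B C : Type*} [AddCommGroup A] [AddCommGroup B] [AddCommGroup C]
  [Module K A] [Module K B] [Module K C]

/-- Rank-nullity for a short exact sequence. -/
theorem finrank_eq_add_of_exact [FiniteDimensional K B] (f : A →ₗ[K] B) (g : B →ₗ[K] C)
    (hf : Function.Injective f) (hg : Function.Surjective g) (h : Function.Exact f g) :
    Module.finrank K B = Module.finrank K A + Module.finrank K C := by
  have h1 := g.finrank_range_add_finrank_ker
  have h2 : Module.finrank K (LinearMap.range g) = Module.finrank K C := by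
    rw [LinearMap.range_eq_top.mpr hg, finrank_top]
  have h3 : Module.finrank K (LinearMap.ker g) = Module.finrank K A := by
    rw [h.linearMap_ker_eq]
    exact LinearMap.finrank_range_of_inj hf
  omega

end Exact

section Main

variable {K : Type u} [Field K] {R : Type v} [CommRing R] [Algebra K R]
variable {P : Type w} [AddCommGroup P] [Module R P] [Module K P] [IsScalarTower K R P]
  [Module.Invertible R P]

/-- `P ⊗[R] Q` is finite-dimensional over `K` when `Q` is (and `P` is finite over `R`). -/
theorem finite_tensor (Q : Type*) [AddCommGroup Q] [Module R Q] [Module K Q]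
    [IsScalarTower K R Q] [Module.Finite K Q] : Module.Finite K (P ⊗[R] Q) := by
  -- `P` is a quotient of `R^n`, so `P ⊗ Q` is a quotient of `Q^n`
  obtain ⟨n, π, hπ⟩ := Module.Finite.exists_fin' R P
  let φ : ((Fin n → R) ⊗[R] Q) →ₗ[R] P ⊗[R] Q := LinearMap.rTensor Q π
  have hφ : Function.Surjective φ := LinearMap.rTensor_surjective Q hπ
  let ψ : (Fin n → Q) ≃ₗ[R] ((Fin n → R) ⊗[R] Q) :=
    (TensorProduct.piScalarRight R R Q (Fin n)).symm ≪≫ₗ TensorProduct.comm R Q (Fin n → R)
  have hfin : Module.Finite K (Fin n → Q) := inferInstance
  exact Module.Finite.of_surjective ((φ ∘ₗ ψ.toLinearMap).restrictScalars K)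
    (hφ.comp ψ.surjective)

/-- Key lemma: tensoring with an invertible module does not change the `K`-dimension of a module
that is finite-dimensional over `K`. -/
theorem finrank_tensor_eq_aux (n : ℕ) : ∀ (Q : Type x) [AddCommGroup Q] [Module R Q] [Module K Q]
    [IsScalarTower K R Q] [Module.Finite K Q], Module.finrank K Q = n →
    Module.finrank K (P ⊗[R] Q) = Module.finrank K Q := by
  induction n using Nat.strong_induction_on with
  | _ n ih =>
    intro Q _ _ _ _ _ hn
    by_cases hQ : Subsingleton Q
    · have : Subsingleton (P ⊗[R] Q) := inferInstance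
      rw [Module.finrank_zero_of_subsingleton, Module.finrank_zero_of_subsingleton]
    · rw [not_subsingleton_iff_nontrivial] at hQ
      -- `Q` is an artinian `R`-module, so it has a simple submodule
      have hart : IsArtinian R Q := isArtinian_of_tower K (inferInstance : IsArtinian K Q)
      obtain ⟨S, hS⟩ := IsAtomic.exists_atom (Submodule R Q)
      have hsimple : IsSimpleModule R S := isSimpleModule_iff_isAtom.mpr hS
      obtain ⟨e⟩ := nonempty_tensor_simple_equiv (R := R) (P := P) S
      have hfinPQ : Module.Finite K (P ⊗[R] Q) := finite_tensor (P := P) Q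
      -- the exact sequence `0 → S → Q → Q ⧸ S → 0` and its tensor product with `P`
      have hex : Function.Exact (S.subtype) (S.mkQ) := LinearMap.exact_subtype_mkQ S
      have hexT : Function.Exact (LinearMap.lTensor P S.subtype) (LinearMap.lTensor P S.mkQ) :=
        Module.Flat.lTensor_exact P hex
      have hinjT : Function.Injective (LinearMap.lTensor P S.subtype) :=
        Module.Flat.lTensor_preserves_injective_linearMap _ S.subtype_injective
      have hsurjT : Function.Surjective (LinearMap.lTensor P S.mkQ) :=
        LinearMap.lTensor_surjective P S.mkQ_surjective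
      have e1 := finrank_eq_add_of_exact (K := K)
        ((LinearMap.lTensor P S.subtype).restrictScalars K)
        ((LinearMap.lTensor P S.mkQ).restrictScalars K) hinjT hsurjT hexT
      have e2 := finrank_eq_add_of_exact (K := K)
        ((S.subtype).restrictScalars K) ((S.mkQ).restrictScalars K)
        S.subtype_injective S.mkQ_surjective hex
      have e3 : Module.finrank K (P ⊗[R] S) = Module.finrank K S :=
        LinearEquiv.finrank_eq (e.restrictScalars K)
      have hSpos : 0 < Module.finrank K S := by
        have : Nontrivial S := IsSimpleModule.nontrivial R S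
        have : Module.Finite K S :=
          Module.Finite.of_injective ((S.subtype).restrictScalars K) S.subtype_injective
        exact Module.finrank_pos
      have hlt : Module.finrank K (Q ⧸ S) < n := by omega
      have e4 := ih _ hlt (Q ⧸ S) rfl
      omega


/-- Tensoring with an invertible module does not change the `K`-dimension of a module that is
finite-dimensional over `K`. -/
theorem finrank_tensor_eq (Q : Type x) [AddCommGroup Q] [Module R Q] [Module K Q]
    [IsScalarTower K R Q] [Module.Finite K Q] :
    Module.finrank K (P ⊗[R] Q) = Module.finrank K Q :=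
  finrank_tensor_eq_aux (P := P) _ Q rfl

end Main

end Fermat.Agent.Jac.JGroup85FinLen
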