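/-
Fermat/Agent/Jac/DegAdd79Section.lean  (helper79)

JAC brick DegAdd, part 2: the section lemma.

Let `E` be a two-chart module over a field `K` with a "good" section `σ = (s0, s1)`
(`r0 s0 = r1 s1`, the three maps `r ↦ r • s` injective, and the three cokernels
`N ⧸ R s` finite-dimensional over `K`).  Then for every line bundle `M` with finite-dimensional
cohomology, `M ⊗ E` has finite-dimensional cohomology and
`χ(M ⊗ E) = χ(M) + deg σ`, where `deg σ = dim N0/s0 + dim N1/s1 - dim N01/s01` does not depend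
on `M`.
-/
import Mathlib
import Fermat.Agent.Jac.Core
import Fermat.Agent.Jac.LineOps39.Tensor
import Fermat.Agent.Jac.JGroup85Euler
import Fermat.Agent.Jac.JGroup85FinLen

set_option autoImplicit false
set_option linter.style.haveILetI false
set_option linter.unusedSectionVars false

universe u

open TensorProduct

namespace Fermat.Agent.Jac.DegAdd79Section

open LinearMap Module

/-! ### One chart: tensoring an invertible module with `x : N` -/

section OneChart

variable {K : Type*} [Field K] (R : Type*) [CommRing R] [Algebra K R]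
  (P : Type*) [AddCommGroup P] [Module R P] [Module K P] [IsScalarTower K R P]
  {N : Type*} [AddCommGroup N] [Module R N] [Module K N] [IsScalarTower K R N] (x : N)

/-- The map `p ↦ p ⊗ x`. -/
def tmulRight : P →ₗ[R] P ⊗[R] N := (TensorProduct.mk R P N).flip x

@[simp] lemma tmulRight_apply (p : P) : tmulRight R P x p = p ⊗ₜ[R] x := rfl

/-- The projection `P ⊗ N → P ⊗ (N ⧸ R x)`. -/
def toQuot : P ⊗[R] N →ₗ[R] P ⊗[R] (N ⧸ Submodule.span R {x}) :=
  LinearMap.lTensor P (Submodule.span R {x}).mkQ

lemma tmulRight_eq : tmulRight R P x =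
    (LinearMap.lTensor P (LinearMap.toSpanSingleton R N x)) ∘ₗ
      (TensorProduct.rid R P).symm.toLinearMap := by
  ext p
  simp

lemma tmulRight_injective [Module.Flat R P]
    (hx : Function.Injective (LinearMap.toSpanSingleton R N x)) :
    Function.Injective (tmulRight R P x) := by
  rw [tmulRight_eq]
  exact (Module.Flat.lTensor_preserves_injective_linearMap _ hx).comp
    (TensorProduct.rid R P).symm.injective

lemma toQuot_surjective : Function.Surjective (toQuot R P x) :=
  LinearMap.lTensor_surjective P (Submodule.span R {x}).mkQ_surjective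

lemma exact_tmulRight_toQuot : Function.Exact (tmulRight R P x) (toQuot R P x) := by
  have h1 : Function.Exact (LinearMap.toSpanSingleton R N x) (Submodule.span R {x}).mkQ := by
    rw [LinearMap.exact_iff, Submodule.ker_mkQ, LinearMap.span_singleton_eq_range]
  have h2 : Function.Exact (LinearMap.lTensor P (LinearMap.toSpanSingleton R N x))
      (toQuot R P x) := lTensor_exact P h1 (Submodule.span R {x}).mkQ_surjective
  intro z
  rw [h2 z, tmulRight_eq, LinearMap.coe_comp, Set.range_comp]
  simp [(TensorProduct.rid R P).symm.surjective.range_eq]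

/-- The `K`-dimension of `P ⊗ (N ⧸ R x)` is that of `N ⧸ R x` for invertible `P`. -/
lemma finrank_tensor_quot [Module.Invertible R P] [Module.Finite K (N ⧸ Submodule.span R {x})] :
    Module.finrank K (P ⊗[R] (N ⧸ Submodule.span R {x})) =
      Module.finrank K (N ⧸ Submodule.span R {x}) :=
  JGroup85FinLen.finrank_tensor_eq (K := K) (R := R) (P := P) (N ⧸ Submodule.span R {x})

lemma finite_tensor_quot [Module.Invertible R P] [Module.Finite K (N ⧸ Submodule.span R {x})] :
    Module.Finite K (P ⊗[R] (N ⧸ Submodule.span R {x})) :=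
  JGroup85FinLen.finite_tensor (K := K) (R := R) (P := P) (N ⧸ Submodule.span R {x})

end OneChart

/-! ### Assembling the three charts -/

section Assembly

variable {K : Type*} [Field K]
  {R0 R1 R01 : Type*} [CommRing R0] [CommRing R1] [CommRing R01]
  [Algebra K R0] [Algebra K R1] [Algebra K R01]
  {P0 P1 P01 : Type*}
  [AddCommGroup P0] [Module R0 P0] [Module K P0] [IsScalarTower K R0 P0] [Module.Invertible R0 P0]
  [AddCommGroup P1] [Module R1 P1] [Module K P1] [IsScalarTower K R1 P1] [Module.Invertible R1 P1]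
  [AddCommGroup P01] [Module R01 P01] [Module K P01] [IsScalarTower K R01 P01]
  [Module.Invertible R01 P01]
  {N0 N1 N01 : Type*}
  [AddCommGroup N0] [Module R0 N0] [Module K N0] [IsScalarTower K R0 N0]
  [AddCommGroup N1] [Module R1 N1] [Module K N1] [IsScalarTower K R1 N1]
  [AddCommGroup N01] [Module R01 N01] [Module K N01] [IsScalarTower K R01 N01]

lemma exact_prodMap {X0 X1 Y0 Y1 Z0 Z1 : Type*} [AddCommGroup X0] [AddCommGroup X1]
    [AddCommGroup Y0] [AddCommGroup Y1] [AddCommGroup Z0] [AddCommGroup Z1]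
    [Module K X0] [Module K X1] [Module K Y0] [Module K Y1] [Module K Z0] [Module K Z1]
    {f0 : X0 →ₗ[K] Y0} {g0 : Y0 →ₗ[K] Z0} {f1 : X1 →ₗ[K] Y1} {g1 : Y1 →ₗ[K] Z1}
    (h0 : Function.Exact f0 g0) (h1 : Function.Exact f1 g1) :
    Function.Exact (LinearMap.prodMap f0 f1) (LinearMap.prodMap g0 g1) := by
  rintro ⟨y0, y1⟩
  simp only [LinearMap.prodMap_apply, Prod.mk_eq_zero, Set.mem_range, Prod.exists, Prod.mk.injEq]
  rw [h0 y0, h1 y1]
  constructor
  · rintro ⟨⟨a, ha⟩, ⟨b, hb⟩⟩
    exact ⟨a, b, ha, hb⟩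
  · rintro ⟨a, b, ha, hb⟩
    exact ⟨⟨a, ha⟩, ⟨b, hb⟩⟩

/-- **Section lemma (abstract form).**  Tensoring a two-term complex `d : P0 × P1 → P01` of
invertible modules with a compatible triple `(x0, x1, x01)` of regular elements with
finite-dimensional cokernels changes the Euler characteristic by
`dim N0/x0 + dim N1/x1 - dim N01/x01`. -/
theorem eulerChar_tensor_section (x0 : N0) (x1 : N1) (x01 : N01)
    (d : (P0 × P1) →ₗ[K] P01)
    (d' : ((P0 ⊗[R0] N0) × (P1 ⊗[R1] N1)) →ₗ[K] (P01 ⊗[R01] N01))
    (hcomm : ∀ p : P0 × P1, d' (p.1 ⊗ₜ[R0] x0, p.2 ⊗ₜ[R1] x1) = d p ⊗ₜ[R01] x01)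
    (h0 : Function.Injective (LinearMap.toSpanSingleton R0 N0 x0))
    (h1 : Function.Injective (LinearMap.toSpanSingleton R1 N1 x1))
    (h01 : Function.Injective (LinearMap.toSpanSingleton R01 N01 x01))
    [Module.Finite K (N0 ⧸ Submodule.span R0 {x0})]
    [Module.Finite K (N1 ⧸ Submodule.span R1 {x1})]
    [Module.Finite K (N01 ⧸ Submodule.span R01 {x01})]
    [FiniteDimensional K (LinearMap.ker d)] [FiniteDimensional K (P01 ⧸ LinearMap.range d)] :
    FiniteDimensional K (LinearMap.ker d') ∧
      FiniteDimensional K ((P01 ⊗[R01] N01) ⧸ LinearMap.range d') ∧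
      JGroup85Euler.eulerChar d' = JGroup85Euler.eulerChar d +
        ((Module.finrank K (N0 ⧸ Submodule.span R0 {x0}) : ℤ) +
          Module.finrank K (N1 ⧸ Submodule.span R1 {x1}) -
          Module.finrank K (N01 ⧸ Submodule.span R01 {x01})) := by
  let α : (P0 × P1) →ₗ[K] ((P0 ⊗[R0] N0) × (P1 ⊗[R1] N1)) :=
    LinearMap.prodMap ((tmulRight R0 P0 x0).restrictScalars K)
      ((tmulRight R1 P1 x1).restrictScalars K)
  let β : P01 →ₗ[K] P01 ⊗[R01] N01 := (tmulRight R01 P01 x01).restrictScalars K
  let π : ((P0 ⊗[R0] N0) × (P1 ⊗[R1] N1)) →ₗ[K]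
      ((P0 ⊗[R0] (N0 ⧸ Submodule.span R0 {x0})) × (P1 ⊗[R1] (N1 ⧸ Submodule.span R1 {x1}))) :=
    LinearMap.prodMap ((toQuot R0 P0 x0).restrictScalars K) ((toQuot R1 P1 x1).restrictScalars K)
  let ρ : P01 ⊗[R01] N01 →ₗ[K] P01 ⊗[R01] (N01 ⧸ Submodule.span R01 {x01}) :=
    (toQuot R01 P01 x01).restrictScalars K
  have hα : Function.Injective α :=
    Function.Injective.prodMap (tmulRight_injective R0 P0 x0 h0) (tmulRight_injective R1 P1 x1 h1)
  have hβ : Function.Injective β := tmulRight_injective R01 P01 x01 h01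
  have hαπ : Function.Exact α π :=
    exact_prodMap (exact_tmulRight_toQuot R0 P0 x0) (exact_tmulRight_toQuot R1 P1 x1)
  have hπ : Function.Surjective π :=
    Function.Surjective.prodMap (toQuot_surjective R0 P0 x0) (toQuot_surjective R1 P1 x1)
  have hβρ : Function.Exact β ρ := exact_tmulRight_toQuot R01 P01 x01
  have hρ : Function.Surjective ρ := toQuot_surjective R01 P01 x01
  let eα := hαπ.linearEquivOfSurjective hπ
  let eβ := hβρ.linearEquivOfSurjective hρ
  haveI : Module.Finite K (P0 ⊗[R0] (N0 ⧸ Submodule.span R0 {x0})) :=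
    finite_tensor_quot R0 P0 x0
  haveI : Module.Finite K (P1 ⊗[R1] (N1 ⧸ Submodule.span R1 {x1})) :=
    finite_tensor_quot R1 P1 x1
  haveI : Module.Finite K (P01 ⊗[R01] (N01 ⧸ Submodule.span R01 {x01})) :=
    finite_tensor_quot R01 P01 x01
  haveI : FiniteDimensional K (((P0 ⊗[R0] N0) × (P1 ⊗[R1] N1)) ⧸ LinearMap.range α) :=
    Module.Finite.equiv eα.symm
  haveI : FiniteDimensional K ((P01 ⊗[R01] N01) ⧸ LinearMap.range β) :=
    Module.Finite.equiv eβ.symm
  have hc : d' ∘ₗ α = β ∘ₗ d := LinearMap.ext (fun p => hcomm p)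
  obtain ⟨a, b, e⟩ := JGroup85Euler.eulerChar_of_injective_map d d' α β hα hβ hc
  refine ⟨a, b, ?_⟩
  rw [e, eα.finrank_eq, eβ.finrank_eq, Module.finrank_prod, finrank_tensor_quot,
    finrank_tensor_quot, finrank_tensor_quot]
  push_cast
  ring

end Assembly

/-! ### Two-chart modules -/

section QC

variable {K R0 R1 R01 : Type u} [Field K] [CommRing R0] [CommRing R1] [CommRing R01]
  [Algebra K R0] [Algebra K R1] [Algebra K R01] [Algebra R0 R01] [Algebra R1 R01]
  [IsScalarTower K R0 R01] [IsScalarTower K R1 R01]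

/-- A *good section* of a two-chart module `E` over a field `K`: a global section which is a
non-zero-divisor on every chart and whose zero scheme is finite over `K`. -/
structure GoodSection (E : QC2 K R0 R1 R01) where
  /-- the section on the first chart -/
  s0 : E.N0
  /-- the section on the second chart -/
  s1 : E.N1
  compat : E.r0 s0 = E.r1 s1
  inj0 : Function.Injective (LinearMap.toSpanSingleton R0 E.N0 s0)
  inj1 : Function.Injective (LinearMap.toSpanSingleton R1 E.N1 s1)
  inj01 : Function.Injective (LinearMap.toSpanSingleton R01 E.N01 (E.r0 s0))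
  fin0 : Module.Finite K (E.N0 ⧸ Submodule.span R0 {s0})
  fin1 : Module.Finite K (E.N1 ⧸ Submodule.span R1 {s1})
  fin01 : Module.Finite K (E.N01 ⧸ Submodule.span R01 {E.r0 s0})

/-- The degree of (the zero scheme of) a good section. -/
noncomputable def GoodSection.deg {E : QC2 K R0 R1 R01} (σ : GoodSection E) : ℤ :=
  (Module.finrank K (E.N0 ⧸ Submodule.span R0 {σ.s0}) : ℤ) +
    Module.finrank K (E.N1 ⧸ Submodule.span R1 {σ.s1}) -
    Module.finrank K (E.N01 ⧸ Submodule.span R01 {E.r0 σ.s0})

/-- **Section lemma.**  If `E` has a good section `σ` then `χ(M ⊗ E) = χ(M) + deg σ` for every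
line bundle `M` with finite-dimensional cohomology. -/
theorem eulerChar_tensor_of_goodSection (M E : QC2 K R0 R1 R01) (hM : M.IsLine)
    (σ : GoodSection E)
    [FiniteDimensional K (LinearMap.ker M.d)]
    [FiniteDimensional K (M.N01 ⧸ LinearMap.range M.d)] :
    FiniteDimensional K (LinearMap.ker (LineOps39.tensor M E).d) ∧
      FiniteDimensional K
        ((LineOps39.tensor M E).N01 ⧸ LinearMap.range (LineOps39.tensor M E).d) ∧
      JGroup85Euler.eulerChar (LineOps39.tensor M E).d =
        JGroup85Euler.eulerChar M.d + σ.deg := by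
  haveI := hM.inv0
  haveI := hM.inv1
  haveI : Module.Invertible R01 M.N01 := Module.Invertible.congr M.bc0.equiv
  haveI := σ.fin0
  haveI := σ.fin1
  haveI := σ.fin01
  have hcomm : ∀ p : M.N0 × M.N1,
      (LineOps39.tensor M E).d (p.1 ⊗ₜ[R0] σ.s0, p.2 ⊗ₜ[R1] σ.s1) =
        M.d p ⊗ₜ[R01] E.r0 σ.s0 := by
    intro p
    rw [LineOps39.d_apply, LineOps39.d_apply, LineOps39.tensor_r0_tmul,
      LineOps39.tensor_r1_tmul, ← σ.compat, TensorProduct.sub_tmul]
    rfl
  exact eulerChar_tensor_section (R0 := R0) (R1 := R1) (R01 := R01) σ.s0 σ.s1 (E.r0 σ.s0) M.d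
    (LineOps39.tensor M E).d hcomm σ.inj0 σ.inj1 σ.inj01

end QC

end Fermat.Agent.Jac.DegAdd79Section
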