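/-
Fermat/Agent/Jac/DegAdd79.lean  (helper79)

JAC brick DegAdd: **degree additivity** for line bundles on a two-chart curve over a field `K`:
`χ(L ⊗ M) = χ(L) + χ(M) - χ(O)`.

Proof.  A nonzero `x0 : L.N0` extends to a section `(x0, y)` of a twist `L(n)`; it is a good
section (`DegAdd79Section.GoodSection`) because the charts are domains finite over `K[t]`, `K[s]`
(`DegAdd79Alg`).  The twisting bundle `O(n)` has the good section `(1, s^n)`.  By the section lemma
`χ(M ⊗ L ⊗ O(n)) = χ(M ⊗ L) + deg (1, s^n)` and `χ(M ⊗ L(n)) = χ(M) + deg (x0, y)`, and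
`L ⊗ O(n) ≅ L(n)`; hence `χ(M ⊗ L) - χ(M)` does not depend on `M`.
-/
import Mathlib
import Fermat.Agent.Jac.Core
import Fermat.Agent.Jac.LineOps39.Tensor
import Fermat.Agent.Jac.LineOps39.Dual
import Fermat.Agent.Jac.LineOps39.OverLine
import Fermat.Agent.Jac.P1CohChi.TwistFormula
import Fermat.Agent.Jac.DegAdd79Alg
import Fermat.Agent.Jac.DegAdd79Section

set_option autoImplicit false
set_option linter.style.haveILetI false
set_option linter.unusedSectionVars false

universe u

open TensorProduct Polynomial

namespace Fermat.Agent.Jac.DegAdd79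

open LineOps39 DegAdd79Section JGroup85Euler DegAdd79Alg

variable {K R0 R1 R01 : Type u} [Field K] [CommRing R0] [CommRing R1] [CommRing R01]
  [Algebra K R0] [Algebra K R1] [Algebra K R01] [Algebra R0 R01] [Algebra R1 R01]
  [IsScalarTower K R0 R01] [IsScalarTower K R1 R01]

/-! ### Generalities -/

/-- The Euler characteristic of the Čech complex is invariant under isomorphism. -/
theorem eulerChar_congr {L M : QC2 K R0 R1 R01} (e : QC2.Iso L M) :
    eulerChar L.d = eulerChar M.d := by
  unfold eulerChar
  have h0 : Module.finrank K (LinearMap.ker L.d) = Module.finrank K (LinearMap.ker M.d) :=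
    LinearEquiv.finrank_eq (isoH0 e)
  have h1 : Module.finrank K (L.N01 ⧸ LinearMap.range L.d) =
      Module.finrank K (M.N01 ⧸ LinearMap.range M.d) := LinearEquiv.finrank_eq (isoH1 e)
  rw [h0, h1]

/-- Over a base field, `chiField` is the Euler characteristic of the Čech complex. -/
theorem chiField_eq_eulerChar (L : QC2 K R0 R1 R01) : L.chiField K = eulerChar L.d :=
  P1CohChi.chiField_self L

/-- Line bundles on a two-chart curve finite over the line have finite-dimensional cohomology. -/
theorem finiteDimensional_of_isLine (c : TwoChart K R0 R1 R01) (hc : c.FiniteProjOverLine)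
    {L : QC2 K R0 R1 R01} (hL : L.IsLine) :
    FiniteDimensional K (LinearMap.ker L.d) ∧
      FiniteDimensional K (L.N01 ⧸ LinearMap.range L.d) := by
  obtain ⟨h0, h1, -⟩ := P1CohChi.euler_twist_of_field L c (finiteOverLine_of_isLine c hc hL)
    (projOverLine_of_isLine c hc hL) 0
  exact ⟨h0, h1⟩

/-! ### The twist as a tensor product -/

/-- The twisting line bundle `O(n)`. -/
abbrev twistUnit (c : TwoChart K R0 R1 R01) (n : ℕ) : QC2 K R0 R1 R01 :=
  (QC2.unit : QC2 K R0 R1 R01).twist c (n : ℤ)

section rid

variable {R S : Type u} [CommRing R] [CommRing S] [Algebra R S]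
  {N N' : Type u} [AddCommGroup N] [Module R N] [AddCommGroup N'] [Module R N'] [Module S N']
  [IsScalarTower R S N']

/-- Compatibility of the right unitor with `tmap`, with a scalar `u` thrown in. -/
lemma rid_tmap_smul (r r' : N →ₗ[R] N') (g : R →ₗ[R] S) (u : S)
    (hg : ∀ b, g b = u * algebraMap R S b) (hr : ∀ x, r' x = u • r x) (z : N ⊗[R] R) :
    TensorProduct.rid S N' (tmap (S := S) r g z) = r' (TensorProduct.rid R N z) := by
  induction z with
  | zero => simp
  | tmul x b =>
    rw [tmap_tmul, TensorProduct.rid_tmul, TensorProduct.rid_tmul, hr, hg, map_smul, mul_smul,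
      algebraMap_smul]
  | add x y hx hy => simp only [map_add, hx, hy]

end rid

/-- `L ⊗ O(n) ≅ L(n)`. -/
noncomputable def tensorTwistUnitIso (c : TwoChart K R0 R1 R01) (L : QC2 K R0 R1 R01) (n : ℕ) :
    QC2.Iso (tensor L (twistUnit c n)) (L.twist c (n : ℤ)) where
  e0 := TensorProduct.rid R0 L.N0
  e1 := TensorProduct.rid R1 L.N1
  e01 := TensorProduct.rid R01 L.N01
  comm0 := rid_tmap_smul (S := R01) L.r0 L.r0 (Algebra.linearMap R0 R01) 1
    (fun b => by simp) (fun x => by simp)
  comm1 := rid_tmap_smul (S := R01) L.r1 (P1CohChi.twistR1 c L (n : ℤ))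
    (P1CohChi.twistR1 c (QC2.unit : QC2 K R0 R1 R01) (n : ℤ))
    ((P1CohChi.tUnit c ^ (n : ℤ) : R01ˣ) : R01) (fun b => rfl) (fun x => rfl)

/-! ### Elementary facts about the charts -/

lemma t_ne_zero [Nontrivial R01] (c : TwoChart K R0 R1 R01) : c.t ≠ 0 := by
  intro h
  have := c.ts
  rw [h, map_zero, zero_mul] at this
  exact zero_ne_one this

lemma s_ne_zero [Nontrivial R01] (c : TwoChart K R0 R1 R01) : c.s ≠ 0 := by
  intro h
  have := c.ts
  rw [h, map_zero, mul_zero] at this
  exact zero_ne_one this

lemma isDomain_R01 [IsDomain R0] [Nontrivial R01] (c : TwoChart K R0 R1 R01) : IsDomain R01 :=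
  have := c.away0
  IsLocalization.isDomain_of_le_nonZeroDivisors (M := Submonoid.powers c.t) R01
    (powers_le_nonZeroDivisors_of_noZeroDivisors (t_ne_zero c))

lemma nontrivial_of_invertible (R N : Type*) [CommRing R] [Nontrivial R] [AddCommGroup N]
    [Module R N] [Module.Invertible R N] : Nontrivial N := by
  by_contra h
  rw [not_nontrivial_iff_subsingleton] at h
  have : (1 : R) = 0 :=
    FaithfulSMul.eq_of_smul_eq_smul (M := R) (α := N) (fun x => Subsingleton.elim _ _)
  exact one_ne_zero this

/-- The restriction `r0` of a line bundle is injective (the charts being domains). -/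
lemma r0_ne_zero [IsDomain R0] [Nontrivial R01] (c : TwoChart K R0 R1 R01)
    {L : QC2 K R0 R1 R01} (hL : L.IsLine) (x : L.N0) (hx : x ≠ 0) : L.r0 x ≠ 0 := by
  haveI := hL.inv0
  have : IsLocalization (Submonoid.powers c.t) R01 := c.away0
  have : IsLocalizedModule (Submonoid.powers c.t) L.r0 :=
    (isLocalizedModule_iff_isBaseChange (Submonoid.powers c.t) R01 L.r0).2 L.bc0
  intro h
  obtain ⟨⟨_, k, rfl⟩, hk⟩ := (IsLocalizedModule.eq_zero_iff (Submonoid.powers c.t) L.r0).mp h
  have hk' : c.t ^ k • x = 0 := hk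
  have h0 : c.t ^ k = 0 := toSpanSingleton_injective x hx (by simpa using hk')
  exact pow_ne_zero k (t_ne_zero c) h0

/-! ### Good sections -/

section pure

variable (R : Type*) [CommRing R] [Algebra K R]

lemma toSpanSingleton_one_injective : Function.Injective (LinearMap.toSpanSingleton R R 1) :=
  fun a b h => by simpa using h

lemma finite_quotient_span_one : Module.Finite K (R ⧸ Submodule.span R {(1 : R)}) := by
  haveI : Subsingleton (R ⧸ Submodule.span R {(1 : R)}) := by
    rw [Submodule.Quotient.subsingleton_iff]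
    exact Ideal.span_singleton_one
  infer_instance

end pure

/-- The good section `(1, s^n)` of `O(n)`. -/
noncomputable def goodSectionTwistUnit [IsDomain R1] [Nontrivial R01] (c : TwoChart K R0 R1 R01)
    (hc : c.FiniteProjOverLine) (n : ℕ) : GoodSection (twistUnit c n) where
  s0 := (1 : R0)
  s1 := (c.s ^ n : R1)
  compat := by
    show algebraMap R0 R01 1 =
      ((P1CohChi.tUnit c ^ (n : ℤ) : R01ˣ) : R01) • algebraMap R1 R01 (c.s ^ n)
    rw [zpow_natCast, Units.val_pow_eq_pow_val, P1CohChi.tUnit_val, smul_eq_mul, map_pow,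
      ← mul_pow, c.ts, one_pow, map_one]
  inj0 := toSpanSingleton_one_injective R0
  inj1 := toSpanSingleton_injective (R := R1) (N := R1) (c.s ^ n) (pow_ne_zero n (s_ne_zero c))
  inj01 := by
    show Function.Injective (LinearMap.toSpanSingleton R01 R01 (algebraMap R0 R01 1))
    rw [map_one]
    exact toSpanSingleton_one_injective R01
  fin0 := finite_quotient_span_one R0
  fin1 := finite_quotient_span_singleton (K := K) (R := R1) (N := R1) c.s hc.fin1 (c.s ^ n)
    (pow_ne_zero n (s_ne_zero c))
  fin01 := by
    show Module.Finite K (R01 ⧸ Submodule.span R01 {algebraMap R0 R01 1})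
    rw [map_one]
    exact finite_quotient_span_one R01

/-- Every line bundle has a twist with a good section. -/
theorem exists_goodSection_twist [IsDomain R0] [IsDomain R1] [Nontrivial R01]
    (c : TwoChart K R0 R1 R01) (hc : c.FiniteProjOverLine) {L : QC2 K R0 R1 R01}
    (hL : L.IsLine) : ∃ n : ℕ, Nonempty (GoodSection (L.twist c (n : ℤ))) := by
  haveI := hL.inv0
  haveI := hL.inv1
  haveI : IsDomain R01 := isDomain_R01 c
  haveI : Module.Invertible R01 L.N01 := Module.Invertible.congr L.bc0.equiv
  haveI : Nontrivial L.N0 := nontrivial_of_invertible R0 L.N0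
  obtain ⟨x0, hx0⟩ := exists_ne (0 : L.N0)
  have hr0 : L.r0 x0 ≠ 0 := r0_ne_zero c hL x0 hx0
  obtain ⟨n, y, hy⟩ := P1CohChi.exists_eq_uz_smul_r1 c L (L.r0 x0)
  have hy0 : y ≠ 0 := by
    rintro rfl
    apply hr0
    rw [hy, map_zero, smul_zero]
  have hfin0 : Module.Finite K (L.N0 ⧸ Submodule.span R0 {x0}) :=
    finite_quotient_span_singleton c.t hc.fin0 x0 hx0
  have := c.away0
  exact ⟨n, ⟨{
    s0 := x0
    s1 := y
    compat := hy
    inj0 := toSpanSingleton_injective x0 hx0
    inj1 := toSpanSingleton_injective y hy0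
    inj01 := toSpanSingleton_injective (L.r0 x0) hr0
    fin0 := hfin0
    fin1 := finite_quotient_span_singleton c.s hc.fin1 y hy0
    fin01 := finite_quotient_span_singleton_of_isBaseChange (K := K) c.t L.r0 L.bc0 x0 }⟩⟩

/-! ### Degree additivity -/

section Main

variable [IsDomain R0] [IsDomain R1] [Nontrivial R01] (c : TwoChart K R0 R1 R01)
  (hc : c.FiniteProjOverLine)

include hc in
/-- For a line bundle `L` the difference `χ(M ⊗ L) - χ(M)` does not depend on the line bundle
`M`. -/
theorem exists_eulerChar_tensor_eq {L : QC2 K R0 R1 R01} (hL : L.IsLine) :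
    ∃ δ : ℤ, ∀ M : QC2 K R0 R1 R01, M.IsLine →
      eulerChar (tensor M L).d = eulerChar M.d + δ := by
  obtain ⟨n, ⟨σ2⟩⟩ := exists_goodSection_twist c hc hL
  let σ1 := goodSectionTwistUnit c hc n
  refine ⟨σ2.deg - σ1.deg, fun M hM => ?_⟩
  have hML : (tensor M L).IsLine := isLine_tensor hM hL
  obtain ⟨a0, a1⟩ := finiteDimensional_of_isLine c hc hM
  obtain ⟨b0, b1⟩ := finiteDimensional_of_isLine c hc hML
  obtain ⟨-, -, e2⟩ := eulerChar_tensor_of_goodSection M (L.twist c (n : ℤ)) hM σ2
  obtain ⟨-, -, e1⟩ := eulerChar_tensor_of_goodSection (tensor M L) (twistUnit c n) hML σ1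
  have e3 : eulerChar (tensor (tensor M L) (twistUnit c n)).d =
      eulerChar (tensor M (L.twist c (n : ℤ))).d :=
    eulerChar_congr (isoTrans (tensorAssoc M L (twistUnit c n))
      (tensorIso (isoRefl M) (tensorTwistUnitIso c L n)))
  linarith

include hc in
/-- **Degree additivity**: `χ(L ⊗ M) = χ(L) + χ(M) - χ(O)` for line bundles on a two-chart curve
over a field (charts: domains, finite projective over the line). -/
theorem eulerChar_tensor {L M : QC2 K R0 R1 R01} (hL : L.IsLine) (hM : M.IsLine) :
    eulerChar (tensor L M).d =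
      eulerChar L.d + eulerChar M.d - eulerChar (QC2.unit : QC2 K R0 R1 R01).d := by
  obtain ⟨δ, hδ⟩ := exists_eulerChar_tensor_eq c hc hM
  have h1 := hδ L hL
  have h2 := hδ QC2.unit isLine_unit
  have h3 : eulerChar (tensor QC2.unit M).d = eulerChar M.d :=
    eulerChar_congr (tensorUnitLeft M)
  linarith

include hc in
/-- Degree additivity in terms of `QC2.chiField` (brick A1c). -/
theorem chiField_tensor {L M : QC2 K R0 R1 R01} (hL : L.IsLine) (hM : M.IsLine) :
    (tensor L M).chiField K =
      L.chiField K + M.chiField K - (QC2.unit : QC2 K R0 R1 R01).chiField K := by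
  rw [chiField_eq_eulerChar, chiField_eq_eulerChar, chiField_eq_eulerChar,
    chiField_eq_eulerChar]
  exact eulerChar_tensor c hc hL hM

include hc in
/-- The Euler characteristic of the dual line bundle: `χ(L^∨) = 2 χ(O) - χ(L)`. -/
theorem chiField_dual {L : QC2 K R0 R1 R01} (hL : L.IsLine) :
    (dual c L (isVB_of_isLine hL)).chiField K =
      2 * (QC2.unit : QC2 K R0 R1 R01).chiField K - L.chiField K := by
  have h1 := chiField_tensor c hc hL (isLine_dual c hL)
  have h2 : (tensor L (dual c L (isVB_of_isLine hL))).chiField K =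
      (QC2.unit : QC2 K R0 R1 R01).chiField K := by
    rw [chiField_eq_eulerChar, chiField_eq_eulerChar]
    exact eulerChar_congr (tensorDualIso c L hL)
  linarith

include hc in
/-- The "degree zero" line bundles (`χ(L) = χ(O)`) are closed under tensor product. -/
theorem chiField_tensor_eq_unit {L M : QC2 K R0 R1 R01} (hL : L.IsLine) (hM : M.IsLine)
    (h1 : L.chiField K = (QC2.unit : QC2 K R0 R1 R01).chiField K)
    (h2 : M.chiField K = (QC2.unit : QC2 K R0 R1 R01).chiField K) :
    (tensor L M).chiField K = (QC2.unit : QC2 K R0 R1 R01).chiField K := by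
  rw [chiField_tensor c hc hL hM, h1, h2]
  ring

include hc in
/-- The "degree zero" line bundles are closed under duals. -/
theorem chiField_dual_eq_unit {L : QC2 K R0 R1 R01} (hL : L.IsLine)
    (h1 : L.chiField K = (QC2.unit : QC2 K R0 R1 R01).chiField K) :
    (dual c L (isVB_of_isLine hL)).chiField K = (QC2.unit : QC2 K R0 R1 R01).chiField K := by
  rw [chiField_dual c hc hL, h1]
  ring

/-- `chiField` is invariant under isomorphism. -/
theorem chiField_congr {L M : QC2 K R0 R1 R01} (e : QC2.Iso L M) :
    L.chiField K = M.chiField K := by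
  rw [chiField_eq_eulerChar, chiField_eq_eulerChar]
  exact eulerChar_congr e

end Main

end Fermat.Agent.Jac.DegAdd79
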