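/-
Programme JAC (S25), helper60, brick A4b-c (ConverseDivisor), part 4: properties of `O(Z)`.

For `c : TwoChart A R0 R1 R01` and an ideal `I0` of `R0` with `R0 ⧸ I0` finite over `A` and `I0`
invertible, `Z` = closure of `V(I0)` (`IdealPair.ofChart0 c I0`):

* `divisorBundle c I0 = O(Z)`, `isLine_divisorBundle`, `divisorSection c I0` (the section `1`),
  `divisorBundleTensorIso : O(Z) ⊗ O(-Z) ≅ O`, `downTwistDivisorBundleIso : O(Z)(-Z) ≅ O`;
* `exists_dual_divisorSection_iff`, `span_content_divisorBundle` : the divisor of the section `1`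
  is `Z` (the "section ideal" of `O(Z)` is `I0`);
* `nonempty_rigid_ofIdeals`, `nonempty_rigid_divisorBundle` : `O(-Z)`, `O(Z)` are rigidifiable at
  every point at infinity (`Z` does not meet `s = 0`);
* over a field `K`: `isModAt_downTwistHom_of_finite`, `finrank_downTwist`,
  `chiField_downTwist : χ(L(-Z)) + deg Z = χ(L)`, `chiField_divisorBundle : χ(O(Z)) = χ(O) + deg Z`;
* base change: `quotMapEquivTensor`, `finite_quot_map`, `invertible_map`,
  `liftDataDivisorBundle : LiftData (O(Z)) (O(Z'))`;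
* `chiField_divisorBundle_fibre` : over an arbitrary base, for an `A`-field `K`,
  `χ(O(Z)|_K) = χ(O|_K) + dim_K (K ⊗[A] R0 ⧸ I0)`.
-/
import Mathlib
import Fermat.Agent.Jac.Core
import Fermat.Agent.Jac.LineOps39.IdealSheaf
import Fermat.Agent.Jac.FiniteAwayInfty60
import Fermat.Agent.Jac.ConverseDiv60
import Fermat.Agent.Jac.ConverseDiv60BC
import Fermat.Agent.Jac.Riemann4.Modification
import Fermat.Agent.Jac.P1CohChi.LineRank
import Fermat.Agent.Jac.DegAdd79
import Fermat.Agent.Jac.ChiBC36
import Fermat.Agent.Jac.BaseChange75.Dual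
import Fermat.Agent.Jac.BaseChange75.Fibre

set_option autoImplicit false
set_option linter.unusedSectionVars false
set_option linter.style.haveILetI false

open TensorProduct Polynomial

namespace Fermat.Agent.Jac.ConverseDiv60Props

open Fermat.Agent.Jac Fermat.Agent.Jac.LineOps39 Fermat.Agent.Jac.FiniteAwayInfty60
open Fermat.Agent.Jac.JSmooth85Alg Fermat.Agent.Jac.BaseChange75
open Fermat.Agent.Jac.ConverseDiv60BC
open Fermat.Agent.Jac.Riemann4.Modification Module

universe u

section Content

variable {R : Type u} [CommRing R]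

/-- For a finitely generated projective ideal `I`, the values `φ ι` of the double-dual functionals
on the inclusion `ι : I → R` are exactly the elements of `I`: "the divisor of the canonical section
`1` of `O(Z)` is `Z`". -/
theorem content_subtype (I : Ideal R) [Module.Finite R I] [Module.Projective R I] (x : R) :
    (∃ φ : Module.Dual R (Module.Dual R I), φ (Submodule.subtype I) = x) ↔ x ∈ I := by
  constructor
  · rintro ⟨φ, rfl⟩
    obtain ⟨y, rfl⟩ := (Module.bijective_dual_eval R I).2 φ
    rw [Module.Dual.eval_apply]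
    exact y.2
  · intro hx
    exact ⟨Module.Dual.eval R I ⟨x, hx⟩, rfl⟩

end Content

section Rigid

variable {R B M : Type u} [CommRing R] [CommRing B] [Algebra R B] [AddCommGroup M] [Module R M]

/-- An invertible module with an `R`-linear functional to the `R`-algebra `B` taking the value `1`
becomes free of rank one after base change to `B`. -/
noncomputable def rigidOfFunctional [Module.Invertible R M] (f : M →ₗ[R] B) (m : M)
    (hm : f m = 1) : B ⊗[R] M ≃ₗ[B] B :=
  LinearEquiv.ofBijective (LinearMap.liftBaseChange B f)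
    (Module.Invertible.bijective_of_surjective (fun a => ⟨a ⊗ₜ m, by
      rw [LinearMap.liftBaseChange_tmul, hm, smul_eq_mul, mul_one]⟩))

@[simp]
theorem rigidOfFunctional_tmul [Module.Invertible R M] (f : M →ₗ[R] B) (m : M)
    (hm : f m = 1) (a : B) (x : M) : rigidOfFunctional f m hm (a ⊗ₜ x) = a * f x := by
  simp [rigidOfFunctional, LinearMap.liftBaseChange_tmul]

end Rigid

section Bundle

variable {A R0 R1 R01 : Type u} [CommRing A] [CommRing R0] [CommRing R1] [CommRing R01]
  [Algebra A R0] [Algebra A R1] [Algebra A R01] [Algebra R0 R01] [Algebra R1 R01]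
  [IsScalarTower A R0 R01] [IsScalarTower A R1 R01]
  (c : TwoChart A R0 R1 R01)

/-- `O(-Z)` is a line bundle, for the closure `Z` of `V(I0)`, `R0 ⧸ I0` finite over `A`, `I0`
invertible. -/
theorem isLine_ofIdeals_ofChart0 (I0 : Ideal R0) [Module.Finite A (R0 ⧸ I0)]
    [Module.Invertible R0 I0] : (ofIdeals c (IdealPair.ofChart0 c I0)).IsLine :=
  isLine_ofIdeals c (IdealPair.ofChart0 c I0) (show Module.Invertible R0 I0 from inferInstance)
    (ConverseDiv60.invertible_I1_ofChart0 c I0)

/-- The line bundle `O(Z)` of the closure `Z` of `V(I0)`. -/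
noncomputable def divisorBundle (I0 : Ideal R0) [Module.Finite A (R0 ⧸ I0)]
    [Module.Invertible R0 I0] : QC2 A R0 R1 R01 :=
  ofDivisor c (IdealPair.ofChart0 c I0) (isVB_of_isLine (isLine_ofIdeals_ofChart0 c I0))

theorem isLine_divisorBundle (I0 : Ideal R0) [Module.Finite A (R0 ⧸ I0)]
    [Module.Invertible R0 I0] : (divisorBundle c I0).IsLine :=
  isLine_dual c (isLine_ofIdeals_ofChart0 c I0)

/-- The canonical section `1` of `O(Z)`. -/
noncomputable def divisorSection (I0 : Ideal R0) [Module.Finite A (R0 ⧸ I0)]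
    [Module.Invertible R0 I0] : (divisorBundle c I0).H0 :=
  oneSection c (IdealPair.ofChart0 c I0) (isVB_of_isLine (isLine_ofIdeals_ofChart0 c I0))

/-- `O(Z) ⊗ O(-Z) ≅ O`. -/
noncomputable def divisorBundleTensorIso (I0 : Ideal R0) [Module.Finite A (R0 ⧸ I0)]
    [Module.Invertible R0 I0] :
    QC2.Iso (tensor (divisorBundle c I0) (ofIdeals c (IdealPair.ofChart0 c I0))) QC2.unit :=
  ofDivisorTensorIso c (IdealPair.ofChart0 c I0) (show Module.Invertible R0 I0 from inferInstance)
    (ConverseDiv60.invertible_I1_ofChart0 c I0)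

/-- `O(Z)(-Z) ≅ O`. -/
noncomputable def downTwistDivisorBundleIso (I0 : Ideal R0) [Module.Finite A (R0 ⧸ I0)]
    [Module.Invertible R0 I0] :
    QC2.Iso (downTwist c (divisorBundle c I0) (IdealPair.ofChart0 c I0)) QC2.unit :=
  isoTrans (isoSymm (tensorOfIdealsIso c (IdealPair.ofChart0 c I0)
      (isVB_of_isLine (isLine_divisorBundle c I0))))
    (isoTrans (tensorComm _ _) (divisorBundleTensorIso c I0))

/-- **The divisor of the canonical section of `O(Z)` is `Z`**: the values of the functionals of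
`O(Z)` on chart 0 at the canonical section are exactly the elements of `I0`. -/
theorem exists_dual_divisorSection_iff (I0 : Ideal R0) [Module.Finite A (R0 ⧸ I0)]
    [Module.Invertible R0 I0] (x : R0) :
    (∃ φ : Module.Dual R0 (divisorBundle c I0).N0, φ (divisorSection c I0).1.1 = x) ↔ x ∈ I0 :=
  content_subtype I0 x

/-- If the canonical section generates `H⁰(O(Z))` over `A`, the ideal generated by the values of
functionals on global sections ("section ideal") of `O(Z)` is `I0`. -/
theorem span_content_divisorBundle (I0 : Ideal R0) [Module.Finite A (R0 ⧸ I0)]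
    [Module.Invertible R0 I0]
    (hgen : ∀ σ : (divisorBundle c I0).H0, ∃ a : A, σ = a • divisorSection c I0) :
    Ideal.span {x : R0 | ∃ σ ∈ (divisorBundle c I0).H0,
      ∃ φ : Module.Dual R0 (divisorBundle c I0).N0, x = φ σ.1} = I0 := by
  apply le_antisymm
  · rw [Ideal.span_le]
    rintro x ⟨σ, hσ, φ, rfl⟩
    obtain ⟨a, ha⟩ := hgen ⟨σ, hσ⟩
    have h1 : σ = a • (divisorSection c I0).1 := congrArg Subtype.val ha
    rw [h1, Prod.smul_fst, ← algebraMap_smul R0 a, map_smul]
    exact Ideal.mul_mem_left _ _ ((exists_dual_divisorSection_iff c I0 _).1 ⟨φ, rfl⟩)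
  · intro x hx
    obtain ⟨φ, hφ⟩ := (exists_dual_divisorSection_iff c I0 x).2 hx
    exact Ideal.subset_span ⟨(divisorSection c I0).1, (divisorSection c I0).2, φ, hφ.symm⟩

/-- **`O(-Z)` is rigidifiable at every point at infinity**: for an `R1`-algebra `B` in which `s`
vanishes, the fibre `B ⊗[R1] I1` is free of rank one. -/
theorem nonempty_rigid_ofIdeals {B : Type u} [CommRing B] [Algebra R1 B]
    (hs : algebraMap R1 B c.s = 0) (I0 : Ideal R0) [Module.Finite A (R0 ⧸ I0)]
    [Module.Invertible R0 I0] :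
    Nonempty (B ⊗[R1] (ofIdeals c (IdealPair.ofChart0 c I0)).N1 ≃ₗ[B] B) := by
  obtain ⟨w, hw⟩ := exists_one_add_s_mul_mem c I0
  haveI : Module.Invertible R1 (IdealPair.ofChart0 c I0).I1 :=
    ConverseDiv60.invertible_I1_ofChart0 c I0
  have e : B ⊗[R1] (IdealPair.ofChart0 c I0).I1 ≃ₗ[B] B :=
    rigidOfFunctional ((Algebra.linearMap R1 B) ∘ₗ (IdealPair.ofChart0 c I0).I1.subtype)
      ⟨_, hw⟩ (by simp [hs])
  exact ⟨e⟩

/-- **`O(Z)` is rigidifiable at every point at infinity**. -/
theorem nonempty_rigid_divisorBundle {B : Type u} [CommRing B] [Algebra R1 B]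
    (hs : algebraMap R1 B c.s = 0) (I0 : Ideal R0) [Module.Finite A (R0 ⧸ I0)]
    [Module.Invertible R0 I0] :
    Nonempty (B ⊗[R1] (divisorBundle c I0).N1 ≃ₗ[B] B) := by
  obtain ⟨w, hw⟩ := exists_one_add_s_mul_mem c I0
  haveI : Module.Invertible R1 (IdealPair.ofChart0 c I0).I1 :=
    ConverseDiv60.invertible_I1_ofChart0 c I0
  have e : B ⊗[R1] Module.Dual R1 (IdealPair.ofChart0 c I0).I1 ≃ₗ[B] B :=
    rigidOfFunctional ((Algebra.linearMap R1 B) ∘ₗ
        (Module.Dual.eval R1 (IdealPair.ofChart0 c I0).I1 ⟨_, hw⟩))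
      (IdealPair.ofChart0 c I0).I1.subtype (by simp [hs])
  exact ⟨e⟩

end Bundle

section Rank

variable {K R N : Type u} [Field K] [CommRing R] [Algebra K R] [AddCommGroup N] [Module R N]
  [Module K N] [IsScalarTower K R N]

/-- For an invertible `R`-module `N` and an ideal `I` with `R ⧸ I` finite-dimensional over the
field `K`, the fibre `N ⧸ I N` has the same dimension as `R ⧸ I`. -/
theorem finrank_quot_smul_top (I : Ideal R) [Module.Finite K (R ⧸ I)] [Module.Invertible R N] :
    finrank K (N ⧸ (I • ⊤ : Submodule R N)) = finrank K (R ⧸ I) := by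
  have h1 : finrank K ((R ⧸ I) ⊗[R] N) = finrank K (R ⧸ I) :=
    P1CohChi.LineRank.finrank_invertible_of_finite (R ⧸ I) ((R ⧸ I) ⊗[R] N)
  rw [← h1]
  exact ((TensorProduct.quotTensorEquivQuotSMul N I).restrictScalars K).finrank_eq.symm

/-- The fibre `N ⧸ I N` is finite-dimensional. -/
theorem finite_quot_smul_top (I : Ideal R) [Module.Finite K (R ⧸ I)] [Module.Finite R N] :
    Module.Finite K (N ⧸ (I • ⊤ : Submodule R N)) := by
  have h1 : Module.Finite (R ⧸ I) ((R ⧸ I) ⊗[R] N) := inferInstance
  have h2 : Module.Finite K ((R ⧸ I) ⊗[R] N) := Module.Finite.trans (R ⧸ I) _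
  exact Module.Finite.equiv ((TensorProduct.quotTensorEquivQuotSMul N I).restrictScalars K)

end Rank

section Mod

variable {A R0 R1 R01 : Type u} [CommRing A] [CommRing R0] [CommRing R1] [CommRing R01]
  [Algebra A R0] [Algebra A R1] [Algebra A R01] [Algebra R0 R01] [Algebra R1 R01]
  [IsScalarTower A R0 R01] [IsScalarTower A R1 R01]
  (c : TwoChart A R0 R1 R01)

/-- Chart-1 sections of `L` whose restriction to the overlap lies in `I01 L` already lie in
`I1 L`, for the closure of a closed subscheme `V(I0)` of chart 0 which is finite over the base. -/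
theorem mem_S1_of_r1_mem (L : QC2 A R0 R1 R01) (I0 : Ideal R0) [Module.Finite A (R0 ⧸ I0)]
    (x : L.N1) (hx : L.r1 x ∈ ((IdealPair.ofChart0 c I0).subPair c L).S01) :
    x ∈ ((IdealPair.ofChart0 c I0).subPair c L).S1 := by
  have hinj := (restrictTo_ofChart0_bijective_r1_of_finite c L I0).1
  have h0 : (restrictTo c L (IdealPair.ofChart0 c I0)).r1
      (((IdealPair.ofChart0 c I0).subPair c L).S1.mkQ x) = 0 := by
    show ((IdealPair.ofChart0 c I0).subPair c L).S01.mkQ (L.r1 x) = 0
    rw [Submodule.mkQ_apply, Submodule.Quotient.mk_eq_zero]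
    exact hx
  have h00 : (restrictTo c L (IdealPair.ofChart0 c I0)).r1
      (((IdealPair.ofChart0 c I0).subPair c L).S1.mkQ x) =
      (restrictTo c L (IdealPair.ofChart0 c I0)).r1 0 := by
    rw [h0]
    exact (map_zero _).symm
  have h1 : ((IdealPair.ofChart0 c I0).subPair c L).S1.mkQ x = 0 := hinj h00
  rwa [Submodule.mkQ_apply, Submodule.Quotient.mk_eq_zero] at h1

end Mod

section Field

variable {K R0 R1 R01 : Type u} [Field K] [CommRing R0] [CommRing R1] [CommRing R01]
  [Algebra K R0] [Algebra K R1] [Algebra K R01] [Algebra R0 R01] [Algebra R1 R01]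
  [IsScalarTower K R0 R01] [IsScalarTower K R1 R01]
  (c : TwoChart K R0 R1 R01)

/-- The down-twist `L(-Z) → L` along the closure `Z` of a finite closed subscheme `V(I0)` of chart
0 is an elementary modification along `I0` in the sense of `Riemann4.Modification`. -/
theorem isModAt_downTwistHom_of_finite (L : QC2 K R0 R1 R01) (I0 : Ideal R0)
    [Module.Finite K (R0 ⧸ I0)] :
    IsModAt I0 (downTwistHom c L (IdealPair.ofChart0 c I0)) where
  inj0 := subHom_f0_injective c L _
  inj1 := subHom_f1_injective c L _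
  inj01 := subHom_f01_injective c L _
  range0 := Submodule.range_subtype _
  cart1 := by
    intro x hx
    have hx' : L.r1 x ∈ ((IdealPair.ofChart0 c I0).subPair c L).S01 := by
      obtain ⟨y, hy⟩ := hx
      rw [← hy]
      exact y.2
    exact ⟨⟨x, mem_S1_of_r1_mem c L I0 x hx'⟩, rfl⟩

/-- **Degree formula for a down-twist**: `h⁰(L(-Z)) + deg Z + h¹(L) = h⁰(L) + h¹(L(-Z))`, where
`deg Z = dim_K (R0 ⧸ I0)`. -/
theorem finrank_downTwist (hc : c.FiniteProjOverLine) {L : QC2 K R0 R1 R01} (hL : L.IsLine)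
    (I0 : Ideal R0) [Module.Finite K (R0 ⧸ I0)] [Module.Invertible R0 I0] :
    finrank K (downTwist c L (IdealPair.ofChart0 c I0)).H0 + finrank K (R0 ⧸ I0) +
        finrank K L.H1 =
      finrank K L.H0 + finrank K (downTwist c L (IdealPair.ofChart0 c I0)).H1 := by
  have hL' : (downTwist c L (IdealPair.ofChart0 c I0)).IsLine :=
    isLine_downTwist c hL _ (show Module.Invertible R0 I0 from inferInstance)
      (ConverseDiv60.invertible_I1_ofChart0 c I0)
  have hmod := isModAt_downTwistHom_of_finite c L I0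
  obtain ⟨f0, f1⟩ := DegAdd79.finiteDimensional_of_isLine c hc hL
  obtain ⟨-, f1'⟩ := DegAdd79.finiteDimensional_of_isLine c hc hL'
  haveI : FiniteDimensional K L.H0 := f0
  haveI : FiniteDimensional K L.H1 := f1
  haveI : FiniteDimensional K (downTwist c L (IdealPair.ofChart0 c I0)).H1 := f1'
  haveI := hL.inv0
  have e : (L.N0 ⧸ LinearMap.range (downTwistHom c L (IdealPair.ofChart0 c I0)).f0) ≃ₗ[K]
      (L.N0 ⧸ (I0 • ⊤ : Submodule R0 L.N0)) :=
    (Submodule.quotEquivOfEq _ _ hmod.range0).restrictScalars K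
  haveI : Module.Finite K (L.N0 ⧸ (I0 • ⊤ : Submodule R0 L.N0)) := finite_quot_smul_top I0
  haveI : FiniteDimensional K
      (L.N0 ⧸ LinearMap.range (downTwistHom c L (IdealPair.ofChart0 c I0)).f0) :=
    Module.Finite.equiv e.symm
  have key := hmod.finrank_formula c
  rw [e.finrank_eq, finrank_quot_smul_top I0] at key
  exact key

/-- **Euler characteristic of a down-twist**: `χ(L(-Z)) + deg Z = χ(L)`. -/
theorem chiField_downTwist (hc : c.FiniteProjOverLine) {L : QC2 K R0 R1 R01} (hL : L.IsLine)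
    (I0 : Ideal R0) [Module.Finite K (R0 ⧸ I0)] [Module.Invertible R0 I0] :
    (downTwist c L (IdealPair.ofChart0 c I0)).chiField K + finrank K (R0 ⧸ I0) =
      L.chiField K := by
  rw [P1CohChi.chiField_self, P1CohChi.chiField_self]
  have key := finrank_downTwist c hc hL I0
  have key' : ((finrank K (downTwist c L (IdealPair.ofChart0 c I0)).H0 : ℤ) +
      finrank K (R0 ⧸ I0) + finrank K L.H1) =
      finrank K L.H0 + finrank K (downTwist c L (IdealPair.ofChart0 c I0)).H1 := by
    exact_mod_cast key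
  linarith

/-- **Euler characteristic of `O(Z)`**: `χ(O(Z)) = χ(O) + deg Z`. -/
theorem chiField_divisorBundle (hc : c.FiniteProjOverLine) (I0 : Ideal R0)
    [Module.Finite K (R0 ⧸ I0)] [Module.Invertible R0 I0] :
    (divisorBundle c I0).chiField K =
      (QC2.unit : QC2 K R0 R1 R01).chiField K + finrank K (R0 ⧸ I0) := by
  have key := chiField_downTwist c hc (isLine_divisorBundle c I0) I0
  rw [ChiBC36.chiField_iso (downTwistDivisorBundleIso c I0) K] at key
  exact key.symm

end Field

section QuotBC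

variable {R R' : Type u} [CommRing R] [CommRing R'] [Algebra R R']
  (A A' : Type u) [CommRing A] [CommRing A']
  [Algebra A A'] [Algebra A R] [Algebra A' R'] [Algebra A R']
  [IsScalarTower A A' R'] [IsScalarTower A R R'] [Algebra.IsPushout A A' R R']

/-- `R' ⧸ I R' ≃ A' ⊗[A] (R ⧸ I)` for `R' = A' ⊗[A] R`. -/
noncomputable def quotMapEquivTensor (I : Ideal R) :
    (R' ⧸ I.map (algebraMap R R')) ≃ₗ[A'] A' ⊗[A] (R ⧸ I) :=
  ((Algebra.TensorProduct.quotIdealMapEquivTensorQuot R' I).toLinearEquiv.restrictScalars A') ≪≫ₗ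
    (Algebra.IsPushout.cancelBaseChange A A' R R' (R ⧸ I))

include A in
theorem finite_quot_map (I : Ideal R) [Module.Finite A (R ⧸ I)] :
    Module.Finite A' (R' ⧸ I.map (algebraMap R R')) :=
  Module.Finite.equiv (quotMapEquivTensor A A' I).symm

include A A' in
theorem invertible_map (I : Ideal R) [Module.Flat A (R ⧸ I)] [Module.Invertible R I] :
    Module.Invertible R' (I.map (algebraMap R R')) :=
  Module.Invertible.congr (idealTensorEquiv A A' I _ rfl)

end QuotBC

section Cube

variable {A R0 R1 R01 A' R0' R1' R01' : Type u}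
  [CommRing A] [CommRing R0] [CommRing R1] [CommRing R01]
  [Algebra A R0] [Algebra A R1] [Algebra A R01] [Algebra R0 R01] [Algebra R1 R01]
  [IsScalarTower A R0 R01] [IsScalarTower A R1 R01]
  [CommRing A'] [CommRing R0'] [CommRing R1'] [CommRing R01']
  [Algebra A' R0'] [Algebra A' R1'] [Algebra A' R01'] [Algebra R0' R01'] [Algebra R1' R01']
  [IsScalarTower A' R0' R01'] [IsScalarTower A' R1' R01']
  [Algebra R0 R0'] [Algebra R1 R1'] [Algebra R01 R01']
  [Algebra A A']
  [Algebra A R0'] [IsScalarTower A A' R0'] [IsScalarTower A R0 R0'] [Algebra.IsPushout A A' R0 R0']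
  [Algebra A R1'] [IsScalarTower A A' R1'] [IsScalarTower A R1 R1'] [Algebra.IsPushout A A' R1 R1']
  [Algebra A R01'] [IsScalarTower A A' R01'] [IsScalarTower A R01 R01']
  [Algebra.IsPushout A A' R01 R01']
  (hc0 : (algebraMap R0' R01').comp (algebraMap R0 R0') =
    (algebraMap R01 R01').comp (algebraMap R0 R01))
  (hc1 : (algebraMap R1' R01').comp (algebraMap R1 R1') =
    (algebraMap R01 R01').comp (algebraMap R1 R01))
  (c : TwoChart A R0 R1 R01) (c' : TwoChart A' R0' R1' R01')
  (hs : algebraMap R1 R1' c.s = c'.s)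

/-- **Base change of `O(Z)`**: `O(Z')`, for `Z'` the closure of `V(I0 R0')`, is the base change of
`O(Z)`. -/
noncomputable def liftDataDivisorBundle (I0 : Ideal R0) [Module.Finite A (R0 ⧸ I0)]
    [Module.Flat A (R0 ⧸ I0)] [Module.Invertible R0 I0]
    [Module.Finite A' (R0' ⧸ I0.map (algebraMap R0 R0'))]
    [Module.Invertible R0' (I0.map (algebraMap R0 R0'))] :
    LiftData (divisorBundle c I0) (divisorBundle c' (I0.map (algebraMap R0 R0'))) :=
  LiftData.dualLine hc0 hc1 c c' (liftDataOfIdeals hc0 hc1 c c' hs I0)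
    (isLine_ofIdeals_ofChart0 c I0) (isLine_ofIdeals_ofChart0 c' _)
    (isVB_of_isLine (isLine_ofIdeals_ofChart0 c I0))
    (isVB_of_isLine (isLine_ofIdeals_ofChart0 c' _))

end Cube

section FibreChi

variable {A R0 R1 R01 K R0' R1' R01' : Type u}
  [CommRing A] [CommRing R0] [CommRing R1] [CommRing R01]
  [Algebra A R0] [Algebra A R1] [Algebra A R01] [Algebra R0 R01] [Algebra R1 R01]
  [IsScalarTower A R0 R01] [IsScalarTower A R1 R01]
  [Field K] [CommRing R0'] [CommRing R1'] [CommRing R01']
  [Algebra K R0'] [Algebra K R1'] [Algebra K R01'] [Algebra R0' R01'] [Algebra R1' R01']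
  [IsScalarTower K R0' R01'] [IsScalarTower K R1' R01']
  [Algebra R0 R0'] [Algebra R1 R1'] [Algebra R01 R01']
  [Algebra A K]
  [Algebra A R0'] [IsScalarTower A K R0'] [IsScalarTower A R0 R0'] [Algebra.IsPushout A K R0 R0']
  [Algebra A R1'] [IsScalarTower A K R1'] [IsScalarTower A R1 R1'] [Algebra.IsPushout A K R1 R1']
  [Algebra A R01'] [IsScalarTower A K R01'] [IsScalarTower A R01 R01']
  [Algebra.IsPushout A K R01 R01']
  (hc0 : (algebraMap R0' R01').comp (algebraMap R0 R0') =
    (algebraMap R01 R01').comp (algebraMap R0 R01))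
  (hc1 : (algebraMap R1' R01').comp (algebraMap R1 R1') =
    (algebraMap R01 R01').comp (algebraMap R1 R01))
  (c : TwoChart A R0 R1 R01) (c' : TwoChart K R0' R1' R01')
  (hs : algebraMap R1 R1' c.s = c'.s)

include hc0 hc1 hs in
/-- **Fibrewise Euler characteristic of `O(Z)` over an arbitrary base**: for an `A`-field `K` and a
model `c'` of the fibre of the two-chart curve over `K`,
`χ(O(Z)|_K) = χ(O|_K) + dim_K (K ⊗[A] R0 ⧸ I0)`. -/
theorem chiField_divisorBundle_fibre (hc' : c'.FiniteProjOverLine) (I0 : Ideal R0)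
    [Module.Finite A (R0 ⧸ I0)] [Module.Flat A (R0 ⧸ I0)] [Module.Invertible R0 I0] :
    (divisorBundle c I0).chiField K =
      (QC2.unit : QC2 A R0 R1 R01).chiField K + finrank K (K ⊗[A] (R0 ⧸ I0)) := by
  haveI : Module.Finite K (R0' ⧸ I0.map (algebraMap R0 R0')) := finite_quot_map A K I0
  haveI : Module.Invertible R0' (I0.map (algebraMap R0 R0')) := invertible_map A K I0
  have h := liftDataDivisorBundle hc0 hc1 c c' hs I0
  have hu : LiftData (QC2.unit : QC2 A R0 R1 R01) (QC2.unit : QC2 K R0' R1' R01') :=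
    LiftData.unit hc0 hc1
  rw [← LiftData.chiField_eq h K, ← LiftData.chiField_eq hu K,
    chiField_divisorBundle c' hc' (I0.map (algebraMap R0 R0')),
    (quotMapEquivTensor A K I0).finrank_eq]

end FibreChi

end Fermat.Agent.Jac.ConverseDiv60Props
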