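/-
Fermat/Agent/Jac/TwoCoverGammaSetting.lean  (helper40)

Brick M3a of the S25 programme, part 1: the SETTING shared by M3a / M3b / B1a.

A scheme `X` over a ring `A` covered by two affine opens `U0`, `U1` whose intersection is the
basic open `D(t)` of `U0` and `D(s)` of `U1`, with `t * s = 1` on the overlap.  From this we build
* the rings `𝒰.R0 = Γ(X, U0)`, `𝒰.R1 = Γ(X, U1)`, `𝒰.R01 = Γ(X, U0 ⊓ U1)` with all the algebra
  structures required by `Fermat.Agent.Jac.TwoChart` (as honest global instances: the types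
  `𝒰.R0` ... are type synonyms depending on the cover `𝒰`, so no diamonds arise);
* the two-chart ring `𝒰.chart : TwoChart A 𝒰.R0 𝒰.R1 𝒰.R01`;
* for `M : X.Modules` the modules of sections `𝒰.N0 M`, `𝒰.N1 M`, `𝒰.N01 M` with all module
  structures and the restriction maps `𝒰.r0 M`, `𝒰.r1 M`.
-/
import Mathlib
import Fermat.Agent.Jac.Core

set_option autoImplicit false

open CategoryTheory AlgebraicGeometry TopologicalSpace Opposite

universe u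

noncomputable section

namespace Fermat.Agent.Jac.TwoCoverGammaSetting

/-- A cover of a scheme `X` over a ring `A` by two affine opens glued like the projective line. -/
structure TwoCover (A : Type u) [CommRing A] (X : Scheme.{u}) where
  /-- the structure map `A → Γ(X, ⊤)` -/
  str : A →+* Γ(X, ⊤)
  U0 : X.Opens
  U1 : X.Opens
  affine0 : IsAffineOpen U0
  affine1 : IsAffineOpen U1
  cover : U0 ⊔ U1 = ⊤
  t : Γ(X, U0)
  s : Γ(X, U1)
  inter0 : U0 ⊓ U1 = X.basicOpen t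
  inter1 : U0 ⊓ U1 = X.basicOpen s
  ts : (X.presheaf.map (homOfLE (inf_le_left : U0 ⊓ U1 ≤ U0)).op).hom t *
    (X.presheaf.map (homOfLE (inf_le_right : U0 ⊓ U1 ≤ U1)).op).hom s = 1

namespace TwoCover

variable {A : Type u} [CommRing A] {X : Scheme.{u}} (𝒰 : TwoCover A X)

/-- The overlap of the two charts. -/
def U01 : X.Opens := 𝒰.U0 ⊓ 𝒰.U1

/-- Functions on the first chart. -/
def R0 : Type u := Γ(X, 𝒰.U0)
/-- Functions on the second chart. -/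
def R1 : Type u := Γ(X, 𝒰.U1)
/-- Functions on the overlap. -/
def R01 : Type u := Γ(X, 𝒰.U0 ⊓ 𝒰.U1)

instance : CommRing 𝒰.R0 := inferInstanceAs (CommRing Γ(X, 𝒰.U0))
instance : CommRing 𝒰.R1 := inferInstanceAs (CommRing Γ(X, 𝒰.U1))
instance : CommRing 𝒰.R01 := inferInstanceAs (CommRing Γ(X, 𝒰.U0 ⊓ 𝒰.U1))

/-- The coordinate `t`, as an element of `𝒰.R0`. -/
def tR : 𝒰.R0 := 𝒰.t
/-- The coordinate `s`, as an element of `𝒰.R1`. -/
def sR : 𝒰.R1 := 𝒰.s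

/-- Restriction of functions from the first chart to the overlap. -/
def res0 : 𝒰.R0 →+* 𝒰.R01 :=
  (X.presheaf.map (homOfLE (inf_le_left : 𝒰.U0 ⊓ 𝒰.U1 ≤ 𝒰.U0)).op).hom

/-- Restriction of functions from the second chart to the overlap. -/
def res1 : 𝒰.R1 →+* 𝒰.R01 :=
  (X.presheaf.map (homOfLE (inf_le_right : 𝒰.U0 ⊓ 𝒰.U1 ≤ 𝒰.U1)).op).hom

/-- Structure map of the first chart. -/
def str0 : A →+* 𝒰.R0 :=
  ((X.presheaf.map (homOfLE (le_top : 𝒰.U0 ≤ ⊤)).op).hom).comp 𝒰.str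

/-- Structure map of the second chart. -/
def str1 : A →+* 𝒰.R1 :=
  ((X.presheaf.map (homOfLE (le_top : 𝒰.U1 ≤ ⊤)).op).hom).comp 𝒰.str

/-- Structure map of the overlap. -/
def str01 : A →+* 𝒰.R01 :=
  ((X.presheaf.map (homOfLE (le_top : 𝒰.U0 ⊓ 𝒰.U1 ≤ ⊤)).op).hom).comp 𝒰.str

theorem res0_comp_str0 : 𝒰.res0.comp 𝒰.str0 = 𝒰.str01 := by
  have h : X.presheaf.map (homOfLE (le_top : 𝒰.U0 ≤ ⊤)).op ≫
      X.presheaf.map (homOfLE (inf_le_left : 𝒰.U0 ⊓ 𝒰.U1 ≤ 𝒰.U0)).op =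
      X.presheaf.map (homOfLE (le_top : 𝒰.U0 ⊓ 𝒰.U1 ≤ ⊤)).op := by
    rw [← Functor.map_comp]; rfl
  ext a
  exact congrArg (fun f => f.hom (𝒰.str a)) h

theorem res1_comp_str1 : 𝒰.res1.comp 𝒰.str1 = 𝒰.str01 := by
  have h : X.presheaf.map (homOfLE (le_top : 𝒰.U1 ≤ ⊤)).op ≫
      X.presheaf.map (homOfLE (inf_le_right : 𝒰.U0 ⊓ 𝒰.U1 ≤ 𝒰.U1)).op =
      X.presheaf.map (homOfLE (le_top : 𝒰.U0 ⊓ 𝒰.U1 ≤ ⊤)).op := by
    rw [← Functor.map_comp]; rfl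
  ext a
  exact congrArg (fun f => f.hom (𝒰.str a)) h

instance algA0 : Algebra A 𝒰.R0 := 𝒰.str0.toAlgebra
instance algA1 : Algebra A 𝒰.R1 := 𝒰.str1.toAlgebra
instance algA01 : Algebra A 𝒰.R01 := 𝒰.str01.toAlgebra
instance alg001 : Algebra 𝒰.R0 𝒰.R01 := 𝒰.res0.toAlgebra
instance alg101 : Algebra 𝒰.R1 𝒰.R01 := 𝒰.res1.toAlgebra

theorem algebraMap_R0_R01 : algebraMap 𝒰.R0 𝒰.R01 = 𝒰.res0 := rfl
theorem algebraMap_R1_R01 : algebraMap 𝒰.R1 𝒰.R01 = 𝒰.res1 := rfl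
theorem algebraMap_A_R0 : algebraMap A 𝒰.R0 = 𝒰.str0 := rfl
theorem algebraMap_A_R1 : algebraMap A 𝒰.R1 = 𝒰.str1 := rfl
theorem algebraMap_A_R01 : algebraMap A 𝒰.R01 = 𝒰.str01 := rfl

instance tower0 : IsScalarTower A 𝒰.R0 𝒰.R01 :=
  IsScalarTower.of_algebraMap_eq fun a => (congrFun (congrArg DFunLike.coe 𝒰.res0_comp_str0) a).symm

instance tower1 : IsScalarTower A 𝒰.R1 𝒰.R01 :=
  IsScalarTower.of_algebraMap_eq fun a => (congrFun (congrArg DFunLike.coe 𝒰.res1_comp_str1) a).symm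

/-- The two-chart ring attached to the cover. -/
def chart : TwoChart A 𝒰.R0 𝒰.R1 𝒰.R01 where
  t := 𝒰.tR
  s := 𝒰.sR
  away0 := 𝒰.affine0.isLocalization_of_eq_basicOpen 𝒰.t (homOfLE inf_le_left) 𝒰.inter0
  away1 := 𝒰.affine1.isLocalization_of_eq_basicOpen 𝒰.s (homOfLE inf_le_right) 𝒰.inter1
  ts := 𝒰.ts

/-! ### Sections of a sheaf of modules over the three opens -/

section Modules

variable (M : X.Modules)

/-- Sections of `M` over the first chart. -/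
def N0 : Type u := Γ(M, 𝒰.U0)
/-- Sections of `M` over the second chart. -/
def N1 : Type u := Γ(M, 𝒰.U1)
/-- Sections of `M` over the overlap. -/
def N01 : Type u := Γ(M, 𝒰.U0 ⊓ 𝒰.U1)

instance : AddCommGroup (𝒰.N0 M) := inferInstanceAs (AddCommGroup Γ(M, 𝒰.U0))
instance : AddCommGroup (𝒰.N1 M) := inferInstanceAs (AddCommGroup Γ(M, 𝒰.U1))
instance : AddCommGroup (𝒰.N01 M) := inferInstanceAs (AddCommGroup Γ(M, 𝒰.U0 ⊓ 𝒰.U1))

instance mod0 : Module 𝒰.R0 (𝒰.N0 M) := inferInstanceAs (Module Γ(X, 𝒰.U0) Γ(M, 𝒰.U0))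
instance mod1 : Module 𝒰.R1 (𝒰.N1 M) := inferInstanceAs (Module Γ(X, 𝒰.U1) Γ(M, 𝒰.U1))
instance mod01 : Module 𝒰.R01 (𝒰.N01 M) :=
  inferInstanceAs (Module Γ(X, 𝒰.U0 ⊓ 𝒰.U1) Γ(M, 𝒰.U0 ⊓ 𝒰.U1))

instance modA0 : Module A (𝒰.N0 M) := Module.compHom _ 𝒰.str0
instance modA1 : Module A (𝒰.N1 M) := Module.compHom _ 𝒰.str1
instance modA01 : Module A (𝒰.N01 M) := Module.compHom _ 𝒰.str01
instance mod001 : Module 𝒰.R0 (𝒰.N01 M) := Module.compHom _ 𝒰.res0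
instance mod101 : Module 𝒰.R1 (𝒰.N01 M) := Module.compHom _ 𝒰.res1

theorem smul_A_N0 (a : A) (x : 𝒰.N0 M) : a • x = 𝒰.str0 a • x := rfl
theorem smul_A_N1 (a : A) (x : 𝒰.N1 M) : a • x = 𝒰.str1 a • x := rfl
theorem smul_A_N01 (a : A) (x : 𝒰.N01 M) : a • x = 𝒰.str01 a • x := rfl
theorem smul_R0_N01 (r : 𝒰.R0) (x : 𝒰.N01 M) : r • x = 𝒰.res0 r • x := rfl
theorem smul_R1_N01 (r : 𝒰.R1) (x : 𝒰.N01 M) : r • x = 𝒰.res1 r • x := rfl

instance towerA0 : IsScalarTower A 𝒰.R0 (𝒰.N0 M) :=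
  ⟨fun a r x => by
    rw [Algebra.smul_def, 𝒰.algebraMap_A_R0, mul_smul, smul_A_N0]⟩

instance towerA1 : IsScalarTower A 𝒰.R1 (𝒰.N1 M) :=
  ⟨fun a r x => by
    rw [Algebra.smul_def, 𝒰.algebraMap_A_R1, mul_smul, smul_A_N1]⟩

instance towerA01 : IsScalarTower A 𝒰.R01 (𝒰.N01 M) :=
  ⟨fun a r x => by
    rw [Algebra.smul_def, 𝒰.algebraMap_A_R01, mul_smul, smul_A_N01]⟩

instance tower001 : IsScalarTower 𝒰.R0 𝒰.R01 (𝒰.N01 M) :=
  ⟨fun r q x => by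
    rw [Algebra.smul_def, 𝒰.algebraMap_R0_R01, mul_smul, smul_R0_N01]⟩

instance tower101 : IsScalarTower 𝒰.R1 𝒰.R01 (𝒰.N01 M) :=
  ⟨fun r q x => by
    rw [Algebra.smul_def, 𝒰.algebraMap_R1_R01, mul_smul, smul_R1_N01]⟩

instance towerA001 : IsScalarTower A 𝒰.R0 (𝒰.N01 M) :=
  ⟨fun a r x => by
    rw [Algebra.smul_def, 𝒰.algebraMap_A_R0, smul_R0_N01, map_mul, mul_smul, smul_A_N01,
      smul_R0_N01, ← 𝒰.res0_comp_str0]
    rfl⟩

instance towerA101 : IsScalarTower A 𝒰.R1 (𝒰.N01 M) :=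
  ⟨fun a r x => by
    rw [Algebra.smul_def, 𝒰.algebraMap_A_R1, smul_R1_N01, map_mul, mul_smul, smul_A_N01,
      smul_R1_N01, ← 𝒰.res1_comp_str1]
    rfl⟩

/-- Restriction of sections from the first chart to the overlap. -/
def r0 : 𝒰.N0 M →ₗ[𝒰.R0] 𝒰.N01 M where
  toFun x := (M.presheaf.map (homOfLE (inf_le_left : 𝒰.U0 ⊓ 𝒰.U1 ≤ 𝒰.U0)).op).hom x
  map_add' x y := map_add _ x y
  map_smul' r x := M.map_smul (homOfLE (inf_le_left : 𝒰.U0 ⊓ 𝒰.U1 ≤ 𝒰.U0)) r x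

/-- Restriction of sections from the second chart to the overlap. -/
def r1 : 𝒰.N1 M →ₗ[𝒰.R1] 𝒰.N01 M where
  toFun x := (M.presheaf.map (homOfLE (inf_le_right : 𝒰.U0 ⊓ 𝒰.U1 ≤ 𝒰.U1)).op).hom x
  map_add' x y := map_add _ x y
  map_smul' r x := M.map_smul (homOfLE (inf_le_right : 𝒰.U0 ⊓ 𝒰.U1 ≤ 𝒰.U1)) r x

end Modules

/-! ### The two-chart module of a sheaf of modules -/

section Gamma2

/-- `M` is quasi-coherent *relative to the cover*: the two restriction maps to the overlap are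
localisations at `t`, resp. `s`.  (Brick M2b shows that every quasi-coherent, in particular every
invertible, `M` has this property.) -/
structure IsQC (M : X.Modules) : Prop where
  loc0 : IsLocalizedModule (Submonoid.powers 𝒰.tR) (𝒰.r0 M)
  loc1 : IsLocalizedModule (Submonoid.powers 𝒰.sR) (𝒰.r1 M)

/-- The restriction from the first chart to the overlap is a base change. -/
theorem IsQC.bc0 {M : X.Modules} (h : 𝒰.IsQC M) : IsBaseChange 𝒰.R01 (𝒰.r0 M) :=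
  haveI := h.loc0
  haveI : IsLocalization (Submonoid.powers 𝒰.tR) 𝒰.R01 := 𝒰.chart.away0
  IsLocalizedModule.isBaseChange (Submonoid.powers 𝒰.tR) 𝒰.R01 (𝒰.r0 M)

/-- The restriction from the second chart to the overlap is a base change. -/
theorem IsQC.bc1 {M : X.Modules} (h : 𝒰.IsQC M) : IsBaseChange 𝒰.R01 (𝒰.r1 M) :=
  haveI := h.loc1
  haveI : IsLocalization (Submonoid.powers 𝒰.sR) 𝒰.R01 := 𝒰.chart.away1
  IsLocalizedModule.isBaseChange (Submonoid.powers 𝒰.sR) 𝒰.R01 (𝒰.r1 M)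

/-- The two-chart module of sections of `M`. -/
def Gamma2 (M : X.Modules) (h : 𝒰.IsQC M) : QC2 A 𝒰.R0 𝒰.R1 𝒰.R01 where
  N0 := 𝒰.N0 M
  N1 := 𝒰.N1 M
  N01 := 𝒰.N01 M
  r0 := 𝒰.r0 M
  r1 := 𝒰.r1 M
  bc0 := h.bc0
  bc1 := h.bc1

end Gamma2

/-! ### Functoriality -/

section Functoriality

variable {M M' M'' : X.Modules}

/-- The map on sections over the first chart induced by a morphism of sheaves of modules. -/
def map0 (φ : M ⟶ M') : 𝒰.N0 M →ₗ[𝒰.R0] 𝒰.N0 M' where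
  toFun x := (φ.app 𝒰.U0).hom x
  map_add' x y := map_add _ x y
  map_smul' r x := φ.app_smul r x

/-- The map on sections over the second chart induced by a morphism of sheaves of modules. -/
def map1 (φ : M ⟶ M') : 𝒰.N1 M →ₗ[𝒰.R1] 𝒰.N1 M' where
  toFun x := (φ.app 𝒰.U1).hom x
  map_add' x y := map_add _ x y
  map_smul' r x := φ.app_smul r x

/-- The map on sections over the overlap induced by a morphism of sheaves of modules. -/
def map01 (φ : M ⟶ M') : 𝒰.N01 M →ₗ[𝒰.R01] 𝒰.N01 M' where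
  toFun x := (φ.app (𝒰.U0 ⊓ 𝒰.U1)).hom x
  map_add' x y := map_add _ x y
  map_smul' r x := φ.app_smul r x

@[simp] theorem map0_id (M : X.Modules) : 𝒰.map0 (𝟙 M) = LinearMap.id := rfl
@[simp] theorem map1_id (M : X.Modules) : 𝒰.map1 (𝟙 M) = LinearMap.id := rfl
@[simp] theorem map01_id (M : X.Modules) : 𝒰.map01 (𝟙 M) = LinearMap.id := rfl

theorem map0_comp (φ : M ⟶ M') (ψ : M' ⟶ M'') :
    𝒰.map0 (φ ≫ ψ) = (𝒰.map0 ψ).comp (𝒰.map0 φ) := rfl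
theorem map1_comp (φ : M ⟶ M') (ψ : M' ⟶ M'') :
    𝒰.map1 (φ ≫ ψ) = (𝒰.map1 ψ).comp (𝒰.map1 φ) := rfl
theorem map01_comp (φ : M ⟶ M') (ψ : M' ⟶ M'') :
    𝒰.map01 (φ ≫ ψ) = (𝒰.map01 ψ).comp (𝒰.map01 φ) := rfl

theorem map01_r0 (φ : M ⟶ M') (x : 𝒰.N0 M) :
    𝒰.map01 φ (𝒰.r0 M x) = 𝒰.r0 M' (𝒰.map0 φ x) := by
  have h := φ.mapPresheaf.naturality (homOfLE (inf_le_left : 𝒰.U0 ⊓ 𝒰.U1 ≤ 𝒰.U0)).op
  exact congrArg (fun f => f.hom x) h

theorem map01_r1 (φ : M ⟶ M') (x : 𝒰.N1 M) :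
    𝒰.map01 φ (𝒰.r1 M x) = 𝒰.r1 M' (𝒰.map1 φ x) := by
  have h := φ.mapPresheaf.naturality (homOfLE (inf_le_right : 𝒰.U0 ⊓ 𝒰.U1 ≤ 𝒰.U1)).op
  exact congrArg (fun f => f.hom x) h

/-- `Gamma2` on morphisms. -/
def Gamma2Hom (φ : M ⟶ M') (h : 𝒰.IsQC M) (h' : 𝒰.IsQC M') :
    QC2.Hom (𝒰.Gamma2 M h) (𝒰.Gamma2 M' h') where
  f0 := 𝒰.map0 φ
  f1 := 𝒰.map1 φ
  f01 := 𝒰.map01 φ
  comm0 := 𝒰.map01_r0 φ
  comm1 := 𝒰.map01_r1 φ

/-- The linear equivalence on sections over the first chart induced by an isomorphism. -/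
def equiv0 (e : M ≅ M') : 𝒰.N0 M ≃ₗ[𝒰.R0] 𝒰.N0 M' :=
  LinearEquiv.ofLinearMap (𝒰.map0 e.hom) (𝒰.map0 e.inv)
    (by rw [← map0_comp, e.inv_hom_id, map0_id]) (by rw [← map0_comp, e.hom_inv_id, map0_id])

/-- The linear equivalence on sections over the second chart induced by an isomorphism. -/
def equiv1 (e : M ≅ M') : 𝒰.N1 M ≃ₗ[𝒰.R1] 𝒰.N1 M' :=
  LinearEquiv.ofLinearMap (𝒰.map1 e.hom) (𝒰.map1 e.inv)
    (by rw [← map1_comp, e.inv_hom_id, map1_id]) (by rw [← map1_comp, e.hom_inv_id, map1_id])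

/-- The linear equivalence on sections over the overlap induced by an isomorphism. -/
def equiv01 (e : M ≅ M') : 𝒰.N01 M ≃ₗ[𝒰.R01] 𝒰.N01 M' :=
  LinearEquiv.ofLinearMap (𝒰.map01 e.hom) (𝒰.map01 e.inv)
    (by rw [← map01_comp, e.inv_hom_id, map01_id]) (by rw [← map01_comp, e.hom_inv_id, map01_id])

@[simp] theorem equiv0_apply (e : M ≅ M') (x : 𝒰.N0 M) : 𝒰.equiv0 e x = 𝒰.map0 e.hom x := rfl
@[simp] theorem equiv1_apply (e : M ≅ M') (x : 𝒰.N1 M) : 𝒰.equiv1 e x = 𝒰.map1 e.hom x := rfl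
@[simp] theorem equiv01_apply (e : M ≅ M') (x : 𝒰.N01 M) :
    𝒰.equiv01 e x = 𝒰.map01 e.hom x := rfl

/-- `Gamma2` on isomorphisms. -/
def Gamma2Iso (e : M ≅ M') (h : 𝒰.IsQC M) (h' : 𝒰.IsQC M') :
    QC2.Iso (𝒰.Gamma2 M h) (𝒰.Gamma2 M' h') where
  e0 := 𝒰.equiv0 e
  e1 := 𝒰.equiv1 e
  e01 := 𝒰.equiv01 e
  comm0 := 𝒰.map01_r0 e.hom
  comm1 := 𝒰.map01_r1 e.hom

/-- Being quasi-coherent relative to the cover is invariant under isomorphism. -/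
theorem IsQC.of_iso (e : M ≅ M') (h : 𝒰.IsQC M) : 𝒰.IsQC M' := by
  let e0 : 𝒰.N0 M ≃ₗ[𝒰.R0] 𝒰.N0 M' := 𝒰.equiv0 e
  let e1 : 𝒰.N1 M ≃ₗ[𝒰.R1] 𝒰.N1 M' := 𝒰.equiv1 e
  let e01 : 𝒰.N01 M ≃ₗ[𝒰.R01] 𝒰.N01 M' := 𝒰.equiv01 e
  have h0 : 𝒰.r0 M' = ((e01.restrictScalars 𝒰.R0 : 𝒰.N01 M →ₗ[𝒰.R0] 𝒰.N01 M').comp (𝒰.r0 M)).comp
      (e0.symm : 𝒰.N0 M' →ₗ[𝒰.R0] 𝒰.N0 M) := by
    ext x
    simp only [LinearMap.comp_apply, LinearEquiv.coe_coe, LinearEquiv.restrictScalars_apply]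
    have := 𝒰.map01_r0 e.hom (e0.symm x)
    rw [show e01 (𝒰.r0 M (e0.symm x)) = 𝒰.map01 e.hom (𝒰.r0 M (e0.symm x)) from rfl, this]
    congr 1
    exact (e0.apply_symm_apply x).symm
  have h1 : 𝒰.r1 M' = ((e01.restrictScalars 𝒰.R1 : 𝒰.N01 M →ₗ[𝒰.R1] 𝒰.N01 M').comp (𝒰.r1 M)).comp
      (e1.symm : 𝒰.N1 M' →ₗ[𝒰.R1] 𝒰.N1 M) := by
    ext x
    simp only [LinearMap.comp_apply, LinearEquiv.coe_coe, LinearEquiv.restrictScalars_apply]
    have := 𝒰.map01_r1 e.hom (e1.symm x)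
    rw [show e01 (𝒰.r1 M (e1.symm x)) = 𝒰.map01 e.hom (𝒰.r1 M (e1.symm x)) from rfl, this]
    congr 1
    exact (e1.apply_symm_apply x).symm
  haveI := h.loc0
  haveI := h.loc1
  refine ⟨?_, ?_⟩
  · rw [h0]
    haveI : IsLocalizedModule (Submonoid.powers 𝒰.tR)
        ((e01.restrictScalars 𝒰.R0 : 𝒰.N01 M →ₗ[𝒰.R0] 𝒰.N01 M').comp (𝒰.r0 M)) :=
      IsLocalizedModule.of_linearEquiv _ _ _
    exact IsLocalizedModule.of_linearEquiv_right _ _ _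
  · rw [h1]
    haveI : IsLocalizedModule (Submonoid.powers 𝒰.sR)
        ((e01.restrictScalars 𝒰.R1 : 𝒰.N01 M →ₗ[𝒰.R1] 𝒰.N01 M').comp (𝒰.r1 M)) :=
      IsLocalizedModule.of_linearEquiv _ _ _
    exact IsLocalizedModule.of_linearEquiv_right _ _ _

end Functoriality

/-! ### Global sections are `H⁰` of the two-chart module (sheaf condition) -/

section SheafCondition

/-- Gluing of two sections of a sheaf of abelian groups over a union of two opens. -/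
theorem existsUnique_gluing₂ {Y : TopCat.{u}} (F : TopCat.Sheaf Ab.{u} Y)
    {U V W : Opens Y} (iU : U ⟶ W) (iV : V ⟶ W) (hcover : W ≤ U ⊔ V)
    (a : ToType (F.1.obj (op U))) (b : ToType (F.1.obj (op V)))
    (hab : F.1.map (homOfLE (inf_le_left : U ⊓ V ≤ U)).op a =
      F.1.map (homOfLE (inf_le_right : U ⊓ V ≤ V)).op b) :
    ∃! s : ToType (F.1.obj (op W)), F.1.map iU.op s = a ∧ F.1.map iV.op s = b := by
  let Uf : Bool → Opens Y := fun t => cond t U V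
  let sf : ∀ i : Bool, ToType (F.1.obj (op (Uf i))) := fun i =>
    Bool.rec (motive := fun i => ToType (F.1.obj (op (Uf i)))) b a i
  let iUV : ∀ i : Bool, Uf i ⟶ W := fun i =>
    Bool.rec (motive := fun i => Uf i ⟶ W) iV iU i
  have hcov : W ≤ iSup Uf := by
    refine hcover.trans (sup_le ?_ ?_)
    · exact le_iSup Uf true
    · exact le_iSup Uf false
  have hcompat : TopCat.Presheaf.IsCompatible F.1 Uf sf := by
    rintro (_ | _) (_ | _)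
    · rfl
    · -- (false, true): restrict the hypothesis along `V ⊓ U ≤ U ⊓ V`
      have h := congrArg (F.1.map (homOfLE (le_inf inf_le_right inf_le_left :
        V ⊓ U ≤ U ⊓ V)).op) hab
      simp only [← ConcreteCategory.comp_apply, ← F.1.map_comp] at h
      exact h.symm
    · exact hab
    · rfl
  obtain ⟨s, hs, huniq⟩ := F.existsUnique_gluing' Uf W iUV hcov sf hcompat
  refine ⟨s, ⟨hs true, hs false⟩, fun s' hs' => huniq s' ?_⟩
  rintro (_ | _)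
  · exact hs'.2
  · exact hs'.1

end SheafCondition

section GlobalSections

variable (M : X.Modules)

/-- Global sections of `M` (the cover is a dummy argument, used to find the `A`-module
structure). -/
def NTop (_𝒰 : TwoCover A X) (M : X.Modules) : Type u := Γ(M, ⊤)

instance : AddCommGroup (𝒰.NTop M) := inferInstanceAs (AddCommGroup Γ(M, ⊤))
instance modTop : Module Γ(X, ⊤) (𝒰.NTop M) := inferInstanceAs (Module Γ(X, ⊤) Γ(M, ⊤))
instance modATop : Module A (𝒰.NTop M) := Module.compHom _ 𝒰.str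

theorem smul_A_NTop (a : A) (x : 𝒰.NTop M) : a • x = 𝒰.str a • x := rfl

/-- Restriction of global sections to the first chart, as an `A`-linear map. -/
def resTop0 : 𝒰.NTop M →ₗ[A] 𝒰.N0 M where
  toFun x := (M.presheaf.map (homOfLE (le_top : 𝒰.U0 ≤ ⊤)).op).hom x
  map_add' x y := map_add _ x y
  map_smul' a x := M.map_smul (homOfLE (le_top : 𝒰.U0 ≤ ⊤)) (𝒰.str a) x

/-- Restriction of global sections to the second chart, as an `A`-linear map. -/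
def resTop1 : 𝒰.NTop M →ₗ[A] 𝒰.N1 M where
  toFun x := (M.presheaf.map (homOfLE (le_top : 𝒰.U1 ≤ ⊤)).op).hom x
  map_add' x y := map_add _ x y
  map_smul' a x := M.map_smul (homOfLE (le_top : 𝒰.U1 ≤ ⊤)) (𝒰.str a) x

theorem r0_resTop0 (x : 𝒰.NTop M) : 𝒰.r0 M (𝒰.resTop0 M x) = 𝒰.r1 M (𝒰.resTop1 M x) := by
  change (M.presheaf.map _ ≫ M.presheaf.map _).hom x = (M.presheaf.map _ ≫ M.presheaf.map _).hom x
  rw [← Functor.map_comp, ← Functor.map_comp]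
  rfl

variable {M} in
theorem mem_H0_iff (h : 𝒰.IsQC M) (p : 𝒰.N0 M × 𝒰.N1 M) :
    p ∈ (𝒰.Gamma2 M h).H0 ↔ 𝒰.r0 M p.1 = 𝒰.r1 M p.2 := by
  have hd : (𝒰.Gamma2 M h).d p = 𝒰.r0 M p.1 - 𝒰.r1 M p.2 := by
    rw [sub_eq_add_neg]; rfl
  have hiff : (𝒰.r0 M p.1 - 𝒰.r1 M p.2 = 0) ↔ 𝒰.r0 M p.1 = 𝒰.r1 M p.2 := sub_eq_zero
  refine Iff.trans ?_ hiff
  change (𝒰.Gamma2 M h).d p = 0 ↔ _
  rw [hd]
  exact Iff.rfl

variable {M} in
/-- The map from global sections to `H⁰` of the two-chart module. -/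
def toH0 (h : 𝒰.IsQC M) : 𝒰.NTop M →ₗ[A] (𝒰.Gamma2 M h).H0 :=
  LinearMap.codRestrict _ ((𝒰.resTop0 M).prod (𝒰.resTop1 M))
    (fun x => (𝒰.mem_H0_iff h _).mpr (𝒰.r0_resTop0 M x))

variable {M} in
theorem toH0_bijective (h : 𝒰.IsQC M) : Function.Bijective (𝒰.toH0 h) := by
  let F : TopCat.Sheaf Ab.{u} X := ⟨M.presheaf, M.isSheaf⟩
  have hcov : (⊤ : X.Opens) ≤ 𝒰.U0 ⊔ 𝒰.U1 := 𝒰.cover.ge
  constructor
  · intro x y hxy
    have h0 : 𝒰.resTop0 M x = 𝒰.resTop0 M y := congrArg (fun p => p.1.1) hxy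
    have h1 : 𝒰.resTop1 M x = 𝒰.resTop1 M y := congrArg (fun p => p.1.2) hxy
    exact F.eq_of_locally_eq₂ (homOfLE le_top) (homOfLE le_top) hcov x y h0 h1
  · rintro ⟨⟨a, b⟩, hab⟩
    have hab' : 𝒰.r0 M a = 𝒰.r1 M b := (𝒰.mem_H0_iff h (a, b)).mp hab
    obtain ⟨s, ⟨hs0, hs1⟩, -⟩ := existsUnique_gluing₂ F (homOfLE (le_top : 𝒰.U0 ≤ ⊤))
      (homOfLE (le_top : 𝒰.U1 ≤ ⊤)) hcov a b hab'
    refine ⟨s, Subtype.ext (Prod.ext hs0 hs1)⟩

variable {M} in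
/-- **Sheaf condition.** Global sections of `M` are `H⁰` of its two-chart module. -/
def H0Equiv (h : 𝒰.IsQC M) : 𝒰.NTop M ≃ₗ[A] (𝒰.Gamma2 M h).H0 :=
  LinearEquiv.ofBijective (𝒰.toH0 h) (𝒰.toH0_bijective h)

end GlobalSections

/-! ### The structure sheaf -/

section Unit

/-- The structure sheaf as a sheaf of modules. -/
abbrev unitModule (X : Scheme.{u}) : X.Modules := SheafOfModules.unit X.ringCatSheaf

/-- Sections of the structure sheaf (as a module) over the first chart are the functions. -/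
def unitN0 : 𝒰.N0 (unitModule X) ≃ₗ[𝒰.R0] 𝒰.R0 := LinearEquiv.refl _ _

/-- Sections of the structure sheaf (as a module) over the second chart are the functions. -/
def unitN1 : 𝒰.N1 (unitModule X) ≃ₗ[𝒰.R1] 𝒰.R1 := LinearEquiv.refl _ _

/-- Sections of the structure sheaf (as a module) over the overlap are the functions. -/
def unitN01 : 𝒰.N01 (unitModule X) ≃ₗ[𝒰.R01] 𝒰.R01 := LinearEquiv.refl _ _

theorem unitN01_r0 (x : 𝒰.N0 (unitModule X)) :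
    𝒰.unitN01 (𝒰.r0 (unitModule X) x) = algebraMap 𝒰.R0 𝒰.R01 (𝒰.unitN0 x) := rfl

theorem unitN01_r1 (x : 𝒰.N1 (unitModule X)) :
    𝒰.unitN01 (𝒰.r1 (unitModule X) x) = algebraMap 𝒰.R1 𝒰.R01 (𝒰.unitN1 x) := rfl

/-- The structure sheaf is quasi-coherent relative to the cover. -/
theorem isQC_unit : 𝒰.IsQC (unitModule X) where
  loc0 := by
    haveI : IsLocalization (Submonoid.powers 𝒰.tR) 𝒰.R01 := 𝒰.chart.away0
    exact (isLocalizedModule_iff_isLocalization' (Submonoid.powers 𝒰.tR) 𝒰.R01).mpr inferInstance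
  loc1 := by
    haveI : IsLocalization (Submonoid.powers 𝒰.sR) 𝒰.R01 := 𝒰.chart.away1
    exact (isLocalizedModule_iff_isLocalization' (Submonoid.powers 𝒰.sR) 𝒰.R01).mpr inferInstance

/-- The two-chart module of the structure sheaf is the unit two-chart module. -/
def Gamma2UnitIso : QC2.Iso (𝒰.Gamma2 (unitModule X) 𝒰.isQC_unit) (QC2.unit (A := A)) where
  e0 := 𝒰.unitN0
  e1 := 𝒰.unitN1
  e01 := 𝒰.unitN01
  comm0 := 𝒰.unitN01_r0
  comm1 := 𝒰.unitN01_r1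

end Unit

end TwoCover

end Fermat.Agent.Jac.TwoCoverGammaSetting
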