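/-
Fermat/Agent/Jac/BridgeCharts33.lean  (helper33) -- S25 programme, brick B1a "Bridge.Charts".

`k` a field, `c : C ⟶ Spec k` a `k`-scheme, `A` a `k`-algebra, `C_A := pullback c (specStr A)`.

* `chart c A U` : the preimage in `C_A` of an open `U` of `C`; it is affine if `U` is
  (`isAffineOpen_chart`); lattice lemmas `chart_sup`, `chart_inf`, `chart_top`, `chart_basicOpen`.
* `secHom x V : R →+* Γ(X, V)` : the structure homomorphism of an `R`-scheme `x : X ⟶ Spec R`
  (for `x = c` it is `sectionsRingHom c U`, by `rfl`).
* `isPushout_chart'` : for `U` affine the square `k → A`, `k → Γ(C, U)`, `A → Γ(C_A, chart U)`,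
  `Γ(C, U) → Γ(C_A, chart U)` is a pushout of commutative rings;
  `algebraIsPushout_chart` : the same as `Algebra.IsPushout k A Γ(C, U) Γ(C_A, chart U)`
  (so `Γ(C_A, chart U) = A ⊗[k] Γ(C, U)`), for the algebra structures `algC`, `algXA`, `algXAk`,
  `algChart` (reducible definitions, to be activated locally).
* `chartEquiv` : the resulting `A`-algebra isomorphism `A ⊗[k] Γ(C, U) ≃ₐ[A] Γ(C_A, chart U)`,
  `a ⊗ b ↦ a • b|`.
* from `cc : CurveCharts c ε` : the two charts `X0`, `X1` of `C_A`, the coordinates `tA`, `sA` and
  the facts `cover`, `inter0`, `inter1`, `ts` making `C_A` an instance of the two-cover setting.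
-/
import Mathlib
import Fermat.Agent.Jac.CurveCharts

set_option autoImplicit false
set_option linter.style.haveILetI false

open CategoryTheory CategoryTheory.Limits AlgebraicGeometry TopologicalSpace Opposite
open NeronModelInfra

universe u

noncomputable section

namespace Fermat.Agent.Jac.BridgeCharts33

variable {k : Type u} [Field k] {C : Scheme.{u}} (c : C ⟶ Spec (CommRingCat.of k))
variable (A : Type u) [CommRing A] [Algebra k A]

/-! ### The base change and its charts -/

/-- the base change `C_A`. -/
abbrev XA : Scheme.{u} := pullback c (specStr A)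

/-- the projection `C_A ⟶ C`. -/
abbrev pr1 : XA c A ⟶ C := pullback.fst c (specStr A)

/-- the projection `C_A ⟶ Spec A`. -/
abbrev pr2 : XA c A ⟶ Spec (CommRingCat.of A) := pullback.snd c (specStr A)

/-- the preimage in `C_A` of an open of `C`. -/
abbrev chart (U : C.Opens) : (XA c A).Opens := pr1 c A ⁻¹ᵁ U

theorem chart_def (U : C.Opens) : chart c A U = pr1 c A ⁻¹ᵁ U := rfl

theorem chart_sup (U V : C.Opens) : chart c A (U ⊔ V) = chart c A U ⊔ chart c A V := rfl

theorem chart_inf (U V : C.Opens) : chart c A (U ⊓ V) = chart c A U ⊓ chart c A V := rfl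

theorem chart_top : chart c A ⊤ = ⊤ := rfl

theorem chart_mono {U V : C.Opens} (h : U ≤ V) : chart c A U ≤ chart c A V :=
  Scheme.Hom.preimage_mono _ h

theorem chart_basicOpen {U : C.Opens} (r : Γ(C, U)) :
    chart c A (C.basicOpen r) = (XA c A).basicOpen ((pr1 c A).app U r) :=
  Scheme.preimage_basicOpen _ r

theorem isAffineHom_specStr : IsAffineHom (specStr (k := k) A) := by
  unfold specStr; infer_instance

set_option backward.isDefEq.respectTransparency.types false in
theorem isAffineHom_pr1 : IsAffineHom (pr1 c A) :=
  MorphismProperty.pullback_fst _ _ (isAffineHom_specStr A)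

theorem isAffineOpen_chart {U : C.Opens} (hU : IsAffineOpen U) : IsAffineOpen (chart c A U) :=
  haveI := isAffineHom_pr1 c A
  hU.preimage (pr1 c A)

/-! ### Sections over a chart are a tensor product -/

/-- the structure ring homomorphism `R → Γ(X, V)` of an `R`-scheme. -/
def secHom {R : Type u} [CommRing R] {X : Scheme.{u}} (x : X ⟶ Spec (CommRingCat.of R))
    (V : X.Opens) : R →+* Γ(X, V) :=
  ((Scheme.ΓSpecIso (CommRingCat.of R)).inv ≫ x.appLE ⊤ V le_top).hom

theorem secHom_eq_sectionsRingHom (U : C.Opens) : secHom c U = sectionsRingHom c U := rfl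

/-- restriction is compatible with the structure homomorphisms. -/
theorem map_secHom {R : Type u} [CommRing R] {X : Scheme.{u}} (x : X ⟶ Spec (CommRingCat.of R))
    {V V' : X.Opens} (h : V' ≤ V) (a : R) :
    (X.presheaf.map (homOfLE h).op).hom (secHom x V a) = secHom x V' a := by
  unfold secHom
  rw [← Scheme.Hom.appLE_map x (le_top : V ≤ x ⁻¹ᵁ ⊤) (homOfLE h).op]
  rfl

/-- the pushout square of sections over a chart (Mathlib's `isIso_pushoutSection_of_isAffineOpen`). -/
theorem isPushout_chart {U : C.Opens} (hU : IsAffineOpen U) :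
    IsPushout (c.appLE ⊤ U le_top) ((specStr (k := k) A).appLE ⊤ ⊤ le_top)
      ((pr1 c A).appLE U (chart c A U) le_rfl) ((pr2 c A).appLE ⊤ (chart c A U) le_top) := by
  have H : IsPullback (pr1 c A) (pr2 c A) c (specStr A) := IsPullback.of_hasPullback _ _
  have hUY : chart c A U = pr1 c A ⁻¹ᵁ U ⊓ pr2 c A ⁻¹ᵁ ⊤ := by
    simp [chart]
  have := isIso_pushoutSection_of_isAffineOpen H (US := ⊤) (UT := ⊤) (UX := U) le_top le_top hUY
    (isAffineOpen_top _) (isAffineOpen_top _) hU
  exact (isIso_pushoutSection_iff H le_top le_top hUY).mp this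

/-- the pushout square of sections over a chart, with `k` and `A` in the corners. -/
theorem isPushout_chart' {U : C.Opens} (hU : IsAffineOpen U) :
    IsPushout (CommRingCat.ofHom (algebraMap k A)) (CommRingCat.ofHom (secHom c U))
      (CommRingCat.ofHom (secHom (pr2 c A) (chart c A U))) ((pr1 c A).app U) := by
  refine (isPushout_chart c A hU).flip.of_iso (Scheme.ΓSpecIso (CommRingCat.of k))
    (Scheme.ΓSpecIso (CommRingCat.of A)) (Iso.refl _) (Iso.refl _) ?_ ?_ ?_ ?_
  · -- `k → A`
    have := Scheme.ΓSpecIso_naturality (CommRingCat.ofHom (algebraMap k A))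
    simp only [specStr, Scheme.Hom.appLE]
    exact this
  · -- `k → Γ(C, U)`
    simp [secHom]
  · -- `A → Γ(C_A, chart U)`
    simp [secHom]
  · simp only [Scheme.Hom.appLE_eq_app, chart, Iso.refl_hom]
    exact (Category.comp_id _).trans (Category.id_comp _).symm

section Algebra

/-- the `k`-algebra structure on sections of `C` (the same as `sectionsAlgebra`). -/
@[reducible] def algC (U : C.Opens) : Algebra k Γ(C, U) := (secHom c U).toAlgebra

/-- the `A`-algebra structure on sections of `C_A`. -/
@[reducible] def algXA (V : (XA c A).Opens) : Algebra A Γ(XA c A, V) :=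
  (secHom (pr2 c A) V).toAlgebra

/-- the `k`-algebra structure on sections of `C_A` (through `A`). -/
@[reducible] def algXAk (V : (XA c A).Opens) : Algebra k Γ(XA c A, V) :=
  ((secHom (pr2 c A) V).comp (algebraMap k A)).toAlgebra

/-- sections over a chart of `C_A` as an algebra over the sections of `C`. -/
@[reducible] def algChart (U : C.Opens) : Algebra Γ(C, U) Γ(XA c A, chart c A U) :=
  ((pr1 c A).app U).hom.toAlgebra

theorem isScalarTower_A (V : (XA c A).Opens) :
    letI := algXA c A V
    letI := algXAk c A V
    IsScalarTower k A Γ(XA c A, V) :=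
  letI := algXA c A V
  letI := algXAk c A V
  IsScalarTower.of_algebraMap_eq' rfl

theorem isScalarTower_chart {U : C.Opens} (hU : IsAffineOpen U) :
    letI := algC c U
    letI := algXAk c A (chart c A U)
    letI := algChart c A U
    IsScalarTower k Γ(C, U) Γ(XA c A, chart c A U) := by
  letI := algC c U
  letI := algXAk c A (chart c A U)
  letI := algChart c A U
  apply IsScalarTower.of_algebraMap_eq'
  exact congrArg CommRingCat.Hom.hom (isPushout_chart' c A hU).w

/-- **sections over a chart of `C_A` are `A ⊗[k] Γ(C, U)`.** -/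
theorem algebraIsPushout_chart {U : C.Opens} (hU : IsAffineOpen U) :
    letI := algC c U
    letI := algXA c A (chart c A U)
    letI := algXAk c A (chart c A U)
    letI := algChart c A U
    haveI := isScalarTower_A c A (chart c A U)
    haveI := isScalarTower_chart c A hU
    Algebra.IsPushout k A Γ(C, U) Γ(XA c A, chart c A U) := by
  letI := algC c U
  letI := algXA c A (chart c A U)
  letI := algXAk c A (chart c A U)
  letI := algChart c A U
  haveI := isScalarTower_A c A (chart c A U)
  haveI := isScalarTower_chart c A hU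
  exact CommRingCat.isPushout_iff_isPushout.mp (isPushout_chart' c A hU)

open TensorProduct in
/-- the `A`-algebra isomorphism `A ⊗[k] Γ(C, U) ≃ Γ(C_A, chart U)`. -/
def chartEquiv {U : C.Opens} (hU : IsAffineOpen U) :
    letI := algC c U
    letI := algXA c A (chart c A U)
    A ⊗[k] Γ(C, U) ≃ₐ[A] Γ(XA c A, chart c A U) :=
  letI := algC c U
  letI := algXA c A (chart c A U)
  letI := algXAk c A (chart c A U)
  letI := algChart c A U
  haveI := isScalarTower_A c A (chart c A U)
  haveI := isScalarTower_chart c A hU
  haveI := algebraIsPushout_chart c A hU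
  Algebra.IsPushout.equiv k A Γ(C, U) Γ(XA c A, chart c A U)

open TensorProduct in
theorem chartEquiv_tmul {U : C.Opens} (hU : IsAffineOpen U) (a : A) (b : Γ(C, U)) :
    letI := algC c U
    letI := algXA c A (chart c A U)
    chartEquiv c A hU (a ⊗ₜ[k] b) =
      secHom (pr2 c A) (chart c A U) a * ((pr1 c A).app U).hom b := by
  letI := algC c U
  letI := algXA c A (chart c A U)
  letI := algXAk c A (chart c A U)
  letI := algChart c A U
  haveI := isScalarTower_A c A (chart c A U)
  haveI := isScalarTower_chart c A hU
  haveI := algebraIsPushout_chart c A hU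
  exact Algebra.IsPushout.equiv_tmul k A Γ(C, U) Γ(XA c A, chart c A U) a b

end Algebra

end Fermat.Agent.Jac.BridgeCharts33
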