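/-
Fermat/Agent/Jac/BridgeCharts33Cover.lean  (helper33) -- S25 programme, brick B1a, part 2.

From `cc : CurveCharts c ε` (two affine charts `U0`, `U1` of the curve with coordinates `t`, `s`)
the base change `C_A = pullback c (specStr A)` inherits the two-cover structure:
charts `X0 A`, `X1 A` (affine, covering), coordinates `tA`, `sA`, overlap
`X0 ⊓ X1 = D(tA) = D(sA)` and `tA * sA = 1` on the overlap.
-/
import Mathlib
import Fermat.Agent.Jac.BridgeCharts33

set_option autoImplicit false
set_option linter.style.haveILetI false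

open CategoryTheory CategoryTheory.Limits AlgebraicGeometry TopologicalSpace Opposite
open NeronModelInfra

universe u

noncomputable section

namespace Fermat.Agent.Jac.BridgeCharts33

variable {k : Type u} [Field k] {C : Scheme.{u}} {c : C ⟶ Spec (CommRingCat.of k)}
variable {ε : SchemeHomOver (𝟙 (Spec (CommRingCat.of k))) c} (cc : CurveCharts c ε)
variable (A : Type u) [CommRing A] [Algebra k A]

/-- the first chart of `C_A`. -/
abbrev X0 : (XA c A).Opens := chart c A cc.U0

/-- the second chart of `C_A`. -/
abbrev X1 : (XA c A).Opens := chart c A cc.U1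

/-- the coordinate `t` on the first chart of `C_A`. -/
def tA : Γ(XA c A, X0 cc A) := ((pr1 c A).app cc.U0).hom cc.t

/-- the coordinate `s` on the second chart of `C_A`. -/
def sA : Γ(XA c A, X1 cc A) := ((pr1 c A).app cc.U1).hom cc.s

theorem isAffineOpen_X0 : IsAffineOpen (X0 cc A) := isAffineOpen_chart c A cc.affine0

theorem isAffineOpen_X1 : IsAffineOpen (X1 cc A) := isAffineOpen_chart c A cc.affine1

theorem cover_XA : X0 cc A ⊔ X1 cc A = ⊤ := by
  rw [← chart_sup, cc.cover, chart_top]

theorem inter0_XA : X0 cc A ⊓ X1 cc A = (XA c A).basicOpen (tA cc A) := by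
  rw [← chart_inf, cc.inter0, chart_basicOpen]
  rfl

theorem inter1_XA : X0 cc A ⊓ X1 cc A = (XA c A).basicOpen (sA cc A) := by
  rw [← chart_inf, cc.inter1, chart_basicOpen]
  rfl

/-- restriction commutes with pulling back sections along `C_A ⟶ C`. -/
theorem map_app_pr1 {U V : C.Opens} (h : V ≤ U) (b : Γ(C, U)) :
    ((XA c A).presheaf.map (homOfLE (chart_mono c A h)).op).hom (((pr1 c A).app U).hom b) =
      ((pr1 c A).app V).hom ((C.presheaf.map (homOfLE h).op).hom b) := by
  have := (pr1 c A).naturality (homOfLE h).op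
  exact (congrArg (fun f => f.hom b) this).symm

theorem ts_XA :
    ((XA c A).presheaf.map (homOfLE (inf_le_left : X0 cc A ⊓ X1 cc A ≤ X0 cc A)).op).hom (tA cc A) *
      ((XA c A).presheaf.map (homOfLE (inf_le_right : X0 cc A ⊓ X1 cc A ≤ X1 cc A)).op).hom
        (sA cc A) = 1 := by
  have h := congrArg ((pr1 c A).app (cc.U0 ⊓ cc.U1)).hom cc.ts
  rw [map_mul, map_one, ← map_app_pr1 A inf_le_left, ← map_app_pr1 A inf_le_right] at h
  exact h

end Fermat.Agent.Jac.BridgeCharts33
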