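/-
Fermat/Agent/Jac/BridgeCharts33Nat.lean  (helper33) -- S25 programme, brick B1a, part 3.

Naturality of the charts of `C_A` in the `k`-algebra `A`: for `ψ : A →ₐ[k] A'` the morphism
`bcs c ψ = baseChangeSnd c (specOver ψ) : C_{A'} ⟶ C_A` satisfies
`bcs ≫ pr1 = pr1`, `bcs ≫ pr2 = pr2 ≫ Spec ψ`, pulls charts back to charts, and on sections
over a chart it is `ψ ⊗ id` under `chartEquiv`.
-/
import Mathlib
import Fermat.Agent.Jac.BridgeCharts33

set_option autoImplicit false
set_option linter.style.haveILetI false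

open CategoryTheory CategoryTheory.Limits AlgebraicGeometry TopologicalSpace Opposite
open NeronModelInfra AlgebraicGeometry.RelPicard

universe u

noncomputable section

namespace Fermat.Agent.Jac.BridgeCharts33

variable {k : Type u} [Field k] {C : Scheme.{u}} (c : C ⟶ Spec (CommRingCat.of k))
variable {A A' : Type u} [CommRing A] [Algebra k A] [CommRing A'] [Algebra k A']
variable (ψ : A →ₐ[k] A')

/-- `Spec ψ` as a morphism over `Spec k`. -/
def specOver : SchemeHomOver (specStr (k := k) A') (specStr (k := k) A) :=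
  ⟨Spec.map (CommRingCat.ofHom ψ.toRingHom), by
    unfold specStr
    rw [← Spec.map_comp]
    congr 1
    ext x
    simp⟩

/-- the base change morphism `C_{A'} ⟶ C_A`. -/
abbrev bcs : XA c A' ⟶ XA c A := baseChangeSnd c (specOver ψ)

@[reassoc]
theorem bcs_pr1 : bcs c ψ ≫ pr1 c A = pr1 c A' := by
  unfold bcs baseChangeSnd
  rw [pullback.lift_fst, Category.comp_id]

@[reassoc]
theorem bcs_pr2 : bcs c ψ ≫ pr2 c A = pr2 c A' ≫ Spec.map (CommRingCat.ofHom ψ.toRingHom) := by
  unfold bcs baseChangeSnd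
  rw [pullback.lift_snd]
  rfl

theorem bcs_preimage_chart (U : C.Opens) : bcs c ψ ⁻¹ᵁ chart c A U = chart c A' U := by
  unfold chart
  rw [← Scheme.Hom.comp_preimage, bcs_pr1]

theorem appLE_of_eq {X Y : Scheme.{u}} {f g : X ⟶ Y} (h : f = g) (U : Y.Opens) (V : X.Opens)
    (e : V ≤ f ⁻¹ᵁ U) : f.appLE U V e = g.appLE U V (h ▸ e) := by
  subst h
  rfl

/-- `bcs` is compatible with pulling back sections from `C`. -/
theorem bcs_appLE_pr1 (U : C.Opens) :
    (pr1 c A).app U ≫ (bcs c ψ).appLE (chart c A U) (chart c A' U)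
      (bcs_preimage_chart c ψ U).ge = (pr1 c A').app U := by
  rw [Scheme.Hom.app_eq_appLE, Scheme.Hom.appLE_comp_appLE, appLE_of_eq (bcs_pr1 c ψ),
    ← Scheme.Hom.app_eq_appLE]

/-- `bcs` is `ψ`-semilinear on sections. -/
theorem bcs_appLE_secHom (V : (XA c A).Opens) (V' : (XA c A').Opens) (h : V' ≤ bcs c ψ ⁻¹ᵁ V)
    (a : A) :
    ((bcs c ψ).appLE V V' h).hom (secHom (pr2 c A) V a) = secHom (pr2 c A') V' (ψ a) := by
  unfold secHom
  have e1 : (pr2 c A).appLE ⊤ V le_top ≫ (bcs c ψ).appLE V V' h =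
      (Spec.map (CommRingCat.ofHom ψ.toRingHom)).appLE ⊤ ⊤ le_top ≫
        (pr2 c A').appLE ⊤ V' le_top := by
    rw [Scheme.Hom.appLE_comp_appLE, Scheme.Hom.appLE_comp_appLE, appLE_of_eq (bcs_pr2 c ψ)]
  have e2 : (Scheme.ΓSpecIso (CommRingCat.of A)).inv ≫
      (Spec.map (CommRingCat.ofHom ψ.toRingHom)).appLE ⊤ ⊤ le_top =
        CommRingCat.ofHom ψ.toRingHom ≫ (Scheme.ΓSpecIso (CommRingCat.of A')).inv := by
    rw [Scheme.ΓSpecIso_inv_naturality]
    simp [Scheme.Hom.appLE]
  have e3 : ((Scheme.ΓSpecIso (CommRingCat.of A)).inv ≫ (pr2 c A).appLE ⊤ V le_top) ≫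
      (bcs c ψ).appLE V V' h =
      CommRingCat.ofHom ψ.toRingHom ≫ (Scheme.ΓSpecIso (CommRingCat.of A')).inv ≫
        (pr2 c A').appLE ⊤ V' le_top := by
    rw [Category.assoc, e1, ← Category.assoc, e2, Category.assoc]
  exact congrArg (fun f => f.hom a) e3

open TensorProduct in
/-- under `chartEquiv`, the base change morphism is `ψ ⊗ id` on sections over a chart. -/
theorem bcs_appLE_chartEquiv {U : C.Opens} (hU : IsAffineOpen U) (a : A) (b : Γ(C, U)) :
    letI := algC c U
    ((bcs c ψ).appLE (chart c A U) (chart c A' U) (bcs_preimage_chart c ψ U).ge).hom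
      (chartEquiv c A hU (a ⊗ₜ[k] b)) = chartEquiv c A' hU (ψ a ⊗ₜ[k] b) := by
  letI := algC c U
  rw [chartEquiv_tmul, chartEquiv_tmul, map_mul, bcs_appLE_secHom]
  congr 1
  exact congrArg (fun f => f.hom b) (bcs_appLE_pr1 c ψ U)

/-- sections over a chart of `C_{A'}` as an algebra over those of `C_A`. -/
@[reducible] def algBcs (U : C.Opens) : Algebra Γ(XA c A, chart c A U) Γ(XA c A', chart c A' U) :=
  ((bcs c ψ).appLE (chart c A U) (chart c A' U) (bcs_preimage_chart c ψ U).ge).hom.toAlgebra

section Tower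

variable (A A')
variable [Algebra A A'] [IsScalarTower k A A']

/-- sections of `C_{A'}` as an `A`-algebra (through `A'`). -/
@[reducible] def algXAA (V' : (XA c A').Opens) : Algebra A Γ(XA c A', V') :=
  ((secHom (pr2 c A') V').comp (algebraMap A A')).toAlgebra

/-- **base change of the sections over a chart**: `Γ(C_{A'}, chart U) = A' ⊗[A] Γ(C_A, chart U)`. -/
theorem algebraIsPushout_bcs {U : C.Opens} (hU : IsAffineOpen U) :
    letI := algXA c A (chart c A U)
    letI := algXA c A' (chart c A' U)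
    letI := algXAA c A A' (chart c A' U)
    letI := algBcs c (IsScalarTower.toAlgHom k A A') U
    ∃ (_ : IsScalarTower A A' Γ(XA c A', chart c A' U))
      (_ : IsScalarTower A Γ(XA c A, chart c A U) Γ(XA c A', chart c A' U)),
      Algebra.IsPushout A A' Γ(XA c A, chart c A U) Γ(XA c A', chart c A' U) := by
  letI := algC c U
  letI := algXA c A (chart c A U)
  letI := algXAk c A (chart c A U)
  letI := algChart c A U
  letI := algXA c A' (chart c A' U)
  letI := algXAk c A' (chart c A' U)
  letI := algChart c A' U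
  letI := algXAA c A A' (chart c A' U)
  letI := algBcs c (IsScalarTower.toAlgHom k A A') U
  haveI := isScalarTower_A c A (chart c A U)
  haveI := isScalarTower_chart c A hU
  haveI := algebraIsPushout_chart c A hU
  haveI := isScalarTower_A c A' (chart c A' U)
  haveI := isScalarTower_chart c A' hU
  haveI := algebraIsPushout_chart c A' hU
  have t1 : IsScalarTower A A' Γ(XA c A', chart c A' U) := IsScalarTower.of_algebraMap_eq' rfl
  have t2 : IsScalarTower A Γ(XA c A, chart c A U) Γ(XA c A', chart c A' U) := by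
    apply IsScalarTower.of_algebraMap_eq
    intro a
    exact (bcs_appLE_secHom c (IsScalarTower.toAlgHom k A A') _ _ _ a).symm
  have t3 : IsScalarTower k Γ(XA c A, chart c A U) Γ(XA c A', chart c A' U) := by
    apply IsScalarTower.of_algebraMap_eq
    intro x
    have h1 := bcs_appLE_secHom c (IsScalarTower.toAlgHom k A A') (chart c A U) (chart c A' U)
      (bcs_preimage_chart c _ U).ge (algebraMap k A x)
    have h2 : (IsScalarTower.toAlgHom k A A') (algebraMap k A x) = algebraMap k A' x :=
      (IsScalarTower.toAlgHom k A A').commutes x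
    rw [h2] at h1
    exact h1.symm
  have t4 : IsScalarTower Γ(C, U) Γ(XA c A, chart c A U) Γ(XA c A', chart c A' U) := by
    apply IsScalarTower.of_algebraMap_eq
    intro b
    exact (congrArg (fun f => f.hom b) (bcs_appLE_pr1 c (IsScalarTower.toAlgHom k A A') U)).symm
  refine ⟨t1, t2, ?_⟩
  exact (Algebra.IsPushout.comp_iff (R := k) (S := A) (R' := Γ(C, U))
    (S' := Γ(XA c A, chart c A U)) (T := A') (T' := Γ(XA c A', chart c A' U))).mp inferInstance

end Tower

end Fermat.Agent.Jac.BridgeCharts33
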