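/-
Fermat/Agent/Jac/BridgeCharts33Rig.lean  (helper33) -- S25 programme, brick B1a, part 4.

The rigidifying section `rigA = rigSection c (specStr A) ε : Spec A ⟶ C_A` in the charts of `C_A`:
it factors through every chart `chart c A U` with `ε⁻¹ U = ⊤`, and the induced ring homomorphism
`evalBaseA : Γ(C_A, chart U) → A` ("evaluation at the base point") is the `A`-algebra retraction
`a ⊗ b ↦ a * b(P₀)`; it kills the coordinate `sA` of the chart at infinity.
-/
import Mathlib
import Fermat.Agent.Jac.BridgeCharts33Cover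
import Fermat.Agent.Jac.BridgeCharts33Nat

set_option autoImplicit false
set_option linter.style.haveILetI false

open CategoryTheory CategoryTheory.Limits AlgebraicGeometry TopologicalSpace Opposite
open NeronModelInfra AlgebraicGeometry.RelPicard

universe u

noncomputable section

namespace Fermat.Agent.Jac.BridgeCharts33

variable {k : Type u} [Field k] {C : Scheme.{u}} (c : C ⟶ Spec (CommRingCat.of k))
variable (ε : SchemeHomOver (𝟙 (Spec (CommRingCat.of k))) c)
variable (A : Type u) [CommRing A] [Algebra k A]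

/-- the rigidifying section of `C_A ⟶ Spec A`. -/
abbrev rigA : Spec (CommRingCat.of A) ⟶ XA c A := rigSection c (specStr A) ε

@[reassoc]
theorem rigA_pr1 : rigA c ε A ≫ pr1 c A = specStr A ≫ ε.1 := by
  unfold rigA rigSection
  rw [pullback.lift_fst]

@[reassoc]
theorem rigA_pr2 : rigA c ε A ≫ pr2 c A = 𝟙 _ := by
  unfold rigA rigSection
  rw [pullback.lift_snd]

theorem rigA_preimage_chart {U : C.Opens} (hU : ε.1 ⁻¹ᵁ U = ⊤) :
    rigA c ε A ⁻¹ᵁ chart c A U = ⊤ := by
  unfold chart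
  rw [← Scheme.Hom.comp_preimage, rigA_pr1, Scheme.Hom.comp_preimage, hU]
  rfl

/-- evaluation of functions on `U ∋ P₀` at the base point `P₀ = ε`. -/
def evalBase {U : C.Opens} (hU : ε.1 ⁻¹ᵁ U = ⊤) : Γ(C, U) →+* k :=
  (ε.1.appLE U ⊤ hU.ge ≫ (Scheme.ΓSpecIso (CommRingCat.of k)).hom).hom

/-- evaluation of functions on the chart `chart c A U` of `C_A` along the rigidifying section. -/
def evalBaseA {U : C.Opens} (hU : ε.1 ⁻¹ᵁ U = ⊤) : Γ(XA c A, chart c A U) →+* A :=
  ((rigA c ε A).appLE (chart c A U) ⊤ (rigA_preimage_chart c ε A hU).ge ≫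
    (Scheme.ΓSpecIso (CommRingCat.of A)).hom).hom

theorem id_appLE_top (X : Scheme.{u}) : (𝟙 X : X ⟶ X).appLE ⊤ ⊤ le_top = 𝟙 _ := by
  simp [Scheme.Hom.appLE]

/-- `evalBaseA` is a retraction of the structure map `A → Γ(C_A, chart U)`. -/
theorem evalBaseA_secHom {U : C.Opens} (hU : ε.1 ⁻¹ᵁ U = ⊤) (a : A) :
    evalBaseA c ε A hU (secHom (pr2 c A) (chart c A U) a) = a := by
  unfold evalBaseA secHom
  have e1 : (pr2 c A).appLE ⊤ (chart c A U) le_top ≫
      (rigA c ε A).appLE (chart c A U) ⊤ (rigA_preimage_chart c ε A hU).ge = 𝟙 _ := by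
    rw [Scheme.Hom.appLE_comp_appLE, appLE_of_eq (rigA_pr2 c ε A), id_appLE_top]
  have e2 : ((Scheme.ΓSpecIso (CommRingCat.of A)).inv ≫ (pr2 c A).appLE ⊤ (chart c A U) le_top) ≫
      ((rigA c ε A).appLE (chart c A U) ⊤ (rigA_preimage_chart c ε A hU).ge ≫
        (Scheme.ΓSpecIso (CommRingCat.of A)).hom) = 𝟙 _ := by
    rw [Category.assoc, ← Category.assoc ((pr2 c A).appLE _ _ _), e1, Category.id_comp,
      Iso.inv_hom_id]
  exact congrArg (fun f => f.hom a) e2

/-- `evalBaseA` on functions pulled back from `C` is evaluation at the base point. -/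
theorem evalBaseA_pr1 {U : C.Opens} (hU : ε.1 ⁻¹ᵁ U = ⊤) (b : Γ(C, U)) :
    evalBaseA c ε A hU (((pr1 c A).app U).hom b) = algebraMap k A (evalBase c ε hU b) := by
  unfold evalBaseA evalBase
  have e1 : (pr1 c A).app U ≫
      (rigA c ε A).appLE (chart c A U) ⊤ (rigA_preimage_chart c ε A hU).ge =
      ε.1.appLE U ⊤ hU.ge ≫ (specStr (k := k) A).appLE ⊤ ⊤ le_top := by
    rw [Scheme.Hom.app_eq_appLE, Scheme.Hom.appLE_comp_appLE, Scheme.Hom.appLE_comp_appLE,
      appLE_of_eq (rigA_pr1 c ε A)]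
  have e2 : (specStr (k := k) A).appLE ⊤ ⊤ le_top ≫ (Scheme.ΓSpecIso (CommRingCat.of A)).hom =
      (Scheme.ΓSpecIso (CommRingCat.of k)).hom ≫ CommRingCat.ofHom (algebraMap k A) := by
    have := Scheme.ΓSpecIso_naturality (CommRingCat.ofHom (algebraMap k A))
    simp only [specStr, Scheme.Hom.appLE]
    exact this
  have e3 : (pr1 c A).app U ≫
      ((rigA c ε A).appLE (chart c A U) ⊤ (rigA_preimage_chart c ε A hU).ge ≫
        (Scheme.ΓSpecIso (CommRingCat.of A)).hom) =
      (ε.1.appLE U ⊤ hU.ge ≫ (Scheme.ΓSpecIso (CommRingCat.of k)).hom) ≫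
        CommRingCat.ofHom (algebraMap k A) := by
    rw [← Category.assoc, e1, Category.assoc, e2, Category.assoc]
  exact congrArg (fun f => f.hom b) e3

/-- evaluation at the base point is a retraction of `k → Γ(C, U)`. -/
theorem evalBase_secHom {U : C.Opens} (hU : ε.1 ⁻¹ᵁ U = ⊤) (x : k) :
    evalBase c ε hU (secHom c U x) = x := by
  unfold evalBase secHom
  have e1 : c.appLE ⊤ U le_top ≫ ε.1.appLE U ⊤ hU.ge = 𝟙 _ := by
    rw [Scheme.Hom.appLE_comp_appLE, appLE_of_eq ε.2, id_appLE_top]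
  have e2 : ((Scheme.ΓSpecIso (CommRingCat.of k)).inv ≫ c.appLE ⊤ U le_top) ≫
      (ε.1.appLE U ⊤ hU.ge ≫ (Scheme.ΓSpecIso (CommRingCat.of k)).hom) = 𝟙 _ := by
    rw [Category.assoc, ← Category.assoc (c.appLE _ _ _), e1, Category.id_comp, Iso.inv_hom_id]
  exact congrArg (fun f => f.hom x) e2

open TensorProduct in
/-- under `chartEquiv`, `evalBaseA` is `a ⊗ b ↦ a * b(P₀)`. -/
theorem evalBaseA_chartEquiv {U : C.Opens} (hU : IsAffineOpen U) (hε : ε.1 ⁻¹ᵁ U = ⊤) (a : A)
    (b : Γ(C, U)) :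
    letI := algC c U
    evalBaseA c ε A hε (chartEquiv c A hU (a ⊗ₜ[k] b)) =
      a * algebraMap k A (evalBase c ε hε b) := by
  letI := algC c U
  rw [chartEquiv_tmul, map_mul, evalBaseA_secHom, evalBaseA_pr1]

section Charts

variable {c ε}
variable (cc : CurveCharts c ε)

/-- the coordinate `s` of the chart at infinity vanishes at the base point. -/
theorem evalBase_s : evalBase c ε cc.base_mem cc.s = 0 := by
  unfold evalBase
  have h : (ε.1.appLE cc.U1 ⊤ cc.base_mem.ge).hom cc.s = 0 := by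
    unfold Scheme.Hom.appLE
    rw [CommRingCat.hom_comp, RingHom.comp_apply, cc.s_base, map_zero]
  rw [CommRingCat.hom_comp, RingHom.comp_apply, h, map_zero]

/-- the coordinate `sA` of the chart at infinity of `C_A` vanishes along the rigidifying section. -/
theorem evalBaseA_sA : evalBaseA c ε A cc.base_mem (sA cc A) = 0 := by
  unfold sA
  rw [evalBaseA_pr1, evalBase_s, map_zero]

end Charts

end Fermat.Agent.Jac.BridgeCharts33
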