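/-
Fermat/Agent/Jac/BridgeCharts33Pack.lean  (helper33) -- S25 programme, brick B1a, part 5:
packaging for the dictionary brick B1b, in the vocabulary of `TwoCoverGammaSetting.TwoCover`.

* `cover0 cc : TwoCover k C` : the curve with its two charts;
* `coverA cc A : TwoCover A (XA c A)` : the base change `C_A` with its two charts;
* `pb0`, `pb1`, `pb01` : pull-back of functions `(cover0 cc).R_i →+* (coverA cc A).R_i`;
* `theta0`, `theta1`, `theta01 : A ⊗[k] (cover0 cc).R_i ≃ₐ[A] (coverA cc A).R_i`, with
  `theta_i (a ⊗ b) = algebraMap a * pb_i b`, compatible with the restrictions to the overlap and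
  with the coordinates `t`, `s`.
-/
import Mathlib
import Fermat.Agent.Jac.BridgeCharts33Cover
import Fermat.Agent.Jac.BridgeCharts33Nat
import Fermat.Agent.Jac.BridgeCharts33Rig
import Fermat.Agent.Jac.TwoCoverGammaSetting

set_option autoImplicit false
set_option linter.style.haveILetI false

open CategoryTheory CategoryTheory.Limits AlgebraicGeometry TopologicalSpace Opposite
open NeronModelInfra AlgebraicGeometry.RelPicard
open Fermat.Agent.Jac.TwoCoverGammaSetting

universe u

noncomputable section

namespace Fermat.Agent.Jac.BridgeCharts33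

variable {k : Type u} [Field k] {C : Scheme.{u}} {c : C ⟶ Spec (CommRingCat.of k)}
variable {ε : SchemeHomOver (𝟙 (Spec (CommRingCat.of k))) c} (cc : CurveCharts c ε)
variable (A : Type u) [CommRing A] [Algebra k A]

/-- the curve with its two charts, as a two-cover over `k`. -/
def cover0 : TwoCover k C where
  str := sectionsRingHom c ⊤
  U0 := cc.U0
  U1 := cc.U1
  affine0 := cc.affine0
  affine1 := cc.affine1
  cover := cc.cover
  t := cc.t
  s := cc.s
  inter0 := cc.inter0
  inter1 := cc.inter1
  ts := cc.ts

/-- the base change `C_A` with its two charts, as a two-cover over `A`. -/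
def coverA : TwoCover A (XA c A) where
  str := secHom (pr2 c A) ⊤
  U0 := X0 cc A
  U1 := X1 cc A
  affine0 := isAffineOpen_X0 cc A
  affine1 := isAffineOpen_X1 cc A
  cover := cover_XA cc A
  t := tA cc A
  s := sA cc A
  inter0 := inter0_XA cc A
  inter1 := inter1_XA cc A
  ts := ts_XA cc A

/-! ### the structure maps of the two covers are the `secHom`s -/

theorem cover0_str0 : (cover0 cc).str0 = secHom c cc.U0 := by
  ext x
  exact map_secHom c (le_top : cc.U0 ≤ ⊤) x

theorem cover0_str1 : (cover0 cc).str1 = secHom c cc.U1 := by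
  ext x
  exact map_secHom c (le_top : cc.U1 ≤ ⊤) x

theorem cover0_str01 : (cover0 cc).str01 = secHom c (cc.U0 ⊓ cc.U1) := by
  ext x
  exact map_secHom c (le_top : cc.U0 ⊓ cc.U1 ≤ ⊤) x

theorem coverA_str0 : (coverA cc A).str0 = secHom (pr2 c A) (X0 cc A) := by
  ext x
  exact map_secHom (pr2 c A) (le_top : X0 cc A ≤ ⊤) x

theorem coverA_str1 : (coverA cc A).str1 = secHom (pr2 c A) (X1 cc A) := by
  ext x
  exact map_secHom (pr2 c A) (le_top : X1 cc A ≤ ⊤) x

theorem coverA_str01 : (coverA cc A).str01 = secHom (pr2 c A) (X0 cc A ⊓ X1 cc A) := by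
  ext x
  exact map_secHom (pr2 c A) (le_top : X0 cc A ⊓ X1 cc A ≤ ⊤) x

end Fermat.Agent.Jac.BridgeCharts33
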