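/-
Programme JAC (S25), points at infinity, algebra core (helper98).

`k` algebraically closed, `B` a finite type `k`-algebra which is a Dedekind domain, `s ≠ 0` in `B`
and `P0 : B →ₐ[k] k` a `k`-point with `P0 s = 0`.  Then the zeros of `s` are finitely many
`k`-points `e i`, `i : Fin (n + 1)`, with `e 0 = P0`, and a product of their maximal ideals is
contained in `(s)`.
-/
import Fermat.Agent.Jac.CurveBaseChange98Point

set_option autoImplicit false

namespace Fermat.Agent.Jac.InfData98Alg

open Fermat.Agent.Jac.CurveBaseChange98Point UniqueFactorizationMonoid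

variable (k : Type*) [Field k] [IsAlgClosed k] (B : Type*) [CommRing B] [Algebra k B]
  [Algebra.FiniteType k B]

/-- A chosen `k`-point with kernel a given maximal ideal (junk value `P0` otherwise). -/
noncomputable def ptOf (P0 : B →ₐ[k] k) (p : Ideal B) : B →ₐ[k] k := by
  classical
  exact if h : p.IsMaximal then (exists_point_of_isMaximal k B p (hm := h)).choose else P0

theorem ker_ptOf (P0 : B →ₐ[k] k) (p : Ideal B) (h : p.IsMaximal) :
    RingHom.ker (ptOf k B P0 p) = p := by
  classical
  unfold ptOf
  rw [dif_pos h]
  exact (exists_point_of_isMaximal k B p (hm := h)).choose_spec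

variable [IsDedekindDomain B]

/-- The zeros of `s ≠ 0` as a finite family of `k`-points containing `P0`. -/
theorem exists_points_of_ne_zero {s : B} (hs : s ≠ 0) (P0 : B →ₐ[k] k) (hP0 : P0 s = 0) :
    ∃ (n : ℕ) (e : Fin (n + 1) → (B →ₐ[k] k)), e 0 = P0 ∧ (∀ i, e i s = 0) ∧
      ∃ l : List (Fin (n + 1)), (l.map (fun i => RingHom.ker (e i))).prod ≤ Ideal.span {s} := by
  classical
  have hI : Ideal.span {s} ≠ (⊥ : Ideal B) := by
    rw [Ne, Ideal.span_singleton_eq_bot]
    exact hs
  -- the prime factors of `(s)`
  set F : Multiset (Ideal B) := normalizedFactors (Ideal.span {s}) with hF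
  have hprod : F.prod = Ideal.span {s} := Ideal.prod_normalizedFactors_eq_self hI
  have hmax : ∀ p ∈ F, p.IsMaximal := by
    intro p hp
    have hprime : Prime p := prime_of_normalized_factor p hp
    exact (Ideal.isPrime_of_prime hprime).isMaximal hprime.ne_zero
  have hmem : ∀ p ∈ F, s ∈ p := by
    intro p hp
    have hdvd : p ∣ Ideal.span {s} := dvd_of_mem_normalizedFactors hp
    exact (Ideal.le_of_dvd hdvd) (Ideal.mem_span_singleton_self s)
  set L : List (Ideal B) := F.toList with hL
  have hLprod : L.prod = Ideal.span {s} := by rw [hL, Multiset.prod_toList, hprod]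
  have hLmem : ∀ p ∈ L, p ∈ F := fun p hp => Multiset.mem_toList.mp hp
  -- the list of points
  set pts : List (B →ₐ[k] k) := P0 :: L.map (ptOf k B P0) with hpts
  have hlen : pts.length = L.length + 1 := by simp [hpts]
  have hker : (L.map (ptOf k B P0)).map (fun q => RingHom.ker q) = L := by
    rw [List.map_map]
    conv_rhs => rw [← List.map_id L]
    apply List.map_congr_left
    intro p hp
    exact ker_ptOf k B P0 p (hmax p (hLmem p hp))
  have hzero : ∀ q ∈ pts, q s = 0 := by
    intro q hq
    rw [hpts, List.mem_cons] at hq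
    rcases hq with h | h
    · rw [h]; exact hP0
    · obtain ⟨p, hp, hpe⟩ := List.mem_map.mp h
      rw [← hpe]
      have : s ∈ RingHom.ker (ptOf k B P0 p) := by
        rw [ker_ptOf k B P0 p (hmax p (hLmem p hp))]
        exact hmem p (hLmem p hp)
      exact (RingHom.mem_ker).mp this
  refine ⟨L.length, fun i => pts.get (i.cast hlen.symm), ?_, ?_, ?_⟩
  · rfl
  · intro i
    exact hzero _ (List.get_mem _ _)
  · refine ⟨List.finRange (L.length + 1), ?_⟩
    have h1 : (List.finRange (L.length + 1)).map
        (fun i => RingHom.ker (pts.get (i.cast hlen.symm))) = pts.map (fun q => RingHom.ker q) := by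
      apply List.ext_get
      · simp [hlen]
      · intro n h1 h2
        simp
    rw [h1, hpts, List.map_cons, List.prod_cons, hker, hLprod]
    exact Ideal.mul_le_right

end Fermat.Agent.Jac.InfData98Alg
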