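/-
Programme JAC (S25), points at infinity of the concrete curve (helper98).

For the chart rings of a `CurveCharts c ε` over an algebraically closed field, the zeros of the
coordinate `s` on the chart at infinity `B1` are finitely many `k`-points `e i`, among them the base
point `cc.P0`, and they satisfy `AlgChart76.InfData cc.chart0 e`.
-/
import Fermat.Agent.Jac.InfData98Alg
import Fermat.Agent.Jac.AlgChart76.HilbCore
import Fermat.Agent.Jac.CurveHyp80.Instance

set_option autoImplicit false

open CategoryTheory CategoryTheory.Limits AlgebraicGeometry TopologicalSpace Opposite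
open NeronModelInfra

universe u

namespace Fermat.Agent.Jac.InfData98

variable {k : Type u} [Field k] {C : Scheme.{u}} {c : C ⟶ Spec (CommRingCat.of k)}
  {ε : SchemeHomOver (𝟙 (Spec (CommRingCat.of k))) c}

/-- **Points at infinity.** -/
theorem exists_infData [IsAlgClosed k] (cc : CurveCharts c ε) :
    ∃ (ιInf : Type) (_ : Finite ιInf) (_ : Nonempty ιInf) (e : ιInf → (cc.B1 →ₐ[k] k))
      (i0 : ιInf), AlgChart76.InfData cc.chart0 e ∧ e i0 = cc.P0 := by
  have hft : Algebra.FiniteType k cc.B1 := CurveHyp80.finiteType_B1 cc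
  have hded : IsDedekindDomain cc.B1 := CurveHyp80.isDedekindDomain_B1 cc
  obtain ⟨n, e, he0, hes, l, hl⟩ := InfData98Alg.exists_points_of_ne_zero k cc.B1
    (CurveHyp80.s_ne_zero_chart0 cc) cc.P0 cc.P0_s
  exact ⟨Fin (n + 1), inferInstance, inferInstance, e, 0, ⟨hes, l, hl⟩, he0⟩

end Fermat.Agent.Jac.InfData98
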