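/-
Programme JAC (S25), points at infinity of the concrete curve, with invertibility (helper98).
-/
import Fermat.Agent.Jac.InfData98

set_option autoImplicit false

open CategoryTheory CategoryTheory.Limits AlgebraicGeometry TopologicalSpace Opposite
open NeronModelInfra

universe u

namespace Fermat.Agent.Jac.InfData98

variable {k : Type u} [Field k] {C : Scheme.{u}} {c : C ⟶ Spec (CommRingCat.of k)}
  {ε : SchemeHomOver (𝟙 (Spec (CommRingCat.of k))) c}

/-- The kernel of any `k`-point of the chart at infinity is an invertible module. -/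
theorem invertible_ker_B1 (cc : CurveCharts c ε) (q : cc.B1 →ₐ[k] k) :
    Module.Invertible cc.B1 (RingHom.ker q) := by
  have hded : IsDedekindDomain cc.B1 := CurveHyp80.isDedekindDomain_B1 cc
  have hmax : (RingHom.ker q).IsMaximal :=
    RingHom.ker_isMaximal_of_surjective q (fun a => ⟨algebraMap k cc.B1 a, by simp⟩)
  exact CurveBaseChange98Point.invertible_of_ne_bot _
    (Ring.ne_bot_of_isMaximal_of_not_isField hmax (CurveHyp80.not_isField_B1 cc))

/-- The kernel of any `k`-point of the first chart is an invertible module. -/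
theorem invertible_ker_B0 (cc : CurveCharts c ε) (q : cc.B0 →ₐ[k] k) :
    Module.Invertible cc.B0 (RingHom.ker q) := by
  have hded : IsDedekindDomain cc.B0 := CurveHyp80.isDedekindDomain_B0 cc
  have hmax : (RingHom.ker q).IsMaximal :=
    RingHom.ker_isMaximal_of_surjective q (fun a => ⟨algebraMap k cc.B0 a, by simp⟩)
  exact CurveBaseChange98Point.invertible_of_ne_bot _
    (Ring.ne_bot_of_isMaximal_of_not_isField hmax (CurveHyp80.not_isField_B0 cc))

/-- **Points at infinity**, with invertibility of their ideals. -/
theorem exists_infData_invertible [IsAlgClosed k] (cc : CurveCharts c ε) :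
    ∃ (ιInf : Type) (_ : Finite ιInf) (e : ιInf → (cc.B1 →ₐ[k] k)) (i₀ : ιInf),
      e i₀ = cc.P0 ∧ AlgChart76.InfData cc.chart0 e ∧
        ∀ i, Module.Invertible cc.B1 (RingHom.ker (e i)) := by
  obtain ⟨ιInf, hfin, -, e, i0, hInf, hi0⟩ := exists_infData cc
  exact ⟨ιInf, hfin, e, i0, hi0, hInf, fun i => invertible_ker_B1 cc (e i)⟩

end Fermat.Agent.Jac.InfData98
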