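/-
Programme JAC (S25), brick R2a, hypotheses from `cc : CurveCharts c ε` (helper98).

* `transcendental_t`, `transcendental_s` : the chart coordinates are transcendental over `k`;
* `invertible_ker_B0`, `invertible_ker_B1` : kernels of `k`-points of the charts are invertible
  modules (re-exported from `InfData98Inv`).
-/
import Fermat.Agent.Jac.InfData98Inv

set_option autoImplicit false

open CategoryTheory CategoryTheory.Limits AlgebraicGeometry TopologicalSpace Opposite
open NeronModelInfra

universe u

namespace Fermat.Agent.Jac.CurveHyp98

variable {k : Type u} [Field k] {C : Scheme.{u}} {c : C ⟶ Spec (CommRingCat.of k)}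
  {ε : SchemeHomOver (𝟙 (Spec (CommRingCat.of k))) c}

/-- The coordinate `t` of the first chart is transcendental over `k`. -/
theorem transcendental_t (cc : CurveCharts c ε) : Transcendental k cc.chart0.t := by
  have := CurveHyp80.isDedekindDomain_B0 cc
  have := CurveHyp80.free_B0 cc
  exact transcendental_iff_injective.mpr (CurveHyp80.aeval_injective (k := k) cc.chart0.t)

/-- The coordinate `s` of the chart at infinity is transcendental over `k`. -/
theorem transcendental_s (cc : CurveCharts c ε) : Transcendental k cc.chart0.s := by
  have := CurveHyp80.isDedekindDomain_B1 cc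
  have := CurveHyp80.free_B1 cc
  exact transcendental_iff_injective.mpr (CurveHyp80.aeval_injective (k := k) cc.chart0.s)

/-- Kernels of `k`-points of the first chart are invertible modules. -/
theorem invertible_ker_B0 (cc : CurveCharts c ε) :
    ∀ q : cc.B0 →ₐ[k] k, Module.Invertible cc.B0 (RingHom.ker q) :=
  fun q => InfData98.invertible_ker_B0 cc q

/-- Kernels of `k`-points of the chart at infinity are invertible modules. -/
theorem invertible_ker_B1 (cc : CurveCharts c ε) :
    ∀ q : cc.B1 →ₐ[k] k, Module.Invertible cc.B1 (RingHom.ker q) :=
  fun q => InfData98.invertible_ker_B1 cc q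

end Fermat.Agent.Jac.CurveHyp98
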