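/-
JAC programme, brick B2.i (helper36): the frozen cut is contained in the chi-cut.

Abstract form.  A `ChiTheory` for `c : C ⟶ Spec k` assigns to every invertible sheaf `L` on
`C ×ₖ T` a function `T → ℤ` (fibrewise Euler characteristic) which is invariant under
isomorphism, compatible with pullback along `k`-morphisms `T' ⟶ T`, locally constant, and constant
`chi0` on the structure sheaf.  For any such theory, a line bundle which is fibrewise algebraically
equivalent to zero (frozen definition `FibrewiseAlgEquivZero`) has `chi = chi0` at every point.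

The proof is the pullback-pasting bookkeeping identifying the frozen fibre `C_s ×_K T'` with
`C ×ₖ T'` plus connectedness of the parameter space `T'`.
-/
import Mathlib
import Fermat.Prelude.Def_AlgebraicGeometry_RelPicardAlgEquivZeroCut

set_option autoImplicit false

namespace Fermat.Agent.Jac.CutDeg36

open CategoryTheory CategoryTheory.Limits AlgebraicGeometry AlgebraicGeometry.RelPicard
  NeronModelInfra

universe u

variable {k : Type u} [CommRing k] {C : Scheme.{u}}

/-- A fibrewise Euler characteristic for invertible sheaves on the base changes of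
`c : C ⟶ Spec k`. -/
structure ChiTheory (c : C ⟶ Spec (CommRingCat.of k)) where
  /-- `chi t L y` is the Euler characteristic of the restriction of `L` to the fibre of
  `C ×ₖ T ⟶ T` over the point `y` (only meaningful for invertible `L`). -/
  chi : ∀ {T : Scheme.{u}} (t : T ⟶ Spec (CommRingCat.of k)), (pullback c t).Modules → T → ℤ
  /-- the Euler characteristic of the structure sheaf (`1 - g`) -/
  chi0 : ℤ
  chi_iso : ∀ {T : Scheme.{u}} (t : T ⟶ Spec (CommRingCat.of k)) (L L' : (pullback c t).Modules),
    Scheme.Modules.IsInvertible L → Nonempty (L ≅ L') → chi t L = chi t L'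
  chi_pullback : ∀ {T T' : Scheme.{u}} {t : T ⟶ Spec (CommRingCat.of k)}
    {t' : T' ⟶ Spec (CommRingCat.of k)} (ψ : SchemeHomOver t' t) (L : (pullback c t).Modules),
    Scheme.Modules.IsInvertible L → ∀ y : T',
      chi t' ((Scheme.Modules.pullback (baseChangeSnd c ψ)).obj L) y = chi t L (ψ.1 y)
  chi_locallyConstant : ∀ {T : Scheme.{u}} (t : T ⟶ Spec (CommRingCat.of k))
    (L : (pullback c t).Modules), Scheme.Modules.IsInvertible L → IsLocallyConstant (chi t L)
  chi_unit : ∀ {T : Scheme.{u}} (t : T ⟶ Spec (CommRingCat.of k)) (y : T),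
    chi t (SheafOfModules.unit (pullback c t).ringCatSheaf) y = chi0

variable {c : C ⟶ Spec (CommRingCat.of k)}

section Affine

/-- Local constancy of `chi` only needs to be checked over affine bases `Spec A`: the general
case follows from compatibility with pullback. -/
theorem isLocallyConstant_of_affine
    (chi : ∀ {T : Scheme.{u}} (t : T ⟶ Spec (CommRingCat.of k)), (pullback c t).Modules → T → ℤ)
    (chi_pullback : ∀ {T T' : Scheme.{u}} {t : T ⟶ Spec (CommRingCat.of k)}
      {t' : T' ⟶ Spec (CommRingCat.of k)} (ψ : SchemeHomOver t' t) (L : (pullback c t).Modules),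
      Scheme.Modules.IsInvertible L → ∀ y : T',
        chi t' ((Scheme.Modules.pullback (baseChangeSnd c ψ)).obj L) y = chi t L (ψ.1 y))
    (chi_lc : ∀ (A : CommRingCat.{u}) (t : Spec A ⟶ Spec (CommRingCat.of k))
      (L : (pullback c t).Modules), Scheme.Modules.IsInvertible L → IsLocallyConstant (chi t L))
    {T : Scheme.{u}} (t : T ⟶ Spec (CommRingCat.of k)) (L : (pullback c t).Modules)
    (hL : Scheme.Modules.IsInvertible L) : IsLocallyConstant (chi t L) := by
  rw [IsLocallyConstant.iff_eventually_eq]
  intro y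
  obtain ⟨_, ⟨V, hV : IsAffineOpen V, rfl⟩, hyV, -⟩ :=
    (T.isBasis_affineOpens).exists_subset_of_mem_open (Set.mem_univ y) isOpen_univ
  -- the chart `Spec Γ(T, V) ⟶ T`
  let φ : Spec Γ(T, V) ⟶ T := hV.fromSpec
  have hφ : Topology.IsOpenEmbedding φ := φ.isOpenEmbedding
  let ψ : SchemeHomOver (φ ≫ t) t := ⟨φ, rfl⟩
  have hlc := chi_lc _ (φ ≫ t) ((Scheme.Modules.pullback (baseChangeSnd c ψ)).obj L)
    (hL.pullback _)
  have hy : y ∈ Set.range φ := by
    have : Set.range φ = V := hV.range_fromSpec
    rw [this]; exact hyV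
  obtain ⟨x, rfl⟩ := hy
  rw [← hφ.map_nhds_eq x, Filter.eventually_map]
  have := (IsLocallyConstant.iff_eventually_eq _).mp hlc x
  filter_upwards [this] with x' hx'
  rw [← chi_pullback ψ L hL x', ← chi_pullback ψ L hL x]
  exact hx'

/-- Constructor of a `ChiTheory` from local constancy over affine bases only. -/
def ChiTheory.ofAffine
    (chi : ∀ {T : Scheme.{u}} (t : T ⟶ Spec (CommRingCat.of k)), (pullback c t).Modules → T → ℤ)
    (chi0 : ℤ)
    (chi_iso : ∀ {T : Scheme.{u}} (t : T ⟶ Spec (CommRingCat.of k))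
      (L L' : (pullback c t).Modules),
      Scheme.Modules.IsInvertible L → Nonempty (L ≅ L') → chi t L = chi t L')
    (chi_pullback : ∀ {T T' : Scheme.{u}} {t : T ⟶ Spec (CommRingCat.of k)}
      {t' : T' ⟶ Spec (CommRingCat.of k)} (ψ : SchemeHomOver t' t) (L : (pullback c t).Modules),
      Scheme.Modules.IsInvertible L → ∀ y : T',
        chi t' ((Scheme.Modules.pullback (baseChangeSnd c ψ)).obj L) y = chi t L (ψ.1 y))
    (chi_lc : ∀ (A : CommRingCat.{u}) (t : Spec A ⟶ Spec (CommRingCat.of k))
      (L : (pullback c t).Modules), Scheme.Modules.IsInvertible L → IsLocallyConstant (chi t L))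
    (chi_unit : ∀ {T : Scheme.{u}} (t : T ⟶ Spec (CommRingCat.of k)) (y : T),
      chi t (SheafOfModules.unit (pullback c t).ringCatSheaf) y = chi0) : ChiTheory c where
  chi := chi
  chi0 := chi0
  chi_iso := chi_iso
  chi_pullback := chi_pullback
  chi_locallyConstant := fun t L hL => isLocallyConstant_of_affine chi chi_pullback chi_lc t L hL
  chi_unit := chi_unit

end Affine

section Pasting

variable {T : Scheme.{u}} (t : T ⟶ Spec (CommRingCat.of k))
  {K : Type u} [Field K] (s : Spec (CommRingCat.of K) ⟶ T)

/-- The frozen fibre `(C ×ₖ T) ×_T Spec K` is the fibre product `C ×ₖ Spec K`. -/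
theorem isPullback_fibre :
    IsPullback (pullback.fst (pullback.snd c t) s ≫ pullback.fst c t) (fibreAt c t s) c (s ≫ t) :=
  (IsPullback.of_hasPullback (pullback.snd c t) s).paste_horiz (IsPullback.of_hasPullback c t)

variable {T' : Scheme.{u}} (h : T' ⟶ Spec (CommRingCat.of K))

/-- The total space `C_s ×_K T'` of a family over `T'` is the fibre product `C ×ₖ T'`. -/
theorem isPullback_family :
    IsPullback (pullback.fst (fibreAt c t s) h ≫
      (pullback.fst (pullback.snd c t) s ≫ pullback.fst c t))
      (pullback.snd (fibreAt c t s) h) c (h ≫ (s ≫ t)) :=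
  (IsPullback.of_hasPullback (fibreAt c t s) h).paste_horiz (isPullback_fibre t s)

/-- A `K`-point of `T'` as a `k`-morphism. -/
def pointOver (tt : SchemeHomOver (𝟙 (Spec (CommRingCat.of K))) h) :
    SchemeHomOver (s ≫ t) (h ≫ (s ≫ t)) :=
  ⟨tt.1, by rw [← Category.assoc, tt.2, Category.id_comp]⟩

/-- The comparison `C ×ₖ Spec K ⟶ C_s ×_K Spec K`. -/
noncomputable def fibreComparison :
    pullback c (s ≫ t) ⟶ pullback (fibreAt c t s) (𝟙 (Spec (CommRingCat.of K))) :=
  pullback.lift (isPullback_fibre t s).isoPullback.inv (pullback.snd c (s ≫ t))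
    (by rw [Category.comp_id]; exact (isPullback_fibre t s).isoPullback_inv_snd)

theorem comparison_square (tt : SchemeHomOver (𝟙 (Spec (CommRingCat.of K))) h) :
    baseChangeSnd c (pointOver t s h tt) ≫ (isPullback_family t s h).isoPullback.inv =
      fibreComparison t s ≫ baseChangeSnd (fibreAt c t s) tt := by
  apply (isPullback_family t s h).hom_ext
  · rw [Category.assoc, (isPullback_family t s h).isoPullback_inv_fst]
    simp only [baseChangeSnd, fibreComparison, pointOver, Category.assoc, pullback.lift_fst,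
      pullback.lift_fst_assoc, Category.comp_id]
    exact ((isPullback_fibre t s).isoPullback_inv_fst).symm
  · rw [Category.assoc, (isPullback_family t s h).isoPullback_inv_snd]
    simp only [baseChangeSnd, fibreComparison, pointOver, Category.assoc, pullback.lift_snd,
      pullback.lift_snd_assoc]

theorem comparison_fst :
    fibreComparison t s ≫ pullback.fst (fibreAt c t s) (𝟙 _) ≫
      pullback.fst (pullback.snd c t) s =
      baseChangeSnd c (⟨s, rfl⟩ : SchemeHomOver (s ≫ t) t) := by
  apply pullback.hom_ext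
  · simp only [baseChangeSnd, fibreComparison, Category.assoc, pullback.lift_fst,
      pullback.lift_fst_assoc, Category.comp_id]
    exact (isPullback_fibre t s).isoPullback_inv_fst
  · simp only [baseChangeSnd, fibreComparison, Category.assoc, pullback.lift_snd,
      pullback.lift_fst_assoc]
    rw [pullback.condition]
    exact (isPullback_fibre t s).isoPullback_inv_snd_assoc _

end Pasting

section Main

variable (χ : ChiTheory c) {T : Scheme.{u}} (t : T ⟶ Spec (CommRingCat.of k))

/-- Core of B2.i: if the restriction of `L` to the fibre over a field-valued point `s` is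
algebraically equivalent to zero, then `chi L = chi0` at the image of `s`. -/
theorem chi_eq_of_isAlgEquivZero (L : (pullback c t).Modules)
    (hL : Scheme.Modules.IsInvertible L) {K : Type u} [Field K]
    (s : Spec (CommRingCat.of K) ⟶ T)
    (hAEZ : IsAlgEquivZero (fibreAt c t s)
      ((Scheme.Modules.pullback (pullback.fst (pullback.snd c t) s)).obj L))
    (pt : Spec (CommRingCat.of K)) : χ.chi t L (s pt) = χ.chi0 := by
  obtain ⟨T', h, hft, hgi, Mfam, hMfam, t₀, t₁, ⟨e₀⟩, ⟨e₁⟩⟩ := hAEZ
  -- the family on `C ×ₖ T'`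
  let ι := (isPullback_family (c := c) t s h).isoPullback
  let Lfam : (pullback c (h ≫ (s ≫ t))).Modules := (Scheme.Modules.pullback ι.inv).obj Mfam
  have hLfam : Scheme.Modules.IsInvertible Lfam := hMfam.pullback ι.inv
  -- `T'` is connected
  have : IsIntegral T' := GeometricallyIntegral.isIntegral_of_subsingleton h
  have hconst := (χ.chi_locallyConstant (h ≫ (s ≫ t)) Lfam hLfam).apply_eq_of_preconnectedSpace
    (t₀.1 pt) (t₁.1 pt)
  -- restriction of the family to a `K`-point
  have key : ∀ tt : SchemeHomOver (𝟙 (Spec (CommRingCat.of K))) h,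
      Nonempty ((Scheme.Modules.pullback (baseChangeSnd c (pointOver t s h tt))).obj Lfam ≅
        (Scheme.Modules.pullback (fibreComparison t s)).obj
          ((Scheme.Modules.pullback (baseChangeSnd (fibreAt c t s) tt)).obj Mfam)) := fun tt =>
    ⟨(Scheme.Modules.pullbackComp _ _).app Mfam ≪≫
      (Scheme.Modules.pullbackCongr (comparison_square t s h tt)).app Mfam ≪≫
      ((Scheme.Modules.pullbackComp _ _).app Mfam).symm⟩
  -- at `t₀`
  have h0 : χ.chi (h ≫ (s ≫ t)) Lfam (t₀.1 pt) = χ.chi0 := by
    have := χ.chi_pullback (pointOver t s h t₀) Lfam hLfam pt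
    rw [show (pointOver t s h t₀).1 = t₀.1 from rfl] at this
    rw [← this]
    obtain ⟨e⟩ := key t₀
    rw [χ.chi_iso (s ≫ t) _ (SheafOfModules.unit _) (hLfam.pullback _)
      ⟨e ≪≫ (Scheme.Modules.pullback (fibreComparison t s)).mapIso e₀ ≪≫
        Scheme.Modules.pullbackUnitIso _⟩]
    exact χ.chi_unit _ _
  -- at `t₁`
  have h1 : χ.chi (h ≫ (s ≫ t)) Lfam (t₁.1 pt) = χ.chi t L (s pt) := by
    have := χ.chi_pullback (pointOver t s h t₁) Lfam hLfam pt
    rw [show (pointOver t s h t₁).1 = t₁.1 from rfl] at this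
    rw [← this]
    obtain ⟨e⟩ := key t₁
    rw [χ.chi_iso (s ≫ t) _
      ((Scheme.Modules.pullback (baseChangeSnd c (⟨s, rfl⟩ : SchemeHomOver (s ≫ t) t))).obj L)
      (hLfam.pullback _)
      ⟨e ≪≫ (Scheme.Modules.pullback (fibreComparison t s)).mapIso e₁ ≪≫
        (Scheme.Modules.pullback (fibreComparison t s)).mapIso
          ((Scheme.Modules.pullbackComp _ _).app L) ≪≫
        (Scheme.Modules.pullbackComp _ _).app L ≪≫
        (Scheme.Modules.pullbackCongr (comparison_fst t s)).app L⟩]
    exact χ.chi_pullback (⟨s, rfl⟩ : SchemeHomOver (s ≫ t) t) L hL pt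
  rw [← h1, ← hconst, h0]

/-- **B2.i (abstract form).**  A rigidified line bundle in the frozen cut
(`FibrewiseAlgEquivZero`) has Euler characteristic `chi0` at every point of the base, for any
`ChiTheory`. -/
theorem chi_eq_of_fibrewiseAlgEquivZero {ε : SchemeHomOver (𝟙 (Spec (CommRingCat.of k))) c}
    (M : RigidifiedLineBundle c ε t) (hM : FibrewiseAlgEquivZero M) (y : T) :
    χ.chi t M.L y = χ.chi0 := by
  let K := AlgebraicClosure (T.residueField y)
  let s : Spec (CommRingCat.of K) ⟶ T :=
    Spec.map (CommRingCat.ofHom (algebraMap (T.residueField y) K)) ≫ T.fromSpecResidueField y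
  obtain ⟨pt⟩ : Nonempty (Spec (CommRingCat.of K)) := inferInstance
  have hpt : s pt = y := by
    simp only [s, Scheme.Hom.comp_apply]
    exact Scheme.fromSpecResidueField_apply _ _
  rw [← hpt]
  exact chi_eq_of_isAlgEquivZero χ t M.L M.isInvertible s (hM K s) pt

/-- Field-valued-point form of B2.i: for every field `K` and `s : Spec K ⟶ T`, the pulled back
bundle on `C ×ₖ Spec K` has Euler characteristic `chi0`. -/
theorem chi_pullback_eq_of_fibrewiseAlgEquivZero
    {ε : SchemeHomOver (𝟙 (Spec (CommRingCat.of k))) c}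
    (M : RigidifiedLineBundle c ε t) (hM : FibrewiseAlgEquivZero M) {K : Type u} [Field K]
    (s : Spec (CommRingCat.of K) ⟶ T) (pt : Spec (CommRingCat.of K)) :
    χ.chi (s ≫ t) ((Scheme.Modules.pullback
      (baseChangeSnd c (⟨s, rfl⟩ : SchemeHomOver (s ≫ t) t))).obj M.L) pt = χ.chi0 := by
  rw [χ.chi_pullback (⟨s, rfl⟩ : SchemeHomOver (s ≫ t) t) M.L M.isInvertible pt]
  exact chi_eq_of_fibrewiseAlgEquivZero χ t M hM _

end Main

end Fermat.Agent.Jac.CutDeg36
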