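/-
Fermat/Agent/Jac/RepInterface.lean  (helper41)

Interface of the representability layer of the S25 programme.

* `ClassesIsSheaf c ε` : isomorphism classes of rigidified line bundles form a Zariski sheaf
  (target of brick R1; uses M1a/M1b + the dictionary on affine test schemes).
* `ChartPackage c ε P` : a family of "charts" of the sub-functor cut out by `P`
  (target of brick R2 for `P` the Euler-characteristic cut; uses the algebra bricks).
* Theorem R (file `RepTheorem.lean`, brick R3):
    `ClassesIsSheaf c ε → P.IsLocal → ChartPackage c ε P → ∃ D, Nonempty (RepresentsRelSubPic c ε P D)`.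
-/
import Mathlib
import Fermat.Prelude.Def_AlgebraicGeometry_RepresentsRelSubPic

set_option autoImplicit false

open CategoryTheory CategoryTheory.Limits AlgebraicGeometry AlgebraicGeometry.RelPicard
open NeronModelInfra GoodReductionJacobian

universe u

noncomputable section

namespace Fermat.Agent.Jac

variable {k : Type u} [Field k] {C : Scheme.{u}} {c : C ⟶ Spec (CommRingCat.of k)}
  {ε : SchemeHomOver (𝟙 (Spec (CommRingCat.of k))) c}

/-- The inclusion of an open subscheme of the base, as a morphism over `Spec k`. -/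
def openIncl {T : Scheme.{u}} (t : T ⟶ Spec (CommRingCat.of k)) (U : T.Opens) :
    SchemeHomOver (U.ι ≫ t) t :=
  ⟨U.ι, rfl⟩

/-- The inclusion `V ⟶ U` of open subschemes for `V ≤ U`, as a morphism over `Spec k`. -/
def openInclLE {T : Scheme.{u}} (t : T ⟶ Spec (CommRingCat.of k)) {V U : T.Opens} (h : V ≤ U) :
    SchemeHomOver (V.ι ≫ t) (U.ι ≫ t) :=
  ⟨T.homOfLE h, by rw [← Category.assoc, Scheme.homOfLE_ι]⟩

/-- Restriction of a rigidified line bundle on `C × T` to `C × U`, `U ⊆ T` open. -/
def restrictOpen {T : Scheme.{u}} {t : T ⟶ Spec (CommRingCat.of k)}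
    (M : RigidifiedLineBundle c ε t) (U : T.Opens) : RigidifiedLineBundle c ε (U.ι ≫ t) :=
  M.pullbackAlong (openIncl t U)

/-- Isomorphism classes of rigidified line bundles on `C × T` form a Zariski sheaf in `T`. -/
structure ClassesIsSheaf (c : C ⟶ Spec (CommRingCat.of k))
    (ε : SchemeHomOver (𝟙 (Spec (CommRingCat.of k))) c) : Prop where
  /-- the classes over a fixed base form a `u`-small type -/
  small : ∀ {T : Scheme.{u}} (t : T ⟶ Spec (CommRingCat.of k)),
    Small.{u} (RigidifiedLineBundle.Classes c ε t)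
  /-- locally isomorphic rigidified bundles are isomorphic -/
  sep : ∀ {T : Scheme.{u}} (t : T ⟶ Spec (CommRingCat.of k)) (M M' : RigidifiedLineBundle c ε t)
    {ι : Type u} (U : ι → T.Opens), (⨆ i, U i = ⊤) →
    (∀ i, Nonempty ((restrictOpen M (U i)).L ≅ (restrictOpen M' (U i)).L)) → Nonempty (M.L ≅ M'.L)
  /-- compatible local classes glue -/
  glue : ∀ {T : Scheme.{u}} (t : T ⟶ Spec (CommRingCat.of k)) {ι : Type u} (U : ι → T.Opens),
    (⨆ i, U i = ⊤) → ∀ (M : ∀ i, RigidifiedLineBundle c ε ((U i).ι ≫ t)),
    (∀ i j, Nonempty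
      (((M i).pullbackAlong (openInclLE t (inf_le_left : U i ⊓ U j ≤ U i))).L ≅
        ((M j).pullbackAlong (openInclLE t (inf_le_right : U i ⊓ U j ≤ U j))).L)) →
    ∃ M₀ : RigidifiedLineBundle c ε t, ∀ i, Nonempty ((restrictOpen M₀ (U i)).L ≅ (M i).L)

/-- A sub-Picard condition is Zariski local on the base. -/
def IsLocalCondition (P : SubPicCondition c ε) : Prop :=
  ∀ {T : Scheme.{u}} (t : T ⟶ Spec (CommRingCat.of k)) (M : RigidifiedLineBundle c ε t)
    {ι : Type u} (U : ι → T.Opens), (⨆ i, U i = ⊤) →
    (∀ i, P.P ((U i).ι ≫ t) (restrictOpen M (U i))) → P.P t M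

/-- A family of charts for the functor of rigidified line bundles satisfying `P`. -/
structure ChartPackage (c : C ⟶ Spec (CommRingCat.of k))
    (ε : SchemeHomOver (𝟙 (Spec (CommRingCat.of k))) c) (P : SubPicCondition c ε) where
  /-- index set of the charts -/
  ι : Type u
  /-- the charts -/
  X : ι → Scheme.{u}
  x : ∀ i, X i ⟶ Spec (CommRingCat.of k)
  /-- the universal bundle over each chart -/
  bundle : ∀ i, RigidifiedLineBundle c ε (x i)
  bundle_mem : ∀ i, P.P (x i) (bundle i)
  /-- the open locus of the base where `M` is classified by the chart `i` -/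
  locus : ∀ (_ : ι) {T : Scheme.{u}} (t : T ⟶ Spec (CommRingCat.of k))
    (M : RigidifiedLineBundle c ε t), P.P t M → T.Opens
  /-- the classifying morphism on that locus -/
  classify : ∀ (i : ι) {T : Scheme.{u}} (t : T ⟶ Spec (CommRingCat.of k))
    (M : RigidifiedLineBundle c ε t) (h : P.P t M),
    SchemeHomOver ((locus i t M h).ι ≫ t) (x i)
  classify_iso : ∀ (i : ι) {T : Scheme.{u}} (t : T ⟶ Spec (CommRingCat.of k))
    (M : RigidifiedLineBundle c ε t) (h : P.P t M),
    Nonempty (((bundle i).pullbackAlong (classify i t M h)).L ≅ (restrictOpen M (locus i t M h)).L)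
  /-- universality of the locus and of the classifying morphism -/
  universal : ∀ (i : ι) {T : Scheme.{u}} (t : T ⟶ Spec (CommRingCat.of k))
    (M : RigidifiedLineBundle c ε t) (h : P.P t M) {T' : Scheme.{u}}
    (t' : T' ⟶ Spec (CommRingCat.of k)) (φ : SchemeHomOver t' t) (y : SchemeHomOver t' (x i)),
    Nonempty (((bundle i).pullbackAlong y).L ≅ (M.pullbackAlong φ).L) →
    ∃ φ' : T' ⟶ (locus i t M h).toScheme,
      φ' ≫ (locus i t M h).ι = φ.1 ∧ φ' ≫ (classify i t M h).1 = y.1
  /-- the loci cover the base -/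
  cover : ∀ {T : Scheme.{u}} (t : T ⟶ Spec (CommRingCat.of k)) (M : RigidifiedLineBundle c ε t)
    (h : P.P t M), ⨆ i, locus i t M h = ⊤

/-- Two sub-Picard conditions with the same underlying predicate. -/
def SameCondition (P P' : SubPicCondition c ε) : Prop :=
  ∀ {T : Scheme.{u}} (t : T ⟶ Spec (CommRingCat.of k)) (M : RigidifiedLineBundle c ε t),
    P.P t M ↔ P'.P t M

/-- Representability only depends on the underlying predicate of the condition. -/
def RepresentsRelSubPic.ofSameCondition {P P' : SubPicCondition c ε} (h : SameCondition P P')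
    {D : RelativePic0Designation k c} (r : RepresentsRelSubPic c ε P D) :
    RepresentsRelSubPic c ε P' D where
  poincare := r.poincare
  poincare_mem := (h _ _).1 r.poincare_mem
  univ := fun t M hM => r.univ t M ((h _ _).2 hM)
  zero := r.zero

end Fermat.Agent.Jac
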