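/-
JAC programme, brick B2 (helper36): the Euler-characteristic cut attached to a `ChiTheory`.

For a `ChiTheory χ` (file `CutDeg36.lean`) the condition "`χ = χ0` at every point of the base" is a
`SubPicCondition`.  It is Zariski-local on the base and it contains the frozen cut
`FibrewiseAlgEquivZero` (this is the hypothesis `hP` of `FinalShell79`).
-/
import Mathlib
import Fermat.Agent.Jac.CutDeg36
import Fermat.Agent.Jac.RepInterface

set_option autoImplicit false

namespace Fermat.Agent.Jac.ChiCut36

open CategoryTheory CategoryTheory.Limits AlgebraicGeometry AlgebraicGeometry.RelPicard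
  NeronModelInfra GoodReductionJacobian Fermat.Agent.Jac.CutDeg36

universe u

variable {k : Type u} [Field k] {C : Scheme.{u}} {c : C ⟶ Spec (CommRingCat.of k)}

/-- The Euler-characteristic cut: `χ = χ0` at every point of the base. -/
def cut (χ : ChiTheory c) (ε : SchemeHomOver (𝟙 (Spec (CommRingCat.of k))) c) :
    SubPicCondition c ε where
  P := fun {T} t M => ∀ y : T, χ.chi t M.L y = χ.chi0
  unit_mem := fun t y => χ.chi_unit t y
  congr := fun t M M' e h y => by
    rw [← χ.chi_iso t M.L M'.L M.isInvertible e]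
    exact h y
  pullback_mem := fun t t' ψ M h y => by
    show χ.chi t' ((Scheme.Modules.pullback (baseChangeSnd c ψ)).obj M.L) y = χ.chi0
    rw [χ.chi_pullback ψ M.L M.isInvertible y]
    exact h _

variable (χ : ChiTheory c) (ε : SchemeHomOver (𝟙 (Spec (CommRingCat.of k))) c)

theorem cut_iff {T : Scheme.{u}} (t : T ⟶ Spec (CommRingCat.of k))
    (M : RigidifiedLineBundle c ε t) :
    (cut χ ε).P t M ↔ ∀ y : T, χ.chi t M.L y = χ.chi0 := Iff.rfl

/-- The Euler-characteristic cut is Zariski-local on the base. -/
theorem isLocalCondition_cut : IsLocalCondition (cut χ ε) := by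
  intro T t M ι U hU h y
  have hy : y ∈ (⨆ i, U i : T.Opens) := by rw [hU]; trivial
  obtain ⟨i, hi⟩ := TopologicalSpace.Opens.mem_iSup.mp hy
  have h1 := h i ⟨y, hi⟩
  have h2 := χ.chi_pullback (openIncl t (U i)) M.L M.isInvertible ⟨y, hi⟩
  have h3 : (restrictOpen M (U i)).L =
      (Scheme.Modules.pullback (baseChangeSnd c (openIncl t (U i)))).obj M.L := rfl
  rw [h3, h2] at h1
  exact h1

/-- **B2.i**: the frozen cut is contained in the Euler-characteristic cut (hypothesis `hP` of the
final shell). -/
theorem cut_of_fibrewiseAlgEquivZero {T : Scheme.{u}} (t : T ⟶ Spec (CommRingCat.of k))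
    (M : RigidifiedLineBundle c ε t) (hM : FibrewiseAlgEquivZero M) : (cut χ ε).P t M :=
  fun y => chi_eq_of_fibrewiseAlgEquivZero χ t M hM y

/-- Field-valued-point form of the cut. -/
theorem cut_iff_forall_field {T : Scheme.{u}} (t : T ⟶ Spec (CommRingCat.of k))
    (M : RigidifiedLineBundle c ε t) :
    (cut χ ε).P t M ↔ ∀ (K : Type u) [Field K] (s : Spec (CommRingCat.of K) ⟶ T)
      (pt : Spec (CommRingCat.of K)),
      χ.chi (s ≫ t) ((Scheme.Modules.pullback
        (baseChangeSnd c (⟨s, rfl⟩ : SchemeHomOver (s ≫ t) t))).obj M.L) pt = χ.chi0 := by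
  constructor
  · intro h K _ s pt
    rw [χ.chi_pullback (⟨s, rfl⟩ : SchemeHomOver (s ≫ t) t) M.L M.isInvertible pt]
    exact h _
  · intro h y
    let s : Spec (CommRingCat.of (T.residueField y)) ⟶ T := T.fromSpecResidueField y
    obtain ⟨pt⟩ : Nonempty (Spec (CommRingCat.of (T.residueField y))) := inferInstance
    have hpt : s pt = y := Scheme.fromSpecResidueField_apply _ _
    have := h (T.residueField y) s pt
    rw [χ.chi_pullback (⟨s, rfl⟩ : SchemeHomOver (s ≫ t) t) M.L M.isInvertible pt] at this
    rw [← hpt]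
    exact this

end Fermat.Agent.Jac.ChiCut36
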