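/-
JAC programme, brick B2 (helper36): from affine Euler-characteristic data to a `ChiTheory`.

`AffChi c` packages what the dictionary (B1b) + `P1CohChi` (A1c) + base change (BC) provide on
AFFINE test schemes `Spec A`, `A` a `k`-algebra: an integer valued function `chiA A L` on
`PrimeSpectrum A` for every (invertible) sheaf `L` on `C_A = pullback c (specStr A)`, invariant under
isomorphisms, natural in `A`, locally constant, and constant on the structure sheaf.

`AffChi.toChiTheory` extends it to all base schemes through residue fields, and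
`AffChi.chi_affine` identifies the result on affine bases.
-/
import Mathlib
import Fermat.Agent.Jac.ChiCut36
import Fermat.Agent.Jac.BridgeCharts33Nat

set_option autoImplicit false
set_option linter.style.haveILetI false

noncomputable section

namespace Fermat.Agent.Jac.ChiAffine36

open CategoryTheory CategoryTheory.Limits AlgebraicGeometry AlgebraicGeometry.RelPicard
  NeronModelInfra Fermat.Agent.Jac.CutDeg36 Fermat.Agent.Jac.BridgeCharts33

universe u

variable {k : Type u} [Field k] {C : Scheme.{u}}

/-- Euler-characteristic data on affine test schemes. -/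
structure AffChi (c : C ⟶ Spec (CommRingCat.of k)) where
  /-- `chiA A L p`: Euler characteristic of `L` on the fibre of `C_A` over the prime `p`. -/
  chiA : ∀ (A : Type u) [CommRing A] [Algebra k A], (XA c A).Modules → PrimeSpectrum A → ℤ
  /-- the Euler characteristic of the structure sheaf -/
  chi0 : ℤ
  chiA_iso : ∀ (A : Type u) [CommRing A] [Algebra k A] (L L' : (XA c A).Modules),
    Scheme.Modules.IsInvertible L → Nonempty (L ≅ L') → chiA A L = chiA A L'
  chiA_map : ∀ {A A' : Type u} [CommRing A] [Algebra k A] [CommRing A'] [Algebra k A']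
    (ψ : A →ₐ[k] A') (L : (XA c A).Modules), Scheme.Modules.IsInvertible L →
    ∀ p' : PrimeSpectrum A',
      chiA A' ((Scheme.Modules.pullback (bcs c ψ)).obj L) p' =
        chiA A L (PrimeSpectrum.comap ψ.toRingHom p')
  chiA_lc : ∀ (A : Type u) [CommRing A] [Algebra k A] (L : (XA c A).Modules),
    Scheme.Modules.IsInvertible L → IsLocallyConstant (chiA A L)
  chiA_unit : ∀ (A : Type u) [CommRing A] [Algebra k A] (p : PrimeSpectrum A),
    chiA A (SheafOfModules.unit (XA c A).ringCatSheaf) p = chi0

section Pullbacks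

/-- Iterated pullbacks along the two sides of a commutative square are isomorphic. -/
def pullbackSquareIso {X Y Y' Z : Scheme.{u}} (f : X ⟶ Y) (g : Y ⟶ Z) (f' : X ⟶ Y') (g' : Y' ⟶ Z)
    (h : f ≫ g = f' ≫ g') (L : Z.Modules) :
    (Scheme.Modules.pullback f).obj ((Scheme.Modules.pullback g).obj L) ≅
      (Scheme.Modules.pullback f').obj ((Scheme.Modules.pullback g').obj L) :=
  (Scheme.Modules.pullbackComp f g).app L ≪≫ (Scheme.Modules.pullbackCongr h).app L ≪≫
    ((Scheme.Modules.pullbackComp f' g').app L).symm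

/-- Iterated pullback along a commutative triangle. -/
def pullbackTriangleIso {X Y Z : Scheme.{u}} (f : X ⟶ Y) (g : Y ⟶ Z) (e : X ⟶ Z)
    (h : f ≫ g = e) (L : Z.Modules) :
    (Scheme.Modules.pullback f).obj ((Scheme.Modules.pullback g).obj L) ≅
      (Scheme.Modules.pullback e).obj L :=
  (Scheme.Modules.pullbackComp f g).app L ≪≫ (Scheme.Modules.pullbackCongr h).app L

/-- Pullback along a morphism equal to the identity. -/
def pullbackEqIdIso {X : Scheme.{u}} (f : X ⟶ X) (h : f = 𝟙 X) (L : X.Modules) :
    (Scheme.Modules.pullback f).obj L ≅ L :=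
  (Scheme.Modules.pullbackCongr h).app L ≪≫ (Scheme.Modules.pullbackId X).app L

end Pullbacks

section AlgOfHom

variable {A : Type u} [CommRing A] (σ : Spec (CommRingCat.of A) ⟶ Spec (CommRingCat.of k))

/-- The `k`-algebra structure on `A` induced by a morphism `Spec A ⟶ Spec k`. -/
@[reducible] def algOfHom : Algebra k A := (Spec.preimage σ).hom.toAlgebra

theorem specStr_algOfHom : @specStr k _ A _ (algOfHom σ) = σ := by
  unfold specStr
  exact Spec.map_preimage σ

/-- The identity of `Spec A`, from the structure morphism `specStr A` to `σ`. -/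
def idOver : SchemeHomOver (@specStr k _ A _ (algOfHom σ)) σ :=
  ⟨𝟙 _, (Category.id_comp _).trans (specStr_algOfHom σ).symm⟩

end AlgOfHom

variable {c : C ⟶ Spec (CommRingCat.of k)} (χ : AffChi c)

section ChiGen

variable {A : Type u} [CommRing A] (σ : Spec (CommRingCat.of A) ⟶ Spec (CommRingCat.of k))

/-- The Euler characteristic over an affine base with an arbitrary structure morphism. -/
def chiGen (L : (pullback c σ).Modules) (p : PrimeSpectrum A) : ℤ :=
  @AffChi.chiA k _ C c χ A _ (algOfHom σ)
    ((Scheme.Modules.pullback (baseChangeSnd c (idOver σ))).obj L) p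

theorem chiGen_iso (L L' : (pullback c σ).Modules) (hL : Scheme.Modules.IsInvertible L)
    (e : Nonempty (L ≅ L')) : chiGen χ σ L = chiGen χ σ L' := by
  funext p
  unfold chiGen
  rw [@AffChi.chiA_iso k _ C c χ A _ (algOfHom σ) _
    ((Scheme.Modules.pullback (baseChangeSnd c (idOver σ))).obj L') (hL.pullback _)
    ⟨(Scheme.Modules.pullback (baseChangeSnd c (idOver σ))).mapIso e.some⟩]

theorem chiGen_lc (L : (pullback c σ).Modules) (hL : Scheme.Modules.IsInvertible L) :
    IsLocallyConstant (chiGen χ σ L) :=
  @AffChi.chiA_lc k _ C c χ A _ (algOfHom σ) _ (hL.pullback _)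

theorem chiGen_unit (p : PrimeSpectrum A) :
    chiGen χ σ (SheafOfModules.unit (pullback c σ).ringCatSheaf) p = χ.chi0 := by
  unfold chiGen
  rw [@AffChi.chiA_iso k _ C c χ A _ (algOfHom σ) _
    (SheafOfModules.unit _) ((Scheme.Modules.isInvertible_unit _).pullback _)
    ⟨Scheme.Modules.pullbackUnitIso _⟩]
  exact @AffChi.chiA_unit k _ C c χ A _ (algOfHom σ) p

end ChiGen

section Key

variable {A A' : Type u} [CommRing A] [CommRing A']

/-- Key comparison: `chiGen` over `σ'` of a pullback from `C_A`, for a `k`-algebra `A`. -/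
theorem chiGen_of_algebra [Algebra k A]
    (σ' : Spec (CommRingCat.of A') ⟶ Spec (CommRingCat.of k)) (f : A →+* A')
    (h : Spec.map (CommRingCat.ofHom f) ≫ specStr (k := k) A = σ')
    (L : (XA c A).Modules) (hL : Scheme.Modules.IsInvertible L) (p' : PrimeSpectrum A') :
    chiGen χ σ' ((Scheme.Modules.pullback
      (baseChangeSnd c (⟨Spec.map (CommRingCat.ofHom f), h⟩ :
        SchemeHomOver σ' (specStr (k := k) A)))).obj L) p' =
      χ.chiA A L (PrimeSpectrum.comap f p') := by
  letI := algOfHom σ'
  have hpre : Spec.preimage σ' = CommRingCat.ofHom (algebraMap k A) ≫ CommRingCat.ofHom f := by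
    apply Spec.map_injective
    rw [Spec.map_preimage, Spec.map_comp]
    exact h.symm
  let ψ : A →ₐ[k] A' :=
    { f with
      commutes' := fun r => by
        show f (algebraMap k A r) = (Spec.preimage σ').hom r
        rw [hpre]
        rfl }
  have hψ : χ.chiA A' ((Scheme.Modules.pullback (bcs c ψ)).obj L) p' =
      χ.chiA A L (PrimeSpectrum.comap ψ.toRingHom p') := χ.chiA_map ψ L hL p'
  have hf : ψ.toRingHom = f := rfl
  rw [hf] at hψ
  rw [← hψ]
  unfold chiGen
  refine congrFun (χ.chiA_iso A' _ _ ((hL.pullback _).pullback _) ⟨?_⟩) p'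
  refine pullbackTriangleIso _ _ _ ?_ L
  rw [baseChangeSnd_comp]
  rfl

/-- Naturality of `chiGen` along a morphism of affine schemes over `Spec k`. -/
theorem chiGen_map (σ : Spec (CommRingCat.of A) ⟶ Spec (CommRingCat.of k))
    (σ' : Spec (CommRingCat.of A') ⟶ Spec (CommRingCat.of k)) (f : A →+* A')
    (h : Spec.map (CommRingCat.ofHom f) ≫ σ = σ')
    (L : (pullback c σ).Modules) (hL : Scheme.Modules.IsInvertible L) (p' : PrimeSpectrum A') :
    chiGen χ σ' ((Scheme.Modules.pullback
      (baseChangeSnd c (⟨Spec.map (CommRingCat.ofHom f), h⟩ : SchemeHomOver σ' σ))).obj L) p' =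
      chiGen χ σ L (PrimeSpectrum.comap f p') := by
  letI := algOfHom σ
  have h' : Spec.map (CommRingCat.ofHom f) ≫ specStr (k := k) A = σ' := by
    rw [specStr_algOfHom σ]; exact h
  have key := chiGen_of_algebra χ σ' f h'
    ((Scheme.Modules.pullback (baseChangeSnd c (idOver σ))).obj L) (hL.pullback _) p'
  rw [show chiGen χ σ L (PrimeSpectrum.comap f p') =
    χ.chiA A ((Scheme.Modules.pullback (baseChangeSnd c (idOver σ))).obj L)
      (PrimeSpectrum.comap f p') from rfl, ← key]
  refine congrFun (chiGen_iso χ σ' _ _ (hL.pullback _) ⟨?_⟩) p'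
  refine (pullbackTriangleIso _ _ _ ?_ L).symm
  rw [baseChangeSnd_comp]
  congr 1

/-- Over `specStr A`, `chiGen` is the given affine Euler characteristic. -/
theorem chiGen_specStr [Algebra k A] (L : (XA c A).Modules) (hL : Scheme.Modules.IsInvertible L)
    (p : PrimeSpectrum A) : chiGen χ (specStr (k := k) A) L p = χ.chiA A L p := by
  have h : Spec.map (CommRingCat.ofHom (RingHom.id A)) ≫ specStr (k := k) A = specStr A := by
    rw [show CommRingCat.ofHom (RingHom.id A) = 𝟙 (CommRingCat.of A) from rfl, Spec.map_id,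
      Category.id_comp]
  have key := chiGen_of_algebra χ (specStr (k := k) A) (RingHom.id A) h L hL p
  rw [show PrimeSpectrum.comap (RingHom.id A) p = p from rfl] at key
  rw [← key]
  refine congrFun (chiGen_iso χ _ _ _ hL ⟨?_⟩) p
  refine (pullbackEqIdIso _ ?_ L).symm
  rw [← baseChangeSnd_id c (specStr (k := k) A)]
  congr 1
  apply Subtype.ext
  show Spec.map (CommRingCat.ofHom (RingHom.id A)) = 𝟙 _
  rw [show CommRingCat.ofHom (RingHom.id A) = 𝟙 (CommRingCat.of A) from rfl, Spec.map_id]

end Key

section Cat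

/-- `chiGen` for a ring given as an object of `CommRingCat`. -/
def chiCat (K : CommRingCat.{u}) (σ : Spec K ⟶ Spec (CommRingCat.of k))
    (L : (pullback c σ).Modules) (p : PrimeSpectrum K) : ℤ :=
  @chiGen k _ C c χ K K.commRing σ L p

theorem chiCat_iso (K : CommRingCat.{u}) (σ : Spec K ⟶ Spec (CommRingCat.of k))
    (L L' : (pullback c σ).Modules) (hL : Scheme.Modules.IsInvertible L)
    (e : Nonempty (L ≅ L')) : chiCat χ K σ L = chiCat χ K σ L' :=
  @chiGen_iso k _ C c χ K K.commRing σ L L' hL e

theorem chiCat_lc (K : CommRingCat.{u}) (σ : Spec K ⟶ Spec (CommRingCat.of k))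
    (L : (pullback c σ).Modules) (hL : Scheme.Modules.IsInvertible L) :
    IsLocallyConstant (chiCat χ K σ L) :=
  @chiGen_lc k _ C c χ K K.commRing σ L hL

theorem chiCat_unit (K : CommRingCat.{u}) (σ : Spec K ⟶ Spec (CommRingCat.of k))
    (p : PrimeSpectrum K) :
    chiCat χ K σ (SheafOfModules.unit (pullback c σ).ringCatSheaf) p = χ.chi0 :=
  @chiGen_unit k _ C c χ K K.commRing σ p

theorem chiCat_map {K K' : CommRingCat.{u}} (σ : Spec K ⟶ Spec (CommRingCat.of k))
    (σ' : Spec K' ⟶ Spec (CommRingCat.of k)) (f : K ⟶ K') (h : Spec.map f ≫ σ = σ')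
    (L : (pullback c σ).Modules) (hL : Scheme.Modules.IsInvertible L) (p' : PrimeSpectrum K') :
    chiCat χ K' σ' ((Scheme.Modules.pullback
      (baseChangeSnd c (⟨Spec.map f, h⟩ : SchemeHomOver σ' σ))).obj L) p' =
      chiCat χ K σ L (PrimeSpectrum.comap f.hom p') :=
  @chiGen_map k _ C c χ K K' K.commRing K'.commRing σ σ' f.hom h L hL p'

end Cat

section Theory

/-- The point `Spec κ(y) ⟶ T` as a morphism over `Spec k`. -/
def residuePoint {T : Scheme.{u}} (t : T ⟶ Spec (CommRingCat.of k)) (y : T) :
    SchemeHomOver (T.fromSpecResidueField y ≫ t) t :=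
  ⟨T.fromSpecResidueField y, rfl⟩

/-- The unique point of the spectrum of a residue field. -/
def resPt {T : Scheme.{u}} (y : T) : PrimeSpectrum (T.residueField y) :=
  @default (PrimeSpectrum (IsLocalRing.ResidueField (T.presheaf.stalk y))) inferInstance

theorem eq_resPt {T : Scheme.{u}} (y : T) (q : PrimeSpectrum (T.residueField y)) : q = resPt y :=
  @Subsingleton.elim (PrimeSpectrum (IsLocalRing.ResidueField (T.presheaf.stalk y)))
    inferInstance q (resPt y)

/-- The Euler characteristic of `L` at a point `y` of an arbitrary base, computed on the fibre over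
the residue field of `y`. -/
def chi {T : Scheme.{u}} (t : T ⟶ Spec (CommRingCat.of k)) (L : (pullback c t).Modules) (y : T) :
    ℤ :=
  chiCat χ (T.residueField y) (T.fromSpecResidueField y ≫ t)
    ((Scheme.Modules.pullback (baseChangeSnd c (residuePoint t y))).obj L) (resPt y)

theorem chi_iso {T : Scheme.{u}} (t : T ⟶ Spec (CommRingCat.of k)) (L L' : (pullback c t).Modules)
    (hL : Scheme.Modules.IsInvertible L) (e : Nonempty (L ≅ L')) : chi χ t L = chi χ t L' := by
  funext y
  unfold chi
  exact congrFun (chiCat_iso χ _ _ _ _ (hL.pullback _)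
    ⟨(Scheme.Modules.pullback (baseChangeSnd c (residuePoint t y))).mapIso e.some⟩) (resPt y)

theorem chi_unit {T : Scheme.{u}} (t : T ⟶ Spec (CommRingCat.of k)) (y : T) :
    chi χ t (SheafOfModules.unit (pullback c t).ringCatSheaf) y = χ.chi0 := by
  unfold chi
  rw [chiCat_iso χ _ _ _ (SheafOfModules.unit _) ((Scheme.Modules.isInvertible_unit _).pullback _)
    ⟨Scheme.Modules.pullbackUnitIso _⟩]
  exact chiCat_unit χ _ _ _

theorem chi_pullback {T T' : Scheme.{u}} {t : T ⟶ Spec (CommRingCat.of k)}
    {t' : T' ⟶ Spec (CommRingCat.of k)} (ψ : SchemeHomOver t' t) (L : (pullback c t).Modules)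
    (hL : Scheme.Modules.IsInvertible L) (y' : T') :
    chi χ t' ((Scheme.Modules.pullback (baseChangeSnd c ψ)).obj L) y' = chi χ t L (ψ.1 y') := by
  have hj : Spec.map (ψ.1.residueFieldMap y') ≫ T.fromSpecResidueField (ψ.1 y') =
      T'.fromSpecResidueField y' ≫ ψ.1 :=
    Scheme.Hom.SpecMap_residueFieldMap_fromSpecResidueField ψ.1 y'
  have h : Spec.map (ψ.1.residueFieldMap y') ≫
      (T.fromSpecResidueField (ψ.1 y') ≫ t) = T'.fromSpecResidueField y' ≫ t' := by
    rw [← Category.assoc, hj, Category.assoc, ψ.2]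
  have key := chiCat_map χ (T.fromSpecResidueField (ψ.1 y') ≫ t) (T'.fromSpecResidueField y' ≫ t')
    (ψ.1.residueFieldMap y') h
    ((Scheme.Modules.pullback (baseChangeSnd c (residuePoint t (ψ.1 y')))).obj L)
    (hL.pullback _) (resPt y')
  rw [eq_resPt _ (PrimeSpectrum.comap (ψ.1.residueFieldMap y').hom (resPt y'))] at key
  unfold chi
  rw [← key]
  refine congrFun (chiCat_iso χ _ _ _ _ ((hL.pullback _).pullback _) ⟨?_⟩) (resPt y')
  refine pullbackSquareIso _ _ _ _ ?_ L
  rw [baseChangeSnd_comp, baseChangeSnd_comp]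
  congr 1
  apply Subtype.ext
  exact hj.symm

/-- Over an affine base, `chi` is `chiCat`. -/
theorem chi_eq_chiCat (A : CommRingCat.{u}) (t : Spec A ⟶ Spec (CommRingCat.of k))
    (L : (pullback c t).Modules) (hL : Scheme.Modules.IsInvertible L) (p : Spec A) :
    chi χ t L p = chiCat χ A t L p := by
  have hf : Spec.map (Spec.preimage ((Spec A).fromSpecResidueField p)) =
      (Spec A).fromSpecResidueField p := Spec.map_preimage _
  have h : Spec.map (Spec.preimage ((Spec A).fromSpecResidueField p)) ≫ t =
      (Spec A).fromSpecResidueField p ≫ t := by rw [hf]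
  have key := chiCat_map χ t ((Spec A).fromSpecResidueField p ≫ t)
    (Spec.preimage ((Spec A).fromSpecResidueField p)) h L hL (resPt p)
  have e : (⟨Spec.map (Spec.preimage ((Spec A).fromSpecResidueField p)), h⟩ :
      SchemeHomOver ((Spec A).fromSpecResidueField p ≫ t) t) = residuePoint t p :=
    Subtype.ext hf
  rw [e] at key
  unfold chi
  rw [key]
  congr 1
  have h1 : (Spec A).fromSpecResidueField p (resPt p) = p :=
    Scheme.fromSpecResidueField_apply _ _
  rw [← hf] at h1
  exact h1

variable (c) in
/-- The `ChiTheory` attached to affine Euler-characteristic data. -/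
def AffChi.toChiTheory : ChiTheory c :=
  ChiTheory.ofAffine (chi χ) χ.chi0 (chi_iso χ) (chi_pullback χ)
    (fun A t L hL => by
      have : chi χ t L = chiCat χ A t L := funext fun p => chi_eq_chiCat χ A t L hL p
      rw [this]
      exact chiCat_lc χ A t L hL)
    (chi_unit χ)

theorem AffChi.toChiTheory_chi0 : (χ.toChiTheory c).chi0 = χ.chi0 := rfl

/-- On the affine test scheme `Spec A` of a `k`-algebra `A`, the theory is the given one. -/
theorem AffChi.chi_affine (A : Type u) [CommRing A] [Algebra k A] (L : (XA c A).Modules)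
    (hL : Scheme.Modules.IsInvertible L) (p : PrimeSpectrum A) :
    (χ.toChiTheory c).chi (specStr (k := k) A) L p = χ.chiA A L p := by
  show chi χ (specStr (k := k) A) L p = χ.chiA A L p
  rw [chi_eq_chiCat χ (CommRingCat.of A) (specStr (k := k) A) L hL p]
  exact chiGen_specStr χ L hL p

/-- The Euler-characteristic cut on an affine test scheme, in terms of the affine data. -/
theorem AffChi.cut_affine_iff (ε : SchemeHomOver (𝟙 (Spec (CommRingCat.of k))) c)
    (A : Type u) [CommRing A] [Algebra k A]
    (M : RigidifiedLineBundle c ε (specStr (k := k) A)) :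
    (ChiCut36.cut (χ.toChiTheory c) ε).P (specStr (k := k) A) M ↔
      ∀ p : PrimeSpectrum A, χ.chiA A M.L p = χ.chi0 := by
  constructor
  · intro h p
    rw [← χ.chi_affine A M.L M.isInvertible p]
    exact h p
  · intro h p
    show (χ.toChiTheory c).chi (specStr (k := k) A) M.L p = χ.chi0
    rw [χ.chi_affine A M.L M.isInvertible p]
    exact h p

end Theory

end Fermat.Agent.Jac.ChiAffine36
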