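/-
JAC programme, brick B2 (helper36): THE Euler-characteristic cut of the programme.

From the affine dictionary `D : AffineDictionary cc` (B1b, helper87) we build

* `affChi D hc0 : ChiAffine36.AffChi c`   (affine Euler-characteristic data:
      `chiA A M p = L.chi p` for any line `L` corresponding to `M`),
* `chiTheory D hc0 : CutDeg36.ChiTheory c`,
* `chiCut D hc0 : SubPicCondition c ε`     (`= ChiCut36.cut (chiTheory D hc0) ε`),

with `isLocalCondition_chiCut`, `chiCut_of_fibrewiseAlgEquivZero` (= hypothesis `hP` of
`FinalShell79`), and the description `chiCut_affine_iff` on affine test schemes: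
`(chiCut D hc0).P (specStr A) M ↔ ∀ L, D.Corr A M.L L → ∀ p, L.chi p = chiUnit`.
-/
import Mathlib
import Fermat.Agent.Jac.ChiAffine36
import Fermat.Agent.Jac.ChiBC36
import Fermat.Agent.Jac.AffineDict87.Statement
import Fermat.Agent.Jac.LineOps39.OverLine

set_option autoImplicit false
set_option linter.style.haveILetI false

open CategoryTheory CategoryTheory.Limits AlgebraicGeometry AlgebraicGeometry.RelPicard
  NeronModelInfra GoodReductionJacobian TensorProduct

noncomputable section

namespace Fermat.Agent.Jac.ChiDict36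

universe u

open scoped Fermat.Agent.Jac.BaseChange75
open BridgeCharts33 JSmooth85Alg BaseChange75 ChiAffine36 ChiBC36 CutDeg36

variable {k : Type u} [Field k] {C : Scheme.{u}} {c : C ⟶ Spec (CommRingCat.of k)}
  {ε : SchemeHomOver (𝟙 (Spec (CommRingCat.of k))) c} {cc : CurveCharts c ε}
  (D : AffineDictionary cc)

/-- The Euler characteristic of the structure sheaf of the curve (`1 - g`). -/
def chi0 (cc : CurveCharts c ε) : ℤ := chiUnit k cc.B0 cc.B1 cc.B01

open Classical in
/-- The fibrewise Euler characteristic of a sheaf on `C_A`, through the dictionary. -/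
def chiA (A : Type u) [CommRing A] [Algebra k A] (M : (XA c A).Modules) (p : PrimeSpectrum A) :
    ℤ :=
  if h : Scheme.Modules.IsInvertible M then (Classical.choose (D.exists_line M h)).chi p else 0

/-- `chiA` can be computed on any line corresponding to the sheaf. -/
theorem chiA_eq {A : Type u} [CommRing A] [Algebra k A] {M : (XA c A).Modules} {L : cc.QCA A}
    (hC : D.Corr A M L) : chiA D A M = L.chi := by
  funext p
  have hM := D.isInvertible hC
  unfold chiA
  rw [dif_pos hM]
  have hC0 := Classical.choose_spec (D.exists_line M hM)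
  obtain ⟨e⟩ := (D.iso_iff hC0 hC).1 ⟨Iso.refl M⟩
  exact congrFun (chi_iso e) p

theorem chiA_iso (A : Type u) [CommRing A] [Algebra k A] (M M' : (XA c A).Modules)
    (hM : Scheme.Modules.IsInvertible M) (e : Nonempty (M ≅ M')) : chiA D A M = chiA D A M' := by
  obtain ⟨L, hC⟩ := D.exists_line M hM
  rw [chiA_eq D hC, chiA_eq D (D.congr_sheaf hC e.some)]

theorem chiA_map {A A' : Type u} [CommRing A] [Algebra k A] [CommRing A'] [Algebra k A']
    (ψ : A →ₐ[k] A') (M : (XA c A).Modules) (hM : Scheme.Modules.IsInvertible M)
    (p' : PrimeSpectrum A') :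
    chiA D A' ((Scheme.Modules.pullback (bcs c ψ)).obj M) p' =
      chiA D A M (PrimeSpectrum.comap ψ.toRingHom p') := by
  letI : Algebra A A' := ψ.toRingHom.toAlgebra
  haveI : IsScalarTower k A A' := IsScalarTower.of_algebraMap_eq (fun r => (ψ.commutes r).symm)
  have hψ : IsScalarTower.toAlgHom k A A' = ψ := AlgHom.ext (fun _ => rfl)
  obtain ⟨L, hC⟩ := D.exists_line M hM
  have hC' := D.baseChange hC (baseChange_liftData A' L)
  rw [hψ] at hC'
  rw [chiA_eq D hC', chiA_eq D hC, chi_baseChange A' L p']
  rfl

theorem chiA_unit (A : Type u) [CommRing A] [Algebra k A] (p : PrimeSpectrum A) :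
    chiA D A (SheafOfModules.unit (XA c A).ringCatSheaf) p = chi0 cc := by
  rw [chiA_eq D (D.unit A)]
  exact chi_unit A p

theorem chiA_lc (hc0 : cc.chart0.FiniteProjOverLine) (A : Type u) [CommRing A] [Algebra k A]
    (M : (XA c A).Modules) (hM : Scheme.Modules.IsInvertible M) :
    IsLocallyConstant (chiA D A M) := by
  obtain ⟨L, hC⟩ := D.exists_line M hM
  rw [chiA_eq D hC]
  have hc : (cc.chartA A).FiniteProjOverLine := hc0.baseChange A
  exact P1CohChi.isLocallyConstant_chi (cc.chartA A) L
    (LineOps39.finiteOverLine_of_isLine _ hc (D.isLine hC))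
    (LineOps39.projOverLine_of_isLine _ hc (D.isLine hC))

/-- The affine Euler-characteristic data attached to the dictionary. -/
def affChi (hc0 : cc.chart0.FiniteProjOverLine) : AffChi c where
  chiA := fun A _ _ => chiA D A
  chi0 := chi0 cc
  chiA_iso := fun A _ _ => chiA_iso D A
  chiA_map := fun ψ => chiA_map D ψ
  chiA_lc := fun A _ _ => chiA_lc D hc0 A
  chiA_unit := fun A _ _ => chiA_unit D A

/-- The Euler-characteristic theory attached to the dictionary. -/
def chiTheory (hc0 : cc.chart0.FiniteProjOverLine) : ChiTheory c :=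
  (affChi D hc0).toChiTheory c

/-- **The Euler-characteristic cut** of the programme. -/
def chiCut (hc0 : cc.chart0.FiniteProjOverLine) : SubPicCondition c ε :=
  ChiCut36.cut (chiTheory D hc0) ε

variable (hc0 : cc.chart0.FiniteProjOverLine)

theorem isLocalCondition_chiCut : IsLocalCondition (chiCut D hc0) :=
  ChiCut36.isLocalCondition_cut _ _

/-- **B2.i**: the frozen cut is contained in the Euler-characteristic cut. -/
theorem chiCut_of_fibrewiseAlgEquivZero {T : Scheme.{u}} (t : T ⟶ Spec (CommRingCat.of k))
    (M : RigidifiedLineBundle c ε t) (hM : FibrewiseAlgEquivZero M) : (chiCut D hc0).P t M :=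
  ChiCut36.cut_of_fibrewiseAlgEquivZero _ _ t M hM

/-- The cut on an affine test scheme, in terms of a corresponding line. -/
theorem chiCut_affine_iff (A : Type u) [CommRing A] [Algebra k A]
    (M : RigidifiedLineBundle c ε (specStr (k := k) A)) {L : cc.QCA A} (hC : D.Corr A M.L L) :
    (chiCut D hc0).P (specStr (k := k) A) M ↔ ∀ p : PrimeSpectrum A, L.chi p = chi0 cc := by
  have h := (affChi D hc0).cut_affine_iff ε A M
  have h2 : (affChi D hc0).chiA A M.L = L.chi := chiA_eq D hC
  rw [h2] at h
  exact h

/-! ### Convenience forms for arbitrary (not necessarily rigidified) invertible sheaves -/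

theorem chiCut_iff_chi {T : Scheme.{u}} (t : T ⟶ Spec (CommRingCat.of k))
    (M : RigidifiedLineBundle c ε t) :
    (chiCut D hc0).P t M ↔ ∀ y : T, (chiTheory D hc0).chi t M.L y = chi0 cc := Iff.rfl

/-- The Euler-characteristic theory on an affine test scheme, through the dictionary. -/
theorem chiTheory_chi_affine (A : Type u) [CommRing A] [Algebra k A] (M : (XA c A).Modules)
    {L : cc.QCA A} (hC : D.Corr A M L) (p : PrimeSpectrum A) :
    (chiTheory D hc0).chi (specStr (k := k) A) M p = L.chi p := by
  have h := (affChi D hc0).chi_affine A M (D.isInvertible hC) p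
  have h2 : (affChi D hc0).chiA A M = L.chi := chiA_eq D hC
  rw [h2] at h
  exact h

/-- Membership in the cut can be checked locally on the base, on arbitrary invertible sheaves
isomorphic to the restrictions. -/
theorem chiCut_of_cover {T : Scheme.{u}} (t : T ⟶ Spec (CommRingCat.of k))
    (M : RigidifiedLineBundle c ε t) {ι : Type u} (W : ι → T.Opens) (hW : ⨆ i, W i = ⊤)
    (N : ∀ i, (pullback c ((W i).ι ≫ t)).Modules)
    (e : ∀ i, Nonempty ((restrictOpen M (W i)).L ≅ N i))
    (hN : ∀ i (y : (W i).toScheme), (chiTheory D hc0).chi ((W i).ι ≫ t) (N i) y = chi0 cc) :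
    (chiCut D hc0).P t M := by
  refine isLocalCondition_chiCut D hc0 t M W hW (fun i => ?_)
  intro y
  have h1 := (chiTheory D hc0).chi_iso ((W i).ι ≫ t) (restrictOpen M (W i)).L (N i)
    (restrictOpen M (W i)).isInvertible (e i)
  show (chiTheory D hc0).chi ((W i).ι ≫ t) (restrictOpen M (W i)).L y = chi0 cc
  rw [h1]
  exact hN i y

/-- The value of the theory at a point only depends on the pullback to that point: pullback
compatibility for arbitrary invertible sheaves. -/
theorem chiTheory_chi_pullback {T T' : Scheme.{u}} {t : T ⟶ Spec (CommRingCat.of k)}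
    {t' : T' ⟶ Spec (CommRingCat.of k)} (ψ : SchemeHomOver t' t) (L : (pullback c t).Modules)
    (hL : Scheme.Modules.IsInvertible L) (y : T') :
    (chiTheory D hc0).chi t' ((Scheme.Modules.pullback (baseChangeSnd c ψ)).obj L) y =
      (chiTheory D hc0).chi t L (ψ.1 y) :=
  (chiTheory D hc0).chi_pullback ψ L hL y

end Fermat.Agent.Jac.ChiDict36
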