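/-
JAC programme, brick Q2a (helper79), part 1: morphisms into a scheme are determined by, and can be
constructed from, their compositions with all morphisms from affine schemes
("a scheme is determined by its functor of points on affine schemes").
-/
import Mathlib

set_option autoImplicit false

universe u

open CategoryTheory CategoryTheory.Limits AlgebraicGeometry

namespace Fermat.Agent.Jac.AffGroup79Glue

variable {T J : Scheme.{u}}

/-- Two morphisms agreeing on all affine test schemes are equal. -/
theorem hom_ext_of_affine (g g' : T ⟶ J)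
    (h : ∀ (B : CommRingCat.{u}) (ψ : Spec B ⟶ T), ψ ≫ g = ψ ≫ g') : g = g' :=
  T.affineCover.hom_ext g g' fun i => h _ (T.affineCover.f i)

/-- A natural family of `J`-valued points on the affine schemes over `T`. -/
structure AffineFamily (T J : Scheme.{u}) where
  /-- the point of `J` attached to an affine scheme over `T` -/
  m : ∀ (B : CommRingCat.{u}) (_ : Spec B ⟶ T), Spec B ⟶ J
  /-- naturality -/
  natural : ∀ (B B' : CommRingCat.{u}) (φ : B ⟶ B') (ψ : Spec B ⟶ T),
    Spec.map φ ≫ m B ψ = m B' (Spec.map φ ≫ ψ)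

/-- naturality along an arbitrary morphism of affine schemes -/
theorem AffineFamily.natural' (F : AffineFamily T J) {B B' : CommRingCat.{u}}
    (χ : Spec B' ⟶ Spec B) (ψ : Spec B ⟶ T) : χ ≫ F.m B ψ = F.m B' (χ ≫ ψ) := by
  obtain ⟨φ, rfl⟩ := Spec.map_surjective χ
  exact F.natural B B' φ ψ

/-- compatibility of the family on overlaps -/
theorem AffineFamily.compat (F : AffineFamily T J) {B₁ B₂ : CommRingCat.{u}}
    (ψ₁ : Spec B₁ ⟶ T) (ψ₂ : Spec B₂ ⟶ T) :
    pullback.fst ψ₁ ψ₂ ≫ F.m B₁ ψ₁ = pullback.snd ψ₁ ψ₂ ≫ F.m B₂ ψ₂ := by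
  apply hom_ext_of_affine
  intro B χ
  rw [← Category.assoc, ← Category.assoc]
  obtain ⟨φ₁, h₁⟩ := Spec.map_surjective (χ ≫ pullback.fst ψ₁ ψ₂)
  obtain ⟨φ₂, h₂⟩ := Spec.map_surjective (χ ≫ pullback.snd ψ₁ ψ₂)
  rw [← h₁, ← h₂, F.natural, F.natural, h₁, h₂, Category.assoc, Category.assoc,
    pullback.condition]

/-- The morphism glued from an affine family. -/
noncomputable def AffineFamily.glue (F : AffineFamily T J) : T ⟶ J :=
  T.affineCover.glueMorphisms (fun i => F.m _ (T.affineCover.f i))
    (fun i j => F.compat (T.affineCover.f i) (T.affineCover.f j))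

theorem AffineFamily.cover_glue (F : AffineFamily T J) (i : T.affineCover.I₀) :
    T.affineCover.f i ≫ F.glue = F.m _ (T.affineCover.f i) :=
  T.affineCover.ι_glueMorphisms _ _ i

set_option backward.isDefEq.respectTransparency false in
/-- The glued morphism restricts to the given family on every affine scheme over `T`. -/
theorem AffineFamily.comp_glue (F : AffineFamily T J) (B : CommRingCat.{u}) (ψ : Spec B ⟶ T) :
    ψ ≫ F.glue = F.m B ψ := by
  refine Scheme.Cover.hom_ext (T.affineCover.pullback₁ ψ) _ _ fun i => ?_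
  apply hom_ext_of_affine
  intro B' χ
  -- `χ ≫ pullback.fst ψ (T.affineCover.f i) : Spec B' ⟶ Spec B`
  have hcond : pullback.fst ψ (T.affineCover.f i) ≫ ψ =
      pullback.snd ψ (T.affineCover.f i) ≫ T.affineCover.f i := pullback.condition
  change χ ≫ pullback.fst ψ (T.affineCover.f i) ≫ ψ ≫ F.glue =
    χ ≫ pullback.fst ψ (T.affineCover.f i) ≫ F.m B ψ
  rw [reassoc_of% hcond, F.cover_glue, ← Category.assoc, F.natural', ← Category.assoc χ,
    F.natural', Category.assoc, Category.assoc, hcond]

/-- Existence and uniqueness of the glued morphism. -/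
theorem AffineFamily.existsUnique_glue (F : AffineFamily T J) :
    ∃! g : T ⟶ J, ∀ (B : CommRingCat.{u}) (ψ : Spec B ⟶ T), ψ ≫ g = F.m B ψ :=
  ⟨F.glue, F.comp_glue, fun _ hg =>
    hom_ext_of_affine _ _ fun B ψ => (hg B ψ).trans (F.comp_glue B ψ).symm⟩

end Fermat.Agent.Jac.AffGroup79Glue
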