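/-
Fermat/Agent/Jac/RepAffine.lean  (helper41)

Affine-only version of `ChartPackage` (interface of brick R2c).  All test schemes are of the form
`Spec A`; the algebra bricks + the affine dictionary (B1b) produce an `AffineChartPackage`, and brick
R2c turns it into a `ChartPackage` using the sheaf property of classes.
-/
import Mathlib
import Fermat.Agent.Jac.RepInterface

set_option autoImplicit false

open CategoryTheory CategoryTheory.Limits AlgebraicGeometry AlgebraicGeometry.RelPicard
open NeronModelInfra GoodReductionJacobian

universe u

noncomputable section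

namespace Fermat.Agent.Jac

variable {k : Type u} [Field k] {C : Scheme.{u}}

/-- A family of charts for the functor of rigidified line bundles satisfying `P`, where loci,
classifying morphisms and their universal property are only required over affine test schemes. -/
structure AffineChartPackage (c : C ⟶ Spec (CommRingCat.of k))
    (ε : SchemeHomOver (𝟙 (Spec (CommRingCat.of k))) c) (P : SubPicCondition c ε) where
  /-- index set of the charts -/
  ι : Type u
  /-- the charts -/
  X : ι → Scheme.{u}
  x : ∀ i, X i ⟶ Spec (CommRingCat.of k)
  /-- the universal bundle over each chart -/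
  bundle : ∀ i, RigidifiedLineBundle c ε (x i)
  bundle_mem : ∀ i, P.P (x i) (bundle i)
  /-- the open locus of an affine base where `M` is classified by the chart `i` -/
  locus : ∀ (_ : ι) (A : CommRingCat.{u}) (t : Spec A ⟶ Spec (CommRingCat.of k))
    (M : RigidifiedLineBundle c ε t), P.P t M → (Spec A).Opens
  /-- the classifying morphism on that locus -/
  classify : ∀ (i : ι) (A : CommRingCat.{u}) (t : Spec A ⟶ Spec (CommRingCat.of k))
    (M : RigidifiedLineBundle c ε t) (h : P.P t M),
    SchemeHomOver ((locus i A t M h).ι ≫ t) (x i)
  classify_iso : ∀ (i : ι) (A : CommRingCat.{u}) (t : Spec A ⟶ Spec (CommRingCat.of k))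
    (M : RigidifiedLineBundle c ε t) (h : P.P t M),
    Nonempty (((bundle i).pullbackAlong (classify i A t M h)).L ≅
      (restrictOpen M (locus i A t M h)).L)
  /-- universality of the locus and of the classifying morphism, tested on affine schemes -/
  universal : ∀ (i : ι) (A : CommRingCat.{u}) (t : Spec A ⟶ Spec (CommRingCat.of k))
    (M : RigidifiedLineBundle c ε t) (h : P.P t M) (A' : CommRingCat.{u})
    (t' : Spec A' ⟶ Spec (CommRingCat.of k)) (φ : SchemeHomOver t' t) (y : SchemeHomOver t' (x i)),
    Nonempty (((bundle i).pullbackAlong y).L ≅ (M.pullbackAlong φ).L) →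
    ∃ φ' : Spec A' ⟶ (locus i A t M h).toScheme,
      φ' ≫ (locus i A t M h).ι = φ.1 ∧ φ' ≫ (classify i A t M h).1 = y.1
  /-- the loci cover the affine base -/
  cover : ∀ (A : CommRingCat.{u}) (t : Spec A ⟶ Spec (CommRingCat.of k))
    (M : RigidifiedLineBundle c ε t) (h : P.P t M), ⨆ i, locus i A t M h = ⊤

end Fermat.Agent.Jac
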