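/-
Fermat/Agent/Jac/RepFunctor.lean  (helper41)

The functor of points `F(T) = Σ (t : T ⟶ Spec k), {classes of rigidified line bundles on C × T in P}`
as a presheaf of `Type u` on `Scheme.{u}` (brick R3, part 1).
-/
import Mathlib
import Fermat.Agent.Jac.RepInterface

set_option autoImplicit false

open CategoryTheory CategoryTheory.Limits AlgebraicGeometry AlgebraicGeometry.RelPicard
open NeronModelInfra GoodReductionJacobian Opposite

universe u

noncomputable section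

namespace Fermat.Agent.Jac.RepFunctor

variable {k : Type u} [Field k] {C : Scheme.{u}} {c : C ⟶ Spec (CommRingCat.of k)}
  {ε : SchemeHomOver (𝟙 (Spec (CommRingCat.of k))) c}

/-- The property `P` on isomorphism classes. -/
def ClassMem (P : SubPicCondition c ε) {T : Scheme.{u}} (t : T ⟶ Spec (CommRingCat.of k))
    (ξ : RigidifiedLineBundle.Classes c ε t) : Prop :=
  ∃ M : RigidifiedLineBundle c ε t, Quotient.mk _ M = ξ ∧ P.P t M

theorem classMem_mk (P : SubPicCondition c ε) {T : Scheme.{u}} (t : T ⟶ Spec (CommRingCat.of k))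
    (M : RigidifiedLineBundle c ε t) :
    ClassMem P t (Quotient.mk _ M) ↔ P.P t M := by
  constructor
  · rintro ⟨M', hM', h⟩
    exact P.congr t M' M (Quotient.exact hM') h
  · intro h
    exact ⟨M, rfl, h⟩

/-- Classes satisfying `P`. -/
def CutClasses (P : SubPicCondition c ε) {T : Scheme.{u}} (t : T ⟶ Spec (CommRingCat.of k)) :
    Type (u + 1) :=
  {ξ : RigidifiedLineBundle.Classes c ε t // ClassMem P t ξ}

theorem small_cutClasses (hS : ClassesIsSheaf c ε) (P : SubPicCondition c ε) {T : Scheme.{u}}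
    (t : T ⟶ Spec (CommRingCat.of k)) : Small.{u} (CutClasses P t) :=
  haveI := hS.small t
  inferInstanceAs (Small.{u} {ξ : RigidifiedLineBundle.Classes c ε t // ClassMem P t ξ})

/-- The value of the functor of points on `T`. -/
def FObj (hS : ClassesIsSheaf c ε) (P : SubPicCondition c ε) (T : Scheme.{u}) : Type u :=
  Σ t : T ⟶ Spec (CommRingCat.of k), @Shrink (CutClasses P t) (small_cutClasses hS P t)

variable (hS : ClassesIsSheaf c ε) (P : SubPicCondition c ε)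

/-- The class of a rigidified bundle in `P`. -/
def mkCut {T : Scheme.{u}} (t : T ⟶ Spec (CommRingCat.of k)) (M : RigidifiedLineBundle c ε t)
    (hM : P.P t M) : CutClasses P t :=
  ⟨(show RigidifiedLineBundle.Classes c ε t from Quotient.mk _ M), (classMem_mk P t M).2 hM⟩

/-- The point of `F(T)` given by a rigidified bundle in `P`. -/
def mkPt {T : Scheme.{u}} (t : T ⟶ Spec (CommRingCat.of k)) (M : RigidifiedLineBundle c ε t)
    (hM : P.P t M) : FObj hS P T :=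
  ⟨t, (@equivShrink (CutClasses P t) (small_cutClasses hS P t)) (mkCut P t M hM)⟩

theorem exists_mkPt {T : Scheme.{u}} (p : FObj hS P T) :
    ∃ (M : RigidifiedLineBundle c ε p.1) (hM : P.P p.1 M), p = mkPt hS P p.1 M hM := by
  obtain ⟨t, ξ⟩ := p
  let _ := small_cutClasses hS P t
  obtain ⟨⟨ξ', hξ'⟩, rfl⟩ := (equivShrink (CutClasses P t)).surjective ξ
  obtain ⟨M, rfl, hM⟩ := hξ'
  exact ⟨M, hM, rfl⟩

theorem mkPt_eq_mkPt_iff {T : Scheme.{u}} (t : T ⟶ Spec (CommRingCat.of k))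
    (M M' : RigidifiedLineBundle c ε t) (hM : P.P t M) (hM' : P.P t M') :
    mkPt hS P t M hM = mkPt hS P t M' hM' ↔ Nonempty (M.L ≅ M'.L) := by
  let _ := small_cutClasses hS P t
  unfold mkPt
  constructor
  · intro h
    have h2 := (Sigma.mk.inj_iff.1 h).2
    have h' := (equivShrink (CutClasses P t)).injective (eq_of_heq h2)
    exact Quotient.exact (congrArg Subtype.val h')
  · intro h
    refine Sigma.mk.inj_iff.2 ⟨rfl, heq_of_eq ?_⟩
    congr 1
    exact Subtype.ext (Quotient.sound h)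

/-- Pulling back along a morphism over `Spec k` whose underlying morphism is the identity does not
change the bundle. -/
theorem pullbackAlong_id_iso {T : Scheme.{u}} {t : T ⟶ Spec (CommRingCat.of k)}
    (M : RigidifiedLineBundle c ε t) (ψ : SchemeHomOver t t) (hψ : ψ.1 = 𝟙 T) :
    Nonempty ((M.pullbackAlong ψ).L ≅ M.L) := by
  obtain ⟨ψ1, hψ2⟩ := ψ
  subst hψ
  exact ⟨(Scheme.Modules.pullbackCongr (baseChangeSnd_id c t)).app M.L ≪≫
    (Scheme.Modules.pullbackId (pullback c t)).app M.L⟩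

/-- Pulling back in two steps is pulling back along the composite. -/
theorem pullbackAlong_comp_iso {T T' T'' : Scheme.{u}} {t : T ⟶ Spec (CommRingCat.of k)}
    {t' : T' ⟶ Spec (CommRingCat.of k)} {t'' : T'' ⟶ Spec (CommRingCat.of k)}
    (M : RigidifiedLineBundle c ε t) (φ : SchemeHomOver t' t) (ψ : SchemeHomOver t'' t') :
    Nonempty (((M.pullbackAlong φ).pullbackAlong ψ).L ≅ (M.pullbackAlong (postComp φ ψ)).L) :=
  ⟨(Scheme.Modules.pullbackComp _ _).app M.L ≪≫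
    (Scheme.Modules.pullbackCongr (baseChangeSnd_comp c φ ψ)).app M.L⟩

/-- Pullbacks along two morphisms over `Spec k` with the same underlying morphism agree. -/
theorem mkPt_pullbackAlong_congr {T T' : Scheme.{u}} {t : T ⟶ Spec (CommRingCat.of k)}
    {t₁ t₂ : T' ⟶ Spec (CommRingCat.of k)} (M : RigidifiedLineBundle c ε t)
    (ψ₁ : SchemeHomOver t₁ t) (ψ₂ : SchemeHomOver t₂ t) (h : ψ₁.1 = ψ₂.1)
    (h₁ : P.P t₁ (M.pullbackAlong ψ₁)) (h₂ : P.P t₂ (M.pullbackAlong ψ₂)) :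
    mkPt hS P t₁ (M.pullbackAlong ψ₁) h₁ = mkPt hS P t₂ (M.pullbackAlong ψ₂) h₂ := by
  obtain ⟨f₁, hf₁⟩ := ψ₁
  obtain ⟨f₂, hf₂⟩ := ψ₂
  simp only at h
  subst h
  subst hf₁
  subst hf₂
  rfl

/-- If two bundles over (propositionally equal) structure morphisms become isomorphic after
transport along a morphism over `Spec k` lying over the identity, they define the same point. -/
theorem mkPt_eq_of_id {T : Scheme.{u}} {t t' : T ⟶ Spec (CommRingCat.of k)}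
    (M : RigidifiedLineBundle c ε t) (M' : RigidifiedLineBundle c ε t') (ψ : SchemeHomOver t' t)
    (hψ : ψ.1 = 𝟙 T) (hM : P.P t M) (hM' : P.P t' M')
    (e : Nonempty ((M.pullbackAlong ψ).L ≅ M'.L)) :
    mkPt hS P t M hM = mkPt hS P t' M' hM' := by
  obtain ⟨ψ1, hψ2⟩ := ψ
  simp only at hψ
  subst hψ
  have ht : t = t' := by simpa using hψ2
  subst ht
  obtain ⟨e⟩ := e
  obtain ⟨e'⟩ := pullbackAlong_id_iso M ⟨𝟙 T, hψ2⟩ rfl
  exact (mkPt_eq_mkPt_iff hS P t M M' hM hM').2 ⟨e'.symm ≪≫ e⟩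

theorem iso_of_mkPt_eq {T : Scheme.{u}} {t : T ⟶ Spec (CommRingCat.of k)}
    (M M' : RigidifiedLineBundle c ε t) (hM : P.P t M)
    (hM' : P.P t M') (h : mkPt hS P t M hM = mkPt hS P t M' hM') :
    Nonempty (M.L ≅ M'.L) :=
  (mkPt_eq_mkPt_iff hS P t M M' hM hM').1 h

theorem fst_mkPt {T : Scheme.{u}} (t : T ⟶ Spec (CommRingCat.of k))
    (M : RigidifiedLineBundle c ε t) (hM : P.P t M) : (mkPt hS P t M hM).1 = t := rfl

/-! ### The presheaf structure -/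

/-- Pullback of classes in the cut. -/
def cutMap {T T' : Scheme.{u}} (φ : T' ⟶ T) (t : T ⟶ Spec (CommRingCat.of k))
    (ξ : CutClasses P t) : CutClasses P (φ ≫ t) :=
  ⟨RigidifiedLineBundle.classesMap (⟨φ, rfl⟩ : SchemeHomOver (φ ≫ t) t) ξ.1, by
    obtain ⟨M, hM, hP⟩ := ξ.2
    exact ⟨M.pullbackAlong ⟨φ, rfl⟩, by rw [← hM]; rfl, P.pullback_mem _ _ _ _ hP⟩⟩

/-- The action of a morphism `φ : T' ⟶ T` on points. -/
def pull {T T' : Scheme.{u}} (φ : T' ⟶ T) (p : FObj hS P T) : FObj hS P T' :=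
  ⟨φ ≫ p.1, (@equivShrink (CutClasses P (φ ≫ p.1)) (small_cutClasses hS P _))
    (cutMap P φ p.1 ((@equivShrink (CutClasses P p.1) (small_cutClasses hS P _)).symm p.2))⟩

theorem cutMap_mkCut {T T' : Scheme.{u}} (φ : T' ⟶ T) (t : T ⟶ Spec (CommRingCat.of k))
    (M : RigidifiedLineBundle c ε t) (hM : P.P t M) :
    cutMap P φ t (mkCut P t M hM) =
      mkCut P (φ ≫ t) (M.pullbackAlong ⟨φ, rfl⟩) (P.pullback_mem _ _ _ _ hM) :=
  Subtype.ext rfl

theorem pull_mkPt {T T' : Scheme.{u}} (φ : T' ⟶ T) (t : T ⟶ Spec (CommRingCat.of k))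
    (M : RigidifiedLineBundle c ε t) (hM : P.P t M) :
    pull hS P φ (mkPt hS P t M hM) =
      mkPt hS P (φ ≫ t) (M.pullbackAlong ⟨φ, rfl⟩) (P.pullback_mem _ _ _ _ hM) := by
  have h := (@equivShrink (CutClasses P t) (small_cutClasses hS P t)).symm_apply_apply
    (mkCut P t M hM)
  unfold pull mkPt
  refine Sigma.mk.inj_iff.2 ⟨rfl, heq_of_eq ?_⟩
  dsimp only
  rw [h, cutMap_mkCut]

/-- The functor of points. -/
def F : Scheme.{u}ᵒᵖ ⥤ Type u where
  obj T := FObj hS P T.unop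
  map φ := TypeCat.ofHom (pull hS P φ.unop)
  map_id T := by
    apply TypeCat.homEquiv.injective
    funext p
    obtain ⟨M, hM, hp⟩ := exists_mkPt hS P p
    rw [hp]
    show pull hS P (𝟙 _) _ = _
    rw [pull_mkPt]
    exact (mkPt_eq_of_id hS P M _ ⟨𝟙 _, rfl⟩ rfl hM _ ⟨Iso.refl _⟩).symm
  map_comp {T T' T''} φ ψ := by
    apply TypeCat.homEquiv.injective
    funext p
    obtain ⟨M, hM, hp⟩ := exists_mkPt hS P p
    rw [hp]
    show pull hS P (ψ.unop ≫ φ.unop) _ = pull hS P ψ.unop (pull hS P φ.unop _)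
    rw [pull_mkPt, pull_mkPt, pull_mkPt]
    refine (mkPt_eq_of_id hS P _ _ ⟨𝟙 _, by simp⟩ rfl _ _ ?_).symm
    have hid1 : 𝟙 (unop T'') ≫ ψ.unop ≫ φ.unop ≫ p.1 = (ψ.unop ≫ φ.unop) ≫ p.1 := by simp
    obtain ⟨e2⟩ := pullbackAlong_comp_iso (M.pullbackAlong ⟨φ.unop, rfl⟩)
      (⟨ψ.unop, rfl⟩ : SchemeHomOver (ψ.unop ≫ φ.unop ≫ p.1) (φ.unop ≫ p.1))
      (⟨𝟙 _, hid1⟩ : SchemeHomOver ((ψ.unop ≫ φ.unop) ≫ p.1) (ψ.unop ≫ φ.unop ≫ p.1))
    obtain ⟨e1⟩ := pullbackAlong_comp_iso M (⟨φ.unop, rfl⟩ : SchemeHomOver (φ.unop ≫ p.1) p.1)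
      (postComp (⟨ψ.unop, rfl⟩ : SchemeHomOver (ψ.unop ≫ φ.unop ≫ p.1) (φ.unop ≫ p.1))
        (⟨𝟙 _, hid1⟩ : SchemeHomOver ((ψ.unop ≫ φ.unop) ≫ p.1) (ψ.unop ≫ φ.unop ≫ p.1)))
    have e3 : postComp (⟨φ.unop, rfl⟩ : SchemeHomOver (φ.unop ≫ p.1) p.1)
        (postComp (⟨ψ.unop, rfl⟩ : SchemeHomOver (ψ.unop ≫ φ.unop ≫ p.1) (φ.unop ≫ p.1))
          (⟨𝟙 _, hid1⟩ : SchemeHomOver ((ψ.unop ≫ φ.unop) ≫ p.1) (ψ.unop ≫ φ.unop ≫ p.1))) =
        (⟨ψ.unop ≫ φ.unop, rfl⟩ : SchemeHomOver ((ψ.unop ≫ φ.unop) ≫ p.1) p.1) :=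
      Subtype.ext (by simp [postComp])
    rw [← e3]
    exact ⟨e2 ≪≫ e1⟩

theorem F_map_apply {T T' : Scheme.{u}} (φ : T' ⟶ T) (p : FObj hS P T) :
    (F hS P).map φ.op p = pull hS P φ p := rfl

theorem pull_id {T : Scheme.{u}} (p : FObj hS P T) : pull hS P (𝟙 T) p = p := by
  have h := congrArg (fun f => TypeCat.homEquiv f p) ((F hS P).map_id (op T))
  exact h

theorem pull_comp {T T' T'' : Scheme.{u}} (φ : T'' ⟶ T') (ψ : T' ⟶ T) (p : FObj hS P T) :
    pull hS P (φ ≫ ψ) p = pull hS P φ (pull hS P ψ p) := by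
  have h := congrArg (fun f => TypeCat.homEquiv f p) ((F hS P).map_comp ψ.op φ.op)
  exact h

/-- A bundle isomorphic to a pullback of `M` defines the pulled back point. -/
theorem mkPt_eq_pull {T T₁ : Scheme.{u}} {t : T ⟶ Spec (CommRingCat.of k)}
    {t₁ : T₁ ⟶ Spec (CommRingCat.of k)} (M : RigidifiedLineBundle c ε t) (hM : P.P t M)
    (ψ : SchemeHomOver t₁ t) (N : RigidifiedLineBundle c ε t₁) (hN : P.P t₁ N)
    (e : Nonempty (N.L ≅ (M.pullbackAlong ψ).L)) :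
    mkPt hS P t₁ N hN = pull hS P ψ.1 (mkPt hS P t M hM) := by
  obtain ⟨f, hf⟩ := ψ
  subst hf
  rw [pull_mkPt]
  exact (mkPt_eq_mkPt_iff hS P _ _ _ _ _).2 e

/-- Two points with the same structure morphism are equal iff the bundles are isomorphic;
version for pullbacks along morphisms with propositionally equal targets. -/
theorem iso_of_pull_eq {T T₁ T₂ : Scheme.{u}} {t₁ : T₁ ⟶ Spec (CommRingCat.of k)}
    {t₂ : T₂ ⟶ Spec (CommRingCat.of k)} (M₁ : RigidifiedLineBundle c ε t₁) (hM₁ : P.P t₁ M₁)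
    (M₂ : RigidifiedLineBundle c ε t₂) (hM₂ : P.P t₂ M₂) (a : T ⟶ T₁) (b : T ⟶ T₂)
    (h : pull hS P a (mkPt hS P t₁ M₁ hM₁) = pull hS P b (mkPt hS P t₂ M₂ hM₂)) :
    ∃ (hab : a ≫ t₁ = b ≫ t₂),
      Nonempty ((M₁.pullbackAlong (⟨a, hab⟩ : SchemeHomOver (b ≫ t₂) t₁)).L ≅
        (M₂.pullbackAlong (⟨b, rfl⟩ : SchemeHomOver (b ≫ t₂) t₂)).L) := by
  rw [pull_mkPt, pull_mkPt] at h
  have hab : a ≫ t₁ = b ≫ t₂ := congrArg Sigma.fst h
  refine ⟨hab, ?_⟩
  have h2 := mkPt_pullbackAlong_congr hS P M₁ (⟨a, hab⟩ : SchemeHomOver (b ≫ t₂) t₁)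
    (⟨a, rfl⟩ : SchemeHomOver (a ≫ t₁) t₁) rfl
    (P.pullback_mem _ _ _ _ hM₁) (P.pullback_mem _ _ _ _ hM₁)
  rw [← h2] at h
  exact (mkPt_eq_mkPt_iff hS P _ _ _ _ _).1 h

end Fermat.Agent.Jac.RepFunctor
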