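/-
Fermat/Agent/Jac/RepAffineChoice.lean  (helper41)

Brick R2b, part 1: an `AffineChartPackage` from purely existential statements about loci over the
test schemes `specStr A : Spec A ⟶ Spec k` attached to `k`-algebras `A : Type u`.
-/
import Mathlib
import Fermat.Agent.Jac.RepAffine
import Fermat.Agent.Jac.CurveCharts
import Fermat.Agent.Jac.RepFunctor

set_option autoImplicit false

open CategoryTheory CategoryTheory.Limits AlgebraicGeometry AlgebraicGeometry.RelPicard
open NeronModelInfra GoodReductionJacobian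

universe u

noncomputable section

namespace Fermat.Agent.Jac.RepAffineChoice

variable {k : Type u} [Field k] {C : Scheme.{u}} {c : C ⟶ Spec (CommRingCat.of k)}
  {ε : SchemeHomOver (𝟙 (Spec (CommRingCat.of k))) c} {P : SubPicCondition c ε}

/-- The test-scheme independent part of a chart package. -/
structure ChartData (c : C ⟶ Spec (CommRingCat.of k))
    (ε : SchemeHomOver (𝟙 (Spec (CommRingCat.of k))) c) (P : SubPicCondition c ε) where
  ι : Type u
  X : ι → Scheme.{u}
  x : ∀ i, X i ⟶ Spec (CommRingCat.of k)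
  bundle : ∀ i, RigidifiedLineBundle c ε (x i)
  bundle_mem : ∀ i, P.P (x i) (bundle i)

/-- `(U, cl)` is the locus of `M` for the chart `i`, with its classifying morphism. -/
def IsLocus (cd : ChartData c ε P) (i : cd.ι) {A : CommRingCat.{u}}
    (t : Spec A ⟶ Spec (CommRingCat.of k)) (M : RigidifiedLineBundle c ε t) (U : (Spec A).Opens)
    (cl : SchemeHomOver (U.ι ≫ t) (cd.x i)) : Prop :=
  Nonempty (((cd.bundle i).pullbackAlong cl).L ≅ (restrictOpen M U).L) ∧
  ∀ (A' : CommRingCat.{u}) (t' : Spec A' ⟶ Spec (CommRingCat.of k)) (φ : SchemeHomOver t' t)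
    (y : SchemeHomOver t' (cd.x i)),
    Nonempty (((cd.bundle i).pullbackAlong y).L ≅ (M.pullbackAlong φ).L) →
    ∃ φ' : Spec A' ⟶ U.toScheme, φ' ≫ U.ι = φ.1 ∧ φ' ≫ cl.1 = y.1

/-- Every morphism `Spec A ⟶ Spec k` is the structure morphism of a `k`-algebra structure. -/
theorem exists_algebra_eq_specStr (A : CommRingCat.{u}) (t : Spec A ⟶ Spec (CommRingCat.of k)) :
    ∃ alg : Algebra k A, t = @specStr k _ A _ alg := by
  refine ⟨(Spec.preimage t).hom.toAlgebra, ?_⟩
  let _ : Algebra k A := (Spec.preimage t).hom.toAlgebra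
  show t = Spec.map (CommRingCat.ofHom (algebraMap k A))
  have : CommRingCat.ofHom (algebraMap k A) = Spec.preimage t := rfl
  rw [this, Spec.map_preimage]

open Fermat.Agent.Jac.RepFunctor in
/-- The locus of a chart is unique. -/
theorem IsLocus.le (cd : ChartData c ε P) (i : cd.ι) {A : CommRingCat.{u}}
    (t : Spec A ⟶ Spec (CommRingCat.of k)) (M : RigidifiedLineBundle c ε t)
    {U U' : (Spec A).Opens} {cl : SchemeHomOver (U.ι ≫ t) (cd.x i)}
    {cl' : SchemeHomOver (U'.ι ≫ t) (cd.x i)} (h : IsLocus cd i t M U cl)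
    (h' : IsLocus cd i t M U' cl') : U ≤ U' := by
  intro p hp
  let q : U.toScheme := ⟨p, hp⟩
  let j : Spec (U.toScheme.residueField q) ⟶ U.toScheme := U.toScheme.fromSpecResidueField q
  let j' : SchemeHomOver (j ≫ U.ι ≫ t) (U.ι ≫ t) := ⟨j, rfl⟩
  obtain ⟨e0⟩ := h.1
  obtain ⟨e1⟩ := RigidifiedLineBundle.pullbackAlong_congr j' ⟨e0⟩
  obtain ⟨e2⟩ := pullbackAlong_comp_iso (cd.bundle i) cl j'
  obtain ⟨e3⟩ := pullbackAlong_comp_iso M (openIncl t U) j'
  obtain ⟨φ', hφ', -⟩ := h'.2 _ (j ≫ U.ι ≫ t) (postComp (openIncl t U) j') (postComp cl j')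
    ⟨e2.symm ≪≫ e1 ≪≫ e3⟩
  have h1 : (φ' ≫ U'.ι) (IsLocalRing.closedPoint _) = p := by
    rw [hφ']
    show U.ι (j (IsLocalRing.closedPoint _)) = p
    rw [show j (IsLocalRing.closedPoint _) = q from
      Scheme.fromSpecResidueField_apply _ _]
    rfl
  rw [← h1]
  show (U'.ι (φ' (IsLocalRing.closedPoint _))) ∈ U'
  exact (φ' (IsLocalRing.closedPoint _)).2

theorem IsLocus.eq (cd : ChartData c ε P) (i : cd.ι) {A : CommRingCat.{u}}
    (t : Spec A ⟶ Spec (CommRingCat.of k)) (M : RigidifiedLineBundle c ε t)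
    {U U' : (Spec A).Opens} {cl : SchemeHomOver (U.ι ≫ t) (cd.x i)}
    {cl' : SchemeHomOver (U'.ι ≫ t) (cd.x i)} (h : IsLocus cd i t M U cl)
    (h' : IsLocus cd i t M U' cl') : U = U' :=
  le_antisymm (h.le cd i t M h') (h'.le cd i t M h)

/-- An affine chart package from existence of loci and the covering property. -/
def AffineChartPackage.ofIsLocus (cd : ChartData c ε P)
    (h1 : ∀ (i : cd.ι) (A : CommRingCat.{u}) (t : Spec A ⟶ Spec (CommRingCat.of k))
      (M : RigidifiedLineBundle c ε t), P.P t M →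
      ∃ (U : (Spec A).Opens) (cl : SchemeHomOver (U.ι ≫ t) (cd.x i)), IsLocus cd i t M U cl)
    (h2 : ∀ (A : CommRingCat.{u}) (t : Spec A ⟶ Spec (CommRingCat.of k))
      (M : RigidifiedLineBundle c ε t), P.P t M → ∀ p : Spec A,
      ∃ (i : cd.ι) (U : (Spec A).Opens) (cl : SchemeHomOver (U.ι ≫ t) (cd.x i)),
        IsLocus cd i t M U cl ∧ p ∈ U) :
    AffineChartPackage c ε P where
  ι := cd.ι
  X := cd.X
  x := cd.x
  bundle := cd.bundle
  bundle_mem := cd.bundle_mem
  locus i A t M h := (h1 i A t M h).choose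
  classify i A t M h := (h1 i A t M h).choose_spec.choose
  classify_iso i A t M h := (h1 i A t M h).choose_spec.choose_spec.1
  universal i A t M h := (h1 i A t M h).choose_spec.choose_spec.2
  cover A t M h := by
    rw [eq_top_iff]
    intro p _
    obtain ⟨i, U, cl, hU, hp⟩ := h2 A t M h p
    have := IsLocus.eq cd i t M hU (h1 i A t M h).choose_spec.choose_spec
    rw [TopologicalSpace.Opens.mem_iSup]
    exact ⟨i, this ▸ hp⟩

/-- It suffices to produce loci over the test schemes `specStr A`. -/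
theorem exists_isLocus_of_specStr (cd : ChartData c ε P) (i : cd.ι)
    (H : ∀ (A : Type u) [CommRing A] [Algebra k A]
      (M : RigidifiedLineBundle c ε (specStr (k := k) A)), P.P _ M →
      ∃ (U : (Spec (CommRingCat.of A)).Opens)
        (cl : SchemeHomOver (U.ι ≫ specStr (k := k) A) (cd.x i)),
        IsLocus cd i (specStr (k := k) A) M U cl)
    (A : CommRingCat.{u}) (t : Spec A ⟶ Spec (CommRingCat.of k))
    (M : RigidifiedLineBundle c ε t) (hM : P.P t M) :
    ∃ (U : (Spec A).Opens) (cl : SchemeHomOver (U.ι ≫ t) (cd.x i)), IsLocus cd i t M U cl := by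
  obtain ⟨alg, rfl⟩ := exists_algebra_eq_specStr A t
  exact H A M hM

/-- It suffices to cover the test schemes `specStr A` by loci. -/
theorem exists_isLocus_mem_of_specStr (cd : ChartData c ε P)
    (H : ∀ (A : Type u) [CommRing A] [Algebra k A]
      (M : RigidifiedLineBundle c ε (specStr (k := k) A)), P.P _ M →
      ∀ p : Spec (CommRingCat.of A), ∃ (i : cd.ι) (U : (Spec (CommRingCat.of A)).Opens)
        (cl : SchemeHomOver (U.ι ≫ specStr (k := k) A) (cd.x i)),
        IsLocus cd i (specStr (k := k) A) M U cl ∧ p ∈ U)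
    (A : CommRingCat.{u}) (t : Spec A ⟶ Spec (CommRingCat.of k))
    (M : RigidifiedLineBundle c ε t) (hM : P.P t M) (p : Spec A) :
    ∃ (i : cd.ι) (U : (Spec A).Opens) (cl : SchemeHomOver (U.ι ≫ t) (cd.x i)),
      IsLocus cd i t M U cl ∧ p ∈ U := by
  obtain ⟨alg, rfl⟩ := exists_algebra_eq_specStr A t
  exact H A M hM p

end Fermat.Agent.Jac.RepAffineChoice
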