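/-
Programme JAC (S25), brick R0 (helper81): pure category theory for the representability layer.

* (a) `isOpenImmersion_presheaf_of_hasOpenLoci`: open subfunctor criterion for
  `IsOpenImmersion.presheaf f`, `f : yoneda.obj X ⟶ F`.
* (b) `isLocallySurjective_sigmaDesc`: criterion for Zariski local surjectivity of `Sigma.desc f`.
* (c) `isSheaf_iff_opens`: a presheaf of types on schemes is a Zariski sheaf iff it is separated
  and has gluing for covers of a scheme by open subschemes.
* (d) `exists_representableBy`: the package: such a functor covered by open subfunctors is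
  representable, by a scheme covered by the charts.

Mathlib only.
-/
import Mathlib

set_option autoImplicit false

open CategoryTheory CategoryTheory.Limits AlgebraicGeometry Opposite

namespace Fermat.Agent.Jac.RepCriteria

universe u

/-! ### Generalities -/

section General

variable {F : Scheme.{u}ᵒᵖ ⥤ Type u}

/-- `F.map` of a composite, applied. -/
theorem map_comp_apply' {T T' T'' : Scheme.{u}} (a : T'' ⟶ T') (b : T' ⟶ T) (s : F.obj (op T)) :
    F.map (a ≫ b).op s = F.map a.op (F.map b.op s) := by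
  rw [op_comp, F.map_comp]; rfl

/-- Naturality of a map out of a representable presheaf, in applied form. -/
theorem app_comp {X : Scheme.{u}} (f : yoneda.obj X ⟶ F)
    {T T' : Scheme.{u}} (φ : T' ⟶ T) (x : T ⟶ X) :
    f.app (op T') (φ ≫ x) = F.map φ.op (f.app (op T) x) := by
  have := NatTrans.naturality_apply f φ.op x
  simpa using this

/-- The sieve generated by a family of opens covering `T` is a Zariski covering sieve. -/
theorem ofArrows_opens_mem_zariskiTopology {T : Scheme.{u}} {ι : Type*} (U : ι → T.Opens)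
    (hU : ⨆ i, U i = ⊤) :
    Sieve.ofArrows (fun i => (U i).toScheme) (fun i => (U i).ι) ∈ Scheme.zariskiTopology T :=
  (T.openCoverOfIsOpenCover U (.mk hU)).mem_grothendieckTopology

end General

/-! ### (a) Open subfunctor criterion -/

section OpenSubfunctor

/-- The hypothesis of the open subfunctor criterion: for every section `ξ` of `F` over `T` there
is a universal open `U ⊆ T` over which `ξ` comes from `X` through `f`. -/
def HasOpenLoci {F : Scheme.{u}ᵒᵖ ⥤ Type u} {X : Scheme.{u}} (f : yoneda.obj X ⟶ F) : Prop :=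
  ∀ (T : Scheme.{u}) (ξ : F.obj (op T)),
    ∃ (U : T.Opens) (x : U.toScheme ⟶ X),
      f.app (op U.toScheme) x = F.map U.ι.op ξ ∧
      ∀ (T' : Scheme.{u}) (φ : T' ⟶ T) (y : T' ⟶ X),
        f.app (op T') y = F.map φ.op ξ →
        ∃ φ' : T' ⟶ U.toScheme, φ' ≫ U.ι = φ ∧ φ' ≫ x = y

/-- **Open subfunctor criterion.** -/
theorem isOpenImmersion_presheaf_of_hasOpenLoci {F : Scheme.{u}ᵒᵖ ⥤ Type u} {X : Scheme.{u}}
    (f : yoneda.obj X ⟶ F) (H : HasOpenLoci f) : IsOpenImmersion.presheaf f := by
  apply MorphismProperty.relative.of_exists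
  intro T g
  obtain ⟨U, x, hx, huniv⟩ := H T (yonedaEquiv g)
  refine ⟨U.toScheme, yoneda.map x, U.ι, ?_, inferInstance⟩
  apply IsPullback.of_forall_isPullback_app
  intro T'
  rw [Types.isPullback_iff]
  refine ⟨?_, ?_, ?_⟩
  · ext (φ' : T'.unop ⟶ U.toScheme)
    change f.app T' (φ' ≫ x) = g.app T' (φ' ≫ U.ι)
    rw [app_comp f φ' x, hx, app_comp g φ' U.ι, ← map_yonedaEquiv g U.ι]
  · rintro (a : T'.unop ⟶ U.toScheme) (b : T'.unop ⟶ U.toScheme) ⟨-, h2⟩
    change a ≫ U.ι = b ≫ U.ι at h2
    exact (cancel_mono U.ι).mp h2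
  · rintro (y : T'.unop ⟶ X) (φ : T'.unop ⟶ T) h
    obtain ⟨φ', h1, h2⟩ := huniv T'.unop φ y (by rw [map_yonedaEquiv g φ]; exact h)
    exact ⟨φ', h2, h1⟩

end OpenSubfunctor

/-! ### (b) Local surjectivity criterion -/

section LocallySurjective

/-- The hypothesis of the local surjectivity criterion: every section of `F` comes, locally
around every point, from one of the charts. -/
def LocallyCovered {F : Scheme.{u}ᵒᵖ ⥤ Type u} {ι : Type u} {X : ι → Scheme.{u}}
    (f : ∀ i, yoneda.obj (X i) ⟶ F) : Prop :=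
  ∀ (T : Scheme.{u}) (ξ : F.obj (op T)) (p : T),
    ∃ (i : ι) (U : T.Opens) (_ : p ∈ U) (y : U.toScheme ⟶ X i),
      (f i).app (op U.toScheme) y = F.map U.ι.op ξ

/-- **Local surjectivity criterion.** -/
theorem isLocallySurjective_sigmaDesc {F : Scheme.{u}ᵒᵖ ⥤ Type u} {ι : Type u}
    {X : ι → Scheme.{u}} (f : ∀ i, yoneda.obj (X i) ⟶ F) (H : LocallyCovered f) :
    Presheaf.IsLocallySurjective Scheme.zariskiTopology (Sigma.desc f) := by
  constructor
  intro T ξ
  choose i U hpU y hy using H T ξ
  have hU : ⨆ p, U p = ⊤ := by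
    rw [eq_top_iff]
    intro p _
    exact TopologicalSpace.Opens.mem_iSup.mpr ⟨p, hpU p⟩
  refine GrothendieckTopology.superset_covering _ ?_ (ofArrows_opens_mem_zariskiTopology U hU)
  rw [Sieve.ofArrows, Sieve.generate_le_iff]
  rintro _ _ ⟨p⟩
  refine ⟨(Sigma.ι (fun i => yoneda.obj (X i)) (i p)).app _ (y p), ?_⟩
  have h1 : (Sigma.desc f).app (op (U p).toScheme)
      ((Sigma.ι (fun i => yoneda.obj (X i)) (i p)).app _ (y p)) =
      (Sigma.ι (fun i => yoneda.obj (X i)) (i p) ≫ Sigma.desc f).app _ (y p) := rfl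
  rw [h1, Sigma.ι_desc]
  exact hy p

end LocallySurjective

/-! ### (c) Zariski sheaf criterion -/

section Sheaf

variable (F : Scheme.{u}ᵒᵖ ⥤ Type u)

/-- Sections of `F` are determined by their restrictions to the members of an open cover. -/
def OpensSeparated : Prop :=
  ∀ (T : Scheme.{u}) {ι : Type u} (U : ι → T.Opens), (⨆ i, U i = ⊤) →
    ∀ s s' : F.obj (op T), (∀ i, F.map (U i).ι.op s = F.map (U i).ι.op s') → s = s'

/-- Sections of `F` on the members of an open cover which agree on the pairwise intersections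
glue to a section. -/
def OpensGlue : Prop :=
  ∀ (T : Scheme.{u}) {ι : Type u} (U : ι → T.Opens), (⨆ i, U i = ⊤) →
    ∀ (s : ∀ i, F.obj (op (U i).toScheme)),
      (∀ i j, F.map (T.homOfLE (inf_le_left : U i ⊓ U j ≤ U i)).op (s i) =
        F.map (T.homOfLE (inf_le_right : U i ⊓ U j ≤ U j)).op (s j)) →
      ∃ s₀ : F.obj (op T), ∀ i, F.map (U i).ι.op s₀ = s i

variable {F}

/-- A family of sections over opens, compatible on pairwise intersections, is compatible in the
sense of `Presieve.Arrows.Compatible`. -/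
theorem arrowsCompatible_of_inf {T : Scheme.{u}} {ι : Type*} (U : ι → T.Opens)
    (s : ∀ i, F.obj (op (U i).toScheme))
    (hs : ∀ i j, F.map (T.homOfLE (inf_le_left : U i ⊓ U j ≤ U i)).op (s i) =
        F.map (T.homOfLE (inf_le_right : U i ⊓ U j ≤ U j)).op (s j)) :
    Presieve.Arrows.Compatible F (fun i => (U i).ι) s := by
  intro i j Z gi gj h
  have hrange : Set.range (gi ≫ (U i).ι) ⊆ Set.range (U i ⊓ U j).ι := by
    rintro _ ⟨z, rfl⟩
    have h1 : (gi ≫ (U i).ι) z ∈ U i := (gi z).2
    have h2 : (gi ≫ (U i).ι) z ∈ U j := by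
      rw [h]; exact (gj z).2
    simpa using (⟨h1, h2⟩ : (gi ≫ (U i).ι) z ∈ U i ⊓ U j)
  let l : Z ⟶ (U i ⊓ U j).toScheme := IsOpenImmersion.lift (U i ⊓ U j).ι (gi ≫ (U i).ι) hrange
  have hl : l ≫ (U i ⊓ U j).ι = gi ≫ (U i).ι := IsOpenImmersion.lift_fac _ _ _
  have hli : l ≫ T.homOfLE (inf_le_left : U i ⊓ U j ≤ U i) = gi := by
    rw [← cancel_mono (U i).ι, Category.assoc, Scheme.homOfLE_ι, hl]
  have hlj : l ≫ T.homOfLE (inf_le_right : U i ⊓ U j ≤ U j) = gj := by
    rw [← cancel_mono (U j).ι, Category.assoc, Scheme.homOfLE_ι, hl, h]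
  rw [← hli, ← hlj, map_comp_apply', map_comp_apply', hs i j]

/-- A Zariski sheaf is separated with respect to covers by open subschemes. -/
theorem opensSeparated_of_isSheaf (hF : Presieve.IsSheaf Scheme.zariskiTopology F) :
    OpensSeparated F := by
  intro T ι U hU s s' h
  have hmem := ofArrows_opens_mem_zariskiTopology U hU
  exact (hF _ hmem).isSeparatedFor.ext (by
    rintro Y g ⟨Z, a, _, ⟨i⟩, rfl⟩
    rw [map_comp_apply', map_comp_apply', h i])

/-- A Zariski sheaf satisfies gluing with respect to covers by open subschemes. -/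
theorem opensGlue_of_isSheaf (hF : Presieve.IsSheaf Scheme.zariskiTopology F) :
    OpensGlue F := by
  intro T ι U hU s hs
  have hmem := ofArrows_opens_mem_zariskiTopology U hU
  have h1 : Presieve.IsSheafFor F
      (Presieve.ofArrows (fun i => (U i).toScheme) (fun i => (U i).ι)) := by
    rw [Presieve.isSheafFor_iff_generate]
    exact hF _ hmem
  rw [Presieve.isSheafFor_arrows_iff] at h1
  obtain ⟨t, ht, -⟩ := h1 s (arrowsCompatible_of_inf U s hs)
  exact ⟨t, ht⟩

/-- The sheaf condition for one open cover (by open immersions), from separatedness and gluing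
for covers by open subschemes. -/
theorem isSheafFor_openCover (hsep : OpensSeparated F) (hglue : OpensGlue F)
    {Y : Scheme.{u}} (𝓤 : Y.OpenCover) :
    Presieve.IsSheafFor F (Presieve.ofArrows 𝓤.X 𝓤.f) := by
  rw [Presieve.isSheafFor_arrows_iff]
  intro x hx
  -- the opens of `Y` indexed by the points of `Y`
  let U : Y → Y.Opens := fun p => (𝓤.f (𝓤.idx p)).opensRange
  have hU : ⨆ p, U p = ⊤ := by
    rw [eq_top_iff]
    intro p _
    exact TopologicalSpace.Opens.mem_iSup.mpr ⟨p, 𝓤.covers p⟩
  let s : ∀ p, F.obj (op (U p).toScheme) := fun p =>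
    F.map (𝓤.f (𝓤.idx p)).isoOpensRange.inv.op (x (𝓤.idx p))
  -- key transport lemma
  have key : ∀ (i : 𝓤.I₀) (Z : Scheme.{u}) (g : Z ⟶ 𝓤.X i) (p : Y) (h : Z ⟶ (U p).toScheme),
      g ≫ 𝓤.f i = h ≫ (U p).ι → F.map g.op (x i) = F.map h.op (s p) := by
    intro i Z g p h hgh
    rw [← map_comp_apply']
    apply hx
    rw [hgh, Category.assoc, Scheme.Hom.isoOpensRange_inv_comp]
  have hs : ∀ p q, F.map (Y.homOfLE (inf_le_left : U p ⊓ U q ≤ U p)).op (s p) =
      F.map (Y.homOfLE (inf_le_right : U p ⊓ U q ≤ U q)).op (s q) := by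
    intro p q
    rw [← map_comp_apply']
    apply key
    rw [Category.assoc, Scheme.Hom.isoOpensRange_inv_comp, Scheme.homOfLE_ι, Scheme.homOfLE_ι]
  obtain ⟨t, ht⟩ := hglue Y U hU s hs
  refine ⟨t, fun i => ?_, fun t' ht' => ?_⟩
  · -- `t` restricts to `x i` on every member of the cover
    let W : Y → (𝓤.X i).Opens := fun p => (𝓤.f i) ⁻¹ᵁ (U p)
    have hW : ⨆ p, W p = ⊤ := by
      rw [eq_top_iff]
      intro z _
      exact TopologicalSpace.Opens.mem_iSup.mpr ⟨𝓤.f i z, 𝓤.covers (𝓤.f i z)⟩
    apply hsep (𝓤.X i) W hW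
    intro p
    rw [key i _ (W p).ι p (𝓤.f i ∣_ U p) (morphismRestrict_ι _ _).symm, ← ht p,
      ← map_comp_apply', ← map_comp_apply', morphismRestrict_ι]
  · apply hsep Y U hU
    intro p
    rw [ht p, ← Scheme.Hom.isoOpensRange_inv_comp, map_comp_apply', ht']

/-- **Zariski sheaf criterion**: a presheaf on schemes which is separated and has gluing for
covers by open subschemes is a Zariski sheaf. -/
theorem isSheaf_of_opens (hsep : OpensSeparated F) (hglue : OpensGlue F) :
    Presieve.IsSheaf Scheme.zariskiTopology F := by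
  rw [Scheme.zariskiTopology, Scheme.grothendieckTopology,
    Precoverage.isSheaf_toGrothendieck_iff_of_isStableUnderBaseChange]
  intro Y S hS
  obtain ⟨(𝓤 : Scheme.OpenCover Y), rfl⟩ := Scheme.exists_cover_of_mem_pretopology hS
  exact isSheafFor_openCover hsep hglue 𝓤

/-- **Zariski sheaf criterion**, as an equivalence. -/
theorem isSheaf_iff_opens :
    Presieve.IsSheaf Scheme.zariskiTopology F ↔ OpensSeparated F ∧ OpensGlue F :=
  ⟨fun h => ⟨opensSeparated_of_isSheaf h, opensGlue_of_isSheaf h⟩,
    fun h => isSheaf_of_opens h.1 h.2⟩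

/-- The same, for `Presheaf.IsSheaf`. -/
theorem presheaf_isSheaf_iff_opens :
    Presheaf.IsSheaf Scheme.zariskiTopology F ↔ OpensSeparated F ∧ OpensGlue F := by
  rw [isSheaf_iff_isSheaf_of_type, isSheaf_iff_opens]

end Sheaf

/-! ### (d) The package -/

section Package

variable {F : Scheme.{u}ᵒᵖ ⥤ Type u}

/-- **Representability package**: a presheaf of types on schemes which is separated and has
gluing for covers by open subschemes, and which is covered by open subfunctors represented by
schemes `X i`, is representable by a scheme `J` covered by the `X i`. -/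
theorem exists_representableBy (hsep : OpensSeparated F) (hglue : OpensGlue F)
    {ι : Type u} {X : ι → Scheme.{u}} (f : ∀ i, yoneda.obj (X i) ⟶ F)
    (hopen : ∀ i, HasOpenLoci (f i)) (hcover : LocallyCovered f) :
    ∃ (J : Scheme.{u}) (r : F.RepresentableBy J) (j : ∀ i, X i ⟶ J),
      (∀ i, IsOpenImmersion (j i)) ∧ (∀ p : J, ∃ i, p ∈ Set.range (j i)) ∧
      ∀ i, r.homEquiv (j i) = yonedaEquiv (f i) := by
  let G : Sheaf Scheme.zariskiTopology (Type u) :=
    ⟨F, presheaf_isSheaf_iff_opens.mpr ⟨hsep, hglue⟩⟩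
  have hf : ∀ i, IsOpenImmersion.presheaf (f i) := fun i =>
    isOpenImmersion_presheaf_of_hasOpenLoci (f i) (hopen i)
  have hsurj : Presheaf.IsLocallySurjective Scheme.zariskiTopology (Sigma.desc f) :=
    isLocallySurjective_sigmaDesc f hcover
  refine ⟨(Scheme.LocalRepresentability.glueData (F := G) hf).glued,
    Scheme.LocalRepresentability.representableBy (F := G) hf,
    Scheme.LocalRepresentability.toGlued (F := G) hf, fun i => inferInstance, ?_, fun i => ?_⟩
  · intro p
    exact ⟨_, (Scheme.LocalRepresentability.glueData (F := G) hf).openCover.covers p⟩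
  · exact Scheme.LocalRepresentability.yonedaGluedToSheaf_app_toGlued (F := G) hf

end Package

end Fermat.Agent.Jac.RepCriteria
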