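/-
Fermat/Agent/Jac/RepSheaf81.lean (helper81)

Brick R3, sheaf part: the functor of points `RepFunctor.F hS P` is a Zariski sheaf, from
`ClassesIsSheaf c ε` and locality of the condition `P`, via the criterion of `RepCriteria`.
-/
import Mathlib
import Fermat.Agent.Jac.RepFunctor
import Fermat.Agent.Jac.RepCriteria

set_option autoImplicit false

open CategoryTheory CategoryTheory.Limits AlgebraicGeometry AlgebraicGeometry.RelPicard
open NeronModelInfra GoodReductionJacobian Opposite

universe u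

noncomputable section

namespace Fermat.Agent.Jac.RepSheaf81

open Fermat.Agent.Jac.RepFunctor Fermat.Agent.Jac.RepCriteria

variable {k : Type u} [Field k] {C : Scheme.{u}} {c : C ⟶ Spec (CommRingCat.of k)}
  {ε : SchemeHomOver (𝟙 (Spec (CommRingCat.of k))) c}
  (hS : ClassesIsSheaf c ε) (P : SubPicCondition c ε)

/-- Representable presheaves are separated for covers by open subschemes. -/
theorem hom_ext_of_opens {T X : Scheme.{u}} {ι : Type u} (U : ι → T.Opens) (hU : ⨆ i, U i = ⊤)
    (t t' : T ⟶ X) (h : ∀ i, (U i).ι ≫ t = (U i).ι ≫ t') : t = t' := by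
  have hsh : Presieve.IsSheaf Scheme.zariskiTopology (yoneda.obj X) :=
    GrothendieckTopology.Subcanonical.isSheaf_of_isRepresentable _
  exact opensSeparated_of_isSheaf hsh T U hU t t' h

/-- Morphisms glue along covers by open subschemes. -/
theorem exists_glue_hom {T X : Scheme.{u}} {ι : Type u} (U : ι → T.Opens) (hU : ⨆ i, U i = ⊤)
    (t : ∀ i, (U i).toScheme ⟶ X)
    (h : ∀ i j, T.homOfLE (inf_le_left : U i ⊓ U j ≤ U i) ≫ t i =
      T.homOfLE (inf_le_right : U i ⊓ U j ≤ U j) ≫ t j) :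
    ∃ t₀ : T ⟶ X, ∀ i, (U i).ι ≫ t₀ = t i := by
  have hsh : Presieve.IsSheaf Scheme.zariskiTopology (yoneda.obj X) :=
    GrothendieckTopology.Subcanonical.isSheaf_of_isRepresentable _
  exact opensGlue_of_isSheaf hsh T U hU t h

/-- Transport of an isomorphism between pullbacks along a propositional equality of structure
morphisms. -/
theorem iso_transport {T' T₁ T₂ : Scheme.{u}} {t' t'' : T' ⟶ Spec (CommRingCat.of k)}
    (h : t' = t'') {t₁ : T₁ ⟶ Spec (CommRingCat.of k)} {t₂ : T₂ ⟶ Spec (CommRingCat.of k)}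
    (M₁ : RigidifiedLineBundle c ε t₁) (M₂ : RigidifiedLineBundle c ε t₂)
    (a : T' ⟶ T₁) (b : T' ⟶ T₂) (ha' : a ≫ t₁ = t') (hb' : b ≫ t₂ = t')
    (ha'' : a ≫ t₁ = t'') (hb'' : b ≫ t₂ = t'')
    (e : Nonempty ((M₁.pullbackAlong (⟨a, ha'⟩ : SchemeHomOver t' t₁)).L ≅
      (M₂.pullbackAlong (⟨b, hb'⟩ : SchemeHomOver t' t₂)).L)) :
    Nonempty ((M₁.pullbackAlong (⟨a, ha''⟩ : SchemeHomOver t'' t₁)).L ≅
      (M₂.pullbackAlong (⟨b, hb''⟩ : SchemeHomOver t'' t₂)).L) := by
  subst h
  exact e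

/-- The functor of points is separated for covers by open subschemes. -/
theorem opensSeparated_F : OpensSeparated (F hS P) := by
  intro T ι U hU s s' h
  obtain ⟨M, hM, hs⟩ := exists_mkPt hS P (show FObj hS P T from s)
  obtain ⟨M', hM', hs'⟩ := exists_mkPt hS P (show FObj hS P T from s')
  obtain ⟨t, s₂⟩ := s
  obtain ⟨t', s₂'⟩ := s'
  simp only at M hM hs M' hM' hs'
  have h' : ∀ i, pull hS P (U i).ι (mkPt hS P t M hM) = pull hS P (U i).ι (mkPt hS P t' M' hM') := by
    intro i
    rw [← hs, ← hs']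
    exact h i
  have htt' : t = t' := by
    apply hom_ext_of_opens U hU
    intro i
    have := h' i
    rw [pull_mkPt, pull_mkPt] at this
    exact congrArg Sigma.fst this
  subst htt'
  have goal : mkPt hS P t M hM = mkPt hS P t M' hM' := by
    rw [mkPt_eq_mkPt_iff]
    apply hS.sep t M M' U hU
    intro i
    have := h' i
    rw [pull_mkPt, pull_mkPt] at this
    exact (mkPt_eq_mkPt_iff hS P _ _ _ _ _).1 this
  exact (hs.trans goal).trans hs'.symm

/-- The functor of points has gluing for covers by open subschemes. -/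
theorem opensGlue_F (hP : IsLocalCondition P) : OpensGlue (F hS P) := by
  intro T ι U hU s hs
  -- choose representatives
  have hrep : ∀ i, ∃ (M : RigidifiedLineBundle c ε (show FObj hS P (U i).toScheme from s i).1)
      (hM : P.P _ M), (show FObj hS P (U i).toScheme from s i) = mkPt hS P _ M hM :=
    fun i => exists_mkPt hS P _
  choose M hM hsM using hrep
  -- the structure morphisms
  let ti : ∀ i, (U i).toScheme ⟶ Spec (CommRingCat.of k) :=
    fun i => (show FObj hS P (U i).toScheme from s i).1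
  have hs' : ∀ i j, pull hS P (T.homOfLE (inf_le_left : U i ⊓ U j ≤ U i))
        (mkPt hS P (ti i) (M i) (hM i)) =
      pull hS P (T.homOfLE (inf_le_right : U i ⊓ U j ≤ U j)) (mkPt hS P (ti j) (M j) (hM j)) := by
    intro i j
    rw [← hsM i, ← hsM j]
    exact hs i j
  -- glue the structure morphisms
  obtain ⟨t, ht⟩ := exists_glue_hom U hU ti (fun i j => by
    have := hs' i j
    rw [pull_mkPt, pull_mkPt] at this
    exact congrArg Sigma.fst this)
  -- transport the bundles to the structure morphisms `(U i).ι ≫ t`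
  let ψ : ∀ i, SchemeHomOver ((U i).ι ≫ t) (ti i) := fun i => ⟨𝟙 _, by rw [Category.id_comp, ht i]⟩
  let M' : ∀ i, RigidifiedLineBundle c ε ((U i).ι ≫ t) := fun i => (M i).pullbackAlong (ψ i)
  have hM' : ∀ i, P.P _ (M' i) := fun i => P.pullback_mem _ _ (ψ i) _ (hM i)
  have hMM' : ∀ i, mkPt hS P (ti i) (M i) (hM i) = mkPt hS P ((U i).ι ≫ t) (M' i) (hM' i) :=
    fun i => mkPt_eq_of_id hS P (M i) (M' i) (ψ i) rfl (hM i) (hM' i) ⟨Iso.refl _⟩
  -- compatibility of the transported bundles
  have hcompat : ∀ i j, Nonempty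
      (((M' i).pullbackAlong (openInclLE t (inf_le_left : U i ⊓ U j ≤ U i))).L ≅
        ((M' j).pullbackAlong (openInclLE t (inf_le_right : U i ⊓ U j ≤ U j))).L) := by
    intro i j
    have h1 := hs' i j
    rw [hMM' i, hMM' j] at h1
    obtain ⟨hab, e⟩ := iso_of_pull_eq hS P (M' i) (hM' i) (M' j) (hM' j) _ _ h1
    exact iso_transport (by rw [← Category.assoc, Scheme.homOfLE_ι]) (M' i) (M' j) _ _ _ _ _ _ e
  obtain ⟨M₀, hM₀⟩ := hS.glue t U hU M' hcompat
  have hPM₀ : P.P t M₀ := hP t M₀ U hU fun i =>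
    P.congr _ (M' i) _ ⟨(hM₀ i).some.symm⟩ (hM' i)
  refine ⟨(show (F hS P).obj (op T) from mkPt hS P t M₀ hPM₀), fun i => ?_⟩
  show pull hS P (U i).ι (mkPt hS P t M₀ hPM₀) = s i
  rw [pull_mkPt]
  refine Eq.trans ?_ ((hsM i).trans (hMM' i)).symm
  exact (mkPt_eq_mkPt_iff hS P _ _ _ _ _).2 (hM₀ i)

/-- **The functor of points is a Zariski sheaf.** -/
theorem isSheaf_F (hP : IsLocalCondition P) :
    Presheaf.IsSheaf Scheme.zariskiTopology (F hS P) :=
  presheaf_isSheaf_iff_opens.mpr ⟨opensSeparated_F hS P, opensGlue_F hS P hP⟩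

end Fermat.Agent.Jac.RepSheaf81
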