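/-
Fermat/Agent/Jac/RepCharts.lean  (helper41)

Brick R3, part 2: the chart morphisms `yoneda (X i) ⟶ F` of a `ChartPackage` are relatively
representable open immersions and jointly locally surjective.
-/
import Mathlib
import Fermat.Agent.Jac.RepFunctor

set_option autoImplicit false

open CategoryTheory CategoryTheory.Limits AlgebraicGeometry AlgebraicGeometry.RelPicard
open NeronModelInfra GoodReductionJacobian Opposite

universe u

noncomputable section

namespace Fermat.Agent.Jac.RepCharts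

open Fermat.Agent.Jac.RepFunctor

variable {k : Type u} [Field k] {C : Scheme.{u}} {c : C ⟶ Spec (CommRingCat.of k)}
  {ε : SchemeHomOver (𝟙 (Spec (CommRingCat.of k))) c}
  (hS : ClassesIsSheaf c ε) (P : SubPicCondition c ε) (pkg : ChartPackage c ε P)

/-- The universal point over the chart `i`. -/
def univPt (i : pkg.ι) : FObj hS P (pkg.X i) :=
  mkPt hS P (pkg.x i) (pkg.bundle i) (pkg.bundle_mem i)

/-- The chart morphism. -/
def chartMap (i : pkg.ι) : yoneda.obj (pkg.X i) ⟶ F hS P :=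
  yonedaEquiv.symm (show (F hS P).obj (op (pkg.X i)) from univPt hS P pkg i)

theorem chartMap_app (i : pkg.ι) {T : Scheme.{u}} (y : T ⟶ pkg.X i) :
    (chartMap hS P pkg i).app (op T) y =
      mkPt hS P (y ≫ pkg.x i) ((pkg.bundle i).pullbackAlong ⟨y, rfl⟩)
        (P.pullback_mem _ _ _ _ (pkg.bundle_mem i)) := by
  show pull hS P y (univPt hS P pkg i) = _
  exact pull_mkPt hS P y (pkg.x i) (pkg.bundle i) (pkg.bundle_mem i)

theorem F_map_mkPt {T T' : Scheme.{u}} (φ : T' ⟶ T) (t : T ⟶ Spec (CommRingCat.of k))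
    (M : RigidifiedLineBundle c ε t) (hM : P.P t M) :
    (F hS P).map φ.op (mkPt hS P t M hM) =
      mkPt hS P (φ ≫ t) (M.pullbackAlong ⟨φ, rfl⟩) (P.pullback_mem _ _ _ _ hM) :=
  pull_mkPt hS P φ t M hM


/-- On the locus of `M`, the universal point of the chart and the point of `M` agree. -/
theorem pull_classify_eq (i : pkg.ι) {T : Scheme.{u}} (t : T ⟶ Spec (CommRingCat.of k))
    (M : RigidifiedLineBundle c ε t) (hM : P.P t M) :
    pull hS P (pkg.classify i t M hM).1 (univPt hS P pkg i) =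
      pull hS P (pkg.locus i t M hM).ι (mkPt hS P t M hM) := by
  have h1 := mkPt_eq_pull hS P (pkg.bundle i) (pkg.bundle_mem i) (pkg.classify i t M hM)
    ((pkg.bundle i).pullbackAlong (pkg.classify i t M hM))
    (P.pullback_mem _ _ _ _ (pkg.bundle_mem i)) ⟨Iso.refl _⟩
  have h2 := mkPt_eq_pull hS P M hM (openIncl t (pkg.locus i t M hM))
    (restrictOpen M (pkg.locus i t M hM)) (P.pullback_mem _ _ _ _ hM) ⟨Iso.refl _⟩
  unfold univPt
  rw [← h1]
  show _ = pull hS P (openIncl t (pkg.locus i t M hM)).1 _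
  rw [← h2]
  exact (mkPt_eq_mkPt_iff hS P _ _ _ _ _).2 (pkg.classify_iso i t M hM)

set_option maxHeartbeats 400000 in
/-- The chart morphisms are relatively representable open immersions. -/
theorem chartMap_isOpenImmersion (i : pkg.ι) :
    IsOpenImmersion.presheaf (chartMap hS P pkg i) := by
  apply MorphismProperty.relative.of_exists
  intro T g
  obtain ⟨ξ, rfl⟩ := yonedaEquiv.symm.surjective g
  obtain ⟨M, hM, hξ⟩ := exists_mkPt hS P ξ
  obtain ⟨t, ξ₂⟩ := ξ
  simp only at M hM hξ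
  let U := pkg.locus i t M hM
  refine ⟨U.toScheme, yoneda.map (pkg.classify i t M hM).1, U.ι, ?_, inferInstance⟩
  apply IsPullback.of_forall_isPullback_app
  intro T'
  rw [Types.isPullback_iff]
  refine ⟨?_, ?_, ?_⟩
  · ext φ
    show pull hS P (φ ≫ (pkg.classify i t M hM).1) (univPt hS P pkg i) =
      pull hS P (φ ≫ U.ι) ⟨t, ξ₂⟩
    rw [hξ, pull_comp, pull_comp, pull_classify_eq]
  · rintro φ₁ φ₂ ⟨-, h₂⟩
    have h₂' : φ₁ ≫ U.ι = φ₂ ≫ U.ι := h₂
    exact (cancel_mono U.ι).1 h₂'
  · intro y φ h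
    have h' : pull hS P y (univPt hS P pkg i) = pull hS P φ ⟨t, ξ₂⟩ := h
    rw [hξ] at h'
    obtain ⟨hab, e⟩ := iso_of_pull_eq hS P (pkg.bundle i) (pkg.bundle_mem i) M hM y φ h'
    obtain ⟨φ', h1, h2⟩ := pkg.universal i t M hM (φ ≫ t) ⟨φ, rfl⟩ ⟨y, hab⟩ e
    exact ⟨φ', h2, h1⟩


/-- The chart morphisms are jointly locally surjective for the Zariski topology. -/
theorem chartMap_isLocallySurjective :
    Presheaf.IsLocallySurjective Scheme.zariskiTopology
      (Sigma.desc (chartMap hS P pkg)) := by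
  constructor
  intro T s
  obtain ⟨M, hM, hs⟩ := exists_mkPt hS P (show FObj hS P T from s)
  obtain ⟨t, s₂⟩ := s
  simp only at M hM hs
  let 𝒰 := T.openCoverOfIsOpenCover (fun i => pkg.locus i t M hM) (pkg.cover t M hM)
  refine GrothendieckTopology.superset_covering _ ?_ 𝒰.mem_grothendieckTopology
  rw [Sieve.ofArrows, Sieve.generate_le_iff]
  rintro V g ⟨(i : pkg.ι)⟩
  refine ⟨(Sigma.ι (fun i => yoneda.obj (pkg.X i)) i).app (op _) (pkg.classify i t M hM).1, ?_⟩
  have h1 : (Sigma.ι (fun i => yoneda.obj (pkg.X i)) i) ≫ Sigma.desc (chartMap hS P pkg) =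
      chartMap hS P pkg i := Sigma.ι_desc _ _
  have h2 := congrArg (fun f => f.app (op (𝒰.X i)) (pkg.classify i t M hM).1) h1
  simp only [NatTrans.comp_app] at h2
  refine h2.trans ?_
  show pull hS P (pkg.classify i t M hM).1 (univPt hS P pkg i) =
    pull hS P (pkg.locus i t M hM).ι ⟨t, s₂⟩
  rw [hs]
  exact pull_classify_eq hS P pkg (i : pkg.ι) t M hM

end Fermat.Agent.Jac.RepCharts
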