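/-
Fermat/Agent/Jac/RepTheorem.lean  (helper41)

Brick R3 (Theorem R): if isomorphism classes of rigidified line bundles form a Zariski sheaf and the
sub-functor cut out by `P` has a `ChartPackage`, then it is representable:
`∃ D, Nonempty (RepresentsRelSubPic c ε P D)`, and the charts are open subschemes covering `D.P`.
-/
import Mathlib
import Fermat.Agent.Jac.RepCharts

set_option autoImplicit false

open CategoryTheory CategoryTheory.Limits AlgebraicGeometry AlgebraicGeometry.RelPicard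
open NeronModelInfra GoodReductionJacobian Opposite

universe u

noncomputable section

namespace Fermat.Agent.Jac.RepTheorem

open Fermat.Agent.Jac.RepFunctor Fermat.Agent.Jac.RepCharts

variable {k : Type u} [Field k] {C : Scheme.{u}} {c : C ⟶ Spec (CommRingCat.of k)}
  {ε : SchemeHomOver (𝟙 (Spec (CommRingCat.of k))) c}
  (hS : ClassesIsSheaf c ε) (P : SubPicCondition c ε)

/-- Characterisation of `pull g (mkPt ..) = mkPt ..`. -/
theorem pull_mkPt_eq_mkPt_iff {T J : Scheme.{u}} {tJ : J ⟶ Spec (CommRingCat.of k)}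
    {t : T ⟶ Spec (CommRingCat.of k)} (N : RigidifiedLineBundle c ε tJ) (hN : P.P tJ N)
    (M : RigidifiedLineBundle c ε t) (hM : P.P t M) (g : T ⟶ J) :
    pull hS P g (mkPt hS P tJ N hN) = mkPt hS P t M hM ↔
      ∃ h : g ≫ tJ = t, Nonempty ((N.pullbackAlong (⟨g, h⟩ : SchemeHomOver t tJ)).L ≅ M.L) := by
  rw [pull_mkPt]
  constructor
  · intro h
    have h1 : g ≫ tJ = t := congrArg Sigma.fst h
    refine ⟨h1, ?_⟩
    have h2 := mkPt_pullbackAlong_congr hS P N (⟨g, h1⟩ : SchemeHomOver t tJ)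
      (⟨g, rfl⟩ : SchemeHomOver (g ≫ tJ) tJ) rfl
      (P.pullback_mem _ _ _ _ hN) (P.pullback_mem _ _ _ _ hN)
    rw [← h2] at h
    exact (mkPt_eq_mkPt_iff hS P _ _ _ _ _).1 h
  · rintro ⟨h1, e⟩
    have h2 := mkPt_pullbackAlong_congr hS P N (⟨g, h1⟩ : SchemeHomOver t tJ)
      (⟨g, rfl⟩ : SchemeHomOver (g ≫ tJ) tJ) rfl
      (P.pullback_mem _ _ _ _ hN) (P.pullback_mem _ _ _ _ hN)
    rw [← h2]
    exact (mkPt_eq_mkPt_iff hS P _ _ _ _ _).2 e

/-- From a representing object of the functor of points to `RepresentsRelSubPic`. -/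
theorem exists_represents_of_representableBy {J : Scheme.{u}}
    (r : (F hS P).RepresentableBy J) :
    ∃ (toBase : J ⟶ Spec (CommRingCat.of k)) (z : Spec (CommRingCat.of k) ⟶ J)
      (hz : z ≫ toBase = 𝟙 _),
      Nonempty (RepresentsRelSubPic c ε P ⟨J, toBase, z, hz⟩) ∧
      ∀ {T : Scheme.{u}} (g : T ⟶ J),
        (show FObj hS P T from r.homEquiv g).1 = g ≫ toBase := by
  obtain ⟨u, hu_def⟩ : ∃ u : FObj hS P J, u = r.homEquiv (𝟙 J) := ⟨_, rfl⟩
  obtain ⟨Pu, hPu, hu⟩ := exists_mkPt hS P u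
  -- the value of `homEquiv` on any morphism
  have key : ∀ {T : Scheme.{u}} (g : T ⟶ J),
      (show FObj hS P T from r.homEquiv g) = pull hS P g (mkPt hS P u.1 Pu hPu) := by
    intro T g
    have h1 := r.homEquiv_comp g (𝟙 J)
    rw [Category.comp_id] at h1
    rw [← hu, hu_def]
    exact h1
  -- the zero section
  let z : Spec (CommRingCat.of k) ⟶ J :=
    r.homEquiv.symm (show (F hS P).obj (op _) from
      mkPt hS P (𝟙 _) (RigidifiedLineBundle.unit (𝟙 _)) (P.unit_mem _))
  have hz : pull hS P z (mkPt hS P u.1 Pu hPu) =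
      mkPt hS P (𝟙 _) (RigidifiedLineBundle.unit (𝟙 _)) (P.unit_mem _) := by
    rw [← key z]
    exact r.homEquiv.apply_symm_apply _
  obtain ⟨hz1, hz2⟩ := (pull_mkPt_eq_mkPt_iff hS P Pu hPu _ _ z).1 hz
  refine ⟨u.1, z, hz1, ⟨?_⟩, fun g => by rw [key g, pull_mkPt]; rfl⟩
  refine ⟨Pu, hPu, ?_, hz2⟩
  intro T t M hM
  let g : T ⟶ J := r.homEquiv.symm (show (F hS P).obj (op _) from mkPt hS P t M hM)
  have hg : pull hS P g (mkPt hS P u.1 Pu hPu) = mkPt hS P t M hM := by
    rw [← key g]
    exact r.homEquiv.apply_symm_apply _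
  obtain ⟨hg1, hg2⟩ := (pull_mkPt_eq_mkPt_iff hS P Pu hPu M hM g).1 hg
  refine ⟨⟨g, hg1⟩, hg2, ?_⟩
  rintro ⟨g', hg'1⟩ hg'2
  have h3 : pull hS P g' (mkPt hS P u.1 Pu hPu) = mkPt hS P t M hM :=
    (pull_mkPt_eq_mkPt_iff hS P Pu hPu M hM g').2 ⟨hg'1, hg'2⟩
  rw [← key g'] at h3
  have h4 : g' = g := by
    apply r.homEquiv.injective
    rw [r.homEquiv.apply_symm_apply]
    exact h3
  exact Subtype.ext h4

/-- **Theorem R.** A Zariski-sheaf functor of rigidified line bundles with a chart package is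
representable, and the charts form an open cover of the representing scheme. -/
theorem exists_represents (pkg : ChartPackage c ε P)
    (hsheaf : Presheaf.IsSheaf Scheme.zariskiTopology (F hS P)) :
    ∃ (D : RelativePic0Designation k c) (j : ∀ i, pkg.X i ⟶ D.P),
      Nonempty (RepresentsRelSubPic c ε P D) ∧ (∀ i, IsOpenImmersion (j i)) ∧
      (∀ p : D.P, ∃ i, p ∈ Set.range (j i)) ∧ ∀ i, j i ≫ D.toBase = pkg.x i := by
  let G : Sheaf Scheme.zariskiTopology (Type u) := ⟨F hS P, hsheaf⟩
  have hf : ∀ i, IsOpenImmersion.presheaf (chartMap hS P pkg i) :=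
    fun i => chartMap_isOpenImmersion hS P pkg i
  have hsurj : Presheaf.IsLocallySurjective Scheme.zariskiTopology
      (Sigma.desc (chartMap hS P pkg)) := chartMap_isLocallySurjective hS P pkg
  let r : (F hS P).RepresentableBy (Scheme.LocalRepresentability.glueData (F := G) hf).glued :=
    Scheme.LocalRepresentability.representableBy (F := G) hf
  obtain ⟨toBase, z, hz, hrep, hfst⟩ := exists_represents_of_representableBy hS P r
  refine ⟨⟨_, toBase, z, hz⟩, Scheme.LocalRepresentability.toGlued (F := G) hf, hrep,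
    fun i => inferInstance, fun p => ?_, fun i => ?_⟩
  · exact ⟨_, (Scheme.LocalRepresentability.glueData (F := G) hf).openCover.covers p⟩
  · have h1 : r.homEquiv (Scheme.LocalRepresentability.toGlued (F := G) hf i) =
        yonedaEquiv (chartMap hS P pkg i) :=
      Scheme.LocalRepresentability.yonedaGluedToSheaf_app_toGlued (F := G) hf
    have h2 := hfst (Scheme.LocalRepresentability.toGlued (F := G) hf i)
    rw [← h2]
    have h3 : (show FObj hS P (pkg.X i) from
        r.homEquiv (Scheme.LocalRepresentability.toGlued (F := G) hf i)) = univPt hS P pkg i := by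
      rw [h1]
      exact yonedaEquiv.apply_symm_apply _
    rw [h3]
    rfl

end Fermat.Agent.Jac.RepTheorem
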