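/-
Fermat/Agent/Jac/RepTransport.lean  (helper41)

Brick R2b, part 2: loci of a chart from affine-local data.  If the universal point of a chart is
injective on affine points, and an open `U ⊆ Spec A` is characterised on affine points as the
locus where a point `m` of the functor comes from the chart, then `U` is the locus of `m` in the
sense of `RepAffineChoice.IsLocus` (the classifying morphism is glued with
`AffGroup79Glue.AffineFamily.glue`, the isomorphism of bundles with the separatedness of the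
functor of points).
-/
import Mathlib
import Fermat.Agent.Jac.RepAffineChoice
import Fermat.Agent.Jac.RepTheorem
import Fermat.Agent.Jac.RepSheaf81
import Fermat.Agent.Jac.AffGroup79Glue

set_option autoImplicit false

open CategoryTheory CategoryTheory.Limits AlgebraicGeometry AlgebraicGeometry.RelPicard
open NeronModelInfra GoodReductionJacobian Opposite

universe u

noncomputable section

namespace Fermat.Agent.Jac.RepTransport

open Fermat.Agent.Jac.RepFunctor Fermat.Agent.Jac.RepAffineChoice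

variable {k : Type u} [Field k] {C : Scheme.{u}} {c : C ⟶ Spec (CommRingCat.of k)}
  {ε : SchemeHomOver (𝟙 (Spec (CommRingCat.of k))) c}
  (hS : ClassesIsSheaf c ε) {P : SubPicCondition c ε}

/-- The universal point of the chart `i`. -/
def chartPt (cd : ChartData c ε P) (i : cd.ι) : FObj hS P (cd.X i) :=
  mkPt hS P (cd.x i) (cd.bundle i) (cd.bundle_mem i)

theorem pull_fst {T T' : Scheme.{u}} (φ : T' ⟶ T) (p : FObj hS P T) :
    (pull hS P φ p).1 = φ ≫ p.1 := rfl

/-- The bundle condition in `IsLocus`, in terms of points. -/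
theorem pull_eq_pull_of_iso {T T₁ T₂ : Scheme.{u}} {t : T ⟶ Spec (CommRingCat.of k)}
    {t₁ : T₁ ⟶ Spec (CommRingCat.of k)} {t₂ : T₂ ⟶ Spec (CommRingCat.of k)}
    (M₁ : RigidifiedLineBundle c ε t₁) (hM₁ : P.P t₁ M₁)
    (M₂ : RigidifiedLineBundle c ε t₂) (hM₂ : P.P t₂ M₂)
    (a : SchemeHomOver t t₁) (b : SchemeHomOver t t₂)
    (e : Nonempty ((M₁.pullbackAlong a).L ≅ (M₂.pullbackAlong b).L)) :
    pull hS P a.1 (mkPt hS P t₁ M₁ hM₁) = pull hS P b.1 (mkPt hS P t₂ M₂ hM₂) := by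
  rw [← mkPt_eq_pull hS P M₁ hM₁ a (M₁.pullbackAlong a) (P.pullback_mem _ _ _ _ hM₁)
    ⟨Iso.refl _⟩]
  exact mkPt_eq_pull hS P M₂ hM₂ b (M₁.pullbackAlong a) (P.pullback_mem _ _ _ _ hM₁) e

/-- `IsLocus` from its formulation in terms of points of the functor. -/
theorem isLocus_of_points (cd : ChartData c ε P) (i : cd.ι) {A : CommRingCat.{u}}
    (t : Spec A ⟶ Spec (CommRingCat.of k)) (M : RigidifiedLineBundle c ε t) (hM : P.P t M)
    (U : (Spec A).Opens) (cl : SchemeHomOver (U.ι ≫ t) (cd.x i))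
    (h1 : pull hS P cl.1 (chartPt hS cd i) = pull hS P U.ι (mkPt hS P t M hM))
    (h2 : ∀ (A' : CommRingCat.{u}) (φ : Spec A' ⟶ Spec A) (y : Spec A' ⟶ cd.X i),
      pull hS P y (chartPt hS cd i) = pull hS P φ (mkPt hS P t M hM) →
      ∃ φ' : Spec A' ⟶ U.toScheme, φ' ≫ U.ι = φ ∧ φ' ≫ cl.1 = y) :
    IsLocus cd i t M U cl := by
  constructor
  · obtain ⟨hab, e⟩ := iso_of_pull_eq hS P (cd.bundle i) (cd.bundle_mem i) M hM cl.1 U.ι h1
    exact e
  · intro A' t' φ y e
    exact h2 A' φ.1 y.1 (pull_eq_pull_of_iso hS (cd.bundle i) (cd.bundle_mem i) M hM y φ e)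

/-- **Loci from affine-local data.** -/
theorem exists_isLocus_of_affine_points (cd : ChartData c ε P) (i : cd.ι) {A : CommRingCat.{u}}
    (t : Spec A ⟶ Spec (CommRingCat.of k)) (M : RigidifiedLineBundle c ε t) (hM : P.P t M)
    (U : (Spec A).Opens)
    (hinj : ∀ (B : CommRingCat.{u}) (y y' : Spec B ⟶ cd.X i),
      pull hS P y (chartPt hS cd i) = pull hS P y' (chartPt hS cd i) → y = y')
    (hex : ∀ (B : CommRingCat.{u}) (ψ : Spec B ⟶ Spec A), (∀ x, ψ x ∈ U) →
      ∃ y : Spec B ⟶ cd.X i,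
        pull hS P y (chartPt hS cd i) = pull hS P ψ (mkPt hS P t M hM))
    (huniv : ∀ (B : CommRingCat.{u}) (ψ : Spec B ⟶ Spec A) (y : Spec B ⟶ cd.X i),
      pull hS P y (chartPt hS cd i) = pull hS P ψ (mkPt hS P t M hM) → ∀ x, ψ x ∈ U) :
    ∃ cl : SchemeHomOver (U.ι ≫ t) (cd.x i), IsLocus cd i t M U cl := by
  have hmem : ∀ (B : CommRingCat.{u}) (ψ : Spec B ⟶ U.toScheme) (x : Spec B),
      (ψ ≫ U.ι) x ∈ U := fun B ψ x => (ψ x).2
  let fam : AffGroup79Glue.AffineFamily U.toScheme (cd.X i) :=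
    { m := fun B ψ => (hex B (ψ ≫ U.ι) (hmem B ψ)).choose
      natural := by
        intro B B' φ ψ
        apply hinj
        rw [pull_comp, (hex B (ψ ≫ U.ι) (hmem B ψ)).choose_spec,
          (hex B' ((Spec.map φ ≫ ψ) ≫ U.ι) (hmem B' _)).choose_spec, ← pull_comp,
          Category.assoc] }
  have hfam : ∀ (B : CommRingCat.{u}) (ψ : Spec B ⟶ U.toScheme),
      pull hS P (fam.m B ψ) (chartPt hS cd i) = pull hS P (ψ ≫ U.ι) (mkPt hS P t M hM) :=
    fun B ψ => (hex B (ψ ≫ U.ι) (hmem B ψ)).choose_spec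
  have key : pull hS P fam.glue (chartPt hS cd i) = pull hS P U.ι (mkPt hS P t M hM) := by
    refine RepSheaf81.opensSeparated_F hS P U.toScheme
      (fun V : U.toScheme.affineOpens => V.1) (iSup_affineOpens_eq_top _) _ _ ?_
    intro V
    show pull hS P V.1.ι _ = pull hS P V.1.ι _
    have hV : V.1.ι = V.2.isoSpec.hom ≫ V.2.fromSpec := (V.2.isoSpec_hom_fromSpec).symm
    rw [hV, pull_comp hS P, pull_comp hS P, ← pull_comp hS P _ fam.glue, fam.comp_glue, hfam,
      pull_comp hS P]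
  have hcl : fam.glue ≫ cd.x i = U.ι ≫ t := congrArg Sigma.fst key
  refine ⟨⟨fam.glue, hcl⟩, isLocus_of_points hS cd i t M hM U _ key ?_⟩
  intro A' φ y hy
  have hφ : Set.range φ ⊆ Set.range U.ι := by
    rintro _ ⟨x, rfl⟩
    rw [Scheme.Opens.range_ι]
    exact huniv A' φ y hy x
  refine ⟨IsOpenImmersion.lift U.ι φ hφ, IsOpenImmersion.lift_fac _ _ _, ?_⟩
  show IsOpenImmersion.lift U.ι φ hφ ≫ fam.glue = y
  rw [fam.comp_glue]
  apply hinj
  rw [hfam, IsOpenImmersion.lift_fac, hy]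

end Fermat.Agent.Jac.RepTransport
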