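/-
Fermat/Agent/Jac/RepTransportFam.lean  (helper41)

Brick R2b, part 3: an `AffineChartPackage` from an algebraic chart package
(`AlgChart76.AlgChartPackage F`, brick R2a) and a dictionary between rigidified line bundles in the
cut `P` over `specStr A` and the objects of the moduli problem `F` over `A` (`FamDictionary`,
to be produced from the affine dictionary B1b).
-/
import Mathlib
import Fermat.Agent.Jac.RepTransport
import Fermat.Agent.Jac.AlgChart76.Statement
import Fermat.Agent.Jac.BridgeCharts33Nat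

set_option autoImplicit false

open CategoryTheory CategoryTheory.Limits AlgebraicGeometry AlgebraicGeometry.RelPicard
open NeronModelInfra GoodReductionJacobian Opposite

universe u

noncomputable section

namespace Fermat.Agent.Jac.RepTransport

open Fermat.Agent.Jac.RepFunctor Fermat.Agent.Jac.RepAffineChoice Fermat.Agent.Jac.AlgChart76
open Fermat.Agent.Jac.BridgeCharts33 (specOver)

variable {k : Type u} [Field k] {C : Scheme.{u}} {c : C ⟶ Spec (CommRingCat.of k)}
  {ε : SchemeHomOver (𝟙 (Spec (CommRingCat.of k))) c}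

/-- A dictionary between rigidified line bundles in the cut `P` over the affine test schemes
`specStr A` and the objects of a moduli problem `F` on `k`-algebras. -/
structure FamDictionary (c : C ⟶ Spec (CommRingCat.of k))
    (ε : SchemeHomOver (𝟙 (Spec (CommRingCat.of k))) c) (P : SubPicCondition c ε)
    (F : FamTheory k) where
  /-- `Rel A M L`: the object `L` describes the rigidified bundle `M` -/
  Rel : ∀ (A : Type u) [CommRing A] [Algebra k A],
    RigidifiedLineBundle c ε (specStr (k := k) A) → F.Obj A → Prop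
  rel_mem : ∀ {A : Type u} [CommRing A] [Algebra k A]
    {M : RigidifiedLineBundle c ε (specStr (k := k) A)} {L : F.Obj A},
    Rel A M L → P.P (specStr (k := k) A) M
  exists_obj : ∀ {A : Type u} [CommRing A] [Algebra k A]
    (M : RigidifiedLineBundle c ε (specStr (k := k) A)), P.P (specStr (k := k) A) M →
    ∃ L : F.Obj A, Rel A M L
  exists_bundle : ∀ {A : Type u} [CommRing A] [Algebra k A] (L : F.Obj A),
    ∃ M : RigidifiedLineBundle c ε (specStr (k := k) A), Rel A M L
  iso_iff : ∀ {A : Type u} [CommRing A] [Algebra k A]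
    {M M' : RigidifiedLineBundle c ε (specStr (k := k) A)} {L L' : F.Obj A},
    Rel A M L → Rel A M' L' → (Nonempty (M.L ≅ M'.L) ↔ F.Iso L L')
  baseChange : ∀ {A A' : Type u} [CommRing A] [Algebra k A] [CommRing A'] [Algebra k A']
    (φ : A →ₐ[k] A') {M : RigidifiedLineBundle c ε (specStr (k := k) A)} {L : F.Obj A}
    {L' : F.Obj A'}, Rel A M L → F.BC φ L L' → Rel A' (M.pullbackAlong (specOver φ)) L'

/-- A morphism of affine schemes over `Spec k` comes from a homomorphism of `k`-algebras. -/
theorem exists_algHom_eq_specMap {A B : Type u} [CommRing A] [Algebra k A] [CommRing B]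
    [Algebra k B] (ψ : Spec (CommRingCat.of B) ⟶ Spec (CommRingCat.of A))
    (h : ψ ≫ specStr (k := k) A = specStr (k := k) B) :
    ∃ φ : A →ₐ[k] B, ψ = Spec.map (CommRingCat.ofHom φ.toRingHom) := by
  obtain ⟨φ₀, rfl⟩ := Spec.map_surjective ψ
  unfold specStr at h
  rw [← Spec.map_comp] at h
  have h' := Spec.map_injective h
  refine ⟨{ φ₀.hom with commutes' := fun x => ?_ }, rfl⟩
  exact congrArg (fun f => f.hom x) h'

variable (hS : ClassesIsSheaf c ε) {P : SubPicCondition c ε} {F : FamTheory k}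
  (dict : FamDictionary c ε P F)

/-- The point of the functor over `Spec A` attached to a bundle over `specStr A`. -/
def affPt {A : Type u} [CommRing A] [Algebra k A]
    (M : RigidifiedLineBundle c ε (specStr (k := k) A)) (hM : P.P (specStr (k := k) A) M) :
    FObj hS P (Spec (CommRingCat.of A)) :=
  mkPt hS P (specStr (k := k) A) M hM

include dict in
/-- Pulling back an affine point along `Spec φ` corresponds to base change along `φ`. -/
theorem pull_affPt {A B : Type u} [CommRing A] [Algebra k A] [CommRing B] [Algebra k B]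
    (φ : A →ₐ[k] B) {M : RigidifiedLineBundle c ε (specStr (k := k) A)} {L : F.Obj A}
    {L' : F.Obj B} (hML : dict.Rel A M L) (hL : F.BC φ L L') :
    pull hS P (Spec.map (CommRingCat.ofHom φ.toRingHom)) (affPt hS M (dict.rel_mem hML)) =
      affPt hS (M.pullbackAlong (specOver φ)) (dict.rel_mem (dict.baseChange φ hML hL)) :=
  (mkPt_eq_pull hS P M (dict.rel_mem hML) (specOver φ) _ _ ⟨Iso.refl _⟩).symm

include dict in
theorem affPt_eq_iff {B : Type u} [CommRing B] [Algebra k B]
    {N N' : RigidifiedLineBundle c ε (specStr (k := k) B)} {L L' : F.Obj B}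
    (h : dict.Rel B N L) (h' : dict.Rel B N' L') :
    affPt hS N (dict.rel_mem h) = affPt hS N' (dict.rel_mem h') ↔ F.Iso L L' := by
  unfold affPt
  rw [mkPt_eq_mkPt_iff]
  exact dict.iso_iff h h'

include dict in
/-- Two pulled back affine points agree iff the base changes are isomorphic. -/
theorem pull_affPt_eq_iff {A A' B : Type u} [CommRing A] [Algebra k A] [CommRing A']
    [Algebra k A'] [CommRing B] [Algebra k B]
    (φ : A →ₐ[k] B) (φ' : A' →ₐ[k] B) {M : RigidifiedLineBundle c ε (specStr (k := k) A)}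
    {M' : RigidifiedLineBundle c ε (specStr (k := k) A')} {L : F.Obj A} {L' : F.Obj A'}
    {L₁ L₂ : F.Obj B} (hML : dict.Rel A M L) (hML' : dict.Rel A' M' L')
    (hL : F.BC φ L L₁) (hL' : F.BC φ' L' L₂) :
    pull hS P (Spec.map (CommRingCat.ofHom φ.toRingHom)) (affPt hS M (dict.rel_mem hML)) =
      pull hS P (Spec.map (CommRingCat.ofHom φ'.toRingHom)) (affPt hS M' (dict.rel_mem hML')) ↔
      F.Iso L₁ L₂ := by
  rw [pull_affPt hS dict φ hML hL, pull_affPt hS dict φ' hML' hL']
  exact affPt_eq_iff hS dict (dict.baseChange φ hML hL) (dict.baseChange φ' hML' hL')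

variable (pkg : AlgChartPackage F)

/-- The open subset `O i ⊆ Spec (H i)` as an open of the scheme. -/
def chartOpen (i : pkg.ι) : (Spec (CommRingCat.of (pkg.chart i).H)).Opens :=
  ⟨((pkg.chart i).O : Set (PrimeSpectrum (pkg.chart i).H)), (pkg.chart i).O.2⟩

/-- The locus of an object, as an open of the scheme `Spec A`. -/
def locusOpen (i : pkg.ι) {A : Type u} [CommRing A] [Algebra k A] (L : F.Obj A) :
    (Spec (CommRingCat.of A)).Opens :=
  ⟨(((pkg.chart i).locus L : TopologicalSpace.Opens (PrimeSpectrum A)) :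
    Set (PrimeSpectrum A)), ((pkg.chart i).locus L).2⟩

/-- The universal bundle over `Spec (H i)`. -/
def univBundle (i : pkg.ι) : RigidifiedLineBundle c ε (specStr (k := k) (pkg.chart i).H) :=
  (dict.exists_bundle (pkg.chart i).U).choose

theorem univBundle_rel (i : pkg.ι) :
    dict.Rel (pkg.chart i).H (univBundle dict pkg i) (pkg.chart i).U :=
  (dict.exists_bundle (pkg.chart i).U).choose_spec

/-- The chart data of an algebraic chart package. -/
def chartData : ChartData c ε P where
  ι := pkg.ι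
  X i := (chartOpen pkg i).toScheme
  x i := (chartOpen pkg i).ι ≫ specStr (k := k) (pkg.chart i).H
  bundle i := restrictOpen (univBundle dict pkg i) (chartOpen pkg i)
  bundle_mem i := P.pullback_mem _ _ _ _ (dict.rel_mem (univBundle_rel dict pkg i))

/-- The universal point over `Spec (H i)`. -/
def univPtH (i : pkg.ι) : FObj hS P (Spec (CommRingCat.of (pkg.chart i).H)) :=
  affPt hS (univBundle dict pkg i) (dict.rel_mem (univBundle_rel dict pkg i))

theorem chartPt_eq (i : pkg.ι) :
    chartPt hS (chartData dict pkg) i =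
      pull hS P (chartOpen pkg i).ι (univPtH hS dict pkg i) :=
  (pull_mkPt hS P _ _ _ _).symm

theorem pull_chartPt (i : pkg.ι) {T : Scheme.{u}} (y : T ⟶ (chartOpen pkg i).toScheme) :
    pull hS P y (chartPt hS (chartData dict pkg) i) =
      pull hS P (y ≫ (chartOpen pkg i).ι) (univPtH hS dict pkg i) := by
  rw [chartPt_eq, ← pull_comp]

/-! ### The three affine-local properties, for `k`-algebras -/

/-- injectivity of a chart on affine points -/
theorem algHom_eq_of_pull_eq (i : pkg.ι) {B : Type u} [CommRing B] [Algebra k B]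
    (ψ ψ' : (pkg.chart i).H →ₐ[k] B)
    (hψ : ∀ p, PrimeSpectrum.comap ψ.toRingHom p ∈ (pkg.chart i).O)
    (h : pull hS P (Spec.map (CommRingCat.ofHom ψ.toRingHom)) (univPtH hS dict pkg i) =
      pull hS P (Spec.map (CommRingCat.ofHom ψ'.toRingHom)) (univPtH hS dict pkg i)) :
    ψ = ψ' := by
  obtain ⟨L₁, h₁⟩ := F.bc_exists ψ (pkg.chart i).U
  obtain ⟨L₂, h₂⟩ := F.bc_exists ψ' (pkg.chart i).U
  have hiso : F.Iso L₁ L₂ :=
    (pull_affPt_eq_iff hS dict ψ ψ' (univBundle_rel dict pkg i) (univBundle_rel dict pkg i)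
      h₁ h₂).1 h
  exact (pkg.chart i).unique ψ ψ' h₁ h₂ hiso ((pkg.chart i).locus_eq_top_of_bc_univ ψ h₁ hψ)

/-- existence of the classifying homomorphism on affine points of the locus -/
theorem exists_algHom_pull_eq (i : pkg.ι) {A B : Type u} [CommRing A] [Algebra k A]
    [CommRing B] [Algebra k B] (φ : A →ₐ[k] B)
    {M : RigidifiedLineBundle c ε (specStr (k := k) A)} {L : F.Obj A} (hML : dict.Rel A M L)
    (hφ : ∀ p, PrimeSpectrum.comap φ.toRingHom p ∈ (pkg.chart i).locus L) :
    ∃ ψ : (pkg.chart i).H →ₐ[k] B,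
      (∀ p, PrimeSpectrum.comap ψ.toRingHom p ∈ (pkg.chart i).O) ∧
      pull hS P (Spec.map (CommRingCat.ofHom ψ.toRingHom)) (univPtH hS dict pkg i) =
        pull hS P (Spec.map (CommRingCat.ofHom φ.toRingHom)) (affPt hS M (dict.rel_mem hML)) := by
  obtain ⟨L_B, hL_B⟩ := F.bc_exists φ L
  have hloc : (pkg.chart i).locus L_B = ⊤ := by
    apply TopologicalSpace.Opens.ext
    rw [(pkg.chart i).locus_bc φ hL_B]
    ext p
    simpa using hφ p
  obtain ⟨ψ, L', hL', hiso⟩ := (pkg.chart i).classify L_B hloc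
  refine ⟨ψ, ?_, ?_⟩
  · refine (pkg.chart i).comap_mem_of_bc_univ ψ hL' ?_
    rw [(pkg.chart i).locus_iso hiso, hloc]
  · exact (pull_affPt_eq_iff hS dict ψ φ (univBundle_rel dict pkg i) hML hL' hL_B).2 hiso

/-- universality of the locus on affine points -/
theorem comap_mem_locus_of_pull_eq (i : pkg.ι) {A B : Type u} [CommRing A] [Algebra k A]
    [CommRing B] [Algebra k B] (φ : A →ₐ[k] B) (ψ : (pkg.chart i).H →ₐ[k] B)
    {M : RigidifiedLineBundle c ε (specStr (k := k) A)} {L : F.Obj A} (hML : dict.Rel A M L)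
    (hψ : ∀ p, PrimeSpectrum.comap ψ.toRingHom p ∈ (pkg.chart i).O)
    (h : pull hS P (Spec.map (CommRingCat.ofHom ψ.toRingHom)) (univPtH hS dict pkg i) =
      pull hS P (Spec.map (CommRingCat.ofHom φ.toRingHom)) (affPt hS M (dict.rel_mem hML)))
    (p : PrimeSpectrum B) : PrimeSpectrum.comap φ.toRingHom p ∈ (pkg.chart i).locus L := by
  obtain ⟨L_B, hL_B⟩ := F.bc_exists φ L
  obtain ⟨M', hM'⟩ := F.bc_exists ψ (pkg.chart i).U
  have hiso : F.Iso M' L_B :=
    (pull_affPt_eq_iff hS dict ψ φ (univBundle_rel dict pkg i) hML hM' hL_B).1 h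
  exact (pkg.chart i).universal φ ψ hL_B hM' hiso hψ p

/-! ### The three affine-local properties, for arbitrary affine test schemes -/

theorem specMap_mem_chartOpen_iff (i : pkg.ι) {B : Type u} [CommRing B] [Algebra k B]
    (ψ : (pkg.chart i).H →ₐ[k] B) (p : PrimeSpectrum B) :
    PrimeSpectrum.comap ψ.toRingHom p ∈ (pkg.chart i).O ↔
      (Spec.map (CommRingCat.ofHom ψ.toRingHom)) p ∈ chartOpen pkg i := Iff.rfl

theorem specMap_mem_locusOpen_iff (i : pkg.ι) {A B : Type u} [CommRing A] [Algebra k A]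
    [CommRing B] [Algebra k B] (φ : A →ₐ[k] B) (L : F.Obj A) (p : PrimeSpectrum B) :
    PrimeSpectrum.comap φ.toRingHom p ∈ (pkg.chart i).locus L ↔
      (Spec.map (CommRingCat.ofHom φ.toRingHom)) p ∈ locusOpen pkg i L := Iff.rfl

/-- A morphism into the chart, in terms of a homomorphism of `k`-algebras. -/
theorem exists_algHom_of_chartHom (i : pkg.ι) {B : Type u} [CommRing B] [Algebra k B]
    (y : Spec (CommRingCat.of B) ⟶ (chartOpen pkg i).toScheme)
    (hy : y ≫ (chartOpen pkg i).ι ≫ specStr (k := k) (pkg.chart i).H = specStr (k := k) B) :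
    ∃ ψ : (pkg.chart i).H →ₐ[k] B,
      y ≫ (chartOpen pkg i).ι = Spec.map (CommRingCat.ofHom ψ.toRingHom) ∧
      ∀ p, PrimeSpectrum.comap ψ.toRingHom p ∈ (pkg.chart i).O := by
  obtain ⟨ψ, hψ⟩ := exists_algHom_eq_specMap (y ≫ (chartOpen pkg i).ι)
    (by rw [Category.assoc]; exact hy)
  refine ⟨ψ, hψ, fun p => ?_⟩
  rw [specMap_mem_chartOpen_iff, ← hψ]
  exact (y p).2

theorem chart_inj (i : pkg.ι) (B : CommRingCat.{u})
    (y y' : Spec B ⟶ (chartOpen pkg i).toScheme)
    (h : pull hS P (y ≫ (chartOpen pkg i).ι) (univPtH hS dict pkg i) =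
      pull hS P (y' ≫ (chartOpen pkg i).ι) (univPtH hS dict pkg i)) : y = y' := by
  have h1 : (y ≫ (chartOpen pkg i).ι) ≫ specStr (k := k) (pkg.chart i).H =
      (y' ≫ (chartOpen pkg i).ι) ≫ specStr (k := k) (pkg.chart i).H :=
    congrArg Sigma.fst h
  rw [Category.assoc, Category.assoc] at h1
  obtain ⟨alg, halg⟩ := exists_algebra_eq_specStr B
    (y ≫ (chartOpen pkg i).ι ≫ specStr (k := k) (pkg.chart i).H)
  let _ := alg
  obtain ⟨ψ, hψ, hψO⟩ := exists_algHom_of_chartHom pkg i (B := B) y halg
  obtain ⟨ψ', hψ', -⟩ := exists_algHom_of_chartHom pkg i (B := B) y' (h1 ▸ halg)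
  rw [hψ, hψ'] at h
  have h3 := algHom_eq_of_pull_eq hS dict pkg i ψ ψ' hψO h
  have h4 : y ≫ (chartOpen pkg i).ι = y' ≫ (chartOpen pkg i).ι := by rw [hψ, hψ', h3]
  exact (cancel_mono _).1 h4

theorem chart_exists (i : pkg.ι) {A : Type u} [CommRing A] [Algebra k A]
    {M : RigidifiedLineBundle c ε (specStr (k := k) A)} {L : F.Obj A} (hML : dict.Rel A M L)
    (B : CommRingCat.{u}) (ψ₀ : Spec B ⟶ Spec (CommRingCat.of A))
    (hψ₀ : ∀ x, ψ₀ x ∈ locusOpen pkg i L) :
    ∃ y : Spec B ⟶ (chartOpen pkg i).toScheme,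
      pull hS P (y ≫ (chartOpen pkg i).ι) (univPtH hS dict pkg i) =
        pull hS P ψ₀ (affPt hS M (dict.rel_mem hML)) := by
  obtain ⟨alg, halg⟩ := exists_algebra_eq_specStr B (ψ₀ ≫ specStr (k := k) A)
  let _ := alg
  obtain ⟨φ, hφ⟩ := exists_algHom_eq_specMap (B := B) ψ₀ halg
  obtain ⟨ψ, hψO, hψ⟩ := exists_algHom_pull_eq hS dict pkg i φ hML (fun p => by
    rw [specMap_mem_locusOpen_iff, ← hφ]
    exact hψ₀ p)
  have hrange : Set.range (Spec.map (CommRingCat.ofHom ψ.toRingHom)) ⊆
      Set.range (chartOpen pkg i).ι := by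
    rintro _ ⟨p, rfl⟩
    rw [Scheme.Opens.range_ι]
    exact (specMap_mem_chartOpen_iff pkg i ψ p).1 (hψO p)
  refine ⟨IsOpenImmersion.lift (chartOpen pkg i).ι _ hrange, ?_⟩
  rw [IsOpenImmersion.lift_fac, hψ, hφ]

theorem chart_univ (i : pkg.ι) {A : Type u} [CommRing A] [Algebra k A]
    {M : RigidifiedLineBundle c ε (specStr (k := k) A)} {L : F.Obj A} (hML : dict.Rel A M L)
    (B : CommRingCat.{u}) (ψ₀ : Spec B ⟶ Spec (CommRingCat.of A))
    (y : Spec B ⟶ (chartOpen pkg i).toScheme)
    (h : pull hS P (y ≫ (chartOpen pkg i).ι) (univPtH hS dict pkg i) =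
      pull hS P ψ₀ (affPt hS M (dict.rel_mem hML))) (x : Spec B) :
    ψ₀ x ∈ locusOpen pkg i L := by
  have h1 : (y ≫ (chartOpen pkg i).ι) ≫ specStr (k := k) (pkg.chart i).H =
      ψ₀ ≫ specStr (k := k) A := congrArg Sigma.fst h
  rw [Category.assoc] at h1
  obtain ⟨alg, halg⟩ := exists_algebra_eq_specStr B (ψ₀ ≫ specStr (k := k) A)
  let _ := alg
  obtain ⟨φ, hφ⟩ := exists_algHom_eq_specMap (B := B) ψ₀ halg
  obtain ⟨ψ, hψ, hψO⟩ := exists_algHom_of_chartHom pkg i (B := B) y (h1.trans halg)
  rw [hψ, hφ] at h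
  have := comap_mem_locus_of_pull_eq hS dict pkg i φ ψ hML hψO h x
  rw [specMap_mem_locusOpen_iff, ← hφ] at this
  exact this

/-! ### The affine chart package -/

include hS in
/-- Existence of loci over `specStr A`. -/
theorem exists_isLocus_specStr (i : pkg.ι) (A : Type u) [CommRing A] [Algebra k A]
    (M : RigidifiedLineBundle c ε (specStr (k := k) A)) (hM : P.P (specStr (k := k) A) M)
    {L : F.Obj A} (hML : dict.Rel A M L) :
    ∃ cl : SchemeHomOver ((locusOpen pkg i L).ι ≫ specStr (k := k) A) ((chartData dict pkg).x i),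
      IsLocus (chartData dict pkg) i (specStr (k := k) A) M (locusOpen pkg i L) cl := by
  refine exists_isLocus_of_affine_points hS (chartData dict pkg) i (specStr (k := k) A) M hM
    (locusOpen pkg i L) ?_ ?_ ?_
  · intro B y y' h
    exact chart_inj hS dict pkg i B y y'
      (((pull_chartPt hS dict pkg i y).symm.trans h).trans (pull_chartPt hS dict pkg i y'))
  · intro B ψ₀ hψ₀
    obtain ⟨y, hy⟩ := chart_exists hS dict pkg i hML B ψ₀ hψ₀
    exact ⟨y, (pull_chartPt hS dict pkg i y).trans hy⟩
  · intro B ψ₀ y h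
    exact chart_univ hS dict pkg i hML B ψ₀ y ((pull_chartPt hS dict pkg i y).symm.trans h)

/-- **The affine chart package of an algebraic chart package.** -/
def affineChartPackage : AffineChartPackage c ε P :=
  AffineChartPackage.ofIsLocus (chartData dict pkg)
    (fun i => exists_isLocus_of_specStr (chartData dict pkg) i (fun A _ _ M hM => by
      obtain ⟨L, hML⟩ := dict.exists_obj M hM
      exact ⟨locusOpen pkg i L, exists_isLocus_specStr hS dict pkg i A M hM hML⟩))
    (exists_isLocus_mem_of_specStr (chartData dict pkg) (fun A _ _ M hM p => by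
      obtain ⟨L, hML⟩ := dict.exists_obj M hM
      have hcov := pkg.cover L
      have hp : (show PrimeSpectrum A from p) ∈ (⨆ i, (pkg.chart i).locus L) := by
        rw [hcov]; trivial
      obtain ⟨i, hi⟩ := TopologicalSpace.Opens.mem_iSup.1 hp
      obtain ⟨cl, hcl⟩ := exists_isLocus_specStr hS dict pkg i A M hM hML
      exact ⟨i, locusOpen pkg i L, cl, hcl, hi⟩))

theorem affineChartPackage_X (i : pkg.ι) :
    (affineChartPackage hS dict pkg).X i = (chartOpen pkg i).toScheme := rfl

theorem affineChartPackage_x (i : pkg.ι) :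
    (affineChartPackage hS dict pkg).x i =
      (chartOpen pkg i).ι ≫ specStr (k := k) (pkg.chart i).H := rfl

/-- The charts are locally of finite type over `k` if the algebras `H i` are of finite type. -/
theorem locallyOfFiniteType_affineChartPackage_x
    (hft : ∀ i, Algebra.FiniteType k (pkg.chart i).H) (i : (affineChartPackage hS dict pkg).ι) :
    LocallyOfFiniteType ((affineChartPackage hS dict pkg).x i) := by
  show LocallyOfFiniteType ((chartOpen pkg i).ι ≫ specStr (k := k) (pkg.chart i).H)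
  have h1 : LocallyOfFiniteType (specStr (k := k) (pkg.chart i).H) := by
    unfold specStr
    rw [HasRingHomProperty.Spec_iff (P := @LocallyOfFiniteType)]
    have := hft i
    exact RingHom.finiteType_algebraMap.2 this
  infer_instance

end Fermat.Agent.Jac.RepTransport
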