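/-
Fermat/Agent/Jac/FamDict14.lean  (helper14)

JAC brick R2b-3: the `FamDictionary` instance.

From the affine dictionary `D : AffineDictionary cc` (B1b, helper87) and the Euler-characteristic
cut `ChiDict36.chiCut D hc0` (B2, helper36) we build the dictionary

  `famDict D hc0 : RepTransport.FamDictionary c ε (ChiDict36.chiCut D hc0)
      (AlgChart76.stdFam cc.P0 (ChiDict36.chi0 cc))`

between rigidified line bundles in the cut over the affine test schemes `specStr A` and the
objects of helper76's moduli problem `stdFam` (line two-chart modules over the tensor rings,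
rigidifiable at the base point, of fibrewise Euler characteristic `chi0 cc`), with
`Rel A M L := D.Corr A M.L L.1`.
-/
import Mathlib
import Fermat.Agent.Jac.RepTransportFam
import Fermat.Agent.Jac.AlgChart76.StdCut
import Fermat.Agent.Jac.ChiDict36

set_option autoImplicit false
set_option linter.style.haveILetI false
set_option linter.unusedSectionVars false

open CategoryTheory CategoryTheory.Limits AlgebraicGeometry AlgebraicGeometry.RelPicard
  NeronModelInfra GoodReductionJacobian TensorProduct

noncomputable section

namespace Fermat.Agent.Jac.FamDict14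

universe u

open scoped Fermat.Agent.Jac.BaseChange75
open BridgeCharts33 JSmooth85Alg BaseChange75

variable {k : Type u} [Field k] {C : Scheme.{u}} {c : C ⟶ Spec (CommRingCat.of k)}
  {ε : SchemeHomOver (𝟙 (Spec (CommRingCat.of k))) c} {cc : CurveCharts c ε}

/-- helper76's rigidifiability at `cc.P0` is helper87's rigidifiability. -/
theorem rigidifiable_iff {A : Type u} [CommRing A] [Algebra k A] (L : cc.QCA A) :
    AlgChart76.Rigidifiable cc.P0 L ↔ cc.Rigidifiable L := Iff.rfl

/-- The moduli problem of the programme: line two-chart modules over the tensor rings which are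
rigidifiable at the base point and of fibrewise Euler characteristic `chi0 cc`. -/
abbrev fam (cc : CurveCharts c ε) : AlgChart76.FamTheory k :=
  AlgChart76.stdFam (B0 := cc.B0) (B01 := cc.B01) cc.P0 (ChiDict36.chi0 cc)

variable (D : AffineDictionary cc) (hc0 : cc.chart0.FiniteProjOverLine)

/-- **R2b-3**: the dictionary between rigidified line bundles in the Euler-characteristic cut
over `specStr A` and the objects of `stdFam`. -/
def famDict : RepTransport.FamDictionary c ε (ChiDict36.chiCut D hc0) (fam cc) where
  Rel A _ _ M L := D.Corr A M.L L.1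
  rel_mem := by
    intro A _ _ M L h
    exact (ChiDict36.chiCut_affine_iff D hc0 A M h).2 L.2.2.2
  exists_obj := by
    intro A _ _ M hM
    obtain ⟨L, hC⟩ := D.exists_line M.L M.isInvertible
    refine ⟨⟨L, D.isLine hC, ?_, (ChiDict36.chiCut_affine_iff D hc0 A M hC).1 hM⟩, hC⟩
    exact (rigidifiable_iff L).2 ((D.rigidified_iff hC).1 M.rigidified)
  exists_bundle := by
    intro A _ _ L
    obtain ⟨M, hC⟩ := D.exists_sheaf L.1 L.2.1
    exact ⟨⟨M, D.isInvertible hC, (D.rigidified_iff hC).2 ((rigidifiable_iff L.1).1 L.2.2.1)⟩, hC⟩
  iso_iff := by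
    intro A _ _ M M' L L' h h'
    exact D.iso_iff h h'
  baseChange := by
    intro A A' _ _ _ _ φ M L L' h hbc
    letI : Algebra A A' := φ.toRingHom.toAlgebra
    haveI : IsScalarTower k A A' := AlgChart76.tower_of_algHom φ
    have hφ : IsScalarTower.toAlgHom k A A' = φ := AlgHom.ext (fun _ => rfl)
    obtain ⟨ld⟩ := hbc
    have hC' := D.baseChange h ld
    rw [hφ] at hC'
    exact hC'

@[simp]
theorem famDict_rel {A : Type u} [CommRing A] [Algebra k A]
    (M : RigidifiedLineBundle c ε (specStr (k := k) A)) (L : (fam cc).Obj A) :
    (famDict D hc0).Rel A M L ↔ D.Corr A M.L L.1 := Iff.rfl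

/-- The affine chart package of the Euler-characteristic cut obtained from an algebraic chart
package of `stdFam` (brick R2a) through the dictionary. -/
def affineChartPackage (hS : ClassesIsSheaf c ε)
    (pkg : AlgChart76.AlgChartPackage (fam cc)) :
    AffineChartPackage c ε (ChiDict36.chiCut D hc0) :=
  RepTransport.affineChartPackage hS (famDict D hc0) pkg

/-- The charts are locally of finite type over `k` if the algebras `H i` are of finite type. -/
theorem locallyOfFiniteType_affineChartPackage_x (hS : ClassesIsSheaf c ε)
    (pkg : AlgChart76.AlgChartPackage (fam cc))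
    (hft : ∀ i, Algebra.FiniteType k (pkg.chart i).H) (i : (affineChartPackage D hc0 hS pkg).ι) :
    LocallyOfFiniteType ((affineChartPackage D hc0 hS pkg).x i) :=
  RepTransport.locallyOfFiniteType_affineChartPackage_x hS (famDict D hc0) pkg hft i

end Fermat.Agent.Jac.FamDict14
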