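/-
JAC programme (helper36): the two-chart ring `cc.chart0` of a curve with charts
(`CurveCharts`, fields `finite0`, `free0`, `finite1`, `free1`) is finite projective over the line.
-/
import Mathlib
import Fermat.Agent.Jac.AffineDict87.Setup
import Fermat.Agent.Jac.BridgeCharts33

set_option autoImplicit false
set_option linter.style.haveILetI false

open CategoryTheory CategoryTheory.Limits AlgebraicGeometry TopologicalSpace Opposite
open NeronModelInfra Polynomial

noncomputable section

namespace Fermat.Agent.Jac.ChartFPL36

universe u

open TwoCoverGammaSetting BridgeCharts33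

section Transport

variable {k R : Type u} [CommRing k] [CommRing R]

theorem finite_aeval_congr (a1 a2 : Algebra k R) (h : a1 = a2) (t : R)
    (H : letI := a1; Module.Finite k[X] (Module.AEval k R t)) :
    letI := a2; Module.Finite k[X] (Module.AEval k R t) := by
  subst h
  exact H

theorem projective_aeval_congr (a1 a2 : Algebra k R) (h : a1 = a2) (t : R)
    (H : letI := a1; Module.Projective k[X] (Module.AEval k R t)) :
    letI := a2; Module.Projective k[X] (Module.AEval k R t) := by
  subst h
  exact H

end Transport

variable {k : Type u} [Field k] {C : Scheme.{u}} {c : C ⟶ Spec (CommRingCat.of k)}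
  {ε : SchemeHomOver (𝟙 (Spec (CommRingCat.of k))) c} (cc : CurveCharts c ε)

theorem str0_eq : cc.cover0.str0 = sectionsRingHom c cc.U0 := by
  ext a
  exact map_secHom c (le_top : cc.U0 ≤ ⊤) a

theorem str1_eq : cc.cover0.str1 = sectionsRingHom c cc.U1 := by
  ext a
  exact map_secHom c (le_top : cc.U1 ≤ ⊤) a

theorem algebra0_eq : sectionsAlgebra c cc.U0 = (cc.cover0.algA0 : Algebra k Γ(C, cc.U0)) := by
  unfold sectionsAlgebra TwoCover.algA0
  rw [str0_eq]
  rfl

theorem algebra1_eq : sectionsAlgebra c cc.U1 = (cc.cover0.algA1 : Algebra k Γ(C, cc.U1)) := by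
  unfold sectionsAlgebra TwoCover.algA1
  rw [str1_eq]
  rfl

/-- The two-chart ring of the curve is finite projective over the line. -/
theorem chart0_finiteProjOverLine : cc.chart0.FiniteProjOverLine where
  fin0 := finite_aeval_congr _ _ (algebra0_eq cc) cc.t cc.finite0
  proj0 := projective_aeval_congr _ _ (algebra0_eq cc) cc.t
    (letI := sectionsAlgebra c cc.U0
     haveI := cc.free0
     Module.Projective.of_free)
  fin1 := finite_aeval_congr _ _ (algebra1_eq cc) cc.s cc.finite1
  proj1 := projective_aeval_congr _ _ (algebra1_eq cc) cc.s
    (letI := sectionsAlgebra c cc.U1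
     haveI := cc.free1
     Module.Projective.of_free)

end Fermat.Agent.Jac.ChartFPL36
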