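/-
Fermat/Agent/Jac/Genus41.lean  (helper41)

The genus of the curve and the Euler characteristic of the structure sheaf:
`chiUnit + g = 1` with `g := dim_k H¹(O)` computed on the tensor rings `k ⊗[k] B_i`.
-/
import Mathlib
import Fermat.Agent.Jac.ChiDict36
import Fermat.Agent.Jac.ChartFPL36
import Fermat.Agent.Jac.CurveHyp80.Instance
import Fermat.Agent.Jac.RiemannCover82.H0k
import Fermat.Agent.Jac.P1CohChi.TwistFormula
import Fermat.Agent.Jac.LineOps39.OverLine

set_option autoImplicit false

open CategoryTheory CategoryTheory.Limits AlgebraicGeometry AlgebraicGeometry.RelPicard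
  NeronModelInfra GoodReductionJacobian TensorProduct

noncomputable section

universe u

namespace Fermat.Agent.Jac.Genus41

open scoped Fermat.Agent.Jac.BaseChange75

variable {k : Type u} [Field k] {C : Scheme.{u}} {c : C ⟶ Spec (CommRingCat.of k)}
  {ε : SchemeHomOver (𝟙 (Spec (CommRingCat.of k))) c}

/-- The genus of the curve: `dim_k H¹(O)`, computed on the tensor rings `k ⊗[k] B_i`. -/
def genus (cc : CurveCharts c ε) : ℕ :=
  Module.finrank k (QC2.unit : cc.QCA k).H1

/-- `H⁰(O)` is one-dimensional. -/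
theorem finrank_unit_H0 [IsAlgClosed k] (cc : CurveCharts c ε) :
    Module.finrank k (QC2.unit : cc.QCA k).H0 = 1 := by
  have hc : (cc.chart0.baseChange k).FiniteProjOverLine :=
    (ChartFPL36.chart0_finiteProjOverLine cc).baseChange k
  haveI : IsDomain cc.B01 := CurveHyp80.isDomain_B01 cc
  haveI : IsDomain (k ⊗[k] cc.B01) :=
    (Algebra.TensorProduct.lid k cc.B01).toRingEquiv.toMulEquiv.isDomain cc.B01
  have hL : (QC2.unit : cc.QCA k).IsLine := LineOps39.isLine_unit
  obtain ⟨h0, -, -⟩ := P1CohChi.euler_twist_of_field (QC2.unit : cc.QCA k)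
    (cc.chart0.baseChange k) (LineOps39.finiteOverLine_of_isLine _ hc hL)
    (LineOps39.projOverLine_of_isLine _ hc hL) 0
  haveI : Module.Finite k (QC2.unit : cc.QCA k).H0 := h0
  exact RiemannCover82.H0k.finrank_unit_H0
    (RiemannCover82.H0k.injective_algebraMap0 (cc.chart0.baseChange k) hc)
    (RiemannCover82.H0k.injective_algebraMap1 (cc.chart0.baseChange k) hc)

/-- **`χ(O) + g = 1`.** -/
theorem chiUnit_add_genus [IsAlgClosed k] (cc : CurveCharts c ε) :
    ChiBC36.chiUnit k cc.B0 cc.B1 cc.B01 + (genus cc : ℤ) = 1 := by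
  unfold ChiBC36.chiUnit genus
  rw [P1CohChi.chiField_self, finrank_unit_H0 cc]
  simp

/-- The same, for the constant `chi0 cc` of the cut. -/
theorem chi0_add_genus [IsAlgClosed k] (cc : CurveCharts c ε) :
    ChiDict36.chi0 cc + (genus cc : ℤ) = 1 :=
  chiUnit_add_genus cc

theorem chi0_eq [IsAlgClosed k] (cc : CurveCharts c ε) :
    ChiDict36.chi0 cc = 1 - (genus cc : ℤ) := by
  have := chi0_add_genus cc
  linarith

end Fermat.Agent.Jac.Genus41
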