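/-
Fermat/Agent/Jac/DegAdd79Rel.lean  (helper79)

JAC brick DegAdd, relative form.

* `LiftData.tensor` : chartwise base change (`JSmooth85Alg.LiftData`) commutes with the tensor
  product of two-chart modules; `liftDataUnit` : the unit is the base change of the unit.
* `chiField_tensor_rel` : for a two-chart curve `c0` over a field `k`, a `k`-algebra `A`, lines
  `L`, `M` over the tensor rings `(A, A ⊗ B0, A ⊗ B1, A ⊗ B01)` and an `A`-field `K`:
  `χ((L ⊗ M)_K) = χ(L_K) + χ(M_K) - χ(O_K)`, provided the fibre charts `K ⊗ B0`, `K ⊗ B1` are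
  domains (geometric integrality, brick G1) and `K ⊗ B01` is nontrivial.
* `chi_tensor_rel` : the same at the points of `Spec A`.
-/
import Mathlib
import Fermat.Agent.Jac.Core
import Fermat.Agent.Jac.JSmooth85Alg
import Fermat.Agent.Jac.BaseChange75.Tensor
import Fermat.Agent.Jac.DegAdd79
import Fermat.Agent.Jac.GeomIntegral40

set_option autoImplicit false
set_option linter.style.haveILetI false
set_option linter.unusedSectionVars false

universe u

open TensorProduct

namespace Fermat.Agent.Jac.DegAdd79Rel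

open LineOps39 JSmooth85Alg BaseChange75 JGroup85Euler

/-! ### Base change commutes with the tensor product -/

section distrib

variable {R S R' S' : Type u} [CommRing R] [CommRing S] [CommRing R'] [CommRing S']
  [Algebra R S] [Algebra R' S'] [Algebra R R'] [Algebra S S']
  {N N2 N' N2' P P2 P' P2' : Type u}
  [AddCommGroup N] [Module R N] [AddCommGroup N2] [Module R N2]
  [AddCommGroup N'] [Module R' N'] [AddCommGroup N2'] [Module R' N2']
  [AddCommGroup P] [Module R P] [Module S P] [IsScalarTower R S P]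
  [AddCommGroup P2] [Module R P2] [Module S P2] [IsScalarTower R S P2]
  [AddCommGroup P'] [Module R' P'] [Module S' P'] [IsScalarTower R' S' P']
  [AddCommGroup P2'] [Module R' P2'] [Module S' P2'] [IsScalarTower R' S' P2']

/-- The comparison `R' ⊗ (N ⊗ N2) ≃ N' ⊗ N2'` is compatible with `tmap`. -/
lemma distrib_congr_tmap (f : N →ₗ[R] P) (g : N2 →ₗ[R] P2) (f' : N' →ₗ[R'] P')
    (g' : N2' →ₗ[R'] P2') (e : R' ⊗[R] N ≃ₗ[R'] N') (e2 : R' ⊗[R] N2 ≃ₗ[R'] N2')
    (e01 : S' ⊗[S] P ≃ₗ[S'] P') (e012 : S' ⊗[S] P2 ≃ₗ[S'] P2')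
    (hf : ∀ x, e01 (1 ⊗ₜ f x) = f' (e (1 ⊗ₜ x))) (hg : ∀ y, e012 (1 ⊗ₜ g y) = g' (e2 (1 ⊗ₜ y)))
    (z : N ⊗[R] N2) :
    ((AlgebraTensorModule.distribBaseChange S S' P P2).trans (TensorProduct.congr e01 e012))
        (1 ⊗ₜ tmap (S := S) f g z) =
      tmap (S := S') f' g'
        (((AlgebraTensorModule.distribBaseChange R R' N N2).trans (TensorProduct.congr e e2))
          (1 ⊗ₜ z)) := by
  induction z with
  | zero => simp
  | tmul x y => simp [hf, hg]
  | add x y hx hy => simp only [map_add, tmul_add, hx, hy]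

/-- The right unitors are compatible with the algebra maps of a commuting square. -/
lemma rid_unit_comm
    (hc : (algebraMap R' S').comp (algebraMap R R') = (algebraMap S S').comp (algebraMap R S))
    (x : R) :
    AlgebraTensorModule.rid S S' S' ((1 : S') ⊗ₜ[S] algebraMap R S x) =
      algebraMap R' S' (AlgebraTensorModule.rid R R' R' ((1 : R') ⊗ₜ[R] x)) := by
  rw [AlgebraTensorModule.rid_tmul, AlgebraTensorModule.rid_tmul, Algebra.smul_def, mul_one,
    Algebra.smul_def, mul_one]
  exact (RingHom.congr_fun hc x).symm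

end distrib

section Cube

variable {A R0 R1 R01 A' R0' R1' R01' : Type u}
  [CommRing A] [CommRing R0] [CommRing R1] [CommRing R01]
  [Algebra A R0] [Algebra A R1] [Algebra A R01] [Algebra R0 R01] [Algebra R1 R01]
  [IsScalarTower A R0 R01] [IsScalarTower A R1 R01]
  [CommRing A'] [CommRing R0'] [CommRing R1'] [CommRing R01']
  [Algebra A' R0'] [Algebra A' R1'] [Algebra A' R01'] [Algebra R0' R01'] [Algebra R1' R01']
  [IsScalarTower A' R0' R01'] [IsScalarTower A' R1' R01']
  [Algebra R0 R0'] [Algebra R1 R1'] [Algebra R01 R01']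

/-- Chartwise base change commutes with the tensor product of two-chart modules. -/
noncomputable def LiftData.tensor {L M : QC2 A R0 R1 R01} {L' M' : QC2 A' R0' R1' R01'}
    (h : LiftData L L') (g : LiftData M M') : LiftData (tensor L M) (tensor L' M') where
  e0 := (AlgebraTensorModule.distribBaseChange R0 R0' L.N0 M.N0).trans
    (TensorProduct.congr h.e0 g.e0)
  e1 := (AlgebraTensorModule.distribBaseChange R1 R1' L.N1 M.N1).trans
    (TensorProduct.congr h.e1 g.e1)
  e01 := (AlgebraTensorModule.distribBaseChange R01 R01' L.N01 M.N01).trans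
    (TensorProduct.congr h.e01 g.e01)
  comm0 := distrib_congr_tmap L.r0 M.r0 L'.r0 M'.r0 h.e0 g.e0 h.e01 g.e01 h.comm0 g.comm0
  comm1 := distrib_congr_tmap L.r1 M.r1 L'.r1 M'.r1 h.e1 g.e1 h.e01 g.e01 h.comm1 g.comm1

/-- The structure sheaf is the base change of the structure sheaf. -/
noncomputable def liftDataUnit
    (hc0 : (algebraMap R0' R01').comp (algebraMap R0 R0') =
      (algebraMap R01 R01').comp (algebraMap R0 R01))
    (hc1 : (algebraMap R1' R01').comp (algebraMap R1 R1') =
      (algebraMap R01 R01').comp (algebraMap R1 R01)) :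
    LiftData (QC2.unit : QC2 A R0 R1 R01) (QC2.unit : QC2 A' R0' R1' R01') where
  e0 := AlgebraTensorModule.rid R0 R0' R0'
  e1 := AlgebraTensorModule.rid R1 R1' R1'
  e01 := AlgebraTensorModule.rid R01 R01' R01'
  comm0 := rid_unit_comm (R := R0) (S := R01) (R' := R0') (S' := R01') hc0
  comm1 := rid_unit_comm (R := R1) (S := R01) (R' := R1') (S' := R01') hc1

end Cube

/-! ### Degree additivity over an arbitrary base -/

section Rel

open scoped Fermat.Agent.Jac.BaseChange75

variable {k B0 B1 B01 : Type u} [CommRing k] [CommRing B0] [CommRing B1] [CommRing B01]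
  [Algebra k B0] [Algebra k B1] [Algebra k B01] [Algebra B0 B01] [Algebra B1 B01]
  [IsScalarTower k B0 B01] [IsScalarTower k B1 B01]
  {A : Type u} [CommRing A] [Algebra k A]
  (K : Type u) [Field K] [Algebra k K] [Algebra A K] [IsScalarTower k A K]

/-- The Euler characteristic of `L` at the `A`-field `K` is the Euler characteristic of the Čech
complex of any base change of `L` to `K`. -/
theorem chiField_eq_of_liftData {L : QC2 A (A ⊗[k] B0) (A ⊗[k] B1) (A ⊗[k] B01)}
    {L' : QC2 K (K ⊗[k] B0) (K ⊗[k] B1) (K ⊗[k] B01)} (h : LiftData L L') :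
    L.chiField K = eulerChar L'.d := by
  unfold QC2.chiField eulerChar
  have h0 : Module.finrank K (L.H0BC K) = Module.finrank K (LinearMap.ker L'.d) :=
    LinearEquiv.finrank_eq (LiftData.h0Equiv h)
  have h1 : Module.finrank K (L.H1BC K) = Module.finrank K (L'.N01 ⧸ LinearMap.range L'.d) :=
    LinearEquiv.finrank_eq (LiftData.h1Equiv h)
  rw [h0, h1]

/-- `chiField` at an `A`-field is invariant under isomorphism. -/
theorem chiField_congr_rel {L M : QC2 A (A ⊗[k] B0) (A ⊗[k] B1) (A ⊗[k] B01)}
    (e : QC2.Iso L M) : L.chiField K = M.chiField K := by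
  rw [chiField_eq_of_liftData K (baseChange_liftData K L),
    chiField_eq_of_liftData K (LiftData.congrIso (baseChange_liftData K L) e)]

variable (c0 : TwoChart k B0 B1 B01) (hc0 : c0.FiniteProjOverLine)
  [IsDomain (K ⊗[k] B0)] [IsDomain (K ⊗[k] B1)] [Nontrivial (K ⊗[k] B01)]

include hc0 in
/-- **Degree additivity, relative form**: for lines `L`, `M` on `C_A` and an `A`-field `K` whose
fibre charts `K ⊗ B0`, `K ⊗ B1` are domains, `χ((L ⊗ M)_K) = χ(L_K) + χ(M_K) - χ(O_K)`. -/
theorem chiField_tensor_rel {L M : QC2 A (A ⊗[k] B0) (A ⊗[k] B1) (A ⊗[k] B01)}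
    (hL : L.IsLine) (hM : M.IsLine) :
    (tensor L M).chiField K = L.chiField K + M.chiField K -
      (QC2.unit : QC2 A (A ⊗[k] B0) (A ⊗[k] B1) (A ⊗[k] B01)).chiField K := by
  have hL' : (L.baseChange K).IsLine := baseChange_isLine K L hL
  have hM' : (M.baseChange K).IsLine := baseChange_isLine K M hM
  rw [chiField_eq_of_liftData K (LiftData.tensor (baseChange_liftData K L)
      (baseChange_liftData K M)),
    chiField_eq_of_liftData K (baseChange_liftData K L),
    chiField_eq_of_liftData K (baseChange_liftData K M),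
    chiField_eq_of_liftData K (liftDataUnit (A := A) (A' := K) (square_comm k A K B0 B01)
      (square_comm k A K B1 B01))]
  exact DegAdd79.eulerChar_tensor (c0.baseChange K) (hc0.baseChange K) hL' hM'

include hc0 in
/-- The relative Euler characteristic of the dual: `χ(L^∨_K) = 2 χ(O_K) - χ(L_K)`. -/
theorem chiField_dual_rel {L : QC2 A (A ⊗[k] B0) (A ⊗[k] B1) (A ⊗[k] B01)} (hL : L.IsLine) :
    (dual (c0.baseChange A) L (isVB_of_isLine hL)).chiField K =
      2 * (QC2.unit : QC2 A (A ⊗[k] B0) (A ⊗[k] B1) (A ⊗[k] B01)).chiField K -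
        L.chiField K := by
  have h1 := chiField_tensor_rel K c0 hc0 hL (isLine_dual (c0.baseChange A) hL)
  have h2 := chiField_congr_rel K (tensorDualIso (c0.baseChange A) L hL)
  linarith

end Rel

/-! ### At the points of `Spec A` -/

section Points

open scoped Fermat.Agent.Jac.BaseChange75

variable {k B0 B1 B01 : Type u} [CommRing k] [CommRing B0] [CommRing B1] [CommRing B01]
  [Algebra k B0] [Algebra k B1] [Algebra k B01] [Algebra B0 B01] [Algebra B1 B01]
  [IsScalarTower k B0 B01] [IsScalarTower k B1 B01]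
  {A : Type u} [CommRing A] [Algebra k A]
  (c0 : TwoChart k B0 B1 B01) (hc0 : c0.FiniteProjOverLine)
  (hdom : ∀ (K : Type u) [Field K] [Algebra k K],
    IsDomain (K ⊗[k] B0) ∧ IsDomain (K ⊗[k] B1) ∧ Nontrivial (K ⊗[k] B01))

include hc0 hdom in
/-- **Degree additivity at the points of `Spec A`** (for a geometrically integral two-chart
curve `c0` over `k`): `χ_p(L ⊗ M) = χ_p(L) + χ_p(M) - χ_p(O)`. -/
theorem chi_tensor_rel {L M : QC2 A (A ⊗[k] B0) (A ⊗[k] B1) (A ⊗[k] B01)}
    (hL : L.IsLine) (hM : M.IsLine) (p : PrimeSpectrum A) :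
    (tensor L M).chi p = L.chi p + M.chi p -
      (QC2.unit : QC2 A (A ⊗[k] B0) (A ⊗[k] B1) (A ⊗[k] B01)).chi p := by
  obtain ⟨h0, h1, h01⟩ := hdom p.asIdeal.ResidueField
  exact chiField_tensor_rel p.asIdeal.ResidueField c0 hc0 hL hM

include hc0 hdom in
/-- The Euler characteristic of the dual at the points of `Spec A`. -/
theorem chi_dual_rel {L : QC2 A (A ⊗[k] B0) (A ⊗[k] B1) (A ⊗[k] B01)} (hL : L.IsLine)
    (p : PrimeSpectrum A) :
    (dual (c0.baseChange A) L (isVB_of_isLine hL)).chi p =
      2 * (QC2.unit : QC2 A (A ⊗[k] B0) (A ⊗[k] B1) (A ⊗[k] B01)).chi p - L.chi p := by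
  obtain ⟨h0, h1, h01⟩ := hdom p.asIdeal.ResidueField
  exact chiField_dual_rel p.asIdeal.ResidueField c0 hc0 hL

/-- `χ_p` is invariant under isomorphism. -/
theorem chi_congr_rel {L M : QC2 A (A ⊗[k] B0) (A ⊗[k] B1) (A ⊗[k] B01)} (e : QC2.Iso L M)
    (p : PrimeSpectrum A) : L.chi p = M.chi p :=
  chiField_congr_rel p.asIdeal.ResidueField e

/-- Over an algebraically closed field, two-chart curves with integral charts satisfy the
geometric integrality hypothesis of `chi_tensor_rel`. -/
theorem hdom_of_isAlgClosed {k B0 B1 B01 : Type u} [Field k] [IsAlgClosed k] [CommRing B0]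
    [CommRing B1] [CommRing B01] [Algebra k B0] [Algebra k B1] [Algebra k B01] [IsDomain B0]
    [IsDomain B1] [IsDomain B01] (K : Type u) [Field K] [Algebra k K] :
    IsDomain (K ⊗[k] B0) ∧ IsDomain (K ⊗[k] B1) ∧ Nontrivial (K ⊗[k] B01) :=
  ⟨GeomIntegral40.isDomain_tensorProduct k K B0, GeomIntegral40.isDomain_tensorProduct k K B1,
    (GeomIntegral40.isDomain_tensorProduct k K B01).toNontrivial⟩

end Points

end Fermat.Agent.Jac.DegAdd79Rel
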