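import Mathlib
import Fermat.Agent.Jac.Core
import Fermat.Agent.Jac.JSmooth85Alg
import Fermat.Agent.Jac.BaseChange75.Cube
import Fermat.Agent.Jac.LineOps39.Dual

/-!
# JAC brick Q2 (GroupSep), algebra side  (helper85)

The Picard group of the two-chart model and its functoriality.

* `LinePic c` : isomorphism classes of line two-chart modules over `(A, R0, R1, R01)`; it is a
  commutative group under `LineOps39.tensor`, with unit `QC2.unit` and inverse `LineOps39.dual`.
* `LiftData.tensor`, `LiftData.unit` : chartwise base change (relation `JSmooth85Alg.LiftData`)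
  is compatible with tensor products and units.
* `LinePic.bc` : base change along a cube of rings, a group homomorphism
  `LinePic c →* LinePic c'`; `LinePic.bc_mk` : it maps the class of `L` to the class of any `L'`
  with `LiftData L L'`.
* `LinePic.subgroupOf` : a predicate on lines which is invariant under isomorphism, holds for
  the unit, is stable under tensor products and under passing to a tensor inverse, defines a
  subgroup.
-/

set_option autoImplicit false
set_option linter.style.haveILetI false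
set_option linter.unusedSectionVars false

open TensorProduct

namespace Fermat.Agent.Jac.JGroup85Pic

open LineOps39 JSmooth85Alg BaseChange75

universe u

section Pic

variable {A R0 R1 R01 : Type u} [CommRing A] [CommRing R0] [CommRing R1] [CommRing R01]
  [Algebra A R0] [Algebra A R1] [Algebra A R01] [Algebra R0 R01] [Algebra R1 R01]
  [IsScalarTower A R0 R01] [IsScalarTower A R1 R01]

/-- Line two-chart modules. -/
def LineObj (_c : TwoChart A R0 R1 R01) : Type (u + 1) := {L : QC2 A R0 R1 R01 // L.IsLine}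

variable (c : TwoChart A R0 R1 R01)

/-- Isomorphism of line two-chart modules. -/
instance lineSetoid : Setoid (LineObj c) where
  r L M := Nonempty (QC2.Iso L.1 M.1)
  iseqv := ⟨fun L => ⟨isoRefl L.1⟩, fun ⟨e⟩ => ⟨isoSymm e⟩, fun ⟨e⟩ ⟨f⟩ => ⟨isoTrans e f⟩⟩

/-- The Picard group of the two-chart model: isomorphism classes of lines. -/
def LinePic : Type (u + 1) := Quotient (lineSetoid c)

namespace LinePic

variable {c}

/-- The class of a line. -/
def mk (c : TwoChart A R0 R1 R01) (L : QC2 A R0 R1 R01) (hL : L.IsLine) : LinePic c :=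
  Quotient.mk _ ⟨L, hL⟩

theorem mk_eq_mk_iff {L M : QC2 A R0 R1 R01} (hL : L.IsLine) (hM : M.IsLine) :
    mk c L hL = mk c M hM ↔ Nonempty (QC2.Iso L M) :=
  ⟨fun h => Quotient.exact h, fun h => Quotient.sound h⟩

theorem mk_eq_mk {L M : QC2 A R0 R1 R01} (hL : L.IsLine) (hM : M.IsLine) (e : QC2.Iso L M) :
    mk c L hL = mk c M hM :=
  (mk_eq_mk_iff hL hM).2 ⟨e⟩

theorem exists_rep (x : LinePic c) : ∃ (L : QC2 A R0 R1 R01) (hL : L.IsLine), x = mk c L hL := by
  induction x using Quotient.ind with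
  | _ L => exact ⟨L.1, L.2, rfl⟩

/-- The product of two classes: the class of the tensor product. -/
noncomputable def mul (x y : LinePic c) : LinePic c :=
  Quotient.map₂ (fun L M : LineObj c => (⟨tensor L.1 M.1, isLine_tensor L.2 M.2⟩ : LineObj c))
    (fun L L' (h : Nonempty (QC2.Iso L.1 L'.1)) M M' (h' : Nonempty (QC2.Iso M.1 M'.1)) =>
      (⟨tensorIso h.some h'.some⟩ : Nonempty (QC2.Iso (tensor L.1 M.1) (tensor L'.1 M'.1)))) x y

/-- The inverse of a class: the class of the dual. -/
noncomputable def inv (x : LinePic c) : LinePic c :=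
  Quotient.map (fun L : LineObj c =>
      (⟨dual c L.1 (isVB_of_isLine L.2), isLine_dual c L.2⟩ : LineObj c))
    (fun L M (h : Nonempty (QC2.Iso L.1 M.1)) =>
      (⟨isoSymm (dualIso c h.some (isVB_of_isLine L.2) (isVB_of_isLine M.2))⟩ :
        Nonempty (QC2.Iso (dual c L.1 (isVB_of_isLine L.2)) (dual c M.1 (isVB_of_isLine M.2))))) x

noncomputable instance : CommGroup (LinePic c) where
  mul := mul
  one := mk c QC2.unit isLine_unit
  inv := inv
  mul_assoc := by
    rintro ⟨L⟩ ⟨M⟩ ⟨N⟩
    exact Quotient.sound ⟨tensorAssoc L.1 M.1 N.1⟩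
  one_mul := by
    rintro ⟨L⟩
    exact Quotient.sound ⟨tensorUnitLeft L.1⟩
  mul_one := by
    rintro ⟨L⟩
    exact Quotient.sound ⟨tensorUnitRight L.1⟩
  inv_mul_cancel := by
    rintro ⟨L⟩
    exact Quotient.sound ⟨dualTensorIso c L.1 L.2⟩
  mul_comm := by
    rintro ⟨L⟩ ⟨M⟩
    exact Quotient.sound ⟨tensorComm L.1 M.1⟩

theorem mk_mul_mk {L M : QC2 A R0 R1 R01} (hL : L.IsLine) (hM : M.IsLine) :
    mk c L hL * mk c M hM = mk c (tensor L M) (isLine_tensor hL hM) := rfl

theorem one_def : (1 : LinePic c) = mk c QC2.unit isLine_unit := rfl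

theorem inv_mk {L : QC2 A R0 R1 R01} (hL : L.IsLine) :
    (mk c L hL)⁻¹ = mk c (dual c L (isVB_of_isLine hL)) (isLine_dual c hL) := rfl

/-- `mk L * mk M = 1` iff `L ⊗ M ≅ O`. -/
theorem mk_mul_mk_eq_one_iff {L M : QC2 A R0 R1 R01} (hL : L.IsLine) (hM : M.IsLine) :
    mk c L hL * mk c M hM = 1 ↔ Nonempty (QC2.Iso (tensor L M) QC2.unit) := by
  rw [mk_mul_mk, one_def, mk_eq_mk_iff]

/-- A predicate on lines which is invariant under isomorphism, holds for the unit, and is stable
under tensor products and under passing to a tensor inverse, defines a subgroup of `LinePic`. -/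
def subgroupOf (S : QC2 A R0 R1 R01 → Prop)
    (hiso : ∀ {L M : QC2 A R0 R1 R01}, QC2.Iso L M → S L → S M)
    (hone : S QC2.unit)
    (hmul : ∀ {L M : QC2 A R0 R1 R01}, L.IsLine → M.IsLine → S L → S M → S (tensor L M))
    (hinv : ∀ {L M : QC2 A R0 R1 R01}, L.IsLine → M.IsLine → S L →
      QC2.Iso (tensor L M) QC2.unit → S M) : Subgroup (LinePic c) where
  carrier := {x | ∀ (L : QC2 A R0 R1 R01) (hL : L.IsLine), x = mk c L hL → S L}
  mul_mem' := by
    intro x y hx hy N hN h
    obtain ⟨L, hL, rfl⟩ := exists_rep x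
    obtain ⟨M, hM, rfl⟩ := exists_rep y
    rw [mk_mul_mk, mk_eq_mk_iff] at h
    obtain ⟨e⟩ := h
    exact hiso e (hmul hL hM (hx L hL rfl) (hy M hM rfl))
  one_mem' := by
    intro N hN h
    rw [one_def, mk_eq_mk_iff] at h
    obtain ⟨e⟩ := h
    exact hiso e hone
  inv_mem' := by
    intro x hx N hN h
    obtain ⟨L, hL, rfl⟩ := exists_rep x
    have h1 : mk c L hL * mk c N hN = 1 := by rw [← h, mul_inv_cancel]
    rw [mk_mul_mk_eq_one_iff] at h1
    obtain ⟨e⟩ := h1
    exact hinv hL hN (hx L hL rfl) e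

theorem mk_mem_subgroupOf {S : QC2 A R0 R1 R01 → Prop}
    {hiso : ∀ {L M : QC2 A R0 R1 R01}, QC2.Iso L M → S L → S M} {hone : S QC2.unit}
    {hmul : ∀ {L M : QC2 A R0 R1 R01}, L.IsLine → M.IsLine → S L → S M → S (tensor L M)}
    {hinv : ∀ {L M : QC2 A R0 R1 R01}, L.IsLine → M.IsLine → S L →
      QC2.Iso (tensor L M) QC2.unit → S M} {L : QC2 A R0 R1 R01} (hL : L.IsLine) :
    mk c L hL ∈ subgroupOf S hiso hone hmul hinv ↔ S L := by
  constructor
  · intro h
    exact h L hL rfl
  · intro h N hN hN'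
    rw [mk_eq_mk_iff] at hN'
    obtain ⟨e⟩ := hN'
    exact hiso e h

end LinePic

end Pic

section Generic

/-! ### A generic compatibility of `distribBaseChange` with semilinear tensor maps -/

variable {R R' S S' : Type u} [CommRing R] [CommRing R'] [CommRing S] [CommRing S']
  [Algebra R S] [Algebra R' S'] [Algebra R R'] [Algebra S S']
  {N Q P1 P2 N' Q' P1' P2' : Type u}
  [AddCommGroup N] [Module R N] [AddCommGroup Q] [Module R Q]
  [AddCommGroup P1] [Module S P1] [Module R P1] [IsScalarTower R S P1]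
  [AddCommGroup P2] [Module S P2] [Module R P2] [IsScalarTower R S P2]
  [AddCommGroup N'] [Module R' N'] [AddCommGroup Q'] [Module R' Q']
  [AddCommGroup P1'] [Module S' P1'] [Module R' P1'] [IsScalarTower R' S' P1']
  [AddCommGroup P2'] [Module S' P2'] [Module R' P2'] [IsScalarTower R' S' P2']

theorem distrib_congr_tmap (f : N →ₗ[R] P1) (g : Q →ₗ[R] P2) (f' : N' →ₗ[R'] P1')
    (g' : Q' →ₗ[R'] P2') (eN : R' ⊗[R] N ≃ₗ[R'] N') (eQ : R' ⊗[R] Q ≃ₗ[R'] Q')
    (eP1 : S' ⊗[S] P1 ≃ₗ[S'] P1') (eP2 : S' ⊗[S] P2 ≃ₗ[S'] P2')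
    (hf : ∀ x, eP1 (1 ⊗ₜ f x) = f' (eN (1 ⊗ₜ x))) (hg : ∀ x, eP2 (1 ⊗ₜ g x) = g' (eQ (1 ⊗ₜ x)))
    (z : N ⊗[R] Q) :
    ((AlgebraTensorModule.distribBaseChange S S' P1 P2) ≪≫ₗ TensorProduct.congr eP1 eP2)
        (1 ⊗ₜ tmap (S := S) f g z) =
      tmap (S := S') f' g'
        (((AlgebraTensorModule.distribBaseChange R R' N Q) ≪≫ₗ TensorProduct.congr eN eQ)
          (1 ⊗ₜ z)) := by
  induction z using TensorProduct.induction_on with
  | zero => simp
  | tmul a b =>
    simp only [tmap_tmul, LinearEquiv.trans_apply, AlgebraTensorModule.distribBaseChange_tmul,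
      TensorProduct.congr_tmul, hf, hg]
  | add x y hx hy =>
    simp only [map_add, tmul_add, hx, hy]

omit [Algebra R' S'] in
theorem rid_square [Algebra R' S']
    (hc : (algebraMap R' S').comp (algebraMap R R') = (algebraMap S S').comp (algebraMap R S))
    (x : R) :
    AlgebraTensorModule.rid S S' S' (1 ⊗ₜ algebraMap R S x) =
      algebraMap R' S' (AlgebraTensorModule.rid R R' R' (1 ⊗ₜ x)) := by
  rw [AlgebraTensorModule.rid_tmul, AlgebraTensorModule.rid_tmul,
    ← Algebra.algebraMap_eq_smul_one, ← Algebra.algebraMap_eq_smul_one]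
  exact (RingHom.congr_fun hc x).symm

end Generic

section Cube

variable {A R0 R1 R01 A' R0' R1' R01' : Type u}
  [CommRing A] [CommRing R0] [CommRing R1] [CommRing R01]
  [Algebra A R0] [Algebra A R1] [Algebra A R01] [Algebra R0 R01] [Algebra R1 R01]
  [IsScalarTower A R0 R01] [IsScalarTower A R1 R01]
  [CommRing A'] [CommRing R0'] [CommRing R1'] [CommRing R01']
  [Algebra A' R0'] [Algebra A' R1'] [Algebra A' R01'] [Algebra R0' R01'] [Algebra R1' R01']
  [IsScalarTower A' R0' R01'] [IsScalarTower A' R1' R01']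
  [Algebra R0 R0'] [Algebra R1 R1'] [Algebra R01 R01']

/-- Base change is compatible with tensor products. -/
noncomputable def liftDataTensor {L M : QC2 A R0 R1 R01} {L' M' : QC2 A' R0' R1' R01'}
    (h : LiftData L L') (h' : LiftData M M') : LiftData (tensor L M) (tensor L' M') where
  e0 := (AlgebraTensorModule.distribBaseChange R0 R0' L.N0 M.N0) ≪≫ₗ
    TensorProduct.congr h.e0 h'.e0
  e1 := (AlgebraTensorModule.distribBaseChange R1 R1' L.N1 M.N1) ≪≫ₗ
    TensorProduct.congr h.e1 h'.e1
  e01 := (AlgebraTensorModule.distribBaseChange R01 R01' L.N01 M.N01) ≪≫ₗ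
    TensorProduct.congr h.e01 h'.e01
  comm0 := distrib_congr_tmap L.r0 M.r0 L'.r0 M'.r0 h.e0 h'.e0 h.e01 h'.e01 h.comm0 h'.comm0
  comm1 := distrib_congr_tmap L.r1 M.r1 L'.r1 M'.r1 h.e1 h'.e1 h.e01 h'.e01 h.comm1 h'.comm1

/-- The unit is the base change of the unit. -/
noncomputable def liftDataUnit
    (hc0 : (algebraMap R0' R01').comp (algebraMap R0 R0') =
      (algebraMap R01 R01').comp (algebraMap R0 R01))
    (hc1 : (algebraMap R1' R01').comp (algebraMap R1 R1') =
      (algebraMap R01 R01').comp (algebraMap R1 R01)) :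
    LiftData (QC2.unit : QC2 A R0 R1 R01) (QC2.unit : QC2 A' R0' R1' R01') where
  e0 := AlgebraTensorModule.rid R0 R0' R0'
  e1 := AlgebraTensorModule.rid R1 R1' R1'
  e01 := AlgebraTensorModule.rid R01 R01' R01'
  comm0 := rid_square (R := R0) (R' := R0') (S := R01) (S' := R01') hc0
  comm1 := rid_square (R := R1) (R' := R1') (S := R01) (S' := R01') hc1

variable
  (hc0 : (algebraMap R0' R01').comp (algebraMap R0 R0') =
    (algebraMap R01 R01').comp (algebraMap R0 R01))
  (hc1 : (algebraMap R1' R01').comp (algebraMap R1 R1') =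
    (algebraMap R01 R01').comp (algebraMap R1 R01))
  (c : TwoChart A R0 R1 R01) (c' : TwoChart A' R0' R1' R01')

/-- Base change of classes of lines along a cube of rings, as a group homomorphism. -/
noncomputable def LinePic.bc : LinePic c →* LinePic c' where
  toFun := Quotient.map (fun L : LineObj c =>
      (⟨bcCube A' hc0 hc1 L.1, LiftData.isLine (liftData_bcCube hc0 hc1 L.1) L.2⟩ : LineObj c'))
    (fun L M (h : Nonempty (QC2.Iso L.1 M.1)) =>
      (⟨LiftData.iso (LiftData.congrIso (liftData_bcCube hc0 hc1 L.1) h.some)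
        (liftData_bcCube hc0 hc1 M.1)⟩ :
        Nonempty (QC2.Iso (bcCube A' hc0 hc1 L.1) (bcCube A' hc0 hc1 M.1))))
  map_one' := Quotient.sound ⟨LiftData.iso (liftData_bcCube hc0 hc1 _) (liftDataUnit hc0 hc1)⟩
  map_mul' := by
    rintro ⟨L⟩ ⟨M⟩
    exact Quotient.sound ⟨LiftData.iso (liftData_bcCube hc0 hc1 _)
      (liftDataTensor (liftData_bcCube hc0 hc1 L.1) (liftData_bcCube hc0 hc1 M.1))⟩

/-- The base change of the class of `L` is the class of any base change `L'` of `L`. -/
theorem LinePic.bc_mk {L : QC2 A R0 R1 R01} {L' : QC2 A' R0' R1' R01'} (hL : L.IsLine)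
    (h : LiftData L L') :
    LinePic.bc hc0 hc1 c c' (LinePic.mk c L hL) = LinePic.mk c' L' (LiftData.isLine h hL) :=
  Quotient.sound ⟨LiftData.iso (liftData_bcCube hc0 hc1 L) h⟩

/-- If the class of `L'` is the base change of the class of `L`, then `L'` is a base change of
`L`. -/
theorem LinePic.nonempty_liftData_of_bc_eq {L : QC2 A R0 R1 R01} {L' : QC2 A' R0' R1' R01'}
    (hL : L.IsLine) (hL' : L'.IsLine)
    (h : LinePic.bc hc0 hc1 c c' (LinePic.mk c L hL) = LinePic.mk c' L' hL') :
    Nonempty (LiftData L L') := by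
  rw [LinePic.bc_mk hc0 hc1 c c' hL (liftData_bcCube hc0 hc1 L), LinePic.mk_eq_mk_iff] at h
  obtain ⟨e⟩ := h
  exact ⟨LiftData.ofIso (liftData_bcCube hc0 hc1 L) e⟩

end Cube

end Fermat.Agent.Jac.JGroup85Pic
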