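import Mathlib
import Fermat.Agent.Jac.JSmooth85Alg

/-!
# JAC bricks Q1/Q2, algebra side: rigidifiability  (helper85)

Generic facts on "rigidifiable" modules: for a ring `R` with a section `R → A` (an `Algebra R A`
structure passed explicitly), the `R`-module `N` is rigidifiable if `A ⊗[R] N ≃ A`.

* `IsRig.self`, `IsRig.of_equiv`, `IsRig.tensor`, `IsRig.of_tensor_equiv` : the rigidifiable
  modules are closed under isomorphism, contain `R`, and are closed under tensor products and
  tensor inverses.
* `IsRig.baseChange` : rigidifiability is preserved by base change along a commutative square.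
* `IsRig.lift` : rigidifiability lifts along a square whose vertical maps are surjective with
  nilpotent kernel (uses `JSmooth85Alg.exists_rigidification_lift`).
* `tensor_left_surjective`, `tensor_left_ker_isNilpotent` : for `A → A'` surjective with nilpotent
  kernel, so is `A ⊗[k] B → A' ⊗[k] B`.
-/

set_option autoImplicit false
set_option linter.style.haveILetI false
set_option linter.unusedSectionVars false

open TensorProduct

namespace Fermat.Agent.Jac.JGroup85Rig

universe u

section Generic

variable {R A : Type u} [CommRing R] [CommRing A]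

/-- The `R`-module `N` becomes free of rank one after base change along `R → A`. -/
def IsRig (R A : Type u) [CommRing R] [CommRing A] (alg : Algebra R A) (N : Type u)
    [AddCommGroup N] [Module R N] : Prop :=
  letI := alg
  Nonempty (A ⊗[R] N ≃ₗ[A] A)

variable (alg : Algebra R A) {N Q : Type u} [AddCommGroup N] [Module R N] [AddCommGroup Q]
  [Module R Q]

theorem IsRig.self : IsRig R A alg R :=
  letI := alg
  ⟨AlgebraTensorModule.rid R A A⟩

theorem IsRig.of_equiv (e : N ≃ₗ[R] Q) (h : IsRig R A alg N) : IsRig R A alg Q := by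
  letI := alg
  obtain ⟨ρ⟩ := h
  exact ⟨(AlgebraTensorModule.congr (LinearEquiv.refl A A) e).symm ≪≫ₗ ρ⟩

theorem IsRig.tensor (h : IsRig R A alg N) (h' : IsRig R A alg Q) :
    IsRig R A alg (N ⊗[R] Q) := by
  letI := alg
  obtain ⟨ρ⟩ := h
  obtain ⟨σ⟩ := h'
  exact ⟨(AlgebraTensorModule.distribBaseChange R A N Q) ≪≫ₗ TensorProduct.congr ρ σ ≪≫ₗ
    TensorProduct.lid A A⟩

theorem IsRig.of_tensor_equiv (h : IsRig R A alg N) (e : N ⊗[R] Q ≃ₗ[R] R) :
    IsRig R A alg Q := by
  letI := alg
  obtain ⟨ρ⟩ := h
  exact ⟨(TensorProduct.lid A (A ⊗[R] Q)).symm ≪≫ₗ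
    TensorProduct.congr ρ.symm (LinearEquiv.refl A (A ⊗[R] Q)) ≪≫ₗ
    (AlgebraTensorModule.distribBaseChange R A N Q).symm ≪≫ₗ
    AlgebraTensorModule.congr (LinearEquiv.refl A A) e ≪≫ₗ AlgebraTensorModule.rid R A A⟩

end Generic

section Square

variable {R R' A A' : Type u} [CommRing R] [CommRing R'] [CommRing A] [CommRing A']
  [Algebra A A'] [Algebra R R'] (aRA : Algebra R A) (aRA' : Algebra R' A')
  (hcomm : letI := aRA; letI := aRA'
    (algebraMap A A').comp (algebraMap R A) = (algebraMap R' A').comp (algebraMap R R'))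
  {N N' : Type u} [AddCommGroup N] [Module R N] [AddCommGroup N'] [Module R' N']

include hcomm in
/-- Rigidifiability is preserved by base change. -/
theorem IsRig.baseChange (e : R' ⊗[R] N ≃ₗ[R'] N') (h : IsRig R A aRA N) :
    IsRig R' A' aRA' N' := by
  letI := aRA
  letI := aRA'
  letI : Algebra R A' := ((algebraMap A A').comp (algebraMap R A)).toAlgebra
  haveI : IsScalarTower R A A' := IsScalarTower.of_algebraMap_eq (fun _ => rfl)
  haveI : IsScalarTower R R' A' := IsScalarTower.of_algebraMap_eq (fun x => RingHom.congr_fun hcomm x)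
  obtain ⟨ρ⟩ := h
  exact ⟨(JSmooth85Alg.pullbackCompare (A := A) (A' := A') e).symm ≪≫ₗ
    AlgebraTensorModule.congr (LinearEquiv.refl A' A') ρ ≪≫ₗ AlgebraTensorModule.rid A A' A'⟩

include hcomm in
/-- Rigidifiability lifts along surjections with nilpotent kernel. -/
theorem IsRig.lift (hs : Function.Surjective (algebraMap A A'))
    (hn : IsNilpotent (RingHom.ker (algebraMap A A'))) [Module.Invertible R N]
    (e : R' ⊗[R] N ≃ₗ[R'] N') (h' : IsRig R' A' aRA' N') : IsRig R A aRA N := by
  letI := aRA
  letI := aRA'
  letI : Algebra R A' := ((algebraMap A A').comp (algebraMap R A)).toAlgebra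
  haveI : IsScalarTower R A A' := IsScalarTower.of_algebraMap_eq (fun _ => rfl)
  haveI : IsScalarTower R R' A' := IsScalarTower.of_algebraMap_eq (fun x => RingHom.congr_fun hcomm x)
  obtain ⟨ρ'⟩ := h'
  obtain ⟨ρ, -⟩ := JSmooth85Alg.exists_rigidification_lift (A := A) (A' := A') hs hn e ρ'
  exact ⟨ρ⟩

end Square

section TensorRing

variable (k A A' B : Type u) [CommRing k] [CommRing A] [CommRing A'] [CommRing B]
  [Algebra k A] [Algebra k A'] [Algebra k B] [Algebra A A'] [IsScalarTower k A A']

theorem tensor_left_surjective (hs : Function.Surjective (algebraMap A A')) :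
    Function.Surjective
      (Algebra.TensorProduct.map (IsScalarTower.toAlgHom A A A') (AlgHom.id k B)) :=
  Algebra.TensorProduct.map_surjective _ _ hs Function.surjective_id

theorem tensor_left_ker_isNilpotent (hs : Function.Surjective (algebraMap A A'))
    (hn : IsNilpotent (RingHom.ker (algebraMap A A'))) :
    IsNilpotent (RingHom.ker
      (Algebra.TensorProduct.map (IsScalarTower.toAlgHom A A A') (AlgHom.id k B))) := by
  have hker := Algebra.TensorProduct.rTensor_ker (R := k) (C := B)
    (IsScalarTower.toAlgHom A A A') hs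
  obtain ⟨n, hn⟩ := hn
  refine ⟨n, ?_⟩
  rw [hker, ← Ideal.map_pow]
  have : RingHom.ker (IsScalarTower.toAlgHom A A A') = RingHom.ker (algebraMap A A') := rfl
  rw [this, hn]
  exact Ideal.map_bot

end TensorRing

end Fermat.Agent.Jac.JGroup85Rig
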