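/-
JAC programme, brick Q-shell (helper79), part Q2abs:
a scheme over a field carrying a functorial group law on its points
(`GoodReductionJacobian.RelativeGroupLaw`) is separated.

The diagonal is the base change of the unit section along the "difference" map, and a section
of a morphism to the spectrum of a field is a closed immersion
(`AlgebraicGeometry.isClosedImmersion_of_comp_eq_id`).
-/
import Mathlib
import Fermat.Prelude.Def_AlgebraicGeometry_RelativeGroupLaw

set_option autoImplicit false

universe u

open CategoryTheory CategoryTheory.Limits AlgebraicGeometry NeronModelInfra GoodReductionJacobian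

namespace Fermat.Agent.Jac.QShell79Sep

section GroupLawNaturality

variable {R : Type u} [CommRing R] {A : Scheme.{u}} {f : A ⟶ Spec (CommRingCat.of R)}

/-- Left cancellation in the group of `T`-points. -/
theorem mul_left_cancel (G : RelativeGroupLaw R f) {T : Scheme.{u}}
    (t : T ⟶ Spec (CommRingCat.of R)) (a x y : SchemeHomOver t f)
    (h : G.mul t a x = G.mul t a y) : x = y := by
  calc x = G.mul t (G.one t) x := (G.one_mul t x).symm
    _ = G.mul t (G.mul t (G.inv t a) a) x := by rw [G.inv_mul_cancel]
    _ = G.mul t (G.inv t a) (G.mul t a x) := G.mul_assoc t _ _ _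
    _ = G.mul t (G.inv t a) (G.mul t a y) := by rw [h]
    _ = G.mul t (G.mul t (G.inv t a) a) y := (G.mul_assoc t _ _ _).symm
    _ = G.mul t (G.one t) y := by rw [G.inv_mul_cancel]
    _ = y := G.one_mul t y

/-- Right cancellation in the group of `T`-points. -/
theorem mul_right_cancel (G : RelativeGroupLaw R f) {T : Scheme.{u}}
    (t : T ⟶ Spec (CommRingCat.of R)) (a x y : SchemeHomOver t f)
    (h : G.mul t x a = G.mul t y a) : x = y := by
  calc x = G.mul t x (G.one t) := (G.mul_one t x).symm
    _ = G.mul t x (G.mul t a (G.inv t a)) := by rw [G.mul_inv_cancel]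
    _ = G.mul t (G.mul t x a) (G.inv t a) := (G.mul_assoc t _ _ _).symm
    _ = G.mul t (G.mul t y a) (G.inv t a) := by rw [h]
    _ = G.mul t y (G.mul t a (G.inv t a)) := G.mul_assoc t _ _ _
    _ = G.mul t y (G.one t) := by rw [G.mul_inv_cancel]
    _ = y := G.mul_one t y

/-- The inverse of the group law is natural in the test scheme. -/
theorem inv_natural (G : RelativeGroupLaw R f) {T T' : Scheme.{u}}
    (t : T ⟶ Spec (CommRingCat.of R)) (t' : T' ⟶ Spec (CommRingCat.of R))
    (ψ : T' ⟶ T) (hψ : ψ ≫ t = t') (x : SchemeHomOver t f) :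
    schemeHomOverComp ψ hψ (G.inv t x) = G.inv t' (schemeHomOverComp ψ hψ x) := by
  apply mul_right_cancel G t' (schemeHomOverComp ψ hψ x)
  rw [← G.mul_natural t t' ψ hψ, G.inv_mul_cancel, G.inv_mul_cancel, G.one_natural t t' ψ hψ]

/-- `x * y⁻¹ = 1` forces `x = y`. -/
theorem eq_of_mul_inv_eq_one (G : RelativeGroupLaw R f) {T : Scheme.{u}}
    (t : T ⟶ Spec (CommRingCat.of R)) (x y : SchemeHomOver t f)
    (h : G.mul t x (G.inv t y) = G.one t) : x = y := by
  apply mul_right_cancel G t (G.inv t y)
  rw [h, G.mul_inv_cancel]

end GroupLawNaturality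

section Separated

variable {k : Type u} [Field k] {J : Scheme.{u}} {f : J ⟶ Spec (CommRingCat.of k)}

/-- The structure morphism of `J ×ₖ J`. -/
noncomputable abbrev prodStr (f : J ⟶ Spec (CommRingCat.of k)) :
    pullback f f ⟶ Spec (CommRingCat.of k) :=
  pullback.fst f f ≫ f

/-- First projection as a point of `J` over `J ×ₖ J`. -/
noncomputable def prFst (f : J ⟶ Spec (CommRingCat.of k)) : SchemeHomOver (prodStr f) f :=
  ⟨pullback.fst f f, rfl⟩

/-- Second projection as a point of `J` over `J ×ₖ J`. -/
noncomputable def prSnd (f : J ⟶ Spec (CommRingCat.of k)) : SchemeHomOver (prodStr f) f :=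
  ⟨pullback.snd f f, pullback.condition.symm⟩

/-- The difference map `(x, y) ↦ x * y⁻¹` on `J ×ₖ J`. -/
noncomputable def diffMap (G : RelativeGroupLaw k f) : SchemeHomOver (prodStr f) f :=
  G.mul (prodStr f) (prFst f) (G.inv (prodStr f) (prSnd f))

/-- The unit section. -/
noncomputable def unitSection (G : RelativeGroupLaw k f) :
    SchemeHomOver (𝟙 (Spec (CommRingCat.of k))) f :=
  G.one (𝟙 _)

theorem diffMap_comp (G : RelativeGroupLaw k f) {T : Scheme.{u}} (x : T ⟶ pullback f f)
    (t : T ⟶ Spec (CommRingCat.of k)) (ht : x ≫ prodStr f = t) :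
    schemeHomOverComp x ht (diffMap G) =
      G.mul t (schemeHomOverComp x ht (prFst f))
        (G.inv t (schemeHomOverComp x ht (prSnd f))) := by
  unfold diffMap
  rw [G.mul_natural (prodStr f) t x ht, inv_natural G (prodStr f) t x ht]

theorem unitSection_comp (G : RelativeGroupLaw k f) {T : Scheme.{u}}
    (t : T ⟶ Spec (CommRingCat.of k)) :
    schemeHomOverComp t (Category.comp_id t) (unitSection G) = G.one t :=
  G.one_natural (𝟙 _) t t (Category.comp_id t)

/-- The diagonal of `J` is the base change of the unit section along the difference map. -/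
theorem isPullback_diagonal (G : RelativeGroupLaw k f) :
    IsPullback (pullback.diagonal f) f (diffMap G).1 (unitSection G).1 := by
  have hdiag : pullback.diagonal f ≫ prodStr f = f := by
    simp [prodStr]
  have hw : pullback.diagonal f ≫ (diffMap G).1 = f ≫ (unitSection G).1 := by
    have h1 := congrArg Subtype.val (diffMap_comp G (pullback.diagonal f) f hdiag)
    have h2 := congrArg Subtype.val (unitSection_comp G f)
    simp only [schemeHomOverComp_coe] at h1 h2
    rw [h1, h2]
    have e1 : schemeHomOverComp (pullback.diagonal f) hdiag (prFst f) =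
        schemeHomOverComp (pullback.diagonal f) hdiag (prSnd f) := by
      apply Subtype.ext
      simp [prFst, prSnd]
    rw [e1, G.mul_inv_cancel]
  refine ⟨⟨hw⟩, ⟨PullbackCone.IsLimit.mk _ (fun s => s.fst ≫ pullback.fst f f) ?_ ?_ ?_⟩⟩
  · -- first factorisation
    intro s
    have hs : s.fst ≫ prodStr f = s.snd := by
      have h1 : s.fst ≫ (diffMap G).1 ≫ f = s.snd ≫ (unitSection G).1 ≫ f := by
        rw [← Category.assoc, s.condition, Category.assoc]
      rw [(diffMap G).2, (unitSection G).2, Category.comp_id] at h1
      exact h1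
    have key : schemeHomOverComp s.fst hs (prFst f) = schemeHomOverComp s.fst hs (prSnd f) := by
      apply eq_of_mul_inv_eq_one G s.snd
      rw [← diffMap_comp G s.fst s.snd hs, ← unitSection_comp G s.snd]
      apply Subtype.ext
      simp only [schemeHomOverComp_coe]
      exact s.condition
    have key' : s.fst ≫ pullback.fst f f = s.fst ≫ pullback.snd f f :=
      congrArg Subtype.val key
    apply pullback.hom_ext
    · simp
    · simp [key']
  · -- second factorisation
    intro s
    have h1 : s.fst ≫ (diffMap G).1 ≫ f = s.snd ≫ (unitSection G).1 ≫ f := by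
      rw [← Category.assoc, s.condition, Category.assoc]
    rw [(diffMap G).2, (unitSection G).2, Category.comp_id] at h1
    rw [Category.assoc]
    exact h1
  · -- uniqueness
    intro s m hm _
    rw [← hm]
    simp

/-- **Q2abs.** A scheme over a field whose functor of points carries a (natural) group law is
separated. -/
theorem isSeparated_of_relativeGroupLaw (G : RelativeGroupLaw k f) : IsSeparated f := by
  have hcl : IsClosedImmersion (unitSection G).1 :=
    isClosedImmersion_of_comp_eq_id f (unitSection G).1 (unitSection G).2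
  exact ⟨MorphismProperty.of_isPullback (P := @IsClosedImmersion) (isPullback_diagonal G).flip hcl⟩

end Separated

end Fermat.Agent.Jac.QShell79Sep
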