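/-
JAC programme, brick Q2a (helper79), part 2: a natural group law on the points of `J` with values
in affine schemes extends (uniquely) to a natural group law on the points with values in all
schemes, i.e. to a `GoodReductionJacobian.RelativeGroupLaw`.
-/
import Mathlib
import Fermat.Prelude.Def_AlgebraicGeometry_RelativeGroupLaw
import Fermat.Agent.Jac.AffGroup79Glue
import Fermat.Agent.Jac.QShell79Sep

set_option autoImplicit false

noncomputable section

universe u

open CategoryTheory CategoryTheory.Limits AlgebraicGeometry NeronModelInfra GoodReductionJacobian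

namespace Fermat.Agent.Jac.AffGroup79

open AffGroup79Glue

/-- A natural group law on the points of `f : J ⟶ Spec R` with values in affine schemes. -/
structure AffineGroupLaw (R : Type u) [CommRing R] {J : Scheme.{u}}
    (f : J ⟶ Spec (CommRingCat.of R)) where
  /-- multiplication of `Spec B`-valued points -/
  mul : ∀ {B : CommRingCat.{u}} (t : Spec B ⟶ Spec (CommRingCat.of R)),
    SchemeHomOver t f → SchemeHomOver t f → SchemeHomOver t f
  /-- the unit `Spec B`-valued point -/
  one : ∀ {B : CommRingCat.{u}} (t : Spec B ⟶ Spec (CommRingCat.of R)), SchemeHomOver t f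
  /-- inversion of `Spec B`-valued points -/
  inv : ∀ {B : CommRingCat.{u}} (t : Spec B ⟶ Spec (CommRingCat.of R)),
    SchemeHomOver t f → SchemeHomOver t f
  mul_assoc : ∀ {B : CommRingCat.{u}} (t : Spec B ⟶ Spec (CommRingCat.of R))
    (x y z : SchemeHomOver t f), mul t (mul t x y) z = mul t x (mul t y z)
  one_mul : ∀ {B : CommRingCat.{u}} (t : Spec B ⟶ Spec (CommRingCat.of R))
    (x : SchemeHomOver t f), mul t (one t) x = x
  mul_one : ∀ {B : CommRingCat.{u}} (t : Spec B ⟶ Spec (CommRingCat.of R))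
    (x : SchemeHomOver t f), mul t x (one t) = x
  inv_mul_cancel : ∀ {B : CommRingCat.{u}} (t : Spec B ⟶ Spec (CommRingCat.of R))
    (x : SchemeHomOver t f), mul t (inv t x) x = one t
  mul_natural : ∀ {B B' : CommRingCat.{u}} (t : Spec B ⟶ Spec (CommRingCat.of R))
    (t' : Spec B' ⟶ Spec (CommRingCat.of R)) (φ : B ⟶ B') (hφ : Spec.map φ ≫ t = t')
    (x y : SchemeHomOver t f),
    schemeHomOverComp (Spec.map φ) hφ (mul t x y) =
      mul t' (schemeHomOverComp (Spec.map φ) hφ x) (schemeHomOverComp (Spec.map φ) hφ y)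

namespace AffineGroupLaw

variable {R : Type u} [CommRing R] {J : Scheme.{u}} {f : J ⟶ Spec (CommRingCat.of R)}
  (G : AffineGroupLaw R f)

/-- The group of `Spec B`-valued points. -/
@[reducible]
def pointGroup {B : CommRingCat.{u}} (t : Spec B ⟶ Spec (CommRingCat.of R)) :
    Group (SchemeHomOver t f) where
  mul x y := G.mul t x y
  one := G.one t
  inv x := G.inv t x
  mul_assoc := G.mul_assoc t
  one_mul := G.one_mul t
  mul_one := G.mul_one t
  inv_mul_cancel := G.inv_mul_cancel t

theorem mul_inv_cancel {B : CommRingCat.{u}} (t : Spec B ⟶ Spec (CommRingCat.of R))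
    (x : SchemeHomOver t f) : G.mul t x (G.inv t x) = G.one t :=
  letI := G.pointGroup t
  _root_.mul_inv_cancel x

theorem eq_one_of_mul_self {B : CommRingCat.{u}} (t : Spec B ⟶ Spec (CommRingCat.of R))
    (x : SchemeHomOver t f) (h : G.mul t x x = x) : x = G.one t :=
  letI := G.pointGroup t
  (mul_eq_left (a := x) (b := x)).mp h

theorem eq_inv_of_mul_eq_one {B : CommRingCat.{u}} (t : Spec B ⟶ Spec (CommRingCat.of R))
    (x y : SchemeHomOver t f) (h : G.mul t x y = G.one t) : x = G.inv t y :=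
  letI := G.pointGroup t
  eq_inv_of_mul_eq_one_left h

theorem one_natural {B B' : CommRingCat.{u}} (t : Spec B ⟶ Spec (CommRingCat.of R))
    (t' : Spec B' ⟶ Spec (CommRingCat.of R)) (φ : B ⟶ B') (hφ : Spec.map φ ≫ t = t') :
    schemeHomOverComp (Spec.map φ) hφ (G.one t) = G.one t' := by
  apply G.eq_one_of_mul_self
  rw [← G.mul_natural t t' φ hφ, G.one_mul]

theorem inv_natural {B B' : CommRingCat.{u}} (t : Spec B ⟶ Spec (CommRingCat.of R))
    (t' : Spec B' ⟶ Spec (CommRingCat.of R)) (φ : B ⟶ B') (hφ : Spec.map φ ≫ t = t')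
    (x : SchemeHomOver t f) :
    schemeHomOverComp (Spec.map φ) hφ (G.inv t x) =
      G.inv t' (schemeHomOverComp (Spec.map φ) hφ x) := by
  apply G.eq_inv_of_mul_eq_one
  rw [← G.mul_natural t t' φ hφ, G.inv_mul_cancel, G.one_natural t t' φ hφ]

/-- `mul` only depends on the underlying morphisms. -/
theorem mul_val_congr {B : CommRingCat.{u}} {t₁ t₂ : Spec B ⟶ Spec (CommRingCat.of R)}
    (h : t₁ = t₂) (x₁ y₁ : SchemeHomOver t₁ f) (x₂ y₂ : SchemeHomOver t₂ f)
    (hx : x₁.1 = x₂.1) (hy : y₁.1 = y₂.1) : (G.mul t₁ x₁ y₁).1 = (G.mul t₂ x₂ y₂).1 := by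
  subst h
  obtain rfl : x₁ = x₂ := Subtype.ext hx
  obtain rfl : y₁ = y₂ := Subtype.ext hy
  rfl

theorem one_val_congr {B : CommRingCat.{u}} {t₁ t₂ : Spec B ⟶ Spec (CommRingCat.of R)}
    (h : t₁ = t₂) : (G.one t₁).1 = (G.one t₂).1 := by
  subst h
  rfl

theorem inv_val_congr {B : CommRingCat.{u}} {t₁ t₂ : Spec B ⟶ Spec (CommRingCat.of R)}
    (h : t₁ = t₂) (x₁ : SchemeHomOver t₁ f) (x₂ : SchemeHomOver t₂ f)
    (hx : x₁.1 = x₂.1) : (G.inv t₁ x₁).1 = (G.inv t₂ x₂).1 := by
  subst h
  obtain rfl : x₁ = x₂ := Subtype.ext hx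
  rfl

section Extension

variable {T : Scheme.{u}} (t : T ⟶ Spec (CommRingCat.of R))

/-- Restriction of a `T`-valued point along an affine scheme over `T`. -/
def res {B : CommRingCat.{u}} (ψ : Spec B ⟶ T) (x : SchemeHomOver t f) :
    SchemeHomOver (ψ ≫ t) f :=
  schemeHomOverComp ψ rfl x

@[simp]
theorem res_val {B : CommRingCat.{u}} (ψ : Spec B ⟶ T) (x : SchemeHomOver t f) :
    (res t ψ x).1 = ψ ≫ x.1 := rfl

/-- Two `T`-valued points agreeing on all affine schemes over `T` are equal. -/
theorem ext_of_res (x y : SchemeHomOver t f)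
    (h : ∀ (B : CommRingCat.{u}) (ψ : Spec B ⟶ T), ψ ≫ x.1 = ψ ≫ y.1) : x = y :=
  Subtype.ext (hom_ext_of_affine _ _ h)

/-- The family of products of the restrictions of two `T`-valued points. -/
def mulFamily (x y : SchemeHomOver t f) : AffineFamily T J where
  m B ψ := (G.mul (ψ ≫ t) (res t ψ x) (res t ψ y)).1
  natural B B' φ ψ := by
    have h := congrArg Subtype.val
      (G.mul_natural (ψ ≫ t) ((Spec.map φ ≫ ψ) ≫ t) φ (Category.assoc _ _ _).symm
        (res t ψ x) (res t ψ y))
    rw [schemeHomOverComp_coe] at h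
    rw [h]
    exact G.mul_val_congr rfl _ _ _ _ (Category.assoc _ _ _).symm (Category.assoc _ _ _).symm

/-- The family of unit points. -/
def oneFamily : AffineFamily T J where
  m B ψ := (G.one (ψ ≫ t)).1
  natural B B' φ ψ := by
    have h := congrArg Subtype.val
      (G.one_natural (ψ ≫ t) ((Spec.map φ ≫ ψ) ≫ t) φ (Category.assoc _ _ _).symm)
    rw [schemeHomOverComp_coe] at h
    exact h

/-- The family of inverses of the restrictions of a `T`-valued point. -/
def invFamily (x : SchemeHomOver t f) : AffineFamily T J where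
  m B ψ := (G.inv (ψ ≫ t) (res t ψ x)).1
  natural B B' φ ψ := by
    have h := congrArg Subtype.val
      (G.inv_natural (ψ ≫ t) ((Spec.map φ ≫ ψ) ≫ t) φ (Category.assoc _ _ _).symm (res t ψ x))
    rw [schemeHomOverComp_coe] at h
    rw [h]
    exact G.inv_val_congr rfl _ _ (Category.assoc _ _ _).symm

/-- Extended multiplication. -/
def mulExt (x y : SchemeHomOver t f) : SchemeHomOver t f :=
  ⟨(G.mulFamily t x y).glue, hom_ext_of_affine _ _ fun B ψ => by
    rw [← Category.assoc, AffineFamily.comp_glue]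
    exact (G.mul (ψ ≫ t) (res t ψ x) (res t ψ y)).2⟩

/-- Extended unit. -/
def oneExt : SchemeHomOver t f :=
  ⟨(G.oneFamily t).glue, hom_ext_of_affine _ _ fun B ψ => by
    rw [← Category.assoc, AffineFamily.comp_glue]
    exact (G.one (ψ ≫ t)).2⟩

/-- Extended inversion. -/
def invExt (x : SchemeHomOver t f) : SchemeHomOver t f :=
  ⟨(G.invFamily t x).glue, hom_ext_of_affine _ _ fun B ψ => by
    rw [← Category.assoc, AffineFamily.comp_glue]
    exact (G.inv (ψ ≫ t) (res t ψ x)).2⟩

theorem comp_mulExt {B : CommRingCat.{u}} (ψ : Spec B ⟶ T) (x y : SchemeHomOver t f) :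
    ψ ≫ (G.mulExt t x y).1 = (G.mul (ψ ≫ t) (res t ψ x) (res t ψ y)).1 :=
  AffineFamily.comp_glue _ B ψ

theorem comp_oneExt {B : CommRingCat.{u}} (ψ : Spec B ⟶ T) :
    ψ ≫ (G.oneExt t).1 = (G.one (ψ ≫ t)).1 :=
  AffineFamily.comp_glue _ B ψ

theorem comp_invExt {B : CommRingCat.{u}} (ψ : Spec B ⟶ T) (x : SchemeHomOver t f) :
    ψ ≫ (G.invExt t x).1 = (G.inv (ψ ≫ t) (res t ψ x)).1 :=
  AffineFamily.comp_glue _ B ψ

theorem res_mulExt {B : CommRingCat.{u}} (ψ : Spec B ⟶ T) (x y : SchemeHomOver t f) :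
    res t ψ (G.mulExt t x y) = G.mul (ψ ≫ t) (res t ψ x) (res t ψ y) :=
  Subtype.ext (G.comp_mulExt t ψ x y)

theorem res_oneExt {B : CommRingCat.{u}} (ψ : Spec B ⟶ T) :
    res t ψ (G.oneExt t) = G.one (ψ ≫ t) :=
  Subtype.ext (G.comp_oneExt t ψ)

theorem res_invExt {B : CommRingCat.{u}} (ψ : Spec B ⟶ T) (x : SchemeHomOver t f) :
    res t ψ (G.invExt t x) = G.inv (ψ ≫ t) (res t ψ x) :=
  Subtype.ext (G.comp_invExt t ψ x)

/-- Equality of `T`-valued points can be tested after restriction to affine schemes. -/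
theorem ext_of_res' (x y : SchemeHomOver t f)
    (h : ∀ (B : CommRingCat.{u}) (ψ : Spec B ⟶ T), res t ψ x = res t ψ y) : x = y :=
  ext_of_res t x y fun B ψ => congrArg Subtype.val (h B ψ)

end Extension

/-- **Q2a.** The extension of an affine group law to all test schemes. -/
def toRelativeGroupLaw : RelativeGroupLaw R f where
  mul t x y := G.mulExt t x y
  one t := G.oneExt t
  inv t x := G.invExt t x
  mul_assoc t x y z := by
    apply ext_of_res' t
    intro B ψ
    rw [res_mulExt, res_mulExt, res_mulExt, res_mulExt, G.mul_assoc]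
  one_mul t x := by
    apply ext_of_res' t
    intro B ψ
    rw [res_mulExt, res_oneExt, G.one_mul]
  mul_one t x := by
    apply ext_of_res' t
    intro B ψ
    rw [res_mulExt, res_oneExt, G.mul_one]
  inv_mul_cancel t x := by
    apply ext_of_res' t
    intro B ψ
    rw [res_mulExt, res_invExt, res_oneExt, G.inv_mul_cancel]
  mul_natural t t' χ hχ x y := by
    apply ext_of_res t'
    intro B ψ
    rw [G.comp_mulExt t' ψ, schemeHomOverComp_coe, ← Category.assoc, G.comp_mulExt t (ψ ≫ χ)]
    refine G.mul_val_congr ?_ _ _ _ _ ?_ ?_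
    · rw [Category.assoc, hχ]
    · simp
    · simp

/-- On affine test schemes the extended law is the given one. -/
theorem toRelativeGroupLaw_mul_affine {B : CommRingCat.{u}}
    (t : Spec B ⟶ Spec (CommRingCat.of R)) (x y : SchemeHomOver t f) :
    G.toRelativeGroupLaw.mul t x y = G.mul t x y := by
  apply Subtype.ext
  have h := G.comp_mulExt t (𝟙 (Spec B)) x y
  rw [Category.id_comp] at h
  refine h.trans (G.mul_val_congr (Category.id_comp t) _ _ _ _ ?_ ?_)
  · simp
  · simp

/-- A scheme over a field with a natural group law on its affine-valued points is separated. -/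
theorem isSeparated {k : Type u} [Field k] {J : Scheme.{u}} {f : J ⟶ Spec (CommRingCat.of k)}
    (G : AffineGroupLaw k f) : IsSeparated f :=
  QShell79Sep.isSeparated_of_relativeGroupLaw G.toRelativeGroupLaw

end AffineGroupLaw

end Fermat.Agent.Jac.AffGroup79

end
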