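/-
JAC programme, brick Q-bridge (helper79), part 1: for a scheme `D.P` representing a cut `P` of the
rigidified relative Picard functor (`RepresentsRelSubPic`), points of `D.P` are the same as classes
of rigidified line bundles in the cut, naturally in the test scheme.
-/
import Mathlib
import Fermat.Prelude.Def_AlgebraicGeometry_RepresentsRelSubPic

set_option autoImplicit false

noncomputable section

universe u

open CategoryTheory CategoryTheory.Limits AlgebraicGeometry AlgebraicGeometry.RelPicard
  NeronModelInfra GoodReductionJacobian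

namespace Fermat.Agent.Jac.PointsBridge79

variable {R : Type u} [CommRing R] {C : Scheme.{u}} {c : C ⟶ Spec (CommRingCat.of R)}
  {ε : SchemeHomOver (𝟙 (Spec (CommRingCat.of R))) c}

/-- Membership of a class of rigidified line bundles in a cut. -/
def classMem (P : SubPicCondition c ε) {T : Scheme.{u}} (t : T ⟶ Spec (CommRingCat.of R)) :
    RigidifiedLineBundle.Classes c ε t → Prop :=
  Quotient.lift (fun M => P.P t M)
    (fun M M' h => propext ⟨P.congr t M M' h, P.congr t M' M ⟨h.some.symm⟩⟩)

@[simp]
theorem classMem_mk (P : SubPicCondition c ε) {T : Scheme.{u}}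
    (t : T ⟶ Spec (CommRingCat.of R)) (M : RigidifiedLineBundle c ε t) :
    classMem P t (Quotient.mk _ M) ↔ P.P t M := Iff.rfl

theorem classMem_map (P : SubPicCondition c ε) {T T' : Scheme.{u}}
    {t : T ⟶ Spec (CommRingCat.of R)} {t' : T' ⟶ Spec (CommRingCat.of R)}
    (ψ : SchemeHomOver t' t) (ξ : RigidifiedLineBundle.Classes c ε t) (h : classMem P t ξ) :
    classMem P t' (RigidifiedLineBundle.classesMap ψ ξ) := by
  induction ξ using Quotient.ind with
  | _ M => exact P.pullback_mem t t' ψ M h

/-- Classes of rigidified line bundles lying in the cut `P`. -/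
def PClass (P : SubPicCondition c ε) {T : Scheme.{u}} (t : T ⟶ Spec (CommRingCat.of R)) :
    Type (u + 1) :=
  {ξ : RigidifiedLineBundle.Classes c ε t // classMem P t ξ}

/-- Pullback of classes in the cut. -/
def PClass.map (P : SubPicCondition c ε) {T T' : Scheme.{u}}
    {t : T ⟶ Spec (CommRingCat.of R)} {t' : T' ⟶ Spec (CommRingCat.of R)}
    (ψ : SchemeHomOver t' t) (ξ : PClass P t) : PClass P t' :=
  ⟨RigidifiedLineBundle.classesMap ψ ξ.1, classMem_map P ψ ξ.1 ξ.2⟩

/-- The class of a rigidified line bundle in the cut. -/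
def PClass.mk (P : SubPicCondition c ε) {T : Scheme.{u}} (t : T ⟶ Spec (CommRingCat.of R))
    (M : RigidifiedLineBundle c ε t) (hM : P.P t M) : PClass P t :=
  ⟨Quotient.mk _ M, hM⟩

theorem PClass.mk_eq_mk_iff (P : SubPicCondition c ε) {T : Scheme.{u}}
    (t : T ⟶ Spec (CommRingCat.of R)) (M M' : RigidifiedLineBundle c ε t) (hM : P.P t M)
    (hM' : P.P t M') : PClass.mk P t M hM = PClass.mk P t M' hM' ↔ Nonempty (M.L ≅ M'.L) := by
  constructor
  · intro h
    exact Quotient.exact (congrArg Subtype.val h)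
  · intro h
    exact Subtype.ext (Quotient.sound h)

theorem PClass.exists_rep (P : SubPicCondition c ε) {T : Scheme.{u}}
    (t : T ⟶ Spec (CommRingCat.of R)) (ξ : PClass P t) :
    ∃ (M : RigidifiedLineBundle c ε t) (hM : P.P t M), ξ = PClass.mk P t M hM := by
  obtain ⟨ξ, hξ⟩ := ξ
  induction ξ using Quotient.ind with
  | _ M => exact ⟨M, hξ, rfl⟩

theorem PClass.map_mk (P : SubPicCondition c ε) {T T' : Scheme.{u}}
    {t : T ⟶ Spec (CommRingCat.of R)} {t' : T' ⟶ Spec (CommRingCat.of R)}
    (ψ : SchemeHomOver t' t) (M : RigidifiedLineBundle c ε t) (hM : P.P t M) :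
    PClass.map P ψ (PClass.mk P t M hM) =
      PClass.mk P t' (M.pullbackAlong ψ) (P.pullback_mem t t' ψ M hM) := rfl

/-- Iterated pullback of rigidified line bundles is pullback along the composition. -/
theorem pullbackAlong_postComp {X X' T' : Scheme.{u}} {x : X ⟶ Spec (CommRingCat.of R)}
    {x' : X' ⟶ Spec (CommRingCat.of R)} {t' : T' ⟶ Spec (CommRingCat.of R)}
    (M : RigidifiedLineBundle c ε x') (φ : SchemeHomOver x x') (ψ : SchemeHomOver t' x) :
    Nonempty ((M.pullbackAlong (postComp φ ψ)).L ≅ ((M.pullbackAlong φ).pullbackAlong ψ).L) :=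
  ⟨(Scheme.Modules.pullbackCongr (baseChangeSnd_comp c φ ψ).symm).app M.L ≪≫
    ((Scheme.Modules.pullbackComp _ _).app M.L).symm⟩

/-- Pullback along the identity. -/
theorem pullbackAlong_id {T : Scheme.{u}} {t : T ⟶ Spec (CommRingCat.of R)}
    (M : RigidifiedLineBundle c ε t) :
    Nonempty ((M.pullbackAlong (⟨𝟙 T, Category.id_comp t⟩ : SchemeHomOver t t)).L ≅ M.L) :=
  ⟨(Scheme.Modules.pullbackCongr (baseChangeSnd_id c t)).app M.L ≪≫
    (Scheme.Modules.pullbackId (pullback c t)).app M.L⟩

theorem PClass.map_map (P : SubPicCondition c ε) {X X' T' : Scheme.{u}}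
    {x : X ⟶ Spec (CommRingCat.of R)} {x' : X' ⟶ Spec (CommRingCat.of R)}
    {t' : T' ⟶ Spec (CommRingCat.of R)} (φ : SchemeHomOver x x') (ψ : SchemeHomOver t' x)
    (ξ : PClass P x') : PClass.map P ψ (PClass.map P φ ξ) = PClass.map P (postComp φ ψ) ξ := by
  obtain ⟨M, hM, rfl⟩ := PClass.exists_rep P x' ξ
  rw [PClass.map_mk, PClass.map_mk, PClass.map_mk, PClass.mk_eq_mk_iff]
  exact ⟨(pullbackAlong_postComp M φ ψ).some.symm⟩

theorem PClass.map_id (P : SubPicCondition c ε) {T : Scheme.{u}}
    {t : T ⟶ Spec (CommRingCat.of R)} (ξ : PClass P t) :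
    PClass.map P (⟨𝟙 T, Category.id_comp t⟩ : SchemeHomOver t t) ξ = ξ := by
  obtain ⟨M, hM, rfl⟩ := PClass.exists_rep P t ξ
  rw [PClass.map_mk, PClass.mk_eq_mk_iff]
  exact pullbackAlong_id M

/-- `PClass.map` only depends on the underlying morphism. -/
theorem PClass.map_congr (P : SubPicCondition c ε) {T T' : Scheme.{u}}
    {t : T ⟶ Spec (CommRingCat.of R)} {t' : T' ⟶ Spec (CommRingCat.of R)}
    (ψ ψ' : SchemeHomOver t' t) (h : ψ.1 = ψ'.1) (ξ : PClass P t) :
    PClass.map P ψ ξ = PClass.map P ψ' ξ := by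
  obtain rfl : ψ = ψ' := Subtype.ext h
  rfl

section Represents

variable {P : SubPicCondition c ε} {D : RelativePic0Designation R c}
  (h : RepresentsRelSubPic c ε P D)

/-- The class in the cut classified by a point of the representing scheme. -/
def pointClass {T : Scheme.{u}} (t : T ⟶ Spec (CommRingCat.of R))
    (g : SchemeHomOver t D.toBase) : PClass P t :=
  PClass.mk P t (h.poincare.pullbackAlong g) (P.pullback_mem _ _ g _ h.poincare_mem)

/-- The point classifying a class in the cut. -/
def classPoint {T : Scheme.{u}} (t : T ⟶ Spec (CommRingCat.of R)) (ξ : PClass P t) :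
    SchemeHomOver t D.toBase :=
  h.classify t (PClass.exists_rep P t ξ).choose (PClass.exists_rep P t ξ).choose_spec.choose

theorem pointClass_classPoint {T : Scheme.{u}} (t : T ⟶ Spec (CommRingCat.of R))
    (ξ : PClass P t) : pointClass h t (classPoint h t ξ) = ξ := by
  have hspec := (PClass.exists_rep P t ξ).choose_spec.choose_spec
  conv_rhs => rw [hspec]
  rw [pointClass, PClass.mk_eq_mk_iff]
  exact h.classify_spec t _ _

theorem classPoint_pointClass {T : Scheme.{u}} (t : T ⟶ Spec (CommRingCat.of R))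
    (g : SchemeHomOver t D.toBase) : classPoint h t (pointClass h t g) = g := by
  have hspec := (PClass.exists_rep P t (pointClass h t g)).choose_spec.choose_spec
  rw [pointClass, PClass.mk_eq_mk_iff] at hspec
  exact (h.classify_unique t _ _ g hspec).symm

/-- **Points of the representing scheme = classes in the cut.** -/
def pointsEquiv {T : Scheme.{u}} (t : T ⟶ Spec (CommRingCat.of R)) :
    SchemeHomOver t D.toBase ≃ PClass P t where
  toFun := pointClass h t
  invFun := classPoint h t
  left_inv := classPoint_pointClass h t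
  right_inv := pointClass_classPoint h t

/-- Naturality of `pointClass`. -/
theorem pointClass_postComp {T T' : Scheme.{u}} {t : T ⟶ Spec (CommRingCat.of R)}
    {t' : T' ⟶ Spec (CommRingCat.of R)} (g : SchemeHomOver t D.toBase)
    (ψ : SchemeHomOver t' t) :
    pointClass h t' (postComp g ψ) = PClass.map P ψ (pointClass h t g) := by
  rw [pointClass, pointClass, PClass.map_mk, PClass.mk_eq_mk_iff]
  exact pullbackAlong_postComp h.poincare g ψ

/-- Naturality of `pointClass`, in terms of `schemeHomOverComp`. -/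
theorem pointClass_comp {T T' : Scheme.{u}} {t : T ⟶ Spec (CommRingCat.of R)}
    {t' : T' ⟶ Spec (CommRingCat.of R)} (ψ : T' ⟶ T) (hψ : ψ ≫ t = t')
    (g : SchemeHomOver t D.toBase) :
    pointClass h t' (schemeHomOverComp ψ hψ g) =
      PClass.map P (⟨ψ, hψ⟩ : SchemeHomOver t' t) (pointClass h t g) := by
  rw [← pointClass_postComp]
  rfl

/-- Naturality of `classPoint`. -/
theorem classPoint_map {T T' : Scheme.{u}} {t : T ⟶ Spec (CommRingCat.of R)}
    {t' : T' ⟶ Spec (CommRingCat.of R)} (ψ : T' ⟶ T) (hψ : ψ ≫ t = t') (ξ : PClass P t) :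
    classPoint h t' (PClass.map P (⟨ψ, hψ⟩ : SchemeHomOver t' t) ξ) =
      schemeHomOverComp ψ hψ (classPoint h t ξ) := by
  apply (pointsEquiv h t').injective
  change pointClass h t' _ = pointClass h t' _
  rw [pointClass_classPoint, pointClass_comp, pointClass_classPoint]

/-- The zero section classifies the unit class. -/
theorem pointClass_zeroSection :
    pointClass h (𝟙 _) ⟨D.zeroSection, D.zeroSection_toBase⟩ =
      PClass.mk P (𝟙 _) (RigidifiedLineBundle.unit (𝟙 _)) (P.unit_mem _) := by
  rw [pointClass, PClass.mk_eq_mk_iff]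
  exact h.zero

end Represents

end Fermat.Agent.Jac.PointsBridge79

end
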