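/-
JAC programme, brick Q-shell (helper79), part Q4abs (first half):
over an algebraically closed field, a connected (resp. irreducible) scheme locally of finite type
is geometrically connected (resp. geometrically irreducible).

Idea: the projection `π : X_K ⟶ X` is open and surjective, and its fibre over a closed point
(which is a rational point) is a single point.  So two open subsets of `X_K` whose images meet
must meet themselves (the intersection of the images contains a closed point).
-/
import Mathlib

set_option autoImplicit false

universe u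

open CategoryTheory CategoryTheory.Limits AlgebraicGeometry

namespace Fermat.Agent.Jac.QShell79Geom

variable {k : Type u} [Field k] [IsAlgClosed k] {X : Scheme.{u}}
  (f : X ⟶ Spec (CommRingCat.of k)) [LocallyOfFiniteType f]
  {K : Type u} [Field K] (y : Spec (CommRingCat.of K) ⟶ Spec (CommRingCat.of k))

/-- The fibre of `X_K ⟶ X` over a closed point of `X` has at most one point. -/
theorem subsingleton_fibre_of_isClosed (x : X) (hx : IsClosed ({x} : Set X)) :
    ((pullback.fst f y) ⁻¹' {x}).Subsingleton := by
  let σ : Spec (CommRingCat.of k) ⟶ X := pointOfClosedPoint f x hx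
  have hσ : σ ≫ f = 𝟙 _ := pointOfClosedPoint_comp f x hx
  have hrange : Set.range σ = {x} := by
    ext z
    constructor
    · rintro ⟨a, rfl⟩
      exact pointOfClosedPoint_apply f x hx a
    · intro hz
      rw [Set.mem_singleton_iff] at hz
      rw [hz]
      exact ⟨IsLocalRing.closedPoint k, pointOfClosedPoint_apply f x hx _⟩
  -- the fibre is the range of the second projection of `Spec k ×_X X_K`
  have h1 : (pullback.fst f y) ⁻¹' {x} = Set.range (pullback.snd σ (pullback.fst f y)) := by
    rw [Scheme.Pullback.range_snd, hrange]
  -- and `Spec k ×_X X_K ≅ Spec k ×_k Spec K ≅ Spec K` is a single point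
  let e : pullback σ (pullback.fst f y) ≅ Spec (CommRingCat.of K) :=
    pullbackRightPullbackFstIso f y σ ≪≫ pullback.congrHom hσ rfl ≪≫
      asIso (pullback.snd (𝟙 _) y)
  have hsub : Subsingleton ↥(pullback σ (pullback.fst f y)) :=
    e.hom.homeomorph.injective.subsingleton
  rw [h1]
  rintro _ ⟨a, rfl⟩ _ ⟨b, rfl⟩
  rw [Subsingleton.elim a b]

instance surjective_of_field : Surjective y :=
  ⟨fun _ => ⟨IsLocalRing.closedPoint K, Subsingleton.elim _ _⟩⟩

/-- Two open subsets of `X_K` whose images in `X` meet have a common point. -/
theorem inter_nonempty_of_image_inter_nonempty (U V : Set ↥(pullback f y))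
    (hU : IsOpen U) (hV : IsOpen V)
    (h : ((pullback.fst f y) '' U ∩ (pullback.fst f y) '' V).Nonempty) : (U ∩ V).Nonempty := by
  have : JacobsonSpace X := LocallyOfFiniteType.jacobsonSpace f
  have hopen : IsOpenMap (pullback.fst f y) := (pullback.fst f y).isOpenMap
  obtain ⟨x, ⟨hxU, hxV⟩, hxc⟩ := nonempty_inter_closedPoints h
    ((hopen U hU).inter (hopen V hV)).isLocallyClosed
  obtain ⟨u, huU, hu⟩ := hxU
  obtain ⟨v, hvV, hv⟩ := hxV
  have huv : u = v := subsingleton_fibre_of_isClosed f y x hxc hu hv
  exact ⟨u, huU, huv ▸ hvV⟩

/-- Over an algebraically closed field, irreducible schemes locally of finite type are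
geometrically irreducible. -/
theorem geometricallyIrreducible_of_irreducibleSpace [IrreducibleSpace X] :
    GeometricallyIrreducible f := by
  refine ⟨geometrically_iff_of_isClosedUnderIsomorphisms.mpr fun K _ y => ?_⟩
  have hsurj : Function.Surjective (pullback.fst f y) := (pullback.fst f y).surjective
  have hne : Nonempty ↥(pullback f y) := by
    obtain ⟨x⟩ := (inferInstance : Nonempty X)
    obtain ⟨z, -⟩ := hsurj x
    exact ⟨z⟩
  have hpre : PreirreducibleSpace ↥(pullback f y) := by
    refine ⟨fun U V hU hV hUne hVne => ?_⟩
    rw [Set.univ_inter] at hUne hVne ⊢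
    apply inter_nonempty_of_image_inter_nonempty f y U V hU hV
    have hopen : IsOpenMap (pullback.fst f y) := (pullback.fst f y).isOpenMap
    exact nonempty_preirreducible_inter (hopen U hU) (hopen V hV) (hUne.image _) (hVne.image _)
  exact ⟨hne⟩

/-- Over an algebraically closed field, connected schemes locally of finite type are
geometrically connected. -/
theorem geometricallyConnected_of_connectedSpace [ConnectedSpace X] :
    GeometricallyConnected f := by
  refine ⟨geometrically_iff_of_isClosedUnderIsomorphisms.mpr fun K _ y => ?_⟩
  have hsurj : Function.Surjective (pullback.fst f y) := (pullback.fst f y).surjective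
  have hne : Nonempty ↥(pullback f y) := by
    obtain ⟨x⟩ := (inferInstance : Nonempty X)
    obtain ⟨z, -⟩ := hsurj x
    exact ⟨z⟩
  rw [connectedSpace_iff_clopen]
  refine ⟨hne, fun s hs => ?_⟩
  by_contra hcon
  rw [not_or] at hcon
  obtain ⟨hs1, hs2⟩ := hcon
  have hsne : s.Nonempty := Set.nonempty_iff_ne_empty.mpr hs1
  have hscne : sᶜ.Nonempty := Set.nonempty_compl.mpr hs2
  have hopen : IsOpenMap (pullback.fst f y) := (pullback.fst f y).isOpenMap
  have hcover : (pullback.fst f y) '' s ∪ (pullback.fst f y) '' sᶜ = Set.univ := by
    rw [← Set.image_union, Set.union_compl_self, Set.image_univ, Set.range_eq_univ.mpr hsurj]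
  have hmeet := nonempty_inter (hopen s hs.isOpen) (hopen sᶜ hs.compl.isOpen) hcover
    (hsne.image _) (hscne.image _)
  obtain ⟨z, hz1, hz2⟩ :=
    inter_nonempty_of_image_inter_nonempty f y s sᶜ hs.isOpen hs.compl.isOpen hmeet
  exact hz2 hz1

end Fermat.Agent.Jac.QShell79Geom
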