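/-
JAC programme, brick Q-shell (helper79), auxiliary for Q5:
smooth schemes over an integral base are reduced; smooth morphisms are geometrically reduced;
over an algebraically closed field a smooth irreducible scheme is geometrically integral.
-/
import Mathlib
import Fermat.Agent.Jac.QShell79Geom

set_option autoImplicit false

universe u

open CategoryTheory CategoryTheory.Limits AlgebraicGeometry TensorProduct

namespace Fermat.Agent.Jac.QShell79Reduced

/-- An étale algebra over a domain is reduced: it embeds (by flatness) into its base change to
the fraction field, which is étale over a field. -/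
theorem isReduced_of_etale_of_isDomain (P A : Type u) [CommRing P] [IsDomain P] [CommRing A]
    [Algebra P A] [Algebra.Etale P A] : IsReduced A := by
  let F := FractionRing P
  have hflat : Module.Flat P A := inferInstance
  have h1 : Algebra.Etale F (F ⊗[P] A) := inferInstance
  have h2 : Algebra.EssFiniteType F (F ⊗[P] A) := inferInstance
  have h3 : IsReduced (F ⊗[P] A) := Algebra.FormallyUnramified.isReduced_of_field F (F ⊗[P] A)
  exact isReduced_of_injective (Algebra.TensorProduct.includeRight : A →ₐ[P] F ⊗[P] A)
    (Algebra.TensorProduct.includeRight_injective (IsFractionRing.injective P F))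

/-- A standard smooth algebra over a domain is reduced. -/
theorem isReduced_of_isStandardSmooth {R S : Type u} [CommRing R] [IsDomain R] [CommRing S]
    (φ : R →+* S) (hφ : φ.IsStandardSmooth) : IsReduced S := by
  obtain ⟨n, g, -, hg⟩ := hφ.exists_etale_mvPolynomial
  algebraize [g]
  exact isReduced_of_etale_of_isDomain (MvPolynomial (Fin n) R) S

variable {X Y : Scheme.{u}}

/-- A scheme smooth over an integral scheme is reduced. -/
theorem isReduced_of_smooth (f : X ⟶ Y) [Smooth f] [IsIntegral Y] : IsReduced X := by
  choose U hU V hV hxV e hstd using fun x : X => Smooth.exists_isStandardSmooth f x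
  have hcover : TopologicalSpace.IsOpenCover V := by
    rw [TopologicalSpace.IsOpenCover, eq_top_iff]
    intro x _
    exact TopologicalSpace.Opens.mem_iSup.mpr ⟨x, hxV x⟩
  have hred : ∀ x, IsReduced ((X.openCoverOfIsOpenCover V hcover).X x) := by
    intro x
    have hne : Nonempty (U x) := ⟨⟨f x, e x (hxV x)⟩⟩
    have hdom : IsDomain Γ(Y, U x) := IsIntegral.component_integral (U x)
    have h1 : _root_.IsReduced Γ(X, V x) := isReduced_of_isStandardSmooth _ (hstd x)
    have h2 : _root_.IsReduced Γ((V x).toScheme, ⊤) :=
      isReduced_of_injective (V x).topIso.hom.hom
        (V x).topIso.commRingCatIsoToRingEquiv.injective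
    have : IsAffine (V x).toScheme := hV x
    exact isReduced_of_isAffine_isReduced (V x).toScheme
  exact IsReduced.of_openCover X (X.openCoverOfIsOpenCover V hcover)

/-- Smooth morphisms are geometrically reduced. -/
theorem geometricallyReduced_of_smooth (f : X ⟶ Y) [Smooth f] : GeometricallyReduced f := by
  refine ⟨geometrically_iff_of_isClosedUnderIsomorphisms.mpr fun K _ y => ?_⟩
  exact isReduced_of_smooth (pullback.snd f y)

/-- Over an algebraically closed field, a smooth irreducible scheme is geometrically integral. -/
theorem geometricallyIntegral_of_smooth_of_irreducibleSpace {k : Type u} [Field k] [IsAlgClosed k]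
    (f : X ⟶ Spec (CommRingCat.of k)) [Smooth f] [IrreducibleSpace X] :
    GeometricallyIntegral f := by
  have h1 : GeometricallyReduced f := geometricallyReduced_of_smooth f
  have h2 : GeometricallyIrreducible f :=
    QShell79Geom.geometricallyIrreducible_of_irreducibleSpace f
  exact GeometricallyIntegral.of_geometricallyReduced_of_geometricallyIrreducible f

end Fermat.Agent.Jac.QShell79Reduced
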