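/-
JAC programme, brick Q-shell (helper79): fibre powers `C ×ₖ ⋯ ×ₖ C` of a smooth proper
irreducible scheme over an algebraically closed field are proper, smooth, irreducible and
geometrically integral (hence geometrically connected).  Used for `a : C^g ⟶ J` (Q3) and as the
connecting scheme `T'` in `IsAlgEquivZero` (Q5).
-/
import Mathlib
import Fermat.Agent.Jac.QShell79Reduced

set_option autoImplicit false

universe u

open CategoryTheory CategoryTheory.Limits AlgebraicGeometry

namespace Fermat.Agent.Jac.QShell79Power

variable {C S : Scheme.{u}}

/-- The `n`-fold fibre power of `c : C ⟶ S`, as a scheme. `fibrePower c (n+1) = C ×_S C^n`. -/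
noncomputable def fibrePower (c : C ⟶ S) : ℕ → Over S
  | 0 => Over.mk (𝟙 S)
  | n + 1 => Over.mk (pullback.fst c (fibrePower c n).hom ≫ c)

@[simp]
theorem fibrePower_zero (c : C ⟶ S) : fibrePower c 0 = Over.mk (𝟙 S) := rfl

@[simp]
theorem fibrePower_succ (c : C ⟶ S) (n : ℕ) :
    fibrePower c (n + 1) = Over.mk (pullback.fst c (fibrePower c n).hom ≫ c) := rfl

/-- First projection `C^(n+1) ⟶ C`. -/
noncomputable def fibrePowerHead (c : C ⟶ S) (n : ℕ) : (fibrePower c (n + 1)).left ⟶ C :=
  pullback.fst c (fibrePower c n).hom

/-- Projection to the remaining factors `C^(n+1) ⟶ C^n`. -/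
noncomputable def fibrePowerTail (c : C ⟶ S) (n : ℕ) :
    (fibrePower c (n + 1)).left ⟶ (fibrePower c n).left :=
  pullback.snd c (fibrePower c n).hom

theorem fibrePowerHead_comp (c : C ⟶ S) (n : ℕ) :
    fibrePowerHead c n ≫ c = (fibrePower c (n + 1)).hom := rfl

theorem fibrePowerTail_comp (c : C ⟶ S) (n : ℕ) :
    fibrePowerTail c n ≫ (fibrePower c n).hom = (fibrePower c (n + 1)).hom :=
  pullback.condition.symm

/-- A property of morphisms stable under base change and composition and holding for the identity
of the base passes to fibre powers. -/
theorem fibrePower_mem (P : MorphismProperty Scheme.{u}) [P.IsStableUnderBaseChange]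
    [P.IsStableUnderComposition] (c : C ⟶ S) (hc : P c) (hid : P (𝟙 S)) (n : ℕ) :
    P (fibrePower c n).hom := by
  induction n with
  | zero => exact hid
  | succ n ih =>
    exact P.comp_mem _ _ (P.pullback_fst c (fibrePower c n).hom ih) hc

instance fibrePower_isProper (c : C ⟶ S) [IsProper c] (n : ℕ) : IsProper (fibrePower c n).hom :=
  fibrePower_mem @IsProper c inferInstance inferInstance n

instance fibrePower_smooth (c : C ⟶ S) [Smooth c] (n : ℕ) : Smooth (fibrePower c n).hom :=
  fibrePower_mem @Smooth c inferInstance inferInstance n

instance fibrePower_locallyOfFiniteType (c : C ⟶ S) [LocallyOfFiniteType c] (n : ℕ) :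
    LocallyOfFiniteType (fibrePower c n).hom :=
  fibrePower_mem @LocallyOfFiniteType c inferInstance inferInstance n

section AlgClosed

variable {k : Type u} [Field k] [IsAlgClosed k] (c : C ⟶ Spec (CommRingCat.of k))

/-- Fibre powers of an irreducible scheme locally of finite type over an algebraically closed
field are irreducible. -/
theorem fibrePower_irreducibleSpace [LocallyOfFiniteType c] [IrreducibleSpace C] (n : ℕ) :
    IrreducibleSpace (fibrePower c n).left := by
  have hgi : GeometricallyIrreducible c :=
    QShell79Geom.geometricallyIrreducible_of_irreducibleSpace c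
  induction n with
  | zero =>
    change IrreducibleSpace ↥(Spec (CommRingCat.of k))
    infer_instance
  | succ n ih =>
    change IrreducibleSpace ↥(pullback c (fibrePower c n).hom)
    infer_instance

/-- Fibre powers of a smooth irreducible scheme over an algebraically closed field are
geometrically integral. -/
theorem fibrePower_geometricallyIntegral [Smooth c] [IrreducibleSpace C] (n : ℕ) :
    GeometricallyIntegral (fibrePower c n).hom := by
  have : IrreducibleSpace (fibrePower c n).left := fibrePower_irreducibleSpace c n
  exact QShell79Reduced.geometricallyIntegral_of_smooth_of_irreducibleSpace _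

/-- Fibre powers of an irreducible scheme locally of finite type over an algebraically closed
field are geometrically connected. -/
theorem fibrePower_geometricallyConnected [LocallyOfFiniteType c] [IrreducibleSpace C] (n : ℕ) :
    GeometricallyConnected (fibrePower c n).hom := by
  have : IrreducibleSpace (fibrePower c n).left := fibrePower_irreducibleSpace c n
  exact QShell79Geom.geometricallyConnected_of_connectedSpace _

end AlgClosed

end Fermat.Agent.Jac.QShell79Power
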