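/-
JAC programme, brick Q-shell (helper79), parts Q3abs and Q4abs (second half):
properness and geometric connectedness of a separated scheme `J` locally of finite type over an
algebraically closed field, dominated on rational points by a proper (connected) scheme.
-/
import Mathlib
import Fermat.Prelude.Def_AlgebraicGeometry_NeronModelPropertyBundleCarrier

set_option autoImplicit false

universe u

open CategoryTheory CategoryTheory.Limits AlgebraicGeometry NeronModelInfra

namespace Fermat.Agent.Jac.QShell79Proper

variable {k : Type u} [Field k] {J X : Scheme.{u}}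

/-- **Q3abs (a).** If `X` is proper over an algebraically closed field `k`, `J` is separated and
locally of finite type over `k`, and every `k`-point of `J` lifts to `X` along `a : X ⟶ J`,
then `a` is surjective. -/
theorem surjective_of_forall_rational_point [IsAlgClosed k]
    (f : J ⟶ Spec (CommRingCat.of k)) [LocallyOfFiniteType f] [IsSeparated f]
    (p : X ⟶ Spec (CommRingCat.of k)) [IsProper p] (a : X ⟶ J) (ha : a ≫ f = p)
    (hpts : ∀ x : SchemeHomOver (𝟙 (Spec (CommRingCat.of k))) f,
      ∃ z : Spec (CommRingCat.of k) ⟶ X, z ≫ a = x.1) : Surjective a := by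
  have hprop : IsProper (a ≫ f) := by rw [ha]; infer_instance
  have hpa : IsProper a := IsProper.of_comp a f
  have : JacobsonSpace J := LocallyOfFiniteType.jacobsonSpace f
  have hclosed : IsClosed (Set.range a) := a.isClosedMap.isClosed_range
  have hsub : closedPoints J ⊆ Set.range a := by
    intro x hx
    obtain ⟨z, hz⟩ := hpts ⟨pointOfClosedPoint f x hx, pointOfClosedPoint_comp f x hx⟩
    let pt : ↥(Spec (CommRingCat.of k)) := IsLocalRing.closedPoint k
    refine ⟨z pt, ?_⟩
    have h1 : a (z pt) = (z ≫ a) pt := (Scheme.Hom.comp_apply z a pt).symm
    rw [h1, hz]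
    exact pointOfClosedPoint_apply f x hx pt
  have huniv : Set.range a = Set.univ := by
    apply Set.eq_univ_of_univ_subset
    rw [← closure_closedPoints (X := J)]
    exact closure_minimal hsub hclosed
  exact ⟨Set.range_eq_univ.mp huniv⟩

/-- **Q3abs (b).** A separated scheme locally of finite type which receives a surjection from a
proper scheme is proper. -/
theorem isProper_of_surjective {S : Scheme.{u}} (f : J ⟶ S) [LocallyOfFiniteType f]
    [IsSeparated f] (p : X ⟶ S) [IsProper p] (a : X ⟶ J) (ha : a ≫ f = p) [Surjective a] :
    IsProper f := by
  have hprop : UniversallyClosed (a ≫ f) := by rw [ha]; infer_instance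
  have : UniversallyClosed f := UniversallyClosed.of_comp_surjective a f
  exact { }

/-- **Q4abs.** The target of a surjection from a geometrically connected scheme is geometrically
connected. -/
theorem geometricallyConnected_of_surjective {S : Scheme.{u}} (f : J ⟶ S)
    (p : X ⟶ S) [GeometricallyConnected p] (a : X ⟶ J) (ha : a ≫ f = p) [Surjective a] :
    GeometricallyConnected f := by
  refine ⟨geometrically_iff_of_isClosedUnderIsomorphisms.mpr fun K _ y => ?_⟩
  have hconn : ConnectedSpace ↥(pullback (a ≫ f) y) := by
    have hp : GeometricallyConnected (a ≫ f) := by rw [ha]; infer_instance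
    exact GeometricallyConnected.geometrically_connectedSpace _ _ _ (.of_hasPullback (a ≫ f) y)
  have hconn' : ConnectedSpace ↥(pullback a (pullback.fst f y)) :=
    (pullbackRightPullbackFstIso f y a).hom.homeomorph.connectedSpace_iff.mpr hconn
  have hsurj : Function.Surjective (pullback.snd a (pullback.fst f y)) :=
    (pullback.snd a (pullback.fst f y)).surjective
  exact hsurj.connectedSpace (pullback.snd a (pullback.fst f y)).continuous

end Fermat.Agent.Jac.QShell79Proper
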