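/-
JAC programme, brick Q-shell (helper79), part Q1abs:
a scheme locally of finite type over a field whose affine-valued points lift along square-zero
thickenings is smooth.
-/
import Mathlib
import Fermat.Prelude.Def_AlgebraicGeometry_NeronModelPropertyBundleCarrier

set_option autoImplicit false

universe u

open CategoryTheory CategoryTheory.Limits AlgebraicGeometry NeronModelInfra

namespace Fermat.Agent.Jac.QShell79Smooth

variable {k : Type u} [Field k] {J : Scheme.{u}}

/-- The infinitesimal lifting property of `f : J ⟶ Spec k` for affine test schemes: every point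
of `J` with values in `A ⧸ I` (`I` of square zero) lifts to a point with values in `A`,
compatibly with the structure morphisms. -/
def InfinitesimalLifting (f : J ⟶ Spec (CommRingCat.of k)) : Prop :=
  ∀ (A : Type u) [CommRing A] (I : Ideal A), I ^ 2 = ⊥ →
    ∀ (t : Spec (CommRingCat.of A) ⟶ Spec (CommRingCat.of k))
      (x : SchemeHomOver (Spec.map (CommRingCat.ofHom (Ideal.Quotient.mk I)) ≫ t) f),
      ∃ y : SchemeHomOver t f,
        Spec.map (CommRingCat.ofHom (Ideal.Quotient.mk I)) ≫ y.1 = x.1

/-- A square-zero thickening of affine schemes is surjective on points. -/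
theorem specMap_quotientMk_surjective {A : Type u} [CommRing A] (I : Ideal A) (hI : I ^ 2 = ⊥) :
    Function.Surjective (Spec.map (CommRingCat.ofHom (Ideal.Quotient.mk I))) := by
  have hle : I ≤ nilradical A := by
    intro a ha
    refine ⟨2, ?_⟩
    have : a ^ 2 ∈ I ^ 2 := Ideal.pow_mem_pow ha 2
    rw [hI] at this
    exact this
  exact (PrimeSpectrum.comap_quotientMk_bijective_of_le_nilradical hle).2

/-- The affine pieces of a scheme with the infinitesimal lifting property are formally smooth. -/
theorem formallySmooth_of_infinitesimalLifting {f : J ⟶ Spec (CommRingCat.of k)}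
    (hlift : InfinitesimalLifting f) {B : CommRingCat.{u}} (j : Spec B ⟶ J) [IsOpenImmersion j]
    (φ : CommRingCat.of k ⟶ B) (hφ : Spec.map φ = j ≫ f) : φ.hom.FormallySmooth := by
  algebraize [φ.hom]
  refine Algebra.FormallySmooth.of_comp_surjective ?_
  intro A _ _ I hI g
  let q : CommRingCat.of A ⟶ CommRingCat.of (A ⧸ I) := CommRingCat.ofHom (Ideal.Quotient.mk I)
  let a : CommRingCat.of k ⟶ CommRingCat.of A := CommRingCat.ofHom (algebraMap k A)
  let g' : B ⟶ CommRingCat.of (A ⧸ I) := CommRingCat.ofHom g.toRingHom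
  have hg' : φ ≫ g' = a ≫ q := by
    ext r
    change g (algebraMap k B r) = Ideal.Quotient.mk I (algebraMap k A r)
    rw [g.commutes]
    rfl
  have hx : (Spec.map g' ≫ j) ≫ f = Spec.map q ≫ Spec.map a := by
    rw [Category.assoc, ← hφ, ← Spec.map_comp, ← Spec.map_comp, hg']
  obtain ⟨y, hy⟩ := hlift A I hI (Spec.map a) ⟨Spec.map g' ≫ j, hx⟩
  have hy' : Spec.map q ≫ y.1 = Spec.map g' ≫ j := hy
  have hrange : Set.range y.1 ⊆ Set.range j := by
    rintro _ ⟨z, rfl⟩
    obtain ⟨z', rfl⟩ := specMap_quotientMk_surjective I hI z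
    refine ⟨Spec.map g' z', ?_⟩
    rw [← Scheme.Hom.comp_apply, ← Scheme.Hom.comp_apply, hy']
  let y' : Spec (CommRingCat.of A) ⟶ Spec B := IsOpenImmersion.lift j y.1 hrange
  have hy'j : y' ≫ j = y.1 := IsOpenImmersion.lift_fac j y.1 hrange
  obtain ⟨h, hh⟩ := Spec.map_surjective y'
  have h1 : φ ≫ h = a := by
    apply Spec.map_injective
    rw [Spec.map_comp, hh, hφ, ← Category.assoc, hy'j, y.2]
  have h2 : h ≫ q = g' := by
    apply Spec.map_injective
    rw [Spec.map_comp, hh, ← cancel_mono j, Category.assoc, hy'j, hy']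
  refine ⟨{ h.hom with commutes' := fun r => ?_ }, ?_⟩
  · exact congrArg (fun ψ : CommRingCat.of k ⟶ CommRingCat.of A => ψ.hom r) h1
  · ext b
    exact congrArg (fun ψ : B ⟶ CommRingCat.of (A ⧸ I) => ψ.hom b) h2

set_option backward.isDefEq.respectTransparency false in
/-- **Q1abs.** A scheme locally of finite type over a field with the infinitesimal lifting
property for affine test schemes is smooth. -/
theorem smooth_of_infinitesimalLifting (f : J ⟶ Spec (CommRingCat.of k)) [LocallyOfFiniteType f]
    (hlift : InfinitesimalLifting f) : Smooth f := by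
  rw [IsZariskiLocalAtSource.iff_of_openCover (P := @Smooth) J.affineCover]
  intro i
  obtain ⟨φ, hφ⟩ := Spec.map_surjective (J.affineCover.f i ≫ f)
  rw [← hφ, HasRingHomProperty.Spec_iff (P := @Smooth), RingHom.smooth_def]
  refine ⟨formallySmooth_of_infinitesimalLifting hlift (J.affineCover.f i) φ hφ, ?_⟩
  have hft : LocallyOfFiniteType (Spec.map φ) := by
    rw [hφ]
    infer_instance
  rw [HasRingHomProperty.Spec_iff (P := @LocallyOfFiniteType)] at hft
  exact RingHom.FinitePresentation.of_finiteType.mp hft

end Fermat.Agent.Jac.QShell79Smooth
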