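/-
JAC programme, brick Q-shell (helper79): packaging of the abstract Layer-4 shell.

Inputs (all functorial, to be supplied by the representability bricks):
* `f : J ⟶ Spec k` locally of finite type over an algebraically closed field `k`;
* a natural group law on the points of `J` (`RelativeGroupLaw`);
* the infinitesimal lifting property for affine test schemes (`InfinitesimalLifting`);
* a proper connected `k`-scheme `X` with a `k`-morphism `a : X ⟶ J` hitting every `k`-point.
Output: `Smooth f ∧ IsProper f ∧ GeometricallyConnected f` (the three scheme-theoretic conjuncts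
of statement S25).
-/
import Mathlib
import Fermat.Agent.Jac.QShell79Sep
import Fermat.Agent.Jac.QShell79Smooth
import Fermat.Agent.Jac.QShell79Geom
import Fermat.Agent.Jac.QShell79Proper
import Fermat.Agent.Jac.QShell79Reduced
import Fermat.Agent.Jac.QShell79Power

set_option autoImplicit false

universe u

open CategoryTheory CategoryTheory.Limits AlgebraicGeometry NeronModelInfra GoodReductionJacobian

namespace Fermat.Agent.Jac.QShell79

variable {k : Type u} [Field k] [IsAlgClosed k] {J X : Scheme.{u}}

/-- **Q-shell.** Smoothness, properness and geometric connectedness of `J` from functorial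
inputs. -/
theorem smooth_isProper_geometricallyConnected
    (f : J ⟶ Spec (CommRingCat.of k)) [LocallyOfFiniteType f]
    (G : RelativeGroupLaw k f) (hlift : QShell79Smooth.InfinitesimalLifting f)
    (p : X ⟶ Spec (CommRingCat.of k)) [IsProper p] [ConnectedSpace X]
    (a : X ⟶ J) (ha : a ≫ f = p)
    (hpts : ∀ x : SchemeHomOver (𝟙 (Spec (CommRingCat.of k))) f,
      ∃ z : Spec (CommRingCat.of k) ⟶ X, z ≫ a = x.1) :
    Smooth f ∧ IsProper f ∧ GeometricallyConnected f := by
  have hsep : IsSeparated f := QShell79Sep.isSeparated_of_relativeGroupLaw G
  have hsurj : Surjective a :=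
    QShell79Proper.surjective_of_forall_rational_point f p a ha hpts
  have hgc : GeometricallyConnected p := QShell79Geom.geometricallyConnected_of_connectedSpace p
  exact ⟨QShell79Smooth.smooth_of_infinitesimalLifting f hlift,
    QShell79Proper.isProper_of_surjective f p a ha,
    QShell79Proper.geometricallyConnected_of_surjective f p a ha⟩

/-- The same with `X` a fibre power of a proper irreducible curve `C` (or any proper irreducible
scheme locally of finite type). -/
theorem smooth_isProper_geometricallyConnected_of_fibrePower
    (f : J ⟶ Spec (CommRingCat.of k)) [LocallyOfFiniteType f]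
    (G : RelativeGroupLaw k f) (hlift : QShell79Smooth.InfinitesimalLifting f)
    {C : Scheme.{u}} (c : C ⟶ Spec (CommRingCat.of k)) [IsProper c] [IrreducibleSpace C] (g : ℕ)
    (a : (QShell79Power.fibrePower c g).left ⟶ J)
    (ha : a ≫ f = (QShell79Power.fibrePower c g).hom)
    (hpts : ∀ x : SchemeHomOver (𝟙 (Spec (CommRingCat.of k))) f,
      ∃ z : Spec (CommRingCat.of k) ⟶ (QShell79Power.fibrePower c g).left, z ≫ a = x.1) :
    Smooth f ∧ IsProper f ∧ GeometricallyConnected f := by
  have : IrreducibleSpace (QShell79Power.fibrePower c g).left :=
    QShell79Power.fibrePower_irreducibleSpace c g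
  exact smooth_isProper_geometricallyConnected f G hlift (QShell79Power.fibrePower c g).hom a ha
    hpts

end Fermat.Agent.Jac.QShell79
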