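/-
JAC programme, brick Q-bridge (helper79), part 2: class-level inputs (group law on classes over
affine test schemes, infinitesimal lifting of classes, Abel-Jacobi family of classes) give the
functorial inputs of the Q-shell for a scheme representing a cut of the relative Picard functor;
final assembly of the three scheme-theoretic conjuncts of S25.
-/
import Mathlib
import Fermat.Agent.Jac.PointsBridge79
import Fermat.Agent.Jac.AffGroup79
import Fermat.Agent.Jac.QShell79

set_option autoImplicit false

noncomputable section

universe u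

open CategoryTheory CategoryTheory.Limits AlgebraicGeometry AlgebraicGeometry.RelPicard
  NeronModelInfra GoodReductionJacobian

namespace Fermat.Agent.Jac.PointsBridge79Shell

open PointsBridge79

variable {R : Type u} [CommRing R] {C : Scheme.{u}} {c : C ⟶ Spec (CommRingCat.of R)}
  {ε : SchemeHomOver (𝟙 (Spec (CommRingCat.of R))) c}

/-- A natural group law on the classes in the cut `P` over affine test schemes. -/
structure ClassGroupLaw (P : SubPicCondition c ε) where
  /-- product of classes -/
  mul : ∀ {B : CommRingCat.{u}} (t : Spec B ⟶ Spec (CommRingCat.of R)),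
    PClass P t → PClass P t → PClass P t
  /-- unit class -/
  one : ∀ {B : CommRingCat.{u}} (t : Spec B ⟶ Spec (CommRingCat.of R)), PClass P t
  /-- inverse class -/
  inv : ∀ {B : CommRingCat.{u}} (t : Spec B ⟶ Spec (CommRingCat.of R)), PClass P t → PClass P t
  mul_assoc : ∀ {B : CommRingCat.{u}} (t : Spec B ⟶ Spec (CommRingCat.of R))
    (x y z : PClass P t), mul t (mul t x y) z = mul t x (mul t y z)
  one_mul : ∀ {B : CommRingCat.{u}} (t : Spec B ⟶ Spec (CommRingCat.of R)) (x : PClass P t),
    mul t (one t) x = x
  mul_one : ∀ {B : CommRingCat.{u}} (t : Spec B ⟶ Spec (CommRingCat.of R)) (x : PClass P t),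
    mul t x (one t) = x
  inv_mul_cancel : ∀ {B : CommRingCat.{u}} (t : Spec B ⟶ Spec (CommRingCat.of R))
    (x : PClass P t), mul t (inv t x) x = one t
  map_mul : ∀ {B B' : CommRingCat.{u}} (t : Spec B ⟶ Spec (CommRingCat.of R))
    (t' : Spec B' ⟶ Spec (CommRingCat.of R)) (φ : B ⟶ B') (hφ : Spec.map φ ≫ t = t')
    (x y : PClass P t),
    PClass.map P (⟨Spec.map φ, hφ⟩ : SchemeHomOver t' t) (mul t x y) =
      mul t' (PClass.map P (⟨Spec.map φ, hφ⟩ : SchemeHomOver t' t) x)
        (PClass.map P (⟨Spec.map φ, hφ⟩ : SchemeHomOver t' t) y)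

/-- Infinitesimal lifting of classes in the cut over affine test schemes. -/
def ClassLifting (P : SubPicCondition c ε) : Prop :=
  ∀ (A : Type u) [CommRing A] (I : Ideal A), I ^ 2 = ⊥ →
    ∀ (t : Spec (CommRingCat.of A) ⟶ Spec (CommRingCat.of R))
      (ξ : PClass P (Spec.map (CommRingCat.ofHom (Ideal.Quotient.mk I)) ≫ t)),
      ∃ η : PClass P t,
        PClass.map P (⟨Spec.map (CommRingCat.ofHom (Ideal.Quotient.mk I)), rfl⟩ :
          SchemeHomOver (Spec.map (CommRingCat.ofHom (Ideal.Quotient.mk I)) ≫ t) t) η = ξ

/-- A natural family of classes in the cut on the affine schemes over `X`. -/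
structure ClassFamily (P : SubPicCondition c ε) {X : Scheme.{u}}
    (p : X ⟶ Spec (CommRingCat.of R)) where
  /-- the class attached to an affine scheme over `X` -/
  cls : ∀ (B : CommRingCat.{u}) (ψ : Spec B ⟶ X), PClass P (ψ ≫ p)
  natural : ∀ (B B' : CommRingCat.{u}) (φ : B ⟶ B') (ψ : Spec B ⟶ X),
    PClass.map P (⟨Spec.map φ, (Category.assoc _ _ _).symm⟩ :
      SchemeHomOver ((Spec.map φ ≫ ψ) ≫ p) (ψ ≫ p)) (cls B ψ) = cls B' (Spec.map φ ≫ ψ)

section Represents

variable {P : SubPicCondition c ε} {D : RelativePic0Designation R c}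
  (h : RepresentsRelSubPic c ε P D)

/-- Transport of a class-level group law to the points of the representing scheme. -/
def affineGroupLaw (Γ : ClassGroupLaw P) : AffGroup79.AffineGroupLaw R D.toBase where
  mul t x y := classPoint h t (Γ.mul t (pointClass h t x) (pointClass h t y))
  one t := classPoint h t (Γ.one t)
  inv t x := classPoint h t (Γ.inv t (pointClass h t x))
  mul_assoc t x y z := by
    simp only [pointClass_classPoint, Γ.mul_assoc]
  one_mul t x := by
    simp only [pointClass_classPoint, Γ.one_mul, classPoint_pointClass]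
  mul_one t x := by
    simp only [pointClass_classPoint, Γ.mul_one, classPoint_pointClass]
  inv_mul_cancel t x := by
    simp only [pointClass_classPoint, Γ.inv_mul_cancel]
  mul_natural t t' φ hφ x y := by
    rw [← classPoint_map h (Spec.map φ) hφ, Γ.map_mul t t' φ hφ,
      ← pointClass_comp h (Spec.map φ) hφ, ← pointClass_comp h (Spec.map φ) hφ]

/-- A scheme over a field representing a cut with a class-level group law is separated. -/
theorem isSeparated_of_classGroupLaw {k : Type u} [Field k] {C : Scheme.{u}}
    {c : C ⟶ Spec (CommRingCat.of k)} {ε : SchemeHomOver (𝟙 (Spec (CommRingCat.of k))) c}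
    {P : SubPicCondition c ε} {D : RelativePic0Designation k c}
    (h : RepresentsRelSubPic c ε P D) (Γ : ClassGroupLaw P) : IsSeparated D.toBase :=
  (affineGroupLaw h Γ).isSeparated

/-- The morphism to the representing scheme attached to a natural family of classes. -/
def familyGlue {X : Scheme.{u}} {p : X ⟶ Spec (CommRingCat.of R)} (F : ClassFamily P p) :
    AffGroup79Glue.AffineFamily X D.P where
  m B ψ := (classPoint h (ψ ≫ p) (F.cls B ψ)).1
  natural B B' φ ψ := by
    have h1 := congrArg Subtype.val
      (classPoint_map h (Spec.map φ) (Category.assoc _ _ _).symm (F.cls B ψ))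
    rw [schemeHomOverComp_coe] at h1
    rw [← h1, F.natural]

/-- The Abel-Jacobi type morphism attached to a natural family of classes. -/
def familyMap {X : Scheme.{u}} {p : X ⟶ Spec (CommRingCat.of R)} (F : ClassFamily P p) :
    X ⟶ D.P :=
  (familyGlue h F).glue

theorem familyMap_toBase {X : Scheme.{u}} {p : X ⟶ Spec (CommRingCat.of R)}
    (F : ClassFamily P p) : familyMap h F ≫ D.toBase = p := by
  apply AffGroup79Glue.hom_ext_of_affine
  intro B ψ
  rw [familyMap, ← Category.assoc, AffGroup79Glue.AffineFamily.comp_glue]
  exact (classPoint h (ψ ≫ p) (F.cls B ψ)).2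

theorem comp_familyMap {X : Scheme.{u}} {p : X ⟶ Spec (CommRingCat.of R)}
    (F : ClassFamily P p) (B : CommRingCat.{u}) (ψ : Spec B ⟶ X) :
    ψ ≫ familyMap h F = (classPoint h (ψ ≫ p) (F.cls B ψ)).1 :=
  AffGroup79Glue.AffineFamily.comp_glue _ B ψ

/-- The class classified by the restriction of `familyMap` to an affine scheme over `X`. -/
theorem pointClass_comp_familyMap {X : Scheme.{u}} {p : X ⟶ Spec (CommRingCat.of R)}
    (F : ClassFamily P p) (B : CommRingCat.{u}) (ψ : Spec B ⟶ X) :
    pointClass h (ψ ≫ p)
      ⟨ψ ≫ familyMap h F, by rw [Category.assoc, familyMap_toBase]⟩ = F.cls B ψ := by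
  have : (⟨ψ ≫ familyMap h F, by rw [Category.assoc, familyMap_toBase]⟩ :
      SchemeHomOver (ψ ≫ p) D.toBase) = classPoint h (ψ ≫ p) (F.cls B ψ) :=
    Subtype.ext (comp_familyMap h F B ψ)
  rw [this, pointClass_classPoint]

end Represents

section Field

variable {k : Type u} [Field k] {C : Scheme.{u}} {c : C ⟶ Spec (CommRingCat.of k)}
  {ε : SchemeHomOver (𝟙 (Spec (CommRingCat.of k))) c} {P : SubPicCondition c ε}
  {D : RelativePic0Designation k c} (h : RepresentsRelSubPic c ε P D)

include h in
/-- Class-level infinitesimal lifting gives the infinitesimal lifting property of the representing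
scheme. -/
theorem infinitesimalLifting_of_classLifting (hl : ClassLifting P) :
    QShell79Smooth.InfinitesimalLifting D.toBase := by
  intro A _ I hI t x
  obtain ⟨η, hη⟩ := hl A I hI t (pointClass h _ x)
  refine ⟨classPoint h t η, ?_⟩
  have h1 := classPoint_map h (Spec.map (CommRingCat.ofHom (Ideal.Quotient.mk I))) rfl η
  rw [hη, classPoint_pointClass] at h1
  exact (congrArg Subtype.val h1).symm

/-- If the family of classes hits every class over `Spec k`, the attached morphism hits every
`k`-point. -/
theorem familyMap_hits {X : Scheme.{u}} {p : X ⟶ Spec (CommRingCat.of k)} (F : ClassFamily P p)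
    (hF : ∀ ξ : PClass P (𝟙 (Spec (CommRingCat.of k))),
      ∃ z : SchemeHomOver (𝟙 (Spec (CommRingCat.of k))) p,
        F.cls (CommRingCat.of k) z.1 =
          PClass.map P (⟨𝟙 _, by rw [Category.id_comp, z.2]⟩ :
            SchemeHomOver (z.1 ≫ p) (𝟙 (Spec (CommRingCat.of k)))) ξ)
    (x : SchemeHomOver (𝟙 (Spec (CommRingCat.of k))) D.toBase) :
    ∃ z : Spec (CommRingCat.of k) ⟶ X, z ≫ familyMap h F = x.1 := by
  obtain ⟨z, hz⟩ := hF (pointClass h _ x)
  refine ⟨z.1, ?_⟩
  have h1 := pointClass_comp_familyMap h F (CommRingCat.of k) z.1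
  rw [hz, ← pointClass_postComp] at h1
  have h2 := (pointsEquiv h (z.1 ≫ p)).injective h1
  have h3 := congrArg Subtype.val h2
  simpa [postComp] using h3

include h in
/-- **Q-bridge, final assembly.** For a scheme `D.P`, locally of finite type over an algebraically
closed field, representing a cut `P` of the rigidified relative Picard functor: a class-level group
law and infinitesimal lifting on affine test schemes, together with a family of classes over a
proper connected scheme `X` hitting every class over `Spec k`, give that `D.toBase` is smooth,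
proper and geometrically connected. -/
theorem smooth_isProper_geometricallyConnected [IsAlgClosed k] [LocallyOfFiniteType D.toBase]
    (Γ : ClassGroupLaw P) (hl : ClassLifting P) {X : Scheme.{u}}
    (p : X ⟶ Spec (CommRingCat.of k)) [IsProper p] [ConnectedSpace X] (F : ClassFamily P p)
    (hF : ∀ ξ : PClass P (𝟙 (Spec (CommRingCat.of k))),
      ∃ z : SchemeHomOver (𝟙 (Spec (CommRingCat.of k))) p,
        F.cls (CommRingCat.of k) z.1 =
          PClass.map P (⟨𝟙 _, by rw [Category.id_comp, z.2]⟩ :
            SchemeHomOver (z.1 ≫ p) (𝟙 (Spec (CommRingCat.of k)))) ξ) :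
    Smooth D.toBase ∧ IsProper D.toBase ∧ GeometricallyConnected D.toBase :=
  QShell79.smooth_isProper_geometricallyConnected D.toBase
    (affineGroupLaw h Γ).toRelativeGroupLaw (infinitesimalLifting_of_classLifting h hl) p
    (familyMap h F) (familyMap_toBase h F) (familyMap_hits h F hF)

end Field

end Fermat.Agent.Jac.PointsBridge79Shell

end
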