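import Mathlib
import Fermat.Agent.Jac.PointsBridge79Shell
import Fermat.Agent.Jac.BridgeCharts33Nat

/-!
# JAC bricks Q1/Q2, class level: from standard affine tests to arbitrary affine tests  (helper85)

The dictionary of brick B1b lives on the standard affine test schemes
`specStr A : Spec A ⟶ Spec k` (`A` a `k`-algebra given by an `Algebra k A` instance) with
transition morphisms `specOver ψ`.  The class-level targets `ClassGroupLaw P` and `ClassLifting P`
of `PointsBridge79Shell` quantify over arbitrary `t : Spec B ⟶ Spec k`.  This file provides the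
adapter.

* `algOfHom t` : the `k`-algebra structure on `B` attached to `t`, with `specStr_algOfHom`.
* `stdEquiv h : PClass P t ≃ PClass P (specStr B)` for `h : specStr B = t`.
* `classGroupLaw` : a family of groups `G A` with natural bijections
  `PClass P (specStr A) ≃ G A` and transition homomorphisms gives `ClassGroupLaw P`.
* `classLifting` : lifting of classes along `specOver` of surjections with square-zero kernel on
  standard tests gives `ClassLifting P`.
-/

set_option autoImplicit false
set_option linter.style.haveILetI false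
set_option linter.unusedSectionVars false

noncomputable section

universe u

open CategoryTheory CategoryTheory.Limits AlgebraicGeometry AlgebraicGeometry.RelPicard
  NeronModelInfra GoodReductionJacobian

namespace Fermat.Agent.Jac.JGroup85Std

open PointsBridge79 PointsBridge79Shell BridgeCharts33

variable {k : Type u} [Field k] {C : Scheme.{u}} {c : C ⟶ Spec (CommRingCat.of k)}
  {ε : SchemeHomOver (𝟙 (Spec (CommRingCat.of k))) c} (P : SubPicCondition c ε)

/-! ### Transport along an identification `specStr B = t` -/

section Transport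

variable {B : Type u} [CommRing B] [Algebra k B]
  {t : Spec (CommRingCat.of B) ⟶ Spec (CommRingCat.of k)} (h : specStr (k := k) B = t)

/-- The identity of `Spec B`, from the standard structure morphism to `t`. -/
def toStd : SchemeHomOver (specStr (k := k) B) t := ⟨𝟙 _, by rw [Category.id_comp, h]⟩

/-- The identity of `Spec B`, from `t` to the standard structure morphism. -/
def ofStd : SchemeHomOver t (specStr (k := k) B) := ⟨𝟙 _, by rw [Category.id_comp, h]⟩

theorem map_ofStd_toStd (ξ : PClass P t) :
    PClass.map P (ofStd h) (PClass.map P (toStd h) ξ) = ξ := by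
  rw [PClass.map_map]
  rw [PClass.map_congr P _ (⟨𝟙 _, Category.id_comp t⟩ : SchemeHomOver t t)
    (by simp [postComp, toStd, ofStd])]
  exact PClass.map_id P ξ

theorem map_toStd_ofStd (ξ : PClass P (specStr (k := k) B)) :
    PClass.map P (toStd h) (PClass.map P (ofStd h) ξ) = ξ := by
  rw [PClass.map_map]
  rw [PClass.map_congr P _
    (⟨𝟙 _, Category.id_comp _⟩ : SchemeHomOver (specStr (k := k) B) (specStr (k := k) B))
    (by simp [postComp, toStd, ofStd])]
  exact PClass.map_id P ξ

/-- Classes over `t` are classes over the standard structure morphism. -/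
def stdEquiv : PClass P t ≃ PClass P (specStr (k := k) B) where
  toFun := PClass.map P (toStd h)
  invFun := PClass.map P (ofStd h)
  left_inv := map_ofStd_toStd P h
  right_inv := map_toStd_ofStd P h

@[simp] theorem stdEquiv_apply (ξ : PClass P t) : stdEquiv P h ξ = PClass.map P (toStd h) ξ := rfl

@[simp] theorem stdEquiv_symm_apply (ξ : PClass P (specStr (k := k) B)) :
    (stdEquiv P h).symm ξ = PClass.map P (ofStd h) ξ := rfl

end Transport

/-! ### The algebra structure attached to an affine test scheme -/

/-- The `k`-algebra structure on `B` attached to `t : Spec B ⟶ Spec k`. -/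
@[reducible] def algOfHom {B : CommRingCat.{u}} (t : Spec B ⟶ Spec (CommRingCat.of k)) :
    Algebra k B :=
  (Spec.preimage t).hom.toAlgebra

theorem specStr_algOfHom {B : CommRingCat.{u}} (t : Spec B ⟶ Spec (CommRingCat.of k)) :
    letI := algOfHom t
    specStr (k := k) B = t := by
  letI := algOfHom t
  show Spec.map (CommRingCat.ofHom (algebraMap k B)) = t
  have : CommRingCat.ofHom (algebraMap k B) = Spec.preimage t := rfl
  rw [this, Spec.map_preimage]

/-- Compatibility of the attached algebra structures with a morphism of affine test schemes. -/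
theorem algebraMap_comp_of_comp_eq {B B' : CommRingCat.{u}}
    (t : Spec B ⟶ Spec (CommRingCat.of k)) (t' : Spec B' ⟶ Spec (CommRingCat.of k))
    (φ : B ⟶ B') (hφ : Spec.map φ ≫ t = t') (a : k) :
    φ.hom ((Spec.preimage t).hom a) = (Spec.preimage t').hom a := by
  have h1 : Spec.preimage t ≫ φ = Spec.preimage t' := by
    apply Spec.map_injective
    rw [Spec.map_comp, Spec.map_preimage, Spec.map_preimage, hφ]
  rw [← h1]
  rfl

/-! ### The group law -/

section GroupLaw

variable (G : ∀ (A : Type u) [CommRing A] [Algebra k A], Type (u + 1))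
  [hG : ∀ (A : Type u) [CommRing A] [Algebra k A], Group (G A)]
  (β : ∀ (A : Type u) [CommRing A] [Algebra k A], PClass P (specStr (k := k) A) ≃ G A)
  (bc : ∀ (A A' : Type u) [CommRing A] [Algebra k A] [CommRing A'] [Algebra k A'] [Algebra A A']
    [IsScalarTower k A A'], G A →* G A')
  (hnat : ∀ (A A' : Type u) [CommRing A] [Algebra k A] [CommRing A'] [Algebra k A']
    [Algebra A A'] [IsScalarTower k A A'] (ξ : PClass P (specStr (k := k) A)),
    β A' (PClass.map P (specOver (IsScalarTower.toAlgHom k A A')) ξ) = bc A A' (β A ξ))

/-- Classes over an arbitrary affine test scheme, as elements of the group attached to the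
corresponding algebra. -/
def gEquiv {B : CommRingCat.{u}} (t : Spec B ⟶ Spec (CommRingCat.of k)) :
    letI := algOfHom t
    PClass P t ≃ G B :=
  letI := algOfHom t
  (stdEquiv P (specStr_algOfHom t)).trans (β B)

include hnat in
theorem gEquiv_map {B B' : CommRingCat.{u}} (t : Spec B ⟶ Spec (CommRingCat.of k))
    (t' : Spec B' ⟶ Spec (CommRingCat.of k)) (φ : B ⟶ B') (hφ : Spec.map φ ≫ t = t')
    (ξ : PClass P t) :
    letI := algOfHom t
    letI := algOfHom t'
    letI : Algebra B B' := φ.hom.toAlgebra
    haveI : IsScalarTower k B B' := IsScalarTower.of_algebraMap_eq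
      (fun a => (algebraMap_comp_of_comp_eq t t' φ hφ a).symm)
    gEquiv P G β t' (PClass.map P (⟨Spec.map φ, hφ⟩ : SchemeHomOver t' t) ξ) =
      bc B B' (gEquiv P G β t ξ) := by
  letI := algOfHom t
  letI := algOfHom t'
  letI : Algebra B B' := φ.hom.toAlgebra
  haveI : IsScalarTower k B B' := IsScalarTower.of_algebraMap_eq
    (fun a => (algebraMap_comp_of_comp_eq t t' φ hφ a).symm)
  show β B' (PClass.map P (toStd (specStr_algOfHom t'))
      (PClass.map P (⟨Spec.map φ, hφ⟩ : SchemeHomOver t' t) ξ)) =
    bc B B' (β B (PClass.map P (toStd (specStr_algOfHom t)) ξ))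
  rw [← hnat B B', PClass.map_map, PClass.map_map]
  congr 1

/-- **Adapter for the group law.** -/
def classGroupLaw : ClassGroupLaw P where
  mul t x y := (gEquiv P G β t).symm (gEquiv P G β t x * gEquiv P G β t y)
  one t := (gEquiv P G β t).symm 1
  inv t x := (gEquiv P G β t).symm (gEquiv P G β t x)⁻¹
  mul_assoc t x y z := by simp [mul_assoc]
  one_mul t x := by simp
  mul_one t x := by simp
  inv_mul_cancel t x := by simp
  map_mul t t' φ hφ x y := by
    apply (gEquiv P G β t').injective
    rw [gEquiv_map P G β bc hnat t t' φ hφ]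
    simp only [Equiv.apply_symm_apply, map_mul]
    rw [gEquiv_map P G β bc hnat t t' φ hφ, gEquiv_map P G β bc hnat t t' φ hφ]

end GroupLaw

/-! ### Infinitesimal lifting -/

/-- **Adapter for infinitesimal lifting.**  Lifting of classes along the standard thickenings
`A → A ⧸ I`, `I ^ 2 = ⊥`, for all `k`-algebras `A`, gives `ClassLifting P`. -/
theorem classLifting
    (hl : ∀ (A : Type u) [CommRing A] [Algebra k A] (I : Ideal A), I ^ 2 = ⊥ →
      ∀ ξ : PClass P (specStr (k := k) (A ⧸ I)),
        ∃ η : PClass P (specStr (k := k) A),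
          PClass.map P (specOver (IsScalarTower.toAlgHom k A (A ⧸ I))) η = ξ) :
    ClassLifting P := by
  intro A _ I hI t ξ
  letI : Algebra k A := algOfHom (B := CommRingCat.of A) t
  have ht : specStr (k := k) A = t := specStr_algOfHom (B := CommRingCat.of A) t
  have ht' : specStr (k := k) (A ⧸ I) =
      Spec.map (CommRingCat.ofHom (Ideal.Quotient.mk I)) ≫ t := by
    rw [← ht]
    unfold specStr
    rw [← Spec.map_comp]
    rfl
  obtain ⟨η, hη⟩ := hl A I hI (PClass.map P (toStd ht') ξ)
  refine ⟨PClass.map P (ofStd ht) η, ?_⟩
  have h1 : PClass.map P (ofStd ht') (PClass.map P (toStd ht') ξ) = ξ := map_ofStd_toStd P ht' ξ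
  rw [← h1, ← hη, PClass.map_map, PClass.map_map]
  apply PClass.map_congr
  show Spec.map (CommRingCat.ofHom (Ideal.Quotient.mk I)) ≫ 𝟙 _ =
    𝟙 _ ≫ Spec.map (CommRingCat.ofHom (IsScalarTower.toAlgHom k A (A ⧸ I)).toRingHom)
  rw [Category.id_comp, Category.comp_id]
  rfl

end Fermat.Agent.Jac.JGroup85Std

end
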