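import Mathlib
import Fermat.Agent.Jac.AffineDict87.Statement
import Fermat.Agent.Jac.BaseChange75.Cube
import Fermat.Agent.Jac.LineOps39.Dual
import Fermat.Agent.Jac.JGroup85Pic
import Fermat.Agent.Jac.JGroup85Std
import Fermat.Agent.Jac.JGroup85Rig

/-!
# JAC bricks Q1/Q2, class level  (helper85)

From the affine dictionary `D : AffineDictionary cc` (brick B1b) and an algebraic description
`Q : CutAlg cc D P` of a cut `P` on line two-chart modules, construct the two class-level inputs
of the Q-shell (`PointsBridge79Shell`):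

* `classGroupLaw cc D P Q : ClassGroupLaw P` (group law on classes over affine test schemes,
  from tensor product / dual of two-chart modules),
* `classLifting cc D P Q : ClassLifting P` (infinitesimal lifting of classes, from
  `JSmooth85Alg.exists_lift_line` and `JSmooth85Alg.exists_rigidification_lift`).
-/

set_option autoImplicit false
set_option linter.style.haveILetI false
set_option linter.unusedSectionVars false

noncomputable section

universe u

open CategoryTheory CategoryTheory.Limits AlgebraicGeometry AlgebraicGeometry.RelPicard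
  NeronModelInfra GoodReductionJacobian TensorProduct

namespace Fermat.Agent.Jac.JGroup85Law

open scoped Fermat.Agent.Jac.BaseChange75
open PointsBridge79 PointsBridge79Shell BridgeCharts33 JSmooth85Alg BaseChange75 LineOps39
  JGroup85Pic JGroup85Rig

variable {k : Type u} [Field k] {C : Scheme.{u}} {c : C ⟶ Spec (CommRingCat.of k)}
  {ε : SchemeHomOver (𝟙 (Spec (CommRingCat.of k))) c} (cc : CurveCharts c ε)

/-! ### Rigidifiable two-chart modules -/

section Rigid

variable {A : Type u} [CommRing A] [Algebra k A]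

theorem rigidifiable_iff (L : cc.QCA A) :
    cc.Rigidifiable L ↔ IsRig (A ⊗[k] cc.B1) A (cc.algEval A) L.N1 := Iff.rfl

theorem rigidifiable_of_iso {L M : cc.QCA A} (e : QC2.Iso L M) (h : cc.Rigidifiable L) :
    cc.Rigidifiable M :=
  IsRig.of_equiv (cc.algEval A) e.e1 h

theorem rigidifiable_unit : cc.Rigidifiable (QC2.unit : cc.QCA A) :=
  IsRig.self (cc.algEval A)

theorem rigidifiable_tensor {L M : cc.QCA A} (h : cc.Rigidifiable L) (h' : cc.Rigidifiable M) :
    cc.Rigidifiable (tensor L M) :=
  IsRig.tensor (cc.algEval A) h h'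

theorem rigidifiable_of_tensor_iso {L M : cc.QCA A} (h : cc.Rigidifiable L)
    (e : QC2.Iso (tensor L M) QC2.unit) : cc.Rigidifiable M :=
  IsRig.of_tensor_equiv (cc.algEval A) h e.e1

end Rigid

/-! ### The cube of tensor rings attached to `A → A'` -/

section Cube

variable (A A' : Type u) [CommRing A] [Algebra k A] [CommRing A'] [Algebra k A'] [Algebra A A']
  [IsScalarTower k A A']

theorem hc0 :
    (algebraMap (A' ⊗[k] cc.B0) (A' ⊗[k] cc.B01)).comp
        (algebraMap (A ⊗[k] cc.B0) (A' ⊗[k] cc.B0)) =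
      (algebraMap (A ⊗[k] cc.B01) (A' ⊗[k] cc.B01)).comp
        (algebraMap (A ⊗[k] cc.B0) (A ⊗[k] cc.B01)) :=
  square_comm k A A' cc.B0 cc.B01

theorem hc1 :
    (algebraMap (A' ⊗[k] cc.B1) (A' ⊗[k] cc.B01)).comp
        (algebraMap (A ⊗[k] cc.B1) (A' ⊗[k] cc.B1)) =
      (algebraMap (A ⊗[k] cc.B01) (A' ⊗[k] cc.B01)).comp
        (algebraMap (A ⊗[k] cc.B1) (A ⊗[k] cc.B01)) :=
  square_comm k A A' cc.B1 cc.B01

/-- Evaluation at the base point commutes with base change. -/
theorem eval_square :
    (algebraMap A A').comp (cc.evalA A).toRingHom =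
      (cc.evalA A').toRingHom.comp (algebraMap (A ⊗[k] cc.B1) (A' ⊗[k] cc.B1)) := by
  refine RingHom.ext fun x => ?_
  induction x using TensorProduct.induction_on with
  | zero => simp
  | add x y hx hy => rw [map_add, map_add, hx, hy]
  | tmul a b =>
    simp only [RingHom.comp_apply, AlgHom.toRingHom_eq_coe, RingHom.coe_coe,
      CurveCharts.evalA_tmul, algebraMap_left_tmul, map_mul]
    rw [← IsScalarTower.algebraMap_apply k A A']

variable {A A'}

/-- Rigidifiability is preserved by base change. -/
theorem rigidifiable_baseChange {L : cc.QCA A} {L' : cc.QCA A'} (h : LiftData L L')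
    (hL : cc.Rigidifiable L) : cc.Rigidifiable L' :=
  IsRig.baseChange (cc.algEval A) (cc.algEval A') (eval_square cc A A') h.e1 hL

/-- Rigidifiability lifts along nilpotent thickenings. -/
theorem rigidifiable_lift (hs : Function.Surjective (algebraMap A A'))
    (hn : IsNilpotent (RingHom.ker (algebraMap A A'))) {L : cc.QCA A} {L' : cc.QCA A'}
    (hL : L.IsLine) (h : LiftData L L') (hL' : cc.Rigidifiable L') : cc.Rigidifiable L :=
  haveI := hL.inv1
  IsRig.lift (cc.algEval A) (cc.algEval A') (eval_square cc A A') hs hn h.e1 hL'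

/-- Lines lift along nilpotent thickenings. -/
theorem exists_line_lift (hs : Function.Surjective (algebraMap A A'))
    (hn : IsNilpotent (RingHom.ker (algebraMap A A'))) (L' : cc.QCA A') (hL' : L'.IsLine) :
    ∃ L : cc.QCA A, L.IsLine ∧ Nonempty (LiftData L L') :=
  exists_lift_line (hc0 cc A A') (hc1 cc A A')
    (tensor_left_surjective k A A' cc.B0 hs) (tensor_left_ker_isNilpotent k A A' cc.B0 hs hn)
    (tensor_left_surjective k A A' cc.B1 hs) (tensor_left_ker_isNilpotent k A A' cc.B1 hs hn)
    (tensor_left_surjective k A A' cc.B01 hs) (tensor_left_ker_isNilpotent k A A' cc.B01 hs hn)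
    L' hL'

end Cube

/-! ### Algebraic description of a cut -/

/-- An algebraic description of the cut `P` on line two-chart modules: a predicate `cutA` on the
two-chart modules over the tensor rings which corresponds to `P` under the dictionary, is stable
under tensor products and tensor inverses (degree additivity), and is insensitive to nilpotent
thickenings of the base. -/
structure CutAlg (D : AffineDictionary cc) (P : SubPicCondition c ε) where
  /-- the cut, on two-chart modules -/
  cutA : ∀ (A : Type u) [CommRing A] [Algebra k A], cc.QCA A → Prop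
  cut_iff : ∀ {A : Type u} [CommRing A] [Algebra k A]
    (M : RigidifiedLineBundle c ε (specStr (k := k) A)) (L : cc.QCA A), D.Corr A M.L L →
    (P.P (specStr (k := k) A) M ↔ cutA A L)
  tensor_mem : ∀ {A : Type u} [CommRing A] [Algebra k A] {L M : cc.QCA A}, L.IsLine → M.IsLine →
    cc.Rigidifiable L → cc.Rigidifiable M → cutA A L → cutA A M → cutA A (tensor L M)
  inv_mem : ∀ {A : Type u} [CommRing A] [Algebra k A] {L M : cc.QCA A}, L.IsLine → M.IsLine →
    cc.Rigidifiable L → cc.Rigidifiable M → cutA A L → QC2.Iso (tensor L M) QC2.unit → cutA A M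
  lift_mem : ∀ {A A' : Type u} [CommRing A] [Algebra k A] [CommRing A'] [Algebra k A']
    [Algebra A A'] [IsScalarTower k A A'], Function.Surjective (algebraMap A A') →
    IsNilpotent (RingHom.ker (algebraMap A A')) → ∀ {L : cc.QCA A} {L' : cc.QCA A'},
    L.IsLine → cc.Rigidifiable L → LiftData L L' → cutA A' L' → cutA A L

variable {cc} (D : AffineDictionary cc) (P : SubPicCondition c ε) (Q : CutAlg cc D P)

section Sheaf

variable {A : Type u} [CommRing A] [Algebra k A]

/-- Every rigidifiable line is the two-chart module of a rigidified line bundle. -/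
theorem exists_rigidified {L : cc.QCA A} (hL : L.IsLine) (hr : cc.Rigidifiable L) :
    ∃ M : RigidifiedLineBundle c ε (specStr (k := k) A), D.Corr A M.L L := by
  obtain ⟨M, hM⟩ := D.exists_sheaf L hL
  exact ⟨⟨M, D.isInvertible hM, (D.rigidified_iff hM).2 hr⟩, hM⟩

/-- The lines which are rigidifiable and lie in the cut. -/
def InPic (A : Type u) [CommRing A] [Algebra k A] (L : cc.QCA A) : Prop :=
  L.IsLine ∧ cc.Rigidifiable L ∧ Q.cutA A L

include D in
theorem inPic_of_corr (M : RigidifiedLineBundle c ε (specStr (k := k) A))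
    (hM : P.P (specStr (k := k) A) M) {L : cc.QCA A} (h : D.Corr A M.L L) : InPic D P Q A L :=
  ⟨D.isLine h, (D.rigidified_iff h).1 M.rigidified, (Q.cut_iff M L h).1 hM⟩

theorem inPic_iso {L M : cc.QCA A} (e : QC2.Iso L M) (h : InPic D P Q A L) : InPic D P Q A M := by
  obtain ⟨hL, hr, hc⟩ := h
  obtain ⟨N, hN⟩ := exists_rigidified D hL hr
  exact inPic_of_corr D P Q N ((Q.cut_iff N L hN).2 hc) (D.congr_line hN e)

theorem inPic_unit : InPic D P Q A (QC2.unit : cc.QCA A) :=
  inPic_of_corr D P Q (RigidifiedLineBundle.unit _) (P.unit_mem _) (D.unit A)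

theorem inPic_tensor {L M : cc.QCA A} (h : InPic D P Q A L) (h' : InPic D P Q A M) :
    InPic D P Q A (tensor L M) :=
  ⟨isLine_tensor h.1 h'.1, rigidifiable_tensor cc h.2.1 h'.2.1,
    Q.tensor_mem h.1 h'.1 h.2.1 h'.2.1 h.2.2 h'.2.2⟩

theorem inPic_inv {L M : cc.QCA A} (hM : M.IsLine) (h : InPic D P Q A L)
    (e : QC2.Iso (tensor L M) QC2.unit) : InPic D P Q A M :=
  have hr : cc.Rigidifiable M := rigidifiable_of_tensor_iso cc h.2.1 e
  ⟨hM, hr, Q.inv_mem h.1 hM h.2.1 hr h.2.2 e⟩

/-- The group of classes of rigidifiable lines in the cut. -/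
def pic (A : Type u) [CommRing A] [Algebra k A] : Subgroup (LinePic (cc.chartA A)) :=
  LinePic.subgroupOf (InPic D P Q A) (fun e h => inPic_iso D P Q e h) (inPic_unit D P Q)
    (fun _ _ h h' => inPic_tensor D P Q h h') (fun _ hM h e => inPic_inv D P Q hM h e)

theorem mk_mem_pic {L : cc.QCA A} (hL : L.IsLine) :
    LinePic.mk (cc.chartA A) L hL ∈ pic D P Q A ↔ InPic D P Q A L :=
  LinePic.mk_mem_subgroupOf hL

/-- The group attached to a `k`-algebra `A`. -/
def G (A : Type u) [CommRing A] [Algebra k A] : Type (u + 1) := ↥(pic D P Q A)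

instance : Group (G D P Q A) := inferInstanceAs (Group ↥(pic D P Q A))

/-- The class of a rigidifiable line in the cut. -/
def gmk (L : cc.QCA A) (h : InPic D P Q A L) : G D P Q A :=
  ⟨LinePic.mk (cc.chartA A) L h.1, (mk_mem_pic D P Q h.1).2 h⟩

theorem gmk_eq_gmk_iff {L M : cc.QCA A} (h : InPic D P Q A L) (h' : InPic D P Q A M) :
    gmk D P Q L h = gmk D P Q M h' ↔ Nonempty (QC2.Iso L M) := by
  rw [← LinePic.mk_eq_mk_iff (c := cc.chartA A) h.1 h'.1]
  exact ⟨fun e => congrArg Subtype.val e, fun e => Subtype.ext e⟩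

theorem exists_gmk (x : G D P Q A) : ∃ (L : cc.QCA A) (h : InPic D P Q A L), x = gmk D P Q L h := by
  obtain ⟨x, hx⟩ := x
  obtain ⟨L, hL, rfl⟩ := LinePic.exists_rep x
  exact ⟨L, (mk_mem_pic D P Q hL).1 hx, rfl⟩

/-- A representative of a class of rigidified line bundles in the cut. -/
def repM (ξ : PClass P (specStr (k := k) A)) : RigidifiedLineBundle c ε (specStr (k := k) A) :=
  (PClass.exists_rep P _ ξ).choose

theorem repM_mem (ξ : PClass P (specStr (k := k) A)) : P.P (specStr (k := k) A) (repM P ξ) :=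
  (PClass.exists_rep P _ ξ).choose_spec.choose

theorem repM_spec (ξ : PClass P (specStr (k := k) A)) :
    ξ = PClass.mk P _ (repM P ξ) (repM_mem P ξ) :=
  (PClass.exists_rep P _ ξ).choose_spec.choose_spec

/-- A two-chart module of the chosen representative. -/
def repL (ξ : PClass P (specStr (k := k) A)) : cc.QCA A :=
  (D.exists_line (repM P ξ).L (repM P ξ).isInvertible).choose

theorem repL_spec (ξ : PClass P (specStr (k := k) A)) :
    D.Corr A (repM P ξ).L (repL D P ξ) :=
  (D.exists_line (repM P ξ).L (repM P ξ).isInvertible).choose_spec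

/-- The class of lines attached to a class of rigidified line bundles in the cut. -/
def toG (ξ : PClass P (specStr (k := k) A)) : G D P Q A :=
  gmk D P Q (repL D P ξ) (inPic_of_corr D P Q (repM P ξ) (repM_mem P ξ) (repL_spec D P ξ))

theorem toG_mk (M : RigidifiedLineBundle c ε (specStr (k := k) A))
    (hM : P.P (specStr (k := k) A) M) {L : cc.QCA A} (h : D.Corr A M.L L) :
    toG D P Q (PClass.mk P _ M hM) = gmk D P Q L (inPic_of_corr D P Q M hM h) := by
  have h1 := repM_spec P (PClass.mk P _ M hM)
  rw [PClass.mk_eq_mk_iff] at h1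
  rw [toG, gmk_eq_gmk_iff]
  exact (D.iso_iff (repL_spec D P _) h).1 ⟨h1.some.symm⟩

theorem toG_injective : Function.Injective (toG D P Q (A := A)) := by
  intro ξ ξ' h
  obtain ⟨M, hM, rfl⟩ := PClass.exists_rep P _ ξ
  obtain ⟨M', hM', rfl⟩ := PClass.exists_rep P _ ξ'
  obtain ⟨L, hL⟩ := D.exists_line M.L M.isInvertible
  obtain ⟨L', hL'⟩ := D.exists_line M'.L M'.isInvertible
  rw [toG_mk D P Q M hM hL, toG_mk D P Q M' hM' hL', gmk_eq_gmk_iff] at h
  rw [PClass.mk_eq_mk_iff]
  exact (D.iso_iff hL hL').2 h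

theorem toG_surjective : Function.Surjective (toG D P Q (A := A)) := by
  intro x
  obtain ⟨L, h, rfl⟩ := exists_gmk D P Q x
  obtain ⟨M, hM⟩ := exists_rigidified D h.1 h.2.1
  exact ⟨PClass.mk P _ M ((Q.cut_iff M L hM).2 h.2.2), toG_mk D P Q M _ hM⟩

/-- Classes of rigidified line bundles in the cut over `Spec A` = classes of rigidifiable lines in
the cut. -/
def beta (A : Type u) [CommRing A] [Algebra k A] : PClass P (specStr (k := k) A) ≃ G D P Q A :=
  Equiv.ofBijective (toG D P Q) ⟨toG_injective D P Q, toG_surjective D P Q⟩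

end Sheaf

/-! ### Base change -/

section BaseChange

variable (A A' : Type u) [CommRing A] [Algebra k A] [CommRing A'] [Algebra k A'] [Algebra A A']
  [IsScalarTower k A A']

/-- Base change of classes of lines along `A → A'`. -/
def picBC : LinePic (cc.chartA A) →* LinePic (cc.chartA A') :=
  LinePic.bc (hc0 cc A A') (hc1 cc A A') (cc.chartA A) (cc.chartA A')

variable {A A'}

/-- The pullback of rigidified line bundles along `Spec A' ⟶ Spec A` corresponds to chartwise
base change. -/
theorem corr_pullbackAlong (M : RigidifiedLineBundle c ε (specStr (k := k) A)) {L : cc.QCA A}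
    {L' : cc.QCA A'} (h : D.Corr A M.L L) (hl : LiftData L L') :
    D.Corr A' (M.pullbackAlong (specOver (IsScalarTower.toAlgHom k A A'))).L L' :=
  D.baseChange h hl

theorem inPic_baseChange {L : cc.QCA A} {L' : cc.QCA A'} (h : InPic D P Q A L)
    (hl : LiftData L L') : InPic D P Q A' L' := by
  obtain ⟨M, hM⟩ := exists_rigidified D h.1 h.2.1
  have hP : P.P (specStr (k := k) A) M := (Q.cut_iff M L hM).2 h.2.2
  exact inPic_of_corr D P Q (M.pullbackAlong (specOver (IsScalarTower.toAlgHom k A A')))
    (P.pullback_mem _ _ _ M hP) (corr_pullbackAlong D M hM hl)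

theorem picBC_mem (x : LinePic (cc.chartA A)) (hx : x ∈ pic D P Q A) :
    picBC (cc := cc) A A' x ∈ pic D P Q A' := by
  obtain ⟨L, hL, rfl⟩ := LinePic.exists_rep x
  rw [mk_mem_pic] at hx
  have hl := liftData_bcCube (A' := A') (hc0 cc A A') (hc1 cc A A') L
  rw [picBC, LinePic.bc_mk (hc0 cc A A') (hc1 cc A A') (cc.chartA A) (cc.chartA A') hL hl,
    mk_mem_pic]
  exact inPic_baseChange D P Q hx hl

variable (A A')

/-- Base change of classes of rigidifiable lines in the cut. -/
def gBC : G D P Q A →* G D P Q A' where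
  toFun x := (⟨picBC (cc := cc) A A' (Subtype.val (p := (· ∈ pic D P Q A)) x),
    picBC_mem D P Q _ (Subtype.property (p := (· ∈ pic D P Q A)) x)⟩ : ↥(pic D P Q A'))
  map_one' := Subtype.ext (map_one (picBC (cc := cc) A A'))
  map_mul' _ _ := Subtype.ext (map_mul (picBC (cc := cc) A A') _ _)

variable {A A'}

theorem gBC_gmk {L : cc.QCA A} {L' : cc.QCA A'} (h : InPic D P Q A L) (hl : LiftData L L') :
    gBC D P Q A A' (gmk D P Q L h) = gmk D P Q L' (inPic_baseChange D P Q h hl) :=
  Subtype.ext (LinePic.bc_mk (hc0 cc A A') (hc1 cc A A') (cc.chartA A) (cc.chartA A') h.1 hl)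

theorem beta_natural (ξ : PClass P (specStr (k := k) A)) :
    beta D P Q A' (PClass.map P (specOver (IsScalarTower.toAlgHom k A A')) ξ) =
      gBC D P Q A A' (beta D P Q A ξ) := by
  obtain ⟨M, hM, rfl⟩ := PClass.exists_rep P _ ξ
  obtain ⟨L, hL⟩ := D.exists_line M.L M.isInvertible
  have hl := liftData_bcCube (A' := A') (hc0 cc A A') (hc1 cc A A') L
  show toG D P Q _ = gBC D P Q A A' (toG D P Q _)
  rw [PClass.map_mk, toG_mk D P Q M hM hL,
    toG_mk D P Q _ _ (corr_pullbackAlong D M hL hl), gBC_gmk D P Q _ hl]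

end BaseChange

/-! ### The class-level inputs of the Q-shell -/

/-- **Q2, class level**: the group law on classes in the cut over affine test schemes. -/
def classGroupLaw : ClassGroupLaw P :=
  JGroup85Std.classGroupLaw P (fun A _ _ => G D P Q A) (fun A _ _ => beta D P Q A)
    (fun A A' _ _ _ _ _ _ => gBC D P Q A A') (fun _ _ _ _ _ _ _ _ ξ => beta_natural D P Q ξ)

include D Q in
/-- **Q1, class level**: infinitesimal lifting of classes in the cut over affine test schemes. -/
theorem classLifting : ClassLifting P := by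
  apply JGroup85Std.classLifting
  intro A _ _ I hI ξ
  have hs : Function.Surjective (algebraMap A (A ⧸ I)) := Ideal.Quotient.mk_surjective
  have hn : IsNilpotent (RingHom.ker (algebraMap A (A ⧸ I))) := by
    refine ⟨2, ?_⟩
    have : RingHom.ker (algebraMap A (A ⧸ I)) = I := Ideal.mk_ker
    rw [this, hI]
    rfl
  obtain ⟨M', hM', rfl⟩ := PClass.exists_rep P _ ξ
  obtain ⟨L', hL'⟩ := D.exists_line M'.L M'.isInvertible
  have hin' := inPic_of_corr D P Q M' hM' hL'
  obtain ⟨L, hL, ⟨hl⟩⟩ := exists_line_lift cc hs hn L' hin'.1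
  have hr : cc.Rigidifiable L := rigidifiable_lift cc hs hn hL hl hin'.2.1
  have hc : Q.cutA A L := Q.lift_mem hs hn hL hr hl hin'.2.2
  obtain ⟨M, hM⟩ := exists_rigidified D hL hr
  have hP : P.P (specStr (k := k) A) M := (Q.cut_iff M L hM).2 hc
  refine ⟨PClass.mk P _ M hP, ?_⟩
  rw [PClass.map_mk, PClass.mk_eq_mk_iff]
  exact (D.iso_iff (corr_pullbackAlong D M hM hl) hL').2 ⟨isoRefl L'⟩

end Fermat.Agent.Jac.JGroup85Law

end
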