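/-
JAC programme (helper36): the algebraic description `JGroup85Law.CutAlg` of THE Euler-characteristic
cut `ChiDict36.chiCut D hc0`, assembling

* `ChiDict36.chiCut_affine_iff`      (dictionary form of the cut on affine test schemes),
* `DegAdd79Rel.chi_tensor_rel`        (degree additivity, helper79),
* `ChiBC36.chi_unit`, `chi_iso`, `chi_liftData_tensor`.

Consequently `JGroup85Law.classGroupLaw` and `classLifting` (helper85) apply to the cut.
-/
import Mathlib
import Fermat.Agent.Jac.ChiDict36
import Fermat.Agent.Jac.ChartFPL36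
import Fermat.Agent.Jac.JGroup85Law
import Fermat.Agent.Jac.DegAdd79Rel

set_option autoImplicit false
set_option linter.style.haveILetI false

open CategoryTheory CategoryTheory.Limits AlgebraicGeometry AlgebraicGeometry.RelPicard
  NeronModelInfra GoodReductionJacobian TensorProduct

noncomputable section

namespace Fermat.Agent.Jac.CutAlg36

universe u

open scoped Fermat.Agent.Jac.BaseChange75
open BridgeCharts33 JSmooth85Alg BaseChange75 LineOps39 ChiBC36 ChiDict36 ChartFPL36

/-- For a surjective ring homomorphism with nilpotent kernel, every prime is a contraction. -/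
theorem comap_surjective_of_nilpotent {A A' : Type*} [CommRing A] [CommRing A'] (f : A →+* A')
    (hs : Function.Surjective f) (hn : IsNilpotent (RingHom.ker f)) :
    Function.Surjective (PrimeSpectrum.comap f) := by
  intro p
  have hp : p ∈ Set.range (PrimeSpectrum.comap f) := by
    rw [range_comap_of_surjective _ f hs, PrimeSpectrum.mem_zeroLocus]
    intro x hx
    obtain ⟨n, hn⟩ := hn
    have h1 : x ^ n ∈ (RingHom.ker f) ^ n := Ideal.pow_mem_pow hx n
    rw [hn] at h1
    have h2 : x ^ n = 0 := by simpa using h1
    exact p.2.mem_of_pow_mem n (h2 ▸ p.asIdeal.zero_mem)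
  exact hp

variable {k : Type u} [Field k] {C : Scheme.{u}} {c : C ⟶ Spec (CommRingCat.of k)}
  {ε : SchemeHomOver (𝟙 (Spec (CommRingCat.of k))) c} {cc : CurveCharts c ε}

/-- The geometric integrality hypothesis of the degree additivity theorem. -/
def HDom (cc : CurveCharts c ε) : Prop :=
  ∀ (K : Type u) [Field K] [Algebra k K],
    IsDomain (K ⊗[k] cc.B0) ∧ IsDomain (K ⊗[k] cc.B1) ∧ Nontrivial (K ⊗[k] cc.B01)

/-- THE cut of the programme, with `hc0` discharged. -/
abbrev theCut (D : AffineDictionary cc) : SubPicCondition c ε :=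
  chiCut D (chart0_finiteProjOverLine cc)

variable (D : AffineDictionary cc)

/-- The algebraic description of the Euler-characteristic cut. -/
def cutAlg (hdom : HDom cc) : JGroup85Law.CutAlg cc D (theCut D) where
  cutA := fun A _ _ L => ∀ p : PrimeSpectrum A, L.chi p = chi0 cc
  cut_iff := fun M _ hC => chiCut_affine_iff D _ _ M hC
  tensor_mem := fun {A} _ _ {L M} hL hM _ _ h h' p => by
    rw [DegAdd79Rel.chi_tensor_rel cc.chart0 (chart0_finiteProjOverLine cc) hdom hL hM p,
      h p, h' p, chi_unit A p]
    show chi0 cc + chi0 cc - chi0 cc = chi0 cc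
    ring
  inv_mem := fun {A} _ _ {L M} hL hM _ _ h e p => by
    have h1 := DegAdd79Rel.chi_tensor_rel cc.chart0 (chart0_finiteProjOverLine cc) hdom hL hM p
    have h2 : (tensor L M).chi p = (QC2.unit : cc.QCA A).chi p := congrFun (chi_iso e) p
    rw [h2, h p, chi_unit A p] at h1
    have h3 : chi0 cc = chi0 cc + M.chi p - chi0 cc := h1
    linarith
  lift_mem := fun {A A'} _ _ _ _ _ _ hs hn {L L'} _ _ h h' p => by
    obtain ⟨p', rfl⟩ := comap_surjective_of_nilpotent (algebraMap A A') hs hn p
    rw [← chi_liftData_tensor A' h p']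
    exact h' p'

/-- Group law on the classes of the cut (input `Γ` of the final shell). -/
def classGroupLaw (hdom : HDom cc) : PointsBridge79Shell.ClassGroupLaw (theCut D) :=
  JGroup85Law.classGroupLaw D (theCut D) (cutAlg D hdom)

/-- Infinitesimal lifting of the classes of the cut (input `hl` of the final shell). -/
theorem classLifting (hdom : HDom cc) : PointsBridge79Shell.ClassLifting (theCut D) :=
  JGroup85Law.classLifting D (theCut D) (cutAlg D hdom)

/-- The frozen cut is contained in the cut (input `hP` of the final shell). -/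
theorem theCut_of_fibrewiseAlgEquivZero {T : Scheme.{u}} (t : T ⟶ Spec (CommRingCat.of k))
    (M : RigidifiedLineBundle c ε t) (hM : FibrewiseAlgEquivZero M) : (theCut D).P t M :=
  chiCut_of_fibrewiseAlgEquivZero D _ t M hM

theorem isLocalCondition_theCut : IsLocalCondition (theCut D) :=
  isLocalCondition_chiCut D _

section Integral

/-- For an integral curve over an algebraically closed field the geometric integrality hypothesis
holds. -/
theorem hDom_of_isIntegral [IsAlgClosed k] [IsIntegral C] (cc : CurveCharts c ε) : HDom cc := by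
  intro K _ _
  haveI d0 : IsDomain cc.B0 := cc.dedekind0.toIsDomain
  haveI d1 : IsDomain cc.B1 := cc.dedekind1.toIsDomain
  have hne : ∀ U : C.Opens, Nontrivial Γ(C, U) → (U : Set C).Nonempty := by
    intro U hU
    by_contra h
    have hU' : U = ⊥ := by
      ext x
      simp only [TopologicalSpace.Opens.coe_bot, Set.mem_empty_iff_false, iff_false]
      exact fun hx => h ⟨x, hx⟩
    subst hU'
    exact not_subsingleton _ (inferInstance : Subsingleton Γ(C, ⊥))
  have h0 : (cc.U0 : Set C).Nonempty := hne cc.U0 (show Nontrivial cc.B0 from inferInstance)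
  have h1 : (cc.U1 : Set C).Nonempty := hne cc.U1 (show Nontrivial cc.B1 from inferInstance)
  have h01 : ((cc.U0 ⊓ cc.U1 : C.Opens) : Set C).Nonempty :=
    nonempty_preirreducible_inter cc.U0.2 cc.U1.2 h0 h1
  obtain ⟨x, hx⟩ := h01
  haveI hne01 : Nonempty (cc.U0 ⊓ cc.U1 : C.Opens) := ⟨⟨x, hx⟩⟩
  haveI d01 : IsDomain cc.B01 :=
    show IsDomain Γ(C, cc.U0 ⊓ cc.U1) from IsIntegral.component_integral (cc.U0 ⊓ cc.U1)
  exact DegAdd79Rel.hdom_of_isAlgClosed K

end Integral

end Fermat.Agent.Jac.CutAlg36
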