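/-
Fermat/Agent/Jac/RigidifyShrink40.lean  (helper40)

Brick Q3a of the S25 programme, lemma G' ("rigidify by shrinking").

Let `t : T ⟶ Spec k`, `V a` an open cover of `T` and `N a` invertible sheaves on `C × V a` which
are isomorphic on the overlaps `C × (V a ⊓ V b)`.  NO rigidification of the `N a` is assumed.
Then there is a RIGIDIFIED line bundle `M₀` on `C × T` which is locally (on `T`) isomorphic to
the `N a`: every point of `T` has an open neighbourhood `W ≤ V a` with `M₀|_W ≅ N a|_W`.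

(Mathematically `M₀ = N ⊗ pr_T^* (ε^* N)⁻¹` for the glued sheaf `N`; we never need that: we refine
the cover by opens over which `ε^* (N a)` is trivial and apply `ClassesIsSheaf.glue`.)
-/
import Mathlib
import Fermat.Agent.Jac.RepInterface
import Fermat.Agent.Jac.AffineDict34.LocallyTrivial

set_option autoImplicit false

open CategoryTheory CategoryTheory.Limits AlgebraicGeometry AlgebraicGeometry.RelPicard
open NeronModelInfra GoodReductionJacobian

universe u

noncomputable section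

namespace Fermat.Agent.Jac.RigidifyShrink40

variable {k : Type u} [Field k] {C : Scheme.{u}} {c : C ⟶ Spec (CommRingCat.of k)}
  {ε : SchemeHomOver (𝟙 (Spec (CommRingCat.of k))) c}
  {T : Scheme.{u}} (t : T ⟶ Spec (CommRingCat.of k))

/-! ### Restriction of sheaves on `C × U` to `C × V`, `V ≤ U` -/

/-- The restriction to `C × V` of a sheaf of modules on `C × U`, for opens `V ≤ U` of `T`. -/
def resLE {U V : T.Opens} (h : V ≤ U) (N : (pullback c (U.ι ≫ t)).Modules) :
    (pullback c (V.ι ≫ t)).Modules :=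
  (Scheme.Modules.pullback (baseChangeSnd c (openInclLE t h))).obj N

/-- Restriction is functorial for isomorphisms. -/
def resLEIso {U V : T.Opens} (h : V ≤ U) {N N' : (pullback c (U.ι ≫ t)).Modules} (e : N ≅ N') :
    resLE t h N ≅ resLE t h N' :=
  (Scheme.Modules.pullback (baseChangeSnd c (openInclLE t h))).mapIso e

theorem isInvertible_resLE {U V : T.Opens} (h : V ≤ U) {N : (pullback c (U.ι ≫ t)).Modules}
    (hN : Scheme.Modules.IsInvertible N) : Scheme.Modules.IsInvertible (resLE t h N) :=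
  hN.pullback _

theorem postComp_openInclLE {U V W : T.Opens} (hVU : V ≤ U) (hWV : W ≤ V) :
    postComp (openInclLE t hVU) (openInclLE t hWV) = openInclLE t (hWV.trans hVU) :=
  Subtype.ext (T.homOfLE_homOfLE hWV hVU)

/-- Transitivity of restriction. -/
def resLEComp {U V W : T.Opens} (hVU : V ≤ U) (hWV : W ≤ V)
    (N : (pullback c (U.ι ≫ t)).Modules) :
    resLE t hWV (resLE t hVU N) ≅ resLE t (hWV.trans hVU) N :=
  (Scheme.Modules.pullbackComp _ _).app N ≪≫
    (Scheme.Modules.pullbackCongr (by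
      rw [baseChangeSnd_comp, postComp_openInclLE])).app N

/-- The restriction of a rigidified bundle on `C × T` to `C × V`, seen from a bigger open. -/
def restrictOpenResLE {U V : T.Opens} (h : V ≤ U) (M : RigidifiedLineBundle c ε t) :
    resLE t h (restrictOpen M U).L ≅ (restrictOpen M V).L :=
  (Scheme.Modules.pullbackComp _ _).app M.L ≪≫
    (Scheme.Modules.pullbackCongr (by
      rw [baseChangeSnd_comp]
      congr 1
      exact Subtype.ext (T.homOfLE_ι h))).app M.L

/-! ### Rigidification of a restriction -/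

/-- The pullback of `N` (a sheaf on `C × U`) along the rigidifying section: a sheaf on `U`. -/
def rigPull {U : T.Opens} (N : (pullback c (U.ι ≫ t)).Modules) : U.toScheme.Modules :=
  (Scheme.Modules.pullback (rigSection c (U.ι ≫ t) ε)).obj N

/-- Rigidification commutes with restriction. -/
def rigPullResLE {U V : T.Opens} (h : V ≤ U) (N : (pullback c (U.ι ≫ t)).Modules) :
    rigPull (ε := ε) t (resLE t h N) ≅
      (Scheme.Modules.pullback (T.homOfLE h)).obj (rigPull (ε := ε) t N) :=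
  (Scheme.Modules.pullbackComp _ _).app N ≪≫
    (Scheme.Modules.pullbackCongr (rigSection_baseChangeSnd c ε (openInclLE t h))).app N ≪≫
    ((Scheme.Modules.pullbackComp _ _).app N).symm

/-- An invertible sheaf on an open subscheme `U` of `T` is trivial on a neighbourhood (open in
`T`) of every point of `U`. -/
theorem exists_open_trivial {U : T.Opens} (R : U.toScheme.Modules)
    (hR : Scheme.Modules.IsInvertible R) (x : T) (hx : x ∈ U) :
    ∃ (W : T.Opens) (hW : W ≤ U), x ∈ W ∧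
      Nonempty ((Scheme.Modules.pullback (T.homOfLE hW)).obj R ≅
        SheafOfModules.unit W.toScheme.ringCatSheaf) := by
  obtain ⟨U', hxU', ⟨e⟩⟩ := hR.1 ⟨x, hx⟩
  have hW : U.ι ''ᵁ U' ≤ U := U.ι_image_le U'
  refine ⟨U.ι ''ᵁ U', hW, ⟨⟨x, hx⟩, hxU', rfl⟩, ⟨?_⟩⟩
  refine AffineDict34.trivOfRangeSubset (T.homOfLE hW) U' ?_ R e
  have h1 : (T.homOfLE hW).opensRange = U.ι ⁻¹ᵁ (U.ι ''ᵁ U') := Scheme.opensRange_homOfLE hW
  rw [U.ι.preimage_image_eq] at h1
  intro y hy
  have : y ∈ (T.homOfLE hW).opensRange := hy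
  rw [h1] at this
  exact this

/-! ### The main lemma -/

/-- **Lemma G' (rigidify by shrinking).**  Invertible sheaves `N a` on `C × V a` for an open cover
`V a` of `T`, isomorphic on the overlaps, are locally (on `T`) the restrictions of ONE rigidified
line bundle on `C × T`. -/
theorem exists_rigidified_of_local (hS : ClassesIsSheaf c ε) {ι : Type u} (V : ι → T.Opens)
    (hV : ⨆ a, V a = ⊤) (N : ∀ a, (pullback c ((V a).ι ≫ t)).Modules)
    (hN : ∀ a, Scheme.Modules.IsInvertible (N a))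
    (hcomp : ∀ a b, Nonempty (resLE t (inf_le_left : V a ⊓ V b ≤ V a) (N a) ≅
      resLE t (inf_le_right : V a ⊓ V b ≤ V b) (N b))) :
    ∃ M₀ : RigidifiedLineBundle c ε t, ∀ x : T, ∃ (a : ι) (W : T.Opens) (hW : W ≤ V a), x ∈ W ∧
      Nonempty ((restrictOpen M₀ W).L ≅ resLE t hW (N a)) := by
  classical
  let J : Type u := Σ a : ι, {W : T.Opens // ∃ hW : W ≤ V a,
    Nonempty ((Scheme.Modules.pullback (T.homOfLE hW)).obj (rigPull (ε := ε) t (N a)) ≅
      SheafOfModules.unit W.toScheme.ringCatSheaf)}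
  let U' : J → T.Opens := fun j => j.2.1
  have hle : ∀ j : J, U' j ≤ V j.1 := fun j => j.2.2.choose
  have htriv : ∀ j : J,
      Nonempty ((Scheme.Modules.pullback (T.homOfLE (hle j))).obj (rigPull (ε := ε) t (N j.1)) ≅
        SheafOfModules.unit (U' j).toScheme.ringCatSheaf) := fun j => j.2.2.choose_spec
  have hcov : ⨆ j, U' j = ⊤ := by
    rw [eq_top_iff]
    intro x _
    have hx : x ∈ ⨆ a, V a := by rw [hV]; trivial
    obtain ⟨a, ha⟩ := TopologicalSpace.Opens.mem_iSup.mp hx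
    obtain ⟨W, hW, hxW, hWt⟩ :=
      exists_open_trivial (rigPull (ε := ε) t (N a)) ((hN a).pullback _) x ha
    exact TopologicalSpace.Opens.mem_iSup.mpr ⟨⟨a, W, hW, hWt⟩, hxW⟩
  let M : ∀ j, RigidifiedLineBundle c ε ((U' j).ι ≫ t) := fun j =>
    { L := resLE t (hle j) (N j.1)
      isInvertible := isInvertible_resLE t _ (hN j.1)
      rigidified := ⟨rigPullResLE t (hle j) (N j.1) ≪≫ (htriv j).some⟩ }
  have hcompat : ∀ j j', Nonempty
      (((M j).pullbackAlong (openInclLE t (inf_le_left : U' j ⊓ U' j' ≤ U' j))).L ≅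
        ((M j').pullbackAlong (openInclLE t (inf_le_right : U' j ⊓ U' j' ≤ U' j'))).L) := by
    intro j j'
    obtain ⟨e⟩ := hcomp j.1 j'.1
    have h1 : U' j ⊓ U' j' ≤ V j.1 ⊓ V j'.1 := inf_le_inf (hle j) (hle j')
    exact ⟨resLEComp t (hle j) inf_le_left (N j.1) ≪≫
      (resLEComp t inf_le_left h1 (N j.1)).symm ≪≫ resLEIso t h1 e ≪≫
      resLEComp t inf_le_right h1 (N j'.1) ≪≫
      (resLEComp t (hle j') inf_le_right (N j'.1)).symm⟩
  obtain ⟨M₀, hM₀⟩ := hS.glue t U' hcov M hcompat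
  refine ⟨M₀, fun x => ?_⟩
  have hx : x ∈ ⨆ j, U' j := by rw [hcov]; trivial
  obtain ⟨j, hj⟩ := TopologicalSpace.Opens.mem_iSup.mp hx
  exact ⟨j.1, U' j, hle j, hj, hM₀ j⟩

/-- The same, with the neighbourhoods chosen: a cover `W x` (indexed by the points of `T`) and
isomorphisms `M₀|_{W x} ≅ N (a x)|_{W x}`.  This is the input shape of
`ChiDict36.chiCut_of_cover`. -/
theorem exists_rigidified_cover (hS : ClassesIsSheaf c ε) {ι : Type u} (V : ι → T.Opens)
    (hV : ⨆ a, V a = ⊤) (N : ∀ a, (pullback c ((V a).ι ≫ t)).Modules)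
    (hN : ∀ a, Scheme.Modules.IsInvertible (N a))
    (hcomp : ∀ a b, Nonempty (resLE t (inf_le_left : V a ⊓ V b ≤ V a) (N a) ≅
      resLE t (inf_le_right : V a ⊓ V b ≤ V b) (N b))) :
    ∃ (M₀ : RigidifiedLineBundle c ε t) (a : T → ι) (W : T → T.Opens)
      (hW : ∀ x, W x ≤ V (a x)), (∀ x, x ∈ W x) ∧ (⨆ x, W x = ⊤) ∧
      ∀ x, Nonempty ((restrictOpen M₀ (W x)).L ≅ resLE t (hW x) (N (a x))) := by
  obtain ⟨M₀, h⟩ := exists_rigidified_of_local (ε := ε) t hS V hV N hN hcomp
  choose a W hW hxW hiso using h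
  refine ⟨M₀, a, W, hW, hxW, ?_, hiso⟩
  rw [eq_top_iff]
  intro x _
  exact TopologicalSpace.Opens.mem_iSup.mpr ⟨x, hxW x⟩

/-- Transport of an overlap isomorphism along an equality of the smaller open. -/
theorem resLE_congr_open {U U' W W' : T.Opens} (hWW' : W = W') (h : W ≤ U) (h' : W ≤ U')
    (h2 : W' ≤ U) (h2' : W' ≤ U') (N : (pullback c (U.ι ≫ t)).Modules)
    (N' : (pullback c (U'.ι ≫ t)).Modules) (e : Nonempty (resLE t h N ≅ resLE t h' N')) :
    Nonempty (resLE t h2 N ≅ resLE t h2' N') := by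
  subst hWW'
  exact e

/-- The two members of a two-element cover. -/
def twoV (V0 V1 : T.Opens) : ULift.{u} Bool → T.Opens := fun i => bif i.down then V1 else V0

/-- The two sheaves of a two-element gluing datum. -/
def twoN (V0 V1 : T.Opens) (N0 : (pullback c (V0.ι ≫ t)).Modules)
    (N1 : (pullback c (V1.ι ≫ t)).Modules) :
    ∀ i : ULift.{u} Bool, (pullback c ((twoV V0 V1 i).ι ≫ t)).Modules
  | ⟨false⟩ => N0
  | ⟨true⟩ => N1

/-- **Lemma G' for a two-element cover**: no cocycle condition, one overlap isomorphism. -/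
theorem exists_rigidified_of_two (hS : ClassesIsSheaf c ε) (V0 V1 : T.Opens)
    (hcov : V0 ⊔ V1 = ⊤) (N0 : (pullback c (V0.ι ≫ t)).Modules)
    (N1 : (pullback c (V1.ι ≫ t)).Modules) (hN0 : Scheme.Modules.IsInvertible N0)
    (hN1 : Scheme.Modules.IsInvertible N1)
    (e01 : Nonempty (resLE t (inf_le_left : V0 ⊓ V1 ≤ V0) N0 ≅
      resLE t (inf_le_right : V0 ⊓ V1 ≤ V1) N1)) :
    ∃ M₀ : RigidifiedLineBundle c ε t, ∀ x : T,
      (∃ (W : T.Opens) (hW : W ≤ V0), x ∈ W ∧
        Nonempty ((restrictOpen M₀ W).L ≅ resLE t hW N0)) ∨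
      (∃ (W : T.Opens) (hW : W ≤ V1), x ∈ W ∧
        Nonempty ((restrictOpen M₀ W).L ≅ resLE t hW N1)) := by
  have hV : ⨆ i, twoV V0 V1 i = ⊤ := by
    rw [eq_top_iff, ← hcov]
    exact sup_le (le_iSup (twoV V0 V1) ⟨false⟩) (le_iSup (twoV V0 V1) ⟨true⟩)
  obtain ⟨M₀, h⟩ := exists_rigidified_of_local (ε := ε) t hS (twoV V0 V1) hV
    (twoN t V0 V1 N0 N1)
    (by rintro ⟨i⟩; cases i; exacts [hN0, hN1])
    (by
      rintro ⟨i⟩ ⟨j⟩
      cases i <;> cases j
      · exact ⟨Iso.refl _⟩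
      · exact e01
      · obtain ⟨e⟩ := e01
        exact resLE_congr_open t (inf_comm V0 V1) inf_le_right inf_le_left inf_le_left
          inf_le_right N1 N0 ⟨e.symm⟩
      · exact ⟨Iso.refl _⟩)
  refine ⟨M₀, fun x => ?_⟩
  obtain ⟨⟨i⟩, W, hW, hxW, hiso⟩ := h x
  cases i
  · exact Or.inl ⟨W, hW, hxW, hiso⟩
  · exact Or.inr ⟨W, hW, hxW, hiso⟩

end Fermat.Agent.Jac.RigidifyShrink40
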