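/-
Fermat/Agent/Jac/ChartTransport40.lean  (helper40)

Brick Q3a of the S25 programme, part (T): transport of dictionary sheaves on
`XA c A = pullback c (specStr A)` to `C × V`, `V` an open of a `k`-scheme `T` with a morphism
`v : V ⟶ Spec A` over `k` (typically `A = Γ(T, V)`, `V` affine, `v = isoSpec`), and the overlap
isomorphism obtained from the dictionary.
-/
import Mathlib
import Fermat.Agent.Jac.RigidifyShrink40
import Fermat.Agent.Jac.AffineDict87.Statement
import Fermat.Agent.Jac.BridgeCharts33Pack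

set_option autoImplicit false

open CategoryTheory CategoryTheory.Limits AlgebraicGeometry AlgebraicGeometry.RelPicard
open NeronModelInfra GoodReductionJacobian TensorProduct

universe u

noncomputable section

namespace Fermat.Agent.Jac.ChartTransport40

open BridgeCharts33 RigidifyShrink40 JSmooth85Alg

variable {k : Type u} [Field k] {C : Scheme.{u}} {c : C ⟶ Spec (CommRingCat.of k)}
  {T : Scheme.{u}} (t : T ⟶ Spec (CommRingCat.of k))

/-! ### The chart morphism `U ≅ Spec Γ(T, U)` over `k` -/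

/-- `isoSpec` of an affine open is a morphism over `k`, for any `k`-algebra structure on
`Γ(T, U)` whose structure map is the canonical one. -/
theorem isoSpec_hom_specStr {U : T.Opens} (hU : IsAffineOpen U) [Algebra k Γ(T, U)]
    (h : algebraMap k Γ(T, U) = secHom t U) :
    hU.isoSpec.hom ≫ specStr (k := k) Γ(T, U) = U.ι ≫ t := by
  have h1 : specStr (k := k) Γ(T, U) =
      Spec.map (t.appLE ⊤ U le_top) ≫ Spec.map (Scheme.ΓSpecIso (CommRingCat.of k)).inv := by
    unfold specStr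
    rw [h, ← Spec.map_comp]
    rfl
  have h2 := IsAffineOpen.SpecMap_appLE_fromSpec t (isAffineOpen_top _) hU le_top
  rw [IsAffineOpen.fromSpec_top, Scheme.isoSpec_Spec_inv] at h2
  rw [h1, h2, IsAffineOpen.isoSpec_hom_fromSpec_assoc]

/-- The chart morphism `U ⟶ Spec Γ(T, U)` of an affine open, as a morphism over `k`. -/
def chartHomOver {U : T.Opens} (hU : IsAffineOpen U) [Algebra k Γ(T, U)]
    (h : algebraMap k Γ(T, U) = secHom t U) :
    SchemeHomOver (U.ι ≫ t) (specStr (k := k) Γ(T, U)) :=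
  ⟨hU.isoSpec.hom, isoSpec_hom_specStr t hU h⟩

instance isIso_chartHomOver {U : T.Opens} (hU : IsAffineOpen U) [Algebra k Γ(T, U)]
    (h : algebraMap k Γ(T, U) = secHom t U) : IsIso (chartHomOver t hU h).1 :=
  inferInstanceAs (IsIso hU.isoSpec.hom)

/-- Compatibility of the chart morphisms with restriction to a smaller affine open. -/
theorem homOfLE_isoSpec_hom {U W : T.Opens} (hU : IsAffineOpen U) (hW : IsAffineOpen W)
    (hWU : W ≤ U) :
    T.homOfLE hWU ≫ hU.isoSpec.hom =
      hW.isoSpec.hom ≫ Spec.map (T.presheaf.map (homOfLE hWU).op) := by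
  rw [← cancel_mono hU.fromSpec, Category.assoc, Category.assoc,
    IsAffineOpen.isoSpec_hom_fromSpec, Scheme.homOfLE_ι, hU.map_fromSpec hW,
    IsAffineOpen.isoSpec_hom_fromSpec]

/-- Compatibility of the chart morphisms over `k` with restriction to a smaller affine open. -/
theorem postComp_chartHomOver {U W : T.Opens} (hU : IsAffineOpen U) (hW : IsAffineOpen W)
    (hWU : W ≤ U) [Algebra k Γ(T, U)] [Algebra k Γ(T, W)]
    (hu : algebraMap k Γ(T, U) = secHom t U) (hw : algebraMap k Γ(T, W) = secHom t W)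
    (ψ : Γ(T, U) →ₐ[k] Γ(T, W)) (hψ : ψ.toRingHom = (T.presheaf.map (homOfLE hWU).op).hom) :
    postComp (chartHomOver t hU hu) (openInclLE t hWU) =
      postComp (specOver ψ) (chartHomOver t hW hw) := by
  apply Subtype.ext
  change T.homOfLE hWU ≫ hU.isoSpec.hom =
    hW.isoSpec.hom ≫ Spec.map (CommRingCat.ofHom ψ.toRingHom)
  rw [homOfLE_isoSpec_hom hU hW hWU, hψ]
  rfl

/-! ### Transport of sheaves on `C_A` along a morphism to `Spec A` -/

section Transport

variable {A : Type u} [CommRing A] [Algebra k A]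

/-- The pullback to `C × T'` of a sheaf of modules on `C_A = C × Spec A`, along a morphism
`v : T' ⟶ Spec A` over `k`. -/
def trSheaf {T' : Scheme.{u}} {t' : T' ⟶ Spec (CommRingCat.of k)}
    (v : SchemeHomOver t' (specStr (k := k) A)) (M : (XA c A).Modules) :
    (pullback c t').Modules :=
  (Scheme.Modules.pullback (baseChangeSnd c v)).obj M

/-- Transport is functorial for isomorphisms. -/
def trSheafIso {T' : Scheme.{u}} {t' : T' ⟶ Spec (CommRingCat.of k)}
    (v : SchemeHomOver t' (specStr (k := k) A)) {M M' : (XA c A).Modules} (e : M ≅ M') :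
    trSheaf v M ≅ trSheaf v M' :=
  (Scheme.Modules.pullback (baseChangeSnd c v)).mapIso e

theorem isInvertible_trSheaf {T' : Scheme.{u}} {t' : T' ⟶ Spec (CommRingCat.of k)}
    (v : SchemeHomOver t' (specStr (k := k) A)) {M : (XA c A).Modules}
    (hM : Scheme.Modules.IsInvertible M) : Scheme.Modules.IsInvertible (trSheaf v M) :=
  hM.pullback _

/-- Transport followed by a further base change is transport along the composite. -/
def trSheafComp {T' T'' : Scheme.{u}} {t' : T' ⟶ Spec (CommRingCat.of k)}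
    {t'' : T'' ⟶ Spec (CommRingCat.of k)} (v : SchemeHomOver t' (specStr (k := k) A))
    (u : SchemeHomOver t'' t') (M : (XA c A).Modules) :
    (Scheme.Modules.pullback (baseChangeSnd c u)).obj (trSheaf v M) ≅
      trSheaf (postComp v u) M :=
  (Scheme.Modules.pullbackComp _ _).app M ≪≫
    (Scheme.Modules.pullbackCongr (baseChangeSnd_comp c v u)).app M

/-- Transport along equal morphisms. -/
def trSheafCongr {T' : Scheme.{u}} {t' : T' ⟶ Spec (CommRingCat.of k)}
    {v v' : SchemeHomOver t' (specStr (k := k) A)} (h : v = v') (M : (XA c A).Modules) :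
    trSheaf v M ≅ trSheaf v' M :=
  (Scheme.Modules.pullbackCongr (by rw [h])).app M

/-- The restriction to `C × V` of a sheaf transported to `C × U`, `V ≤ U` opens of `T`. -/
def resLETrSheaf {U V : T.Opens} (h : V ≤ U)
    (v : SchemeHomOver (U.ι ≫ t) (specStr (k := k) A)) (M : (XA c A).Modules) :
    resLE t h (trSheaf v M) ≅ trSheaf (postComp v (openInclLE t h)) M :=
  trSheafComp v (openInclLE t h) M

variable {A' : Type u} [CommRing A'] [Algebra k A']

/-- Transport of a base-changed sheaf: `v'^* (bcs ψ)^* M ≅ (Spec ψ ∘ v')^* M`. -/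
def trSheafBcs (ψ : A →ₐ[k] A') {T' : Scheme.{u}} {t' : T' ⟶ Spec (CommRingCat.of k)}
    (v' : SchemeHomOver t' (specStr (k := k) A')) (M : (XA c A).Modules) :
    trSheaf v' ((Scheme.Modules.pullback (bcs c ψ)).obj M) ≅
      trSheaf (postComp (specOver ψ) v') M :=
  (Scheme.Modules.pullbackComp _ _).app M ≪≫
    (Scheme.Modules.pullbackCongr (baseChangeSnd_comp c (specOver ψ) v')).app M

end Transport

/-! ### The charts of the curve -/

section Curve

open scoped Fermat.Agent.Jac.BaseChange75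

variable {ε : SchemeHomOver (𝟙 (Spec (CommRingCat.of k))) c} (cc : CurveCharts c ε)

theorem algebraMap_B0 : algebraMap k cc.B0 = secHom c cc.U0 := by
  ext x
  exact map_secHom c (le_top : cc.U0 ≤ ⊤) x

theorem algebraMap_B1 : algebraMap k cc.B1 = secHom c cc.U1 := by
  ext x
  exact map_secHom c (le_top : cc.U1 ≤ ⊤) x

theorem algebraMap_B01 : algebraMap k cc.B01 = secHom c (cc.U0 ⊓ cc.U1) := by
  ext x
  exact map_secHom c (le_top : cc.U0 ⊓ cc.U1 ≤ ⊤) x

theorem isAffineOpen_U01 : IsAffineOpen (cc.U0 ⊓ cc.U1) := by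
  rw [cc.inter0]
  exact cc.affine0.basicOpen cc.t

/-- The chart `U0 ≅ Spec B0`, over `k`. -/
def v0 : SchemeHomOver (cc.U0.ι ≫ c) (specStr (k := k) cc.B0) :=
  @chartHomOver k _ C c cc.U0 cc.affine0 (inferInstanceAs (Algebra k cc.B0)) (algebraMap_B0 cc)

/-- The chart `U1 ≅ Spec B1`, over `k`. -/
def v1 : SchemeHomOver (cc.U1.ι ≫ c) (specStr (k := k) cc.B1) :=
  @chartHomOver k _ C c cc.U1 cc.affine1 (inferInstanceAs (Algebra k cc.B1)) (algebraMap_B1 cc)

/-- The chart `U0 ⊓ U1 ≅ Spec B01`, over `k`. -/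
def v01 : SchemeHomOver ((cc.U0 ⊓ cc.U1).ι ≫ c) (specStr (k := k) cc.B01) :=
  @chartHomOver k _ C c (cc.U0 ⊓ cc.U1) (isAffineOpen_U01 cc)
    (inferInstanceAs (Algebra k cc.B01)) (algebraMap_B01 cc)

theorem v0_fst : (v0 cc).1 = cc.affine0.isoSpec.hom := rfl
theorem v1_fst : (v1 cc).1 = cc.affine1.isoSpec.hom := rfl
theorem v01_fst : (v01 cc).1 = (isAffineOpen_U01 cc).isoSpec.hom := rfl

theorem postComp_v0 :
    postComp (v0 cc) (openInclLE c (inf_le_left : cc.U0 ⊓ cc.U1 ≤ cc.U0)) =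
      postComp (specOver (IsScalarTower.toAlgHom k cc.B0 cc.B01)) (v01 cc) :=
  @postComp_chartHomOver k _ C c cc.U0 (cc.U0 ⊓ cc.U1) cc.affine0 (isAffineOpen_U01 cc)
    inf_le_left (inferInstanceAs (Algebra k cc.B0)) (inferInstanceAs (Algebra k cc.B01))
    (algebraMap_B0 cc) (algebraMap_B01 cc) (IsScalarTower.toAlgHom k cc.B0 cc.B01) rfl

theorem postComp_v1 :
    postComp (v1 cc) (openInclLE c (inf_le_right : cc.U0 ⊓ cc.U1 ≤ cc.U1)) =
      postComp (specOver (IsScalarTower.toAlgHom k cc.B1 cc.B01)) (v01 cc) :=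
  @postComp_chartHomOver k _ C c cc.U1 (cc.U0 ⊓ cc.U1) cc.affine1 (isAffineOpen_U01 cc)
    inf_le_right (inferInstanceAs (Algebra k cc.B1)) (inferInstanceAs (Algebra k cc.B01))
    (algebraMap_B1 cc) (algebraMap_B01 cc) (IsScalarTower.toAlgHom k cc.B1 cc.B01) rfl

/-! ### The overlap isomorphism from the dictionary -/

variable {cc} (D : AffineDictionary cc)

/-- **Overlap isomorphism.**  Dictionary sheaves `M0` over `B0` and `M1` over `B1` whose lines
become isomorphic after base change to `B01` give sheaves on `C × U0` and `C × U1` which are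
isomorphic over `C × (U0 ⊓ U1)`. -/
theorem overlap_iso {M0 : (XA c cc.B0).Modules} {M1 : (XA c cc.B1).Modules}
    {L0 : cc.QCA cc.B0} {L1 : cc.QCA cc.B1} (h0 : D.Corr cc.B0 M0 L0) (h1 : D.Corr cc.B1 M1 L1)
    {L0' L1' : cc.QCA cc.B01} (l0 : LiftData L0 L0') (l1 : LiftData L1 L1')
    (e : Nonempty (QC2.Iso L0' L1')) :
    Nonempty (resLE c (inf_le_left : cc.U0 ⊓ cc.U1 ≤ cc.U0) (trSheaf (v0 cc) M0) ≅
      resLE c (inf_le_right : cc.U0 ⊓ cc.U1 ≤ cc.U1) (trSheaf (v1 cc) M1)) := by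
  have c0 := D.baseChange h0 l0
  have c1 := D.baseChange h1 l1
  obtain ⟨f⟩ := (D.iso_iff c0 c1).mpr e
  exact ⟨resLETrSheaf c inf_le_left (v0 cc) M0 ≪≫ trSheafCongr (postComp_v0 cc) M0 ≪≫
    (trSheafBcs _ (v01 cc) M0).symm ≪≫ trSheafIso (v01 cc) f ≪≫ trSheafBcs _ (v01 cc) M1 ≪≫
    (trSheafCongr (postComp_v1 cc) M1).symm ≪≫ (resLETrSheaf c inf_le_right (v1 cc) M1).symm⟩

/-- **The glued rigidified bundle.**  Two lines `L0` over `B0`, `L1` over `B1` which become
isomorphic after base change to `B01` define a rigidified line bundle `M₀` on `C × C` over the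
base `T = C`, which is locally on the base the transport of the dictionary sheaves of `L0`, `L1`.
(The output is the input shape of `JGroup85Eval.lineClassPt_eval` with `u = openIncl c W` and
`v = postComp (v_a cc) (openInclLE c hW)`.) -/
theorem exists_rigidified_of_lines (hS : ClassesIsSheaf c ε) {L0 : cc.QCA cc.B0}
    {L1 : cc.QCA cc.B1} (hL0 : L0.IsLine) (hL1 : L1.IsLine) {L0' L1' : cc.QCA cc.B01}
    (l0 : LiftData L0 L0') (l1 : LiftData L1 L1') (e : Nonempty (QC2.Iso L0' L1')) :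
    ∃ (M0 : (XA c cc.B0).Modules) (M1 : (XA c cc.B1).Modules)
      (M₀ : RigidifiedLineBundle c ε c), D.Corr cc.B0 M0 L0 ∧ D.Corr cc.B1 M1 L1 ∧ ∀ x : C,
        (∃ (W : C.Opens) (hW : W ≤ cc.U0), x ∈ W ∧ Nonempty ((restrictOpen M₀ W).L ≅
          trSheaf (postComp (v0 cc) (openInclLE c hW)) M0)) ∨
        (∃ (W : C.Opens) (hW : W ≤ cc.U1), x ∈ W ∧ Nonempty ((restrictOpen M₀ W).L ≅
          trSheaf (postComp (v1 cc) (openInclLE c hW)) M1)) := by
  obtain ⟨M0, h0⟩ := D.exists_sheaf L0 hL0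
  obtain ⟨M1, h1⟩ := D.exists_sheaf L1 hL1
  obtain ⟨M₀, hM₀⟩ := exists_rigidified_of_two (ε := ε) c hS cc.U0 cc.U1 cc.cover
    (trSheaf (v0 cc) M0) (trSheaf (v1 cc) M1) (isInvertible_trSheaf _ (D.isInvertible h0))
    (isInvertible_trSheaf _ (D.isInvertible h1)) (overlap_iso D h0 h1 l0 l1 e)
  refine ⟨M0, M1, M₀, h0, h1, fun x => ?_⟩
  rcases hM₀ x with ⟨W, hW, hxW, ⟨f⟩⟩ | ⟨W, hW, hxW, ⟨f⟩⟩
  · exact Or.inl ⟨W, hW, hxW, ⟨f ≪≫ resLETrSheaf c hW (v0 cc) M0⟩⟩
  · exact Or.inr ⟨W, hW, hxW, ⟨f ≪≫ resLETrSheaf c hW (v1 cc) M1⟩⟩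

end Curve

end Fermat.Agent.Jac.ChartTransport40
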