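import Mathlib
import Fermat.Agent.Jac.JGroup85Law

/-!
# JAC bricks Q1/Q2: API for the class-level group law  (helper85)

The group law `JGroup85Std.classGroupLaw` at an affine test scheme `t : Spec B ⟶ Spec k` is defined
through the `k`-algebra structure `algOfHom t` on `B`.  This file shows that it can be computed with
ANY `k`-algebra structure `inst` on `B` such that `specStr B = t` (in particular with `Algebra.id k`
for `t = 𝟙 (Spec k)`), and specialises to the group law of `JGroup85Law`:

* `algebra_eq_algOfHom`, `classGroupLaw_mul_eq`, `classGroupLaw_one_eq`, `classGroupLaw_inv_eq`;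
* `lineClass D P Q h : PClass P t → LinePic (cc.chartA B)` for `h : specStr B = t`: injective,
  multiplicative for `(JGroup85Law.classGroupLaw D P Q).mul t`, with range `pic D P Q B`;
  `lineClass_mk` computes it on representatives;
* `specStr_self : specStr k = 𝟙 (Spec k)` (for `Algebra.id k`), so that
  `lineClass D P Q specStr_self` is the bridge over `Spec k` at the STANDARD algebra structure.
-/

set_option autoImplicit false
set_option linter.style.haveILetI false
set_option linter.unusedSectionVars false

noncomputable section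

universe u

open CategoryTheory CategoryTheory.Limits AlgebraicGeometry AlgebraicGeometry.RelPicard
  NeronModelInfra GoodReductionJacobian TensorProduct

namespace Fermat.Agent.Jac.JGroup85Api

open scoped Fermat.Agent.Jac.BaseChange75
open PointsBridge79 PointsBridge79Shell BridgeCharts33 JSmooth85Alg BaseChange75 LineOps39
  JGroup85Pic JGroup85Rig JGroup85Law JGroup85Std

variable {k : Type u} [Field k] {C : Scheme.{u}} {c : C ⟶ Spec (CommRingCat.of k)}
  {ε : SchemeHomOver (𝟙 (Spec (CommRingCat.of k))) c}

/-- A `k`-algebra structure on `B` whose structure morphism is `t` is the one attached to `t`. -/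
theorem algebra_eq_algOfHom {B : CommRingCat.{u}} (t : Spec B ⟶ Spec (CommRingCat.of k))
    (inst : Algebra k B) (h : specStr (k := k) B = t) : inst = algOfHom t := by
  subst h
  apply Algebra.algebra_ext
  intro r
  have h1 : Spec.preimage (specStr (k := k) B) = CommRingCat.ofHom (algebraMap k B) :=
    Spec.preimage_map _
  show algebraMap k B r = (Spec.preimage (specStr (k := k) B)).hom r
  rw [h1]
  rfl

section Std

variable (P : SubPicCondition c ε)
  (G : ∀ (A : Type u) [CommRing A] [Algebra k A], Type (u + 1))
  [hG : ∀ (A : Type u) [CommRing A] [Algebra k A], Group (G A)]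
  (β : ∀ (A : Type u) [CommRing A] [Algebra k A], PClass P (specStr (k := k) A) ≃ G A)
  (bc : ∀ (A A' : Type u) [CommRing A] [Algebra k A] [CommRing A'] [Algebra k A'] [Algebra A A']
    [IsScalarTower k A A'], G A →* G A')
  (hnat : ∀ (A A' : Type u) [CommRing A] [Algebra k A] [CommRing A'] [Algebra k A']
    [Algebra A A'] [IsScalarTower k A A'] (ξ : PClass P (specStr (k := k) A)),
    β A' (PClass.map P (specOver (IsScalarTower.toAlgHom k A A')) ξ) = bc A A' (β A ξ))

theorem classGroupLaw_mul_eq {B : CommRingCat.{u}} (t : Spec B ⟶ Spec (CommRingCat.of k))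
    [inst : Algebra k B] (h : specStr (k := k) B = t) (x y : PClass P t) :
    (JGroup85Std.classGroupLaw P G β bc hnat).mul t x y =
      (stdEquiv P h).symm ((β B).symm (β B (stdEquiv P h x) * β B (stdEquiv P h y))) := by
  obtain rfl := algebra_eq_algOfHom t inst h
  rfl

theorem classGroupLaw_one_eq {B : CommRingCat.{u}} (t : Spec B ⟶ Spec (CommRingCat.of k))
    [inst : Algebra k B] (h : specStr (k := k) B = t) :
    (JGroup85Std.classGroupLaw P G β bc hnat).one t = (stdEquiv P h).symm ((β B).symm 1) := by
  obtain rfl := algebra_eq_algOfHom t inst h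
  rfl

theorem classGroupLaw_inv_eq {B : CommRingCat.{u}} (t : Spec B ⟶ Spec (CommRingCat.of k))
    [inst : Algebra k B] (h : specStr (k := k) B = t) (x : PClass P t) :
    (JGroup85Std.classGroupLaw P G β bc hnat).inv t x =
      (stdEquiv P h).symm ((β B).symm (β B (stdEquiv P h x))⁻¹) := by
  obtain rfl := algebra_eq_algOfHom t inst h
  rfl

end Std

section Law

variable {cc : CurveCharts c ε} (D : AffineDictionary cc) (P : SubPicCondition c ε)
  (Q : CutAlg cc D P)

variable {B : Type u} [CommRing B] [Algebra k B]
  {t : Spec (CommRingCat.of B) ⟶ Spec (CommRingCat.of k)} (h : specStr (k := k) B = t)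

/-- The class of lines attached to a class over `t`, computed with any `k`-algebra structure on
`B` whose structure morphism is `t`. -/
def lineClass (ξ : PClass P t) : LinePic (cc.chartA B) :=
  Subtype.val (p := (· ∈ pic D P Q B)) (beta D P Q B (stdEquiv P h ξ))

theorem lineClass_mem (ξ : PClass P t) : lineClass D P Q h ξ ∈ pic D P Q B :=
  Subtype.property (p := (· ∈ pic D P Q B)) (beta D P Q B (stdEquiv P h ξ))

theorem lineClass_injective : Function.Injective (lineClass D P Q h) := by
  intro ξ η he
  apply (stdEquiv P h).injective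
  apply (beta D P Q B).injective
  exact Subtype.ext he

theorem exists_lineClass_eq (x : LinePic (cc.chartA B)) (hx : x ∈ pic D P Q B) :
    ∃ ξ : PClass P t, lineClass D P Q h ξ = x := by
  let y : G D P Q B := (⟨x, hx⟩ : ↥(pic D P Q B))
  refine ⟨(stdEquiv P h).symm ((beta D P Q B).symm y), ?_⟩
  unfold lineClass
  rw [Equiv.apply_symm_apply, Equiv.apply_symm_apply]

theorem lineClass_mul (ξ η : PClass P t) :
    lineClass D P Q h ((JGroup85Law.classGroupLaw D P Q).mul (B := CommRingCat.of B) t ξ η) =
      lineClass D P Q h ξ * lineClass D P Q h η := by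
  unfold lineClass JGroup85Law.classGroupLaw
  rw [classGroupLaw_mul_eq P _ _ _ _ (B := CommRingCat.of B) t h, Equiv.apply_symm_apply,
    Equiv.apply_symm_apply]
  rfl

theorem lineClass_one :
    lineClass D P Q h ((JGroup85Law.classGroupLaw D P Q).one (B := CommRingCat.of B) t) = 1 := by
  unfold lineClass JGroup85Law.classGroupLaw
  rw [classGroupLaw_one_eq P _ _ _ _ (B := CommRingCat.of B) t h, Equiv.apply_symm_apply,
    Equiv.apply_symm_apply]
  rfl

theorem lineClass_inv (ξ : PClass P t) :
    lineClass D P Q h ((JGroup85Law.classGroupLaw D P Q).inv (B := CommRingCat.of B) t ξ) =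
      (lineClass D P Q h ξ)⁻¹ := by
  unfold lineClass JGroup85Law.classGroupLaw
  rw [classGroupLaw_inv_eq P _ _ _ _ (B := CommRingCat.of B) t h, Equiv.apply_symm_apply,
    Equiv.apply_symm_apply]
  rfl

/-- `lineClass` on representatives: the class of any line corresponding to the pullback of the
bundle to the standard test scheme. -/
theorem lineClass_mk (M : RigidifiedLineBundle c ε t) (hM : P.P t M) {L : cc.QCA B}
    (hC : D.Corr B (M.pullbackAlong (toStd h)).L L) :
    lineClass D P Q h (PClass.mk P t M hM) = LinePic.mk (cc.chartA B) L (D.isLine hC) := by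
  unfold lineClass
  rw [stdEquiv_apply, PClass.map_mk]
  show Subtype.val (toG D P Q _) = _
  rw [toG_mk D P Q _ _ hC]
  rfl

end Law

/-- For the standard algebra structure of `k` over itself, `specStr k` is the identity. -/
theorem specStr_self : specStr (k := k) k = 𝟙 (Spec (CommRingCat.of k)) := by
  unfold specStr
  have : CommRingCat.ofHom (algebraMap k k) = 𝟙 (CommRingCat.of k) := rfl
  rw [this, Spec.map_id]

section Point

variable {cc : CurveCharts c ε} (D : AffineDictionary cc) (P : SubPicCondition c ε)
  (Q : CutAlg cc D P)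

/-- **The bridge over `Spec k`** (standard algebra structure `Algebra.id k`): classes in the cut
over `Spec k` as classes of lines over `(k, k ⊗[k] B0, k ⊗[k] B1, k ⊗[k] B01)`. -/
def lineClassPt (ξ : PClass P (𝟙 (Spec (CommRingCat.of k)))) : LinePic (cc.chartA k) :=
  lineClass D P Q (B := k) specStr_self ξ

theorem lineClassPt_injective : Function.Injective (lineClassPt D P Q) :=
  lineClass_injective D P Q specStr_self

theorem lineClassPt_mul (ξ η : PClass P (𝟙 (Spec (CommRingCat.of k)))) :
    lineClassPt D P Q ((JGroup85Law.classGroupLaw D P Q).mul (𝟙 (Spec (CommRingCat.of k))) ξ η) =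
      lineClassPt D P Q ξ * lineClassPt D P Q η :=
  lineClass_mul D P Q specStr_self ξ η

theorem lineClassPt_one :
    lineClassPt D P Q ((JGroup85Law.classGroupLaw D P Q).one (𝟙 (Spec (CommRingCat.of k)))) = 1 :=
  lineClass_one D P Q specStr_self

theorem lineClassPt_inv (ξ : PClass P (𝟙 (Spec (CommRingCat.of k)))) :
    lineClassPt D P Q ((JGroup85Law.classGroupLaw D P Q).inv (𝟙 (Spec (CommRingCat.of k))) ξ) =
      (lineClassPt D P Q ξ)⁻¹ :=
  lineClass_inv D P Q specStr_self ξ

theorem lineClassPt_mem (ξ : PClass P (𝟙 (Spec (CommRingCat.of k)))) :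
    lineClassPt D P Q ξ ∈ pic D P Q k :=
  lineClass_mem D P Q specStr_self ξ

theorem exists_lineClassPt_eq (x : LinePic (cc.chartA k)) (hx : x ∈ pic D P Q k) :
    ∃ ξ : PClass P (𝟙 (Spec (CommRingCat.of k))), lineClassPt D P Q ξ = x :=
  exists_lineClass_eq D P Q specStr_self x hx

theorem lineClassPt_mk (M : RigidifiedLineBundle c ε (𝟙 (Spec (CommRingCat.of k))))
    (hM : P.P (𝟙 (Spec (CommRingCat.of k))) M) {L : cc.QCA k}
    (hC : D.Corr k (M.pullbackAlong (toStd (B := k) specStr_self)).L L) :
    lineClassPt D P Q (PClass.mk P _ M hM) = LinePic.mk (cc.chartA k) L (D.isLine hC) :=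
  lineClass_mk D P Q specStr_self M hM hC

end Point

end Fermat.Agent.Jac.JGroup85Api

end
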