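import Mathlib
import Fermat.Agent.Jac.JGroup85Api

/-!
# JAC brick Q3, class level: evaluation of a class at a point through an affine chart  (helper85)

Let `M₀` be a rigidified line bundle over `t : T ⟶ Spec k` (e.g. the glued bundle `M_Δ` over the
curve itself).  Suppose that on some scheme `t' : T' ⟶ Spec k` mapping to `T` (`u`, e.g. an open
`W ⊆ T`) and to an affine scheme `Spec A` (`v`, e.g. `W ⊆ U_a ≅ Spec B_a`) the pullback of `M₀`
is the pullback of a sheaf `M_A` on `C_A` with dictionary line `L`.  Then the value of the class of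
`M₀` at an `A'`-point factoring through `T'` corresponds to any base change `L'` of `L`
(`LiftData L L'`) :

* `corr_postComp`, `corr_eval` : the statements on the level of `D.Corr`;
* `lineClass_eval`, `lineClassPt_eval` : the statements on the level of `JGroup85Api.lineClass`
  (the bridge `β` of the class-level group law), the second one at a `k`-point with the standard
  algebra structure `Algebra.id k`.
-/

set_option autoImplicit false
set_option linter.style.haveILetI false
set_option linter.unusedSectionVars false

noncomputable section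

universe u

open CategoryTheory CategoryTheory.Limits AlgebraicGeometry AlgebraicGeometry.RelPicard
  NeronModelInfra GoodReductionJacobian TensorProduct

namespace Fermat.Agent.Jac.JGroup85Eval

open scoped Fermat.Agent.Jac.BaseChange75
open PointsBridge79 PointsBridge79Shell BridgeCharts33 JSmooth85Alg BaseChange75 LineOps39
  JGroup85Pic JGroup85Rig JGroup85Law JGroup85Std JGroup85Api

variable {k : Type u} [Field k] {C : Scheme.{u}} {c : C ⟶ Spec (CommRingCat.of k)}
  {ε : SchemeHomOver (𝟙 (Spec (CommRingCat.of k))) c}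

/-! ### Iterated pullbacks of sheaves of modules along base changes -/

/-- Iterated pullback of sheaves of modules along base changes of the curve. -/
def pullbackBcsComp {X X' T' : Scheme.{u}} {x : X ⟶ Spec (CommRingCat.of k)}
    {x' : X' ⟶ Spec (CommRingCat.of k)} {t' : T' ⟶ Spec (CommRingCat.of k)}
    (N : (pullback c x').Modules) (φ : SchemeHomOver x x') (ψ : SchemeHomOver t' x) :
    (Scheme.Modules.pullback (baseChangeSnd c (postComp φ ψ))).obj N ≅
      (Scheme.Modules.pullback (baseChangeSnd c ψ)).obj
        ((Scheme.Modules.pullback (baseChangeSnd c φ)).obj N) :=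
  (Scheme.Modules.pullbackCongr (baseChangeSnd_comp c φ ψ).symm).app N ≪≫
    ((Scheme.Modules.pullbackComp _ _).app N).symm

section Corr

variable {cc : CurveCharts c ε} (D : AffineDictionary cc)

variable {A A' : Type u} [CommRing A] [Algebra k A] [CommRing A'] [Algebra k A'] [Algebra A A']
  [IsScalarTower k A A']

/-- The pullback of a rigidified bundle along `Spec A' ⟶ Spec A ⟶ T` corresponds to the chartwise
base change of the line of its pullback along `Spec A ⟶ T`. -/
theorem corr_postComp {T : Scheme.{u}} {t : T ⟶ Spec (CommRingCat.of k)}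
    (M : RigidifiedLineBundle c ε t) (j : SchemeHomOver (specStr (k := k) A) t) {L : cc.QCA A}
    {L' : cc.QCA A'} (hC : D.Corr A (M.pullbackAlong j).L L) (hl : LiftData L L') :
    D.Corr A' (M.pullbackAlong (postComp j (specOver (IsScalarTower.toAlgHom k A A')))).L L' :=
  D.congr_sheaf (D.baseChange hC hl) (pullbackAlong_postComp M j _).some.symm

/-- **Evaluation through a chart, dictionary level.**  If the pullback of `M₀` to `T'` is the
pullback of a sheaf `M_A` on `C_A` with line `L`, then the pullback of `M₀` along an `A'`-point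
factoring through `T'` has line any base change `L'` of `L`. -/
theorem corr_eval {T T' : Scheme.{u}} {t : T ⟶ Spec (CommRingCat.of k)}
    {t' : T' ⟶ Spec (CommRingCat.of k)} (M₀ : RigidifiedLineBundle c ε t)
    (u : SchemeHomOver t' t) (v : SchemeHomOver t' (specStr (k := k) A))
    (MA : (XA c A).Modules) {L : cc.QCA A} (hC : D.Corr A MA L)
    (e : Nonempty ((M₀.pullbackAlong u).L ≅ (Scheme.Modules.pullback (baseChangeSnd c v)).obj MA))
    (s' : SchemeHomOver (specStr (k := k) A') t')
    (hv : s'.1 ≫ v.1 = Spec.map (CommRingCat.ofHom (algebraMap A A')))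
    (s : SchemeHomOver (specStr (k := k) A') t) (hs : s.1 = s'.1 ≫ u.1)
    {L' : cc.QCA A'} (hl : LiftData L L') :
    D.Corr A' (M₀.pullbackAlong s).L L' := by
  have h1 : postComp v s' = specOver (IsScalarTower.toAlgHom k A A') := Subtype.ext hv
  have h2 : s = postComp u s' := Subtype.ext hs
  have hbase := D.baseChange (A' := A') hC hl
  rw [show bcs c (IsScalarTower.toAlgHom k A A') = baseChangeSnd c (postComp v s') by
    rw [h1]] at hbase
  rw [h2]
  refine D.congr_sheaf hbase ?_
  exact pullbackBcsComp MA v s' ≪≫
    ((Scheme.Modules.pullback (baseChangeSnd c s')).mapIso e.some).symm ≪≫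
    (pullbackAlong_postComp M₀ u s').some.symm

end Corr

section Class

variable {cc : CurveCharts c ε} (D : AffineDictionary cc) (P : SubPicCondition c ε)
  (Q : CutAlg cc D P)

variable {A A' : Type u} [CommRing A] [Algebra k A] [CommRing A'] [Algebra k A'] [Algebra A A']
  [IsScalarTower k A A']

/-- **Evaluation through a chart, class level.**  `t₁` is any structure morphism of `Spec A'`
with `specStr A' = t₁`. -/
theorem lineClass_eval {T T' : Scheme.{u}} {t : T ⟶ Spec (CommRingCat.of k)}
    {t' : T' ⟶ Spec (CommRingCat.of k)} (M₀ : RigidifiedLineBundle c ε t) (hM₀ : P.P t M₀)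
    (u : SchemeHomOver t' t) (v : SchemeHomOver t' (specStr (k := k) A))
    (MA : (XA c A).Modules) {L : cc.QCA A} (hC : D.Corr A MA L)
    (e : Nonempty ((M₀.pullbackAlong u).L ≅ (Scheme.Modules.pullback (baseChangeSnd c v)).obj MA))
    {t₁ : Spec (CommRingCat.of A') ⟶ Spec (CommRingCat.of k)} (h : specStr (k := k) A' = t₁)
    (s' : SchemeHomOver t₁ t')
    (hv : s'.1 ≫ v.1 = Spec.map (CommRingCat.ofHom (algebraMap A A')))
    (s : SchemeHomOver t₁ t) (hs : s.1 = s'.1 ≫ u.1)
    {L' : cc.QCA A'} (hl : LiftData L L') :
    lineClass D P Q h (PClass.map P s (PClass.mk P t M₀ hM₀)) =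
      LinePic.mk (cc.chartA A') L' (BaseChange75.LiftData.isLine hl (D.isLine hC)) := by
  rw [PClass.map_mk]
  have hcorr : D.Corr A' ((M₀.pullbackAlong s).pullbackAlong (toStd h)).L L' := by
    refine D.congr_sheaf (corr_eval D M₀ u v MA hC e (postComp s' (toStd h)) ?_
      (postComp s (toStd h)) ?_ hl) (pullbackAlong_postComp M₀ s (toStd h)).some
    · show ((toStd h).1 ≫ s'.1) ≫ v.1 = _
      rw [← hv]
      simp [toStd]
    · show (toStd h).1 ≫ s.1 = ((toStd h).1 ≫ s'.1) ≫ u.1
      rw [hs]
      simp [toStd]
  exact lineClass_mk D P Q h _ _ hcorr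

/-- **Evaluation at a `k`-point through a chart.**  The `k`-algebra structure on `k` is the
standard one, `A → k` is any `k`-algebra structure (e.g. `φ.toAlgebra` for `φ : A →ₐ[k] k`). -/
theorem lineClassPt_eval [Algebra A k] [IsScalarTower k A k] {T T' : Scheme.{u}}
    {t : T ⟶ Spec (CommRingCat.of k)} {t' : T' ⟶ Spec (CommRingCat.of k)}
    (M₀ : RigidifiedLineBundle c ε t) (hM₀ : P.P t M₀)
    (u : SchemeHomOver t' t) (v : SchemeHomOver t' (specStr (k := k) A))
    (MA : (XA c A).Modules) {L : cc.QCA A} (hC : D.Corr A MA L)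
    (e : Nonempty ((M₀.pullbackAlong u).L ≅ (Scheme.Modules.pullback (baseChangeSnd c v)).obj MA))
    (s' : SchemeHomOver (𝟙 (Spec (CommRingCat.of k))) t')
    (hv : s'.1 ≫ v.1 = Spec.map (CommRingCat.ofHom (algebraMap A k)))
    (s : SchemeHomOver (𝟙 (Spec (CommRingCat.of k))) t) (hs : s.1 = s'.1 ≫ u.1)
    {L' : cc.QCA k} (hl : LiftData L L') :
    lineClassPt D P Q (PClass.map P s (PClass.mk P t M₀ hM₀)) =
      LinePic.mk (cc.chartA k) L' (BaseChange75.LiftData.isLine hl (D.isLine hC)) :=
  lineClass_eval D P Q M₀ hM₀ u v MA hC e specStr_self s' hv s hs hl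

end Class

end Fermat.Agent.Jac.JGroup85Eval

end
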