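import Mathlib
import Fermat.Agent.Jac.JGroup85Eval
import Fermat.Agent.Jac.CurveHyp80.Points
import Fermat.Agent.Jac.RepInterface

/-!
# JAC brick Q3, class level: evaluation at a `k`-point of the curve through the charts  (helper85)

Specialisation of `JGroup85Eval.lineClassPt_eval` to the shape produced by
`RigidifyShrink40.exists_rigidified_of_local` for the curve itself (`T = C`, `t = c`), with the
charts `U_a ≅ Spec B_a` (`chartStr0`, `chartStr1`):

* `exists_lift_open` : a `k`-point whose image lies in an open `W` factors through `W`;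
* `exists_algHom_of_point`, `isScalarTower_toAlgebra`, `eq_SpecMap_appLE_fromSpec` : `k`-points of
  affine schemes and `k`-algebra homomorphisms to `k`;
* `lineClassPt_eval_open` : evaluation at a `k`-point lying in an open `W ≤ V` over which `M₀` is
  the restriction of the pullback of a dictionary sheaf along `V ⟶ Spec A`;
* `lineClassPt_eval_chart0`, `lineClassPt_eval_chart1` : the same for the two charts of the curve,
  the `k`-algebra structure `B_a → k` being evaluation at the point
  (`CurveHyp80.evalAlg0`, `CurveHyp80.evalAlg1`).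
-/

set_option autoImplicit false
set_option linter.style.haveILetI false
set_option linter.unusedSectionVars false

noncomputable section

universe u

open CategoryTheory CategoryTheory.Limits AlgebraicGeometry AlgebraicGeometry.RelPicard
  NeronModelInfra GoodReductionJacobian TensorProduct

namespace Fermat.Agent.Jac.JGroup85Eval

open scoped Fermat.Agent.Jac.BaseChange75
open PointsBridge79 PointsBridge79Shell BridgeCharts33 JSmooth85Alg BaseChange75 LineOps39
  JGroup85Pic JGroup85Rig JGroup85Law JGroup85Std JGroup85Api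

variable {k : Type u} [Field k] {C : Scheme.{u}} {c : C ⟶ Spec (CommRingCat.of k)}
  {ε : SchemeHomOver (𝟙 (Spec (CommRingCat.of k))) c}

/-! ### `k`-points -/

/-- A `k`-point of `T` whose image lies in the open `W` factors through `W`. -/
theorem exists_lift_open {T : Scheme.{u}} (s : Spec (CommRingCat.of k) ⟶ T) (W : T.Opens)
    (p : Spec (CommRingCat.of k)) (hp : s p ∈ W) :
    ∃ s' : Spec (CommRingCat.of k) ⟶ W.toScheme, s' ≫ W.ι = s := by
  have hsub : Set.range s ⊆ Set.range W.ι := by
    rintro _ ⟨q, rfl⟩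
    have hq : q = p := by
      haveI : Subsingleton (PrimeSpectrum k) := inferInstance
      exact Subsingleton.elim (α := PrimeSpectrum k) q p
    rw [hq, Scheme.Opens.range_ι]
    exact hp
  exact ⟨IsOpenImmersion.lift W.ι s hsub, IsOpenImmersion.lift_fac _ _ _⟩

/-- A `k`-point of `Spec A` over `k` is `Spec` of a `k`-algebra homomorphism `A → k`. -/
theorem exists_algHom_of_point {A : Type u} [CommRing A] [Algebra k A]
    (y : Spec (CommRingCat.of k) ⟶ Spec (CommRingCat.of A))
    (hy : y ≫ specStr (k := k) A = 𝟙 _) :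
    ∃ φ : A →ₐ[k] k, y = Spec.map (CommRingCat.ofHom φ.toRingHom) := by
  have h1 : CommRingCat.ofHom (algebraMap k A) ≫ Spec.preimage y = 𝟙 (CommRingCat.of k) := by
    apply Spec.map_injective
    rw [Spec.map_comp, Spec.map_preimage, Spec.map_id]
    exact hy
  refine ⟨{ (Spec.preimage y).hom with
    commutes' := fun r => congrArg (fun f => f.hom r) h1 }, ?_⟩
  exact (Spec.map_preimage y).symm

/-- The scalar tower `k → A → k` for the algebra structure given by a `k`-algebra homomorphism. -/
theorem isScalarTower_toAlgebra {A : Type u} [CommRing A] [Algebra k A] (φ : A →ₐ[k] k) :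
    letI := φ.toRingHom.toAlgebra
    IsScalarTower k A k := by
  letI := φ.toRingHom.toAlgebra
  exact IsScalarTower.of_algebraMap_eq fun r => (φ.commutes r).symm

/-- A `k`-point lying in an affine open `U` is `Spec` of the evaluation `Γ(C, U) → k` followed by
the inclusion of `U`. -/
theorem eq_SpecMap_appLE_fromSpec {X : Scheme.{u}} (x : Spec (CommRingCat.of k) ⟶ X)
    {U : X.Opens} (hU : IsAffineOpen U) (hx : x ⁻¹ᵁ U = ⊤) :
    x = Spec.map (x.appLE U ⊤ (by rw [hx]) ≫ (Scheme.ΓSpecIso (CommRingCat.of k)).hom) ≫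
      hU.fromSpec := by
  rw [Spec.map_comp, Category.assoc,
    IsAffineOpen.SpecMap_appLE_fromSpec x hU (isAffineOpen_top _), IsAffineOpen.fromSpec_top,
    Scheme.isoSpec_Spec_inv, ← Category.assoc, ← Spec.map_comp, Iso.inv_hom_id, Spec.map_id,
    Category.id_comp]

/-! ### Evaluation at a `k`-point lying in an open of the base -/

section Open

variable {cc : CurveCharts c ε} (D : AffineDictionary cc) (P : SubPicCondition c ε)
  (Q : CutAlg cc D P)

variable {A : Type u} [CommRing A] [Algebra k A]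

/-- **Evaluation at a `k`-point lying in an open `W ≤ V`** over which `M₀` is the restriction of
the pullback along `V ⟶ Spec A` of a sheaf `MA` on `C_A` with line `L`. -/
theorem lineClassPt_eval_open [Algebra A k] [IsScalarTower k A k] {T : Scheme.{u}}
    {t : T ⟶ Spec (CommRingCat.of k)} (M₀ : RigidifiedLineBundle c ε t) (hM₀ : P.P t M₀)
    {V W : T.Opens} (hW : W ≤ V) (ja : SchemeHomOver (V.ι ≫ t) (specStr (k := k) A))
    (MA : (XA c A).Modules) {L : cc.QCA A} (hC : D.Corr A MA L)
    (e : Nonempty ((restrictOpen M₀ W).L ≅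
      (Scheme.Modules.pullback (baseChangeSnd c (openInclLE t hW))).obj
        ((Scheme.Modules.pullback (baseChangeSnd c ja)).obj MA)))
    (s : SchemeHomOver (𝟙 (Spec (CommRingCat.of k))) t)
    (s' : Spec (CommRingCat.of k) ⟶ W.toScheme) (hs : s' ≫ W.ι = s.1)
    (hv : s' ≫ T.homOfLE hW ≫ ja.1 = Spec.map (CommRingCat.ofHom (algebraMap A k)))
    {L' : cc.QCA k} (hl : LiftData L L') (hL' : L'.IsLine) :
    lineClassPt D P Q (PClass.map P s (PClass.mk P t M₀ hM₀)) =
      LinePic.mk (cc.chartA k) L' hL' := by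
  have hs2 : s' ≫ W.ι ≫ t = 𝟙 _ := by rw [← Category.assoc, hs, s.2]
  exact lineClassPt_eval D P Q M₀ hM₀ (openIncl t W) (postComp ja (openInclLE t hW)) MA hC
    ⟨e.some ≪≫ (pullbackBcsComp MA ja (openInclLE t hW)).symm⟩
    (⟨s', hs2⟩ : SchemeHomOver (𝟙 (Spec (CommRingCat.of k))) (W.ι ≫ t)) hv s hs.symm hl

end Open

/-! ### The two charts of the curve -/

section Charts

variable (cc : CurveCharts c ε)

/-- The chart `U0 ≅ Spec B0` as a morphism over `Spec k`. -/
def chartStr0 : SchemeHomOver (cc.U0.ι ≫ c) (specStr (k := k) cc.B0) :=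
  ⟨cc.affine0.isoSpec.hom, by
    rw [IsAffineOpen.isoSpec_hom, ← FiniteToLine80.toSpecΓ_SpecMap_kToSection c cc.U0]
    unfold specStr
    congr 2
    change CommRingCat.ofHom cc.cover0.str0 = _
    rw [CurveHyp80.str0_eq]
    rfl⟩

/-- The chart `U1 ≅ Spec B1` as a morphism over `Spec k`. -/
def chartStr1 : SchemeHomOver (cc.U1.ι ≫ c) (specStr (k := k) cc.B1) :=
  ⟨cc.affine1.isoSpec.hom, by
    rw [IsAffineOpen.isoSpec_hom, ← FiniteToLine80.toSpecΓ_SpecMap_kToSection c cc.U1]
    unfold specStr
    congr 2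
    change CommRingCat.ofHom cc.cover0.str1 = _
    rw [CurveHyp80.str1_eq]
    rfl⟩

theorem chartStr0_fst : (chartStr0 cc).1 = cc.affine0.isoSpec.hom := rfl

theorem chartStr1_fst : (chartStr1 cc).1 = cc.affine1.isoSpec.hom := rfl

/-- The factorisation of a `k`-point lying in `W ≤ U`, `U` affine, through `Spec Γ(C, U)`. -/
theorem lift_comp_isoSpec {X : Scheme.{u}} (x : Spec (CommRingCat.of k) ⟶ X) {U W : X.Opens}
    (hU : IsAffineOpen U) (hW : W ≤ U) (hx : x ⁻¹ᵁ U = ⊤)
    (s' : Spec (CommRingCat.of k) ⟶ W.toScheme) (hs : s' ≫ W.ι = x) :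
    s' ≫ X.homOfLE hW ≫ hU.isoSpec.hom =
      Spec.map (x.appLE U ⊤ (by rw [hx]) ≫ (Scheme.ΓSpecIso (CommRingCat.of k)).hom) := by
  have h1 : (s' ≫ X.homOfLE hW) ≫ U.ι =
      (Spec.map (x.appLE U ⊤ (by rw [hx]) ≫ (Scheme.ΓSpecIso (CommRingCat.of k)).hom) ≫
        hU.isoSpec.inv) ≫ U.ι := by
    rw [Category.assoc, Scheme.homOfLE_ι, hs, Category.assoc, IsAffineOpen.isoSpec_inv_ι]
    exact eq_SpecMap_appLE_fromSpec x hU hx
  have h2 := (cancel_mono U.ι).1 h1
  rw [← Category.assoc, h2, Category.assoc, Iso.inv_hom_id, Category.comp_id]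

variable {cc} (D : AffineDictionary cc) (P : SubPicCondition c ε) (Q : CutAlg cc D P)

/-- **Evaluation at a `k`-point of the first chart.**  `W ≤ U0` is an open containing the point
over which `M₀` is the restriction of the dictionary sheaf `MA` over `B0` (line `L`), transported
along any `ja : U0 ⟶ Spec B0` over `k` whose underlying morphism is `isoSpec`; the value
of the class of `M₀` at `x` is the class of any base change `L'` of `L` along the evaluation
`B0 → k` at `x`. -/
theorem lineClassPt_eval_chart0 (M₀ : RigidifiedLineBundle c ε c) (hM₀ : P.P c M₀)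
    (MA : (XA c cc.B0).Modules) {L : cc.QCA cc.B0} (hC : D.Corr cc.B0 MA L)
    {W : C.Opens} (hW : W ≤ cc.U0)
    (ja : SchemeHomOver (cc.U0.ι ≫ c) (specStr (k := k) cc.B0))
    (hja : ja.1 = cc.affine0.isoSpec.hom)
    (e : Nonempty ((restrictOpen M₀ W).L ≅
      (Scheme.Modules.pullback (baseChangeSnd c (openInclLE c hW))).obj
        ((Scheme.Modules.pullback (baseChangeSnd c ja)).obj MA)))
    (x : SchemeHomOver (𝟙 (Spec (CommRingCat.of k))) c) (p : Spec (CommRingCat.of k))
    (hp : x.1 p ∈ W) (hx : x.1 ⁻¹ᵁ cc.U0 = ⊤) {L' : cc.QCA k} (hL' : L'.IsLine)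
    (hl : letI := (CurveHyp80.evalAlg0 cc x hx).toRingHom.toAlgebra
      LiftData L L') :
    lineClassPt D P Q (PClass.map P x (PClass.mk P c M₀ hM₀)) =
      LinePic.mk (cc.chartA k) L' hL' := by
  letI := (CurveHyp80.evalAlg0 cc x hx).toRingHom.toAlgebra
  haveI : IsScalarTower k cc.B0 k := isScalarTower_toAlgebra (CurveHyp80.evalAlg0 cc x hx)
  obtain ⟨s', hs'⟩ := exists_lift_open x.1 W p hp
  obtain rfl : ja = chartStr0 cc := Subtype.ext hja
  exact lineClassPt_eval_open D P Q M₀ hM₀ hW (chartStr0 cc) MA hC e x s' hs'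
    (lift_comp_isoSpec x.1 cc.affine0 hW hx s' hs') hl hL'

/-- **Evaluation at a `k`-point of the second chart.** -/
theorem lineClassPt_eval_chart1 (M₀ : RigidifiedLineBundle c ε c) (hM₀ : P.P c M₀)
    (MA : (XA c cc.B1).Modules) {L : cc.QCA cc.B1} (hC : D.Corr cc.B1 MA L)
    {W : C.Opens} (hW : W ≤ cc.U1)
    (ja : SchemeHomOver (cc.U1.ι ≫ c) (specStr (k := k) cc.B1))
    (hja : ja.1 = cc.affine1.isoSpec.hom)
    (e : Nonempty ((restrictOpen M₀ W).L ≅
      (Scheme.Modules.pullback (baseChangeSnd c (openInclLE c hW))).obj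
        ((Scheme.Modules.pullback (baseChangeSnd c ja)).obj MA)))
    (x : SchemeHomOver (𝟙 (Spec (CommRingCat.of k))) c) (p : Spec (CommRingCat.of k))
    (hp : x.1 p ∈ W) (hx : x.1 ⁻¹ᵁ cc.U1 = ⊤) {L' : cc.QCA k} (hL' : L'.IsLine)
    (hl : letI := (CurveHyp80.evalAlg1 cc x hx).toRingHom.toAlgebra
      LiftData L L') :
    lineClassPt D P Q (PClass.map P x (PClass.mk P c M₀ hM₀)) =
      LinePic.mk (cc.chartA k) L' hL' := by
  letI := (CurveHyp80.evalAlg1 cc x hx).toRingHom.toAlgebra
  haveI : IsScalarTower k cc.B1 k := isScalarTower_toAlgebra (CurveHyp80.evalAlg1 cc x hx)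
  obtain ⟨s', hs'⟩ := exists_lift_open x.1 W p hp
  obtain rfl : ja = chartStr1 cc := Subtype.ext hja
  exact lineClassPt_eval_open D P Q M₀ hM₀ hW (chartStr1 cc) MA hC e x s' hs'
    (lift_comp_isoSpec x.1 cc.affine1 hW hx s' hs') hl hL'

end Charts

end Fermat.Agent.Jac.JGroup85Eval

end
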