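import Mathlib
import Fermat.Agent.Jac.JGroup85EvalPt
import Fermat.Agent.Jac.ChartTransport40
import Fermat.Agent.Jac.AbelJacobi81.OfClass

/-!
# JAC brick Q3 (E): the value of the one-point family at a `k`-point of the curve  (helper85)

Input: the output of `ChartTransport40.exists_rigidified_of_lines` (a rigidified bundle `M₀` on
`C × C` over the base `T = C` which is, locally on the base, the transport of the dictionary
sheaves `M0`, `M1` of two lines `L0 : cc.QCA cc.B0`, `L1 : cc.QCA cc.B1`).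
Output: for every `k`-point `x` of the curve, the class of `x^* M₀` under the bridge
`JGroup85Api.lineClassPt` is the class of ANY base change of `L0` (resp. `L1`) along the
evaluation `B0 → k` (resp. `B1 → k`) at `x`:

* `lineClassPt_eval_chart0'`, `lineClassPt_eval_chart1'` : one chart, iso in the `trSheaf` shape;
* `lineClassPt_eval_of_local` : the disjunction over the two charts;
* `lineClassPt_clsAt_ofBundle` : the same for `clsAt (AbelJacobi81.ofBundle M₀ hM₀) k x.1 𝟙 x.2`,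
  the value of the one-point family `F1 := ofBundle M₀ hM₀`.
-/

set_option autoImplicit false
set_option linter.style.haveILetI false
set_option linter.unusedSectionVars false

noncomputable section

universe u

open CategoryTheory CategoryTheory.Limits AlgebraicGeometry AlgebraicGeometry.RelPicard
  NeronModelInfra GoodReductionJacobian TensorProduct

namespace Fermat.Agent.Jac.JGroup85Eval

open scoped Fermat.Agent.Jac.BaseChange75
open PointsBridge79 PointsBridge79Shell BridgeCharts33 JSmooth85Alg BaseChange75 LineOps39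
  JGroup85Pic JGroup85Rig JGroup85Law JGroup85Std JGroup85Api ChartTransport40

variable {k : Type u} [Field k] {C : Scheme.{u}} {c : C ⟶ Spec (CommRingCat.of k)}
  {ε : SchemeHomOver (𝟙 (Spec (CommRingCat.of k))) c}

/-- A `k`-point whose image lies in `W ≤ U` lies in `U`. -/
theorem preimage_eq_top_of_mem {X : Scheme.{u}} (x : Spec (CommRingCat.of k) ⟶ X)
    {U W : X.Opens} (hW : W ≤ U) (p : Spec (CommRingCat.of k)) (hp : x p ∈ W) :
    x ⁻¹ᵁ U = ⊤ := by
  rcases CurveHyp80.opens_eq_top_or_bot (x ⁻¹ᵁ U) with h | h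
  · exact h
  · exfalso
    have h1 : p ∈ x ⁻¹ᵁ U := hW hp
    rw [h] at h1
    exact h1

/-- Base-change data from `L` over `A` to `L'` over `k` along a `k`-algebra homomorphism
`φ : A → k` (i.e. `LiftData L L'` for the algebra structure `φ.toRingHom.toAlgebra`). -/
def LiftDataAt {A : Type u} [CommRing A] [Algebra k A] (cc : CurveCharts c ε) (φ : A →ₐ[k] k)
    (L : cc.QCA A) (L' : cc.QCA k) : Type u :=
  letI := φ.toRingHom.toAlgebra
  LiftData L L'

variable {cc : CurveCharts c ε} (D : AffineDictionary cc) (P : SubPicCondition c ε)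
  (Q : CutAlg cc D P)

/-- **Evaluation at a `k`-point of the first chart**, iso hypothesis in the shape of
`ChartTransport40.exists_rigidified_of_lines`. -/
theorem lineClassPt_eval_chart0' (M₀ : RigidifiedLineBundle c ε c) (hM₀ : P.P c M₀)
    (MA : (XA c cc.B0).Modules) {L : cc.QCA cc.B0} (hC : D.Corr cc.B0 MA L)
    {W : C.Opens} (hW : W ≤ cc.U0)
    (e : Nonempty ((restrictOpen M₀ W).L ≅ trSheaf (postComp (v0 cc) (openInclLE c hW)) MA))
    (x : SchemeHomOver (𝟙 (Spec (CommRingCat.of k))) c) (p : Spec (CommRingCat.of k))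
    (hp : x.1 p ∈ W) (hx : x.1 ⁻¹ᵁ cc.U0 = ⊤) {L' : cc.QCA k} (hL' : L'.IsLine)
    (hl : letI := (CurveHyp80.evalAlg0 cc x hx).toRingHom.toAlgebra
      LiftData L L') :
    lineClassPt D P Q (PClass.map P x (PClass.mk P c M₀ hM₀)) =
      LinePic.mk (cc.chartA k) L' hL' := by
  letI := (CurveHyp80.evalAlg0 cc x hx).toRingHom.toAlgebra
  haveI : IsScalarTower k cc.B0 k := isScalarTower_toAlgebra (CurveHyp80.evalAlg0 cc x hx)
  obtain ⟨s', hs'⟩ := exists_lift_open x.1 W p hp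
  have hs2 : s' ≫ W.ι ≫ c = 𝟙 _ := by rw [← Category.assoc, hs', x.2]
  exact lineClassPt_eval D P Q M₀ hM₀ (openIncl c W) (postComp (v0 cc) (openInclLE c hW)) MA hC e
    (⟨s', hs2⟩ : SchemeHomOver (𝟙 (Spec (CommRingCat.of k))) (W.ι ≫ c))
    (lift_comp_isoSpec x.1 cc.affine0 hW hx s' hs') x hs'.symm hl

/-- **Evaluation at a `k`-point of the second chart**, iso hypothesis in the shape of
`ChartTransport40.exists_rigidified_of_lines`. -/
theorem lineClassPt_eval_chart1' (M₀ : RigidifiedLineBundle c ε c) (hM₀ : P.P c M₀)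
    (MA : (XA c cc.B1).Modules) {L : cc.QCA cc.B1} (hC : D.Corr cc.B1 MA L)
    {W : C.Opens} (hW : W ≤ cc.U1)
    (e : Nonempty ((restrictOpen M₀ W).L ≅ trSheaf (postComp (v1 cc) (openInclLE c hW)) MA))
    (x : SchemeHomOver (𝟙 (Spec (CommRingCat.of k))) c) (p : Spec (CommRingCat.of k))
    (hp : x.1 p ∈ W) (hx : x.1 ⁻¹ᵁ cc.U1 = ⊤) {L' : cc.QCA k} (hL' : L'.IsLine)
    (hl : letI := (CurveHyp80.evalAlg1 cc x hx).toRingHom.toAlgebra
      LiftData L L') :
    lineClassPt D P Q (PClass.map P x (PClass.mk P c M₀ hM₀)) =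
      LinePic.mk (cc.chartA k) L' hL' := by
  letI := (CurveHyp80.evalAlg1 cc x hx).toRingHom.toAlgebra
  haveI : IsScalarTower k cc.B1 k := isScalarTower_toAlgebra (CurveHyp80.evalAlg1 cc x hx)
  obtain ⟨s', hs'⟩ := exists_lift_open x.1 W p hp
  have hs2 : s' ≫ W.ι ≫ c = 𝟙 _ := by rw [← Category.assoc, hs', x.2]
  exact lineClassPt_eval D P Q M₀ hM₀ (openIncl c W) (postComp (v1 cc) (openInclLE c hW)) MA hC e
    (⟨s', hs2⟩ : SchemeHomOver (𝟙 (Spec (CommRingCat.of k))) (W.ι ≫ c))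
    (lift_comp_isoSpec x.1 cc.affine1 hW hx s' hs') x hs'.symm hl

/-- The local shape of the glued bundle (output of
`ChartTransport40.exists_rigidified_of_lines`). -/
def LocallyTransported (M₀ : RigidifiedLineBundle c ε c) (M0 : (XA c cc.B0).Modules)
    (M1 : (XA c cc.B1).Modules) : Prop :=
  ∀ x : C,
    (∃ (W : C.Opens) (hW : W ≤ cc.U0), x ∈ W ∧ Nonempty ((restrictOpen M₀ W).L ≅
      trSheaf (postComp (v0 cc) (openInclLE c hW)) M0)) ∨
    (∃ (W : C.Opens) (hW : W ≤ cc.U1), x ∈ W ∧ Nonempty ((restrictOpen M₀ W).L ≅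
      trSheaf (postComp (v1 cc) (openInclLE c hW)) M1))

/-- **(E), bundle form.**  For every `k`-point `x` of the curve, the class of `x^* M₀` is the class
of any base change of `L0` along the evaluation at `x` (if the local model at `x` is in the first
chart) or of `L1` (second chart). -/
theorem lineClassPt_eval_of_local (M₀ : RigidifiedLineBundle c ε c) (hM₀ : P.P c M₀)
    {M0 : (XA c cc.B0).Modules} {M1 : (XA c cc.B1).Modules} {L0 : cc.QCA cc.B0}
    {L1 : cc.QCA cc.B1} (h0 : D.Corr cc.B0 M0 L0) (h1 : D.Corr cc.B1 M1 L1)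
    (hloc : LocallyTransported M₀ M0 M1)
    (x : SchemeHomOver (𝟙 (Spec (CommRingCat.of k))) c) :
    (∃ hx : x.1 ⁻¹ᵁ cc.U0 = ⊤, ∀ (L' : cc.QCA k) (hL' : L'.IsLine),
      LiftDataAt cc (CurveHyp80.evalAlg0 cc x hx) L0 L' →
      lineClassPt D P Q (PClass.map P x (PClass.mk P c M₀ hM₀)) =
        LinePic.mk (cc.chartA k) L' hL') ∨
    (∃ hx : x.1 ⁻¹ᵁ cc.U1 = ⊤, ∀ (L' : cc.QCA k) (hL' : L'.IsLine),
      LiftDataAt cc (CurveHyp80.evalAlg1 cc x hx) L1 L' →
      lineClassPt D P Q (PClass.map P x (PClass.mk P c M₀ hM₀)) =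
        LinePic.mk (cc.chartA k) L' hL') := by
  obtain ⟨p⟩ := CurveHyp80.nonempty_Spec_field (k := k)
  rcases hloc (x.1 p) with ⟨W, hW, hp, e⟩ | ⟨W, hW, hp, e⟩
  · have hx := preimage_eq_top_of_mem x.1 hW p hp
    exact Or.inl ⟨hx, fun L' hL' hl =>
      lineClassPt_eval_chart0' D P Q M₀ hM₀ M0 h0 hW e x p hp hx hL' hl⟩
  · have hx := preimage_eq_top_of_mem x.1 hW p hp
    exact Or.inr ⟨hx, fun L' hL' hl =>
      lineClassPt_eval_chart1' D P Q M₀ hM₀ M1 h1 hW e x p hp hx hL' hl⟩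

/-- The value of the family `ofBundle M₀ hM₀` at a `k`-point. -/
theorem clsAt_ofBundle_point (M₀ : RigidifiedLineBundle c ε c) (hM₀ : P.P c M₀)
    (x : SchemeHomOver (𝟙 (Spec (CommRingCat.of k))) c) :
    AbelJacobi73.clsAt (AbelJacobi81.ofBundle M₀ hM₀) (CommRingCat.of k) x.1
      (𝟙 (Spec (CommRingCat.of k))) x.2 = PClass.map P x (PClass.mk P c M₀ hM₀) := by
  rw [AbelJacobi81.ofBundle, AbelJacobi81.clsAt_ofClass]

/-- **(E), family form.**  The value of the one-point family `F1 := ofBundle M₀ hM₀` at a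
`k`-point `x` of the curve, under the bridge `lineClassPt`. -/
theorem lineClassPt_clsAt_ofBundle (M₀ : RigidifiedLineBundle c ε c) (hM₀ : P.P c M₀)
    {M0 : (XA c cc.B0).Modules} {M1 : (XA c cc.B1).Modules} {L0 : cc.QCA cc.B0}
    {L1 : cc.QCA cc.B1} (h0 : D.Corr cc.B0 M0 L0) (h1 : D.Corr cc.B1 M1 L1)
    (hloc : LocallyTransported M₀ M0 M1)
    (x : SchemeHomOver (𝟙 (Spec (CommRingCat.of k))) c) :
    (∃ hx : x.1 ⁻¹ᵁ cc.U0 = ⊤, ∀ (L' : cc.QCA k) (hL' : L'.IsLine),
      LiftDataAt cc (CurveHyp80.evalAlg0 cc x hx) L0 L' →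
      lineClassPt D P Q (AbelJacobi73.clsAt (AbelJacobi81.ofBundle M₀ hM₀) (CommRingCat.of k) x.1
        (𝟙 (Spec (CommRingCat.of k))) x.2) = LinePic.mk (cc.chartA k) L' hL') ∨
    (∃ hx : x.1 ⁻¹ᵁ cc.U1 = ⊤, ∀ (L' : cc.QCA k) (hL' : L'.IsLine),
      LiftDataAt cc (CurveHyp80.evalAlg1 cc x hx) L1 L' →
      lineClassPt D P Q (AbelJacobi73.clsAt (AbelJacobi81.ofBundle M₀ hM₀) (CommRingCat.of k) x.1
        (𝟙 (Spec (CommRingCat.of k))) x.2) = LinePic.mk (cc.chartA k) L' hL') := by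
  rw [clsAt_ofBundle_point P M₀ hM₀ x]
  exact lineClassPt_eval_of_local D P Q M₀ hM₀ h0 h1 hloc x

end Fermat.Agent.Jac.JGroup85Eval

end
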