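/-
Fermat/Agent/Jac/GammaTopGeneral40.lean  (helper40)

Brick "HΓ-general" of the S25 programme: global functions on `C × T` for an ARBITRARY base `T`.

Input: for every `k`-algebra `A`, `Γ(C_A, 𝒪) = A` (field `gamma_top` of the affine dictionary).
Output: for every `k`-scheme `t : T ⟶ Spec k` and every open `U` of `T`, the map
`Γ(T, U) → Γ(C ×ₖ T, p⁻¹ U)` (`p` the second projection) is bijective.

* `isIso_app_image_iff` : in a pullback square with `j` an open immersion, sections of the two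
  vertical maps over corresponding opens are isomorphic;
* `isIso_snd_app_affine` : the affine opens of `T`;
* `isIso_snd_app`, `bijective_snd_app` : all opens (basis argument for sheaves).
-/
import Mathlib
import Fermat.Agent.Jac.BridgeCharts33

set_option autoImplicit false

open CategoryTheory CategoryTheory.Limits AlgebraicGeometry TopologicalSpace Opposite
open NeronModelInfra

universe u

noncomputable section

namespace Fermat.Agent.Jac.GammaTopGeneral40

open Fermat.Agent.Jac.BridgeCharts33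

/-! ### Sections in a pullback square along an open immersion -/

section Square

variable {X X' T T' : Scheme.{u}} {g : X' ⟶ X} {p' : X' ⟶ T'} {p : X ⟶ T} {j : T' ⟶ T}

theorem appLE_congr_hom {Y Z : Scheme.{u}} {f f' : Y ⟶ Z} (h : f = f') (U : Z.Opens)
    (V : Y.Opens) (e : V ≤ f ⁻¹ᵁ U) : f.appLE U V e = f'.appLE U V (h ▸ e) := by
  subst h; rfl

theorem isOpenImmersion_of_isPullback (sq : IsPullback g p' p j) [IsOpenImmersion j] :
    IsOpenImmersion g :=
  MorphismProperty.of_isPullback (P := @IsOpenImmersion) sq.flip inferInstance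

theorem image_preimage_eq_of_isPullback (sq : IsPullback g p' p j) [IsOpenImmersion j]
    [IsOpenImmersion g] (W : T'.Opens) : g ''ᵁ (p' ⁻¹ᵁ W) = p ⁻¹ᵁ (j ''ᵁ W) := by
  ext x
  constructor
  · rintro ⟨x', hx', rfl⟩
    refine ⟨p' x', hx', ?_⟩
    have := congrArg (fun f : X' ⟶ T => f x') sq.w
    simpa using this.symm
  · rintro ⟨w, hw, hwx⟩
    obtain ⟨z, hz1, hz2⟩ := Scheme.Pullback.exists_preimage_pullback (f := p) (g := j) x w hwx.symm
    refine ⟨sq.isoPullback.inv z, ?_, ?_⟩
    · change p' (sq.isoPullback.inv z) ∈ W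
      have : p' (sq.isoPullback.inv z) = pullback.snd p j z := by
        rw [← sq.isoPullback_inv_snd]; rfl
      rw [this, hz2]; exact hw
    · have : g (sq.isoPullback.inv z) = pullback.fst p j z := by
        rw [← sq.isoPullback_inv_fst]; rfl
      exact this.trans hz1

/-- In a pullback square with `j` an open immersion, `p` induces an isomorphism on sections over
`j ''ᵁ W` iff `p'` induces an isomorphism on sections over `W`. -/
theorem isIso_app_image_iff (sq : IsPullback g p' p j) [IsOpenImmersion j] (W : T'.Opens) :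
    IsIso (p.app (j ''ᵁ W)) ↔ IsIso (p'.app W) := by
  haveI : IsOpenImmersion g := isOpenImmersion_of_isPullback sq
  have hUV := image_preimage_eq_of_isPullback sq W
  have e1 : p' ⁻¹ᵁ W ≤ g ⁻¹ᵁ (p ⁻¹ᵁ (j ''ᵁ W)) := by
    rw [← hUV]; exact (g.preimage_image_eq _).ge
  have e2 : W ≤ j ⁻¹ᵁ (j ''ᵁ W) := (j.preimage_image_eq W).ge
  -- the two horizontal maps are isomorphisms
  haveI i2 : IsIso (j.appLE (j ''ᵁ W) W e2) := by
    rw [← Scheme.Hom.appIso_hom']; infer_instance
  haveI i1 : IsIso (g.appLE (p ⁻¹ᵁ (j ''ᵁ W)) (p' ⁻¹ᵁ W) e1) := by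
    have h1 : g.appLE (p ⁻¹ᵁ (j ''ᵁ W)) (p' ⁻¹ᵁ W) e1 =
        X.presheaf.map (eqToHom hUV).op ≫
          g.appLE (g ''ᵁ (p' ⁻¹ᵁ W)) (p' ⁻¹ᵁ W) (g.preimage_image_eq _).ge := by
      rw [Scheme.Hom.map_appLE]
    rw [h1, ← Scheme.Hom.appIso_hom']
    infer_instance
  -- the square of sections commutes
  have hsq : p.app (j ''ᵁ W) ≫ g.appLE (p ⁻¹ᵁ (j ''ᵁ W)) (p' ⁻¹ᵁ W) e1 =
      j.appLE (j ''ᵁ W) W e2 ≫ p'.app W := by
    have h1 : p.app (j ''ᵁ W) ≫ g.appLE (p ⁻¹ᵁ (j ''ᵁ W)) (p' ⁻¹ᵁ W) e1 =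
        (g ≫ p).appLE (j ''ᵁ W) (p' ⁻¹ᵁ W) e1 := (Scheme.Hom.comp_appLE g p _ _ e1).symm
    have h2 : j.appLE (j ''ᵁ W) W e2 ≫ p'.app W =
        (p' ≫ j).appLE (j ''ᵁ W) (p' ⁻¹ᵁ W) (p'.preimage_mono e2) := by
      rw [p'.app_eq_appLE, Scheme.Hom.appLE_comp_appLE]
    rw [h1, h2]
    exact appLE_congr_hom sq.w _ _ _
  constructor
  · intro h
    have : IsIso (j.appLE (j ''ᵁ W) W e2 ≫ p'.app W) := by rw [← hsq]; infer_instance
    exact IsIso.of_isIso_comp_left (j.appLE (j ''ᵁ W) W e2) (p'.app W)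
  · intro h
    have : IsIso (p.app (j ''ᵁ W) ≫ g.appLE (p ⁻¹ᵁ (j ''ᵁ W)) (p' ⁻¹ᵁ W) e1) := by
      rw [hsq]; infer_instance
    exact IsIso.of_isIso_comp_right (p.app (j ''ᵁ W)) (g.appLE (p ⁻¹ᵁ (j ''ᵁ W)) (p' ⁻¹ᵁ W) e1)

end Square

/-! ### The base change of a curve with constant global functions -/

section Main

variable {k : Type u} [Field k] {C : Scheme.{u}} (c : C ⟶ Spec (CommRingCat.of k))

/-- The hypothesis: `Γ(C_A, 𝒪) = A` for every `k`-algebra `A` (field `gamma_top` of the affine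
dictionary). -/
def GammaTopAffine : Prop :=
  ∀ (A : Type u) [CommRing A] [Algebra k A],
    Function.Bijective (secHom (pr2 c A) (⊤ : (XA c A).Opens))

variable {c}

/-- The affine case, for the structure morphism of a `k`-algebra. -/
theorem isIso_pr2_app_top (hγ : GammaTopAffine c) (A : Type u) [CommRing A] [Algebra k A] :
    IsIso ((pr2 c A).app ⊤) := by
  have h := hγ A
  have h1 : IsIso ((Scheme.ΓSpecIso (CommRingCat.of A)).inv ≫ (pr2 c A).appLE ⊤ ⊤ le_top) :=
    (ConcreteCategory.isIso_iff_bijective _).mpr h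
  have h2 : IsIso ((pr2 c A).appLE ⊤ ⊤ le_top) :=
    IsIso.of_isIso_comp_left (Scheme.ΓSpecIso (CommRingCat.of A)).inv _
  rw [(pr2 c A).app_eq_appLE]
  exact h2

/-- The affine case, for an arbitrary morphism `Spec A ⟶ Spec k`. -/
theorem isIso_snd_app_top_Spec (hγ : GammaTopAffine c) (A : Type u) [CommRing A]
    (t : Spec (CommRingCat.of A) ⟶ Spec (CommRingCat.of k)) :
    IsIso ((pullback.snd c t).app ⊤) := by
  letI : Algebra k A := (Spec.preimage t).hom.toAlgebra
  have ht : t = specStr (k := k) A := (Spec.map_preimage t).symm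
  rw [ht]
  exact isIso_pr2_app_top hγ A

variable {T T' : Scheme.{u}} (t : T ⟶ Spec (CommRingCat.of k))

/-- The base change `C × T' ⟶ C × T` of a morphism `j : T' ⟶ T`. -/
def bcMap (j : T' ⟶ T) : pullback c (j ≫ t) ⟶ pullback c t :=
  pullback.lift (pullback.fst c (j ≫ t)) (pullback.snd c (j ≫ t) ≫ j)
    (by rw [Category.assoc]; exact pullback.condition)

theorem bcMap_fst (j : T' ⟶ T) :
    bcMap (c := c) t j ≫ pullback.fst c t = pullback.fst c (j ≫ t) :=
  pullback.lift_fst _ _ _

theorem bcMap_snd (j : T' ⟶ T) :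
    bcMap (c := c) t j ≫ pullback.snd c t = pullback.snd c (j ≫ t) ≫ j :=
  pullback.lift_snd _ _ _

theorem isPullback_bcMap (j : T' ⟶ T) :
    IsPullback (bcMap (c := c) t j) (pullback.snd c (j ≫ t)) (pullback.snd c t) j := by
  refine IsPullback.of_right ?_ (bcMap_snd t j) (IsPullback.of_hasPullback c t)
  rw [bcMap_fst]
  exact IsPullback.of_hasPullback c (j ≫ t)

/-- Affine opens of the base. -/
theorem isIso_snd_app_affine (hγ : GammaTopAffine c) {V : T.Opens} (hV : IsAffineOpen V) :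
    IsIso ((pullback.snd c t).app V) := by
  have sq := isPullback_bcMap (c := c) t hV.fromSpec
  have h := (isIso_app_image_iff sq ⊤).mpr
    (isIso_snd_app_top_Spec hγ Γ(T, V) (hV.fromSpec ≫ t))
  have hV' : hV.fromSpec ''ᵁ ⊤ = V := by
    rw [Scheme.Hom.image_top_eq_opensRange, hV.opensRange_fromSpec]
  rw [hV'] at h
  exact h

/-- **HΓ.** For every `k`-scheme `T` and every open `U` of `T`, the second projection induces an
isomorphism `Γ(T, U) ≅ Γ(C × T, p⁻¹ U)`. -/
theorem isIso_snd_app (hγ : GammaTopAffine c) (U : T.Opens) :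
    IsIso ((pullback.snd c t).app U) := by
  let p := pullback.snd c t
  let F : TopCat.Sheaf CommRingCat T := T.sheaf
  let G : TopCat.Sheaf CommRingCat T :=
    (TopCat.Sheaf.pushforward CommRingCat p.base).obj (pullback c t).sheaf
  let φ : F ⟶ G := ⟨p.c⟩
  have hB : Opens.IsBasis (Set.range (fun V : T.affineOpens => (V : T.Opens))) := by
    simpa using T.isBasis_affineOpens
  have hφ : IsIso φ :=
    TopCat.Sheaf.isIso_iff_isIso_basis hB (fun V => isIso_snd_app_affine t hγ V.2)
  have h1 : IsIso φ.hom :=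
    @Functor.map_isIso _ _ _ _ _ _ (sheafToPresheaf (Opens.grothendieckTopology T) CommRingCat)
      φ hφ
  exact NatIso.isIso_app_of_isIso φ.hom (op U)

theorem bijective_snd_app (hγ : GammaTopAffine c) (U : T.Opens) :
    Function.Bijective ((pullback.snd c t).app U).hom :=
  haveI := isIso_snd_app t hγ U
  (ConcreteCategory.isIso_iff_bijective ((pullback.snd c t).app U)).mp inferInstance

end Main

end Fermat.Agent.Jac.GammaTopGeneral40
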