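/-
Fermat/Agent/Jac/BridgeCharts33Theta.lean  (helper33) -- S25 programme, brick B1a, part 6:
the tensor identifications on the ring synonyms of `TwoCoverGammaSetting.TwoCover`.

With `𝒰₀ = cover0 cc : TwoCover k C` and `𝒰 = coverA cc A : TwoCover A (XA c A)`:
* `pb0`, `pb1`, `pb01 : 𝒰₀.R_i →+* 𝒰.R_i` : pull-back of functions along `C_A ⟶ C`;
* `theta0`, `theta1`, `theta01 : A ⊗[k] 𝒰₀.R_i ≃ₐ[A] 𝒰.R_i`, `theta_i (a ⊗ b) = algebraMap a * pb_i b`;
* compatibility with the restrictions `res0`, `res1` and with the coordinates `tR`, `sR`.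
-/
import Mathlib
import Fermat.Agent.Jac.BridgeCharts33Pack

set_option autoImplicit false
set_option linter.style.haveILetI false

open CategoryTheory CategoryTheory.Limits AlgebraicGeometry TopologicalSpace Opposite
open NeronModelInfra AlgebraicGeometry.RelPicard TensorProduct
open Fermat.Agent.Jac.TwoCoverGammaSetting

universe u

noncomputable section

namespace Fermat.Agent.Jac.BridgeCharts33

variable {k : Type u} [Field k] {C : Scheme.{u}} {c : C ⟶ Spec (CommRingCat.of k)}

/-- `algebraIsPushout_chart` for ARBITRARY algebra instances with the right structure maps. -/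
theorem algebraIsPushout_chart_inst (A : Type u) [CommRing A] [Algebra k A] {U : C.Opens}
    (hU : IsAffineOpen U)
    [i1 : Algebra k Γ(C, U)] [i2 : Algebra A Γ(XA c A, chart c A U)]
    [i3 : Algebra Γ(C, U) Γ(XA c A, chart c A U)] [i4 : Algebra k Γ(XA c A, chart c A U)]
    [i5 : IsScalarTower k A Γ(XA c A, chart c A U)]
    [i6 : IsScalarTower k Γ(C, U) Γ(XA c A, chart c A U)]
    (h1 : algebraMap k Γ(C, U) = secHom c U)
    (h2 : algebraMap A Γ(XA c A, chart c A U) = secHom (pr2 c A) (chart c A U))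
    (h3 : algebraMap Γ(C, U) Γ(XA c A, chart c A U) = ((pr1 c A).app U).hom) :
    Algebra.IsPushout k A Γ(C, U) Γ(XA c A, chart c A U) := by
  apply CommRingCat.isPushout_iff_isPushout.mp
  rw [h1, h2, h3]
  exact isPushout_chart' c A hU

/-- the structure maps commute with pulling back functions. -/
theorem pr1_app_secHom (A : Type u) [CommRing A] [Algebra k A] {U : C.Opens}
    (hU : IsAffineOpen U) (x : k) :
    ((pr1 c A).app U).hom (secHom c U x) = secHom (pr2 c A) (chart c A U) (algebraMap k A x) :=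
  (congrArg (fun f => f.hom x) (isPushout_chart' c A hU).w).symm

variable {ε : SchemeHomOver (𝟙 (Spec (CommRingCat.of k))) c} (cc : CurveCharts c ε)
variable (A : Type u) [CommRing A] [Algebra k A]

theorem isAffineOpen_U01 : IsAffineOpen (cc.U0 ⊓ cc.U1) := by
  rw [cc.inter0]
  exact cc.affine0.basicOpen cc.t

/-- pull-back of functions on the first chart. -/
def pb0 : (cover0 cc).R0 →+* (coverA cc A).R0 := ((pr1 c A).app cc.U0).hom

/-- pull-back of functions on the second chart. -/
def pb1 : (cover0 cc).R1 →+* (coverA cc A).R1 := ((pr1 c A).app cc.U1).hom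

/-- pull-back of functions on the overlap. -/
def pb01 : (cover0 cc).R01 →+* (coverA cc A).R01 := ((pr1 c A).app (cc.U0 ⊓ cc.U1)).hom

theorem pb0_algebraMap (x : k) :
    pb0 cc A (algebraMap k (cover0 cc).R0 x) = algebraMap A (coverA cc A).R0 (algebraMap k A x) := by
  rw [TwoCover.algebraMap_A_R0, TwoCover.algebraMap_A_R0, cover0_str0, coverA_str0]
  exact pr1_app_secHom A cc.affine0 x

theorem pb1_algebraMap (x : k) :
    pb1 cc A (algebraMap k (cover0 cc).R1 x) = algebraMap A (coverA cc A).R1 (algebraMap k A x) := by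
  rw [TwoCover.algebraMap_A_R1, TwoCover.algebraMap_A_R1, cover0_str1, coverA_str1]
  exact pr1_app_secHom A cc.affine1 x

theorem pb01_algebraMap (x : k) :
    pb01 cc A (algebraMap k (cover0 cc).R01 x) =
      algebraMap A (coverA cc A).R01 (algebraMap k A x) := by
  rw [TwoCover.algebraMap_A_R01, TwoCover.algebraMap_A_R01, cover0_str01, coverA_str01]
  exact pr1_app_secHom A (isAffineOpen_U01 cc) x

/-- pull-back commutes with restriction to the overlap (first chart). -/
theorem pb01_res0 (b : (cover0 cc).R0) :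
    pb01 cc A ((cover0 cc).res0 b) = (coverA cc A).res0 (pb0 cc A b) :=
  (map_app_pr1 A (inf_le_left : cc.U0 ⊓ cc.U1 ≤ cc.U0) b).symm

/-- pull-back commutes with restriction to the overlap (second chart). -/
theorem pb01_res1 (b : (cover0 cc).R1) :
    pb01 cc A ((cover0 cc).res1 b) = (coverA cc A).res1 (pb1 cc A b) :=
  (map_app_pr1 A (inf_le_right : cc.U0 ⊓ cc.U1 ≤ cc.U1) b).symm

theorem pb0_tR : pb0 cc A (cover0 cc).tR = (coverA cc A).tR := rfl

theorem pb1_sR : pb1 cc A (cover0 cc).sR = (coverA cc A).sR := rfl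

/-! ### the tensor identifications -/

section Theta

/-- auxiliary: the `k`-algebra structure on a ring of sections of `C_A`, through `A`. -/
@[reducible] def algThrough (S : Type u) [CommRing S] [Algebra A S] : Algebra k S :=
  ((algebraMap A S).comp (algebraMap k A)).toAlgebra

theorem isPushout0 :
    letI : Algebra (cover0 cc).R0 (coverA cc A).R0 := (pb0 cc A).toAlgebra
    letI : Algebra k (coverA cc A).R0 := algThrough A _
    ∃ (_ : IsScalarTower k A (coverA cc A).R0)
      (_ : IsScalarTower k (cover0 cc).R0 (coverA cc A).R0),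
      Algebra.IsPushout k A (cover0 cc).R0 (coverA cc A).R0 := by
  letI j3 : Algebra (cover0 cc).R0 (coverA cc A).R0 := (pb0 cc A).toAlgebra
  letI j4 : Algebra k (coverA cc A).R0 := algThrough A _
  have t1 : IsScalarTower k A (coverA cc A).R0 := IsScalarTower.of_algebraMap_eq' rfl
  have t2 : IsScalarTower k (cover0 cc).R0 (coverA cc A).R0 :=
    IsScalarTower.of_algebraMap_eq fun x => (pb0_algebraMap cc A x).symm
  refine ⟨t1, t2, ?_⟩
  exact algebraIsPushout_chart_inst (c := c) A cc.affine0 (i1 := (cover0 cc).algA0)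
    (i2 := (coverA cc A).algA0) (i3 := j3) (i4 := j4) (i5 := t1)
    (i6 := t2) (cover0_str0 cc) (coverA_str0 cc A) rfl

theorem isPushout1 :
    letI : Algebra (cover0 cc).R1 (coverA cc A).R1 := (pb1 cc A).toAlgebra
    letI : Algebra k (coverA cc A).R1 := algThrough A _
    ∃ (_ : IsScalarTower k A (coverA cc A).R1)
      (_ : IsScalarTower k (cover0 cc).R1 (coverA cc A).R1),
      Algebra.IsPushout k A (cover0 cc).R1 (coverA cc A).R1 := by
  letI j3 : Algebra (cover0 cc).R1 (coverA cc A).R1 := (pb1 cc A).toAlgebra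
  letI j4 : Algebra k (coverA cc A).R1 := algThrough A _
  have t1 : IsScalarTower k A (coverA cc A).R1 := IsScalarTower.of_algebraMap_eq' rfl
  have t2 : IsScalarTower k (cover0 cc).R1 (coverA cc A).R1 :=
    IsScalarTower.of_algebraMap_eq fun x => (pb1_algebraMap cc A x).symm
  refine ⟨t1, t2, ?_⟩
  exact algebraIsPushout_chart_inst (c := c) A cc.affine1 (i1 := (cover0 cc).algA1)
    (i2 := (coverA cc A).algA1) (i3 := j3) (i4 := j4) (i5 := t1)
    (i6 := t2) (cover0_str1 cc) (coverA_str1 cc A) rfl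

theorem isPushout01 :
    letI : Algebra (cover0 cc).R01 (coverA cc A).R01 := (pb01 cc A).toAlgebra
    letI : Algebra k (coverA cc A).R01 := algThrough A _
    ∃ (_ : IsScalarTower k A (coverA cc A).R01)
      (_ : IsScalarTower k (cover0 cc).R01 (coverA cc A).R01),
      Algebra.IsPushout k A (cover0 cc).R01 (coverA cc A).R01 := by
  letI j3 : Algebra (cover0 cc).R01 (coverA cc A).R01 := (pb01 cc A).toAlgebra
  letI j4 : Algebra k (coverA cc A).R01 := algThrough A _
  have t1 : IsScalarTower k A (coverA cc A).R01 := IsScalarTower.of_algebraMap_eq' rfl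
  have t2 : IsScalarTower k (cover0 cc).R01 (coverA cc A).R01 :=
    IsScalarTower.of_algebraMap_eq fun x => (pb01_algebraMap cc A x).symm
  refine ⟨t1, t2, ?_⟩
  exact algebraIsPushout_chart_inst (c := c) A (isAffineOpen_U01 cc) (i1 := (cover0 cc).algA01)
    (i2 := (coverA cc A).algA01) (i3 := j3) (i4 := j4) (i5 := t1)
    (i6 := t2) (cover0_str01 cc) (coverA_str01 cc A) rfl

/-- `A ⊗[k] Γ(C, U0) ≃ Γ(C_A, X0)`. -/
def theta0 : A ⊗[k] (cover0 cc).R0 ≃ₐ[A] (coverA cc A).R0 :=
  letI : Algebra (cover0 cc).R0 (coverA cc A).R0 := (pb0 cc A).toAlgebra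
  letI : Algebra k (coverA cc A).R0 := algThrough A _
  haveI := (isPushout0 cc A).choose
  haveI := (isPushout0 cc A).choose_spec.choose
  haveI := (isPushout0 cc A).choose_spec.choose_spec
  Algebra.IsPushout.equiv k A (cover0 cc).R0 (coverA cc A).R0

/-- `A ⊗[k] Γ(C, U1) ≃ Γ(C_A, X1)`. -/
def theta1 : A ⊗[k] (cover0 cc).R1 ≃ₐ[A] (coverA cc A).R1 :=
  letI : Algebra (cover0 cc).R1 (coverA cc A).R1 := (pb1 cc A).toAlgebra
  letI : Algebra k (coverA cc A).R1 := algThrough A _
  haveI := (isPushout1 cc A).choose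
  haveI := (isPushout1 cc A).choose_spec.choose
  haveI := (isPushout1 cc A).choose_spec.choose_spec
  Algebra.IsPushout.equiv k A (cover0 cc).R1 (coverA cc A).R1

/-- `A ⊗[k] Γ(C, U0 ⊓ U1) ≃ Γ(C_A, X0 ⊓ X1)`. -/
def theta01 : A ⊗[k] (cover0 cc).R01 ≃ₐ[A] (coverA cc A).R01 :=
  letI : Algebra (cover0 cc).R01 (coverA cc A).R01 := (pb01 cc A).toAlgebra
  letI : Algebra k (coverA cc A).R01 := algThrough A _
  haveI := (isPushout01 cc A).choose
  haveI := (isPushout01 cc A).choose_spec.choose
  haveI := (isPushout01 cc A).choose_spec.choose_spec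
  Algebra.IsPushout.equiv k A (cover0 cc).R01 (coverA cc A).R01

theorem theta0_tmul (a : A) (b : (cover0 cc).R0) :
    theta0 cc A (a ⊗ₜ[k] b) = algebraMap A (coverA cc A).R0 a * pb0 cc A b := by
  letI : Algebra (cover0 cc).R0 (coverA cc A).R0 := (pb0 cc A).toAlgebra
  letI : Algebra k (coverA cc A).R0 := algThrough A _
  haveI := (isPushout0 cc A).choose
  haveI := (isPushout0 cc A).choose_spec.choose
  haveI := (isPushout0 cc A).choose_spec.choose_spec
  exact Algebra.IsPushout.equiv_tmul k A (cover0 cc).R0 (coverA cc A).R0 a b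

theorem theta1_tmul (a : A) (b : (cover0 cc).R1) :
    theta1 cc A (a ⊗ₜ[k] b) = algebraMap A (coverA cc A).R1 a * pb1 cc A b := by
  letI : Algebra (cover0 cc).R1 (coverA cc A).R1 := (pb1 cc A).toAlgebra
  letI : Algebra k (coverA cc A).R1 := algThrough A _
  haveI := (isPushout1 cc A).choose
  haveI := (isPushout1 cc A).choose_spec.choose
  haveI := (isPushout1 cc A).choose_spec.choose_spec
  exact Algebra.IsPushout.equiv_tmul k A (cover0 cc).R1 (coverA cc A).R1 a b

theorem theta01_tmul (a : A) (b : (cover0 cc).R01) :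
    theta01 cc A (a ⊗ₜ[k] b) = algebraMap A (coverA cc A).R01 a * pb01 cc A b := by
  letI : Algebra (cover0 cc).R01 (coverA cc A).R01 := (pb01 cc A).toAlgebra
  letI : Algebra k (coverA cc A).R01 := algThrough A _
  haveI := (isPushout01 cc A).choose
  haveI := (isPushout01 cc A).choose_spec.choose
  haveI := (isPushout01 cc A).choose_spec.choose_spec
  exact Algebra.IsPushout.equiv_tmul k A (cover0 cc).R01 (coverA cc A).R01 a b

/-- `theta` is compatible with the restriction from the first chart to the overlap. -/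
theorem theta01_res0 (a : A) (b : (cover0 cc).R0) :
    theta01 cc A (a ⊗ₜ[k] (cover0 cc).res0 b) = (coverA cc A).res0 (theta0 cc A (a ⊗ₜ[k] b)) := by
  rw [theta01_tmul, theta0_tmul, map_mul, pb01_res0]
  congr 1
  exact (congrFun (congrArg DFunLike.coe (coverA cc A).res0_comp_str0) a).symm

/-- `theta` is compatible with the restriction from the second chart to the overlap. -/
theorem theta01_res1 (a : A) (b : (cover0 cc).R1) :
    theta01 cc A (a ⊗ₜ[k] (cover0 cc).res1 b) = (coverA cc A).res1 (theta1 cc A (a ⊗ₜ[k] b)) := by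
  rw [theta01_tmul, theta1_tmul, map_mul, pb01_res1]
  congr 1
  exact (congrFun (congrArg DFunLike.coe (coverA cc A).res1_comp_str1) a).symm

theorem theta0_one_tmul_tR : theta0 cc A (1 ⊗ₜ[k] (cover0 cc).tR) = (coverA cc A).tR := by
  rw [theta0_tmul, map_one, one_mul, pb0_tR]

theorem theta1_one_tmul_sR : theta1 cc A (1 ⊗ₜ[k] (cover0 cc).sR) = (coverA cc A).sR := by
  rw [theta1_tmul, map_one, one_mul, pb1_sR]

end Theta

/-! ### naturality in `A` -/

section Nat

variable {A} {A' : Type u} [CommRing A'] [Algebra k A'] (ψ : A →ₐ[k] A')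

/-- base change of functions on the first chart along `ψ : A → A'`. -/
def gb0 : (coverA cc A).R0 →+* (coverA cc A').R0 :=
  ((bcs c ψ).appLE (chart c A cc.U0) (chart c A' cc.U0) (bcs_preimage_chart c ψ cc.U0).ge).hom

/-- base change of functions on the second chart along `ψ : A → A'`. -/
def gb1 : (coverA cc A).R1 →+* (coverA cc A').R1 :=
  ((bcs c ψ).appLE (chart c A cc.U1) (chart c A' cc.U1) (bcs_preimage_chart c ψ cc.U1).ge).hom

/-- base change of functions on the overlap along `ψ : A → A'`. -/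
def gb01 : (coverA cc A).R01 →+* (coverA cc A').R01 :=
  ((bcs c ψ).appLE (chart c A (cc.U0 ⊓ cc.U1)) (chart c A' (cc.U0 ⊓ cc.U1))
    (bcs_preimage_chart c ψ (cc.U0 ⊓ cc.U1)).ge).hom

theorem gb0_algebraMap (a : A) :
    gb0 cc ψ (algebraMap A (coverA cc A).R0 a) = algebraMap A' (coverA cc A').R0 (ψ a) := by
  rw [TwoCover.algebraMap_A_R0, TwoCover.algebraMap_A_R0, coverA_str0, coverA_str0]
  exact bcs_appLE_secHom c ψ _ _ _ a

theorem gb1_algebraMap (a : A) :
    gb1 cc ψ (algebraMap A (coverA cc A).R1 a) = algebraMap A' (coverA cc A').R1 (ψ a) := by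
  rw [TwoCover.algebraMap_A_R1, TwoCover.algebraMap_A_R1, coverA_str1, coverA_str1]
  exact bcs_appLE_secHom c ψ _ _ _ a

theorem gb01_algebraMap (a : A) :
    gb01 cc ψ (algebraMap A (coverA cc A).R01 a) = algebraMap A' (coverA cc A').R01 (ψ a) := by
  rw [TwoCover.algebraMap_A_R01, TwoCover.algebraMap_A_R01, coverA_str01, coverA_str01]
  exact bcs_appLE_secHom c ψ _ _ _ a

theorem gb0_pb0 (b : (cover0 cc).R0) : gb0 cc ψ (pb0 cc A b) = pb0 cc A' b :=
  congrArg (fun f => f.hom b) (bcs_appLE_pr1 c ψ cc.U0)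

theorem gb1_pb1 (b : (cover0 cc).R1) : gb1 cc ψ (pb1 cc A b) = pb1 cc A' b :=
  congrArg (fun f => f.hom b) (bcs_appLE_pr1 c ψ cc.U1)

theorem gb01_pb01 (b : (cover0 cc).R01) : gb01 cc ψ (pb01 cc A b) = pb01 cc A' b :=
  congrArg (fun f => f.hom b) (bcs_appLE_pr1 c ψ (cc.U0 ⊓ cc.U1))

theorem gb0_theta0 (a : A) (b : (cover0 cc).R0) :
    gb0 cc ψ (theta0 cc A (a ⊗ₜ[k] b)) = theta0 cc A' (ψ a ⊗ₜ[k] b) := by
  rw [theta0_tmul, theta0_tmul, map_mul, gb0_algebraMap, gb0_pb0]

theorem gb1_theta1 (a : A) (b : (cover0 cc).R1) :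
    gb1 cc ψ (theta1 cc A (a ⊗ₜ[k] b)) = theta1 cc A' (ψ a ⊗ₜ[k] b) := by
  rw [theta1_tmul, theta1_tmul, map_mul, gb1_algebraMap, gb1_pb1]

theorem gb01_theta01 (a : A) (b : (cover0 cc).R01) :
    gb01 cc ψ (theta01 cc A (a ⊗ₜ[k] b)) = theta01 cc A' (ψ a ⊗ₜ[k] b) := by
  rw [theta01_tmul, theta01_tmul, map_mul, gb01_algebraMap, gb01_pb01]

end Nat

/-! ### the base point -/

section Base

/-- evaluation at the base point `P₀`, on the chart at infinity. -/
def P0 : (cover0 cc).R1 →+* k := evalBase c ε cc.base_mem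

/-- evaluation along the rigidifying section, on the chart at infinity of `C_A`. -/
def P0A : (coverA cc A).R1 →+* A := evalBaseA c ε A cc.base_mem

theorem P0_algebraMap (x : k) : P0 cc (algebraMap k (cover0 cc).R1 x) = x := by
  rw [TwoCover.algebraMap_A_R1, cover0_str1]
  exact evalBase_secHom c ε cc.base_mem x

theorem P0A_algebraMap (a : A) : P0A cc A (algebraMap A (coverA cc A).R1 a) = a := by
  rw [TwoCover.algebraMap_A_R1, coverA_str1]
  exact evalBaseA_secHom c ε A cc.base_mem a

theorem P0A_pb1 (b : (cover0 cc).R1) : P0A cc A (pb1 cc A b) = algebraMap k A (P0 cc b) :=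
  evalBaseA_pr1 c ε A cc.base_mem b

theorem P0A_theta1 (a : A) (b : (cover0 cc).R1) :
    P0A cc A (theta1 cc A (a ⊗ₜ[k] b)) = a * algebraMap k A (P0 cc b) := by
  rw [theta1_tmul, map_mul, P0A_algebraMap, P0A_pb1]

theorem P0_sR : P0 cc (cover0 cc).sR = 0 := evalBase_s cc

theorem P0A_sR : P0A cc A (coverA cc A).sR = 0 := evalBaseA_sA A cc

end Base

end Fermat.Agent.Jac.BridgeCharts33
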