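/-
Fermat/Agent/Jac/BridgeSheaf33Transport.lean  (helper33) -- S25 programme, brick B1b.

Transport of "the base change `A ⊗[R] N` is free of rank one" along ring isomorphisms
`θ : R ≃+* R'`, `ι : A ≃+* A'` and a `θ`-semilinear additive isomorphism `j : N ≃+ N'`.
-/
import Mathlib

set_option autoImplicit false

open TensorProduct

noncomputable section

namespace Fermat.Agent.Jac.BridgeSheaf33

variable {R R' A A' N N' : Type*} [CommRing R] [CommRing R'] [CommRing A] [CommRing A']
  [AddCommGroup N] [Module R N] [AddCommGroup N'] [Module R' N'] [Algebra R A] [Algebra R' A']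

section Hom

variable (θ : R →+* R') (ι : A →+* A') (j : N →+ N')
  (hθι : ∀ r, ι (algebraMap R A r) = algebraMap R' A' (θ r))
  (hj : ∀ (r : R) (n : N), j (r • n) = θ r • j n)

/-- the semilinear map `A ⊗[R] N → A' ⊗[R'] N'`, `a ⊗ n ↦ ι a ⊗ j n`. -/
def tensorSemiMap : A ⊗[R] N →+ A' ⊗[R'] N' :=
  TensorProduct.liftAddHom
    { toFun := fun a =>
        { toFun := fun n => ι a ⊗ₜ[R'] j n
          map_zero' := by rw [map_zero, tmul_zero]
          map_add' := fun n n' => by rw [map_add, tmul_add] }
      map_zero' := by ext n; simp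
      map_add' := fun a a' => by ext n; simp [add_tmul] }
    (fun r a n => by
      simp only [AddMonoidHom.coe_mk, ZeroHom.coe_mk]
      rw [Algebra.smul_def, map_mul, hθι, hj, ← Algebra.smul_def, smul_tmul])

@[simp]
theorem tensorSemiMap_tmul (a : A) (n : N) :
    tensorSemiMap θ ι j hθι hj (a ⊗ₜ[R] n) = ι a ⊗ₜ[R'] j n := rfl

theorem tensorSemiMap_smul (a : A) (x : A ⊗[R] N) :
    tensorSemiMap θ ι j hθι hj (a • x) = ι a • tensorSemiMap θ ι j hθι hj x := by
  induction x using TensorProduct.induction_on with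
  | zero => simp
  | tmul b n => simp [smul_tmul', map_mul]
  | add x y hx hy => simp only [smul_add, map_add, hx, hy]

end Hom

section Equiv

variable (θ : R ≃+* R') (ι : A ≃+* A') (j : N ≃+ N')
  (hθι : ∀ r, ι (algebraMap R A r) = algebraMap R' A' (θ r))
  (hj : ∀ (r : R) (n : N), j (r • n) = θ r • j n)

include hθι in
theorem symm_compat (r' : R') : ι.symm (algebraMap R' A' r') = algebraMap R A (θ.symm r') := by
  apply ι.injective
  rw [RingEquiv.apply_symm_apply, hθι, RingEquiv.apply_symm_apply]

include hj in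
theorem symm_semilinear (r' : R') (n' : N') : j.symm (r' • n') = θ.symm r' • j.symm n' := by
  apply j.injective
  rw [AddEquiv.apply_symm_apply, hj, RingEquiv.apply_symm_apply, AddEquiv.apply_symm_apply]

/-- the semilinear isomorphism `A ⊗[R] N ≃ A' ⊗[R'] N'`. -/
def tensorSemiEquiv : A ⊗[R] N ≃+ A' ⊗[R'] N' where
  toFun := tensorSemiMap (θ : R →+* R') (ι : A →+* A') (j : N →+ N') hθι hj
  invFun := tensorSemiMap (θ.symm : R' →+* R) (ι.symm : A' →+* A) (j.symm : N' →+ N)
    (symm_compat θ ι hθι) (symm_semilinear θ j hj)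
  left_inv x := by
    induction x using TensorProduct.induction_on with
    | zero => rw [map_zero, map_zero]
    | tmul a n =>
      show ι.symm (ι a) ⊗ₜ[R] j.symm (j n) = a ⊗ₜ[R] n
      rw [RingEquiv.symm_apply_apply, AddEquiv.symm_apply_apply]
    | add x y hx hy => rw [map_add, map_add, hx, hy]
  right_inv x := by
    induction x using TensorProduct.induction_on with
    | zero => rw [map_zero, map_zero]
    | tmul a n =>
      show ι (ι.symm a) ⊗ₜ[R'] j (j.symm n) = a ⊗ₜ[R'] n
      rw [RingEquiv.apply_symm_apply, AddEquiv.apply_symm_apply]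
    | add x y hx hy => rw [map_add, map_add, hx, hy]
  map_add' := map_add _

@[simp]
theorem tensorSemiEquiv_tmul (a : A) (n : N) :
    tensorSemiEquiv θ ι j hθι hj (a ⊗ₜ[R] n) = ι a ⊗ₜ[R'] j n := rfl

theorem tensorSemiEquiv_smul (a : A) (x : A ⊗[R] N) :
    tensorSemiEquiv θ ι j hθι hj (a • x) = ι a • tensorSemiEquiv θ ι j hθι hj x :=
  tensorSemiMap_smul (θ : R →+* R') (ι : A →+* A') (j : N →+ N') hθι hj a x

include hθι hj in
/-- freeness of rank one of the base change is invariant under transport. -/
theorem nonempty_rankOne_of_transport (h : Nonempty (A' ⊗[R'] N' ≃ₗ[A'] A')) :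
    Nonempty (A ⊗[R] N ≃ₗ[A] A) := by
  obtain ⟨e⟩ := h
  let F := tensorSemiEquiv θ ι j hθι hj
  refine ⟨{ toFun := fun x => ι.symm (e (F x))
            invFun := fun a => F.symm (e.symm (ι a))
            map_add' := fun x y => by simp only [map_add]
            map_smul' := fun a x => by
              simp only [RingHom.id_apply]
              rw [tensorSemiEquiv_smul, map_smul, smul_eq_mul, map_mul, RingEquiv.symm_apply_apply,
                smul_eq_mul]
            left_inv := fun x => by simp
            right_inv := fun a => by simp }⟩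

include hθι hj in
theorem nonempty_rankOne_iff_transport :
    Nonempty (A ⊗[R] N ≃ₗ[A] A) ↔ Nonempty (A' ⊗[R'] N' ≃ₗ[A'] A') :=
  ⟨nonempty_rankOne_of_transport θ.symm ι.symm j.symm (symm_compat θ ι hθι)
      (symm_semilinear θ j hj),
    nonempty_rankOne_of_transport θ ι j hθι hj⟩

end Equiv

end Fermat.Agent.Jac.BridgeSheaf33
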