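/-
Fermat/Agent/Jac/BridgeSheaf33Rig.lean  (helper33) -- S25 programme, brick B1b, field
`rigidified_iff` (modulo brick M4 PullbackSections, which enters as the hypothesis `RigM4`).

* `spec_nonempty_iso_unit_iff` : an invertible sheaf on `Spec R` is trivial iff its module of
  global sections is free of rank one;
* `RigM4 cc A M` : the M4 input, `Γ(Spec A, ⊤) ⊗[Γ(C_A, X1)] Γ(M, X1) ≃ Γ(rigA^* M, ⊤)`;
* `RigidSec cc A N` : `A ⊗[Γ(C_A, X1)] N ≃ₗ[A] A` along `P0A`;
* `rigidified_iff_sections` : `rigA^* M ≅ 𝒪` iff `RigidSec cc A Γ(M, X1)`;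
* `theta1B`, `rigidMod_iff_rigidSec`, `rigidified_iff_rigidMod` : the same in terms of helper87's
  `cc.RigidMod A N'` for a module `N'` over the tensor ring `A ⊗[k] cc.B1` identified with
  `Γ(M, X1)` semilinearly along `theta1B`.
-/
import Mathlib
import Fermat.Agent.Jac.AffineDict87.Statement
import Fermat.Agent.Jac.AffineDict34.SpecInvertible
import Fermat.Agent.Jac.BridgeCharts33Theta
import Fermat.Agent.Jac.BridgeSheaf33Transport

set_option autoImplicit false
set_option linter.style.haveILetI false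

open CategoryTheory CategoryTheory.Limits AlgebraicGeometry TopologicalSpace Opposite
open NeronModelInfra AlgebraicGeometry.RelPicard TensorProduct
open Fermat.Agent.Jac.TwoCoverGammaSetting Fermat.Agent.Jac.BridgeCharts33

universe u

noncomputable section

namespace Fermat.Agent.Jac.BridgeSheaf33

/-- For a bijective algebra map `R → S`, rank-one freeness over `R` and over `S` agree. -/
theorem nonempty_rankOne_iff_of_bijective {R S Q : Type*} [CommRing R] [CommRing S] [Algebra R S]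
    [AddCommGroup Q] [Module R Q] [Module S Q] [IsScalarTower R S Q]
    (h : Function.Bijective (algebraMap R S)) :
    Nonempty (Q ≃ₗ[R] R) ↔ Nonempty (Q ≃ₗ[S] S) := by
  let eRS : R ≃ₗ[R] S := LinearEquiv.ofBijective (Algebra.linearMap R S) h
  constructor
  · rintro ⟨E⟩
    exact ⟨(E ≪≫ₗ eRS).extendScalarsOfSurjective h.2⟩
  · rintro ⟨E⟩
    exact ⟨(E.restrictScalars R) ≪≫ₗ eRS.symm⟩

theorem bijective_algebraMap_Spec_top (R : CommRingCat.{u}) :
    Function.Bijective (algebraMap R Γ(Spec R, ⊤)) := by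
  rw [IsAffineOpen.algebraMap_Spec_obj]
  have : IsIso ((Scheme.ΓSpecIso R).inv ≫
      (Spec R).presheaf.map (homOfLE (le_top : (⊤ : (Spec R).Opens) ≤ ⊤)).op) := by
    have h1 : (homOfLE (le_top : (⊤ : (Spec R).Opens) ≤ ⊤)) = 𝟙 _ := rfl
    rw [h1, op_id, CategoryTheory.Functor.map_id, Category.comp_id]
    infer_instance
  exact (ConcreteCategory.isIso_iff_bijective _).mp this

/-- An invertible sheaf on `Spec R` is trivial iff its module of global sections is free of rank
one (over `Γ(Spec R, ⊤)`). -/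
theorem spec_nonempty_iso_unit_iff {R : CommRingCat.{u}} (L : (Spec R).Modules)
    (hL : Scheme.Modules.IsInvertible L) :
    Nonempty (L ≅ SheafOfModules.unit (Spec R).ringCatSheaf) ↔
      Nonempty (Γ(L, ⊤) ≃ₗ[Γ(Spec R, ⊤)] Γ(Spec R, ⊤)) := by
  have e0 := AffineDict34.isoTildeGlobalSections L hL
  have h1 : Nonempty (L ≅ SheafOfModules.unit (Spec R).ringCatSheaf) ↔
      Nonempty (tilde (AffineDict34.globalSections L) ≅
        SheafOfModules.unit (Spec R).ringCatSheaf) :=
    ⟨fun ⟨e⟩ => ⟨e0 ≪≫ e⟩, fun ⟨e⟩ => ⟨e0.symm ≪≫ e⟩⟩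
  rw [h1, AffineDict34.nonempty_tilde_iso_unit_iff]
  have : IsScalarTower R Γ(Spec R, ⊤) Γ(L, ⊤) := inferInstance
  exact nonempty_rankOne_iff_of_bijective (R := R) (S := Γ(Spec R, ⊤)) (Q := Γ(L, ⊤))
    (bijective_algebraMap_Spec_top R)

section Rig

variable {k : Type u} [Field k] {C : Scheme.{u}} {c : C ⟶ Spec (CommRingCat.of k)}
variable {ε : SchemeHomOver (𝟙 (Spec (CommRingCat.of k))) c} (cc : CurveCharts c ε)
variable (A : Type u) [CommRing A] [Algebra k A]

/-- the ring homomorphism `Γ(C_A, X1) → Γ(Spec A, ⊤)` induced by the rigidifying section. -/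
def rigAppLE : Γ(XA c A, X1 cc A) →+* Γ(Spec (CommRingCat.of A), ⊤) :=
  ((rigA c ε A).appLE (X1 cc A) ⊤ (rigA_preimage_chart c ε A cc.base_mem).ge).hom

/-- The input from brick M4 (PullbackSections, helper70) for the rigidifying section: sections of
`rigA^* M` over `Spec A` are the base change of `Γ(M, X1)` along `rigAppLE`. -/
def RigM4 (M : (XA c A).Modules) : Prop :=
  letI : Algebra Γ(XA c A, X1 cc A) Γ(Spec (CommRingCat.of A), ⊤) := (rigAppLE cc A).toAlgebra
  Nonempty (TensorProduct Γ(XA c A, X1 cc A) Γ(Spec (CommRingCat.of A), ⊤) Γ(M, X1 cc A)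
    ≃ₗ[Γ(Spec (CommRingCat.of A), ⊤)] Γ((Scheme.Modules.pullback (rigA c ε A)).obj M, ⊤))

/-- `A ≃ Γ(Spec A, ⊤)`. -/
def gammaSpecEquiv : A ≃+* Γ(Spec (CommRingCat.of A), ⊤) :=
  (Scheme.ΓSpecIso (CommRingCat.of A)).symm.commRingCatIsoToRingEquiv

theorem gammaSpecEquiv_P0A (r : (coverA cc A).R1) :
    gammaSpecEquiv A (P0A cc A r) = rigAppLE cc A r := by
  change (Scheme.ΓSpecIso (CommRingCat.of A)).inv.hom
    ((Scheme.ΓSpecIso (CommRingCat.of A)).hom.hom (rigAppLE cc A r)) = _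
  rw [← CommRingCat.comp_apply, Iso.hom_inv_id]
  rfl

/-- The pullback of the `Γ(C_A, X1)`-module `N` along `P0A : Γ(C_A, X1) → A` is free of rank one
over `A`. -/
def RigidSec (N : Type u) [AddCommGroup N] [Module (coverA cc A).R1 N] : Prop :=
  letI : Algebra (coverA cc A).R1 A := (P0A cc A).toAlgebra
  Nonempty (A ⊗[(coverA cc A).R1] N ≃ₗ[A] A)

variable {A}

/-- **Rigidification in terms of sections**: `rigA^* M` is trivial iff the pullback of
`Γ(M, X1)` along `P0A` is free of rank one. -/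
theorem rigidified_iff_sections (M : (XA c A).Modules) (hM : Scheme.Modules.IsInvertible M)
    (h4 : RigM4 cc A M) :
    Nonempty ((Scheme.Modules.pullback (rigA c ε A)).obj M ≅
        SheafOfModules.unit (Spec (CommRingCat.of A)).ringCatSheaf) ↔
      RigidSec cc A ((coverA cc A).N1 M) := by
  rw [spec_nonempty_iso_unit_iff _ (hM.pullback _)]
  letI i1 : Algebra Γ(XA c A, X1 cc A) Γ(Spec (CommRingCat.of A), ⊤) := (rigAppLE cc A).toAlgebra
  letI i2 : Algebra (coverA cc A).R1 A := (P0A cc A).toAlgebra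
  obtain ⟨e⟩ := h4
  have h2 : Nonempty (Γ((Scheme.Modules.pullback (rigA c ε A)).obj M, ⊤)
        ≃ₗ[Γ(Spec (CommRingCat.of A), ⊤)] Γ(Spec (CommRingCat.of A), ⊤)) ↔
      Nonempty (TensorProduct Γ(XA c A, X1 cc A) Γ(Spec (CommRingCat.of A), ⊤) Γ(M, X1 cc A)
        ≃ₗ[Γ(Spec (CommRingCat.of A), ⊤)] Γ(Spec (CommRingCat.of A), ⊤)) :=
    ⟨fun ⟨E⟩ => ⟨e ≪≫ₗ E⟩, fun ⟨E⟩ => ⟨e.symm ≪≫ₗ E⟩⟩
  rw [h2]
  have key : Nonempty (A ⊗[(coverA cc A).R1] (coverA cc A).N1 M ≃ₗ[A] A) ↔
      Nonempty (TensorProduct Γ(XA c A, X1 cc A) Γ(Spec (CommRingCat.of A), ⊤) Γ(M, X1 cc A)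
        ≃ₗ[Γ(Spec (CommRingCat.of A), ⊤)] Γ(Spec (CommRingCat.of A), ⊤)) :=
    nonempty_rankOne_iff_transport (RingEquiv.refl _) (gammaSpecEquiv A) (AddEquiv.refl _)
      (fun r => gammaSpecEquiv_P0A cc A r) (fun r n => rfl)
  exact key.symm

end Rig


section RigB

variable {k : Type u} [Field k] {C : Scheme.{u}} {c : C ⟶ Spec (CommRingCat.of k)}
variable {ε : SchemeHomOver (𝟙 (Spec (CommRingCat.of k))) c} (cc : CurveCharts c ε)
variable (A : Type u) [CommRing A] [Algebra k A]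

/-- `theta1` restated for helper87's chart ring `cc.B1` (defeq to `(cover0 cc).R1`). -/
def theta1B : A ⊗[k] cc.B1 ≃ₐ[A] (coverA cc A).R1 := theta1 cc A

theorem theta1B_tmul (a : A) (b : cc.B1) :
    theta1B cc A (a ⊗ₜ[k] b) = algebraMap A (coverA cc A).R1 a * pb1 cc A b :=
  theta1_tmul cc A a b

theorem P0_eq (b : cc.B1) : cc.P0 b = BridgeCharts33.P0 cc b := rfl

theorem evalA_eq_P0A_theta1B (t : A ⊗[k] cc.B1) :
    cc.evalA A t = P0A cc A (theta1B cc A t) := by
  induction t using TensorProduct.induction_on with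
  | zero => simp
  | tmul a b =>
    rw [CurveCharts.evalA_tmul, P0_eq]
    exact (P0A_theta1 cc A a b).symm
  | add x y hx hy => simp only [map_add, hx, hy]


/-- `cc.RigidMod` (over the tensor ring `A ⊗[k] cc.B1`, along `cc.evalA`) agrees with `RigidSec`
(over the section ring `Γ(C_A, X1)`, along `P0A`) for modules identified semilinearly along
`theta1B`. -/
theorem rigidMod_iff_rigidSec (N' : Type u) [AddCommGroup N'] [Module (A ⊗[k] cc.B1) N']
    (N : Type u) [AddCommGroup N] [Module (coverA cc A).R1 N] (j : N' ≃+ N)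
    (hj : ∀ (t : A ⊗[k] cc.B1) (n : N'), j (t • n) = theta1B cc A t • j n) :
    cc.RigidMod A N' ↔ RigidSec cc A N := by
  letI i1 : Algebra (A ⊗[k] cc.B1) A := cc.algEval A
  letI i2 : Algebra (coverA cc A).R1 A := (P0A cc A).toAlgebra
  exact nonempty_rankOne_iff_transport (theta1B cc A).toRingEquiv (RingEquiv.refl A) j
    (fun t => evalA_eq_P0A_theta1B cc A t) hj

variable {A}

/-- **The `rigidified_iff` field, modulo M4**: for an invertible sheaf `M` on `C_A` and an
`A ⊗[k] cc.B1`-module `N'` identified with `Γ(M, X1)` semilinearly along `theta1B`. -/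
theorem rigidified_iff_rigidMod (M : (XA c A).Modules) (hM : Scheme.Modules.IsInvertible M)
    (h4 : RigM4 cc A M) (N' : Type u) [AddCommGroup N'] [Module (A ⊗[k] cc.B1) N']
    (j : N' ≃+ (coverA cc A).N1 M)
    (hj : ∀ (t : A ⊗[k] cc.B1) (n : N'), j (t • n) = theta1B cc A t • j n) :
    Nonempty ((Scheme.Modules.pullback (rigSection c (specStr A) ε)).obj M ≅
        SheafOfModules.unit (Spec (CommRingCat.of A)).ringCatSheaf) ↔ cc.RigidMod A N' :=
  (rigidified_iff_sections cc M hM h4).trans (rigidMod_iff_rigidSec cc A N' _ j hj).symm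

end RigB

end Fermat.Agent.Jac.BridgeSheaf33
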