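/-
Fermat/Agent/Jac/BridgeSheaf33ThetaB.lean  (helper33) -- S25 programme, brick B1b.

The tensor identifications `theta0/theta1/theta01` of `BridgeCharts33Theta` restated for
helper87's chart rings `cc.B0`, `cc.B1`, `cc.B01` (`AffineDict87/Setup.lean`) and helper75's
scoped algebra structures on the tensor rings (`BaseChange75/Rings.lean`):
compatibility with the restriction maps to the overlap, with the coordinates `t`, `s`, and with
base change `A → A'`.
-/
import Mathlib
import Fermat.Agent.Jac.BridgeSheaf33Rig

set_option autoImplicit false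
set_option linter.style.haveILetI false

open CategoryTheory CategoryTheory.Limits AlgebraicGeometry TopologicalSpace Opposite
open NeronModelInfra AlgebraicGeometry.RelPicard TensorProduct
open Fermat.Agent.Jac.TwoCoverGammaSetting Fermat.Agent.Jac.BridgeCharts33

universe u

noncomputable section

namespace Fermat.Agent.Jac.BridgeSheaf33

open scoped Fermat.Agent.Jac.BaseChange75

variable {k : Type u} [Field k] {C : Scheme.{u}} {c : C ⟶ Spec (CommRingCat.of k)}
variable {ε : SchemeHomOver (𝟙 (Spec (CommRingCat.of k))) c} (cc : CurveCharts c ε)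
variable (A : Type u) [CommRing A] [Algebra k A]

/-- `theta0` restated for helper87's chart ring `cc.B0`. -/
def theta0B : A ⊗[k] cc.B0 ≃ₐ[A] (coverA cc A).R0 := theta0 cc A

/-- `theta01` restated for helper87's chart ring `cc.B01`. -/
def theta01B : A ⊗[k] cc.B01 ≃ₐ[A] (coverA cc A).R01 := theta01 cc A

theorem theta0B_tmul (a : A) (b : cc.B0) :
    theta0B cc A (a ⊗ₜ[k] b) = algebraMap A (coverA cc A).R0 a * pb0 cc A b :=
  theta0_tmul cc A a b

theorem theta01B_tmul (a : A) (b : cc.B01) :
    theta01B cc A (a ⊗ₜ[k] b) = algebraMap A (coverA cc A).R01 a * pb01 cc A b :=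
  theta01_tmul cc A a b

/-- compatibility with the restriction maps `A ⊗ B0 → A ⊗ B01` (helper75's scoped instance) and
`Γ(C_A, X0) → Γ(C_A, X0 ⊓ X1)` (helper40's instance). -/
theorem theta01B_algebraMap0 (x : A ⊗[k] cc.B0) :
    theta01B cc A (algebraMap (A ⊗[k] cc.B0) (A ⊗[k] cc.B01) x) =
      algebraMap (coverA cc A).R0 (coverA cc A).R01 (theta0B cc A x) := by
  induction x using TensorProduct.induction_on with
  | zero => simp
  | tmul a b =>
    rw [BaseChange75.algebraMap_right_tmul]
    exact theta01_res0 cc A a b
  | add x y hx hy => simp only [map_add, hx, hy]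

theorem theta01B_algebraMap1 (x : A ⊗[k] cc.B1) :
    theta01B cc A (algebraMap (A ⊗[k] cc.B1) (A ⊗[k] cc.B01) x) =
      algebraMap (coverA cc A).R1 (coverA cc A).R01 (theta1B cc A x) := by
  induction x using TensorProduct.induction_on with
  | zero => simp
  | tmul a b =>
    rw [BaseChange75.algebraMap_right_tmul]
    exact theta01_res1 cc A a b
  | add x y hx hy => simp only [map_add, hx, hy]

theorem theta0B_t : theta0B cc A (cc.chartA A).t = (coverA cc A).chart.t :=
  theta0_one_tmul_tR cc A

theorem theta1B_s : theta1B cc A (cc.chartA A).s = (coverA cc A).chart.s :=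
  theta1_one_tmul_sR cc A

section Nat

variable {A} {A' : Type u} [CommRing A'] [Algebra k A'] [Algebra A A'] [IsScalarTower k A A']

theorem gb0_theta0B (x : A ⊗[k] cc.B0) :
    gb0 cc (IsScalarTower.toAlgHom k A A') (theta0B cc A x) =
      theta0B cc A' (algebraMap (A ⊗[k] cc.B0) (A' ⊗[k] cc.B0) x) := by
  induction x using TensorProduct.induction_on with
  | zero => simp
  | tmul a b =>
    rw [BaseChange75.algebraMap_left_tmul]
    exact gb0_theta0 cc (IsScalarTower.toAlgHom k A A') a b
  | add x y hx hy => simp only [map_add, hx, hy]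

theorem gb1_theta1B (x : A ⊗[k] cc.B1) :
    gb1 cc (IsScalarTower.toAlgHom k A A') (theta1B cc A x) =
      theta1B cc A' (algebraMap (A ⊗[k] cc.B1) (A' ⊗[k] cc.B1) x) := by
  induction x using TensorProduct.induction_on with
  | zero => simp
  | tmul a b =>
    rw [BaseChange75.algebraMap_left_tmul]
    exact gb1_theta1 cc (IsScalarTower.toAlgHom k A A') a b
  | add x y hx hy => simp only [map_add, hx, hy]

theorem gb01_theta01B (x : A ⊗[k] cc.B01) :
    gb01 cc (IsScalarTower.toAlgHom k A A') (theta01B cc A x) =
      theta01B cc A' (algebraMap (A ⊗[k] cc.B01) (A' ⊗[k] cc.B01) x) := by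
  induction x using TensorProduct.induction_on with
  | zero => simp
  | tmul a b =>
    rw [BaseChange75.algebraMap_left_tmul]
    exact gb01_theta01 cc (IsScalarTower.toAlgHom k A A') a b
  | add x y hx hy => simp only [map_add, hx, hy]

end Nat

end Fermat.Agent.Jac.BridgeSheaf33
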