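/-
Fermat/Agent/Jac/BridgeSheaf33Top.lean  (helper33) -- S25 programme, brick B1b, field `gamma_top`.

`gammaTop_bijective cc A : Function.Bijective (secHom (pr2 c A) ⊤)`, i.e. `Γ(C_A, 𝒪) = A` for
every `k`-algebra `A`: sheaf condition on the two-cover `coverA cc A`, the tensor identifications
`theta0/theta1/theta01`, Čech exactness on the curve (`cc.global_const`) and flatness of `A`
over the field `k`.
-/
import Mathlib
import Fermat.Agent.Jac.BridgeCharts33Theta

set_option autoImplicit false

open CategoryTheory CategoryTheory.Limits AlgebraicGeometry TopologicalSpace Opposite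
open NeronModelInfra AlgebraicGeometry.RelPicard TensorProduct
open Fermat.Agent.Jac.TwoCoverGammaSetting

universe u

noncomputable section

namespace Fermat.Agent.Jac.BridgeCharts33

section Algebra

theorem tensor_pair_of_exact {k A B0 B1 B01 : Type u} [Field k] [CommRing A] [Algebra k A]
    [AddCommGroup B0] [Module k B0] [AddCommGroup B1] [Module k B1] [AddCommGroup B01]
    [Module k B01] (f0 : B0 →ₗ[k] B01) (f1 : B1 →ₗ[k] B01) (e0 : B0) (e1 : B1)
    (he : f0 e0 = f1 e1)
    (hex : ∀ b0 b1, f0 b0 = f1 b1 → ∃ x : k, b0 = x • e0 ∧ b1 = x • e1)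
    (x0 : A ⊗[k] B0) (x1 : A ⊗[k] B1) (h : f0.lTensor A x0 = f1.lTensor A x1) :
    ∃ a : A, x0 = a ⊗ₜ[k] e0 ∧ x1 = a ⊗ₜ[k] e1 := by
  let D : (B0 × B1) →ₗ[k] B01 := f0.coprod (-f1)
  let ι : k →ₗ[k] (B0 × B1) := (LinearMap.toSpanSingleton k B0 e0).prod (LinearMap.toSpanSingleton k B1 e1)
  have hexact : Function.Exact ι D := by
    intro p
    constructor
    · intro hp
      have hp' : f0 p.1 = f1 p.2 := by
        have : f0 p.1 + -(f1 p.2) = 0 := by simpa [D, LinearMap.coprod_apply] using hp
        exact add_neg_eq_zero.mp this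
      obtain ⟨x, h0, h1⟩ := hex p.1 p.2 hp'
      exact ⟨x, Prod.ext (by simp [ι, h0]) (by simp [ι, h1])⟩
    · rintro ⟨x, rfl⟩
      simp [D, ι, LinearMap.coprod_apply, he]
  have hflat : Function.Exact (ι.lTensor A) (D.lTensor A) := Module.Flat.lTensor_exact A hexact
  let z : A ⊗[k] (B0 × B1) := (TensorProduct.prodRight k k A B0 B1).symm (x0, x1)
  have hD : ∀ w : A ⊗[k] (B0 × B1), D.lTensor A w =
      f0.lTensor A ((TensorProduct.prodRight k k A B0 B1) w).1 -
        f1.lTensor A ((TensorProduct.prodRight k k A B0 B1) w).2 := by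
    intro w
    induction w using TensorProduct.induction_on with
    | zero => simp
    | tmul a p =>
      obtain ⟨p0, p1⟩ := p
      simp [D, LinearMap.coprod_apply, TensorProduct.tmul_add, TensorProduct.tmul_neg, sub_eq_add_neg]
    | add x y hx hy => simp only [map_add, hx, hy, Prod.fst_add, Prod.snd_add]; abel
  have hz : D.lTensor A z = 0 := by
    rw [hD z]
    simp only [z, LinearEquiv.apply_symm_apply]
    rw [h, sub_self]
  obtain ⟨w, hw⟩ := (hflat z).mp hz
  refine ⟨TensorProduct.rid k A w, ?_⟩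
  have hw' : ∀ w : A ⊗[k] k, (TensorProduct.prodRight k k A B0 B1) (ι.lTensor A w) =
      (TensorProduct.rid k A w ⊗ₜ[k] e0, TensorProduct.rid k A w ⊗ₜ[k] e1) := by
    intro w
    induction w using TensorProduct.induction_on with
    | zero => simp; rfl
    | tmul a x =>
      simp [ι, TensorProduct.smul_tmul]
    | add x y hx hy =>
      simp only [map_add, hx, hy, TensorProduct.add_tmul, Prod.mk_add_mk]
  have := hw' w
  rw [hw] at this
  simp only [z, LinearEquiv.apply_symm_apply] at this
  exact ⟨congrArg Prod.fst this, congrArg Prod.snd this⟩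

end Algebra

section TwoCoverRing

variable {A : Type u} [CommRing A] {X : Scheme.{u}} (𝒲 : TwoCover A X)

/-- restriction of global functions to the first chart -/
def resT0 : Γ(X, ⊤) →+* 𝒲.R0 := (X.presheaf.map (homOfLE (le_top : 𝒲.U0 ≤ ⊤)).op).hom

/-- restriction of global functions to the second chart -/
def resT1 : Γ(X, ⊤) →+* 𝒲.R1 := (X.presheaf.map (homOfLE (le_top : 𝒲.U1 ≤ ⊤)).op).hom

theorem resT0_str (a : A) : resT0 𝒲 (𝒲.str a) = algebraMap A 𝒲.R0 a := rfl

theorem resT1_str (a : A) : resT1 𝒲 (𝒲.str a) = algebraMap A 𝒲.R1 a := rfl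

theorem twoCover_sections_ext (g g' : Γ(X, ⊤)) (h0 : resT0 𝒲 g = resT0 𝒲 g')
    (h1 : resT1 𝒲 g = resT1 𝒲 g') : g = g' := by
  have hb := (𝒲.toH0_bijective 𝒲.isQC_unit).1
  have : 𝒲.toH0 𝒲.isQC_unit (g : 𝒲.NTop (TwoCover.unitModule X)) =
      𝒲.toH0 𝒲.isQC_unit (g' : 𝒲.NTop (TwoCover.unitModule X)) := by
    apply Subtype.ext
    exact Prod.ext h0 h1
  exact hb this

theorem twoCover_sections_glue (a : 𝒲.R0) (b : 𝒲.R1) (h : 𝒲.res0 a = 𝒲.res1 b) :
    ∃ g : Γ(X, ⊤), resT0 𝒲 g = a ∧ resT1 𝒲 g = b := by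
  have hb := (𝒲.toH0_bijective 𝒲.isQC_unit).2
  have hmem : ((a, b) : 𝒲.N0 (TwoCover.unitModule X) × 𝒲.N1 (TwoCover.unitModule X)) ∈
      (𝒲.Gamma2 (TwoCover.unitModule X) 𝒲.isQC_unit).H0 :=
    (𝒲.mem_H0_iff 𝒲.isQC_unit (a, b)).mpr h
  obtain ⟨g, hg⟩ := hb ⟨(a, b), hmem⟩
  refine ⟨g, ?_, ?_⟩
  · exact congrArg (fun p => p.1.1) hg
  · exact congrArg (fun p => p.1.2) hg

end TwoCoverRing


section GammaTop

variable {k : Type u} [Field k] {C : Scheme.{u}} {c : C ⟶ Spec (CommRingCat.of k)}
variable {ε : SchemeHomOver (𝟙 (Spec (CommRingCat.of k))) c} (cc : CurveCharts c ε)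
variable (A : Type u) [CommRing A] [Algebra k A]

/-- Čech exactness on the curve: compatible functions on the two charts are constants. -/
theorem cover0_const (b0 : (cover0 cc).R0) (b1 : (cover0 cc).R1)
    (h : (cover0 cc).res0 b0 = (cover0 cc).res1 b1) :
    ∃ x : k, b0 = algebraMap k (cover0 cc).R0 x ∧ b1 = algebraMap k (cover0 cc).R1 x := by
  obtain ⟨g, hg0, hg1⟩ := twoCover_sections_glue (cover0 cc) b0 b1 h
  obtain ⟨x, rfl⟩ := cc.global_const.2 g
  exact ⟨x, hg0.symm, hg1.symm⟩

/-- restriction to the overlap, `k`-linearly -/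
def res0Lin : (cover0 cc).R0 →ₗ[k] (cover0 cc).R01 :=
  (IsScalarTower.toAlgHom k (cover0 cc).R0 (cover0 cc).R01).toLinearMap

/-- restriction to the overlap, `k`-linearly -/
def res1Lin : (cover0 cc).R1 →ₗ[k] (cover0 cc).R01 :=
  (IsScalarTower.toAlgHom k (cover0 cc).R1 (cover0 cc).R01).toLinearMap

theorem res0Lin_apply (b : (cover0 cc).R0) : res0Lin cc b = (cover0 cc).res0 b := rfl

theorem res1Lin_apply (b : (cover0 cc).R1) : res1Lin cc b = (cover0 cc).res1 b := rfl

theorem theta01_lTensor_res0 (x : A ⊗[k] (cover0 cc).R0) :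
    theta01 cc A ((res0Lin cc).lTensor A x) = (coverA cc A).res0 (theta0 cc A x) := by
  induction x using TensorProduct.induction_on with
  | zero => simp
  | tmul a b => exact theta01_res0 cc A a b
  | add x y hx hy => simp only [map_add, hx, hy]

theorem theta01_lTensor_res1 (x : A ⊗[k] (cover0 cc).R1) :
    theta01 cc A ((res1Lin cc).lTensor A x) = (coverA cc A).res1 (theta1 cc A x) := by
  induction x using TensorProduct.induction_on with
  | zero => simp
  | tmul a b => exact theta01_res1 cc A a b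
  | add x y hx hy => simp only [map_add, hx, hy]

theorem res0_resT0 {A : Type u} [CommRing A] {X : Scheme.{u}} (𝒲 : TwoCover A X) (g : Γ(X, ⊤)) :
    𝒲.res0 (resT0 𝒲 g) = 𝒲.res1 (resT1 𝒲 g) := by
  change (X.presheaf.map _ ≫ X.presheaf.map _).hom g = (X.presheaf.map _ ≫ X.presheaf.map _).hom g
  rw [← Functor.map_comp, ← Functor.map_comp]
  rfl

include cc in
/-- **Global functions on `C_A` are `A`.** -/
theorem gammaTop_bijective :
    Function.Bijective (secHom (pr2 c A) (⊤ : (XA c A).Opens)) := by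
  constructor
  · rw [injective_iff_map_eq_zero]
    intro a ha
    have h1 : algebraMap A (coverA cc A).R1 a = 0 := by
      have := congrArg (resT1 (coverA cc A)) ha
      rw [map_zero] at this
      exact this
    have := congrArg (P0A cc A) h1
    rw [P0A_algebraMap, map_zero] at this
    exact this
  · intro g
    set g0 := resT0 (coverA cc A) g with hg0
    set g1 := resT1 (coverA cc A) g with hg1
    have hres : (coverA cc A).res0 g0 = (coverA cc A).res1 g1 := res0_resT0 (coverA cc A) g
    set x0 := (theta0 cc A).symm g0 with hx0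
    set x1 := (theta1 cc A).symm g1 with hx1
    have hx : (res0Lin cc).lTensor A x0 = (res1Lin cc).lTensor A x1 := by
      apply (theta01 cc A).injective
      rw [theta01_lTensor_res0, theta01_lTensor_res1, hx0, hx1, AlgEquiv.apply_symm_apply,
        AlgEquiv.apply_symm_apply, hres]
    obtain ⟨a, ha0, ha1⟩ := tensor_pair_of_exact (res0Lin cc) (res1Lin cc) 1 1
      (by rw [res0Lin_apply, res1Lin_apply, map_one, map_one])
      (fun b0 b1 hb => by
        obtain ⟨x, h0, h1⟩ := cover0_const cc b0 b1 hb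
        exact ⟨x, by rw [h0, Algebra.algebraMap_eq_smul_one],
          by rw [h1, Algebra.algebraMap_eq_smul_one]⟩) x0 x1 hx
    refine ⟨a, ?_⟩
    apply twoCover_sections_ext (coverA cc A)
    · change algebraMap A (coverA cc A).R0 a = g0
      have := congrArg (theta0 cc A) ha0
      rw [hx0, AlgEquiv.apply_symm_apply, theta0_tmul, map_one, mul_one] at this
      exact this.symm
    · change algebraMap A (coverA cc A).R1 a = g1
      have := congrArg (theta1 cc A) ha1
      rw [hx1, AlgEquiv.apply_symm_apply, theta1_tmul, map_one, mul_one] at this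
      exact this.symm

end GammaTop

end Fermat.Agent.Jac.BridgeCharts33
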