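/-
Fermat/Agent/Jac/AffineSections40.lean  (helper40)

Brick M3a of the S25 programme, part 2a: sections of quasi-coherent modules over an affine open.

For an affine open `U` of a scheme `X` with `g = hU.fromSpec : Spec Γ(X, U) ⟶ X` and a sheaf of
modules `M` on `X`, the sections of `M` over `V = g ''ᵁ W` are identified, `Γ(X, U)`-linearly, with
the sections over `W` of the restriction `M.restrict g`, a sheaf of modules on the affine scheme
`Spec Γ(X, U)`.  For quasi-coherent `M` this transports Mathlib's results on `Spec R`: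
* restriction to a basic open is a localisation (`isLocalizedModule_resL`);
* morphisms between restrictions to `U` are the same as `Γ(X, U)`-linear maps between the modules
  of sections over `U` (`localHom_app_bijective`).
-/
import Mathlib
import Fermat.Agent.Jac.ModGlue88.Restrict

set_option autoImplicit false

open CategoryTheory AlgebraicGeometry TopologicalSpace Opposite

universe u

noncomputable section

namespace Fermat.Agent.Jac.AffineSections40

open Fermat.Agent.Jac.ModGlue88

variable {X : Scheme.{u}}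

/-- Sections of `M` over `V ≤ U`, regarded as a module over `Γ(X, U)`. -/
def Sec (M : X.Modules) {V U : X.Opens} (_h : V ≤ U) : Type u := Γ(M, V)

instance (M : X.Modules) {V U : X.Opens} (h : V ≤ U) : AddCommGroup (Sec M h) :=
  inferInstanceAs (AddCommGroup Γ(M, V))

instance secModule (M : X.Modules) {V U : X.Opens} (h : V ≤ U) : Module Γ(X, U) (Sec M h) :=
  Module.compHom Γ(M, V) (resO X h)

/-- The underlying section of an element of `Sec M h`. -/
def Sec.val {M : X.Modules} {V U : X.Opens} {h : V ≤ U} (x : Sec M h) : Γ(M, V) := x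

/-- Regard a section over `V` as an element of `Sec M h`. -/
def Sec.mk {M : X.Modules} {V U : X.Opens} (h : V ≤ U) (x : Γ(M, V)) : Sec M h := x

theorem sec_smul_def (M : X.Modules) {V U : X.Opens} (h : V ≤ U) (r : Γ(X, U)) (x : Sec M h) :
    (r • x).val = resO X h r • x.val := rfl

/-- Restriction of sections as a `Γ(X, U)`-linear map. -/
def resL (M : X.Modules) {V U : X.Opens} (h : V ≤ U) : Γ(M, U) →ₗ[Γ(X, U)] Sec M h where
  toFun x := res M h x
  map_add' x y := map_add _ x y
  map_smul' r x := res_smul M h r x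

section FromSpec

variable {U : X.Opens} (hU : IsAffineOpen U)

/-- The key compatibility of the two module structures. -/
theorem appIso_hom_res (W : (Spec Γ(X, U)).Opens) (hle : hU.fromSpec ''ᵁ W ≤ U) (r : Γ(X, U)) :
    (hU.fromSpec.appIso W).hom (X.presheaf.map (homOfLE hle).op r) =
      (Spec Γ(X, U)).presheaf.map (homOfLE (le_top : W ≤ ⊤)).op
        ((Scheme.ΓSpecIso Γ(X, U)).inv r) := by
  have h : X.presheaf.map (homOfLE hle).op ≫ (hU.fromSpec.appIso W).hom =
      (Scheme.ΓSpecIso Γ(X, U)).inv ≫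
        (Spec Γ(X, U)).presheaf.map (homOfLE (le_top : W ≤ ⊤)).op := by
    rw [Scheme.Hom.appIso_hom', Scheme.Hom.map_appLE, Scheme.Hom.appLE, hU.fromSpec_app_self,
      Category.assoc, ← Functor.map_comp]
    rfl
  exact ConcreteCategory.congr_hom h r

/-- Sections of `M` over `V = g ''ᵁ W` (`g = hU.fromSpec`) are sections over `W` of the restriction
of `M` to `Spec Γ(X, U)`; this identification is `Γ(X, U)`-linear. -/
def secEquiv (M : X.Modules) (W : (Spec Γ(X, U)).Opens) {V : X.Opens}
    (hV : hU.fromSpec ''ᵁ W = V) (hVU : V ≤ U) :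
    Sec M hVU ≃ₗ[Γ(X, U)] Γ(M.restrict hU.fromSpec, W) where
  toFun x := rIn hU.fromSpec M W (res M (le_of_eq hV) x.val)
  invFun y := Sec.mk hVU (res M (le_of_eq hV.symm) ((rIn hU.fromSpec M W).symm y))
  map_add' x y := by
    change rIn hU.fromSpec M W (res M (le_of_eq hV) (x.val + y.val)) = _
    rw [map_add, map_add]
  map_smul' r x := by
    change rIn hU.fromSpec M W (res M (le_of_eq hV) (resO X hVU r • x.val)) = _
    rw [res_smul, resO_resO, rIn_smul]
    have hkey : (hU.fromSpec.appIso W).hom (resO X ((le_of_eq hV).trans hVU) r) =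
        (Spec Γ(X, U)).presheaf.map (homOfLE (le_top : W ≤ ⊤)).op
          ((Scheme.ΓSpecIso Γ(X, U)).inv r) := appIso_hom_res hU W ((le_of_eq hV).trans hVU) r
    rw [hkey]
    rfl
  left_inv x := by
    change res M (le_of_eq hV.symm) ((rIn hU.fromSpec M W).symm
      (rIn hU.fromSpec M W (res M (le_of_eq hV) x.val))) = x.val
    rw [AddEquiv.symm_apply_apply, res_res, res_self]
  right_inv y := by
    change rIn hU.fromSpec M W (res M (le_of_eq hV) (res M (le_of_eq hV.symm)
      ((rIn hU.fromSpec M W).symm y))) = y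
    rw [res_res, res_self, AddEquiv.apply_symm_apply]

/-- `Γ(M, U)` with its own module structure versus `Sec M (le_refl U)`. -/
def secSelf (M : X.Modules) (U : X.Opens) : Γ(M, U) ≃ₗ[Γ(X, U)] Sec M (le_refl U) where
  toFun x := Sec.mk _ x
  invFun x := x.val
  map_add' _ _ := rfl
  map_smul' r x := by
    change Sec.mk (le_refl U) (r • x) = Sec.mk (le_refl U) (resO X (le_refl U) r • x)
    rw [resO_self]
  left_inv _ := rfl
  right_inv _ := rfl

theorem fromSpec_image_top : hU.fromSpec ''ᵁ ⊤ = U := by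
  rw [Scheme.Hom.image_top_eq_opensRange, hU.opensRange_fromSpec]

/-- `Γ(M, U) ≃ Γ(M.restrict hU.fromSpec, ⊤)`, linearly over `Γ(X, U)`. -/
def secEquivTop (M : X.Modules) : Γ(M, U) ≃ₗ[Γ(X, U)] Γ(M.restrict hU.fromSpec, ⊤) :=
  (secSelf M U).trans (secEquiv hU M ⊤ (fromSpec_image_top hU) (le_refl U))

theorem secEquivTop_apply (M : X.Modules) (x : Γ(M, U)) :
    secEquivTop hU M x =
      rIn hU.fromSpec M ⊤ (res M (le_of_eq (fromSpec_image_top hU)) x) := rfl

/-- Compatibility of `secEquiv` with restriction of sections. -/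
theorem secEquiv_res (M : X.Modules) {W' W : (Spec Γ(X, U)).Opens} (hW : W' ≤ W)
    {V' V : X.Opens} (hV' : hU.fromSpec ''ᵁ W' = V') (hV : hU.fromSpec ''ᵁ W = V)
    (hV'U : V' ≤ U) (hVU : V ≤ U) (hVV : V' ≤ V) (x : Sec M hVU) :
    secEquiv hU M W' hV' hV'U (Sec.mk hV'U (res M hVV x.val)) =
      res (M.restrict hU.fromSpec) hW (secEquiv hU M W hV hVU x) := by
  change rIn hU.fromSpec M W' (res M (le_of_eq hV') (res M hVV x.val)) =
    res (M.restrict hU.fromSpec) hW (rIn hU.fromSpec M W (res M (le_of_eq hV) x.val))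
  rw [← rIn_res hU.fromSpec M hW, res_res, res_res]

end FromSpec

section Quasicoherent

variable {U : X.Opens}

/-- **LOC.** For a quasi-coherent module `M`, an affine open `U` and `f ∈ Γ(X, U)`, the restriction
`Γ(M, U) → Γ(M, D(f))` is the localisation at `f`. -/
theorem isLocalizedModule_resL (hU : IsAffineOpen U) (M : X.Modules)
    [SheafOfModules.IsQuasicoherent (R := X.ringCatSheaf) M]
    (f : Γ(X, U)) {V : X.Opens} (hV : V = X.basicOpen f) (hVU : V ≤ U) :
    IsLocalizedModule (Submonoid.powers f) (resL M hVU) := by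
  let P : (Spec Γ(X, U)).Modules := M.restrict hU.fromSpec
  haveI : SheafOfModules.IsQuasicoherent (R := (Spec Γ(X, U)).ringCatSheaf) P :=
    Scheme.Modules.isQuasicoherent_restrictFunctor hU.fromSpec M
  have hiso : IsIso (Scheme.Modules.fromTildeΓ (R := Γ(X, U)) P) := inferInstance
  have hloc := (isIso_fromTildeΓ_iff_isLocalizing P).mp hiso f
  let W : (Spec Γ(X, U)).Opens := PrimeSpectrum.basicOpen f
  let ρ : Γ(P, ⊤) →ₗ[Γ(X, U)] Γ(P, W) :=
    ((modulesSpecToSheaf.obj P).obj.map W.leTop.op).hom
  have hρ : IsLocalizedModule (Submonoid.powers f) ρ := hloc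
  let e_top := secEquivTop hU M
  let e_f := secEquiv hU M W ((hU.fromSpec_image_basicOpen f).trans hV.symm) hVU
  have hcomp : resL M hVU = ((e_f.symm.toLinearMap).comp ρ).comp e_top.toLinearMap := by
    ext x
    apply e_f.injective
    simp only [LinearMap.comp_apply, LinearEquiv.coe_coe, LinearEquiv.apply_symm_apply]
    exact secEquiv_res hU M (le_top : W ≤ ⊤)
      ((hU.fromSpec_image_basicOpen f).trans hV.symm) (fromSpec_image_top hU) hVU (le_refl U)
      hVU (secSelf M U x)
  rw [hcomp]
  haveI : IsLocalizedModule (Submonoid.powers f) ((e_f.symm.toLinearMap).comp ρ) :=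
    IsLocalizedModule.of_linearEquiv (Submonoid.powers f) ρ e_f.symm
  exact IsLocalizedModule.of_linearEquiv_right (Submonoid.powers f)
    ((e_f.symm.toLinearMap).comp ρ) e_top

end Quasicoherent

/-! ### Morphisms of quasi-coherent modules on `Spec R` are linear maps on global sections -/

section SpecHom

variable {R : CommRingCat.{u}}

theorem spec_hom_ext {P Q : (Spec R).Modules}
    [hP : SheafOfModules.IsQuasicoherent (R := (Spec R).ringCatSheaf) P]
    [hQ : SheafOfModules.IsQuasicoherent (R := (Spec R).ringCatSheaf) Q]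
    (φ ψ : P ⟶ Q) (h : ∀ x : Γ(P, ⊤), φ.app ⊤ x = ψ.app ⊤ x) : φ = ψ := by
  let P' : (SheafOfModules.isQuasicoherent (Spec R).ringCatSheaf).FullSubcategory := ⟨P, hP⟩
  let Q' : (SheafOfModules.isQuasicoherent (Spec R).ringCatSheaf).FullSubcategory := ⟨Q, hQ⟩
  let φ' : P' ⟶ Q' := ObjectProperty.homMk φ
  let ψ' : P' ⟶ Q' := ObjectProperty.homMk ψ
  have key : (tildeEquiv (R := R)).inverse.map φ' = (tildeEquiv (R := R)).inverse.map ψ' := by
    ext x
    exact h x
  have := (tildeEquiv (R := R)).fullyFaithfulInverse.map_injective key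
  exact congrArg (fun f => f.hom) this

theorem spec_exists_hom {P Q : (Spec R).Modules}
    [hP : SheafOfModules.IsQuasicoherent (R := (Spec R).ringCatSheaf) P]
    [hQ : SheafOfModules.IsQuasicoherent (R := (Spec R).ringCatSheaf) Q]
    (f : Γ(P, ⊤) →ₗ[R] Γ(Q, ⊤)) : ∃ φ : P ⟶ Q, ∀ x : Γ(P, ⊤), φ.app ⊤ x = f x := by
  let P' : (SheafOfModules.isQuasicoherent (Spec R).ringCatSheaf).FullSubcategory := ⟨P, hP⟩
  let Q' : (SheafOfModules.isQuasicoherent (Spec R).ringCatSheaf).FullSubcategory := ⟨Q, hQ⟩
  let f₀ : ModuleCat.of R Γ(P, ⊤) ⟶ ModuleCat.of R Γ(Q, ⊤) := ModuleCat.ofHom f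
  let f' : (tildeEquiv (R := R)).inverse.obj P' ⟶ (tildeEquiv (R := R)).inverse.obj Q' := f₀
  obtain ⟨φ', hφ'⟩ := (tildeEquiv (R := R)).fullyFaithfulInverse.map_surjective f'
  refine ⟨φ'.hom, fun x => ?_⟩
  have := congrArg (fun g => g.hom x) hφ'
  exact this

end SpecHom

/-! ### AFFHOM: local morphisms over an affine open are linear maps on sections -/

section AffHom

variable {U : X.Opens} {M N : X.Modules}

/-- Injectivity of a restriction map along an equality of opens. -/
theorem res_injective_of_eq (N : X.Modules) {V W : X.Opens} (h : V = W) :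
    Function.Injective (res N (le_of_eq h)) := by
  intro x y hxy
  have := congrArg (res N (le_of_eq h.symm)) hxy
  simpa using this

/-- **AFFHOM, injectivity.** A local morphism of quasi-coherent modules over an affine open `U` is
determined by its map on sections over `U`. -/
theorem localHom_ext_of_app (hU : IsAffineOpen U)
    [SheafOfModules.IsQuasicoherent (R := X.ringCatSheaf) M]
    [SheafOfModules.IsQuasicoherent (R := X.ringCatSheaf) N]
    (L L' : LocalHom M N U) (h : ∀ x : Γ(M, U), L.app U le_rfl x = L'.app U le_rfl x) :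
    L = L' := by
  have hr : hU.fromSpec.opensRange = U := hU.opensRange_fromSpec
  haveI : SheafOfModules.IsQuasicoherent (R := (Spec Γ(X, U)).ringCatSheaf)
      (M.restrict hU.fromSpec) := Scheme.Modules.isQuasicoherent_restrictFunctor hU.fromSpec M
  haveI : SheafOfModules.IsQuasicoherent (R := (Spec Γ(X, U)).ringCatSheaf)
      (N.restrict hU.fromSpec) := Scheme.Modules.isQuasicoherent_restrictFunctor hU.fromSpec N
  let L₁ : LocalHom M N hU.fromSpec.opensRange := L.restrict (le_of_eq hr)
  let L₁' : LocalHom M N hU.fromSpec.opensRange := L'.restrict (le_of_eq hr)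
  have htop : hU.fromSpec ''ᵁ ⊤ = U := fromSpec_image_top hU
  have hφ : L₁.toRestrict hU.fromSpec = L₁'.toRestrict hU.fromSpec := by
    apply spec_hom_ext
    intro y
    rw [LocalHom.toRestrict_app, LocalHom.toRestrict_app]
    congr 1
    -- reduce to sections over `U`
    set x' := (rIn hU.fromSpec M ⊤).symm y with hx'
    have hx : x' = res M (le_of_eq htop) (res M (le_of_eq htop.symm) x') := by
      rw [res_res, res_self]
    change L.app (hU.fromSpec ''ᵁ ⊤) _ x' = L'.app (hU.fromSpec ''ᵁ ⊤) _ x'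
    rw [hx, ← L.app_res _ U le_rfl (le_of_eq htop), ← L'.app_res _ U le_rfl (le_of_eq htop), h]
  have h₁ : L₁ = L₁' := (LocalHom.restrictEquiv hU.fromSpec).injective hφ
  ext W hW x
  have := congrArg (fun L₀ : LocalHom M N hU.fromSpec.opensRange =>
    L₀.app W (hW.trans (le_of_eq hr.symm)) x) h₁
  exact this

/-- **AFFHOM, surjectivity.** Every `Γ(X, U)`-linear map between the modules of sections over an
affine open `U` of two quasi-coherent modules comes from a local morphism over `U`. -/
theorem exists_localHom_of_linearMap (hU : IsAffineOpen U)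
    [SheafOfModules.IsQuasicoherent (R := X.ringCatSheaf) M]
    [SheafOfModules.IsQuasicoherent (R := X.ringCatSheaf) N]
    (f : Γ(M, U) →ₗ[Γ(X, U)] Γ(N, U)) :
    ∃ L : LocalHom M N U, ∀ x : Γ(M, U), L.app U le_rfl x = f x := by
  have hr : hU.fromSpec.opensRange = U := hU.opensRange_fromSpec
  haveI : SheafOfModules.IsQuasicoherent (R := (Spec Γ(X, U)).ringCatSheaf)
      (M.restrict hU.fromSpec) := Scheme.Modules.isQuasicoherent_restrictFunctor hU.fromSpec M
  haveI : SheafOfModules.IsQuasicoherent (R := (Spec Γ(X, U)).ringCatSheaf)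
      (N.restrict hU.fromSpec) := Scheme.Modules.isQuasicoherent_restrictFunctor hU.fromSpec N
  have htop : hU.fromSpec ''ᵁ ⊤ = U := fromSpec_image_top hU
  let f' : Γ(M.restrict hU.fromSpec, ⊤) →ₗ[Γ(X, U)] Γ(N.restrict hU.fromSpec, ⊤) :=
    ((secEquivTop hU N).toLinearMap.comp f).comp (secEquivTop hU M).symm.toLinearMap
  obtain ⟨φ, hφ⟩ := spec_exists_hom f'
  let L₁ : LocalHom M N hU.fromSpec.opensRange := LocalHom.ofRestrict hU.fromSpec φ
  refine ⟨L₁.restrict (le_of_eq hr.symm), fun x => ?_⟩
  apply res_injective_of_eq N htop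
  change res N (le_of_eq htop) (L₁.app U (le_of_eq hr.symm) x) = _
  rw [L₁.app_res _ U (le_of_eq hr.symm) (le_of_eq htop)]
  -- `L₁` over `g ''ᵁ ⊤` is `φ.app ⊤`
  have h1 : (L₁.toRestrict hU.fromSpec) = φ := LocalHom.toRestrict_ofRestrict hU.fromSpec φ
  have h2 := congrArg (fun ψ : M.restrict hU.fromSpec ⟶ N.restrict hU.fromSpec =>
    ψ.app ⊤ (rIn hU.fromSpec M ⊤ (res M (le_of_eq htop) x))) h1
  simp only [LocalHom.toRestrict_app, AddEquiv.symm_apply_apply] at h2
  have h3 : φ.app ⊤ (rIn hU.fromSpec M ⊤ (res M (le_of_eq htop) x)) =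
      rIn hU.fromSpec N ⊤ (res N (le_of_eq htop) (f x)) := by
    rw [← secEquivTop_apply hU M x, hφ]
    change secEquivTop hU N (f ((secEquivTop hU M).symm (secEquivTop hU M x))) = _
    rw [LinearEquiv.symm_apply_apply]
    rfl
  rw [h3] at h2
  exact (rIn hU.fromSpec N ⊤).injective h2

end AffHom

end Fermat.Agent.Jac.AffineSections40
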