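/-
Fermat/Agent/Jac/TildePullback.lean  (helper41)

Seed of brick M2 (affine dictionary) of the S25 programme: on affine schemes, pulling back the
sheaf `M~` along `Spec.map φ` is `(S ⊗[R] M)~`.
-/
import Mathlib

set_option autoImplicit false

open CategoryTheory AlgebraicGeometry TopologicalSpace Opposite

universe u

noncomputable section

namespace Fermat.Agent.Jac.TildePullback

variable {R S : CommRingCat.{u}} (φ : R ⟶ S)

/-- Global sections of the pushforward along `Spec.map φ` are the restriction of scalars of the
global sections. -/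
def pushforwardΓIso :
    Scheme.Modules.pushforward (Spec.map φ) ⋙ moduleSpecΓFunctor (R := R) ≅
      moduleSpecΓFunctor (R := S) ⋙ ModuleCat.restrictScalars φ.hom :=
  (Functor.associator _ _ _).symm ≪≫
    Functor.isoWhiskerRight (pushforwardCompModulesSpecToSheafIso φ)
      (TopCat.Sheaf.forget _ _ ⋙ (evaluation _ _).obj (.op ⊤)) ≪≫
    NatIso.ofComponents (fun M => Iso.refl _) (by intros; rfl)

/-- Pullback of `M~` along `Spec.map φ` is `(S ⊗[R] M)~`, naturally in `M`. -/
def pullbackTildeIso :
    tilde.functor R ⋙ Scheme.Modules.pullback (Spec.map φ) ≅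
      ModuleCat.extendScalars φ.hom ⋙ tilde.functor S :=
  Adjunction.leftAdjointUniq
    ((tilde.adjunction (R := R)).comp (Scheme.Modules.pullbackPushforwardAdjunction (Spec.map φ)))
    (((ModuleCat.extendRestrictScalarsAdj φ.hom).comp (tilde.adjunction (R := S))).ofNatIsoRight
      (pushforwardΓIso φ).symm)

end Fermat.Agent.Jac.TildePullback
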