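/-
Fermat/Agent/Jac/DictCore15Rig.lean  (helper15) -- S25 programme, brick B1b, wiring.

The fields `rigidified_iff` and `gamma_top` of `AffineDictionary` for the relation
`DictCore15.Corr`, by wiring helper33's `BridgeSheaf33.rigidified_iff_rigidMod` /
`BridgeCharts33.gammaTop_bijective` with helper70's M4 (`PullbackSec70.exists_equiv_pbSec`) and
the semilinear identifications of `DictCore15Semi`.  Consequently the dictionary is reduced to its
`baseChange` field alone: `mkDictionaryOfBC`.
-/
import Mathlib
import Fermat.Agent.Jac.DictCore15Semi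
import Fermat.Agent.Jac.BridgeSheaf33Rig
import Fermat.Agent.Jac.BridgeSheaf33Top
import Fermat.Agent.Jac.PullbackSec70.Main

set_option autoImplicit false
set_option linter.style.haveILetI false
set_option linter.unusedSectionVars false

open CategoryTheory CategoryTheory.Limits AlgebraicGeometry TopologicalSpace Opposite
open NeronModelInfra AlgebraicGeometry.RelPicard TensorProduct

universe u

noncomputable section

namespace Fermat.Agent.Jac.DictCore15

open scoped Fermat.Agent.Jac.BaseChange75
open Fermat.Agent.Jac.TwoCoverGammaSetting Fermat.Agent.Jac.BridgeCharts33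
open Fermat.Agent.Jac.JSmooth85Alg Fermat.Agent.Jac.BaseChange75 Fermat.Agent.Jac.LineOps39

variable {k : Type u} [Field k] {C : Scheme.{u}} {c : C ⟶ Spec (CommRingCat.of k)}
  {ε : SchemeHomOver (𝟙 (Spec (CommRingCat.of k))) c}
variable (cc : CurveCharts c ε) (A : Type u) [CommRing A] [Algebra k A]

/-- M4 for the rigidifying section: sections of `rigA^* M` over `Spec A` are the base change of
`Γ(M, X1)`. -/
theorem rigM4_of_isInvertible (M : (XA c A).Modules) (hM : Scheme.Modules.IsInvertible M) :
    BridgeSheaf33.RigM4 cc A M := by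
  haveI := AffineDict73.isQuasicoherent_of_isInvertible M hM
  obtain ⟨e, -⟩ := PullbackSec70.exists_equiv_pbSec (rigA c ε A) M (isAffineOpen_X1 cc A)
    (isAffineOpen_top (Spec (CommRingCat.of A))) (rigA_preimage_chart c ε A cc.base_mem).ge
  exact ⟨e⟩

variable {cc A}

/-- The field `rigidified_iff` of the dictionary. -/
theorem Corr.rigidified_iff {M : (XA c A).Modules} {L : cc.QCA A} (h : Corr cc A M L) :
    Nonempty ((Scheme.Modules.pullback (rigSection c (specStr A) ε)).obj M ≅
        SheafOfModules.unit (Spec (CommRingCat.of A)).ringCatSheaf) ↔ cc.Rigidifiable L := by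
  obtain ⟨j, hj⟩ := h.exists_semilinear1
  exact BridgeSheaf33.rigidified_iff_rigidMod cc M h.isInvertible
    (rigM4_of_isInvertible cc A M h.isInvertible) L.N1 j hj

variable (cc)

/-- **The dictionary from its `baseChange` field alone.** -/
def mkDictionaryOfBC
    (hbc : ∀ {A A' : Type u} [CommRing A] [Algebra k A] [CommRing A'] [Algebra k A']
      [Algebra A A'] [IsScalarTower k A A'] {M : (XA c A).Modules} {L : cc.QCA A}
      {L' : cc.QCA A'}, Corr cc A M L → LiftData L L' →
      Corr cc A' ((Scheme.Modules.pullback (bcs c (IsScalarTower.toAlgHom k A A'))).obj M) L') :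
    AffineDictionary cc :=
  mkDictionary cc hbc (fun h => h.rigidified_iff) (fun A _ _ => gammaTop_bijective cc A)

end Fermat.Agent.Jac.DictCore15
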