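/-
Fermat/Agent/Jac/DictCore15BC.lean  (helper15) -- S25 programme, brick B1b, the `baseChange` field.

For `[Algebra A A'] [IsScalarTower k A A']`, `ψ := IsScalarTower.toAlgHom k A A'` and
`f := bcs c ψ : C_{A'} ⟶ C_A`:

* `liftDataPullback` : the two-chart module of sections of `f^* M` is the base change of the
  two-chart module of sections of `M` along the cube `gb0/gb1/gb01` of section rings
  (helper70's M4: `pbSec` is semilinear, a base change over affine opens, compatible with
  restrictions; helper75's `LiftData.ofSemilinearBijective`);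
* `Corr.baseChange` : the `baseChange` field of the dictionary for `DictCore15.Corr`
  (helper75's `LiftData.ofSquare`);
* `dictionary cc : AffineDictionary cc`.
-/
import Mathlib
import Fermat.Agent.Jac.DictCore15Rig
import Fermat.Agent.Jac.BridgeSheaf33ThetaB
import Fermat.Agent.Jac.BaseChange75.Square
import Fermat.Agent.Jac.PullbackSec70.Main

set_option autoImplicit false
set_option linter.style.haveILetI false
set_option linter.unusedSectionVars false

open CategoryTheory CategoryTheory.Limits AlgebraicGeometry TopologicalSpace Opposite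
open NeronModelInfra AlgebraicGeometry.RelPicard TensorProduct

universe u

noncomputable section

namespace Fermat.Agent.Jac.DictCore15

open scoped Fermat.Agent.Jac.BaseChange75
open Fermat.Agent.Jac.TwoCoverGammaSetting Fermat.Agent.Jac.BridgeCharts33
open Fermat.Agent.Jac.JSmooth85Alg Fermat.Agent.Jac.BaseChange75 Fermat.Agent.Jac.LineOps39
open Fermat.Agent.Jac.PullbackSec70

variable {k : Type u} [Field k] {C : Scheme.{u}} {c : C ⟶ Spec (CommRingCat.of k)}
  {ε : SchemeHomOver (𝟙 (Spec (CommRingCat.of k))) c}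
variable (cc : CurveCharts c ε) (A A' : Type u) [CommRing A] [Algebra k A]
  [CommRing A'] [Algebra k A'] [Algebra A A'] [IsScalarTower k A A']

/-- The structure map `A → A'` as a `k`-algebra homomorphism. -/
abbrev psi : A →ₐ[k] A' := IsScalarTower.toAlgHom k A A'

/-! ### the cube of section rings and the diagonal cube -/

/-- `Γ(C_{A'}, X0)` as an algebra over `Γ(C_A, X0)` (pullback of functions). -/
@[instance_reducible]
def algGb0 : Algebra (coverA cc A).R0 (coverA cc A').R0 := (gb0 cc (psi A A')).toAlgebra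
/-- `Γ(C_{A'}, X1)` as an algebra over `Γ(C_A, X1)`. -/
@[instance_reducible]
def algGb1 : Algebra (coverA cc A).R1 (coverA cc A').R1 := (gb1 cc (psi A A')).toAlgebra
/-- `Γ(C_{A'}, X0 ⊓ X1)` as an algebra over `Γ(C_A, X0 ⊓ X1)`. -/
@[instance_reducible]
def algGb01 : Algebra (coverA cc A).R01 (coverA cc A').R01 := (gb01 cc (psi A A')).toAlgebra

/-- The diagonal `A ⊗[k] B0 → Γ(C_{A'}, X0)`. -/
@[instance_reducible]
def algDiag0 : Algebra (A ⊗[k] cc.B0) (coverA cc A').R0 :=
  ((gb0 cc (psi A A')).comp (up0 cc A)).toAlgebra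
/-- The diagonal `A ⊗[k] B1 → Γ(C_{A'}, X1)`. -/
@[instance_reducible]
def algDiag1 : Algebra (A ⊗[k] cc.B1) (coverA cc A').R1 :=
  ((gb1 cc (psi A A')).comp (up1 cc A)).toAlgebra
/-- The diagonal `A ⊗[k] B01 → Γ(C_{A'}, X0 ⊓ X1)`. -/
@[instance_reducible]
def algDiag01 : Algebra (A ⊗[k] cc.B01) (coverA cc A').R01 :=
  ((gb01 cc (psi A A')).comp (up01 cc A)).toAlgebra

-- low priority: for `A' = A` these must not shadow `algUp0/1/01`, `Algebra.id`
attribute [local instance 10] algGb0 algGb1 algGb01 algDiag0 algDiag1 algDiag01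

theorem towerS0 : IsScalarTower (A ⊗[k] cc.B0) (coverA cc A).R0 (coverA cc A').R0 :=
  IsScalarTower.of_algebraMap_eq fun _ => rfl
theorem towerS1 : IsScalarTower (A ⊗[k] cc.B1) (coverA cc A).R1 (coverA cc A').R1 :=
  IsScalarTower.of_algebraMap_eq fun _ => rfl
theorem towerS01 : IsScalarTower (A ⊗[k] cc.B01) (coverA cc A).R01 (coverA cc A').R01 :=
  IsScalarTower.of_algebraMap_eq fun _ => rfl

theorem towerT0 : IsScalarTower (A ⊗[k] cc.B0) (A' ⊗[k] cc.B0) (coverA cc A').R0 :=
  IsScalarTower.of_algebraMap_eq fun x => BridgeSheaf33.gb0_theta0B (A' := A') cc x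
theorem towerT1 : IsScalarTower (A ⊗[k] cc.B1) (A' ⊗[k] cc.B1) (coverA cc A').R1 :=
  IsScalarTower.of_algebraMap_eq fun x => BridgeSheaf33.gb1_theta1B (A' := A') cc x
theorem towerT01 : IsScalarTower (A ⊗[k] cc.B01) (A' ⊗[k] cc.B01) (coverA cc A').R01 :=
  IsScalarTower.of_algebraMap_eq fun x => BridgeSheaf33.gb01_theta01B (A' := A') cc x

/-! ### the sheaf side -/

variable {A}

/-- `f^{-1}(X_i(A)) ⊇ X_i(A')`. -/
theorem le0 : (coverA cc A').U0 ≤ bcs c (psi A A') ⁻¹ᵁ (coverA cc A).U0 :=
  (bcs_preimage_chart c (psi A A') cc.U0).ge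
theorem le1 : (coverA cc A').U1 ≤ bcs c (psi A A') ⁻¹ᵁ (coverA cc A).U1 :=
  (bcs_preimage_chart c (psi A A') cc.U1).ge
theorem le01 : (coverA cc A').U0 ⊓ (coverA cc A').U1 ≤
    bcs c (psi A A') ⁻¹ᵁ ((coverA cc A).U0 ⊓ (coverA cc A).U1) :=
  (bcs_preimage_chart c (psi A A') (cc.U0 ⊓ cc.U1)).ge

variable (M : (XA c A).Modules)

/-- pullback of sections over the first chart -/
def pb0M : (coverA cc A).N0 M →+
    (coverA cc A').N0 ((Scheme.Modules.pullback (bcs c (psi A A'))).obj M) :=
  pbSec (bcs c (psi A A')) M (coverA cc A).U0 (coverA cc A').U0 (le0 cc A')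
/-- pullback of sections over the second chart -/
def pb1M : (coverA cc A).N1 M →+
    (coverA cc A').N1 ((Scheme.Modules.pullback (bcs c (psi A A'))).obj M) :=
  pbSec (bcs c (psi A A')) M (coverA cc A).U1 (coverA cc A').U1 (le1 cc A')
/-- pullback of sections over the overlap -/
def pb01M : (coverA cc A).N01 M →+
    (coverA cc A').N01 ((Scheme.Modules.pullback (bcs c (psi A A'))).obj M) :=
  pbSec (bcs c (psi A A')) M ((coverA cc A).U0 ⊓ (coverA cc A).U1)
    ((coverA cc A').U0 ⊓ (coverA cc A').U1) (le01 cc A')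

theorem pb0M_smul (r : (coverA cc A).R0) (n : (coverA cc A).N0 M) :
    pb0M cc A' M (r • n) = algebraMap (coverA cc A).R0 (coverA cc A').R0 r • pb0M cc A' M n :=
  pbSec_smul (bcs c (psi A A')) M (coverA cc A).U0 (coverA cc A').U0 (le0 cc A') r n

theorem pb1M_smul (r : (coverA cc A).R1) (n : (coverA cc A).N1 M) :
    pb1M cc A' M (r • n) = algebraMap (coverA cc A).R1 (coverA cc A').R1 r • pb1M cc A' M n :=
  pbSec_smul (bcs c (psi A A')) M (coverA cc A).U1 (coverA cc A').U1 (le1 cc A') r n

theorem pb01M_smul (r : (coverA cc A).R01) (n : (coverA cc A).N01 M) :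
    pb01M cc A' M (r • n) =
      algebraMap (coverA cc A).R01 (coverA cc A').R01 r • pb01M cc A' M n :=
  pbSec_smul (bcs c (psi A A')) M ((coverA cc A).U0 ⊓ (coverA cc A).U1)
    ((coverA cc A').U0 ⊓ (coverA cc A').U1) (le01 cc A') r n

theorem pb01M_r0 (n : (coverA cc A).N0 M) :
    pb01M cc A' M ((coverA cc A).r0 M n) =
      (coverA cc A').r0 ((Scheme.Modules.pullback (bcs c (psi A A'))).obj M) (pb0M cc A' M n) :=
  pbSec_res (bcs c (psi A A')) M (le0 cc A') (le01 cc A') (homOfLE inf_le_left)
    (homOfLE inf_le_left) n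

theorem pb01M_r1 (n : (coverA cc A).N1 M) :
    pb01M cc A' M ((coverA cc A).r1 M n) =
      (coverA cc A').r1 ((Scheme.Modules.pullback (bcs c (psi A A'))).obj M) (pb1M cc A' M n) :=
  pbSec_res (bcs c (psi A A')) M (le1 cc A') (le01 cc A') (homOfLE inf_le_right)
    (homOfLE inf_le_right) n

section Bijective

variable [SheafOfModules.IsQuasicoherent (R := (XA c A).ringCatSheaf) M]

theorem pb0M_bijective :
    Function.Bijective (tensorLiftOfSemilinear (pb0M cc A' M) (pb0M_smul cc A' M)) := by
  obtain ⟨e, he⟩ := exists_equiv_pbSec (bcs c (psi A A')) M (coverA cc A).affine0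
    (coverA cc A').affine0 (le0 cc A')
  exact tensorLiftOfSemilinear_bijective_of_equiv _ _ e he

theorem pb1M_bijective :
    Function.Bijective (tensorLiftOfSemilinear (pb1M cc A' M) (pb1M_smul cc A' M)) := by
  obtain ⟨e, he⟩ := exists_equiv_pbSec (bcs c (psi A A')) M (coverA cc A).affine1
    (coverA cc A').affine1 (le1 cc A')
  exact tensorLiftOfSemilinear_bijective_of_equiv _ _ e he

theorem pb01M_bijective :
    Function.Bijective (tensorLiftOfSemilinear (pb01M cc A' M) (pb01M_smul cc A' M)) := by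
  obtain ⟨e, he⟩ := exists_equiv_pbSec (bcs c (psi A A')) M
    (TwoCoverGammaFull.affine01 (coverA cc A)) (TwoCoverGammaFull.affine01 (coverA cc A'))
    (le01 cc A')
  exact tensorLiftOfSemilinear_bijective_of_equiv _ _ e he

/-- **The sheaf side of naturality**: the two-chart module of sections of `f^* M` is the base
change of the two-chart module of sections of `M` along the cube of section rings. -/
def liftDataPullback (h : (coverA cc A).IsQC M)
    (h' : (coverA cc A').IsQC ((Scheme.Modules.pullback (bcs c (psi A A'))).obj M)) :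
    LiftData ((coverA cc A).Gamma2 M h)
      ((coverA cc A').Gamma2 ((Scheme.Modules.pullback (bcs c (psi A A'))).obj M) h') :=
  LiftData.ofSemilinearBijective (L := (coverA cc A).Gamma2 M h)
    (L' := (coverA cc A').Gamma2 ((Scheme.Modules.pullback (bcs c (psi A A'))).obj M) h')
    (pb0M cc A' M) (pb1M cc A' M) (pb01M cc A' M)
    (pb0M_smul cc A' M) (pb1M_smul cc A' M) (pb01M_smul cc A' M)
    (pb0M_bijective cc A' M) (pb1M_bijective cc A' M) (pb01M_bijective cc A' M)
    (pb01M_r0 cc A' M) (pb01M_r1 cc A' M)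

end Bijective

variable {cc A'} {M}

/-- **The field `baseChange` of the dictionary**: pullback along `C_{A'} ⟶ C_A` corresponds to
chartwise base change. -/
theorem Corr.baseChange {L : cc.QCA A} {L' : cc.QCA A'} (h : Corr cc A M L) (d : LiftData L L') :
    Corr cc A' ((Scheme.Modules.pullback (bcs c (IsScalarTower.toAlgHom k A A'))).obj M) L' := by
  obtain ⟨hM, hL, hq, ⟨d0⟩⟩ := h
  have hM' : Scheme.Modules.IsInvertible
      ((Scheme.Modules.pullback (bcs c (psi A A'))).obj M) := hM.pullback _
  have hq' : (coverA cc A').IsQC ((Scheme.Modules.pullback (bcs c (psi A A'))).obj M) :=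
    TwoCoverGammaLine40.isQC_of_isInvertible (coverA cc A') _ hM'
  haveI := AffineDict73.isQuasicoherent_of_isInvertible M hM
  haveI := towerS0 cc A A'
  haveI := towerS1 cc A A'
  haveI := towerS01 cc A A'
  haveI := towerT0 cc A A'
  haveI := towerT1 cc A A'
  haveI := towerT01 cc A A'
  exact ⟨hM', LiftData.isLine d hL, hq',
    ⟨LiftData.ofSquare (hc0 cc A') (hc1 cc A') d0 (liftDataPullback cc A' M hq hq') d⟩⟩

variable (cc)

/-- **THE AFFINE DICTIONARY** (brick B1b). -/
def dictionary : AffineDictionary cc :=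
  mkDictionaryOfBC cc (fun h d => h.baseChange d)

end Fermat.Agent.Jac.DictCore15
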