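/-
JAC programme (helper79): final shell for statement S25.

From a scheme `D.P` representing some cut `P` of the rigidified relative Picard functor (e.g. the
Euler-characteristic cut) together with class-level inputs on affine test schemes, deduce the full
conclusion of S25 for the frozen cut `algEquivZeroCut`:

  `∃ D, Nonempty (RepresentsRelSubPic c ε (algEquivZeroCut c ε) D) ∧ Smooth D.toBase ∧
      IsProper D.toBase ∧ GeometricallyConnected D.toBase`.

Only the implication `FibrewiseAlgEquivZero M → P.P t M` between the two cuts is needed (brick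
B2.i); the converse is obtained for the Poincaré bundle from the Abel-Jacobi family (Q5).
-/
import Mathlib
import Fermat.Agent.Jac.PointsBridge79Shell
import Fermat.Agent.Jac.PoincareMem79

set_option autoImplicit false

noncomputable section

universe u

open CategoryTheory CategoryTheory.Limits AlgebraicGeometry AlgebraicGeometry.RelPicard
  NeronModelInfra GoodReductionJacobian

namespace Fermat.Agent.Jac.FinalShell79

open PointsBridge79 PointsBridge79Shell

variable {k : Type u} [Field k] {C : Scheme.{u}} {c : C ⟶ Spec (CommRingCat.of k)}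
  {ε : SchemeHomOver (𝟙 (Spec (CommRingCat.of k))) c} {P : SubPicCondition c ε}
  {D : RelativePic0Designation k c}

/-- A scheme representing a cut `P` containing the frozen cut, whose Poincaré bundle lies in the
frozen cut, represents the frozen cut. -/
def representsAlgEquivZeroCut (h : RepresentsRelSubPic c ε P D)
    (hP : ∀ {T : Scheme.{u}} (t : T ⟶ Spec (CommRingCat.of k)) (M : RigidifiedLineBundle c ε t),
      FibrewiseAlgEquivZero M → P.P t M)
    (hmem : FibrewiseAlgEquivZero h.poincare) :
    RepresentsRelSubPic c ε (algEquivZeroCut c ε) D where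
  poincare := h.poincare
  poincare_mem := hmem
  univ := fun t M hM => h.univ t M (hP t M hM)
  zero := h.zero

/-- If the class attached to a rational point `x0` of `X` by a family of classes is the unit class,
then the attached morphism maps `x0` to the zero section. -/
theorem comp_familyMap_eq_zeroSection (h : RepresentsRelSubPic c ε P D) {X : Scheme.{u}}
    {p : X ⟶ Spec (CommRingCat.of k)} (F : ClassFamily P p)
    (x0 : SchemeHomOver (𝟙 (Spec (CommRingCat.of k))) p)
    (hx0 : F.cls (CommRingCat.of k) x0.1 =
      PClass.map P (⟨𝟙 _, by rw [Category.id_comp, x0.2]⟩ :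
        SchemeHomOver (x0.1 ≫ p) (𝟙 (Spec (CommRingCat.of k))))
        (PClass.mk P (𝟙 _) (RigidifiedLineBundle.unit (𝟙 _)) (P.unit_mem _))) :
    x0.1 ≫ familyMap h F = D.zeroSection := by
  have h1 := pointClass_comp_familyMap h F (CommRingCat.of k) x0.1
  rw [hx0, ← pointClass_zeroSection h, ← pointClass_postComp] at h1
  have h2 := (pointsEquiv h (x0.1 ≫ p)).injective h1
  have h3 := congrArg Subtype.val h2
  simpa [postComp] using h3

/-- **Final shell for S25.** -/
theorem exists_representsRelSubPic_algEquivZeroCut [IsAlgClosed k]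
    (h : RepresentsRelSubPic c ε P D) [LocallyOfFiniteType D.toBase]
    (hP : ∀ {T : Scheme.{u}} (t : T ⟶ Spec (CommRingCat.of k)) (M : RigidifiedLineBundle c ε t),
      FibrewiseAlgEquivZero M → P.P t M)
    (Γ : ClassGroupLaw P) (hl : ClassLifting P)
    {X : Scheme.{u}} (p : X ⟶ Spec (CommRingCat.of k)) [IsProper p] [GeometricallyIntegral p]
    (F : ClassFamily P p)
    (hF : ∀ ξ : PClass P (𝟙 (Spec (CommRingCat.of k))),
      ∃ z : SchemeHomOver (𝟙 (Spec (CommRingCat.of k))) p,
        F.cls (CommRingCat.of k) z.1 =
          PClass.map P (⟨𝟙 _, by rw [Category.id_comp, z.2]⟩ :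
            SchemeHomOver (z.1 ≫ p) (𝟙 (Spec (CommRingCat.of k)))) ξ)
    (x0 : SchemeHomOver (𝟙 (Spec (CommRingCat.of k))) p)
    (hx0 : F.cls (CommRingCat.of k) x0.1 =
      PClass.map P (⟨𝟙 _, by rw [Category.id_comp, x0.2]⟩ :
        SchemeHomOver (x0.1 ≫ p) (𝟙 (Spec (CommRingCat.of k))))
        (PClass.mk P (𝟙 _) (RigidifiedLineBundle.unit (𝟙 _)) (P.unit_mem _))) :
    ∃ D' : RelativePic0Designation k c,
      Nonempty (RepresentsRelSubPic c ε (algEquivZeroCut c ε) D') ∧
        Smooth D'.toBase ∧ IsProper D'.toBase ∧ GeometricallyConnected D'.toBase := by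
  have hint : IsIntegral X := GeometricallyIntegral.isIntegral_of_subsingleton p
  have hconn : ConnectedSpace X := inferInstance
  have hshell := PointsBridge79Shell.smooth_isProper_geometricallyConnected h Γ hl p F hF
  have hsep : IsSeparated D.toBase := isSeparated_of_classGroupLaw h Γ
  have ha : familyMap h F ≫ D.toBase = p := familyMap_toBase h F
  have hsurj : Surjective (familyMap h F) :=
    QShell79Proper.surjective_of_forall_rational_point D.toBase p (familyMap h F) ha
      (familyMap_hits h F hF)
  have hlft : LocallyOfFiniteType (familyMap h F ≫ D.toBase) := by rw [ha]; infer_instance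
  have hgi : GeometricallyIntegral (familyMap h F ≫ D.toBase) := by rw [ha]; infer_instance
  have hmem : FibrewiseAlgEquivZero h.poincare :=
    PoincareMem79.fibrewiseAlgEquivZero_poincare h (familyMap h F) x0.1
      (comp_familyMap_eq_zeroSection h F x0 hx0)
  exact ⟨D, ⟨representsAlgEquivZeroCut h hP hmem⟩, hshell⟩

end Fermat.Agent.Jac.FinalShell79

end
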