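/-
Fermat/Agent/Jac/FinalAssembly86.lean  (helper86)

Programme JAC (S25), brick FA "FinalAssembly": the conclusion of S25 from the outputs of the
representability layer (Theorem R, `RepTheorem.exists_represents`, and the sheaf property
`RepSheaf81.isSheaf_F`) and of the property layer (`FinalShell79`).

* `locallyOfFiniteType_of_charts` : a morphism `f : J ⟶ S` is locally of finite type as soon as `J`
  is covered by open subschemes `j i : X i ⟶ J` with `j i ≫ f` locally of finite type.
* `exists_represents_locallyOfFiniteType` : Theorem R together with `LocallyOfFiniteType D.toBase`.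
* `s25_of_inputs` : the S25 conclusion from `ClassesIsSheaf`, a local cut `P` containing the frozen
  cut, a `ChartPackage` with charts locally of finite type, a class group law, class lifting and
  an Abel-Jacobi family on a proper geometrically integral `X`.
* `s25_of_inputs_fibrePower` : the same with `X = C^g` (`QShell79Power.fibrePower c g`).
-/
import Mathlib
import Fermat.Agent.Jac.RepTheorem
import Fermat.Agent.Jac.RepSheaf81
import Fermat.Agent.Jac.FinalShell79
import Fermat.Agent.Jac.QShell79Power

set_option autoImplicit false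

noncomputable section

universe u

open CategoryTheory CategoryTheory.Limits AlgebraicGeometry AlgebraicGeometry.RelPicard
  NeronModelInfra GoodReductionJacobian

namespace Fermat.Agent.Jac.FinalAssembly86

open Fermat.Agent.Jac.PointsBridge79 Fermat.Agent.Jac.PointsBridge79Shell

set_option backward.isDefEq.respectTransparency.types false in
/-- A morphism is locally of finite type if its source is covered by open subschemes on which it
is locally of finite type. -/
theorem locallyOfFiniteType_of_charts {J S : Scheme.{u}} (f : J ⟶ S) {ι : Type u}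
    (X : ι → Scheme.{u}) (j : ∀ i, X i ⟶ J) (hj : ∀ i, IsOpenImmersion (j i))
    (hcov : ∀ p : J, ∃ i, p ∈ Set.range (j i))
    (h : ∀ i, LocallyOfFiniteType (j i ≫ f)) : LocallyOfFiniteType f := by
  let 𝒰 : J.OpenCover := Scheme.Cover.mkOfCovers ι X j (fun p => by
    obtain ⟨i, y, hy⟩ := hcov p
    exact ⟨i, y, hy⟩) hj
  exact IsZariskiLocalAtSource.of_openCover 𝒰 h

variable {k : Type u} [Field k] {C : Scheme.{u}} {c : C ⟶ Spec (CommRingCat.of k)}
  {ε : SchemeHomOver (𝟙 (Spec (CommRingCat.of k))) c}

/-- **Theorem R with finiteness.**  If all charts are locally of finite type over `k`, so is the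
representing scheme. -/
theorem exists_represents_locallyOfFiniteType (hS : ClassesIsSheaf c ε)
    (P : SubPicCondition c ε) (hloc : IsLocalCondition P) (pkg : ChartPackage c ε P)
    (hlft : ∀ i, LocallyOfFiniteType (pkg.x i)) :
    ∃ D : RelativePic0Designation k c,
      Nonempty (RepresentsRelSubPic c ε P D) ∧ LocallyOfFiniteType D.toBase := by
  obtain ⟨D, j, hrep, hopen, hcov, hcomp⟩ :=
    RepTheorem.exists_represents hS P pkg (RepSheaf81.isSheaf_F hS P hloc)
  refine ⟨D, hrep, ?_⟩
  refine locallyOfFiniteType_of_charts D.toBase pkg.X j hopen hcov fun i => ?_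
  rw [hcomp i]
  exact hlft i

/-- **S25 from its inputs.**  The statement of S25 (existence of the Jacobian with its
properties) from: the sheaf property of classes, a Zariski-local cut `P` containing the frozen
cut `algEquivZeroCut`, a chart package for `P` with charts locally of finite type, a group law
and infinitesimal lifting on classes over affine test schemes, and a family of classes on a
proper geometrically integral `X` hitting every `k`-rational class and mapping a rational point
`x0` to the unit class. -/
theorem s25_of_inputs [IsAlgClosed k] (hS : ClassesIsSheaf c ε)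
    (P : SubPicCondition c ε) (hloc : IsLocalCondition P) (pkg : ChartPackage c ε P)
    (hlft : ∀ i, LocallyOfFiniteType (pkg.x i))
    (hP : ∀ {T : Scheme.{u}} (t : T ⟶ Spec (CommRingCat.of k)) (M : RigidifiedLineBundle c ε t),
      FibrewiseAlgEquivZero M → P.P t M)
    (Γ : ClassGroupLaw P) (hl : ClassLifting P)
    {X : Scheme.{u}} (p : X ⟶ Spec (CommRingCat.of k)) [IsProper p] [GeometricallyIntegral p]
    (F : ClassFamily P p)
    (hF : ∀ ξ : PClass P (𝟙 (Spec (CommRingCat.of k))),
      ∃ z : SchemeHomOver (𝟙 (Spec (CommRingCat.of k))) p,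
        F.cls (CommRingCat.of k) z.1 =
          PClass.map P (⟨𝟙 _, by rw [Category.id_comp, z.2]⟩ :
            SchemeHomOver (z.1 ≫ p) (𝟙 (Spec (CommRingCat.of k)))) ξ)
    (x0 : SchemeHomOver (𝟙 (Spec (CommRingCat.of k))) p)
    (hx0 : F.cls (CommRingCat.of k) x0.1 =
      PClass.map P (⟨𝟙 _, by rw [Category.id_comp, x0.2]⟩ :
        SchemeHomOver (x0.1 ≫ p) (𝟙 (Spec (CommRingCat.of k))))
        (PClass.mk P (𝟙 _) (RigidifiedLineBundle.unit (𝟙 _)) (P.unit_mem _))) :
    ∃ D : RelativePic0Designation k c,
      Nonempty (RepresentsRelSubPic c ε (algEquivZeroCut c ε) D) ∧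
        Smooth D.toBase ∧ IsProper D.toBase ∧ GeometricallyConnected D.toBase := by
  obtain ⟨D, ⟨hrep⟩, hD⟩ := exists_represents_locallyOfFiniteType hS P hloc pkg hlft
  exact FinalShell79.exists_representsRelSubPic_algEquivZeroCut hrep hP Γ hl p F hF x0 hx0

/-- **S25 from its inputs, with the Abel-Jacobi family on `C^g`.** -/
theorem s25_of_inputs_fibrePower [IsAlgClosed k] [IsProper c] [SmoothOfRelativeDimension 1 c]
    [IsIntegral C] (hS : ClassesIsSheaf c ε)
    (P : SubPicCondition c ε) (hloc : IsLocalCondition P) (pkg : ChartPackage c ε P)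
    (hlft : ∀ i, LocallyOfFiniteType (pkg.x i))
    (hP : ∀ {T : Scheme.{u}} (t : T ⟶ Spec (CommRingCat.of k)) (M : RigidifiedLineBundle c ε t),
      FibrewiseAlgEquivZero M → P.P t M)
    (Γ : ClassGroupLaw P) (hl : ClassLifting P) (g : ℕ)
    (F : ClassFamily P (QShell79Power.fibrePower c g).hom)
    (hF : ∀ ξ : PClass P (𝟙 (Spec (CommRingCat.of k))),
      ∃ z : SchemeHomOver (𝟙 (Spec (CommRingCat.of k))) (QShell79Power.fibrePower c g).hom,
        F.cls (CommRingCat.of k) z.1 =
          PClass.map P (⟨𝟙 _, by rw [Category.id_comp, z.2]⟩ :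
            SchemeHomOver (z.1 ≫ (QShell79Power.fibrePower c g).hom)
              (𝟙 (Spec (CommRingCat.of k)))) ξ)
    (x0 : SchemeHomOver (𝟙 (Spec (CommRingCat.of k))) (QShell79Power.fibrePower c g).hom)
    (hx0 : F.cls (CommRingCat.of k) x0.1 =
      PClass.map P (⟨𝟙 _, by rw [Category.id_comp, x0.2]⟩ :
        SchemeHomOver (x0.1 ≫ (QShell79Power.fibrePower c g).hom)
          (𝟙 (Spec (CommRingCat.of k))))
        (PClass.mk P (𝟙 _) (RigidifiedLineBundle.unit (𝟙 _)) (P.unit_mem _))) :
    ∃ D : RelativePic0Designation k c,
      Nonempty (RepresentsRelSubPic c ε (algEquivZeroCut c ε) D) ∧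
        Smooth D.toBase ∧ IsProper D.toBase ∧ GeometricallyConnected D.toBase := by
  have hsm : Smooth c := SmoothOfRelativeDimension.smooth 1 c
  have hgi : GeometricallyIntegral (QShell79Power.fibrePower c g).hom :=
    QShell79Power.fibrePower_geometricallyIntegral c g
  exact s25_of_inputs hS P hloc pkg hlft hP Γ hl (QShell79Power.fibrePower c g).hom F hF x0 hx0

end Fermat.Agent.Jac.FinalAssembly86

end
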