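/-
Fermat/Agent/Jac/RepCriteriaAffine81.lean (helper81)

Brick R2c, general part (Mathlib only + RepCriteria): for a Zariski sheaf `F` of types on schemes
the hypotheses `HasOpenLoci` and `LocallyCovered` of the representability criteria can be checked
on affine test schemes `Spec A` only.
-/
import Mathlib
import Fermat.Agent.Jac.RepCriteria

set_option autoImplicit false

open CategoryTheory CategoryTheory.Limits AlgebraicGeometry Opposite

namespace Fermat.Agent.Jac.RepCriteriaAffine81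

open Fermat.Agent.Jac.RepCriteria

universe u

variable {F : Scheme.{u}ᵒᵖ ⥤ Type u} {X : Scheme.{u}} (f : yoneda.obj X ⟶ F)

/-- Universality of a locus `(g, x)` for `ξ`, tested against all schemes. -/
def Univ {T : Scheme.{u}} (ξ : F.obj (op T)) {U : Scheme.{u}} (g : U ⟶ T) (x : U ⟶ X) : Prop :=
  ∀ (T' : Scheme.{u}) (φ : T' ⟶ T) (y : T' ⟶ X), f.app (op T') y = F.map φ.op ξ →
    ∃ φ' : T' ⟶ U, φ' ≫ g = φ ∧ φ' ≫ x = y

/-- Universality of a locus `(g, x)` for `ξ`, tested against affine schemes `Spec A'` only. -/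
def AffUniv {T : Scheme.{u}} (ξ : F.obj (op T)) {U : Scheme.{u}} (g : U ⟶ T) (x : U ⟶ X) : Prop :=
  ∀ (A' : CommRingCat.{u}) (φ : Spec A' ⟶ T) (y : Spec A' ⟶ X),
    f.app (op (Spec A')) y = F.map φ.op ξ → ∃ φ' : Spec A' ⟶ U, φ' ≫ g = φ ∧ φ' ≫ x = y

/-- **Step A**: for an open immersion `g`, universality against affine tests implies universality
against all tests. -/
theorem univ_of_affUniv {T : Scheme.{u}} (ξ : F.obj (op T)) {U : Scheme.{u}} (g : U ⟶ T)
    [IsOpenImmersion g] (x : U ⟶ X) (h : AffUniv f ξ g x) : Univ f ξ g x := by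
  intro T' φ y hy
  let 𝒜 := T'.affineOpenCover
  have hloc : ∀ a : 𝒜.I₀, ∃ φ' : Spec (𝒜.X a) ⟶ U, φ' ≫ g = 𝒜.f a ≫ φ ∧ φ' ≫ x = 𝒜.f a ≫ y := by
    intro a
    apply h (𝒜.X a) (𝒜.f a ≫ φ) (𝒜.f a ≫ y)
    rw [app_comp, hy, ← map_comp_apply']
  choose φa hφa1 hφa2 using hloc
  have hrange : Set.range φ ⊆ Set.range g := by
    rintro _ ⟨p, rfl⟩
    obtain ⟨q, hq⟩ := 𝒜.covers p
    refine ⟨φa (𝒜.idx p) q, ?_⟩
    rw [← Scheme.Hom.comp_apply, hφa1, Scheme.Hom.comp_apply, hq]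
  refine ⟨IsOpenImmersion.lift g φ hrange, IsOpenImmersion.lift_fac _ _ _, ?_⟩
  apply 𝒜.openCover.hom_ext
  intro (a : 𝒜.I₀)
  have h1 : 𝒜.f a ≫ IsOpenImmersion.lift g φ hrange = φa a := by
    rw [← cancel_mono g, Category.assoc, IsOpenImmersion.lift_fac]
    exact (hφa1 a).symm
  change 𝒜.f a ≫ IsOpenImmersion.lift g φ hrange ≫ x = 𝒜.f a ≫ y
  rw [← Category.assoc, h1]
  exact hφa2 a

/-- Sections of a Zariski sheaf are determined by their restrictions along an open cover. -/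
theorem ext_of_openCover (hF : Presieve.IsSheaf Scheme.zariskiTopology F) {Y : Scheme.{u}}
    (𝒰 : Y.OpenCover) (s s' : F.obj (op Y))
    (h : ∀ i, F.map (𝒰.f i).op s = F.map (𝒰.f i).op s') : s = s' := by
  refine (hF _ 𝒰.mem_grothendieckTopology).isSeparatedFor.ext ?_
  rintro Z g ⟨Z', a, _, ⟨i⟩, rfl⟩
  rw [map_comp_apply', map_comp_apply', h i]

/-- **Step B**: loci which exist locally on `T` (with universality against tests landing in the
members of an open cover) glue to a locus on `T`. -/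
theorem exists_locus_of_local (hF : Presieve.IsSheaf Scheme.zariskiTopology F)
    {T : Scheme.{u}} (ξ : F.obj (op T)) {ι : Type u} (V : ι → T.Opens) (hV : ⨆ a, V a = ⊤)
    (U : ι → Scheme.{u}) (g : ∀ a, U a ⟶ T) [∀ a, IsOpenImmersion (g a)]
    (hgV : ∀ a, Set.range (g a) ⊆ V a) (x : ∀ a, U a ⟶ X)
    (heq : ∀ a, f.app (op (U a)) (x a) = F.map (g a).op ξ)
    (huniv : ∀ a (T' : Scheme.{u}) (φ : T' ⟶ T) (y : T' ⟶ X), Set.range φ ⊆ V a →
      f.app (op T') y = F.map φ.op ξ → ∃ φ' : T' ⟶ U a, φ' ≫ g a = φ ∧ φ' ≫ x a = y) :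
    ∃ (W : T.Opens) (x₀ : W.toScheme ⟶ X),
      f.app (op W.toScheme) x₀ = F.map W.ι.op ξ ∧ Univ f ξ W.ι x₀ := by
  -- key lemma: the local classifying morphisms agree on overlaps
  have key : ∀ (a b : ι) (Z : Scheme.{u}) (p : Z ⟶ U a) (q : Z ⟶ U b),
      p ≫ g a = q ≫ g b → p ≫ x a = q ≫ x b := by
    intro a b Z p q hpq
    obtain ⟨φ', h1, h2⟩ := huniv a Z (p ≫ g a) (q ≫ x b)
      (by
        rintro _ ⟨z, rfl⟩
        exact hgV a ⟨p z, rfl⟩)
      (by rw [app_comp, heq b, ← map_comp_apply', hpq])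
    have : φ' = p := by rwa [cancel_mono] at h1
    rw [← this, h2]
  -- the union of the local loci
  let W : T.Opens := ⨆ a, (g a).opensRange
  have hgW : ∀ a, Set.range (g a) ⊆ Set.range W.ι := by
    intro a
    rw [Scheme.Opens.range_ι]
    exact fun z hz => TopologicalSpace.Opens.mem_iSup.mpr ⟨a, hz⟩
  let g' : ∀ a, U a ⟶ W.toScheme := fun a => IsOpenImmersion.lift W.ι (g a) (hgW a)
  have hg' : ∀ a, g' a ≫ W.ι = g a := fun a => IsOpenImmersion.lift_fac _ _ _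
  have hg'open : ∀ a, IsOpenImmersion (g' a) := fun a => by
    have : IsOpenImmersion (g' a ≫ W.ι) := by rw [hg' a]; infer_instance
    exact IsOpenImmersion.of_comp (g' a) W.ι
  have hcov : ∀ w : W.toScheme, ∃ a z, g' a z = w := by
    intro w
    obtain ⟨a, z, hz⟩ := TopologicalSpace.Opens.mem_iSup.mp w.2
    refine ⟨a, z, ?_⟩
    apply W.ι.injective
    rw [← Scheme.Hom.comp_apply, hg' a]
    exact hz
  let 𝒰 : W.toScheme.OpenCover := Scheme.Cover.mkOfCovers ι U g' hcov hg'open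
  let x₀ : W.toScheme ⟶ X := 𝒰.glueMorphisms x (fun (a b : ι) => by
    apply key a b
    have := pullback.condition (f := g' a) (g := g' b)
    rw [← hg' a, ← hg' b]
    exact (Category.assoc _ _ _).symm.trans
      ((congrArg (· ≫ W.ι) this).trans (Category.assoc _ _ _)))
  have hx₀ : ∀ a, g' a ≫ x₀ = x a := fun a => 𝒰.ι_glueMorphisms _ _ a
  refine ⟨W, x₀, ?_, ?_⟩
  · apply ext_of_openCover hF 𝒰
    intro a
    change F.map (g' a).op _ = F.map (g' a).op _
    rw [← app_comp, hx₀ a, heq a, ← map_comp_apply', hg' a]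
  · intro T' φ y hy
    -- local factorisations
    have hloc : ∀ p : T', ∃ (a : ι) (φ' : (φ ⁻¹ᵁ V a).toScheme ⟶ U a), φ p ∈ V a ∧
        φ' ≫ g a = (φ ⁻¹ᵁ V a).ι ≫ φ ∧ φ' ≫ x a = (φ ⁻¹ᵁ V a).ι ≫ y := by
      intro p
      have hp : φ p ∈ (⨆ a, V a : T.Opens) := by rw [hV]; trivial
      obtain ⟨a, ha⟩ := TopologicalSpace.Opens.mem_iSup.mp hp
      obtain ⟨φ', h1, h2⟩ := huniv a (φ ⁻¹ᵁ V a).toScheme ((φ ⁻¹ᵁ V a).ι ≫ φ)
        ((φ ⁻¹ᵁ V a).ι ≫ y)
        (by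
          rintro _ ⟨z, rfl⟩
          exact z.2)
        (by rw [app_comp, hy, ← map_comp_apply'])
      exact ⟨a, φ', ha, h1, h2⟩
    choose a φa hpa h1 h2 using hloc
    have hrange : Set.range φ ⊆ Set.range W.ι := by
      rintro _ ⟨p, rfl⟩
      apply hgW (a p)
      refine ⟨φa p ⟨p, hpa p⟩, ?_⟩
      have e1 : (φa p ≫ g (a p)) ⟨p, hpa p⟩ = ((φ ⁻¹ᵁ V (a p)).ι ≫ φ) ⟨p, hpa p⟩ := by
        rw [h1 p]
      exact e1
    refine ⟨IsOpenImmersion.lift W.ι φ hrange, IsOpenImmersion.lift_fac _ _ _, ?_⟩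
    apply Scheme.hom_ext_of_forall
    intro p
    refine ⟨φ ⁻¹ᵁ V (a p), hpa p, ?_⟩
    have h3 : (φ ⁻¹ᵁ V (a p)).ι ≫ IsOpenImmersion.lift W.ι φ hrange = φa p ≫ g' (a p) := by
      rw [← cancel_mono W.ι, Category.assoc, Category.assoc, IsOpenImmersion.lift_fac, hg', h1 p]
    rw [← Category.assoc, h3, Category.assoc, hx₀, h2 p]

/-- The hypothesis of the open subfunctor criterion, over affine test schemes only. -/
def HasOpenLociAffine (f : yoneda.obj X ⟶ F) : Prop :=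
  ∀ (A : CommRingCat.{u}) (ξ : F.obj (op (Spec A))),
    ∃ (U : (Spec A).Opens) (x : U.toScheme ⟶ X),
      f.app (op U.toScheme) x = F.map U.ι.op ξ ∧ AffUniv f ξ U.ι x

/-- **The open subfunctor criterion can be checked on affine schemes** (for a Zariski sheaf). -/
theorem hasOpenLoci_of_affine (hF : Presieve.IsSheaf Scheme.zariskiTopology F)
    (H : HasOpenLociAffine f) : HasOpenLoci f := by
  intro T ξ
  let 𝒜 := T.affineOpenCover
  choose U' x' heq' haff using fun a : 𝒜.I₀ => H (𝒜.X a) (F.map (𝒜.f a).op ξ)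
  have huniv' := fun a : 𝒜.I₀ => univ_of_affUniv f _ (U' a).ι (x' a) (haff a)
  have hV : ⨆ a : 𝒜.I₀, (𝒜.f a).opensRange = ⊤ := 𝒜.openCover.iSup_opensRange
  obtain ⟨W, x₀, h1, h2⟩ := exists_locus_of_local f hF ξ
    (V := fun a : 𝒜.I₀ => (𝒜.f a).opensRange) hV
    (U := fun a => (U' a).toScheme) (g := fun a => (U' a).ι ≫ 𝒜.f a)
    (fun a => by
      rintro _ ⟨z, rfl⟩
      exact ⟨(U' a).ι z, rfl⟩)
    (x := x')
    (fun a => by rw [heq' a, ← map_comp_apply'])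
    (fun a T' φ y hr hy => by
      have hr' : Set.range φ ⊆ Set.range (𝒜.f a) := hr
      obtain ⟨φ'', e1, e2⟩ := huniv' a T' (IsOpenImmersion.lift (𝒜.f a) φ hr') y
        (by rw [← map_comp_apply', IsOpenImmersion.lift_fac]; exact hy)
      refine ⟨φ'', ?_, e2⟩
      rw [← Category.assoc, e1, IsOpenImmersion.lift_fac])
  exact ⟨W, x₀, h1, h2⟩

/-! ### Local coverage on affine schemes -/

/-- The hypothesis of the local surjectivity criterion, over affine schemes only. -/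
def LocallyCoveredAffine {ι : Type u} {X : ι → Scheme.{u}} (f : ∀ i, yoneda.obj (X i) ⟶ F) :
    Prop :=
  ∀ (A : CommRingCat.{u}) (ξ : F.obj (op (Spec A))) (p : Spec A),
    ∃ (i : ι) (U : (Spec A).Opens) (_ : p ∈ U) (y : U.toScheme ⟶ X i),
      (f i).app (op U.toScheme) y = F.map U.ι.op ξ

/-- **Local coverage can be checked on affine schemes.** -/
theorem locallyCovered_of_affine {ι : Type u} {X : ι → Scheme.{u}}
    (f : ∀ i, yoneda.obj (X i) ⟶ F) (H : LocallyCoveredAffine f) : LocallyCovered f := by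
  intro T ξ p
  let 𝒜 := T.affineOpenCover
  obtain ⟨q, hq⟩ := 𝒜.covers p
  obtain ⟨i, U', hqU', y', hy'⟩ := H (𝒜.X (𝒜.idx p)) (F.map (𝒜.f (𝒜.idx p)).op ξ) q
  let g : U'.toScheme ⟶ T := U'.ι ≫ 𝒜.f (𝒜.idx p)
  refine ⟨i, g.opensRange, ⟨⟨q, hqU'⟩, ?_⟩, g.isoOpensRange.inv ≫ y', ?_⟩
  · change (𝒜.f (𝒜.idx p)) q = p
    exact hq
  · have hg : (g.isoOpensRange.inv ≫ U'.ι) ≫ 𝒜.f (𝒜.idx p) = g.opensRange.ι := by
      rw [Category.assoc]; exact Scheme.Hom.isoOpensRange_inv_comp g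
    rw [app_comp, hy', ← map_comp_apply', ← map_comp_apply', hg]

/-- If `ξ` comes from the chart `i` near `p`, then `p` lies in any universal locus of `ξ` for the
chart `i`. -/
theorem mem_of_univ {T : Scheme.{u}} (ξ : F.obj (op T)) (W : T.Opens) (x₀ : W.toScheme ⟶ X)
    (hu : Univ f ξ W.ι x₀) (p : T) (N : T.Opens) (hpN : p ∈ N) (y : N.toScheme ⟶ X)
    (hy : f.app (op N.toScheme) y = F.map N.ι.op ξ) : p ∈ W := by
  obtain ⟨φ', h1, -⟩ := hu N.toScheme N.ι y hy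
  have : (φ' ≫ W.ι) ⟨p, hpN⟩ = p := by rw [h1]; rfl
  rw [← this]
  exact (φ' ⟨p, hpN⟩).2

end Fermat.Agent.Jac.RepCriteriaAffine81
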