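/-
Fermat/Agent/Jac/RepAffine81.lean (helper81)

Brick R2c: an `AffineChartPackage` (loci, classifying morphisms, universality and covering only
over affine test schemes) gives a `ChartPackage`, using that the functor of points is a Zariski
sheaf (`RepSheaf81.isSheaf_F`) and the affine criteria of `RepCriteriaAffine81`.
-/
import Mathlib
import Fermat.Agent.Jac.RepAffine
import Fermat.Agent.Jac.RepSheaf81
import Fermat.Agent.Jac.RepCriteriaAffine81

set_option autoImplicit false

open CategoryTheory CategoryTheory.Limits AlgebraicGeometry AlgebraicGeometry.RelPicard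
open NeronModelInfra GoodReductionJacobian Opposite

universe u

noncomputable section

namespace Fermat.Agent.Jac.RepAffine81

open Fermat.Agent.Jac.RepFunctor Fermat.Agent.Jac.RepCriteria
open Fermat.Agent.Jac.RepCriteriaAffine81 Fermat.Agent.Jac.RepSheaf81

variable {k : Type u} [Field k] {C : Scheme.{u}} {c : C ⟶ Spec (CommRingCat.of k)}
  {ε : SchemeHomOver (𝟙 (Spec (CommRingCat.of k))) c}
  (hS : ClassesIsSheaf c ε) (P : SubPicCondition c ε) (pk : AffineChartPackage c ε P)

/-- The universal point over the chart `i`. -/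
def univPt (i : pk.ι) : FObj hS P (pk.X i) :=
  mkPt hS P (pk.x i) (pk.bundle i) (pk.bundle_mem i)

/-- The chart morphism. -/
def chartMap (i : pk.ι) : yoneda.obj (pk.X i) ⟶ F hS P :=
  yonedaEquiv.symm (show (F hS P).obj (op (pk.X i)) from univPt hS P pk i)

theorem chartMap_app (i : pk.ι) {T : Scheme.{u}} (y : T ⟶ pk.X i) :
    (chartMap hS P pk i).app (op T) y = pull hS P y (univPt hS P pk i) := rfl

/-- The point of `F(T')` defined by the pullback of a bundle. -/
theorem pull_eq_mkPt {T T' : Scheme.{u}} {t : T ⟶ Spec (CommRingCat.of k)}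
    {t' : T' ⟶ Spec (CommRingCat.of k)} (M : RigidifiedLineBundle c ε t) (hM : P.P t M)
    (ψ : SchemeHomOver t' t) :
    pull hS P ψ.1 (mkPt hS P t M hM) =
      mkPt hS P t' (M.pullbackAlong ψ) (P.pullback_mem _ _ ψ _ hM) :=
  (mkPt_eq_pull hS P M hM ψ (M.pullbackAlong ψ) (P.pullback_mem _ _ ψ _ hM) ⟨Iso.refl _⟩).symm

/-- On the locus of `M`, the universal point of the chart and the point of `M` agree. -/
theorem pull_classify_eq (i : pk.ι) (A : CommRingCat.{u}) (t : Spec A ⟶ Spec (CommRingCat.of k))
    (M : RigidifiedLineBundle c ε t) (hM : P.P t M) :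
    pull hS P (pk.classify i A t M hM).1 (univPt hS P pk i) =
      pull hS P (pk.locus i A t M hM).ι (mkPt hS P t M hM) := by
  unfold univPt
  rw [pull_eq_mkPt hS P (pk.bundle i) (pk.bundle_mem i) (pk.classify i A t M hM)]
  have h2 := pull_eq_mkPt hS P M hM (openIncl t (pk.locus i A t M hM))
  change pull hS P (pk.locus i A t M hM).ι (mkPt hS P t M hM) = _ at h2
  rw [h2]
  exact (mkPt_eq_mkPt_iff hS P _ _ _ _ _).2 (pk.classify_iso i A t M hM)

/-- The chart morphisms of an affine chart package have open loci over affine schemes. -/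
theorem hasOpenLociAffine_chartMap (i : pk.ι) : HasOpenLociAffine (chartMap hS P pk i) := by
  intro A ξ
  obtain ⟨M, hM, hξ⟩ := exists_mkPt hS P (show FObj hS P (Spec A) from ξ)
  obtain ⟨t, ξ₂⟩ := ξ
  simp only at M hM hξ
  refine ⟨pk.locus i A t M hM, (pk.classify i A t M hM).1, ?_, ?_⟩
  · change pull hS P (pk.classify i A t M hM).1 (univPt hS P pk i) =
      pull hS P (pk.locus i A t M hM).ι ⟨t, ξ₂⟩
    rw [hξ]
    exact pull_classify_eq hS P pk i A t M hM
  · intro A' φ y hy
    have hy' : pull hS P y (univPt hS P pk i) = pull hS P φ ⟨t, ξ₂⟩ := hy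
    rw [hξ] at hy'
    obtain ⟨hab, e⟩ := iso_of_pull_eq hS P (pk.bundle i) (pk.bundle_mem i) M hM y φ hy'
    exact pk.universal i A t M hM A' (φ ≫ t) ⟨φ, rfl⟩ ⟨y, hab⟩ e

/-- The chart morphisms of an affine chart package cover `F` locally on affine schemes. -/
theorem locallyCoveredAffine_chartMap : LocallyCoveredAffine (chartMap hS P pk) := by
  intro A ξ p
  obtain ⟨M, hM, hξ⟩ := exists_mkPt hS P (show FObj hS P (Spec A) from ξ)
  obtain ⟨t, ξ₂⟩ := ξ
  simp only at M hM hξ
  have hp : p ∈ (⨆ i, pk.locus i A t M hM : (Spec A).Opens) := by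
    rw [pk.cover A t M hM]; trivial
  obtain ⟨i, hi⟩ := TopologicalSpace.Opens.mem_iSup.mp hp
  refine ⟨i, pk.locus i A t M hM, hi, (pk.classify i A t M hM).1, ?_⟩
  change pull hS P (pk.classify i A t M hM).1 (univPt hS P pk i) =
    pull hS P (pk.locus i A t M hM).ι ⟨t, ξ₂⟩
  rw [hξ]
  exact pull_classify_eq hS P pk i A t M hM

/-- The chart morphisms of an affine chart package have open loci over all schemes. -/
theorem hasOpenLoci_chartMap (hP : IsLocalCondition P) (i : pk.ι) :
    HasOpenLoci (chartMap hS P pk i) :=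
  hasOpenLoci_of_affine _ ((isSheaf_iff_isSheaf_of_type _ _).mp (isSheaf_F hS P hP))
    (hasOpenLociAffine_chartMap hS P pk i)

/-- The chart morphisms of an affine chart package cover `F` locally. -/
theorem locallyCovered_chartMap : LocallyCovered (chartMap hS P pk) :=
  locallyCovered_of_affine _ (locallyCoveredAffine_chartMap hS P pk)

/-! ### The chart package -/

section Package

variable (hP : IsLocalCondition P)

/-- The open locus of a general base where `M` is classified by the chart `i`. -/
def locus (i : pk.ι) {T : Scheme.{u}} (t : T ⟶ Spec (CommRingCat.of k))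
    (M : RigidifiedLineBundle c ε t) (h : P.P t M) : T.Opens :=
  (hasOpenLoci_chartMap hS P pk hP i T (mkPt hS P t M h)).choose

/-- The underlying morphism of the classifying morphism on the locus. -/
def classifyHom (i : pk.ι) {T : Scheme.{u}} (t : T ⟶ Spec (CommRingCat.of k))
    (M : RigidifiedLineBundle c ε t) (h : P.P t M) :
    (locus hS P pk hP i t M h).toScheme ⟶ pk.X i :=
  (hasOpenLoci_chartMap hS P pk hP i T (mkPt hS P t M h)).choose_spec.choose

theorem pull_classifyHom (i : pk.ι) {T : Scheme.{u}} (t : T ⟶ Spec (CommRingCat.of k))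
    (M : RigidifiedLineBundle c ε t) (h : P.P t M) :
    pull hS P (classifyHom hS P pk hP i t M h) (univPt hS P pk i) =
      pull hS P (locus hS P pk hP i t M h).ι (mkPt hS P t M h) :=
  (hasOpenLoci_chartMap hS P pk hP i T (mkPt hS P t M h)).choose_spec.choose_spec.1

theorem univ_classifyHom (i : pk.ι) {T : Scheme.{u}} (t : T ⟶ Spec (CommRingCat.of k))
    (M : RigidifiedLineBundle c ε t) (h : P.P t M) :
    Univ (chartMap hS P pk i) (show (F hS P).obj (op T) from mkPt hS P t M h)
      (locus hS P pk hP i t M h).ι (classifyHom hS P pk hP i t M h) :=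
  (hasOpenLoci_chartMap hS P pk hP i T (mkPt hS P t M h)).choose_spec.choose_spec.2

theorem classifyHom_comp (i : pk.ι) {T : Scheme.{u}} (t : T ⟶ Spec (CommRingCat.of k))
    (M : RigidifiedLineBundle c ε t) (h : P.P t M) :
    classifyHom hS P pk hP i t M h ≫ pk.x i = (locus hS P pk hP i t M h).ι ≫ t :=
  (iso_of_pull_eq hS P (pk.bundle i) (pk.bundle_mem i) M h _ _
    (pull_classifyHom hS P pk hP i t M h)).1

/-- **Brick R2c**: an affine chart package gives a chart package. -/
def chartPackageOfAffine : ChartPackage c ε P where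
  ι := pk.ι
  X := pk.X
  x := pk.x
  bundle := pk.bundle
  bundle_mem := pk.bundle_mem
  locus := fun i _ t M h => locus hS P pk hP i t M h
  classify := fun i _ t M h =>
    ⟨classifyHom hS P pk hP i t M h, classifyHom_comp hS P pk hP i t M h⟩
  classify_iso := fun i _ t M h =>
    (iso_of_pull_eq hS P (pk.bundle i) (pk.bundle_mem i) M h _ _
      (pull_classifyHom hS P pk hP i t M h)).2
  universal := fun i _ t M h _ t' φ y e => by
    apply univ_classifyHom hS P pk hP i t M h _ φ.1 y.1
    change pull hS P y.1 (univPt hS P pk i) = pull hS P φ.1 (mkPt hS P t M h)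
    unfold univPt
    rw [pull_eq_mkPt hS P (pk.bundle i) (pk.bundle_mem i) y, pull_eq_mkPt hS P M h φ]
    exact (mkPt_eq_mkPt_iff hS P _ _ _ _ _).2 e
  cover := fun {T} t M h => by
    rw [eq_top_iff]
    intro p _
    obtain ⟨i, N, hpN, y, hy⟩ := locallyCovered_chartMap hS P pk T
      (show (F hS P).obj (op T) from mkPt hS P t M h) p
    exact TopologicalSpace.Opens.mem_iSup.mpr
      ⟨i, mem_of_univ _ _ _ _ (univ_classifyHom hS P pk hP i t M h) p N hpN y hy⟩

end Package

end Fermat.Agent.Jac.RepAffine81
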