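/-
Fermat/Agent/Jac/FinalWiring41.lean  (helper41)

Programme JAC (S25): the conclusion of S25 from the outputs of the bricks
B1b (`AffineDictionary`), R1 (`ClassesIsSheaf`), R2a (`AlgChartPackage`), R2b-3 (`FamDictionary`),
Q1/Q2 (`CutAlg`), Q3a (one-point family) and Q3c (every class is a product of `g` points).
-/
import Mathlib
import Fermat.Agent.Jac.FinalAssembly86
import Fermat.Agent.Jac.RepTransportFam
import Fermat.Agent.Jac.RepAffine81
import Fermat.Agent.Jac.ChiDict36
import Fermat.Agent.Jac.JGroup85Law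
import Fermat.Agent.Jac.AbelJacobi73.PowerFamily

set_option autoImplicit false

noncomputable section

universe u

open CategoryTheory CategoryTheory.Limits AlgebraicGeometry AlgebraicGeometry.RelPicard
  NeronModelInfra GoodReductionJacobian

namespace Fermat.Agent.Jac.FinalWiring41

open Fermat.Agent.Jac.PointsBridge79 Fermat.Agent.Jac.PointsBridge79Shell

variable {k : Type u} [Field k] {C : Scheme.{u}} {c : C ⟶ Spec (CommRingCat.of k)}
  {ε : SchemeHomOver (𝟙 (Spec (CommRingCat.of k))) c}

/-- **S25 from the bricks.** -/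
theorem s25_of_bricks [IsAlgClosed k] [IsProper c] [SmoothOfRelativeDimension 1 c] [IsIntegral C]
    (cc : CurveCharts c ε) (D : AffineDictionary cc) (hc0 : cc.chart0.FiniteProjOverLine)
    (hS : ClassesIsSheaf c ε)
    {F : AlgChart76.FamTheory k}
    (dict : RepTransport.FamDictionary c ε (ChiDict36.chiCut D hc0) F)
    (pkgA : AlgChart76.AlgChartPackage F)
    (hft : ∀ i, Algebra.FiniteType k (pkgA.chart i).H)
    (Q : JGroup85Law.CutAlg cc D (ChiDict36.chiCut D hc0))
    (F1 : ClassFamily (ChiDict36.chiCut D hc0) c) (g : ℕ)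
    (H : ∀ ξ : PClass (ChiDict36.chiCut D hc0) (𝟙 (Spec (CommRingCat.of k))),
      AbelJacobi73.IsProductOfPoints (JGroup85Law.classGroupLaw D (ChiDict36.chiCut D hc0) Q)
        F1 g ξ) :
    ∃ D' : RelativePic0Designation k c,
      Nonempty (RepresentsRelSubPic c ε (algEquivZeroCut c ε) D') ∧
        Smooth D'.toBase ∧ IsProper D'.toBase ∧ GeometricallyConnected D'.toBase := by
  have hloc : IsLocalCondition (ChiDict36.chiCut D hc0) :=
    ChiDict36.isLocalCondition_chiCut D hc0
  let apkg := RepTransport.affineChartPackage hS dict pkgA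
  let pkg := RepAffine81.chartPackageOfAffine hS (ChiDict36.chiCut D hc0) apkg hloc
  have hlft : ∀ i, LocallyOfFiniteType (pkg.x i) :=
    RepTransport.locallyOfFiniteType_affineChartPackage_x hS dict pkgA hft
  let Γ := JGroup85Law.classGroupLaw D (ChiDict36.chiCut D hc0) Q
  have hl := JGroup85Law.classLifting D (ChiDict36.chiCut D hc0) Q
  have hF := AbelJacobi73.powerFamily_hits Γ F1 g H
  obtain ⟨x0, hx0⟩ := hF (PClass.mk _ (𝟙 _) (RigidifiedLineBundle.unit (𝟙 _))
    ((ChiDict36.chiCut D hc0).unit_mem _))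
  exact FinalAssembly86.s25_of_inputs_fibrePower hS (ChiDict36.chiCut D hc0) hloc pkg hlft
    (fun t M hM => ChiDict36.chiCut_of_fibrewiseAlgEquivZero D hc0 t M hM) Γ hl g
    (AbelJacobi73.powerFamily Γ F1 g) hF x0 hx0

end Fermat.Agent.Jac.FinalWiring41
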