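/-
Fermat/Agent/Jac/FinalWiring41b.lean  (helper41)

Programme JAC (S25): `FinalWiring41.s25_of_bricks` with the landed inputs instantiated
(`hc0`, R1 `classesIsSheaf`, R2b-3 `famDict`, Q1/Q2 `chiCutAlg`).  The remaining inputs are
B1b (`AffineDictionary`), R2a (`AlgChartPackage` for `FamDict14.fam cc`), Q3a (one-point family)
and Q3c (every class is a product of `g` points).
-/
import Mathlib
import Fermat.Agent.Jac.FinalWiring41
import Fermat.Agent.Jac.ClassesGlue86.Main
import Fermat.Agent.Jac.FamDict14
import Fermat.Agent.Jac.CutAlg79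
import Fermat.Agent.Jac.CutAlg36
import Fermat.Agent.Jac.ChartFPL36

set_option autoImplicit false

noncomputable section

universe u

open CategoryTheory CategoryTheory.Limits AlgebraicGeometry AlgebraicGeometry.RelPicard
  NeronModelInfra GoodReductionJacobian

namespace Fermat.Agent.Jac.FinalWiring41

open Fermat.Agent.Jac.PointsBridge79 Fermat.Agent.Jac.PointsBridge79Shell

variable {k : Type u} [Field k] {C : Scheme.{u}} {c : C ⟶ Spec (CommRingCat.of k)}
  {ε : SchemeHomOver (𝟙 (Spec (CommRingCat.of k))) c}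

/-- THE cut of the programme. -/
abbrev cut41 {cc : CurveCharts c ε} (D : AffineDictionary cc) : SubPicCondition c ε :=
  ChiDict36.chiCut D (ChartFPL36.chart0_finiteProjOverLine cc)

/-- The class-level group law on THE cut. -/
def groupLaw41 [IsAlgClosed k] [IsIntegral C] {cc : CurveCharts c ε} (D : AffineDictionary cc) :
    ClassGroupLaw (cut41 D) :=
  JGroup85Law.classGroupLaw D (cut41 D)
    (CutAlg79.chiCutAlg D (ChartFPL36.chart0_finiteProjOverLine cc)
      (CutAlg36.hDom_of_isIntegral cc))

/-- **S25 from the four remaining bricks** B1b, R2a, Q3a, Q3c. -/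
theorem s25_of_four [IsAlgClosed k] [IsProper c] [SmoothOfRelativeDimension 1 c] [IsIntegral C]
    (cc : CurveCharts c ε) (D : AffineDictionary cc)
    (pkgA : AlgChart76.AlgChartPackage (FamDict14.fam cc))
    (hft : ∀ i, Algebra.FiniteType k (pkgA.chart i).H)
    (F1 : ClassFamily (cut41 D) c) (g : ℕ)
    (H : ∀ ξ : PClass (cut41 D) (𝟙 (Spec (CommRingCat.of k))),
      AbelJacobi73.IsProductOfPoints (groupLaw41 D) F1 g ξ) :
    ∃ D' : RelativePic0Designation k c,
      Nonempty (RepresentsRelSubPic c ε (algEquivZeroCut c ε) D') ∧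
        Smooth D'.toBase ∧ IsProper D'.toBase ∧ GeometricallyConnected D'.toBase :=
  s25_of_bricks cc D (ChartFPL36.chart0_finiteProjOverLine cc)
    (ClassesGlue86.Main.classesIsSheaf (fun A _ _ => D.gamma_top A))
    (FamDict14.famDict D (ChartFPL36.chart0_finiteProjOverLine cc)) pkgA hft
    (CutAlg79.chiCutAlg D (ChartFPL36.chart0_finiteProjOverLine cc)
      (CutAlg36.hDom_of_isIntegral cc)) F1 g H

end Fermat.Agent.Jac.FinalWiring41
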