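/-
Fermat/Agent/Jac/FinalWiring41c.lean  (helper41)

Programme JAC (S25): `FinalWiring41.s25_of_four` with the affine dictionary instantiated
(`DictCore15.dictionary cc`, brick B1b).  Remaining inputs: R2a (`AlgChartPackage` for
`FamDict14.fam cc`) and Q3 (one-point family + every class is a product of `g` points).
-/
import Mathlib
import Fermat.Agent.Jac.FinalWiring41b
import Fermat.Agent.Jac.DictCore15BC
import Fermat.Agent.Jac.FiniteToLine80.Main

set_option autoImplicit false

noncomputable section

universe u

open CategoryTheory CategoryTheory.Limits AlgebraicGeometry AlgebraicGeometry.RelPicard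
  NeronModelInfra GoodReductionJacobian

namespace Fermat.Agent.Jac.FinalWiring41

open Fermat.Agent.Jac.PointsBridge79 Fermat.Agent.Jac.PointsBridge79Shell

variable {k : Type u} [Field k] {C : Scheme.{u}} {c : C ⟶ Spec (CommRingCat.of k)}
  {ε : SchemeHomOver (𝟙 (Spec (CommRingCat.of k))) c}

/-- THE affine dictionary. -/
abbrev dict41 (cc : CurveCharts c ε) : AffineDictionary cc := DictCore15.dictionary cc

/-- **S25 from the two remaining bricks** R2a and Q3. -/
theorem s25_of_two [IsAlgClosed k] [IsProper c] [SmoothOfRelativeDimension 1 c] [IsIntegral C]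
    (h : ∀ cc : CurveCharts c ε,
      (∃ pkgA : AlgChart76.AlgChartPackage (FamDict14.fam cc),
        ∀ i, Algebra.FiniteType k (pkgA.chart i).H) ∧
      (∃ (F1 : ClassFamily (cut41 (dict41 cc)) c) (g : ℕ),
        ∀ ξ : PClass (cut41 (dict41 cc)) (𝟙 (Spec (CommRingCat.of k))),
          AbelJacobi73.IsProductOfPoints (groupLaw41 (dict41 cc)) F1 g ξ)) :
    ∃ D' : RelativePic0Designation k c,
      Nonempty (RepresentsRelSubPic c ε (algEquivZeroCut c ε) D') ∧
        Smooth D'.toBase ∧ IsProper D'.toBase ∧ GeometricallyConnected D'.toBase := by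
  obtain ⟨cc⟩ := FiniteToLine80.nonempty_curveCharts c ε
  obtain ⟨⟨pkgA, hft⟩, F1, g, H⟩ := h cc
  exact s25_of_four cc (dict41 cc) pkgA hft F1 g H

end Fermat.Agent.Jac.FinalWiring41
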