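/-
Fermat/Agent/Jac/FinalWiring41d.lean  (helper41)

Programme JAC (S25): brick Q3 CLOSED.  The one-point family `F1 : x ↦ [O(P0 - x)]`
(helper81 `AbelJacobi81.exists_onePointFamily_eval`, instantiated with helper73's tautological
point lines) together with helper84's `BridgeK84Final.h41_of_eval` gives inputs 7 and 8 of
`FinalWiring41.s25_of_four`, with `g = h¹(O)`.  Consequently S25 follows from R2a alone
(`s25_of_one`).
-/
import Mathlib
import Fermat.Agent.Jac.FinalWiring41c
import Fermat.Agent.Jac.BridgeK84Final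
import Fermat.Agent.Jac.AbelJacobi73.LiftAt
import Fermat.Agent.Jac.AbelJacobi81.Final
import Fermat.Agent.Jac.ClassesGlue86.Main

set_option autoImplicit false
set_option linter.style.haveILetI false
set_option linter.unusedSectionVars false

noncomputable section

universe u

open CategoryTheory CategoryTheory.Limits AlgebraicGeometry AlgebraicGeometry.RelPicard
  NeronModelInfra GoodReductionJacobian

namespace Fermat.Agent.Jac.FinalWiring41

open Fermat.Agent.Jac.PointsBridge79 Fermat.Agent.Jac.PointsBridge79Shell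
open scoped Fermat.Agent.Jac.BaseChange75

variable {k : Type u} [Field k] {C : Scheme.{u}} {c : C ⟶ Spec (CommRingCat.of k)}
  {ε : SchemeHomOver (𝟙 (Spec (CommRingCat.of k))) c}

/-- **Brick Q3**: the one-point family and "every class over `Spec k` is a product of `g` points",
for any affine dictionary. -/
theorem exists_F1_H41 [IsAlgClosed k] [IsIntegral C] (cc : CurveCharts c ε)
    (D : AffineDictionary cc) :
    ∃ F1 : ClassFamily (cut41 D) c,
      ∀ ξ : PClass (cut41 D) (𝟙 (Spec (CommRingCat.of k))),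
        AbelJacobi73.IsProductOfPoints (groupLaw41 D) F1 (BridgeK84Final.genus41 cc) ξ := by
  obtain ⟨F1, h0, h1⟩ := AbelJacobi81.exists_onePointFamily_eval D
    (ChartFPL36.chart0_finiteProjOverLine cc)
    (ClassesGlue86.Main.classesIsSheaf (fun A _ _ => D.gamma_top A))
    (BridgeK84Final.Q41 cc D)
    (AbelJacobi73.tautLine0 cc) (AbelJacobi73.isLine_curveLine0 cc _ _)
    (fun p => AbelJacobi73.chi_curveLine0 cc _ _ p)
    (AbelJacobi73.tautLine1 cc) (AbelJacobi73.isLine_curveLine1 cc _ _)
    (fun p => AbelJacobi73.chi_curveLine1 cc _ _ p)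
    (AbelJacobi73.curveLine0 cc cc.B01 (IsScalarTower.toAlgHom k cc.B0 cc.B01))
    (AbelJacobi73.curveLine1 cc cc.B01 (IsScalarTower.toAlgHom k cc.B1 cc.B01))
    (AbelJacobi73.liftData_tautLine0 cc cc.B01) (AbelJacobi73.liftData_tautLine1 cc cc.B01)
    ⟨by rw [AbelJacobi73.curveLine0_eq_curveLine1_overlap]; exact LineOps39.isoRefl _⟩
  exact ⟨F1, fun ξ => BridgeK84Final.h41_of_eval cc D F1
    (fun x hx _ hL' hl => h0 x hx hL' hl) (fun x hx _ hL' hl => h1 x hx hL' hl) ξ⟩

/-- **S25 from the single remaining brick** R2a. -/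
theorem s25_of_one [IsAlgClosed k] [IsProper c] [SmoothOfRelativeDimension 1 c] [IsIntegral C]
    (h : ∀ cc : CurveCharts c ε,
      ∃ pkgA : AlgChart76.AlgChartPackage (FamDict14.fam cc),
        ∀ i, Algebra.FiniteType k (pkgA.chart i).H) :
    ∃ D' : RelativePic0Designation k c,
      Nonempty (RepresentsRelSubPic c ε (algEquivZeroCut c ε) D') ∧
        Smooth D'.toBase ∧ IsProper D'.toBase ∧ GeometricallyConnected D'.toBase :=
  s25_of_two (fun cc => by
    obtain ⟨F1, H⟩ := exists_F1_H41 cc (dict41 cc)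
    exact ⟨h cc, F1, _, H⟩)

end Fermat.Agent.Jac.FinalWiring41
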