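/-
Fermat/Agent/Jac/FinalWiring41e.lean  (helper41)

Programme JAC (S25): ALL bricks closed.  `FinalWiring41.s25_of_one` (Q3 closed, dictionary
instantiated) fed with helper76's `AlgChart76.exists_pkgA` (R2a): the Jacobian of a smooth proper
integral curve with a section over an algebraically closed field exists, represents the cut `P⁰`
of the relative Picard functor, and is smooth, proper and geometrically connected.
-/
import Mathlib
import Fermat.Agent.Jac.FinalWiring41d
import Fermat.Agent.Jac.AlgChart76.FromCC

set_option autoImplicit false

noncomputable section

universe u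

open CategoryTheory CategoryTheory.Limits AlgebraicGeometry AlgebraicGeometry.RelPicard
  NeronModelInfra GoodReductionJacobian

namespace Fermat.Agent.Jac.FinalWiring41

variable {k : Type u} [Field k] {C : Scheme.{u}} {c : C ⟶ Spec (CommRingCat.of k)}
  {ε : SchemeHomOver (𝟙 (Spec (CommRingCat.of k))) c}

/-- **S25** (programme JAC, all bricks closed). -/
theorem s25_final [IsAlgClosed k] [IsProper c] [SmoothOfRelativeDimension 1 c] [IsIntegral C] :
    ∃ D' : RelativePic0Designation k c,
      Nonempty (RepresentsRelSubPic c ε (algEquivZeroCut c ε) D') ∧
        Smooth D'.toBase ∧ IsProper D'.toBase ∧ GeometricallyConnected D'.toBase :=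
  s25_of_one (fun cc => AlgChart76.exists_pkgA cc)

end Fermat.Agent.Jac.FinalWiring41
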