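import Mathlib
import Fermat.Agent.Jac.JGroup85Law
import Fermat.Agent.Jac.ChiDict36
import Fermat.Agent.Jac.DegAdd79
import Fermat.Agent.Jac.GeomIntegral40
import Fermat.Agent.Jac.BaseChange75.Tensor

/-!
# JAC bricks Q1/Q2 for the Euler-characteristic cut  (helper85)

The algebraic description `CutAlg` of the Euler-characteristic cut `ChiDict36.chiCut D hc0`:
`cutA A L := ∀ p, L.chi p = chi0`.  Stability under tensor products and tensor inverses is degree
additivity on the fibres (`DegAdd79`, helper79) transported through base change to the residue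
fields; invariance under nilpotent thickenings is `ChiBC36.chi_liftData_tensor` (helper36).

Main results:
* `chi_tensor` : `(tensor L M).chi p = L.chi p + M.chi p - chi0 cc` for lines over any `k`-algebra;
* `cutAlg D hc0 hF : CutAlg cc D (chiCut D hc0)`;
* `classGroupLaw_chiCut`, `classLifting_chiCut` : the class-level inputs `Γ`, `hl` of the final
  shell for the Euler-characteristic cut;
* `fibreDomains_of_isAlgClosed` : the hypothesis `hF` over an algebraically closed field.
-/

set_option autoImplicit false
set_option linter.style.haveILetI false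
set_option linter.unusedSectionVars false

noncomputable section

universe u

open CategoryTheory CategoryTheory.Limits AlgebraicGeometry AlgebraicGeometry.RelPicard
  NeronModelInfra GoodReductionJacobian TensorProduct

namespace Fermat.Agent.Jac.JGroup85Chi

open scoped Fermat.Agent.Jac.BaseChange75
open PointsBridge79 PointsBridge79Shell BridgeCharts33 JSmooth85Alg BaseChange75 LineOps39
  JGroup85Pic JGroup85Rig JGroup85Law ChiBC36 ChiDict36

variable {k : Type u} [Field k] {C : Scheme.{u}} {c : C ⟶ Spec (CommRingCat.of k)}
  {ε : SchemeHomOver (𝟙 (Spec (CommRingCat.of k))) c} (cc : CurveCharts c ε)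

/-- The fibres of the charts over every field extension of `k` are domains (and the overlap is
nonzero): the hypotheses of degree additivity. -/
structure FibreDomains : Prop where
  dom0 : ∀ (K : Type u) [Field K] [Algebra k K], IsDomain (K ⊗[k] cc.B0)
  dom1 : ∀ (K : Type u) [Field K] [Algebra k K], IsDomain (K ⊗[k] cc.B1)
  nontrivial01 : ∀ (K : Type u) [Field K] [Algebra k K], Nontrivial (K ⊗[k] cc.B01)

variable {cc}

section Field

variable (K : Type u) [Field K] [Algebra k K]

/-- The Euler characteristic of the structure sheaf of a fibre. -/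
theorem chiField_unit :
    (QC2.unit : cc.QCA K).chiField K = chi0 cc := by
  have p : PrimeSpectrum K := default
  rw [← chi_eq_chiField_of_field (QC2.unit : cc.QCA K) p]
  exact chi_unit K p

end Field

section Fibre

variable {A : Type u} [CommRing A] [Algebra k A]

/-- The fibrewise Euler characteristic at `p`, computed on the base change to the residue
field. -/
theorem chi_eq_chiField_baseChange {L : cc.QCA A} {p : PrimeSpectrum A}
    {L' : cc.QCA p.asIdeal.ResidueField} (h : LiftData L L') :
    L.chi p = L'.chiField p.asIdeal.ResidueField := by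
  have q : PrimeSpectrum p.asIdeal.ResidueField := default
  have hq : PrimeSpectrum.comap (algebraMap A p.asIdeal.ResidueField) q = p := by
    ext x
    have hq0 : q.asIdeal = ⊥ := Ideal.eq_bot_of_prime q.asIdeal
    rw [PrimeSpectrum.comap_asIdeal, hq0, Ideal.mem_comap, Ideal.mem_bot,
      ← RingHom.mem_ker, Ideal.ker_algebraMap_residueField]
  rw [← chi_eq_chiField_of_field L' q, chi_liftData_tensor _ h q, hq]

/-- **Degree additivity** over an arbitrary base. -/
theorem chi_tensor (hc0 : cc.chart0.FiniteProjOverLine) (hF : FibreDomains cc) {L M : cc.QCA A}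
    (hL : L.IsLine) (hM : M.IsLine) (p : PrimeSpectrum A) :
    (tensor L M).chi p = L.chi p + M.chi p - chi0 cc := by
  let K := p.asIdeal.ResidueField
  have hl := baseChange_liftData K L
  have hm := baseChange_liftData K M
  haveI := hF.dom0 K
  haveI := hF.dom1 K
  haveI := hF.nontrivial01 K
  have hc : (cc.chartA K).FiniteProjOverLine := hc0.baseChange K
  rw [chi_eq_chiField_baseChange (liftDataTensor hl hm), chi_eq_chiField_baseChange hl,
    chi_eq_chiField_baseChange hm,
    DegAdd79.chiField_tensor (cc.chartA K) hc (LiftData.isLine hl hL) (LiftData.isLine hm hM),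
    chiField_unit]

end Fibre

/-! ### The algebraic description of the Euler-characteristic cut -/

variable (D : AffineDictionary cc) (hc0 : cc.chart0.FiniteProjOverLine)

/-- Primes lift along surjections with nilpotent kernel. -/
theorem exists_comap_eq {A A' : Type u} [CommRing A] [CommRing A'] [Algebra A A']
    (hs : Function.Surjective (algebraMap A A'))
    (hn : IsNilpotent (RingHom.ker (algebraMap A A'))) (p : PrimeSpectrum A) :
    ∃ p' : PrimeSpectrum A', PrimeSpectrum.comap (algebraMap A A') p' = p := by
  have hp : p ∈ Set.range (PrimeSpectrum.comap (algebraMap A A')) := by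
    rw [range_comap_of_surjective _ _ hs, PrimeSpectrum.mem_zeroLocus]
    obtain ⟨n, hn⟩ := hn
    have : (RingHom.ker (algebraMap A A')) ^ n ≤ p.asIdeal := by
      rw [hn]
      exact bot_le
    exact Ideal.IsPrime.le_of_pow_le this
  exact hp

/-- The algebraic description of the Euler-characteristic cut. -/
def cutAlg (hF : FibreDomains cc) : CutAlg cc D (chiCut (ε := ε) D hc0) where
  cutA := fun A _ _ L => ∀ p : PrimeSpectrum A, L.chi p = chi0 cc
  cut_iff := fun M _ hC => chiCut_affine_iff D hc0 _ M hC
  tensor_mem := fun hL hM _ _ h h' p => by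
    rw [chi_tensor hc0 hF hL hM p, h p, h' p]
    ring
  inv_mem := fun {A} _ _ {L M} hL hM _ _ h e p => by
    have h1 := chi_tensor hc0 hF hL hM p
    have h2 : (tensor L M).chi p = chi0 cc := by
      rw [chi_iso e]
      exact chi_unit A p
    rw [h2, h p] at h1
    linarith
  lift_mem := fun {A A'} _ _ _ _ _ _ hs hn {L L'} _ _ hl h p => by
    obtain ⟨p', rfl⟩ := exists_comap_eq hs hn p
    rw [← chi_liftData_tensor A' hl p']
    exact h p'

/-- **Q2 for the Euler-characteristic cut.** -/
def classGroupLaw_chiCut (hF : FibreDomains cc) : ClassGroupLaw (chiCut (ε := ε) D hc0) :=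
  classGroupLaw D _ (cutAlg D hc0 hF)

/-- **Q1 for the Euler-characteristic cut.** -/
theorem classLifting_chiCut (hF : FibreDomains cc) : ClassLifting (chiCut (ε := ε) D hc0) :=
  classLifting D _ (cutAlg D hc0 hF)

/-! ### The fibre hypotheses over an algebraically closed field -/

section AlgClosed

include hc0 in
theorem t_ne_zero [Nontrivial cc.B0] : cc.chart0.t ≠ 0 := by
  intro h
  haveI := hc0.proj0
  have hreg : IsSMulRegular cc.B0 cc.chart0.t :=
    P1CohChi.Fibre.isSMulRegular_of_projective (A := k) cc.chart0.t
  have : (1 : cc.B0) = 0 := hreg (by simp [h])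
  exact one_ne_zero this

include hc0 in
theorem fibreDomains_of_isAlgClosed [IsAlgClosed k] : FibreDomains cc := by
  haveI d0 : IsDomain cc.B0 := cc.dedekind0.toIsDomain
  haveI d1 : IsDomain cc.B1 := cc.dedekind1.toIsDomain
  haveI d01 : IsDomain cc.B01 := by
    haveI := cc.chart0.away0
    exact IsLocalization.isDomain_of_le_nonZeroDivisors (M := Submonoid.powers cc.chart0.t) cc.B01
      (powers_le_nonZeroDivisors_of_noZeroDivisors (t_ne_zero hc0))
  refine ⟨fun K _ _ => GeomIntegral40.isDomain_tensorProduct k K cc.B0,
    fun K _ _ => GeomIntegral40.isDomain_tensorProduct k K cc.B1, fun K _ _ => ?_⟩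
  haveI := GeomIntegral40.isDomain_tensorProduct k K cc.B01
  infer_instance

end AlgClosed

end Fermat.Agent.Jac.JGroup85Chi

end
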