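/-
Fermat/Agent/Jac/BridgeK84.lean  (helper84)

JAC programme, brick Q3d "BridgeK": the bridge, over a field `K` over `k`, between
* classes of rigidified line bundles in the Euler-characteristic cut over `Spec K`
  (`PointsBridge79.PClass`, with the class group law of `JGroup85Law.classGroupLaw`), and
* the Picard group `AbelJacobi73.PicQ (cc.chartA K)` of line two-chart modules over
  `(K, K ⊗ B0, K ⊗ B1, K ⊗ B01)` with its Euler characteristic `chiQ`.

Contents.
* `picEquiv c : JGroup85Pic.LinePic c ≃* AbelJacobi73.PicQ c` (same quotient, same operations).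
* `rigidifiable_of_field` : over a field every line is rigidifiable.
* `cutA_iff_chiK` : for ANY algebraic description `Q : CutAlg cc D (chiCut D hc0)` of the
  Euler-characteristic cut, a line `L` over a field `K` lies in the cut iff `chiK L = chi0 cc`;
  `chiQ_one : chiQ (cc.chartA K) 1 = chi0 cc`.
* `mem_pic_iff` : `x ∈ pic D P Q K ↔ chiQ (picEquiv x) = chiQ 1`.
* `toPicQ : G D P Q K →* PicQ (cc.chartA K)`, injective, with range `{η | chiQ η = chiQ 1}`.
* `betaK : PClass P (specStr K) → PicQ (cc.chartA K)` (injective, range as above) and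
  `betaT t : PClass P t → PicQ (cc.chartA K)` for an arbitrary structure morphism
  `t : Spec K ⟶ Spec k` (with the `k`-algebra structure `algOfHom t` on `K`), injective and
  multiplicative for the class group law.
* `isDedekindDomain_of_ringEquiv`, `tensorEquiv K hK B : B ≃ₐ[k] K ⊗[k] B` (for `k → K` bijective),
  `isDedekindDomain_KB0/KB1`, `isDomain_KB01`, and
  `curveHypK cc K hK : AbelJacobi73.CurveHyp (cc.chartA K)` (`k` algebraically closed).
* `exists_points_betaK` : under `CurveHyp (cc.chartA K)`, the image of every class is a product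
  of `g = h¹(O)` classes `[O(P0)] * [O(-X)]`, `X` rational point pairs.
* AT THE POINT (standard algebra structure on `k`, through helper85's `JGroup85Api.lineClassPt`):
  `betaPt := picEquiv ∘ lineClassPt : PClass P (𝟙 (Spec k)) → PicQ (cc.chartA k)`, with
  `betaPt_injective`, `betaPt_mul`, `chiQ_betaPt`, `exists_betaPt_eq`, `exists_points_betaPt`, and
  `isProductOfPoints_of_eval` : the hypothesis `H` of `FinalWiring41.s25_of_four`
  (`IsProductOfPoints Γ F1 g ξ` for all `ξ`, `g = h¹(O)`) from the evaluation of the one-point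
  family `F1` at `k`-points (`heval`).
-/
import Mathlib
import Fermat.Agent.Jac.JGroup85Chi
import Fermat.Agent.Jac.AbelJacobi73.Riemann
import Fermat.Agent.Jac.Cover12.FieldCover
import Fermat.Agent.Jac.JGroup85Api
import Fermat.Agent.Jac.CurveHyp80.Instance
import Fermat.Agent.Jac.AbelJacobi73.BasePoint

set_option autoImplicit false
set_option linter.style.haveILetI false
set_option linter.unusedSectionVars false

noncomputable section

universe u

open CategoryTheory CategoryTheory.Limits AlgebraicGeometry AlgebraicGeometry.RelPicard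
  NeronModelInfra GoodReductionJacobian TensorProduct

namespace Fermat.Agent.Jac.BridgeK84

open scoped Fermat.Agent.Jac.BaseChange75
open PointsBridge79 PointsBridge79Shell BridgeCharts33 JSmooth85Alg BaseChange75 LineOps39
  JGroup85Pic JGroup85Rig JGroup85Law ChiBC36 ChiDict36 AbelJacobi73

/-! ### The two Picard groups coincide -/

section Pic

variable {A R0 R1 R01 : Type u} [CommRing A] [CommRing R0] [CommRing R1] [CommRing R01]
  [Algebra A R0] [Algebra A R1] [Algebra A R01] [Algebra R0 R01] [Algebra R1 R01]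
  [IsScalarTower A R0 R01] [IsScalarTower A R1 R01] (c : TwoChart A R0 R1 R01)

/-- helper85's `LinePic` and helper73's `PicQ` are the same group. -/
def picEquiv : LinePic c ≃* PicQ c where
  toFun := Quotient.map (sa := JGroup85Pic.lineSetoid c) (sb := AbelJacobi73.lineSetoid c)
    (fun L => L) (fun _ _ h => h)
  invFun := Quotient.map (sa := AbelJacobi73.lineSetoid c) (sb := JGroup85Pic.lineSetoid c)
    (fun L => L) (fun _ _ h => h)
  left_inv := by rintro ⟨L⟩; rfl
  right_inv := by rintro ⟨L⟩; rfl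
  map_mul' := by rintro ⟨L⟩ ⟨M⟩; rfl

@[simp] theorem picEquiv_mk (L : QC2 A R0 R1 R01) (hL : L.IsLine) :
    picEquiv c (LinePic.mk c L hL) = PicQ.mk c L hL := rfl

@[simp] theorem picEquiv_symm_mk (L : QC2 A R0 R1 R01) (hL : L.IsLine) :
    (picEquiv c).symm (PicQ.mk c L hL) = LinePic.mk c L hL := rfl

end Pic

/-! ### Rigidifiability over a local ring -/

/-- Over a local ring (e.g. a field) every invertible module is rigidifiable. -/
theorem isRig_of_isLocalRing {R A : Type u} [CommRing R] [CommRing A] [IsLocalRing A]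
    (alg : Algebra R A) (N : Type u) [AddCommGroup N] [Module R N] [Module.Invertible R N] :
    IsRig R A alg N := by
  letI := alg
  exact Module.Invertible.free_iff_linearEquiv.1 inferInstance

variable {k : Type u} [Field k] {C : Scheme.{u}} {c : C ⟶ Spec (CommRingCat.of k)}
  {ε : SchemeHomOver (𝟙 (Spec (CommRingCat.of k))) c} {cc : CurveCharts c ε}

section Field

variable (K : Type u) [Field K] [Algebra k K]

/-- Over a field every line is rigidifiable. -/
theorem rigidifiable_of_field {L : cc.QCA K} (hL : L.IsLine) : cc.Rigidifiable L := by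
  rw [rigidifiable_iff]
  haveI := hL.inv1
  exact isRig_of_isLocalRing (cc.algEval K) L.N1

/-- The fibrewise Euler characteristic condition over a field, in terms of `chiK`. -/
theorem chi_forall_iff_chiK (L : cc.QCA K) :
    (∀ p : PrimeSpectrum K, L.chi p = chi0 cc) ↔ chiK L = chi0 cc := by
  rw [Cover12.FieldCover.chiK_eq_chiField]
  constructor
  · intro h
    rw [← chi_eq_chiField_of_field L default]
    exact h default
  · intro h p
    rw [chi_eq_chiField_of_field L p]
    exact h

/-- The Euler characteristic of the unit class is `chi0`. -/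
theorem chiQ_one : chiQ (cc.chartA K) 1 = chi0 cc := by
  rw [PicQ.one_def, chiQ_mk, Cover12.FieldCover.chiK_eq_chiField]
  exact JGroup85Chi.chiField_unit K

variable (D : AffineDictionary cc) (hc0 : cc.chart0.FiniteProjOverLine)
  (Q : CutAlg cc D (chiCut (ε := ε) D hc0))

/-- For any algebraic description `Q` of the Euler-characteristic cut, a line over a field lies
in the cut iff its Euler characteristic is that of the structure sheaf. -/
theorem cutA_iff_chiK {L : cc.QCA K} (hL : L.IsLine) : Q.cutA K L ↔ chiK L = chi0 cc := by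
  obtain ⟨M, hM⟩ := exists_rigidified D hL (rigidifiable_of_field K hL)
  rw [← Q.cut_iff M L hM, chiCut_affine_iff D hc0 K M hM, chi_forall_iff_chiK]

theorem inPic_iff {L : cc.QCA K} (hL : L.IsLine) :
    InPic D _ Q K L ↔ chiK L = chiQ (cc.chartA K) 1 := by
  rw [chiQ_one, ← cutA_iff_chiK K D hc0 Q hL]
  exact ⟨fun h => h.2.2, fun h => ⟨hL, rigidifiable_of_field K hL, h⟩⟩

/-- The classes of rigidifiable lines in the cut over a field are exactly the classes of degree
zero. -/
theorem mem_pic_iff (x : LinePic (cc.chartA K)) :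
    x ∈ pic D _ Q K ↔ chiQ (cc.chartA K) (picEquiv _ x) = chiQ (cc.chartA K) 1 := by
  obtain ⟨L, hL, rfl⟩ := LinePic.exists_rep x
  rw [mk_mem_pic, picEquiv_mk, chiQ_mk, inPic_iff K D hc0 Q hL]

/-- The group of classes in the cut over a field, inside helper73's Picard group. -/
def toPicQ : G D _ Q K →* PicQ (cc.chartA K) :=
  (picEquiv (cc.chartA K)).toMonoidHom.comp (pic D _ Q K).subtype

theorem toPicQ_apply (x : G D _ Q K) :
    toPicQ K D hc0 Q x = picEquiv (cc.chartA K) (Subtype.val (p := (· ∈ pic D _ Q K)) x) := rfl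

theorem toPicQ_gmk {L : cc.QCA K} (h : InPic D _ Q K L) :
    toPicQ K D hc0 Q (gmk D _ Q L h) = PicQ.mk (cc.chartA K) L h.1 := rfl

theorem toPicQ_injective : Function.Injective (toPicQ K D hc0 Q) := by
  intro x y h
  exact Subtype.ext ((picEquiv (cc.chartA K)).injective h)

theorem chiQ_toPicQ (x : G D _ Q K) :
    chiQ (cc.chartA K) (toPicQ K D hc0 Q x) = chiQ (cc.chartA K) 1 :=
  (mem_pic_iff K D hc0 Q _).1 (Subtype.property (p := (· ∈ pic D _ Q K)) x)

theorem exists_toPicQ_eq (η : PicQ (cc.chartA K))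
    (hη : chiQ (cc.chartA K) η = chiQ (cc.chartA K) 1) : ∃ x, toPicQ K D hc0 Q x = η := by
  have hmem : (picEquiv (cc.chartA K)).symm η ∈ pic D _ Q K := by
    rw [mem_pic_iff K D hc0 Q, MulEquiv.apply_symm_apply]
    exact hη
  let x : G D _ Q K := (⟨(picEquiv (cc.chartA K)).symm η, hmem⟩ : ↥(pic D _ Q K))
  exact ⟨x, MulEquiv.apply_symm_apply (picEquiv (cc.chartA K)) η⟩

theorem range_toPicQ :
    Set.range (toPicQ K D hc0 Q) = {η | chiQ (cc.chartA K) η = chiQ (cc.chartA K) 1} := by
  ext η
  exact ⟨fun ⟨x, hx⟩ => hx ▸ chiQ_toPicQ K D hc0 Q x, fun h => exists_toPicQ_eq K D hc0 Q η h⟩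

end Field

/-! ### Classes over `Spec K` -/

section Classes

variable (D : AffineDictionary cc) (hc0 : cc.chart0.FiniteProjOverLine)
  (Q : CutAlg cc D (chiCut (ε := ε) D hc0))

section Std

variable (K : Type u) [Field K] [Algebra k K]

/-- Classes of rigidified line bundles in the cut over `Spec K` (standard structure morphism),
as elements of helper73's Picard group of the two-chart ring over `K`. -/
def betaK (ξ : PClass (chiCut (ε := ε) D hc0) (specStr (k := k) K)) : PicQ (cc.chartA K) :=
  toPicQ K D hc0 Q (beta D _ Q K ξ)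

theorem betaK_injective : Function.Injective (betaK D hc0 Q K) :=
  (toPicQ_injective K D hc0 Q).comp (beta D _ Q K).injective

theorem chiQ_betaK (ξ : PClass (chiCut (ε := ε) D hc0) (specStr (k := k) K)) :
    chiQ (cc.chartA K) (betaK D hc0 Q K ξ) = chiQ (cc.chartA K) 1 :=
  chiQ_toPicQ K D hc0 Q _

theorem exists_betaK_eq (η : PicQ (cc.chartA K))
    (hη : chiQ (cc.chartA K) η = chiQ (cc.chartA K) 1) : ∃ ξ, betaK D hc0 Q K ξ = η := by
  obtain ⟨x, hx⟩ := exists_toPicQ_eq K D hc0 Q η hη
  exact ⟨(beta D _ Q K).symm x, by rw [betaK, Equiv.apply_symm_apply, hx]⟩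

/-- `betaK` on the class of a rigidified line bundle with two-chart module `L`. -/
theorem betaK_mk (M : RigidifiedLineBundle c ε (specStr (k := k) K))
    (hM : (chiCut (ε := ε) D hc0).P (specStr (k := k) K) M) {L : cc.QCA K}
    (h : D.Corr K M.L L) :
    betaK D hc0 Q K (PClass.mk _ _ M hM) = PicQ.mk (cc.chartA K) L (D.isLine h) := by
  show toPicQ K D hc0 Q (toG D _ Q (PClass.mk _ _ M hM)) = _
  rw [toG_mk D _ Q M hM h]
  rfl

end Std

section General

variable {K : Type u} [Field K] (t : Spec (CommRingCat.of K) ⟶ Spec (CommRingCat.of k))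

/-- Classes in the cut over `t : Spec K ⟶ Spec k` (arbitrary structure morphism; `K` carries the
`k`-algebra structure `JGroup85Std.algOfHom t`), as elements of helper73's Picard group. -/
def betaT :
    letI : Algebra k K := JGroup85Std.algOfHom (B := CommRingCat.of K) t
    PClass (chiCut (ε := ε) D hc0) t → PicQ (cc.chartA K) :=
  letI : Algebra k K := JGroup85Std.algOfHom (B := CommRingCat.of K) t
  fun ξ => betaK D hc0 Q K
    (JGroup85Std.stdEquiv _ (JGroup85Std.specStr_algOfHom (B := CommRingCat.of K) t) ξ)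

theorem betaT_injective : Function.Injective (betaT D hc0 Q t) := by
  letI : Algebra k K := JGroup85Std.algOfHom (B := CommRingCat.of K) t
  exact (betaK_injective D hc0 Q K).comp (Equiv.injective _)

theorem chiQ_betaT (ξ : PClass (chiCut (ε := ε) D hc0) t) :
    letI : Algebra k K := JGroup85Std.algOfHom (B := CommRingCat.of K) t
    chiQ (cc.chartA K) (betaT D hc0 Q t ξ) = chiQ (cc.chartA K) 1 := by
  letI : Algebra k K := JGroup85Std.algOfHom (B := CommRingCat.of K) t
  exact chiQ_betaK D hc0 Q K _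

theorem exists_betaT_eq :
    letI : Algebra k K := JGroup85Std.algOfHom (B := CommRingCat.of K) t
    ∀ η : PicQ (cc.chartA K), chiQ (cc.chartA K) η = chiQ (cc.chartA K) 1 →
      ∃ ξ, betaT D hc0 Q t ξ = η := by
  letI : Algebra k K := JGroup85Std.algOfHom (B := CommRingCat.of K) t
  intro η hη
  obtain ⟨ξ, hξ⟩ := exists_betaK_eq D hc0 Q K η hη
  refine ⟨(JGroup85Std.stdEquiv _
    (JGroup85Std.specStr_algOfHom (B := CommRingCat.of K) t)).symm ξ, ?_⟩
  show betaK D hc0 Q K _ = η
  rw [Equiv.apply_symm_apply, hξ]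

/-- `betaT` is `toPicQ ∘ gEquiv`. -/
theorem betaT_eq (ξ : PClass (chiCut (ε := ε) D hc0) t) :
    letI : Algebra k K := JGroup85Std.algOfHom (B := CommRingCat.of K) t
    betaT D hc0 Q t ξ = toPicQ K D hc0 Q
      (JGroup85Std.gEquiv (B := CommRingCat.of K) _ (fun A _ _ => G D _ Q A)
        (fun A _ _ => beta D _ Q A) t ξ) := rfl

/-- `betaT` is multiplicative for the class group law. -/
theorem betaT_mul (ξ η : PClass (chiCut (ε := ε) D hc0) t) :
    betaT D hc0 Q t ((classGroupLaw D _ Q).mul t ξ η) =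
      betaT D hc0 Q t ξ * betaT D hc0 Q t η := by
  letI : Algebra k K := JGroup85Std.algOfHom (B := CommRingCat.of K) t
  rw [betaT_eq, betaT_eq, betaT_eq, ← map_mul]
  congr 1
  exact Equiv.apply_symm_apply _ _

end General

end Classes

/-! ### The hypotheses `CurveHyp` for the tensor rings `K ⊗[k] B_i`, `K = k` up to isomorphism -/

section Transport

/-- Dedekind domains are stable under ring isomorphisms. -/
theorem isDedekindDomain_of_ringEquiv {R S : Type*} [CommRing R] [CommRing S] (e : R ≃+* S)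
    [IsDedekindDomain R] : IsDedekindDomain S := by
  haveI : IsDomain S := e.symm.toMulEquiv.isDomain R
  haveI : IsNoetherianRing S := isNoetherianRing_of_ringEquiv R e
  haveI : Ring.DimensionLEOne S := Ring.DimensionLEOne.of_ringEquiv e.symm
  haveI : IsIntegrallyClosed S := IsIntegrallyClosed.of_equiv e
  exact { }

variable {k : Type u} [Field k] (K : Type u) [Field K] [Algebra k K]
  (hK : Function.Bijective (algebraMap k K)) (B : Type u) [CommRing B] [Algebra k B]

/-- If `k → K` is bijective then `B → K ⊗[k] B`, `b ↦ 1 ⊗ b`, is an isomorphism. -/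
def tensorEquiv : B ≃ₐ[k] K ⊗[k] B :=
  (Algebra.TensorProduct.lid k B).symm.trans
    (Algebra.TensorProduct.congr (AlgEquiv.ofBijective (Algebra.ofId k K) hK) AlgEquiv.refl)

@[simp] theorem tensorEquiv_apply (b : B) : tensorEquiv K hK B b = 1 ⊗ₜ[k] b := by
  simp [tensorEquiv]

include hK in
theorem isDedekindDomain_tensor [IsDedekindDomain B] : IsDedekindDomain (K ⊗[k] B) :=
  isDedekindDomain_of_ringEquiv (tensorEquiv K hK B).toRingEquiv

include hK in
theorem isDomain_tensor [IsDomain B] : IsDomain (K ⊗[k] B) :=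
  (tensorEquiv K hK B).symm.toRingEquiv.toMulEquiv.isDomain B

include hK in
theorem not_isField_tensor (h : ¬ IsField B) : ¬ IsField (K ⊗[k] B) := fun hF =>
  h ((tensorEquiv K hK B).toRingEquiv.toMulEquiv.isField hF)

include hK in
theorem isAlgClosed_of_bijective [IsAlgClosed k] : IsAlgClosed K :=
  IsAlgClosed.of_ringEquiv k K (RingEquiv.ofBijective (algebraMap k K) hK)

end Transport

section CurveHypK

variable [IsAlgClosed k] (cc) (K : Type u) [Field K] [Algebra k K]
  (hK : Function.Bijective (algebraMap k K))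

include hK in
theorem isDedekindDomain_KB0 : IsDedekindDomain (K ⊗[k] cc.B0) :=
  haveI := CurveHyp80.isDedekindDomain_B0 cc
  isDedekindDomain_tensor K hK cc.B0

include hK in
theorem isDedekindDomain_KB1 : IsDedekindDomain (K ⊗[k] cc.B1) :=
  haveI := CurveHyp80.isDedekindDomain_B1 cc
  isDedekindDomain_tensor K hK cc.B1

include hK in
theorem isDomain_KB01 : IsDomain (K ⊗[k] cc.B01) :=
  haveI := CurveHyp80.isDomain_B01 cc
  isDomain_tensor K hK cc.B01

include hK in
/-- **The hypotheses of the algebraic Abel-Jacobi surjectivity hold for the tensor rings**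
`(K, K ⊗ B0, K ⊗ B1, K ⊗ B01)` when `k → K` is bijective (e.g. `K = k`). -/
theorem curveHypK [IsDedekindDomain (K ⊗[k] cc.B0)] [IsDedekindDomain (K ⊗[k] cc.B1)]
    [IsDomain (K ⊗[k] cc.B01)] : CurveHyp (cc.chartA K) := by
  haveI := isAlgClosed_of_bijective K hK
  haveI := CurveHyp80.finiteType_B0 cc
  haveI := CurveHyp80.finiteType_B1 cc
  refine ⟨not_isField_tensor K hK cc.B0 (CurveHyp80.not_isField_B0 cc),
    not_isField_tensor K hK cc.B1 (CurveHyp80.not_isField_B1 cc),
    fun m hm => CurveHyp80.quotient_surjective m hm,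
    fun m hm => CurveHyp80.quotient_surjective m hm,
    fun L hL => Cover12.FieldCover.finCoh_of_isLine (cc.chartA K)
      ((CurveHyp80.finiteProjOverLine_chart0 cc).baseChange K) hL⟩

end CurveHypK

/-! ### Every class over a field `K ≅ k` is a product of `g` point classes -/

section Points

variable (D : AffineDictionary cc) (hc0 : cc.chart0.FiniteProjOverLine)
  (Q : CutAlg cc D (chiCut (ε := ε) D hc0))

section GeneralK

variable (K : Type u) [Field K] [Algebra k K] [IsDedekindDomain (K ⊗[k] cc.B0)]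
  [IsDedekindDomain (K ⊗[k] cc.B1)] [IsDomain (K ⊗[k] cc.B01)]

/-- Under `CurveHyp`, the image of every class over `Spec K` in helper73's Picard group is a
product of `g = h¹(O)` classes `[O(P0)] * [O(-X)]` of rational points `X`. -/
theorem exists_points_betaK (H : CurveHyp (cc.chartA K))
    {P0 : IdealPair (K ⊗[k] cc.B0) (K ⊗[k] cc.B1) (K ⊗[k] cc.B01)}
    (hP0 : IsRatPointPair (cc.chartA K) P0)
    (ξ : PClass (chiCut (ε := ε) D hc0) (specStr (k := k) K)) :
    ∃ l : List (IdealPair (K ⊗[k] cc.B0) (K ⊗[k] cc.B1) (K ⊗[k] cc.B01)),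
      l.length = Module.finrank K (QC2.unit : cc.QCA K).H1 ∧
      (∀ X ∈ l, IsRatPointPair (cc.chartA K) X) ∧
      betaK D hc0 Q K ξ =
        (l.map fun X => (idealCls (cc.chartA K) P0)⁻¹ * idealCls (cc.chartA K) X).prod :=
  H.exists_points_of_chiQ_eq hP0 _ (chiQ_betaK D hc0 Q K ξ)

end GeneralK

section AtPoint

variable [IsDedekindDomain (k ⊗[k] cc.B0)] [IsDedekindDomain (k ⊗[k] cc.B1)]
  [IsDomain (k ⊗[k] cc.B01)]

/-- The bridge over `Spec k` (standard algebra structure): helper85's `lineClassPt` followed by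
`picEquiv`. -/
def betaPt (ξ : PClass (chiCut (ε := ε) D hc0) (𝟙 (Spec (CommRingCat.of k)))) :
    PicQ (cc.chartA k) :=
  picEquiv (cc.chartA k) (JGroup85Api.lineClassPt D _ Q ξ)

omit [IsDedekindDomain (k ⊗[k] cc.B0)] [IsDedekindDomain (k ⊗[k] cc.B1)]
  [IsDomain (k ⊗[k] cc.B01)] in
theorem betaPt_injective : Function.Injective (betaPt D hc0 Q) :=
  (picEquiv (cc.chartA k)).injective.comp (JGroup85Api.lineClassPt_injective D _ Q)

omit [IsDedekindDomain (k ⊗[k] cc.B0)] [IsDedekindDomain (k ⊗[k] cc.B1)]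
  [IsDomain (k ⊗[k] cc.B01)] in
theorem betaPt_mul (ξ η : PClass (chiCut (ε := ε) D hc0) (𝟙 (Spec (CommRingCat.of k)))) :
    betaPt D hc0 Q ((classGroupLaw D _ Q).mul (𝟙 (Spec (CommRingCat.of k))) ξ η) =
      betaPt D hc0 Q ξ * betaPt D hc0 Q η := by
  unfold betaPt
  rw [JGroup85Api.lineClassPt_mul, map_mul]

omit [IsDedekindDomain (k ⊗[k] cc.B0)] [IsDedekindDomain (k ⊗[k] cc.B1)]
  [IsDomain (k ⊗[k] cc.B01)] in
theorem chiQ_betaPt (ξ : PClass (chiCut (ε := ε) D hc0) (𝟙 (Spec (CommRingCat.of k)))) :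
    chiQ (cc.chartA k) (betaPt D hc0 Q ξ) = chiQ (cc.chartA k) 1 :=
  (mem_pic_iff k D hc0 Q _).1 (JGroup85Api.lineClassPt_mem D _ Q ξ)

omit [IsDedekindDomain (k ⊗[k] cc.B0)] [IsDedekindDomain (k ⊗[k] cc.B1)]
  [IsDomain (k ⊗[k] cc.B01)] in
theorem exists_betaPt_eq (η : PicQ (cc.chartA k))
    (hη : chiQ (cc.chartA k) η = chiQ (cc.chartA k) 1) : ∃ ξ, betaPt D hc0 Q ξ = η := by
  have hmem : (picEquiv (cc.chartA k)).symm η ∈ pic D _ Q k := by
    rw [mem_pic_iff k D hc0 Q, MulEquiv.apply_symm_apply]
    exact hη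
  obtain ⟨ξ, hξ⟩ := JGroup85Api.exists_lineClassPt_eq D _ Q _ hmem
  exact ⟨ξ, by rw [betaPt, hξ, MulEquiv.apply_symm_apply]⟩

/-- **Q3c, algebraic form over `Spec k`.**  The image of every class over `Spec k` is a product of
`g = h¹(O)` classes `[O(P0)] * [O(-X)]`, `X` rational point pairs of the two-chart ring
`cc.chartA k`. -/
theorem exists_points_betaPt [IsAlgClosed k]
    {P0 : IdealPair (k ⊗[k] cc.B0) (k ⊗[k] cc.B1) (k ⊗[k] cc.B01)}
    (hP0 : IsRatPointPair (cc.chartA k) P0)
    (ξ : PClass (chiCut (ε := ε) D hc0) (𝟙 (Spec (CommRingCat.of k)))) :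
    ∃ l : List (IdealPair (k ⊗[k] cc.B0) (k ⊗[k] cc.B1) (k ⊗[k] cc.B01)),
      l.length = Module.finrank k (QC2.unit : cc.QCA k).H1 ∧
      (∀ X ∈ l, IsRatPointPair (cc.chartA k) X) ∧
      betaPt D hc0 Q ξ =
        (l.map fun X => (idealCls (cc.chartA k) P0)⁻¹ * idealCls (cc.chartA k) X).prod :=
  (curveHypK cc k Function.bijective_id).exists_points_of_chiQ_eq hP0 _ (chiQ_betaPt D hc0 Q ξ)

/-- **Q3c (hypothesis `H` of the final wiring) from the evaluation of the one-point family.**
If the one-point family `F1` realises, at suitable `k`-points, all the classes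
`[O(P0)] * [O(-X)]` (`X` a rational point pair of `cc.chartA k`), then every class over `Spec k`
is a product of `g = h¹(O)` one-point classes. -/
theorem isProductOfPoints_of_eval [IsAlgClosed k] (F1 : ClassFamily (chiCut (ε := ε) D hc0) c)
    {P0 : IdealPair (k ⊗[k] cc.B0) (k ⊗[k] cc.B1) (k ⊗[k] cc.B01)}
    (hP0 : IsRatPointPair (cc.chartA k) P0)
    (heval : ∀ X, IsRatPointPair (cc.chartA k) X →
      ∃ x : SchemeHomOver (𝟙 (Spec (CommRingCat.of k))) c,
        betaPt D hc0 Q (clsAt F1 (CommRingCat.of k) x.1 (𝟙 (Spec (CommRingCat.of k))) x.2) =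
          (idealCls (cc.chartA k) P0)⁻¹ * idealCls (cc.chartA k) X)
    (ξ : PClass (chiCut (ε := ε) D hc0) (𝟙 (Spec (CommRingCat.of k)))) :
    IsProductOfPoints (classGroupLaw D _ Q) F1
      (Module.finrank k (QC2.unit : cc.QCA k).H1) ξ := by
  refine isProductOfPoints_of_bridge (classGroupLaw D _ Q) F1 (betaPt D hc0 Q)
    (betaPt_injective D hc0 Q) (betaPt_mul D hc0 Q) _ (fun ξ => ?_) ξ
  obtain ⟨l, hlen, hl, hprod⟩ := exists_points_betaPt D hc0 Q hP0 ξ
  have key : ∀ l : List (IdealPair (k ⊗[k] cc.B0) (k ⊗[k] cc.B1) (k ⊗[k] cc.B01)),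
      (∀ X ∈ l, IsRatPointPair (cc.chartA k) X) →
      ∃ xs : List (SchemeHomOver (𝟙 (Spec (CommRingCat.of k))) c), xs.length = l.length ∧
        (xs.map fun x => betaPt D hc0 Q
          (clsAt F1 (CommRingCat.of k) x.1 (𝟙 (Spec (CommRingCat.of k))) x.2)) =
        l.map fun X => (idealCls (cc.chartA k) P0)⁻¹ * idealCls (cc.chartA k) X := by
    intro l
    induction l with
    | nil => exact fun _ => ⟨[], rfl, rfl⟩
    | cons X l ih =>
      intro hl
      obtain ⟨xs, hxs, hmap⟩ := ih fun Y hY => hl Y (List.mem_cons_of_mem _ hY)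
      obtain ⟨x, hx⟩ := heval X (hl X List.mem_cons_self)
      exact ⟨x :: xs, by simp [hxs], by rw [List.map_cons, List.map_cons, hx, hmap]⟩
  obtain ⟨xs, hxs, hmap⟩ := key l hl
  exact ⟨xs, hxs.trans hlen, by rw [hprod, hmap]⟩

end AtPoint

end Points

end Fermat.Agent.Jac.BridgeK84

end
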