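/-
Fermat/Agent/Jac/BridgeK84Line.lean  (helper84)

JAC programme, brick Q3d "BridgeK", supplement: the class in `AbelJacobi73.PicQ` of the line
`O(-X) ⊗ O(P0)` (helper73's `pointLine` shape: `tensor (ofIdeals c X) (dual c (ofIdeals c P0) _)`)
is `(idealCls c P0)⁻¹ * idealCls c X`, whatever the proofs of `IsVB` / `IsLine` used to form it.
-/
import Mathlib
import Fermat.Agent.Jac.AbelJacobi73.PicQ

set_option autoImplicit false
set_option linter.unusedSectionVars false

universe u

open TensorProduct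

namespace Fermat.Agent.Jac.BridgeK84Line

open Fermat.Agent.Jac Fermat.Agent.Jac.LineOps39 Fermat.Agent.Jac.AbelJacobi73

variable {A R0 R1 R01 : Type u} [CommRing A] [CommRing R0] [CommRing R1] [CommRing R01]
  [Algebra A R0] [Algebra A R1] [Algebra A R01] [Algebra R0 R01] [Algebra R1 R01]
  [IsScalarTower A R0 R01] [IsScalarTower A R1 R01] [IsDedekindDomain R0] [IsDedekindDomain R1]
  (c : TwoChart A R0 R1 R01)

/-- The class of `O(-X)`. -/
theorem mk_ofIdeals {X : IdealPair R0 R1 R01} (hX : PairNeBot X) (h : (ofIdeals c X).IsLine) :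
    PicQ.mk c (ofIdeals c X) h = idealCls c X :=
  (idealCls_of_neBot c hX).symm

/-- The class of `O(P0)`. -/
theorem mk_dual_ofIdeals {P0 : IdealPair R0 R1 R01} (hP : PairNeBot P0)
    (hvb : (ofIdeals c P0).IsVB) (h : (dual c (ofIdeals c P0) hvb).IsLine) :
    PicQ.mk c (dual c (ofIdeals c P0) hvb) h = (idealCls c P0)⁻¹ := by
  rw [idealCls_of_neBot c hP, PicQ.inv_mk]

/-- **The class of `O(-X) ⊗ O(P0)`** is `[O(-P0)]⁻¹ * [O(-X)]`. -/
theorem mk_tensor_ofIdeals_dual {X P0 : IdealPair R0 R1 R01} (hX : PairNeBot X)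
    (hP : PairNeBot P0) (hvb : (ofIdeals c P0).IsVB)
    (h : (tensor (ofIdeals c X) (dual c (ofIdeals c P0) hvb)).IsLine) :
    PicQ.mk c (tensor (ofIdeals c X) (dual c (ofIdeals c P0) hvb)) h =
      (idealCls c P0)⁻¹ * idealCls c X := by
  rw [idealCls_of_neBot c hX, idealCls_of_neBot c hP, PicQ.inv_mk, mul_comm, PicQ.mk_mul_mk]

/-- The same with the factors in the other order: the class of `O(P0) ⊗ O(-X)`. -/
theorem mk_tensor_dual_ofIdeals {X P0 : IdealPair R0 R1 R01} (hX : PairNeBot X)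
    (hP : PairNeBot P0) (hvb : (ofIdeals c P0).IsVB)
    (h : (tensor (dual c (ofIdeals c P0) hvb) (ofIdeals c X)).IsLine) :
    PicQ.mk c (tensor (dual c (ofIdeals c P0) hvb) (ofIdeals c X)) h =
      (idealCls c P0)⁻¹ * idealCls c X := by
  rw [idealCls_of_neBot c hX, idealCls_of_neBot c hP, PicQ.inv_mk, PicQ.mk_mul_mk]

end Fermat.Agent.Jac.BridgeK84Line
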