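/-
Fermat/Agent/Jac/BridgeK84Final.lean  (helper84)

JAC programme, brick Q3c: **the hypothesis `H` of `FinalWiring41.s25_of_four`**
(every class over `Spec k` in the cut is a product of `g` one-point classes) from the evaluation
of the one-point family `F1` at `k`-points of the two charts.

Assembly of
* `BridgeK84.isProductOfPoints_of_eval` (helper84: bridge `PClass ↔ PicQ`, Riemann),
* `CurveHyp80.exists_graphPair_of_isRatPointPair` (helper80: rational point pairs of `cc.chartA k`
  are graph pairs of `k`-points of the curve),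
* `AbelJacobi73.pointLine0/1`, `liftData_pointLine0/1` (helper73: the line `O(P0 - Γ_x)` and its
  base change),
* `BridgeK84Line.mk_tensor_ofIdeals_dual` (class of `O(-X) ⊗ O(P0)` in `PicQ`).
-/
import Mathlib
import Fermat.Agent.Jac.BridgeK84
import Fermat.Agent.Jac.BridgeK84Line
import Fermat.Agent.Jac.CurveHyp80.GraphK
import Fermat.Agent.Jac.AbelJacobi73.PointChi
import Fermat.Agent.Jac.FinalWiring41b

set_option autoImplicit false
set_option linter.style.haveILetI false
set_option linter.unusedSectionVars false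

noncomputable section

universe u

open CategoryTheory CategoryTheory.Limits AlgebraicGeometry AlgebraicGeometry.RelPicard
  NeronModelInfra GoodReductionJacobian TensorProduct

namespace Fermat.Agent.Jac.BridgeK84Final

open scoped Fermat.Agent.Jac.BaseChange75
open PointsBridge79 PointsBridge79Shell BridgeCharts33 JSmooth85Alg BaseChange75 LineOps39
  JGroup85Pic JGroup85Law JGroup85Api ChiDict36 AbelJacobi73 BridgeK84 FinalWiring41

variable {k : Type u} [Field k] [IsAlgClosed k] {C : Scheme.{u}}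
  {c : C ⟶ Spec (CommRingCat.of k)} {ε : SchemeHomOver (𝟙 (Spec (CommRingCat.of k))) c}
  (cc : CurveCharts c ε)

attribute [local instance] CurveHyp80.isDedekindDomain_B0 CurveHyp80.isDedekindDomain_B1
  CurveHyp80.finiteType_B0 CurveHyp80.finiteType_B1

/-- The finite-projectivity of the charts over the line (helper36). -/
abbrev hFP : cc.chart0.FiniteProjOverLine := ChartFPL36.chart0_finiteProjOverLine cc

section PointClass

variable [IsDedekindDomain (k ⊗[k] cc.B0)] [IsDedekindDomain (k ⊗[k] cc.B1)]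
  [IsDomain (k ⊗[k] cc.B01)]

theorem pairNeBot_of_isRatPointPair
    {X : IdealPair (k ⊗[k] cc.B0) (k ⊗[k] cc.B1) (k ⊗[k] cc.B01)}
    (hX : IsRatPointPair (cc.chartA k) X) : PairNeBot X :=
  (curveHypK cc k Function.bijective_id).pairNeBot (isPointPair_of_isRatPointPair hX)

/-- The class of `O(P0 - Γ_x)` over `k`, `x` a `k`-point of chart 0. -/
theorem picQ_pointLine0 (x : cc.B0 →ₐ[k] k)
    (h : (pointLine0 cc.chart0 (hFP cc) cc.P0 k x).IsLine) :
    PicQ.mk (cc.chartA k) (pointLine0 cc.chart0 (hFP cc) cc.P0 k x) h =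
      (idealCls (cc.chartA k) (CurveHyp80.P0pairK cc k))⁻¹ *
        idealCls (cc.chartA k) (graphPair0 cc.chart0 k x) :=
  BridgeK84Line.mk_tensor_ofIdeals_dual (cc.chartA k)
    (pairNeBot_of_isRatPointPair cc (isRatPointPair_graphPair0 cc.chart0 k x))
    (pairNeBot_of_isRatPointPair cc (CurveHyp80.isRatPointPair_P0K cc k))
    (isVB_of_isLine ((pairNeBot_of_isRatPointPair cc
      (CurveHyp80.isRatPointPair_P0K cc k)).isLine_ofIdeals (cc.chartA k))) h

/-- The class of `O(P0 - Γ_x)` over `k`, `x` a `k`-point of chart 1. -/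
theorem picQ_pointLine1 (x : cc.B1 →ₐ[k] k)
    (h : (pointLine1 cc.chart0 (hFP cc) cc.P0 k x).IsLine) :
    PicQ.mk (cc.chartA k) (pointLine1 cc.chart0 (hFP cc) cc.P0 k x) h =
      (idealCls (cc.chartA k) (CurveHyp80.P0pairK cc k))⁻¹ *
        idealCls (cc.chartA k) (graphPair1 cc.chart0 k x) :=
  BridgeK84Line.mk_tensor_ofIdeals_dual (cc.chartA k)
    (pairNeBot_of_isRatPointPair cc (isRatPointPair_graphPair1 cc.chart0 k x))
    (pairNeBot_of_isRatPointPair cc (CurveHyp80.isRatPointPair_P0K cc k))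
    (isVB_of_isLine ((pairNeBot_of_isRatPointPair cc
      (CurveHyp80.isRatPointPair_P0K cc k)).isLine_ofIdeals (cc.chartA k))) h

end PointClass

/-! ### The hypothesis `H` -/

section Main

variable [IsIntegral C] (D : AffineDictionary cc)

/-- The algebraic description of THE cut used by `FinalWiring41.groupLaw41`. -/
abbrev Q41 : CutAlg cc D (cut41 D) :=
  CutAlg79.chiCutAlg D (ChartFPL36.chart0_finiteProjOverLine cc) (CutAlg36.hDom_of_isIntegral cc)

/-- The genus `g = h¹(O)`, as the number of points in the Abel-Jacobi family. -/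
def genus41 : ℕ := Module.finrank k (QC2.unit : cc.QCA k).H1

/-- **Q3c.**  Hypothesis `H` of `FinalWiring41.s25_of_four` from the evaluation of the one-point
family at the `k`-points of the two charts: if the value of `F1` at a `k`-point `x` of the chart
`U_j` corresponds (through `JGroup85Api.lineClassPt`) to any base change along the evaluation
`B_j → k` at `x` of the universal point line `pointLine_j B_j id`, then every class over `Spec k`
is a product of `g` one-point classes. -/
theorem h41_of_eval (F1 : ClassFamily (cut41 D) c)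
    (h0 : ∀ (x : SchemeHomOver (𝟙 (Spec (CommRingCat.of k))) c) (hx : x.1 ⁻¹ᵁ cc.U0 = ⊤)
      {L' : cc.QCA k} (hL' : L'.IsLine)
      (_ : letI := (CurveHyp80.evalAlg0 cc x hx).toRingHom.toAlgebra
        LiftData (pointLine0 cc.chart0 (hFP cc) cc.P0 cc.B0 (AlgHom.id k cc.B0)) L'),
      lineClassPt D (cut41 D) (Q41 cc D)
          (clsAt F1 (CommRingCat.of k) x.1 (𝟙 (Spec (CommRingCat.of k))) x.2) =
        LinePic.mk (cc.chartA k) L' hL')
    (h1 : ∀ (x : SchemeHomOver (𝟙 (Spec (CommRingCat.of k))) c) (hx : x.1 ⁻¹ᵁ cc.U1 = ⊤)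
      {L' : cc.QCA k} (hL' : L'.IsLine)
      (_ : letI := (CurveHyp80.evalAlg1 cc x hx).toRingHom.toAlgebra
        LiftData (pointLine1 cc.chart0 (hFP cc) cc.P0 cc.B1 (AlgHom.id k cc.B1)) L'),
      lineClassPt D (cut41 D) (Q41 cc D)
          (clsAt F1 (CommRingCat.of k) x.1 (𝟙 (Spec (CommRingCat.of k))) x.2) =
        LinePic.mk (cc.chartA k) L' hL')
    (ξ : PClass (cut41 D) (𝟙 (Spec (CommRingCat.of k)))) :
    IsProductOfPoints (groupLaw41 D) F1 (genus41 cc) ξ := by
  haveI := isDedekindDomain_KB0 cc k Function.bijective_id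
  haveI := isDedekindDomain_KB1 cc k Function.bijective_id
  haveI := isDomain_KB01 cc k Function.bijective_id
  refine isProductOfPoints_of_eval D (ChartFPL36.chart0_finiteProjOverLine cc) (Q41 cc D) F1
    (CurveHyp80.isRatPointPair_P0K cc k) (fun X hX => ?_) ξ
  obtain ⟨x, h⟩ := CurveHyp80.exists_graphPair_of_isRatPointPair cc hX
  refine ⟨x, ?_⟩
  rcases h with ⟨hx, rfl⟩ | ⟨hx, rfl⟩
  · letI := (CurveHyp80.evalAlg0 cc x hx).toRingHom.toAlgebra
    have hl := liftData_pointLine0 cc.chart0 (hFP cc) cc.P0 (A := cc.B0) k (AlgHom.id k cc.B0)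
    have hx' : (IsScalarTower.toAlgHom k cc.B0 k).comp (AlgHom.id k cc.B0) =
        CurveHyp80.evalAlg0 cc x hx := by
      ext b
      rfl
    unfold betaPt
    rw [h0 x hx (isLine_pointLine0 cc.chart0 (hFP cc) cc.P0 k _) hl, picEquiv_mk,
      picQ_pointLine0, hx']
  · letI := (CurveHyp80.evalAlg1 cc x hx).toRingHom.toAlgebra
    have hl := liftData_pointLine1 cc.chart0 (hFP cc) cc.P0 (A := cc.B1) k (AlgHom.id k cc.B1)
    have hx' : (IsScalarTower.toAlgHom k cc.B1 k).comp (AlgHom.id k cc.B1) =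
        CurveHyp80.evalAlg1 cc x hx := by
      ext b
      rfl
    unfold betaPt
    rw [h1 x hx (isLine_pointLine1 cc.chart0 (hFP cc) cc.P0 k _) hl, picEquiv_mk,
      picQ_pointLine1, hx']

/-- **Q3c, disjunctive form** (the chart is chosen by the local model of the family, as in
`JGroup85Eval.lineClassPt_clsAt_ofBundle`). -/
theorem h41_of_eval_or (F1 : ClassFamily (cut41 D) c)
    (h : ∀ x : SchemeHomOver (𝟙 (Spec (CommRingCat.of k))) c,
      (∃ hx : x.1 ⁻¹ᵁ cc.U0 = ⊤, ∀ (L' : cc.QCA k) (hL' : L'.IsLine),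
        (letI := (CurveHyp80.evalAlg0 cc x hx).toRingHom.toAlgebra;
          LiftData (pointLine0 cc.chart0 (hFP cc) cc.P0 cc.B0 (AlgHom.id k cc.B0)) L') →
        lineClassPt D (cut41 D) (Q41 cc D)
            (clsAt F1 (CommRingCat.of k) x.1 (𝟙 (Spec (CommRingCat.of k))) x.2) =
          LinePic.mk (cc.chartA k) L' hL') ∨
      (∃ hx : x.1 ⁻¹ᵁ cc.U1 = ⊤, ∀ (L' : cc.QCA k) (hL' : L'.IsLine),
        (letI := (CurveHyp80.evalAlg1 cc x hx).toRingHom.toAlgebra;
          LiftData (pointLine1 cc.chart0 (hFP cc) cc.P0 cc.B1 (AlgHom.id k cc.B1)) L') →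
        lineClassPt D (cut41 D) (Q41 cc D)
            (clsAt F1 (CommRingCat.of k) x.1 (𝟙 (Spec (CommRingCat.of k))) x.2) =
          LinePic.mk (cc.chartA k) L' hL'))
    (ξ : PClass (cut41 D) (𝟙 (Spec (CommRingCat.of k)))) :
    IsProductOfPoints (groupLaw41 D) F1 (genus41 cc) ξ := by
  haveI := isDedekindDomain_KB0 cc k Function.bijective_id
  haveI := isDedekindDomain_KB1 cc k Function.bijective_id
  haveI := isDomain_KB01 cc k Function.bijective_id
  refine isProductOfPoints_of_eval D (ChartFPL36.chart0_finiteProjOverLine cc) (Q41 cc D) F1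
    (CurveHyp80.isRatPointPair_P0K cc k) (fun X hX => ?_) ξ
  obtain ⟨x, rfl⟩ := CurveHyp80.exists_point_of_isRatPointPairK cc k Function.bijective_id hX
  refine ⟨x, ?_⟩
  rcases h x with ⟨hx, h0⟩ | ⟨hx, h1⟩
  · letI := (CurveHyp80.evalAlg0 cc x hx).toRingHom.toAlgebra
    have hl := liftData_pointLine0 cc.chart0 (hFP cc) cc.P0 (A := cc.B0) k (AlgHom.id k cc.B0)
    have hx' : (IsScalarTower.toAlgHom k cc.B0 k).comp (AlgHom.id k cc.B0) =
        CurveHyp80.evalAlg0 cc x hx := by
      ext b
      rfl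
    unfold betaPt
    rw [h0 _ (isLine_pointLine0 cc.chart0 (hFP cc) cc.P0 k _) hl, picEquiv_mk,
      picQ_pointLine0, hx', CurveHyp80.pointPairK_self_eq_graphPair0 cc x hx]
  · letI := (CurveHyp80.evalAlg1 cc x hx).toRingHom.toAlgebra
    have hl := liftData_pointLine1 cc.chart0 (hFP cc) cc.P0 (A := cc.B1) k (AlgHom.id k cc.B1)
    have hx' : (IsScalarTower.toAlgHom k cc.B1 k).comp (AlgHom.id k cc.B1) =
        CurveHyp80.evalAlg1 cc x hx := by
      ext b
      rfl
    unfold betaPt
    rw [h1 _ (isLine_pointLine1 cc.chart0 (hFP cc) cc.P0 k _) hl, picEquiv_mk,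
      picQ_pointLine1, hx', CurveHyp80.pointPairK_self_eq_graphPair1 cc x hx]

end Main

end Fermat.Agent.Jac.BridgeK84Final

end
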