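/-
Fermat/Agent/Jac/AlgChart76HCbc87.lean  (helper87)

JAC brick R2a, piece HC-bc: the fibre condition `wCore c0 e v` of the Hilbert chart `v` is
invariant under extension of the base field (the field `w_bc` of
`AlgChart76.FibrewiseChart (stdFam (e i₀) 1)`).

* `sectionIdeal_liftData` (SI-BC): for a `W`-object `M` over ANY `k`-algebra `A` (line bundle,
  rigidifiable at `e i₀`, fibrewise Euler characteristic `1`, `H1Vanish`) and `h : LiftData M M'`
  along `A → A'`: `sectionIdeal M' = (sectionIdeal M).map (algebraMap (A ⊗ B0) (A' ⊗ B0))`;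
* `map_mem_hilbV_field_iff` : for a field extension `K → K'`, `I^e ∈ Hilb_v(K') ↔ I ∈ Hilb_v(K)`;
* `wCore_liftData_field_iff` : `wCore c0 e v M ↔ wCore c0 e v M'` for `LiftData M M'` along a
  field extension;
* `wCore_bc` : the same in the `FamTheory.BC` form used by `FibrewiseChart.w_bc`.
-/
import Mathlib
import Fermat.Agent.Jac.AlgChart76.H1Vanish
import Fermat.Agent.Jac.Chart43.Concrete
import Fermat.Agent.Jac.Chart43.LiftSection
import Fermat.Agent.Jac.Cover12.HilbOpen

set_option autoImplicit false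
set_option linter.unusedSectionVars false
set_option linter.style.haveILetI false

universe u

open TensorProduct

namespace Fermat.Agent.Jac.AlgChart76HCbc87

open scoped Fermat.Agent.Jac.BaseChange75
open Fermat.Agent.Jac.JSmooth85Alg Fermat.Agent.Jac.BaseChange75 Fermat.Agent.Jac.LineOps39
  Fermat.Agent.Jac.AlgChart76 Fermat.Agent.Jac.HilbChart87

variable {k : Type u} [Field k] {B0 B1 B01 : Type u} [CommRing B0] [CommRing B1] [CommRing B01]
  [Algebra k B0] [Algebra k B1] [Algebra k B01] [Algebra B0 B01] [Algebra B1 B01]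
  [IsScalarTower k B0 B01] [IsScalarTower k B1 B01]
  (c0 : TwoChart k B0 B1 B01) {ιInf : Type} (e : ιInf → (B1 →ₐ[k] k))

section SIBC

variable {A A' : Type u} [CommRing A] [CommRing A'] [Algebra k A] [Algebra k A'] [Algebra A A']
  [IsScalarTower k A A']

/-- **SI-BC.** The section ideal of a `W`-object commutes with arbitrary base change. -/
theorem sectionIdeal_liftData (hc0 : c0.FiniteProjOverLine) (hInf : InfData c0 e) (i₀ : ιInf)
    (hB0 : ∀ (K : Type u) [Field K] [Algebra k K], IsDomain (K ⊗[k] B0))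
    (hB1 : ∀ (K : Type u) [Field K] [Algebra k K], IsDomain (K ⊗[k] B1))
    {M : QCA k B0 B1 B01 A} {M' : QCA k B0 B1 B01 A'} (h : LiftData M M') (hM : M.IsLine)
    (hr : Rigidifiable (e i₀) M) (hχ : ∀ p : PrimeSpectrum A, M.chi p = 1)
    (hv : H1Vanish c0 e M) :
    sectionIdeal M' = (sectionIdeal M).map (algebraMap (A ⊗[k] B0) (A' ⊗[k] B0)) := by
  obtain ⟨-, hgood, -, σ, -, hcd⟩ :=
    Chart43.stdFam_chart_divisor c0 e hc0 hInf i₀ hB0 hB1 M hM hr hχ hv
  have := hM.inv0
  have := BaseChange75.towerLeft' k A A' B0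
  have := BaseChange75.towerLeft' k A A' B1
  have := BaseChange75.towerLeft' k A A' B01
  exact Chart43.span_dual_apply_liftData h σ hcd.gen (hgood.bij A').2

end SIBC

section HilbField

variable {B : Type u} [CommRing B] [Algebra k B] {g : ℕ} (v : Fin g → B)
  {K K' : Type u} [Field K] [Field K'] [Algebra k K] [Algebra k K'] [Algebra K K']
  [IsScalarTower k K K']

/-- the structure map of the tensor rings is `tmap` of the structure map. -/
theorem algebraMap_left_eq_tmap :
    algebraMap (K ⊗[k] B) (K' ⊗[k] B) =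
      ((HilbChart87.tmap (Cover12.HilbOpen.str (k := k) (A := K) K') :
        K ⊗[k] B →ₐ[k] K' ⊗[k] B) : K ⊗[k] B →+* K' ⊗[k] B) := by
  refine RingHom.ext fun x => ?_
  induction x using TensorProduct.induction_on with
  | zero => simp
  | add x y hx hy => rw [map_add, map_add, hx, hy]
  | tmul a b =>
    rw [algebraMap_left_tmul]
    show _ = HilbChart87.tmap (Cover12.HilbOpen.str (k := k) (A := K) K') (a ⊗ₜ[k] b)
    rw [HilbChart87.tmap_tmul]
    rfl

/-- **`Hilb_v` and field extensions**: the extended ideal is a point of `Hilb_v(K')` iff the ideal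
is a point of `Hilb_v(K)`. -/
theorem map_mem_hilbV_field_iff (I : Ideal (K ⊗[k] B)) :
    I.map (algebraMap (K ⊗[k] B) (K' ⊗[k] B)) ∈ HilbV k v K' ↔ I ∈ HilbV k v K := by
  rw [algebraMap_left_eq_tmap]
  have h1 := Cover12.HilbOpen.map_mem_hilbV_iff_bijective_baseChange v I K'
  refine h1.trans ?_
  rw [Cover12.HilbOpen.mem_hilbV_iff]
  exact Module.FaithfullyFlat.lTensor_bijective_iff_bijective K K' (Cover12.HilbOpen.theta v I)

end HilbField

section Main

variable {g : ℕ} (v : Fin g → B0)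
  {K K' : Type u} [Field K] [Field K'] [Algebra k K] [Algebra k K'] [Algebra K K']
  [IsScalarTower k K K']

/-- **HC-bc (instance form).** The fibre condition of the Hilbert chart `v` is invariant under
extension of the base field. -/
theorem wCore_liftData_field_iff (hc0 : c0.FiniteProjOverLine) (hInf : InfData c0 e) (i₀ : ιInf)
    (hB0 : ∀ (K : Type u) [Field K] [Algebra k K], IsDomain (K ⊗[k] B0))
    (hB1 : ∀ (K : Type u) [Field K] [Algebra k K], IsDomain (K ⊗[k] B1))
    {M : QCA k B0 B1 B01 K} {M' : QCA k B0 B1 B01 K'} (h : LiftData M M') (hM : M.IsLine)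
    (hr : Rigidifiable (e i₀) M) (hχ : ∀ p : PrimeSpectrum K, M.chi p = 1) :
    wCore c0 e v M ↔ wCore c0 e v M' := by
  have hVB : M.IsVB := isVB_of_isLine hM
  have key : H1Vanish c0 e M →
      (sectionIdeal M' ∈ HilbV k v K' ↔ sectionIdeal M ∈ HilbV k v K) := by
    intro hv
    rw [sectionIdeal_liftData c0 e hc0 hInf i₀ hB0 hB1 h hM hr hχ hv]
    exact map_mem_hilbV_field_iff v (sectionIdeal M)
  constructor
  · rintro ⟨hv, hI⟩
    exact ⟨H1Vanish.liftData c0 e hInf.s_mem h hVB hv, (key hv).2 hI⟩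
  · rintro ⟨hv', hI'⟩
    have hv : H1Vanish c0 e M := H1Vanish.of_liftData_field c0 e hInf.s_mem h hVB hv'
    exact ⟨hv, (key hv).1 hI'⟩

end Main

section FamForm

variable {g : ℕ} (v : Fin g → B0)

/-- **HC-bc (`FibrewiseChart.w_bc` form)** for the moduli problem `stdFam (e i₀) 1`. -/
theorem wCore_bc (hc0 : c0.FiniteProjOverLine) (hInf : InfData c0 e) (i₀ : ιInf)
    (hB0 : ∀ (K : Type u) [Field K] [Algebra k K], IsDomain (K ⊗[k] B0))
    (hB1 : ∀ (K : Type u) [Field K] [Algebra k K], IsDomain (K ⊗[k] B1))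
    {K K' : Type u} [Field K] [Field K'] [Algebra k K] [Algebra k K'] (φ : K →ₐ[k] K')
    {L : (stdFam (B0 := B0) (B01 := B01) (e i₀) 1).Obj K}
    {L' : (stdFam (B0 := B0) (B01 := B01) (e i₀) 1).Obj K'}
    (hbc : (stdFam (B0 := B0) (B01 := B01) (e i₀) 1).BC φ L L') :
    wCore c0 e v L.1 ↔ wCore c0 e v L'.1 := by
  letI := φ.toRingHom.toAlgebra
  haveI : IsScalarTower k K K' := tower_of_algHom φ
  obtain ⟨h⟩ := hbc
  exact wCore_liftData_field_iff c0 e v hc0 hInf i₀ hB0 hB1 h L.2.1 L.2.2.1 L.2.2.2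

end FamForm

end Fermat.Agent.Jac.AlgChart76HCbc87
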