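/-
Fermat/Agent/Jac/AlgChart76Hyp86.lean  (helper86)

Programme JAC (S25), brick R2a: the hypotheses of the chart construction `AlgChart76` for the
two-chart ring `cc.chart0` of a curve with charts `cc : CurveCharts c ε` over an algebraically
closed field.

* `exists_infData`  : the points at infinity (zeros of `s` in the chart `B1`), with `InfData`;
* `exists_genus`    : `chiUnit = 1 - g` for a natural number `g`;
* `not_isField_B0`, `not_isField_B1`, `finiteType_B0` (re-exported from `CurveHyp80`).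
-/
import Mathlib
import Fermat.Agent.Jac.AlgChart76.HilbCore
import Fermat.Agent.Jac.CurveHyp80.Instance
import Fermat.Agent.Jac.CurveBaseChange98Point
import Fermat.Agent.Jac.ChiBC36
import Fermat.Agent.Jac.BridgeSheaf33Top

set_option autoImplicit false
set_option linter.unusedSectionVars false
set_option linter.style.haveILetI false

open CategoryTheory CategoryTheory.Limits AlgebraicGeometry TopologicalSpace Opposite
open NeronModelInfra TensorProduct

universe u

noncomputable section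

namespace Fermat.Agent.Jac.AlgChart76Hyp86

open Fermat.Agent.Jac Fermat.Agent.Jac.TwoCoverGammaSetting
open scoped Fermat.Agent.Jac.BaseChange75

section Algebra

variable {k : Type*} [Field k] {B : Type*} [CommRing B] [Algebra k B]

/-- Two `k`-points of a `k`-algebra with the same kernel are equal. -/
theorem algHom_eq_of_ker_eq (φ ψ : B →ₐ[k] k) (h : RingHom.ker φ = RingHom.ker ψ) : φ = ψ := by
  ext b
  have hb : b - algebraMap k B (φ b) ∈ RingHom.ker φ := by
    rw [RingHom.mem_ker, map_sub, AlgHom.commutes, Algebra.algebraMap_self, RingHom.id_apply,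
      sub_self]
  rw [h, RingHom.mem_ker, map_sub, AlgHom.commutes, Algebra.algebraMap_self, RingHom.id_apply,
    sub_eq_zero] at hb
  exact hb.symm

/-- In a Dedekind domain which is a finite type algebra over an algebraically closed field, the
zeros of a nonzero element: finitely many `k`-points, a product of whose ideals is `(s)`. -/
theorem exists_points_of_ne_zero [IsAlgClosed k] [IsDedekindDomain B] [Algebra.FiniteType k B]
    (s : B) (hs : s ≠ 0) :
    ∃ (n : ℕ) (e : Fin n → (B →ₐ[k] k)), (∀ i, e i s = 0) ∧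
      ((List.finRange n).map (fun i => RingHom.ker (e i))).prod = Ideal.span {s} ∧
      (∀ i, RingHom.ker (e i) ≠ ⊥) ∧
      ∀ Q : B →ₐ[k] k, Q s = 0 → ∃ i, e i = Q := by
  classical
  set I : Ideal B := Ideal.span {s} with hI
  have hI0 : I ≠ ⊥ := by
    rw [hI, Ne, Ideal.span_singleton_eq_bot]
    exact hs
  set F := UniqueFactorizationMonoid.normalizedFactors I with hF
  set l : List (Ideal B) := F.toList with hl
  have hmem : ∀ p, p ∈ l ↔ p ∈ F := fun p => Multiset.mem_toList
  have hprime : ∀ p ∈ l, Prime p := fun p hp =>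
    UniqueFactorizationMonoid.prime_of_normalized_factor p ((hmem p).1 hp)
  have hle : ∀ p ∈ l, I ≤ p := fun p hp =>
    Ideal.le_of_dvd (UniqueFactorizationMonoid.dvd_of_mem_normalizedFactors ((hmem p).1 hp))
  have hmax : ∀ p ∈ l, p.IsMaximal := fun p hp =>
    (Ideal.isPrime_of_prime (hprime p hp)).isMaximal (hprime p hp).ne_zero
  have hpt : ∀ i : Fin l.length, ∃ Q : B →ₐ[k] k, RingHom.ker Q = l.get i := fun i =>
    haveI := hmax (l.get i) (List.get_mem l i)
    CurveBaseChange98Point.exists_point_of_isMaximal k B (l.get i)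
  choose e he using hpt
  refine ⟨l.length, e, fun i => ?_, ?_, fun i => ?_, fun Q hQ => ?_⟩
  · have : s ∈ l.get i := hle _ (List.get_mem l i) (Ideal.subset_span rfl)
    rw [← he i, RingHom.mem_ker] at this
    exact this
  · have h1 : (List.finRange l.length).map (fun i => RingHom.ker (e i)) = l := by
      have : (fun i => RingHom.ker (e i)) = l.get := funext he
      rw [this, List.map_get_finRange]
    rw [h1, hl, Multiset.prod_toList, hF, Ideal.prod_normalizedFactors_eq_self hI0]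
  · rw [he i]
    exact (hprime _ (List.get_mem l i)).ne_zero
  · have hQmax : (RingHom.ker Q).IsMaximal :=
      RingHom.ker_isMaximal_of_surjective Q (fun a => ⟨algebraMap k B a, Q.commutes a⟩)
    have hQle : I ≤ RingHom.ker Q := by
      rw [hI, Ideal.span_le, Set.singleton_subset_iff]
      exact hQ
    have hQ0 : RingHom.ker Q ≠ ⊥ := fun h => hI0 (le_bot_iff.mp (h ▸ hQle))
    have hQprime : Prime (RingHom.ker Q) := Ideal.prime_of_isPrime hQ0 hQmax.isPrime
    obtain ⟨q, hq, hassoc⟩ := UniqueFactorizationMonoid.exists_mem_normalizedFactors_of_dvd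
      (a := I) (p := RingHom.ker Q) hI0 hQprime.irreducible (Ideal.dvd_iff_le.mpr hQle)
    have hqeq : RingHom.ker Q = q := associated_iff_eq.mp hassoc
    have hql : q ∈ l := (hmem q).2 hq
    obtain ⟨i, hi⟩ := List.mem_iff_get.mp hql
    refine ⟨i, algHom_eq_of_ker_eq _ _ ?_⟩
    rw [he i, hi, hqeq]

end Algebra

section Curve

variable {k : Type u} [Field k] {C : Scheme.{u}} {c : C ⟶ Spec (CommRingCat.of k)}
  {ε : SchemeHomOver (𝟙 (Spec (CommRingCat.of k))) c} (cc : CurveCharts c ε)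

/-- **(a) The points at infinity.** The zeros of `s` in the chart `B1` form a finite family of
`k`-points containing the base point `P0`, a product of their ideals is `(s)`, and their ideals
are invertible. -/
theorem exists_infData [IsAlgClosed k] :
    ∃ (ιInf : Type) (_ : Finite ιInf) (e : ιInf → (cc.B1 →ₐ[k] k)) (i₀ : ιInf),
      e i₀ = cc.P0 ∧ AlgChart76.InfData cc.chart0 e ∧
      ∀ i, Module.Invertible cc.B1 (RingHom.ker (e i)) := by
  haveI := CurveHyp80.isDedekindDomain_B1 cc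
  haveI := CurveHyp80.finiteType_B1 cc
  obtain ⟨n, e, hs, hprod, hne, hall⟩ :=
    exists_points_of_ne_zero (k := k) cc.chart0.s (CurveHyp80.s_ne_zero_chart0 cc)
  obtain ⟨i₀, hi₀⟩ := hall cc.P0 cc.P0_s
  exact ⟨Fin n, inferInstance, e, i₀, hi₀, ⟨hs, ⟨List.finRange n, le_of_eq hprod⟩⟩,
    fun i => CurveBaseChange98Point.invertible_of_ne_bot _ (hne i)⟩

end Curve

section Genus

variable {k : Type u} [Field k] {C : Scheme.{u}} {c : C ⟶ Spec (CommRingCat.of k)}
  {ε : SchemeHomOver (𝟙 (Spec (CommRingCat.of k))) c} (cc : CurveCharts c ε)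

/-- Čech exactness on the curve: compatible functions on the two charts are constants. -/
theorem const_of_res_eq (b0 : cc.B0) (b1 : cc.B1)
    (h : algebraMap cc.B0 cc.B01 b0 = algebraMap cc.B1 cc.B01 b1) :
    ∃ x : k, b0 = algebraMap k cc.B0 x ∧ b1 = algebraMap k cc.B1 x :=
  BridgeCharts33.cover0_const cc b0 b1 h

/-- restriction to the overlap, `k`-linearly -/
def r0Lin : cc.B0 →ₗ[k] cc.B01 := (IsScalarTower.toAlgHom k cc.B0 cc.B01).toLinearMap

/-- restriction to the overlap, `k`-linearly -/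
def r1Lin : cc.B1 →ₗ[k] cc.B01 := (IsScalarTower.toAlgHom k cc.B1 cc.B01).toLinearMap

theorem lTensor_r0Lin (x : k ⊗[k] cc.B0) :
    (r0Lin cc).lTensor k x = algebraMap (k ⊗[k] cc.B0) (k ⊗[k] cc.B01) x := by
  induction x using TensorProduct.induction_on with
  | zero => rw [map_zero, map_zero]
  | tmul a b =>
    rw [BaseChange75.algebraMap_right_tmul]
    rfl
  | add x y hx hy => rw [map_add, map_add, hx, hy]

theorem lTensor_r1Lin (x : k ⊗[k] cc.B1) :
    (r1Lin cc).lTensor k x = algebraMap (k ⊗[k] cc.B1) (k ⊗[k] cc.B01) x := by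
  induction x using TensorProduct.induction_on with
  | zero => rw [map_zero, map_zero]
  | tmul a b =>
    rw [BaseChange75.algebraMap_right_tmul]
    rfl
  | add x y hx hy => rw [map_add, map_add, hx, hy]

/-- The structure sheaf on the tensor rings `k ⊗[k] B_i`. -/
abbrev unitK : QC2 k (k ⊗[k] cc.B0) (k ⊗[k] cc.B1) (k ⊗[k] cc.B01) := QC2.unit

theorem mem_H0_unitK_iff (x0 : k ⊗[k] cc.B0) (x1 : k ⊗[k] cc.B1) :
    ((x0, x1) : (unitK cc).N0 × (unitK cc).N1) ∈ (unitK cc).H0 ↔
      algebraMap (k ⊗[k] cc.B0) (k ⊗[k] cc.B01) x0 =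
        algebraMap (k ⊗[k] cc.B1) (k ⊗[k] cc.B01) x1 := by
  change algebraMap (k ⊗[k] cc.B0) (k ⊗[k] cc.B01) x0 +
    -(algebraMap (k ⊗[k] cc.B1) (k ⊗[k] cc.B01) x1) = 0 ↔ _
  rw [← sub_eq_add_neg, sub_eq_zero]

/-- Global sections of the structure sheaf on the tensor rings are constants. -/
theorem exists_const_of_mem_H0 (x0 : k ⊗[k] cc.B0) (x1 : k ⊗[k] cc.B1)
    (h : algebraMap (k ⊗[k] cc.B0) (k ⊗[k] cc.B01) x0 =
      algebraMap (k ⊗[k] cc.B1) (k ⊗[k] cc.B01) x1) :
    ∃ a : k, x0 = a ⊗ₜ[k] (1 : cc.B0) ∧ x1 = a ⊗ₜ[k] (1 : cc.B1) := by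
  refine BridgeCharts33.tensor_pair_of_exact (A := k) (r0Lin cc) (r1Lin cc) 1 1 ?_ ?_ x0 x1 ?_
  · change algebraMap cc.B0 cc.B01 1 = algebraMap cc.B1 cc.B01 1
    rw [map_one, map_one]
  · intro b0 b1 hb
    obtain ⟨x, h0, h1⟩ := const_of_res_eq cc b0 b1 hb
    exact ⟨x, by rw [h0, Algebra.algebraMap_eq_smul_one],
      by rw [h1, Algebra.algebraMap_eq_smul_one]⟩
  · rw [lTensor_r0Lin, lTensor_r1Lin, h]

/-- The unit section of the structure sheaf. -/
def oneH0 : (unitK cc).H0 :=
  ⟨((1 : k ⊗[k] cc.B0), (1 : k ⊗[k] cc.B1)), (mem_H0_unitK_iff cc 1 1).2 (by rw [map_one, map_one])⟩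

theorem oneH0_ne_zero : oneH0 cc ≠ 0 := by
  haveI := CurveHyp80.isDedekindDomain_B0 cc
  haveI : Nontrivial (k ⊗[k] cc.B0) := (Algebra.TensorProduct.lid k cc.B0).toEquiv.nontrivial
  intro h
  have h1 : (1 : k ⊗[k] cc.B0) = 0 := congrArg (fun x : (unitK cc).H0 => x.1.1) h
  exact one_ne_zero h1

/-- `h⁰(𝒪) = 1`. -/
theorem finrank_H0_unitK : Module.finrank k (unitK cc).H0 = 1 := by
  rw [finrank_eq_one_iff_of_nonzero' (oneH0 cc) (oneH0_ne_zero cc)]
  rintro ⟨⟨x0, x1⟩, hx⟩
  obtain ⟨a, h0, h1⟩ := exists_const_of_mem_H0 cc x0 x1 ((mem_H0_unitK_iff cc x0 x1).1 hx)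
  refine ⟨a, Subtype.ext (Prod.ext ?_ ?_)⟩
  · change a • (1 : k ⊗[k] cc.B0) = x0
    rw [h0, Algebra.TensorProduct.one_def, TensorProduct.smul_tmul', smul_eq_mul, mul_one]
  · change a • (1 : k ⊗[k] cc.B1) = x1
    rw [h1, Algebra.TensorProduct.one_def, TensorProduct.smul_tmul', smul_eq_mul, mul_one]

theorem finrank_H0BC_unitK : Module.finrank k ((unitK cc).H0BC k) = 1 := by
  rw [← (FlatBC60.H0BCEquiv (unitK cc) k).finrank_eq, (TensorProduct.lid k _).finrank_eq,
    finrank_H0_unitK]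

/-- **(b) The genus.** `χ(𝒪) = 1 - g` with `g = h¹(𝒪)`. -/
theorem exists_genus : ∃ g : ℕ, ChiBC36.chiUnit k cc.B0 cc.B1 cc.B01 = 1 - (g : ℤ) := by
  refine ⟨Module.finrank k ((unitK cc).H1BC k), ?_⟩
  unfold ChiBC36.chiUnit QC2.chiField
  rw [finrank_H0BC_unitK]
  rfl

end Genus

section Misc

variable {k : Type u} [Field k] {C : Scheme.{u}} {c : C ⟶ Spec (CommRingCat.of k)}
  {ε : SchemeHomOver (𝟙 (Spec (CommRingCat.of k))) c} (cc : CurveCharts c ε)

/-- **(c)** The chart rings are not fields and are of finite type (from `CurveHyp80`). -/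
theorem not_isField_B0 : ¬ IsField cc.B0 := CurveHyp80.not_isField_B0 cc

theorem not_isField_B1 : ¬ IsField cc.B1 := CurveHyp80.not_isField_B1 cc

theorem finiteType_B0 : Algebra.FiniteType k cc.B0 := CurveHyp80.finiteType_B0 cc

theorem finiteType_B1 : Algebra.FiniteType k cc.B1 := CurveHyp80.finiteType_B1 cc

/-- **(b')** The genus, in the form `χ(𝒪) + g = 1`. -/
theorem exists_genus' : ∃ g : ℕ, ChiBC36.chiUnit k cc.B0 cc.B1 cc.B01 + (g : ℤ) = 1 := by
  obtain ⟨g, hg⟩ := exists_genus cc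
  exact ⟨g, by rw [hg]; ring⟩

/-- All hypotheses on the chart rings needed by the chart construction, in one statement. -/
theorem exists_hyp [IsAlgClosed k] :
    (∃ (ιInf : Type) (_ : Finite ιInf) (e : ιInf → (cc.B1 →ₐ[k] k)) (i₀ : ιInf),
      e i₀ = cc.P0 ∧ AlgChart76.InfData cc.chart0 e ∧
      ∀ i, Module.Invertible cc.B1 (RingHom.ker (e i))) ∧
    (∃ g : ℕ, ChiBC36.chiUnit k cc.B0 cc.B1 cc.B01 = 1 - (g : ℤ)) ∧
    ¬ IsField cc.B0 ∧ ¬ IsField cc.B1 ∧ Algebra.FiniteType k cc.B0 ∧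
      Algebra.FiniteType k cc.B1 :=
  ⟨exists_infData cc, exists_genus cc, not_isField_B0 cc, not_isField_B1 cc, finiteType_B0 cc,
    finiteType_B1 cc⟩

end Misc

end Fermat.Agent.Jac.AlgChart76Hyp86
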