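/-
Fermat/Agent/Jac/AlgChart76T1x70.lean  (helper70)

JAC brick R2a, piece (T1): the TWIST step of helper76's `AlgChart76.TranslInputs c0 P0 d`.
For `m : ℤ`, `twQTr c0 m : QTr k B0 B1 B01` with `T L = twistQC c0 m L = L.twist (c0.baseChange A) m`:
* `isLine`, `iso`, `iso_inv` (`twistIso`, `untwistIso`), `bc` (`twistLiftData`), `ess`
  (`twistNegTwistIso`);
* `twQTr_rigid` : rigidifiability at `P0` is untouched (`N1` is unchanged);
* `twQTr_chi` : `χ` is shifted by `m * d`, `d = Cover12.FieldCover.degInf c0 = dim_k B1/sB1`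
  (helper14's `chi_twist_line` + the fibre at infinity of `c0.baseChange A` is free of rank `d`);
* `translInputsOfPt` : `TranslInputs c0 P0 (degInf c0)` from the point step alone.
-/
import Mathlib
import Fermat.Agent.Jac.AlgChart76.Transl
import Fermat.Agent.Jac.LineOps39.OverLine
import Fermat.Agent.Jac.P1CohChi.LineRank
import Fermat.Agent.Jac.Cover12.FieldCover

set_option autoImplicit false
set_option linter.unusedSectionVars false
set_option linter.style.haveILetI false

universe u

open TensorProduct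

namespace Fermat.Agent.Jac.AlgChart76T1x70

open Fermat.Agent.Jac.P1CohChi Fermat.Agent.Jac.JSmooth85Alg Fermat.Agent.Jac.LineOps39

/-! ### Twists and isomorphisms (one ring system) -/

section OneSystem

variable {A R0 R1 R01 : Type u} [CommRing A] [CommRing R0] [CommRing R1] [CommRing R01]
  [Algebra A R0] [Algebra A R1] [Algebra A R01] [Algebra R0 R01] [Algebra R1 R01]
  [IsScalarTower A R0 R01] [IsScalarTower A R1 R01]
  (c : TwoChart A R0 R1 R01) {L L' : QC2 A R0 R1 R01}

/-- An isomorphism of two-chart modules induces an isomorphism of their twists. -/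
def twistIso (m : ℤ) (e : QC2.Iso L L') : QC2.Iso (L.twist c m) (L'.twist c m) where
  e0 := e.e0
  e1 := e.e1
  e01 := e.e01
  comm0 := e.comm0
  comm1 x := by
    show e.e01 (((tUnit c ^ m : R01ˣ) : R01) • L.r1 x) =
      ((tUnit c ^ m : R01ˣ) : R01) • L'.r1 (e.e1 x)
    rw [map_smul, e.comm1]

/-- An isomorphism between twists comes from an isomorphism of the two-chart modules. -/
def untwistIso (m : ℤ) (e : QC2.Iso (L.twist c m) (L'.twist c m)) : QC2.Iso L L' where
  e0 := e.e0
  e1 := e.e1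
  e01 := e.e01
  comm0 := e.comm0
  comm1 x := by
    have h : e.e01 (((tUnit c ^ m : R01ˣ) : R01) • L.r1 x) =
        ((tUnit c ^ m : R01ˣ) : R01) • L'.r1 (e.e1 x) := e.comm1 x
    rw [map_smul] at h
    exact (tUnit c ^ m : R01ˣ).isUnit.smul_left_cancel.mp h

/-- Twisting by `-m` and then by `m` gives back the two-chart module. -/
def twistNegTwistIso (m : ℤ) (M : QC2 A R0 R1 R01) :
    QC2.Iso ((M.twist c (-m)).twist c m) M where
  e0 := LinearEquiv.refl _ _
  e1 := LinearEquiv.refl _ _
  e01 := LinearEquiv.refl _ _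
  comm0 _ := rfl
  comm1 x := by
    show ((tUnit c ^ m : R01ˣ) : R01) • (((tUnit c ^ (-m) : R01ˣ) : R01) • M.r1 x) = M.r1 x
    rw [smul_smul, ← Units.val_mul, ← zpow_add, add_neg_cancel, zpow_zero, Units.val_one,
      one_smul]

end OneSystem

/-! ### Twists and base change (a cube of rings) -/

section Cube

variable {A R0 R1 R01 A' R0' R1' R01' : Type u}
  [CommRing A] [CommRing R0] [CommRing R1] [CommRing R01]
  [Algebra A R0] [Algebra A R1] [Algebra A R01] [Algebra R0 R01] [Algebra R1 R01]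
  [IsScalarTower A R0 R01] [IsScalarTower A R1 R01]
  [CommRing A'] [CommRing R0'] [CommRing R1'] [CommRing R01']
  [Algebra A' R0'] [Algebra A' R1'] [Algebra A' R01'] [Algebra R0' R01'] [Algebra R1' R01']
  [IsScalarTower A' R0' R01'] [IsScalarTower A' R1' R01']
  [Algebra R0 R0'] [Algebra R1 R1'] [Algebra R01 R01']
  (c : TwoChart A R0 R1 R01) (c' : TwoChart A' R0' R1' R01')

/-- The unit `t` of the overlap ring is preserved by a map of charts. -/
lemma map_tUnit_zpow
    (ht : algebraMap R01 R01' (algebraMap R0 R01 c.t) = algebraMap R0' R01' c'.t) (m : ℤ) :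
    algebraMap R01 R01' ((tUnit c ^ m : R01ˣ) : R01) = ((tUnit c' ^ m : R01'ˣ) : R01') := by
  have h1 : Units.map (algebraMap R01 R01' : R01 →* R01') (tUnit c) = tUnit c' :=
    Units.ext ht
  rw [← h1, ← map_zpow]
  rfl

/-- Base change commutes with twisting. -/
def twistLiftData {L : QC2 A R0 R1 R01} {L' : QC2 A' R0' R1' R01'}
    (ht : algebraMap R01 R01' (algebraMap R0 R01 c.t) = algebraMap R0' R01' c'.t) (m : ℤ)
    (h : LiftData L L') : LiftData (L.twist c m) (L'.twist c' m) where
  e0 := h.e0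
  e1 := h.e1
  e01 := h.e01
  comm0 := h.comm0
  comm1 x := by
    show h.e01 ((1 : R01') ⊗ₜ[R01] (((tUnit c ^ m : R01ˣ) : R01) • L.r1 x)) =
      ((tUnit c' ^ m : R01'ˣ) : R01') • L'.r1 (h.e1 (1 ⊗ₜ x))
    have e1 : (1 : R01') ⊗ₜ[R01] (((tUnit c ^ m : R01ˣ) : R01) • L.r1 x) =
        algebraMap R01 R01' ((tUnit c ^ m : R01ˣ) : R01) • ((1 : R01') ⊗ₜ[R01] L.r1 x) := by
      rw [TensorProduct.smul_tmul', smul_eq_mul, mul_one, ← TensorProduct.smul_tmul,
        Algebra.smul_def, mul_one]
    rw [e1, map_smul, h.comm1, map_tUnit_zpow c c' ht m]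

end Cube

/-! ### The twist step of `TranslInputs` -/

section Tw

open scoped Fermat.Agent.Jac.BaseChange75
open Fermat.Agent.Jac.BaseChange75 Fermat.Agent.Jac.AlgChart76

variable {k : Type u} [Field k] {B0 B1 B01 : Type u} [CommRing B0] [CommRing B1] [CommRing B01]
  [Algebra k B0] [Algebra k B1] [Algebra k B01] [Algebra B0 B01] [Algebra B1 B01]
  [IsScalarTower k B0 B01] [IsScalarTower k B1 B01]
  (c0 : TwoChart k B0 B1 B01)

/-- The image of `t` in the overlap ring is compatible with base change `A → A'`. -/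
lemma baseChange_t_compat (A A' : Type u) [CommRing A] [CommRing A'] [Algebra k A] [Algebra k A']
    [Algebra A A'] [IsScalarTower k A A'] :
    algebraMap (A ⊗[k] B01) (A' ⊗[k] B01)
        (algebraMap (A ⊗[k] B0) (A ⊗[k] B01) (c0.baseChange A).t) =
      algebraMap (A' ⊗[k] B0) (A' ⊗[k] B01) (c0.baseChange A').t := by
  simp

/-- The twist by `m` times the divisor at infinity, as a `QTr`. -/
def twQTr (m : ℤ) : QTr k B0 B1 B01 where
  T L := twistQC c0 m L
  isLine hL := ⟨hL.inv0, hL.inv1⟩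
  iso _ _ := fun ⟨e⟩ => ⟨twistIso _ m e⟩
  iso_inv _ _ := fun ⟨e⟩ => ⟨untwistIso _ m e⟩
  bc {A A' _ _ _ _ _ _ _ _} _ := fun ⟨h⟩ =>
    ⟨twistLiftData (c0.baseChange A) (c0.baseChange A') (baseChange_t_compat c0 A A') m h⟩
  ess {A _ _} M hM := ⟨twistQC c0 (-m) M, ⟨hM.inv0, hM.inv1⟩,
    ⟨twistNegTwistIso (c0.baseChange A) m M⟩⟩

@[simp] theorem twQTr_T (m : ℤ) {A : Type u} [CommRing A] [Algebra k A]
    (L : QCA k B0 B1 B01 A) : (twQTr c0 m).T L = twistQC c0 m L := rfl

theorem twQTr_rigid (P0 : B1 →ₐ[k] k) (m : ℤ) : (twQTr c0 m).Rigid P0 :=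
  fun _ _ _ _ _ => Iff.rfl

/-! #### The degree at infinity over an arbitrary base -/

/-- Multiplication by `s` on `B1`, as a `k`-linear map. -/
noncomputable def mulS : B1 →ₗ[k] B1 := (LinearMap.lsmul B1 B1 (c0.s ^ 1)).restrictScalars k

theorem baseChange_mulS (A : Type u) [CommRing A] [Algebra k A] :
    (mulS c0).baseChange A =
      (LinearMap.lsmul (A ⊗[k] B1) (A ⊗[k] B1) ((c0.baseChange A).s ^ 1)).restrictScalars A := by
  apply TensorProduct.AlgebraTensorModule.curry_injective
  apply LinearMap.ext_ring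
  ext b
  simp [mulS, BaseChange75.baseChange_s, Algebra.TensorProduct.tmul_mul_tmul]

/-- The fibre at infinity of `c0.baseChange A` is the base change of that of `c0`. -/
noncomputable def uInfEquiv (A : Type u) [CommRing A] [Algebra k A] :
    A ⊗[k] P1CohChi.LineRank.UInf c0 ≃ₗ[A] P1CohChi.LineRank.UInf (c0.baseChange A) :=
  (P1CohH1.cokerBaseChangeEquiv (mulS c0) A).trans
    (Submodule.quotEquivOfEq _ _ (by rw [baseChange_mulS]; rfl))

/-- The rank of the fibre at infinity of `c0.baseChange A` is constant, equal to the degree at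
infinity of `c0`. -/
theorem rankAtStalk_UInf_baseChange (hc0 : c0.FiniteProjOverLine) (A : Type u) [CommRing A]
    [Algebra k A] (p : PrimeSpectrum A) :
    Module.rankAtStalk (P1CohChi.LineRank.UInf (c0.baseChange A)) p =
      Cover12.FieldCover.degInf c0 := by
  have := P1CohChi.LineRank.finite_UInf c0 hc0
  rw [← Module.rankAtStalk_eq_of_equiv (uInfEquiv c0 A), Module.rankAtStalk_baseChange,
    Module.rankAtStalk_eq_finrank_of_free]
  rfl

/-- The twist by `m·D∞` shifts the fibrewise Euler characteristic by `m * d`,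
`d = dim_k B1/sB1`. -/
theorem twQTr_chi (hc0 : c0.FiniteProjOverLine) (m : ℤ) :
    (twQTr c0 m).ChiShift (m * (Cover12.FieldCover.degInf c0 : ℤ)) := by
  intro A _ _ L hL p
  have hcA := hc0.baseChange A
  have hF := LineOps39.finiteOverLine_of_isLine _ hcA hL
  have hP := LineOps39.projOverLine_of_isLine _ hcA hL
  show (L.twist (c0.baseChange A) m).chi p = _
  rw [P1CohChi.LineRank.chi_twist_line (c0.baseChange A) L hcA hF hP hL.inv1 m p,
    rankAtStalk_UInf_baseChange c0 hc0]

/-- `TranslInputs` from the point step alone: the twist step is supplied by `twQTr`. -/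
def translInputsOfPt (hc0 : c0.FiniteProjOverLine) (P0 : B1 →ₐ[k] k)
    (pt : (B0 →ₐ[k] k) → QTr k B0 B1 B01)
    (pt_T : ∀ (q : B0 →ₐ[k] k) {A : Type u} [CommRing A] [Algebra k A] (L : QCA k B0 B1 B01 A),
      (pt q).T L = pointQC c0 q L)
    (pt_rigid : ∀ q, (pt q).Rigid P0) (pt_chi : ∀ q, (pt q).ChiShift (-1)) :
    TranslInputs c0 P0 (Cover12.FieldCover.degInf c0) where
  tw := twQTr c0
  tw_T _ _ _ _ _ := rfl
  tw_rigid := twQTr_rigid c0 P0
  tw_chi := twQTr_chi c0 hc0
  pt := pt
  pt_T := pt_T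
  pt_rigid := pt_rigid
  pt_chi := pt_chi

end Tw

end Fermat.Agent.Jac.AlgChart76T1x70
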