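/-
Fermat/Agent/Jac/BridgeK84S25.lean  (helper84)

JAC programme: **Q3a + Q3c closed.**  The one-point family `F1` (helper81's
`AbelJacobi81.exists_onePointFamily_eval` fed with helper73's tautological point lines
`tautLine0/1`) together with the hypothesis `H` of `FinalWiring41.s25_of_four`
(`BridgeK84Final.h41_of_eval`), and the resulting reduction of S25 to the two remaining inputs
B1b (`D : AffineDictionary cc`) and R2a (`pkgA`, `hft`).
-/
import Mathlib
import Fermat.Agent.Jac.BridgeK84Final
import Fermat.Agent.Jac.AbelJacobi81.Final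
import Fermat.Agent.Jac.AbelJacobi73.CurveLines

set_option autoImplicit false
set_option linter.style.haveILetI false
set_option linter.unusedSectionVars false

noncomputable section

universe u

open CategoryTheory CategoryTheory.Limits AlgebraicGeometry AlgebraicGeometry.RelPicard
  NeronModelInfra GoodReductionJacobian TensorProduct

namespace Fermat.Agent.Jac.BridgeK84S25

open scoped Fermat.Agent.Jac.BaseChange75
open PointsBridge79 PointsBridge79Shell BridgeCharts33 JSmooth85Alg LineOps39
  JGroup85Law ChiDict36 AbelJacobi73 BridgeK84Final FinalWiring41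

variable {k : Type u} [Field k] [IsAlgClosed k] {C : Scheme.{u}} [IsIntegral C]
  {c : C ⟶ Spec (CommRingCat.of k)} {ε : SchemeHomOver (𝟙 (Spec (CommRingCat.of k))) c}
  (cc : CurveCharts c ε) (D : AffineDictionary cc)

/-- **Q3a + Q3c.**  The one-point family `F1 : x ↦ [O(P0 - x)]` exists, and every class over
`Spec k` in THE cut is a product of `g = h¹(O)` one-point classes: the inputs `F1`, `g`, `H` of
`FinalWiring41.s25_of_four`. -/
theorem exists_F1_H41 :
    ∃ F1 : ClassFamily (cut41 D) c,
      ∀ ξ : PClass (cut41 D) (𝟙 (Spec (CommRingCat.of k))),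
        IsProductOfPoints (groupLaw41 D) F1 (genus41 cc) ξ := by
  obtain ⟨F1, hE0, hE1⟩ := AbelJacobi81.exists_onePointFamily_eval D
    (ChartFPL36.chart0_finiteProjOverLine cc)
    (ClassesGlue86.Main.classesIsSheaf (fun A _ _ => D.gamma_top A)) (Q41 cc D)
    (tautLine0 cc) (isLine_curveLine0 cc _ _) (fun p => chi_curveLine0 cc _ _ p)
    (tautLine1 cc) (isLine_curveLine1 cc _ _) (fun p => chi_curveLine1 cc _ _ p)
    (curveLine0 cc cc.B01 (IsScalarTower.toAlgHom k cc.B0 cc.B01))
    (curveLine1 cc cc.B01 (IsScalarTower.toAlgHom k cc.B1 cc.B01))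
    (liftData_tautLine0 cc cc.B01) (liftData_tautLine1 cc cc.B01)
    ⟨by rw [curveLine0_eq_curveLine1_overlap]; exact isoRefl _⟩
  exact ⟨F1, h41_of_eval cc D F1 hE0 hE1⟩

include D in
/-- **S25 from the two remaining bricks** B1b (`D`) and R2a (`pkgA`, `hft`). -/
theorem s25_of_two [IsProper c] [SmoothOfRelativeDimension 1 c]
    (pkgA : AlgChart76.AlgChartPackage (FamDict14.fam cc))
    (hft : ∀ i, Algebra.FiniteType k (pkgA.chart i).H) :
    ∃ D' : RelativePic0Designation k c,
      Nonempty (RepresentsRelSubPic c ε (algEquivZeroCut c ε) D') ∧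
        Smooth D'.toBase ∧ IsProper D'.toBase ∧ GeometricallyConnected D'.toBase := by
  obtain ⟨F1, H⟩ := exists_F1_H41 cc D
  exact s25_of_four cc D pkgA hft F1 (genus41 cc) H

end Fermat.Agent.Jac.BridgeK84S25

end
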