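/-
Fermat/Agent/Jac/BridgeSheaf33RigFinal.lean  (helper33) -- S25 programme, brick B1b, field
`rigidified_iff`, UNCONDITIONAL: the M4 input `RigM4` of `BridgeSheaf33Rig` is discharged by
helper70's `PullbackSec70.exists_equiv_pbSec` at `f = rigA`, `U = X1`, `V = ⊤`.
-/
import Mathlib
import Fermat.Agent.Jac.BridgeSheaf33Rig
import Fermat.Agent.Jac.PullbackSec70.Main

set_option autoImplicit false
set_option linter.style.haveILetI false

open CategoryTheory CategoryTheory.Limits AlgebraicGeometry TopologicalSpace Opposite
open NeronModelInfra AlgebraicGeometry.RelPicard TensorProduct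
open Fermat.Agent.Jac.TwoCoverGammaSetting Fermat.Agent.Jac.BridgeCharts33

universe u

noncomputable section

namespace Fermat.Agent.Jac.BridgeSheaf33

variable {k : Type u} [Field k] {C : Scheme.{u}} {c : C ⟶ Spec (CommRingCat.of k)}
variable {ε : SchemeHomOver (𝟙 (Spec (CommRingCat.of k))) c} (cc : CurveCharts c ε)
variable {A : Type u} [CommRing A] [Algebra k A]

/-- The M4 input holds for every invertible sheaf (helper70's `exists_equiv_pbSec`). -/
theorem rigM4 (M : (XA c A).Modules) (hM : Scheme.Modules.IsInvertible M) : RigM4 cc A M := by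
  haveI := AffineDict34.isQuasicoherent_of_isInvertible M hM
  obtain ⟨e, -⟩ := PullbackSec70.exists_equiv_pbSec (rigA c ε A) M (isAffineOpen_X1 cc A)
    (isAffineOpen_top (Spec (CommRingCat.of A))) (rigA_preimage_chart c ε A cc.base_mem).ge
  exact ⟨e⟩

/-- **Rigidification in terms of sections** (unconditional). -/
theorem rigidified_iff_sections' (M : (XA c A).Modules) (hM : Scheme.Modules.IsInvertible M) :
    Nonempty ((Scheme.Modules.pullback (rigA c ε A)).obj M ≅
        SheafOfModules.unit (Spec (CommRingCat.of A)).ringCatSheaf) ↔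
      RigidSec cc A ((coverA cc A).N1 M) :=
  rigidified_iff_sections cc M hM (rigM4 cc M hM)

/-- **The `rigidified_iff` field** (unconditional): for an invertible sheaf `M` on `C_A` and an
`A ⊗[k] cc.B1`-module `N'` identified with `Γ(M, X1)` semilinearly along `theta1B`. -/
theorem rigidified_iff_rigidMod' (M : (XA c A).Modules) (hM : Scheme.Modules.IsInvertible M)
    (N' : Type u) [AddCommGroup N'] [Module (A ⊗[k] cc.B1) N']
    (j : N' ≃+ (coverA cc A).N1 M)
    (hj : ∀ (t : A ⊗[k] cc.B1) (n : N'), j (t • n) = theta1B cc A t • j n) :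
    Nonempty ((Scheme.Modules.pullback (rigSection c (specStr A) ε)).obj M ≅
        SheafOfModules.unit (Spec (CommRingCat.of A)).ringCatSheaf) ↔ cc.RigidMod A N' :=
  rigidified_iff_rigidMod cc M hM (rigM4 cc M hM) N' j hj

end Fermat.Agent.Jac.BridgeSheaf33
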