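/-
Fermat/Agent/Jac/TwoCoverGammaFull.lean  (helper40)

Brick M3a of the S25 programme, part 2b: the functor `Gamma2` from quasi-coherent modules on a
scheme with a `TwoCover` to two-chart modules is FULLY FAITHFUL.

* `isQC_of_isQuasicoherent`: quasi-coherent modules are `IsQC` relative to the cover;
* `hom_ext_of_map`: a morphism of quasi-coherent modules is determined by its maps on
  sections over the two charts;
* `exists_hom_of_gamma2Hom`: every `QC2.Hom (Gamma2 M) (Gamma2 M')` comes from a morphism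
  `M ⟶ M'`;
* `exists_iso_of_gamma2Iso`: every `QC2.Iso (Gamma2 M) (Gamma2 M')` comes from an
  isomorphism `M ≅ M'`.
-/
import Mathlib
import Fermat.Agent.Jac.TwoCoverGammaSetting
import Fermat.Agent.Jac.AffineSections40
import Fermat.Agent.Jac.ModGlue88.HomGlue

set_option autoImplicit false

open CategoryTheory AlgebraicGeometry TopologicalSpace Opposite

universe u

noncomputable section

namespace Fermat.Agent.Jac.TwoCoverGammaFull

open Fermat.Agent.Jac.TwoCoverGammaSetting Fermat.Agent.Jac.ModGlue88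
open Fermat.Agent.Jac.AffineSections40

section Main

variable {A : Type u} [CommRing A] {X : Scheme.{u}} (𝒰 : TwoCover A X)

/-- Quasi-coherent modules are quasi-coherent relative to the cover. -/
theorem isQC_of_isQuasicoherent (M : X.Modules)
    [SheafOfModules.IsQuasicoherent (R := X.ringCatSheaf) M] : 𝒰.IsQC M where
  loc0 := isLocalizedModule_resL 𝒰.affine0 M 𝒰.t 𝒰.inter0 inf_le_left
  loc1 := isLocalizedModule_resL 𝒰.affine1 M 𝒰.s 𝒰.inter1 inf_le_right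

section Faithful

variable {M M' : X.Modules}
  [SheafOfModules.IsQuasicoherent (R := X.ringCatSheaf) M]
  [SheafOfModules.IsQuasicoherent (R := X.ringCatSheaf) M']

/-- The two charts as a `Bool`-indexed cover. -/
def chartOpen (b : Bool) : X.Opens := cond b 𝒰.U0 𝒰.U1

theorem iSup_chartOpen : iSup (chartOpen 𝒰) = ⊤ := by
  rw [iSup_bool_eq]
  exact 𝒰.cover

/-- **Faithfulness.** A morphism of quasi-coherent modules is determined by its maps on sections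
over the two charts. -/
theorem hom_ext_of_map (φ ψ : M ⟶ M') (h0 : 𝒰.map0 φ = 𝒰.map0 ψ) (h1 : 𝒰.map1 φ = 𝒰.map1 ψ) :
    φ = ψ := by
  refine LocalHom.hom_ext_of_cover (chartOpen 𝒰) (iSup_chartOpen 𝒰) φ ψ ?_
  rintro (_ | _)
  · exact localHom_ext_of_app 𝒰.affine1 _ _ (fun x => congrArg (fun f => f x) h1)
  · exact localHom_ext_of_app 𝒰.affine0 _ _ (fun x => congrArg (fun f => f x) h0)

end Faithful

section Full

variable {M M' : X.Modules}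

/-- The `R01`-linear map on sections over the overlap induced by a local morphism over an open
containing the overlap. -/
def localHomOverlap {V : X.Opens} (hV : 𝒰.U0 ⊓ 𝒰.U1 ≤ V) (L : LocalHom M M' V) :
    𝒰.N01 M →ₗ[𝒰.R01] 𝒰.N01 M' where
  toFun x := L.app (𝒰.U0 ⊓ 𝒰.U1) hV x
  map_add' x y := map_add _ x y
  map_smul' r x := L.app_smul _ hV r x

theorem localHomOverlap_r0 (L : LocalHom M M' 𝒰.U0) (x : 𝒰.N0 M) :
    localHomOverlap 𝒰 inf_le_left L (𝒰.r0 M x) = 𝒰.r0 M' (L.app 𝒰.U0 le_rfl x) :=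
  (L.app_res (𝒰.U0 ⊓ 𝒰.U1) 𝒰.U0 le_rfl inf_le_left x).symm

theorem localHomOverlap_r1 (L : LocalHom M M' 𝒰.U1) (x : 𝒰.N1 M) :
    localHomOverlap 𝒰 inf_le_right L (𝒰.r1 M x) = 𝒰.r1 M' (L.app 𝒰.U1 le_rfl x) :=
  (L.app_res (𝒰.U0 ⊓ 𝒰.U1) 𝒰.U1 le_rfl inf_le_right x).symm

variable [SheafOfModules.IsQuasicoherent (R := X.ringCatSheaf) M]
  [SheafOfModules.IsQuasicoherent (R := X.ringCatSheaf) M']

/-- The overlap is affine. -/
theorem affine01 : IsAffineOpen (𝒰.U0 ⊓ 𝒰.U1) := by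
  rw [𝒰.inter0]
  exact 𝒰.affine0.basicOpen 𝒰.t

/-- **Fullness.** Every morphism of two-chart modules `Gamma2 M ⟶ Gamma2 M'` comes from a morphism
of sheaves of modules. -/
theorem exists_hom_of_gamma2Hom (hM : 𝒰.IsQC M) (hM' : 𝒰.IsQC M')
    (F : QC2.Hom (𝒰.Gamma2 M hM) (𝒰.Gamma2 M' hM')) :
    ∃ φ : M ⟶ M', 𝒰.map0 φ = F.f0 ∧ 𝒰.map1 φ = F.f1 ∧ 𝒰.map01 φ = F.f01 := by
  let f0 : Γ(M, 𝒰.U0) →ₗ[Γ(X, 𝒰.U0)] Γ(M', 𝒰.U0) := F.f0
  let f1 : Γ(M, 𝒰.U1) →ₗ[Γ(X, 𝒰.U1)] Γ(M', 𝒰.U1) := F.f1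
  let f01 : 𝒰.N01 M →ₗ[𝒰.R01] 𝒰.N01 M' := F.f01
  obtain ⟨L0, hL0⟩ := exists_localHom_of_linearMap 𝒰.affine0 f0
  obtain ⟨L1, hL1⟩ := exists_localHom_of_linearMap 𝒰.affine1 f1
  -- both local morphisms induce `f01` on the overlap
  have h0 : localHomOverlap 𝒰 inf_le_left L0 = f01 := by
    refine IsBaseChange.algHom_ext hM.bc0 _ _ (fun x => ?_)
    refine (localHomOverlap_r0 𝒰 L0 x).trans ?_
    exact (congrArg (𝒰.r0 M') (hL0 x)).trans (F.comm0 x).symm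
  have h1 : localHomOverlap 𝒰 inf_le_right L1 = f01 := by
    refine IsBaseChange.algHom_ext hM.bc1 _ _ (fun x => ?_)
    refine (localHomOverlap_r1 𝒰 L1 x).trans ?_
    exact (congrArg (𝒰.r1 M') (hL1 x)).trans (F.comm1 x).symm
  have hcompat : L0.restrict (inf_le_left : 𝒰.U0 ⊓ 𝒰.U1 ≤ 𝒰.U0) =
      L1.restrict (inf_le_right : 𝒰.U0 ⊓ 𝒰.U1 ≤ 𝒰.U1) := by
    refine localHom_ext_of_app (affine01 𝒰) _ _ (fun x => ?_)
    exact congrArg (fun g : 𝒰.N01 M →ₗ[𝒰.R01] 𝒰.N01 M' => g x) (h0.trans h1.symm)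
  let L : ∀ b : Bool, LocalHom M M' (chartOpen 𝒰 b) := fun b =>
    Bool.rec (motive := fun b => LocalHom M M' (chartOpen 𝒰 b)) L1 L0 b
  have hL : ∀ i j, (L i).restrict (inf_le_left : chartOpen 𝒰 i ⊓ chartOpen 𝒰 j ≤ chartOpen 𝒰 i) =
      (L j).restrict (inf_le_right : chartOpen 𝒰 i ⊓ chartOpen 𝒰 j ≤ chartOpen 𝒰 j) := by
    rintro (_ | _) (_ | _)
    · rfl
    · -- (false, true): restrict `hcompat` along `U1 ⊓ U0 ≤ U0 ⊓ U1`
      have := congrArg (fun L₀ : LocalHom M M' (𝒰.U0 ⊓ 𝒰.U1) =>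
        L₀.restrict (le_inf inf_le_right inf_le_left : 𝒰.U1 ⊓ 𝒰.U0 ≤ 𝒰.U0 ⊓ 𝒰.U1)) hcompat
      simp only [LocalHom.restrict_restrict] at this
      exact this.symm
    · exact hcompat
    · rfl
  obtain ⟨φ, hφ, -⟩ := LocalHom.existsUnique_hom_of_cover (chartOpen 𝒰) (iSup_chartOpen 𝒰) L hL
  have e0 : 𝒰.map0 φ = F.f0 := by
    ext x
    have := congrArg (fun L₀ : LocalHom M M' 𝒰.U0 => L₀.app 𝒰.U0 le_rfl x) (hφ true)
    exact this.trans (hL0 x)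
  have e1 : 𝒰.map1 φ = F.f1 := by
    ext x
    have := congrArg (fun L₀ : LocalHom M M' 𝒰.U1 => L₀.app 𝒰.U1 le_rfl x) (hφ false)
    exact this.trans (hL1 x)
  refine ⟨φ, e0, e1, ?_⟩
  refine IsBaseChange.algHom_ext hM.bc0 _ _ (fun x => ?_)
  refine (𝒰.map01_r0 φ x).trans ?_
  have := congrArg (fun g : 𝒰.N0 M →ₗ[𝒰.R0] 𝒰.N0 M' => g x) e0
  exact (congrArg (𝒰.r0 M') this).trans (F.comm0 x).symm

end Full

section FullIso

variable {M M' : X.Modules}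
  [SheafOfModules.IsQuasicoherent (R := X.ringCatSheaf) M]
  [SheafOfModules.IsQuasicoherent (R := X.ringCatSheaf) M']

/-- **Fullness on isomorphisms.** Every isomorphism of two-chart modules
`Gamma2 M ≅ Gamma2 M'` comes from an isomorphism of sheaves of modules. -/
theorem exists_iso_of_gamma2Iso (hM : 𝒰.IsQC M) (hM' : 𝒰.IsQC M')
    (E : QC2.Iso (𝒰.Gamma2 M hM) (𝒰.Gamma2 M' hM')) :
    ∃ e : M ≅ M', (∀ x, 𝒰.equiv0 e x = E.e0 x) ∧ (∀ x, 𝒰.equiv1 e x = E.e1 x) ∧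
      (∀ x, 𝒰.equiv01 e x = E.e01 x) := by
  let F : QC2.Hom (𝒰.Gamma2 M hM) (𝒰.Gamma2 M' hM') :=
    { f0 := E.e0.toLinearMap
      f1 := E.e1.toLinearMap
      f01 := E.e01.toLinearMap
      comm0 := E.comm0
      comm1 := E.comm1 }
  let G : QC2.Hom (𝒰.Gamma2 M' hM') (𝒰.Gamma2 M hM) :=
    { f0 := E.e0.symm.toLinearMap
      f1 := E.e1.symm.toLinearMap
      f01 := E.e01.symm.toLinearMap
      comm0 := fun x => by
        apply E.e01.injective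
        change E.e01 (E.e01.symm _) = E.e01 ((𝒰.Gamma2 M hM).r0 (E.e0.symm x))
        rw [E.comm0, LinearEquiv.apply_symm_apply, LinearEquiv.apply_symm_apply]
      comm1 := fun x => by
        apply E.e01.injective
        change E.e01 (E.e01.symm _) = E.e01 ((𝒰.Gamma2 M hM).r1 (E.e1.symm x))
        rw [E.comm1, LinearEquiv.apply_symm_apply, LinearEquiv.apply_symm_apply] }
  obtain ⟨φ, hφ0, hφ1, hφ01⟩ := exists_hom_of_gamma2Hom 𝒰 hM hM' F
  obtain ⟨ψ, hψ0, hψ1, -⟩ := exists_hom_of_gamma2Hom 𝒰 hM' hM G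
  have h1 : φ ≫ ψ = 𝟙 M := by
    apply hom_ext_of_map 𝒰
    · rw [TwoCover.map0_comp, TwoCover.map0_id, hφ0, hψ0]
      ext x
      exact E.e0.symm_apply_apply x
    · rw [TwoCover.map1_comp, TwoCover.map1_id, hφ1, hψ1]
      ext x
      exact E.e1.symm_apply_apply x
  have h2 : ψ ≫ φ = 𝟙 M' := by
    apply hom_ext_of_map 𝒰
    · rw [TwoCover.map0_comp, TwoCover.map0_id, hφ0, hψ0]
      ext x
      exact E.e0.apply_symm_apply x
    · rw [TwoCover.map1_comp, TwoCover.map1_id, hφ1, hψ1]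
      ext x
      exact E.e1.apply_symm_apply x
  refine ⟨⟨φ, ψ, h1, h2⟩, fun x => ?_, fun x => ?_, fun x => ?_⟩
  · exact congrArg (fun g : 𝒰.N0 M →ₗ[𝒰.R0] 𝒰.N0 M' => g x) hφ0
  · exact congrArg (fun g : 𝒰.N1 M →ₗ[𝒰.R1] 𝒰.N1 M' => g x) hφ1
  · exact congrArg (fun g : 𝒰.N01 M →ₗ[𝒰.R01] 𝒰.N01 M' => g x) hφ01

/-- Two quasi-coherent modules with isomorphic two-chart modules are isomorphic. -/
theorem nonempty_iso_of_gamma2Iso (hM : 𝒰.IsQC M) (hM' : 𝒰.IsQC M')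
    (E : QC2.Iso (𝒰.Gamma2 M hM) (𝒰.Gamma2 M' hM')) : Nonempty (M ≅ M') :=
  let ⟨e, _⟩ := exists_iso_of_gamma2Iso 𝒰 hM hM' E
  ⟨e⟩

/-- Isomorphism classes: `M ≅ M'` iff `Gamma2 M ≅ Gamma2 M'`. -/
theorem nonempty_iso_iff (hM : 𝒰.IsQC M) (hM' : 𝒰.IsQC M') :
    Nonempty (M ≅ M') ↔ Nonempty (QC2.Iso (𝒰.Gamma2 M hM) (𝒰.Gamma2 M' hM')) :=
  ⟨fun ⟨e⟩ => ⟨𝒰.Gamma2Iso e hM hM'⟩, fun ⟨E⟩ => nonempty_iso_of_gamma2Iso 𝒰 hM hM' E⟩

end FullIso

end Main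

end Fermat.Agent.Jac.TwoCoverGammaFull
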