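/-
Fermat/Agent/Jac/TwoCoverGammaLine40.lean  (helper40)

Brick M3a of the S25 programme, part 3: invertible sheaves give LINE two-chart modules.

* `invertible_sections`: for an invertible sheaf `M` on a scheme `X` and an affine open `U`, the
  module of sections `Γ(M, U)` is an invertible `Γ(X, U)`-module;
* `isQC_of_isInvertible`: invertible sheaves are `IsQC` relative to a `TwoCover`;
* `isLine_gamma2`: the two-chart module of sections of an invertible sheaf is a line.
-/
import Mathlib
import Fermat.Agent.Jac.TwoCoverGammaFull
import Fermat.Agent.Jac.ModGlue88.Invertible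
import Fermat.Agent.Jac.AffineDict73.Dict

set_option autoImplicit false

open CategoryTheory AlgebraicGeometry TopologicalSpace Opposite

universe u

noncomputable section

namespace Fermat.Agent.Jac.TwoCoverGammaLine40

open Fermat.Agent.Jac.TwoCoverGammaSetting Fermat.Agent.Jac.ModGlue88
open Fermat.Agent.Jac.AffineSections40 Fermat.Agent.Jac.TwoCoverGammaFull

variable {X : Scheme.{u}}

/-- The restriction of an invertible sheaf to an affine open (viewed on `Spec Γ(X, U)`) is
invertible. -/
theorem isInvertible_restrict_fromSpec {U : X.Opens} (hU : IsAffineOpen U) (M : X.Modules)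
    (hM : Scheme.Modules.IsInvertible M) :
    Scheme.Modules.IsInvertible (M.restrict hU.fromSpec) :=
  isInvertible_of_iso ((Scheme.Modules.restrictFunctorIsoPullback hU.fromSpec).app M).symm
    (hM.pullback hU.fromSpec)

/-- **INV.** Sections of an invertible sheaf over an affine open form an invertible module. -/
theorem invertible_sections {U : X.Opens} (hU : IsAffineOpen U) (M : X.Modules)
    (hM : Scheme.Modules.IsInvertible M) : Module.Invertible Γ(X, U) Γ(M, U) := by
  haveI h : Module.Invertible Γ(X, U) Γ(M.restrict hU.fromSpec, ⊤) :=
    AffineDict73.invertible_gammaMod (R := Γ(X, U)) (M.restrict hU.fromSpec)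
      (isInvertible_restrict_fromSpec hU M hM)
  exact Module.Invertible.congr (secEquivTop hU M).symm

variable {A : Type u} [CommRing A] (𝒰 : TwoCover A X)

/-- Invertible sheaves are quasi-coherent relative to the cover. -/
theorem isQC_of_isInvertible (M : X.Modules) (hM : Scheme.Modules.IsInvertible M) : 𝒰.IsQC M :=
  haveI := AffineDict73.isQuasicoherent_of_isInvertible M hM
  isQC_of_isQuasicoherent 𝒰 M

/-- The two-chart module of sections of an invertible sheaf is a line. -/
theorem isLine_gamma2 (M : X.Modules) (hM : Scheme.Modules.IsInvertible M) (h : 𝒰.IsQC M) :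
    (𝒰.Gamma2 M h).IsLine where
  inv0 := invertible_sections 𝒰.affine0 M hM
  inv1 := invertible_sections 𝒰.affine1 M hM

end Fermat.Agent.Jac.TwoCoverGammaLine40
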