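/-
Fermat/Agent/Jac/TwoCoverSheafAffine.lean  (helper15, brick M3b of the S25 programme)

Affine input for gluing on a two-element cover.  For a ring map `φ : R ⟶ S`, an `R`-module `N`,
an `S`-module `N'` and an `R`-linear map `g : N ⟶ N'` (restriction of scalars) we build

  `tildeRes φ g : tilde N ⟶ (Spec.map φ)_* (tilde N')`

characterised by `tildeRes φ g (toOpen N V x) = toOpen N' (φ⁻¹ V) (g x)`; if `S = R[1/t]` and `g`
is a localization at `t`, then `tildeRes φ g` is an isomorphism over `D(t)`.
-/
import Mathlib
import Fermat.Agent.Jac.TwoCoverSheafBasic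

set_option autoImplicit false

universe u

open CategoryTheory CategoryTheory.Limits AlgebraicGeometry TopologicalSpace Opposite

namespace Fermat.Agent.Jac.TwoCoverSheaf

/-! ### Generalities -/

lemma bijective_presheaf_map_of_eq {X : Scheme.{u}} (M : X.Modules) {A B : X.Opens} (h : A = B)
    (i : A ⟶ B) : Function.Bijective (M.presheaf.map i.op) := by
  subst h
  have : i = 𝟙 A := Subsingleton.elim _ _
  rw [this, op_id, M.presheaf.map_id]
  exact Function.bijective_id

section Affine

variable {S : CommRingCat.{u}}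

lemma moduleSpecΓFunctor_map_apply {A B : (Spec S).Modules} (ψ : A ⟶ B) (x : Γ(A, ⊤)) :
    (moduleSpecΓFunctor.map ψ).hom x = ψ.app ⊤ x := rfl

set_option backward.isDefEq.respectTransparency false in
/-- A morphism of quasi-coherent modules on an affine scheme is an isomorphism as soon as it is
bijective on global sections. -/
lemma isIso_of_bijective_app_top {A B : (Spec S).Modules} [A.IsQuasicoherent] [B.IsQuasicoherent]
    (ψ : A ⟶ B) (h : Function.Bijective (ψ.app ⊤)) : IsIso ψ := by
  have h1 : IsIso (moduleSpecΓFunctor.map ψ) := by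
    rw [ConcreteCategory.isIso_iff_bijective]
    exact h
  have h2 : IsIso ((tilde.functor S).map (moduleSpecΓFunctor.map ψ)) := inferInstance
  have nat := tilde.adjunction.counit.naturality ψ
  have hA : IsIso (tilde.adjunction.counit.app A) :=
    inferInstanceAs (IsIso A.fromTildeΓ)
  have hB : IsIso (tilde.adjunction.counit.app B) :=
    inferInstanceAs (IsIso B.fromTildeΓ)
  have : ψ = inv (tilde.adjunction.counit.app A) ≫
      (tilde.functor S).map (moduleSpecΓFunctor.map ψ) ≫ tilde.adjunction.counit.app B := by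
    rw [IsIso.eq_inv_comp]
    exact nat.symm
  rw [this]
  infer_instance

end Affine

/-! ### The comparison map `tilde N ⟶ (Spec.map φ)_* (tilde N')` -/

variable {R S : CommRingCat.{u}} (φ : R ⟶ S) {N : ModuleCat.{u} R} (N' : ModuleCat.{u} S)

/-- The `R`-linear map `N' ⟶ Γ(Spec R, (Spec.map φ)_* (tilde N'))`. -/
noncomputable def gammaPush :
    (ModuleCat.restrictScalars φ.hom).obj N' ⟶
      moduleSpecΓFunctor.obj ((Scheme.Modules.pushforward (Spec.map φ)).obj (tilde N')) :=
  (ModuleCat.restrictScalars φ.hom).map (tilde.toOpen N' ⊤) ≫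
    (((pushforwardCompModulesSpecToSheafIso φ).app (tilde N')).inv.hom.app (op ⊤))

lemma gammaPush_apply (x : N') : (gammaPush φ N').hom x = (tilde.toOpen N' ⊤).hom x := rfl

variable {N'}

/-- The morphism `tilde N ⟶ (Spec.map φ)_* (tilde N')` induced by an `R`-linear map
`g : N ⟶ N'`. -/
noncomputable def tildeRes (g : N ⟶ (ModuleCat.restrictScalars φ.hom).obj N') :
    tilde N ⟶ (Scheme.Modules.pushforward (Spec.map φ)).obj (tilde N') :=
  (tilde.adjunction.homEquiv N _).symm (g ≫ gammaPush φ N')

set_option backward.isDefEq.respectTransparency false in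
lemma toOpen_tildeRes_app (g : N ⟶ (ModuleCat.restrictScalars φ.hom).obj N')
    (V : (Spec R).Opens) :
    tilde.toOpen N V ≫ (modulesSpecToSheaf.map (tildeRes φ g)).1.app (op V) =
      g ≫ gammaPush φ N' ≫
        (modulesSpecToSheaf.obj ((Scheme.Modules.pushforward (Spec.map φ)).obj (tilde N'))).1.map
          (homOfLE le_top).op := by
  unfold tildeRes
  rw [Adjunction.homEquiv_counit]
  change tilde.toOpen N V ≫ (modulesSpecToSheaf.map (tilde.map (g ≫ gammaPush φ N') ≫
    Scheme.Modules.fromTildeΓ _)).1.app (op V) = _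
  rw [Functor.map_comp]
  change tilde.toOpen N V ≫
    (modulesSpecToSheaf.map (tilde.map (g ≫ gammaPush φ N'))).1.app (op V) ≫
    (modulesSpecToSheaf.map (Scheme.Modules.fromTildeΓ _)).1.app (op V) = _
  rw [tilde.toOpen_map_app_assoc, Category.assoc]
  congr 2
  exact Scheme.Modules.toOpen_fromTildeΓ_app _ V

set_option backward.isDefEq.respectTransparency false in
/-- The characterisation of `tildeRes` on sections. -/
lemma tildeRes_app_toOpen (g : N ⟶ (ModuleCat.restrictScalars φ.hom).obj N')
    (V : (Spec R).Opens) (x : N) :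
    (tildeRes φ g).app V ((tilde.toOpen N V).hom x) =
      (tilde.toOpen N' (Spec.map φ ⁻¹ᵁ V)).hom (g.hom x) := by
  have h := congrArg (fun ψ => ψ.hom x) (toOpen_tildeRes_app φ g V)
  exact h

set_option backward.isDefEq.respectTransparency false in
lemma bijective_tildeRes_app (g : N ⟶ (ModuleCat.restrictScalars φ.hom).obj N') (t : R)
    (hg : IsLocalizedModule (Submonoid.powers t) g.hom)
    (V : (Spec R).Opens) (hV : V = PrimeSpectrum.basicOpen t) (hV' : Spec.map φ ⁻¹ᵁ V = ⊤) :
    Function.Bijective ((tildeRes φ g).app V) := by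
  subst hV
  set V : (Spec R).Opens := PrimeSpectrum.basicOpen t with hVdef
  let g1 := (tilde.toOpen N V).hom
  let h := ((modulesSpecToSheaf.map (tildeRes φ g)).1.app (op V)).hom
  let e := (gammaPush φ N' ≫
    (modulesSpecToSheaf.obj ((Scheme.Modules.pushforward (Spec.map φ)).obj (tilde N'))).1.map
      (homOfLE (le_top : V ≤ ⊤)).op).hom
  have key : h ∘ₗ g1 = e ∘ₗ g.hom :=
    congrArg ModuleCat.Hom.hom (toOpen_tildeRes_app φ g V)
  have he : Function.Bijective e := by
    have h1 : Function.Bijective (tilde.toOpen N' ⊤).hom :=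
      ConcreteCategory.bijective_of_isIso (tilde.toOpen N' ⊤)
    have h2 := bijective_presheaf_map_of_eq (tilde N') hV'
      (homOfLE (le_top : Spec.map φ ⁻¹ᵁ V ≤ ⊤))
    exact h2.comp h1
  have hloc1 : IsLocalizedModule (Submonoid.powers t) g1 :=
    inferInstanceAs (IsLocalizedModule.Away t (tilde.toOpen N (PrimeSpectrum.basicOpen t)).hom)
  have hloc2 : IsLocalizedModule (Submonoid.powers t) (h ∘ₗ g1) := by
    rw [key]
    exact (IsLocalizedModule.comp_iff_of_bijective_left _ e he).mpr hg
  have := IsLocalizedModule.linearEquiv_of_isLocalizedModule_comp (Submonoid.powers t) g1 h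
  have hb : Function.Bijective h := by
    rw [← this]
    exact LinearEquiv.bijective _
  exact hb

lemma isOpenImmersion_SpecMap_of_away (t : R)
    (hφ : letI := φ.hom.toAlgebra; IsLocalization.Away t S) : IsOpenImmersion (Spec.map φ) := by
  let _ := φ.hom.toAlgebra
  exact IsOpenImmersion.of_isLocalization (R := R) (S := S) t

set_option backward.isDefEq.respectTransparency.types false in
lemma opensRange_SpecMap_of_away (t : R)
    (hφ : letI := φ.hom.toAlgebra; IsLocalization.Away t S) [IsOpenImmersion (Spec.map φ)] :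
    (Spec.map φ).opensRange = PrimeSpectrum.basicOpen t := by
  let _ := φ.hom.toAlgebra
  rw [SetLike.ext'_iff]
  exact PrimeSpectrum.localization_away_comap_range S t

/-- If `S = R[1/t]` and `g : N ⟶ N'` is a localization at `t`, then `tildeRes φ g` is an
isomorphism over `D(t)`. -/
theorem isIsoOn_tildeRes (g : N ⟶ (ModuleCat.restrictScalars φ.hom).obj N') (t : R)
    (hφ : letI := φ.hom.toAlgebra; IsLocalization.Away t S)
    (hg : IsLocalizedModule (Submonoid.powers t) g.hom) :
    IsIsoOn (tildeRes φ g) (PrimeSpectrum.basicOpen t) := by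
  have hoi : IsOpenImmersion (Spec.map φ) := isOpenImmersion_SpecMap_of_away φ t hφ
  have hrange := opensRange_SpecMap_of_away φ t hφ
  rw [← hrange]
  apply isIsoOn_of_isIso_restrictFunctor_map (Spec.map φ)
  have hB : (((Scheme.Modules.pushforward (Spec.map φ)).obj (tilde N')).restrict
      (Spec.map φ)).IsQuasicoherent :=
    (SheafOfModules.isQuasicoherent (Spec S).ringCatSheaf).prop_of_iso
      ((Scheme.Modules.restrictFunctorAdjCounitIso (Spec.map φ)).app (tilde N')).symm
      (inferInstanceAs (tilde N').IsQuasicoherent)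
  apply isIso_of_bijective_app_top
  rw [restrictFunctor_map_app]
  apply bijective_tildeRes_app φ g t hg
  · rw [Scheme.Hom.image_top_eq_opensRange, hrange]
  · rw [Scheme.Hom.preimage_image_eq]

end Fermat.Agent.Jac.TwoCoverSheaf
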