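/-
Fermat/Agent/Jac/TwoCoverSheafPush.lean  (helper15, brick M3b of the S25 programme)

Pushforwards of `tilde N` from affine opens of a scheme `X`.  For affine opens `V ≤ U` of `X`,
a `Γ(X, U)`-module `N`, a `Γ(X, V)`-module `N'` and a semilinear map `g : N ⟶ N'` we build

  `pushRes : jU_* (tilde N) ⟶ jV_* (tilde N')`     (`jU = hU.fromSpec : Spec Γ(X, U) ⟶ X`)

and show that it is an isomorphism on sections over every `W` with `W ⊓ U ≤ V` when
`V = D(t)` and `g` is a localization at `t`.  We also identify `Γ(U, jU_* (tilde N))` with `N`.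
-/
import Mathlib
import Fermat.Agent.Jac.TwoCoverSheafAffine

set_option autoImplicit false

universe u

open CategoryTheory CategoryTheory.Limits AlgebraicGeometry TopologicalSpace Opposite

namespace Fermat.Agent.Jac.TwoCoverSheaf

/-! ### Generalities -/

lemma pushforward_smul {X Y : Scheme.{u}} (f : Y ⟶ X) (K : Y.Modules) (W : X.Opens)
    (r : Γ(X, W)) (y : Γ((Scheme.Modules.pushforward f).obj K, W)) :
    r • y = (show Γ(K, f ⁻¹ᵁ W) from (f.app W).hom r • (show Γ(K, f ⁻¹ᵁ W) from y)) := rfl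

lemma toOpen_res_apply {R : CommRingCat.{u}} (N : ModuleCat.{u} R) {V1 V2 : (Spec R).Opens}
    (i : V2 ⟶ V1) (y : N) :
    (tilde N).presheaf.map i.op ((tilde.toOpen N V1).hom y) = (tilde.toOpen N V2).hom y := rfl

/-- Morphisms of sheaves of modules commute with restriction of sections. -/
lemma app_res {X : Scheme.{u}} {F G : X.Modules} (φ : F ⟶ G) {W W' : X.Opens} (i : W' ⟶ W)
    (x : Γ(F, W)) :
    φ.app W' (F.presheaf.map i.op x) = G.presheaf.map i.op (φ.app W x) := by
  have := congrArg (fun ψ => ψ x) (congrArg (fun ψ => (ConcreteCategory.hom ψ : _ → _))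
    (φ.mapPresheaf.naturality i.op))
  exact this

/-! ### Sections of `jU_* (tilde N)` over `U` -/

section Sec

variable {X : Scheme.{u}} {U : X.Opens} (hU : IsAffineOpen U) (N : ModuleCat.{u} Γ(X, U))

lemma toOpen_smul_eq (r : Γ(X, U)) (x : N) :
    (tilde.toOpen N (hU.fromSpec ⁻¹ᵁ U)).hom (r • x) =
      (show Γ(tilde N, hU.fromSpec ⁻¹ᵁ U) from
        (hU.fromSpec.app U).hom r •
          (show Γ(tilde N, hU.fromSpec ⁻¹ᵁ U) from
            (tilde.toOpen N (hU.fromSpec ⁻¹ᵁ U)).hom x)) := by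
  have h1 := (tilde.toOpen N (hU.fromSpec ⁻¹ᵁ U)).hom.map_smul r x
  refine h1.trans ?_
  rw [hU.fromSpec_app_self]
  rfl

/-- The canonical `Γ(X, U)`-linear map `N → Γ(U, jU_* (tilde N))`. -/
noncomputable def pushSec :
    N →ₗ[Γ(X, U)] Γ((Scheme.Modules.pushforward hU.fromSpec).obj (tilde N), U) where
  toFun x := (tilde.toOpen N (hU.fromSpec ⁻¹ᵁ U)).hom x
  map_add' x y := map_add _ x y
  map_smul' r x := toOpen_smul_eq hU N r x

lemma pushSec_apply (x : N) :
    pushSec hU N x = (tilde.toOpen N (hU.fromSpec ⁻¹ᵁ U)).hom x := rfl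

lemma pushSec_bijective : Function.Bijective (pushSec hU N) := by
  have h1 : Function.Bijective (tilde.toOpen N ⊤).hom :=
    ConcreteCategory.bijective_of_isIso (tilde.toOpen N ⊤)
  have h2 := bijective_presheaf_map_of_eq (tilde N) hU.fromSpec_preimage_self
    (homOfLE (le_top : hU.fromSpec ⁻¹ᵁ U ≤ ⊤))
  exact h2.comp h1

/-- `N ≃ Γ(U, jU_* (tilde N))`. -/
noncomputable def pushSecEquiv :
    N ≃ₗ[Γ(X, U)] Γ((Scheme.Modules.pushforward hU.fromSpec).obj (tilde N), U) :=
  LinearEquiv.ofBijective (pushSec hU N) (pushSec_bijective hU N)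

lemma pushSecEquiv_apply (x : N) :
    pushSecEquiv hU N x = (tilde.toOpen N (hU.fromSpec ⁻¹ᵁ U)).hom x := rfl

end Sec

/-! ### The comparison map between pushforwards from two affine opens -/

section PushRes

variable {X : Scheme.{u}} {U V : X.Opens} (hU : IsAffineOpen U) (hV : IsAffineOpen V) (hVU : V ≤ U)
  {N : ModuleCat.{u} Γ(X, U)} {N' : ModuleCat.{u} Γ(X, V)}
  (g : N ⟶ (ModuleCat.restrictScalars (X.presheaf.map (homOfLE hVU).op).hom).obj N')

/-- The morphism `jU_* (tilde N) ⟶ jV_* (tilde N')` induced by a semilinear map `g : N ⟶ N'`. -/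
noncomputable def pushRes :
    (Scheme.Modules.pushforward hU.fromSpec).obj (tilde N) ⟶
      (Scheme.Modules.pushforward hV.fromSpec).obj (tilde N') :=
  (Scheme.Modules.pushforward hU.fromSpec).map (tildeRes (X.presheaf.map (homOfLE hVU).op) g) ≫
    (Scheme.Modules.pushforwardComp
      (Spec.map (X.presheaf.map (homOfLE hVU).op)) hU.fromSpec).hom.app (tilde N') ≫
    (Scheme.Modules.pushforwardCongr (hU.map_fromSpec hV (homOfLE hVU).op)).hom.app (tilde N')

lemma pushRes_app (W : X.Opens) :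
    (pushRes hU hV hVU g).app W =
      (tildeRes (X.presheaf.map (homOfLE hVU).op) g).app (hU.fromSpec ⁻¹ᵁ W) ≫
        (tilde N').presheaf.map
          (eqToHom (by rw [← hU.map_fromSpec hV (homOfLE hVU).op]; rfl)).op := by
  rfl

/-- The characterisation of `pushRes` on sections. -/
lemma pushRes_app_toOpen (W : X.Opens) (x : N) :
    (pushRes hU hV hVU g).app W ((tilde.toOpen N (hU.fromSpec ⁻¹ᵁ W)).hom x) =
      (tilde.toOpen N' (hV.fromSpec ⁻¹ᵁ W)).hom (g.hom x) := by
  rw [pushRes_app]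
  change (tilde N').presheaf.map _ ((tildeRes (X.presheaf.map (homOfLE hVU).op) g).app
    (hU.fromSpec ⁻¹ᵁ W) ((tilde.toOpen N (hU.fromSpec ⁻¹ᵁ W)).hom x)) = _
  rw [tildeRes_app_toOpen]
  rfl

/-- If `V = D(t)` and `g` is a localization at `t`, then `pushRes` is an isomorphism on sections
over every open `W` with `W ⊓ U ≤ V`. -/
lemma isIso_pushRes_app (t : Γ(X, U)) (hVt : V = X.basicOpen t)
    (hg : IsLocalizedModule (Submonoid.powers t) g.hom) (W : X.Opens) (hW : W ⊓ U ≤ V) :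
    IsIso ((pushRes hU hV hVU g).app W) := by
  rw [pushRes_app]
  have hle : hU.fromSpec ⁻¹ᵁ W ≤ PrimeSpectrum.basicOpen t := by
    rw [← hU.fromSpec_preimage_basicOpen, ← hVt]
    intro p hp
    have hpU : hU.fromSpec p ∈ hU.fromSpec.opensRange := ⟨p, rfl⟩
    rw [hU.opensRange_fromSpec] at hpU
    exact hW ⟨hp, hpU⟩
  have h1 : IsIso ((tildeRes (X.presheaf.map (homOfLE hVU).op) g).app (hU.fromSpec ⁻¹ᵁ W)) :=
    isIsoOn_tildeRes _ g t (hU.isLocalization_of_eq_basicOpen t (homOfLE hVU) hVt) hg _ hle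
  have h2 : IsIso ((tilde N').presheaf.map (eqToHom (by
      rw [← hU.map_fromSpec hV (homOfLE hVU).op]; rfl :
      hV.fromSpec ⁻¹ᵁ W = Spec.map (X.presheaf.map (homOfLE hVU).op) ⁻¹ᵁ hU.fromSpec ⁻¹ᵁ W)).op) :=
    inferInstance
  exact @IsIso.comp_isIso _ _ _ _ _ _ _ h1 h2

end PushRes

end Fermat.Agent.Jac.TwoCoverSheaf
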