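/-
Fermat/Agent/Jac/TwoCoverSheafGlue.lean  (helper15, brick M3b of the S25 programme)

Gluing on a two-element affine cover.  `X` a scheme, `U0`, `U1` affine opens with affine
intersection, `N0`, `N1`, `N01` modules over `Γ(X, U0)`, `Γ(X, U1)`, `Γ(X, U0 ⊓ U1)` and semilinear
maps `r0 : N0 ⟶ N01`, `r1 : N1 ⟶ N01`.  We define

  `glue := j0_* (tilde N0) ×_{j01_* (tilde N01)} j1_* (tilde N1) : X.Modules`

and, when `U0 ⊓ U1 = D(t0) = D(t1)` and `r0`, `r1` are localizations at `t0`, `t1`, linear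
equivalences `Γ(U0, glue) ≃ N0`, `Γ(U1, glue) ≃ N1`, `Γ(U0 ⊓ U1, glue) ≃ N01` compatible with the
restriction maps (`glueEquiv01_res0`, `glueEquiv01_res1`).
-/
import Mathlib
import Fermat.Agent.Jac.TwoCoverSheafPush

set_option autoImplicit false

universe u

open CategoryTheory CategoryTheory.Limits AlgebraicGeometry TopologicalSpace Opposite

namespace Fermat.Agent.Jac.TwoCoverSheaf

/-- The map on sections over `W` of a morphism of sheaves of modules, as a `Γ(X, W)`-linear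
map. -/
noncomputable def appLinear {X : Scheme.{u}} {F G : X.Modules} (φ : F ⟶ G) (W : X.Opens) :
    Γ(F, W) →ₗ[Γ(X, W)] Γ(G, W) where
  toFun x := φ.app W x
  map_add' x y := map_add _ x y
  map_smul' r x := φ.app_smul r x

lemma appLinear_apply {X : Scheme.{u}} {F G : X.Modules} (φ : F ⟶ G) (W : X.Opens) (x : Γ(F, W)) :
    appLinear φ W x = φ.app W x := rfl

section Glue

variable {X : Scheme.{u}} {U0 U1 : X.Opens} (h0 : IsAffineOpen U0) (h1 : IsAffineOpen U1)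
  (h01 : IsAffineOpen (U0 ⊓ U1))
  {N0 : ModuleCat.{u} Γ(X, U0)} {N1 : ModuleCat.{u} Γ(X, U1)}
  {N01 : ModuleCat.{u} Γ(X, U0 ⊓ U1)}
  (r0 : N0 ⟶ (ModuleCat.restrictScalars
    (X.presheaf.map (homOfLE (inf_le_left : U0 ⊓ U1 ≤ U0)).op).hom).obj N01)
  (r1 : N1 ⟶ (ModuleCat.restrictScalars
    (X.presheaf.map (homOfLE (inf_le_right : U0 ⊓ U1 ≤ U1)).op).hom).obj N01)

/-- The first leg `j0_* (tilde N0) ⟶ j01_* (tilde N01)`. -/
noncomputable def leg0 :
    (Scheme.Modules.pushforward h0.fromSpec).obj (tilde N0) ⟶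
      (Scheme.Modules.pushforward h01.fromSpec).obj (tilde N01) :=
  pushRes h0 h01 inf_le_left r0

/-- The second leg `j1_* (tilde N1) ⟶ j01_* (tilde N01)`. -/
noncomputable def leg1 :
    (Scheme.Modules.pushforward h1.fromSpec).obj (tilde N1) ⟶
      (Scheme.Modules.pushforward h01.fromSpec).obj (tilde N01) :=
  pushRes h1 h01 inf_le_right r1

/-- The glued sheaf of modules: the fibre product of `j0_* (tilde N0)` and `j1_* (tilde N1)` over
`j01_* (tilde N01)`. -/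
noncomputable def glue : X.Modules :=
  pullback (leg0 h0 h01 r0) (leg1 h1 h01 r1)

/-- The projection `glue ⟶ j0_* (tilde N0)`. -/
noncomputable def glueFst : glue h0 h1 h01 r0 r1 ⟶
    (Scheme.Modules.pushforward h0.fromSpec).obj (tilde N0) :=
  pullback.fst _ _

/-- The projection `glue ⟶ j1_* (tilde N1)`. -/
noncomputable def glueSnd : glue h0 h1 h01 r0 r1 ⟶
    (Scheme.Modules.pushforward h1.fromSpec).obj (tilde N1) :=
  pullback.snd _ _

lemma glue_condition :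
    glueFst h0 h1 h01 r0 r1 ≫ leg0 h0 h01 r0 = glueSnd h0 h1 h01 r0 r1 ≫ leg1 h1 h01 r1 :=
  pullback.condition

variable (t0 : Γ(X, U0)) (ht0 : U0 ⊓ U1 = X.basicOpen t0)
  (hr0 : IsLocalizedModule (Submonoid.powers t0) r0.hom)
  (t1 : Γ(X, U1)) (ht1 : U0 ⊓ U1 = X.basicOpen t1)
  (hr1 : IsLocalizedModule (Submonoid.powers t1) r1.hom)

include ht1 hr1 in
lemma isIsoOn_glueFst : IsIsoOn (glueFst h0 h1 h01 r0 r1) U0 := by
  intro W hW
  apply isIso_fst_app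
  exact isIso_pushRes_app h1 h01 inf_le_right r1 t1 ht1 hr1 W
    (le_inf (inf_le_left.trans hW) inf_le_right)

include ht0 hr0 in
lemma isIsoOn_glueSnd : IsIsoOn (glueSnd h0 h1 h01 r0 r1) U1 := by
  intro W hW
  apply isIso_snd_app
  exact isIso_pushRes_app h0 h01 inf_le_left r0 t0 ht0 hr0 W
    (le_inf inf_le_right (inf_le_left.trans hW))

/-- `Γ(U0, glue) ≃ N0`. -/
noncomputable def glueEquiv0 : Γ(glue h0 h1 h01 r0 r1, U0) ≃ₗ[Γ(X, U0)] N0 :=
  (LinearEquiv.ofBijective (appLinear (glueFst h0 h1 h01 r0 r1) U0)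
    ((isIsoOn_glueFst h0 h1 h01 r0 r1 t1 ht1 hr1).bijective le_rfl)).trans
    (pushSecEquiv h0 N0).symm

/-- `Γ(U1, glue) ≃ N1`. -/
noncomputable def glueEquiv1 : Γ(glue h0 h1 h01 r0 r1, U1) ≃ₗ[Γ(X, U1)] N1 :=
  (LinearEquiv.ofBijective (appLinear (glueSnd h0 h1 h01 r0 r1) U1)
    ((isIsoOn_glueSnd h0 h1 h01 r0 r1 t0 ht0 hr0).bijective le_rfl)).trans
    (pushSecEquiv h1 N1).symm

include t0 ht0 hr0 t1 ht1 hr1 in
lemma bijective_glueFst_leg0_app :
    Function.Bijective (appLinear (glueFst h0 h1 h01 r0 r1 ≫ leg0 h0 h01 r0) (U0 ⊓ U1)) := by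
  have h1' := (isIsoOn_glueFst h0 h1 h01 r0 r1 t1 ht1 hr1).bijective
    (inf_le_left : U0 ⊓ U1 ≤ U0)
  have h2 : IsIso ((leg0 h0 h01 r0).app (U0 ⊓ U1)) :=
    isIso_pushRes_app h0 h01 inf_le_left r0 t0 ht0 hr0 (U0 ⊓ U1) inf_le_left
  have h2' := ConcreteCategory.bijective_of_isIso ((leg0 h0 h01 r0).app (U0 ⊓ U1))
  exact h2'.comp h1'

/-- `Γ(U0 ⊓ U1, glue) ≃ N01`. -/
noncomputable def glueEquiv01 :
    Γ(glue h0 h1 h01 r0 r1, U0 ⊓ U1) ≃ₗ[Γ(X, U0 ⊓ U1)] N01 :=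
  (LinearEquiv.ofBijective (appLinear (glueFst h0 h1 h01 r0 r1 ≫ leg0 h0 h01 r0) (U0 ⊓ U1))
    (bijective_glueFst_leg0_app h0 h1 h01 r0 r1 t0 ht0 hr0 t1 ht1 hr1)).trans
    (pushSecEquiv h01 N01).symm

lemma glueEquiv0_spec (x : Γ(glue h0 h1 h01 r0 r1, U0)) :
    (tilde.toOpen N0 (h0.fromSpec ⁻¹ᵁ U0)).hom (glueEquiv0 h0 h1 h01 r0 r1 t1 ht1 hr1 x) =
      (glueFst h0 h1 h01 r0 r1).app U0 x :=
  (pushSecEquiv h0 N0).apply_symm_apply _

lemma glueEquiv1_spec (x : Γ(glue h0 h1 h01 r0 r1, U1)) :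
    (tilde.toOpen N1 (h1.fromSpec ⁻¹ᵁ U1)).hom (glueEquiv1 h0 h1 h01 r0 r1 t0 ht0 hr0 x) =
      (glueSnd h0 h1 h01 r0 r1).app U1 x :=
  (pushSecEquiv h1 N1).apply_symm_apply _

/-- Compatibility of the section equivalences with restriction from `U0` to `U0 ⊓ U1`. -/
theorem glueEquiv01_res0 (x : Γ(glue h0 h1 h01 r0 r1, U0)) :
    glueEquiv01 h0 h1 h01 r0 r1 t0 ht0 hr0 t1 ht1 hr1
        ((glue h0 h1 h01 r0 r1).presheaf.map (homOfLE (inf_le_left : U0 ⊓ U1 ≤ U0)).op x) =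
      r0.hom (glueEquiv0 h0 h1 h01 r0 r1 t1 ht1 hr1 x) := by
  set n := glueEquiv0 h0 h1 h01 r0 r1 t1 ht1 hr1 x with hn
  have hspec := glueEquiv0_spec h0 h1 h01 r0 r1 t1 ht1 hr1 x
  rw [← hn] at hspec
  unfold glueEquiv01
  rw [LinearEquiv.trans_apply, LinearEquiv.symm_apply_eq, pushSecEquiv_apply,
    LinearEquiv.ofBijective_apply, appLinear_apply, app_res, Scheme.Modules.Hom.comp_app]
  change ((Scheme.Modules.pushforward h01.fromSpec).obj (tilde N01)).presheaf.map _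
    ((leg0 h0 h01 r0).app U0 ((glueFst h0 h1 h01 r0 r1).app U0 x)) = _
  rw [← hspec]
  unfold leg0
  rw [pushRes_app_toOpen]
  rfl

/-- Compatibility of the section equivalences with restriction from `U1` to `U0 ⊓ U1`. -/
theorem glueEquiv01_res1 (x : Γ(glue h0 h1 h01 r0 r1, U1)) :
    glueEquiv01 h0 h1 h01 r0 r1 t0 ht0 hr0 t1 ht1 hr1
        ((glue h0 h1 h01 r0 r1).presheaf.map (homOfLE (inf_le_right : U0 ⊓ U1 ≤ U1)).op x) =
      r1.hom (glueEquiv1 h0 h1 h01 r0 r1 t0 ht0 hr0 x) := by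
  set n := glueEquiv1 h0 h1 h01 r0 r1 t0 ht0 hr0 x with hn
  have hspec := glueEquiv1_spec h0 h1 h01 r0 r1 t0 ht0 hr0 x
  rw [← hn] at hspec
  unfold glueEquiv01
  rw [LinearEquiv.trans_apply, LinearEquiv.symm_apply_eq, pushSecEquiv_apply,
    LinearEquiv.ofBijective_apply, appLinear_apply, glue_condition, app_res,
    Scheme.Modules.Hom.comp_app]
  change ((Scheme.Modules.pushforward h01.fromSpec).obj (tilde N01)).presheaf.map _
    ((leg1 h1 h01 r1).app U1 ((glueSnd h0 h1 h01 r0 r1).app U1 x)) = _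
  rw [← hspec]
  unfold leg1
  rw [pushRes_app_toOpen]
  rfl

end Glue

end Fermat.Agent.Jac.TwoCoverSheaf
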