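/-
Fermat/Agent/Jac/TwoCoverSheafInvertible.lean  (helper15, brick M3b of the S25 programme)

Invertibility of the glued sheaf.  If `N0`, `N1` are invertible modules then
`glue h0 h1 h01 r0 r1` is an invertible sheaf of modules (frozen Prelude definition
`Scheme.Modules.IsInvertible`).  The local trivialisations are obtained from a zigzag

  `glue ⟶ jU_* (tilde N) ⟵ jU_* (tilde Γ(X, U)) ⟵ 𝒪_X`

of morphisms which are isomorphisms over a basic open `D(f) ⊆ U`, where `f` is chosen such that
`N[1/f]` is free of rank one.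
-/
import Mathlib
import Fermat.Agent.Jac.TwoCoverSheafGlue

set_option autoImplicit false

universe u

open CategoryTheory CategoryTheory.Limits AlgebraicGeometry TopologicalSpace Opposite

namespace Fermat.Agent.Jac.TwoCoverSheaf

/-! ### Algebra: local generators of invertible modules -/

/-- An invertible module is locally generated by one element: for every prime `p` there are
`f ∉ p` and `ν : R → N` which becomes an isomorphism after inverting `f`. -/
lemma exists_local_generator {R : Type u} [CommRing R] (N : Type u) [AddCommGroup N] [Module R N]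
    [Module.Invertible R N] (p : PrimeSpectrum R) :
    ∃ f : R, f ∉ p.asIdeal ∧ ∃ ν : R →ₗ[R] N,
      ∀ {N' : Type u} [AddCommGroup N'] [Module R N'] (g : N →ₗ[R] N')
        [IsLocalizedModule (Submonoid.powers f) g],
        IsLocalizedModule (Submonoid.powers f) (g ∘ₗ ν) := by
  obtain ⟨s, hs, hfree⟩ := Module.Invertible.exists_finset_free_localization (R := R) (M := N)
  obtain ⟨r, hr, hrp⟩ : ∃ r ∈ s, r ∉ p.asIdeal := by
    by_contra h
    push Not at h
    have : Ideal.span (s : Set R) ≤ p.asIdeal := Ideal.span_le.mpr (fun x hx => h x hx)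
    rw [hs] at this
    exact p.isPrime.ne_top (top_le_iff.mp this)
  refine ⟨r, hrp, ?_⟩
  have hfr := hfree r hr
  obtain ⟨e⟩ := Module.Invertible.free_iff_linearEquiv.mp hfr
  let S := Submonoid.powers r
  let g0 := LocalizedModule.mkLinearMap S N
  let y := e.symm 1
  obtain ⟨⟨m, s'⟩, hms⟩ := IsLocalizedModule.surj S g0 y
  refine ⟨LinearMap.toSpanSingleton R N m, ?_⟩
  -- the comparison map `R_r → N_r`, `a ↦ a • (m / 1)`
  let θ : Localization.Away r →ₗ[R] LocalizedModule.Away r N :=
    (LinearMap.toSpanSingleton (Localization.Away r) _ (g0 m)).restrictScalars R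
  have hu : IsUnit (algebraMap R (Localization.Away r) s') := IsLocalization.map_units _ s'
  have hθ : ∀ a, θ a = e.symm (a * algebraMap R (Localization.Away r) s') := by
    intro a
    change a • g0 m = _
    have h1 : g0 m = algebraMap R (Localization.Away r) s' • y := by
      rw [← hms]
      exact (algebraMap_smul (Localization.Away r) (s' : R) y).symm
    rw [h1, smul_smul]
    have h2 : e.symm (a * algebraMap R (Localization.Away r) s') =
        e.symm ((a * algebraMap R (Localization.Away r) s') • (1 : Localization.Away r)) := by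
      rw [smul_eq_mul, mul_one]
    rw [h2, map_smul]
  have hθbij : Function.Bijective θ := by
    have h1 : Function.Bijective (fun a : Localization.Away r =>
        a * algebraMap R (Localization.Away r) s') := by
      obtain ⟨u, hu'⟩ := hu
      rw [← hu']
      exact (Units.mulRight_bijective u)
    have h2 : (θ : Localization.Away r → LocalizedModule.Away r N) =
        e.symm ∘ (fun a : Localization.Away r => a * algebraMap R (Localization.Away r) s') := by
      funext a
      exact hθ a
    rw [h2]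
    exact e.symm.bijective.comp h1
  have hcomp : g0 ∘ₗ LinearMap.toSpanSingleton R N m =
      θ ∘ₗ Algebra.linearMap R (Localization.Away r) := by
    apply LinearMap.ext_ring
    simp [θ]
  have hloc0 : IsLocalizedModule S (g0 ∘ₗ LinearMap.toSpanSingleton R N m) := by
    rw [hcomp]
    exact (IsLocalizedModule.comp_iff_of_bijective_left S θ hθbij).mpr inferInstance
  intro N' _ _ g _
  let E := IsLocalizedModule.linearEquiv S g0 g
  have hg : g ∘ₗ LinearMap.toSpanSingleton R N m =
      E.toLinearMap ∘ₗ (g0 ∘ₗ LinearMap.toSpanSingleton R N m) := by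
    ext
    simp [E]
  rw [hg]
  exact IsLocalizedModule.of_linearEquiv S _ E

/-! ### Affine: morphisms of quasi-coherent modules over a basic open -/

section Affine

variable {R : CommRingCat.{u}}

/-- A morphism of quasi-coherent modules on `Spec R` which is bijective on sections over `D(f)`
is an isomorphism over `D(f)`. -/
lemma isIsoOn_basicOpen_of_bijective {A B : (Spec R).Modules} [A.IsQuasicoherent]
    [B.IsQuasicoherent] (ψ : A ⟶ B) (f : R)
    (h : Function.Bijective (ψ.app (PrimeSpectrum.basicOpen f))) :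
    IsIsoOn ψ (PrimeSpectrum.basicOpen f) := by
  let ι := Spec.map (CommRingCat.ofHom (algebraMap R (Localization.Away f)))
  have hrange : ι.opensRange = PrimeSpectrum.basicOpen f :=
    Scheme.Hom.opensRange_localizationAway f
  rw [← hrange]
  apply isIsoOn_of_isIso_restrictFunctor_map ι
  apply isIso_of_bijective_app_top
  have htop : ι ''ᵁ ⊤ = PrimeSpectrum.basicOpen f := by
    rw [Scheme.Hom.image_top_eq_opensRange, hrange]
  have : Function.Bijective (ψ.app (ι ''ᵁ ⊤)) := by
    rw [htop]
    exact h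
  exact this

/-- If `ν : M ⟶ N` becomes an isomorphism after inverting `f` then `tilde.map ν` is an
isomorphism over `D(f)`. -/
lemma isIsoOn_tilde_map {M N : ModuleCat.{u} R} (ν : M ⟶ N) (f : R)
    (hν : IsLocalizedModule (Submonoid.powers f)
      ((tilde.toOpen N (PrimeSpectrum.basicOpen f)).hom ∘ₗ ν.hom)) :
    IsIsoOn (tilde.map ν) (PrimeSpectrum.basicOpen f) := by
  apply isIsoOn_basicOpen_of_bijective
  let g1 := (tilde.toOpen M (PrimeSpectrum.basicOpen f)).hom
  let h := ((modulesSpecToSheaf.map (tilde.map ν)).1.app (op (PrimeSpectrum.basicOpen f))).hom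
  have key : h ∘ₗ g1 = (tilde.toOpen N (PrimeSpectrum.basicOpen f)).hom ∘ₗ ν.hom :=
    congrArg ModuleCat.Hom.hom (tilde.toOpen_map_app ν (PrimeSpectrum.basicOpen f))
  have hloc1 : IsLocalizedModule (Submonoid.powers f) g1 :=
    inferInstanceAs (IsLocalizedModule.Away f (tilde.toOpen M (PrimeSpectrum.basicOpen f)).hom)
  have hloc2 : IsLocalizedModule (Submonoid.powers f) (h ∘ₗ g1) := by
    rw [key]
    exact hν
  have := IsLocalizedModule.linearEquiv_of_isLocalizedModule_comp (Submonoid.powers f) g1 h
  have hb : Function.Bijective h := by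
    rw [← this]
    exact LinearEquiv.bijective _
  exact hb

end Affine

/-! ### The structure sheaf as a pushforward, over an affine open -/

lemma isIso_presheaf_map_of_eq {X : Scheme.{u}} (M : X.Modules) {A B : X.Opens} (h : A = B)
    (i : A ⟶ B) : IsIso (M.presheaf.map i.op) := by
  subst h
  have : i = 𝟙 A := Subsingleton.elim _ _
  rw [this, op_id, M.presheaf.map_id]
  infer_instance

lemma isIsoOn_restrictAdjunction_unit {X Y : Scheme.{u}} (f : Y ⟶ X) [IsOpenImmersion f]
    (M : X.Modules) :
    IsIsoOn ((Scheme.Modules.restrictAdjunction f).unit.app M) f.opensRange := by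
  intro W hW
  rw [Scheme.Modules.restrictAdjunction_unit_app_app]
  apply isIso_presheaf_map_of_eq
  rw [Scheme.Hom.image_preimage_eq_opensRange_inf]
  exact inf_eq_right.mpr hW

section Triv

variable {X : Scheme.{u}} {U : X.Opens} (hU : IsAffineOpen U)

/-- The canonical map `𝒪_X ⟶ jU_* (tilde Γ(X, U))`. -/
noncomputable def unitToPush :
    SheafOfModules.unit X.ringCatSheaf ⟶
      (Scheme.Modules.pushforward hU.fromSpec).obj (tilde (ModuleCat.of Γ(X, U) Γ(X, U))) :=
  (Scheme.Modules.restrictAdjunction hU.fromSpec).unit.app (SheafOfModules.unit X.ringCatSheaf) ≫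
    (Scheme.Modules.pushforward hU.fromSpec).map
      ((Scheme.Modules.restrictUnitIso hU.fromSpec).hom ≫ (tildeSelf (R := Γ(X, U))).inv)

lemma isIsoOn_unitToPush : IsIsoOn (unitToPush hU) U := by
  unfold unitToPush
  apply IsIsoOn.comp
  · have := isIsoOn_restrictAdjunction_unit hU.fromSpec (SheafOfModules.unit X.ringCatSheaf)
    rwa [hU.opensRange_fromSpec] at this
  · exact IsIsoOn.of_isIso _ _

lemma isIsoOn_pushforward_tilde_map {M N : ModuleCat.{u} Γ(X, U)} (ν : M ⟶ N) (f : Γ(X, U))
    (hν : IsLocalizedModule (Submonoid.powers f)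
      ((tilde.toOpen N (PrimeSpectrum.basicOpen f)).hom ∘ₗ ν.hom)) :
    IsIsoOn ((Scheme.Modules.pushforward hU.fromSpec).map (tilde.map ν)) (X.basicOpen f) := by
  intro W hW
  rw [Scheme.Modules.pushforward_map_app]
  apply isIsoOn_tilde_map ν f hν
  rw [← hU.fromSpec_preimage_basicOpen]
  exact fun p hp => hW hp

/-- Local trivialisations of a sheaf of modules which over the affine open `U` is `tilde N` for
an invertible module `N`. -/
lemma exists_restrict_iso_unit {M : X.Modules} (N : ModuleCat.{u} Γ(X, U))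
    [Module.Invertible Γ(X, U) N]
    (π : M ⟶ (Scheme.Modules.pushforward hU.fromSpec).obj (tilde N)) (hπ : IsIsoOn π U)
    (x : X) (hx : x ∈ U) :
    ∃ V : X.Opens, x ∈ V ∧
      Nonempty (M.restrict V.ι ≅
        Scheme.Modules.restrict (SheafOfModules.unit X.ringCatSheaf) V.ι) := by
  let p := hU.primeIdealOf ⟨x, hx⟩
  obtain ⟨f, hfp, ν, hν⟩ := exists_local_generator (R := Γ(X, U)) N p
  have hVU : X.basicOpen f ≤ U := X.basicOpen_le f
  refine ⟨X.basicOpen f, ?_, ⟨?_⟩⟩
  · rw [← hU.fromSpec_image_basicOpen]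
    exact ⟨p, hfp, hU.fromSpec_primeIdealOf ⟨x, hx⟩⟩
  · have h1 : IsIsoOn π (X.basicOpen f) := hπ.mono hVU
    have h2 := isIsoOn_pushforward_tilde_map hU (ModuleCat.ofHom ν) f
      (hν (tilde.toOpen N (PrimeSpectrum.basicOpen f)).hom)
    have h3 : IsIsoOn (unitToPush hU) (X.basicOpen f) := (isIsoOn_unitToPush hU).mono hVU
    exact h1.restrictIso ≪≫ h2.restrictIso.symm ≪≫ h3.restrictIso.symm

end Triv

/-! ### Invertibility of the glued sheaf -/

section Glue

variable {X : Scheme.{u}} {U0 U1 : X.Opens} (h0 : IsAffineOpen U0) (h1 : IsAffineOpen U1)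
  (h01 : IsAffineOpen (U0 ⊓ U1))
  {N0 : ModuleCat.{u} Γ(X, U0)} {N1 : ModuleCat.{u} Γ(X, U1)}
  {N01 : ModuleCat.{u} Γ(X, U0 ⊓ U1)}
  (r0 : N0 ⟶ (ModuleCat.restrictScalars
    (X.presheaf.map (homOfLE (inf_le_left : U0 ⊓ U1 ≤ U0)).op).hom).obj N01)
  (r1 : N1 ⟶ (ModuleCat.restrictScalars
    (X.presheaf.map (homOfLE (inf_le_right : U0 ⊓ U1 ≤ U1)).op).hom).obj N01)
  (t0 : Γ(X, U0)) (ht0 : U0 ⊓ U1 = X.basicOpen t0)
  (hr0 : IsLocalizedModule (Submonoid.powers t0) r0.hom)
  (t1 : Γ(X, U1)) (ht1 : U0 ⊓ U1 = X.basicOpen t1)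
  (hr1 : IsLocalizedModule (Submonoid.powers t1) r1.hom)

include t0 ht0 hr0 t1 ht1 hr1 in
/-- The glued sheaf is invertible when `N0` and `N1` are invertible modules and `U0`, `U1`
cover `X`. -/
theorem isInvertible_glue (hcover : U0 ⊔ U1 = ⊤) [Module.Invertible Γ(X, U0) N0]
    [Module.Invertible Γ(X, U1) N1] :
    Scheme.Modules.IsInvertible (glue h0 h1 h01 r0 r1) := by
  apply isInvertible_of_restrict_iso
  intro x
  have hx : x ∈ U0 ⊔ U1 := by rw [hcover]; trivial
  rcases hx with hx | hx
  · exact exists_restrict_iso_unit h0 N0 (glueFst h0 h1 h01 r0 r1)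
      (isIsoOn_glueFst h0 h1 h01 r0 r1 t1 ht1 hr1) x hx
  · exact exists_restrict_iso_unit h1 N1 (glueSnd h0 h1 h01 r0 r1)
      (isIsoOn_glueSnd h0 h1 h01 r0 r1 t0 ht0 hr0) x hx

end Glue

end Fermat.Agent.Jac.TwoCoverSheaf
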