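/-
Fermat/Agent/Jac/TwoCoverSheafMain.lean  (helper15, brick M3b of the S25 programme)

ESSENTIAL SURJECTIVITY of the two-chart dictionary (brick M3b).  In the setting of
`TwoCoverGammaSetting` (helper40): for every two-chart module `L : QC2 A 𝒰.R0 𝒰.R1 𝒰.R01` there
is a sheaf of modules `sheafify 𝒰 L : X.Modules`, quasi-coherent relative to the cover, with
`QC2.Iso (𝒰.Gamma2 (sheafify 𝒰 L) _) L`; if `L` is a line bundle then `sheafify 𝒰 L` is invertible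
(frozen Prelude definition `Scheme.Modules.IsInvertible`).
-/
import Mathlib
import Fermat.Agent.Jac.TwoCoverSheafInvertible
import Fermat.Agent.Jac.TwoCoverGammaSetting

set_option autoImplicit false

universe u

open CategoryTheory CategoryTheory.Limits AlgebraicGeometry TopologicalSpace Opposite

namespace Fermat.Agent.Jac.TwoCoverSheaf

open Fermat.Agent.Jac Fermat.Agent.Jac.TwoCoverGammaSetting

/-- Transport of `IsLocalizedModule` along an equality of module structures on the target. -/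
lemma isLocalizedModule_congr_module {R M M' : Type u} [CommSemiring R] [AddCommMonoid M]
    [iM : Module R M] [AddCommMonoid M'] (i1 i2 : Module R M') (h : i1 = i2) (T : Submonoid R)
    (f : @LinearMap R R _ _ (RingHom.id R) M M' _ _ _ i1)
    (g : @LinearMap R R _ _ (RingHom.id R) M M' _ _ _ i2) (hfg : ∀ x, f x = g x)
    (hf : @IsLocalizedModule R _ M M' _ _ iM i1 T f) :
    @IsLocalizedModule R _ M M' _ _ iM i2 T g := by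
  subst h
  have : f = g := LinearMap.ext hfg
  subst this
  exact hf

variable {A : Type u} [CommRing A] {X : Scheme.{u}} (𝒰 : TwoCover A X)
  (L : QC2 A 𝒰.R0 𝒰.R1 𝒰.R01)

/-- The overlap is affine. -/
lemma affine01 : IsAffineOpen (𝒰.U0 ⊓ 𝒰.U1) := by
  rw [𝒰.inter0]
  exact 𝒰.affine0.basicOpen 𝒰.t

/-! ### The two-chart module in `ModuleCat` form -/

/-- `L.N0` as an object of `ModuleCat Γ(X, U0)`. -/
noncomputable def modN0 : ModuleCat.{u} Γ(X, 𝒰.U0) :=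
  @ModuleCat.of Γ(X, 𝒰.U0) _ L.N0 _ L.mod0

/-- `L.N1` as an object of `ModuleCat Γ(X, U1)`. -/
noncomputable def modN1 : ModuleCat.{u} Γ(X, 𝒰.U1) :=
  @ModuleCat.of Γ(X, 𝒰.U1) _ L.N1 _ L.mod1

/-- `L.N01` as an object of `ModuleCat Γ(X, U0 ⊓ U1)`. -/
noncomputable def modN01 : ModuleCat.{u} Γ(X, 𝒰.U0 ⊓ 𝒰.U1) :=
  @ModuleCat.of Γ(X, 𝒰.U0 ⊓ 𝒰.U1) _ L.N01 _ L.mod01

/-- `L.r0` as a morphism of `ModuleCat Γ(X, U0)`. -/
noncomputable def modR0 : modN0 𝒰 L ⟶ (ModuleCat.restrictScalars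
    (X.presheaf.map (homOfLE (inf_le_left : 𝒰.U0 ⊓ 𝒰.U1 ≤ 𝒰.U0)).op).hom).obj (modN01 𝒰 L) :=
  letI i1 : Module Γ(X, 𝒰.U0) L.N0 := L.mod0
  letI i2 : Module Γ(X, 𝒰.U0 ⊓ 𝒰.U1) L.N01 := L.mod01
  letI i3 : Module Γ(X, 𝒰.U0) L.N01 := Module.compHom L.N01
    (X.presheaf.map (homOfLE (inf_le_left : 𝒰.U0 ⊓ 𝒰.U1 ≤ 𝒰.U0)).op).hom
  @ModuleCat.ofHom Γ(X, 𝒰.U0) _ L.N0 L.N01 _ i1 _ i3
    { toFun := fun x => L.r0 x
      map_add' := fun x y => L.r0.map_add x y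
      map_smul' := fun r x => by
        let r' : 𝒰.R0 := r
        have h1 : L.r0 (r' • x) = r' • L.r0 x := L.r0.map_smul r' x
        have h2 : r' • L.r0 x = algebraMap 𝒰.R0 𝒰.R01 r' • L.r0 x :=
          (algebraMap_smul 𝒰.R01 r' (L.r0 x)).symm
        exact h1.trans h2 }

/-- `L.r1` as a morphism of `ModuleCat Γ(X, U1)`. -/
noncomputable def modR1 : modN1 𝒰 L ⟶ (ModuleCat.restrictScalars
    (X.presheaf.map (homOfLE (inf_le_right : 𝒰.U0 ⊓ 𝒰.U1 ≤ 𝒰.U1)).op).hom).obj (modN01 𝒰 L) :=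
  letI i1 : Module Γ(X, 𝒰.U1) L.N1 := L.mod1
  letI i2 : Module Γ(X, 𝒰.U0 ⊓ 𝒰.U1) L.N01 := L.mod01
  letI i3 : Module Γ(X, 𝒰.U1) L.N01 := Module.compHom L.N01
    (X.presheaf.map (homOfLE (inf_le_right : 𝒰.U0 ⊓ 𝒰.U1 ≤ 𝒰.U1)).op).hom
  @ModuleCat.ofHom Γ(X, 𝒰.U1) _ L.N1 L.N01 _ i1 _ i3
    { toFun := fun x => L.r1 x
      map_add' := fun x y => L.r1.map_add x y
      map_smul' := fun r x => by
        let r' : 𝒰.R1 := r
        have h1 : L.r1 (r' • x) = r' • L.r1 x := L.r1.map_smul r' x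
        have h2 : r' • L.r1 x = algebraMap 𝒰.R1 𝒰.R01 r' • L.r1 x :=
          (algebraMap_smul 𝒰.R01 r' (L.r1 x)).symm
        exact h1.trans h2 }

lemma modR0_apply (x : L.N0) : (modR0 𝒰 L).hom x = L.r0 x := rfl

lemma modR1_apply (x : L.N1) : (modR1 𝒰 L).hom x = L.r1 x := rfl

lemma isLocalizedModule_r0 : IsLocalizedModule (Submonoid.powers 𝒰.tR) L.r0 := by
  have : IsLocalization (Submonoid.powers 𝒰.tR) 𝒰.R01 := 𝒰.chart.away0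
  exact (isLocalizedModule_iff_isBaseChange (Submonoid.powers 𝒰.tR) 𝒰.R01 L.r0).mpr L.bc0

lemma isLocalizedModule_r1 : IsLocalizedModule (Submonoid.powers 𝒰.sR) L.r1 := by
  have : IsLocalization (Submonoid.powers 𝒰.sR) 𝒰.R01 := 𝒰.chart.away1
  exact (isLocalizedModule_iff_isBaseChange (Submonoid.powers 𝒰.sR) 𝒰.R01 L.r1).mpr L.bc1

lemma isLocalizedModule_modR0 :
    IsLocalizedModule (Submonoid.powers 𝒰.t) (modR0 𝒰 L).hom := by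
  have h := isLocalizedModule_r0 𝒰 L
  refine @isLocalizedModule_congr_module Γ(X, 𝒰.U0) L.N0 L.N01 _ _ L.mod0 _
    L.mod001 (@Module.compHom Γ(X, 𝒰.U0 ⊓ 𝒰.U1) Γ(X, 𝒰.U0) L.N01 _ _ L.mod01 _
      (X.presheaf.map (homOfLE (inf_le_left : 𝒰.U0 ⊓ 𝒰.U1 ≤ 𝒰.U0)).op).hom) ?_
    (Submonoid.powers 𝒰.t) L.r0 (modR0 𝒰 L).hom (fun x => rfl) h
  apply Module.ext'
  intro r y
  exact (algebraMap_smul 𝒰.R01 (r : 𝒰.R0) y).symm

lemma isLocalizedModule_modR1 :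
    IsLocalizedModule (Submonoid.powers 𝒰.s) (modR1 𝒰 L).hom := by
  have h := isLocalizedModule_r1 𝒰 L
  refine @isLocalizedModule_congr_module Γ(X, 𝒰.U1) L.N1 L.N01 _ _ L.mod1 _
    L.mod101 (@Module.compHom Γ(X, 𝒰.U0 ⊓ 𝒰.U1) Γ(X, 𝒰.U1) L.N01 _ _ L.mod01 _
      (X.presheaf.map (homOfLE (inf_le_right : 𝒰.U0 ⊓ 𝒰.U1 ≤ 𝒰.U1)).op).hom) ?_
    (Submonoid.powers 𝒰.s) L.r1 (modR1 𝒰 L).hom (fun x => rfl) h
  apply Module.ext'
  intro r y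
  exact (algebraMap_smul 𝒰.R01 (r : 𝒰.R1) y).symm

/-! ### The sheaf attached to a two-chart module -/

/-- The sheaf of modules on `X` glued from `tilde L.N0` on `U0` and `tilde L.N1` on `U1`. -/
noncomputable def sheafify : X.Modules :=
  glue 𝒰.affine0 𝒰.affine1 (affine01 𝒰) (modR0 𝒰 L) (modR1 𝒰 L)

/-- Sections of `sheafify 𝒰 L` over the first chart. -/
noncomputable def sheafifyE0 : 𝒰.N0 (sheafify 𝒰 L) ≃ₗ[𝒰.R0] L.N0 :=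
  glueEquiv0 𝒰.affine0 𝒰.affine1 (affine01 𝒰) (modR0 𝒰 L) (modR1 𝒰 L)
    𝒰.s 𝒰.inter1 (isLocalizedModule_modR1 𝒰 L)

/-- Sections of `sheafify 𝒰 L` over the second chart. -/
noncomputable def sheafifyE1 : 𝒰.N1 (sheafify 𝒰 L) ≃ₗ[𝒰.R1] L.N1 :=
  glueEquiv1 𝒰.affine0 𝒰.affine1 (affine01 𝒰) (modR0 𝒰 L) (modR1 𝒰 L)
    𝒰.t 𝒰.inter0 (isLocalizedModule_modR0 𝒰 L)

/-- Sections of `sheafify 𝒰 L` over the overlap. -/
noncomputable def sheafifyE01 : 𝒰.N01 (sheafify 𝒰 L) ≃ₗ[𝒰.R01] L.N01 :=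
  glueEquiv01 𝒰.affine0 𝒰.affine1 (affine01 𝒰) (modR0 𝒰 L) (modR1 𝒰 L)
    𝒰.t 𝒰.inter0 (isLocalizedModule_modR0 𝒰 L) 𝒰.s 𝒰.inter1 (isLocalizedModule_modR1 𝒰 L)

theorem sheafify_comm0 (x : 𝒰.N0 (sheafify 𝒰 L)) :
    sheafifyE01 𝒰 L (𝒰.r0 (sheafify 𝒰 L) x) = L.r0 (sheafifyE0 𝒰 L x) :=
  glueEquiv01_res0 𝒰.affine0 𝒰.affine1 (affine01 𝒰) (modR0 𝒰 L) (modR1 𝒰 L)
    𝒰.t 𝒰.inter0 (isLocalizedModule_modR0 𝒰 L) 𝒰.s 𝒰.inter1 (isLocalizedModule_modR1 𝒰 L) x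

theorem sheafify_comm1 (x : 𝒰.N1 (sheafify 𝒰 L)) :
    sheafifyE01 𝒰 L (𝒰.r1 (sheafify 𝒰 L) x) = L.r1 (sheafifyE1 𝒰 L x) :=
  glueEquiv01_res1 𝒰.affine0 𝒰.affine1 (affine01 𝒰) (modR0 𝒰 L) (modR1 𝒰 L)
    𝒰.t 𝒰.inter0 (isLocalizedModule_modR0 𝒰 L) 𝒰.s 𝒰.inter1 (isLocalizedModule_modR1 𝒰 L) x

/-- The glued sheaf is quasi-coherent relative to the cover. -/
theorem sheafify_isQC : 𝒰.IsQC (sheafify 𝒰 L) := by
  let M := sheafify 𝒰 L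
  let e0 : 𝒰.N0 M ≃ₗ[𝒰.R0] L.N0 := sheafifyE0 𝒰 L
  let e1 : 𝒰.N1 M ≃ₗ[𝒰.R1] L.N1 := sheafifyE1 𝒰 L
  let e01 : 𝒰.N01 M ≃ₗ[𝒰.R01] L.N01 := sheafifyE01 𝒰 L
  have h0 : 𝒰.r0 M = ((e01.symm.restrictScalars 𝒰.R0 : L.N01 →ₗ[𝒰.R0] 𝒰.N01 M).comp L.r0).comp
      (e0 : 𝒰.N0 M →ₗ[𝒰.R0] L.N0) := by
    ext x
    simp only [LinearMap.comp_apply, LinearEquiv.coe_coe, LinearEquiv.restrictScalars_apply]
    rw [← sheafify_comm0 𝒰 L x]
    exact (e01.symm_apply_apply _).symm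
  have h1 : 𝒰.r1 M = ((e01.symm.restrictScalars 𝒰.R1 : L.N01 →ₗ[𝒰.R1] 𝒰.N01 M).comp L.r1).comp
      (e1 : 𝒰.N1 M →ₗ[𝒰.R1] L.N1) := by
    ext x
    simp only [LinearMap.comp_apply, LinearEquiv.coe_coe, LinearEquiv.restrictScalars_apply]
    rw [← sheafify_comm1 𝒰 L x]
    exact (e01.symm_apply_apply _).symm
  have hl0 := isLocalizedModule_r0 𝒰 L
  have hl1 := isLocalizedModule_r1 𝒰 L
  refine ⟨?_, ?_⟩
  · rw [h0]
    have : IsLocalizedModule (Submonoid.powers 𝒰.tR)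
        ((e01.symm.restrictScalars 𝒰.R0 : L.N01 →ₗ[𝒰.R0] 𝒰.N01 M).comp L.r0) :=
      IsLocalizedModule.of_linearEquiv _ _ _
    exact IsLocalizedModule.of_linearEquiv_right _ _ _
  · rw [h1]
    have : IsLocalizedModule (Submonoid.powers 𝒰.sR)
        ((e01.symm.restrictScalars 𝒰.R1 : L.N01 →ₗ[𝒰.R1] 𝒰.N01 M).comp L.r1) :=
      IsLocalizedModule.of_linearEquiv _ _ _
    exact IsLocalizedModule.of_linearEquiv_right _ _ _

/-- **Essential surjectivity of `Gamma2`**: the two-chart module of `sheafify 𝒰 L` is `L`. -/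
noncomputable def sheafifyIso : QC2.Iso (𝒰.Gamma2 (sheafify 𝒰 L) (sheafify_isQC 𝒰 L)) L where
  e0 := sheafifyE0 𝒰 L
  e1 := sheafifyE1 𝒰 L
  e01 := sheafifyE01 𝒰 L
  comm0 := sheafify_comm0 𝒰 L
  comm1 := sheafify_comm1 𝒰 L

/-- If `L` is a line bundle, then `sheafify 𝒰 L` is an invertible sheaf of modules. -/
theorem sheafify_isInvertible (hL : L.IsLine) :
    Scheme.Modules.IsInvertible (sheafify 𝒰 L) := by
  have i0 : Module.Invertible Γ(X, 𝒰.U0) (modN0 𝒰 L) := hL.inv0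
  have i1 : Module.Invertible Γ(X, 𝒰.U1) (modN1 𝒰 L) := hL.inv1
  exact isInvertible_glue 𝒰.affine0 𝒰.affine1 (affine01 𝒰) (modR0 𝒰 L) (modR1 𝒰 L)
    𝒰.t 𝒰.inter0 (isLocalizedModule_modR0 𝒰 L) 𝒰.s 𝒰.inter1 (isLocalizedModule_modR1 𝒰 L)
    𝒰.cover

/-- **Brick M3b.**  Every line bundle `L : QC2` on the two-chart cover comes from an invertible
sheaf of modules on `X`. -/
theorem exists_sheafify (hL : L.IsLine) :
    ∃ (M : X.Modules) (hM : 𝒰.IsQC M), Scheme.Modules.IsInvertible M ∧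
      Nonempty (QC2.Iso (𝒰.Gamma2 M hM) L) :=
  ⟨sheafify 𝒰 L, sheafify_isQC 𝒰 L, sheafify_isInvertible 𝒰 L hL, ⟨sheafifyIso 𝒰 L⟩⟩

end Fermat.Agent.Jac.TwoCoverSheaf
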