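/-
Fermat/Agent/Jac/DictCore15.lean  (helper15) -- S25 programme, brick B1b "Bridge.Classes", core.

The relation `Corr cc A M L` between sheaves of modules `M` on `C_A = XA c A` and two-chart modules
`L : cc.QCA A` over the TENSOR rings `(A, A ⊗[k] B0, A ⊗[k] B1, A ⊗[k] B01)`:

  `Corr cc A M L := IsInvertible M ∧ L.IsLine ∧
      ∃ h : (coverA cc A).IsQC M, Nonempty (LiftData L ((coverA cc A).Gamma2 M h))`

where `LiftData` (helper85) is taken along helper33's ring isomorphisms
`theta0/theta1/theta01 : A ⊗[k] B_i ≃ₐ[A] Γ(C_A, X_i)` (instances `algUp0/1/01`, scoped in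
`Fermat.Agent.Jac.DictCore15`).  I.e. the two-chart module of sections of `M` is the transport
of `L` along the ring isomorphisms.

Proved here (all the fields of `AffineDictionary` that do not involve a change of `A` or the
base point): `Corr.isInvertible`, `Corr.isLine`, `exists_line`, `exists_sheaf`, `Corr.congr_sheaf`,
`Corr.congr_line`, `Corr.iso_iff`, `corr_unit`.
-/
import Mathlib
import Fermat.Agent.Jac.AffineDict87.Statement
import Fermat.Agent.Jac.BridgeCharts33Theta
import Fermat.Agent.Jac.BaseChange75.RingIso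
import Fermat.Agent.Jac.TwoCoverGammaFull
import Fermat.Agent.Jac.TwoCoverGammaLine40
import Fermat.Agent.Jac.TwoCoverSheafMain

set_option autoImplicit false
set_option linter.style.haveILetI false
set_option linter.unusedSectionVars false

open CategoryTheory CategoryTheory.Limits AlgebraicGeometry TopologicalSpace Opposite
open NeronModelInfra AlgebraicGeometry.RelPicard TensorProduct

universe u

noncomputable section

namespace Fermat.Agent.Jac.DictCore15

open scoped Fermat.Agent.Jac.BaseChange75
open Fermat.Agent.Jac.TwoCoverGammaSetting Fermat.Agent.Jac.BridgeCharts33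
open Fermat.Agent.Jac.JSmooth85Alg Fermat.Agent.Jac.BaseChange75 Fermat.Agent.Jac.LineOps39

variable {k : Type u} [Field k] {C : Scheme.{u}} {c : C ⟶ Spec (CommRingCat.of k)}
  {ε : SchemeHomOver (𝟙 (Spec (CommRingCat.of k))) c}
variable (cc : CurveCharts c ε) (A : Type u) [CommRing A] [Algebra k A]

/-! ### the cube of ring isomorphisms tensor rings ≃ section rings -/

/-- `A ⊗[k] B0 → Γ(C_A, X0)`. -/
def up0 : A ⊗[k] cc.B0 →+* (coverA cc A).R0 := (theta0 cc A).toRingEquiv.toRingHom
/-- `A ⊗[k] B1 → Γ(C_A, X1)`. -/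
def up1 : A ⊗[k] cc.B1 →+* (coverA cc A).R1 := (theta1 cc A).toRingEquiv.toRingHom
/-- `A ⊗[k] B01 → Γ(C_A, X0 ⊓ X1)`. -/
def up01 : A ⊗[k] cc.B01 →+* (coverA cc A).R01 := (theta01 cc A).toRingEquiv.toRingHom
/-- `Γ(C_A, X0) → A ⊗[k] B0`. -/
def dn0 : (coverA cc A).R0 →+* A ⊗[k] cc.B0 := (theta0 cc A).symm.toRingEquiv.toRingHom
/-- `Γ(C_A, X1) → A ⊗[k] B1`. -/
def dn1 : (coverA cc A).R1 →+* A ⊗[k] cc.B1 := (theta1 cc A).symm.toRingEquiv.toRingHom
/-- `Γ(C_A, X0 ⊓ X1) → A ⊗[k] B01`. -/
def dn01 : (coverA cc A).R01 →+* A ⊗[k] cc.B01 := (theta01 cc A).symm.toRingEquiv.toRingHom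

theorem up0_apply (x : A ⊗[k] cc.B0) : up0 cc A x = theta0 cc A x := rfl
theorem up1_apply (x : A ⊗[k] cc.B1) : up1 cc A x = theta1 cc A x := rfl
theorem up01_apply (x : A ⊗[k] cc.B01) : up01 cc A x = theta01 cc A x := rfl
theorem dn0_apply (y : (coverA cc A).R0) : dn0 cc A y = (theta0 cc A).symm y := rfl
theorem dn1_apply (y : (coverA cc A).R1) : dn1 cc A y = (theta1 cc A).symm y := rfl
theorem dn01_apply (y : (coverA cc A).R01) : dn01 cc A y = (theta01 cc A).symm y := rfl

/-- The section ring `Γ(C_A, X0)` as an algebra over the tensor ring `A ⊗[k] B0`, through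
`theta0` (scoped instance of `Fermat.Agent.Jac.DictCore15`). -/
@[instance_reducible]
def algUp0 : Algebra (A ⊗[k] cc.B0) (coverA cc A).R0 := (up0 cc A).toAlgebra
/-- `Γ(C_A, X1)` as an algebra over `A ⊗[k] B1`, through `theta1` (scoped instance). -/
@[instance_reducible]
def algUp1 : Algebra (A ⊗[k] cc.B1) (coverA cc A).R1 := (up1 cc A).toAlgebra
/-- `Γ(C_A, X0 ⊓ X1)` as an algebra over `A ⊗[k] B01`, through `theta01` (scoped instance). -/
@[instance_reducible]
def algUp01 : Algebra (A ⊗[k] cc.B01) (coverA cc A).R01 := (up01 cc A).toAlgebra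
/-- The reverse structure, through `theta0.symm` (NOT an instance outside this file). -/
@[instance_reducible]
def algDn0 : Algebra (coverA cc A).R0 (A ⊗[k] cc.B0) := (dn0 cc A).toAlgebra
/-- The reverse structure, through `theta1.symm`. -/
@[instance_reducible]
def algDn1 : Algebra (coverA cc A).R1 (A ⊗[k] cc.B1) := (dn1 cc A).toAlgebra
/-- The reverse structure, through `theta01.symm`. -/
@[instance_reducible]
def algDn01 : Algebra (coverA cc A).R01 (A ⊗[k] cc.B01) := (dn01 cc A).toAlgebra

scoped[Fermat.Agent.Jac.DictCore15] attribute [instance] algUp0 algUp1 algUp01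

attribute [local instance] algDn0 algDn1 algDn01

theorem algebraMap_up0 (x : A ⊗[k] cc.B0) :
    algebraMap (A ⊗[k] cc.B0) (coverA cc A).R0 x = theta0 cc A x := rfl
theorem algebraMap_up1 (x : A ⊗[k] cc.B1) :
    algebraMap (A ⊗[k] cc.B1) (coverA cc A).R1 x = theta1 cc A x := rfl
theorem algebraMap_up01 (x : A ⊗[k] cc.B01) :
    algebraMap (A ⊗[k] cc.B01) (coverA cc A).R01 x = theta01 cc A x := rfl

/-- The cube `tensor rings → section rings` consists of ring isomorphisms. -/
theorem invCube : InvCube (A ⊗[k] cc.B0) (A ⊗[k] cc.B1) (A ⊗[k] cc.B01)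
    (coverA cc A).R0 (coverA cc A).R1 (coverA cc A).R01 where
  left0 x := (theta0 cc A).symm_apply_apply x
  right0 y := (theta0 cc A).apply_symm_apply y
  left1 x := (theta1 cc A).symm_apply_apply x
  right1 y := (theta1 cc A).apply_symm_apply y
  left01 x := (theta01 cc A).symm_apply_apply x
  right01 y := (theta01 cc A).apply_symm_apply y

/-- The face of the cube over the first chart commutes. -/
theorem hc0 : (algebraMap (coverA cc A).R0 (coverA cc A).R01).comp
      (algebraMap (A ⊗[k] cc.B0) (coverA cc A).R0) =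
    (algebraMap (A ⊗[k] cc.B01) (coverA cc A).R01).comp
      (algebraMap (A ⊗[k] cc.B0) (A ⊗[k] cc.B01)) := by
  refine RingHom.ext fun x => ?_
  induction x using TensorProduct.induction_on with
  | zero => simp
  | add x y hx hy => rw [map_add, map_add, hx, hy]
  | tmul a b =>
    simp only [RingHom.comp_apply]
    rw [algebraMap_right_tmul]
    exact (theta01_res0 cc A a b).symm

/-- The face of the cube over the second chart commutes. -/
theorem hc1 : (algebraMap (coverA cc A).R1 (coverA cc A).R01).comp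
      (algebraMap (A ⊗[k] cc.B1) (coverA cc A).R1) =
    (algebraMap (A ⊗[k] cc.B01) (coverA cc A).R01).comp
      (algebraMap (A ⊗[k] cc.B1) (A ⊗[k] cc.B01)) := by
  refine RingHom.ext fun x => ?_
  induction x using TensorProduct.induction_on with
  | zero => simp
  | add x y hx hy => rw [map_add, map_add, hx, hy]
  | tmul a b =>
    simp only [RingHom.comp_apply]
    rw [algebraMap_right_tmul]
    exact (theta01_res1 cc A a b).symm

/-! ### the correspondence -/

/-- **The correspondence** `M ↔ L`: `M` is an invertible sheaf on `C_A`, `L` is a line over the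
tensor rings, and the two-chart module of sections of `M` over the two charts of `C_A` is the
transport (`LiftData`) of `L` along the ring isomorphisms `theta0/theta1/theta01`. -/
def Corr (M : (XA c A).Modules) (L : cc.QCA A) : Prop :=
  Scheme.Modules.IsInvertible M ∧ L.IsLine ∧
    ∃ h : (coverA cc A).IsQC M, Nonempty (LiftData L ((coverA cc A).Gamma2 M h))

variable {cc A}

theorem Corr.isInvertible {M : (XA c A).Modules} {L : cc.QCA A} (h : Corr cc A M L) :
    Scheme.Modules.IsInvertible M := h.1

theorem Corr.isLine {M : (XA c A).Modules} {L : cc.QCA A} (h : Corr cc A M L) : L.IsLine := h.2.1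

theorem Corr.isQC {M : (XA c A).Modules} {L : cc.QCA A} (h : Corr cc A M L) :
    (coverA cc A).IsQC M := h.2.2.1

theorem Corr.nonempty_liftData {M : (XA c A).Modules} {L : cc.QCA A} (h : Corr cc A M L) :
    Nonempty (LiftData L ((coverA cc A).Gamma2 M h.isQC)) := h.2.2.2

/-- Constructor: from a `LiftData` onto the two-chart module of sections. -/
theorem Corr.mk' {M : (XA c A).Modules} {L : cc.QCA A} (hM : Scheme.Modules.IsInvertible M)
    (hL : L.IsLine) (h : (coverA cc A).IsQC M) (d : LiftData L ((coverA cc A).Gamma2 M h)) :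
    Corr cc A M L := ⟨hM, hL, h, ⟨d⟩⟩

/-- Every invertible sheaf on `C_A` has a two-chart module over the tensor rings. -/
theorem exists_line (M : (XA c A).Modules) (hM : Scheme.Modules.IsInvertible M) :
    ∃ L : cc.QCA A, Corr cc A M L := by
  have h : (coverA cc A).IsQC M := TwoCoverGammaLine40.isQC_of_isInvertible (coverA cc A) M hM
  have hG : ((coverA cc A).Gamma2 M h).IsLine :=
    TwoCoverGammaLine40.isLine_gamma2 (coverA cc A) M hM h
  obtain ⟨L, ⟨d⟩⟩ := exists_liftData_of_invCube (A := A) (invCube cc A) (hc0 cc A) (hc1 cc A)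
    ((coverA cc A).Gamma2 M h)
  exact ⟨L, hM, (LiftData.isLine_iff (invCube cc A) (hc0 cc A) (hc1 cc A) d).mpr hG, h, ⟨d⟩⟩

/-- Every line over the tensor rings is the two-chart module of an invertible sheaf on `C_A`. -/
theorem exists_sheaf (L : cc.QCA A) (hL : L.IsLine) : ∃ M : (XA c A).Modules, Corr cc A M L := by
  let L' : QC2 A (coverA cc A).R0 (coverA cc A).R1 (coverA cc A).R01 :=
    bcCube A (hc0 cc A) (hc1 cc A) L
  have d : LiftData L L' := liftData_bcCube (A' := A) (hc0 cc A) (hc1 cc A) L
  have hL' : L'.IsLine := LiftData.isLine d hL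
  refine ⟨TwoCoverSheaf.sheafify (coverA cc A) L', ?_, hL,
    TwoCoverSheaf.sheafify_isQC (coverA cc A) L', ⟨?_⟩⟩
  · exact TwoCoverSheaf.sheafify_isInvertible (coverA cc A) L' hL'
  · exact LiftData.ofIso d (isoSymm (TwoCoverSheaf.sheafifyIso (coverA cc A) L'))

theorem Corr.congr_sheaf {M M' : (XA c A).Modules} {L : cc.QCA A} (h : Corr cc A M L)
    (e : M ≅ M') : Corr cc A M' L := by
  obtain ⟨hM, hL, hq, ⟨d⟩⟩ := h
  have hq' : (coverA cc A).IsQC M' := TwoCover.IsQC.of_iso (coverA cc A) e hq
  exact ⟨ModGlue88.isInvertible_of_iso e hM, hL, hq',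
    ⟨LiftData.ofIso d ((coverA cc A).Gamma2Iso e hq hq')⟩⟩

theorem Corr.congr_line {M : (XA c A).Modules} {L L' : cc.QCA A} (h : Corr cc A M L)
    (i : QC2.Iso L L') : Corr cc A M L' := by
  obtain ⟨hM, hL, hq, ⟨d⟩⟩ := h
  exact ⟨hM, LiftData.isLine (LiftData.ofIso (LiftData.refl L) i) hL, hq,
    ⟨LiftData.congrIso d i⟩⟩

/-- The correspondence is a bijection on isomorphism classes. -/
theorem Corr.iso_iff {M M' : (XA c A).Modules} {L L' : cc.QCA A} (h : Corr cc A M L)
    (h' : Corr cc A M' L') : Nonempty (M ≅ M') ↔ Nonempty (QC2.Iso L L') := by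
  obtain ⟨hM, -, hq, ⟨d⟩⟩ := h
  obtain ⟨hM', -, hq', ⟨d'⟩⟩ := h'
  haveI := AffineDict73.isQuasicoherent_of_isInvertible M hM
  haveI := AffineDict73.isQuasicoherent_of_isInvertible M' hM'
  exact (TwoCoverGammaFull.nonempty_iso_iff (coverA cc A) hq hq').trans
    (LiftData.nonempty_iso_iff (invCube cc A) (hc0 cc A) (hc1 cc A) d d').symm

variable (cc A)

/-- The structure sheaf corresponds to the unit two-chart module. -/
theorem corr_unit :
    Corr cc A (SheafOfModules.unit (XA c A).ringCatSheaf) (QC2.unit (A := A)) :=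
  ⟨Scheme.Modules.isInvertible_unit _, isLine_unit, (coverA cc A).isQC_unit,
    ⟨LiftData.ofIso (LiftData.unit (hc0 cc A) (hc1 cc A))
      (isoSymm (coverA cc A).Gamma2UnitIso)⟩⟩

/-! ### assembling the dictionary -/

/-- **Assembly.**  The dictionary, from the three remaining ingredients: naturality in `A`
(`baseChange`), rigidifiability (`rigidified_iff`) and global functions (`gamma_top`), all stated
for the relation `Corr` of this file. -/
def mkDictionary
    (hbc : ∀ {A A' : Type u} [CommRing A] [Algebra k A] [CommRing A'] [Algebra k A']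
      [Algebra A A'] [IsScalarTower k A A'] {M : (XA c A).Modules} {L : cc.QCA A}
      {L' : cc.QCA A'}, Corr cc A M L → LiftData L L' →
      Corr cc A' ((Scheme.Modules.pullback (bcs c (IsScalarTower.toAlgHom k A A'))).obj M) L')
    (hrig : ∀ {A : Type u} [CommRing A] [Algebra k A] {M : (XA c A).Modules} {L : cc.QCA A},
      Corr cc A M L →
      (Nonempty ((Scheme.Modules.pullback (rigSection c (specStr A) ε)).obj M ≅
        SheafOfModules.unit (Spec (CommRingCat.of A)).ringCatSheaf) ↔ cc.Rigidifiable L))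
    (hgam : ∀ (A : Type u) [CommRing A] [Algebra k A],
      Function.Bijective (secHom (pr2 c A) (⊤ : (XA c A).Opens))) :
    AffineDictionary cc where
  Corr A _ _ M L := Corr cc A M L
  isInvertible h := h.isInvertible
  isLine h := h.isLine
  exists_line M hM := exists_line M hM
  exists_sheaf L hL := exists_sheaf L hL
  congr_sheaf h e := h.congr_sheaf e
  congr_line h i := h.congr_line i
  iso_iff h h' := h.iso_iff h'
  unit A _ _ := corr_unit cc A
  baseChange h d := hbc h d
  rigidified_iff h := hrig h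
  gamma_top A _ _ := hgam A

end Fermat.Agent.Jac.DictCore15
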