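/-
Fermat/Agent/Jac/BridgeSheaf33Hrig.lean  (helper33) -- S25 programme, brick B1b.

`hrig` : the `rigidified_iff` field of the affine dictionary for helper15's relation
`DictCore15.Corr`, in the exact form of the argument `hrig` of `DictCore15.mkDictionary`;
`dictionary_of_hbc` : the dictionary from the remaining ingredient `hbc` (naturality in `A`).
-/
import Mathlib
import Fermat.Agent.Jac.BridgeSheaf33RigFinal
import Fermat.Agent.Jac.DictCore15
import Fermat.Agent.Jac.BridgeSheaf33Top

set_option autoImplicit false
set_option linter.style.haveILetI false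

open CategoryTheory CategoryTheory.Limits AlgebraicGeometry TopologicalSpace Opposite
open NeronModelInfra AlgebraicGeometry.RelPicard TensorProduct
open Fermat.Agent.Jac.TwoCoverGammaSetting Fermat.Agent.Jac.BridgeCharts33

universe u

noncomputable section

namespace Fermat.Agent.Jac.BridgeSheaf33

section Algebra

variable {T R N N' : Type*} [CommRing T] [CommRing R] [Algebra T R] [AddCommGroup N] [Module T N]
  [AddCommGroup N'] [Module R N']

/-- For a bijective algebra map `T → R`, `R ⊗[T] N ≃+ N`, `r ⊗ n ↦ θ⁻¹ r • n`. -/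
def tensorOfBijective (hb : Function.Bijective (algebraMap T R)) : R ⊗[T] N ≃+ N :=
  (tensorSemiEquiv (R := T) (R' := T) (A := R) (A' := T) (N := N) (N' := N) (RingEquiv.refl T)
    (RingEquiv.ofBijective (algebraMap T R) hb).symm (AddEquiv.refl N)
    (fun t => (RingEquiv.ofBijective (algebraMap T R) hb).symm_apply_apply t)
    (fun _ _ => rfl)).trans (TensorProduct.lid T N).toAddEquiv

theorem tensorOfBijective_one_tmul (hb : Function.Bijective (algebraMap T R)) (n : N) :
    tensorOfBijective hb ((1 : R) ⊗ₜ[T] n) = n := by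
  have h1 : (RingEquiv.ofBijective (algebraMap T R) hb).symm 1 = 1 := map_one _
  change (TensorProduct.lid T N) (((RingEquiv.ofBijective (algebraMap T R) hb).symm 1) ⊗ₜ[T] n) = n
  rw [h1, TensorProduct.lid_tmul, one_smul]

/-- From a base-change isomorphism `e : R ⊗[T] N ≃ N'` along a bijective algebra map: the
semilinear identification `N ≃+ N'`, `n ↦ e (1 ⊗ n)`. -/
def semilinearOfEquiv (hb : Function.Bijective (algebraMap T R)) (e : R ⊗[T] N ≃ₗ[R] N') :
    N ≃+ N' :=
  (tensorOfBijective (N := N) hb).symm.trans e.toAddEquiv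

theorem semilinearOfEquiv_apply (hb : Function.Bijective (algebraMap T R))
    (e : R ⊗[T] N ≃ₗ[R] N') (n : N) : semilinearOfEquiv hb e n = e ((1 : R) ⊗ₜ[T] n) := by
  change e ((tensorOfBijective (N := N) hb).symm n) = _
  congr 1
  rw [AddEquiv.symm_apply_eq, tensorOfBijective_one_tmul]

theorem semilinearOfEquiv_smul (hb : Function.Bijective (algebraMap T R))
    (e : R ⊗[T] N ≃ₗ[R] N') (t : T) (n : N) :
    semilinearOfEquiv hb e (t • n) = algebraMap T R t • semilinearOfEquiv hb e n := by
  rw [semilinearOfEquiv_apply, semilinearOfEquiv_apply, ← map_smul, TensorProduct.tmul_smul,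
    TensorProduct.smul_tmul', Algebra.smul_def, mul_one, TensorProduct.smul_tmul', smul_eq_mul,
    mul_one]

end Algebra

section Hrig

open scoped Fermat.Agent.Jac.DictCore15 Fermat.Agent.Jac.BaseChange75
open Fermat.Agent.Jac.JSmooth85Alg

variable {k : Type u} [Field k] {C : Scheme.{u}} {c : C ⟶ Spec (CommRingCat.of k)}
variable {ε : SchemeHomOver (𝟙 (Spec (CommRingCat.of k))) c} (cc : CurveCharts c ε)

/-- **The `rigidified_iff` field of the affine dictionary**, in the exact form of the argument
`hrig` of `DictCore15.mkDictionary`. -/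
theorem hrig {A : Type u} [CommRing A] [Algebra k A] {M : (XA c A).Modules} {L : cc.QCA A}
    (h : DictCore15.Corr cc A M L) :
    (Nonempty ((Scheme.Modules.pullback (rigSection c (specStr A) ε)).obj M ≅
      SheafOfModules.unit (Spec (CommRingCat.of A)).ringCatSheaf) ↔ cc.Rigidifiable L) := by
  obtain ⟨d⟩ := h.nonempty_liftData
  have hb : Function.Bijective (algebraMap (A ⊗[k] cc.B1) (coverA cc A).R1) :=
    (theta1 cc A).bijective
  exact rigidified_iff_rigidMod' cc M h.isInvertible L.N1 (semilinearOfEquiv hb d.e1)
    (fun t n => semilinearOfEquiv_smul hb d.e1 t n)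

end Hrig


section Assemble

open scoped Fermat.Agent.Jac.DictCore15 Fermat.Agent.Jac.BaseChange75
open Fermat.Agent.Jac.JSmooth85Alg

variable {k : Type u} [Field k] {C : Scheme.{u}} {c : C ⟶ Spec (CommRingCat.of k)}
variable {ε : SchemeHomOver (𝟙 (Spec (CommRingCat.of k))) c} (cc : CurveCharts c ε)

/-- The affine dictionary, from the one remaining ingredient `hbc` (naturality in `A`); the fields
`rigidified_iff` and `gamma_top` are `hrig` and `gammaTop_bijective`. -/
def dictionary_of_hbc
    (hbc : ∀ {A A' : Type u} [CommRing A] [Algebra k A] [CommRing A'] [Algebra k A']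
      [Algebra A A'] [IsScalarTower k A A'] {M : (XA c A).Modules} {L : cc.QCA A}
      {L' : cc.QCA A'}, DictCore15.Corr cc A M L → LiftData L L' →
      DictCore15.Corr cc A'
        ((Scheme.Modules.pullback (bcs c (IsScalarTower.toAlgHom k A A'))).obj M) L') :
    AffineDictionary cc :=
  DictCore15.mkDictionary cc hbc (fun h => hrig cc h) (fun A _ _ => BridgeCharts33.gammaTop_bijective cc A)

end Assemble

end Fermat.Agent.Jac.BridgeSheaf33
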