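/-
Fermat/Agent/Jac/BridgeSheaf33R1.lean  (helper33) -- S25 programme.

Brick R1 made unconditional for a curve with charts: `gammaTop_bijective` (field `gamma_top` of the
affine dictionary, `BridgeSheaf33Top`) is exactly helper40's hypothesis `GammaTopAffine c`, hence
helper86's `classesIsSheaf` applies.
-/
import Fermat.Agent.Jac.BridgeSheaf33Top
import Fermat.Agent.Jac.ClassesGlue86.Main

set_option autoImplicit false

open CategoryTheory CategoryTheory.Limits AlgebraicGeometry AlgebraicGeometry.RelPicard
open NeronModelInfra GoodReductionJacobian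

universe u

namespace Fermat.Agent.Jac.BridgeSheaf33

variable {k : Type u} [Field k] {C : Scheme.{u}} {c : C ⟶ Spec (CommRingCat.of k)}
  {ε : SchemeHomOver (𝟙 (Spec (CommRingCat.of k))) c}

/-- `Γ(C_A, 𝒪) = A` for every `k`-algebra `A`, for a curve with charts. -/
theorem gammaTopAffine (cc : CurveCharts c ε) : GammaTopGeneral40.GammaTopAffine c :=
  fun A _ _ => BridgeCharts33.gammaTop_bijective cc A

/-- **R1, unconditional for a curve with charts.** -/
theorem classesIsSheaf_of_curveCharts (cc : CurveCharts c ε) : ClassesIsSheaf c ε :=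
  ClassesGlue86.Main.classesIsSheaf (gammaTopAffine cc)

end Fermat.Agent.Jac.BridgeSheaf33
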