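/-
Programme JAC (S25), helper60, brick R2a piece (HC-U), tensor-ring forms (U1)-(U3) requested by
helper76 (msg 2166): properties of `ConverseDiv60Props.divisorBundle (c0.baseChange A) I0` with the
finiteness / invertibility of `I0` as instance arguments.

* `chi_divisorBundle_tensor` (U1) : fibrewise Euler characteristic `1` for `I0 ∈ HilbV k v A`;
* `liftDataDivisorBundleTensor` (U2) : base change along `A → A'`;
* `rigidifiable_divisorBundle` (U3) : rigidifiable at every point at infinity.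

See `Jac/ConverseDiv60Hilb.lean` for the bundled forms (`hilbBundle`, `hilbObj`, `univObj`).
-/
import Mathlib
import Fermat.Agent.Jac.ConverseDiv60Hilb

set_option autoImplicit false
set_option linter.unusedSectionVars false
set_option linter.style.haveILetI false

open TensorProduct Polynomial

namespace Fermat.Agent.Jac.ConverseDiv60Tensor

open scoped Fermat.Agent.Jac.BaseChange75
open Fermat.Agent.Jac Fermat.Agent.Jac.LineOps39 Fermat.Agent.Jac.JSmooth85Alg
open Fermat.Agent.Jac.BaseChange75 Fermat.Agent.Jac.AlgChart76 Fermat.Agent.Jac.HilbChart87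
open Fermat.Agent.Jac.ConverseDiv60Props

universe u

variable {k : Type u} [Field k] {B0 B1 B01 : Type u} [CommRing B0] [CommRing B1] [CommRing B01]
  [Algebra k B0] [Algebra k B1] [Algebra k B01] [Algebra B0 B01] [Algebra B1 B01]
  [IsScalarTower k B0 B01] [IsScalarTower k B1 B01]
  (c0 : TwoChart k B0 B1 B01)

/-- The fibre of `(A ⊗ B0) ⧸ I0` at any `A`-field has dimension `g`, for `I0` in the Hilbert
chart. -/
theorem finrank_fibre_of_mem_hilbV {g : ℕ} (v : Fin g → B0) (A : Type u) [CommRing A]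
    [Algebra k A] (I0 : Ideal (A ⊗[k] B0)) (hI : I0 ∈ HilbV k v A) (K : Type u) [Field K]
    [Algebra A K] : Module.finrank K (K ⊗[A] ((A ⊗[k] B0) ⧸ I0)) = g := by
  rw [Module.finrank_eq_card_basis ((quotBasis I0 hI).baseChange K), Fintype.card_fin]

/-- (U1a) Fibrewise Euler characteristic of `O(Z(I0))` for a point of the Hilbert chart. -/
theorem chi_divisorBundle_tensor' (hc0 : c0.FiniteProjOverLine) {g : ℕ} (v : Fin g → B0)
    {A : Type u} [CommRing A] [Algebra k A] (I0 : Ideal (A ⊗[k] B0))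
    (hI0 : I0 ∈ HilbV k v A) [Module.Finite A ((A ⊗[k] B0) ⧸ I0)]
    [Module.Invertible (A ⊗[k] B0) I0] (p : PrimeSpectrum A) :
    (divisorBundle (c0.baseChange A) I0).chi p = ChiBC36.chiUnit k B0 B1 B01 + g := by
  haveI : Module.Flat A ((A ⊗[k] B0) ⧸ I0) :=
    have := HilbV.free hI0
    inferInstance
  have key := chiField_divisorBundle_fibre (K := p.asIdeal.ResidueField)
    (square_comm k A p.asIdeal.ResidueField B0 B01)
    (square_comm k A p.asIdeal.ResidueField B1 B01) (c0.baseChange A)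
    (c0.baseChange p.asIdeal.ResidueField)
    (algebraMap_baseChange_s c0 A p.asIdeal.ResidueField)
    (hc0.baseChange p.asIdeal.ResidueField) I0
  show (divisorBundle (c0.baseChange A) I0).chiField p.asIdeal.ResidueField = _
  rw [key, finrank_fibre_of_mem_hilbV v A I0 hI0]
  congr 1
  exact ChiBC36.chi_unit A p

/-- (U1) Fibrewise Euler characteristic `1` of `O(Z(I0))` for a point of the Hilbert chart, when
`χ(O) = 1 - g`. -/
theorem chi_divisorBundle_tensor (hc0 : c0.FiniteProjOverLine) {g : ℕ}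
    (hg : ChiBC36.chiUnit k B0 B1 B01 = 1 - g) (v : Fin g → B0)
    {A : Type u} [CommRing A] [Algebra k A] (I0 : Ideal (A ⊗[k] B0))
    (hI0 : I0 ∈ HilbV k v A) [Module.Finite A ((A ⊗[k] B0) ⧸ I0)]
    [Module.Invertible (A ⊗[k] B0) I0] (p : PrimeSpectrum A) :
    (divisorBundle (c0.baseChange A) I0).chi p = 1 := by
  rw [chi_divisorBundle_tensor' c0 hc0 v I0 hI0 p, hg]
  ring

/-- (U2) Base change of `O(Z(I0))` along `A → A'` over the tensor rings. -/
noncomputable def liftDataDivisorBundleTensor {A A' : Type u} [CommRing A] [CommRing A']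
    [Algebra k A] [Algebra k A'] [Algebra A A'] [IsScalarTower k A A']
    (I0 : Ideal (A ⊗[k] B0)) [Module.Finite A ((A ⊗[k] B0) ⧸ I0)]
    [Module.Flat A ((A ⊗[k] B0) ⧸ I0)] [Module.Invertible (A ⊗[k] B0) I0]
    [Module.Finite A' ((A' ⊗[k] B0) ⧸ I0.map (algebraMap (A ⊗[k] B0) (A' ⊗[k] B0)))]
    [Module.Invertible (A' ⊗[k] B0) (I0.map (algebraMap (A ⊗[k] B0) (A' ⊗[k] B0)))] :
    LiftData (divisorBundle (c0.baseChange A) I0)
      (divisorBundle (c0.baseChange A') (I0.map (algebraMap (A ⊗[k] B0) (A' ⊗[k] B0)))) :=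
  liftDataDivisorBundle (square_comm k A A' B0 B01) (square_comm k A A' B1 B01)
    (c0.baseChange A) (c0.baseChange A') (algebraMap_baseChange_s c0 A A') I0

/-- The instances on the primed side of (U2) follow from those on the unprimed side. -/
theorem finite_quot_map_tensor {A A' : Type u} [CommRing A] [CommRing A']
    [Algebra k A] [Algebra k A'] [Algebra A A'] [IsScalarTower k A A']
    (I0 : Ideal (A ⊗[k] B0)) [Module.Finite A ((A ⊗[k] B0) ⧸ I0)] :
    Module.Finite A' ((A' ⊗[k] B0) ⧸ I0.map (algebraMap (A ⊗[k] B0) (A' ⊗[k] B0))) :=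
  finite_quot_map A A' I0

theorem invertible_map_tensor {A A' : Type u} [CommRing A] [CommRing A']
    [Algebra k A] [Algebra k A'] [Algebra A A'] [IsScalarTower k A A']
    (I0 : Ideal (A ⊗[k] B0)) [Module.Flat A ((A ⊗[k] B0) ⧸ I0)]
    [Module.Invertible (A ⊗[k] B0) I0] :
    Module.Invertible (A' ⊗[k] B0) (I0.map (algebraMap (A ⊗[k] B0) (A' ⊗[k] B0))) :=
  invertible_map A A' I0

/-- (U3) `O(Z(I0))` is rigidifiable at every point at infinity. -/
theorem rigidifiable_divisorBundle (P0 : B1 →ₐ[k] k) (hs : P0 c0.s = 0)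
    {A : Type u} [CommRing A] [Algebra k A] (I0 : Ideal (A ⊗[k] B0))
    [Module.Finite A ((A ⊗[k] B0) ⧸ I0)] [Module.Invertible (A ⊗[k] B0) I0] :
    Rigidifiable P0 (divisorBundle (c0.baseChange A) I0) := by
  have hs' : (evalA P0 A).toRingHom (c0.baseChange A).s = 0 := by
    show evalA P0 A ((1 : A) ⊗ₜ[k] c0.s) = 0
    rw [evalA_tmul, hs, map_zero, mul_zero]
  exact ConverseDiv60Hilb.nonempty_rigid_divisorBundle_hom (c0.baseChange A)
    (evalA P0 A).toRingHom hs' I0

/-- `O(-Z(I0))` is rigidifiable at every point at infinity. -/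
theorem rigidifiable_ofIdeals (P0 : B1 →ₐ[k] k) (hs : P0 c0.s = 0)
    {A : Type u} [CommRing A] [Algebra k A] (I0 : Ideal (A ⊗[k] B0))
    [Module.Finite A ((A ⊗[k] B0) ⧸ I0)] [Module.Invertible (A ⊗[k] B0) I0] :
    Rigidifiable P0 (ofIdeals (c0.baseChange A) (IdealPair.ofChart0 (c0.baseChange A) I0)) := by
  have hs' : (evalA P0 A).toRingHom (c0.baseChange A).s = 0 := by
    show evalA P0 A ((1 : A) ⊗ₜ[k] c0.s) = 0
    rw [evalA_tmul, hs, map_zero, mul_zero]
  exact ConverseDiv60Hilb.nonempty_rigid_ofIdeals_hom (c0.baseChange A)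
    (evalA P0 A).toRingHom hs' I0

/-- The bundled object of `ConverseDiv60Hilb` is the instance-form bundle. -/
theorem hilbBundle_eq [IsAlgClosed k] [Algebra.FiniteType k B0] [IsDedekindDomain B0]
    (hc : c0.FiniteProjOverLine) (ht : Transcendental k c0.t) {g : ℕ} (v : Fin g → B0)
    {A : Type u} [CommRing A] [Algebra k A] (I0 : Ideal (A ⊗[k] B0)) (hI : I0 ∈ HilbV k v A)
    [Module.Finite A ((A ⊗[k] B0) ⧸ I0)] [Module.Invertible (A ⊗[k] B0) I0] :
    ConverseDiv60Hilb.hilbBundle c0 hc ht v A I0 hI = divisorBundle (c0.baseChange A) I0 := rfl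

end Fermat.Agent.Jac.ConverseDiv60Tensor
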