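/-
Fermat/Agent/Jac/ChartTransport40Cut.lean  (helper40)

Brick Q3a of the S25 programme: the rigidified bundle `M₀` on `C × C` glued from two dictionary
lines (`ChartTransport40.exists_rigidified_of_lines`) lies in the Euler-characteristic cut
`ChiDict36.chiCut D hc0` as soon as the two lines have fibrewise Euler characteristic `chi0`.
-/
import Mathlib
import Fermat.Agent.Jac.ChartTransport40
import Fermat.Agent.Jac.ChiDict36

set_option autoImplicit false

open CategoryTheory CategoryTheory.Limits AlgebraicGeometry AlgebraicGeometry.RelPicard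
open NeronModelInfra GoodReductionJacobian TensorProduct

universe u

noncomputable section

namespace Fermat.Agent.Jac.ChartTransport40Cut

open scoped Fermat.Agent.Jac.BaseChange75
open BridgeCharts33 RigidifyShrink40 JSmooth85Alg ChartTransport40 ChiDict36

variable {k : Type u} [Field k] {C : Scheme.{u}} {c : C ⟶ Spec (CommRingCat.of k)}
  {ε : SchemeHomOver (𝟙 (Spec (CommRingCat.of k))) c} {cc : CurveCharts c ε}
  (D : AffineDictionary cc) (hc0 : cc.chart0.FiniteProjOverLine)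

/-- The fibrewise Euler characteristic of a transported dictionary sheaf. -/
theorem chi_trSheaf {A : Type u} [CommRing A] [Algebra k A] {T' : Scheme.{u}}
    {t' : T' ⟶ Spec (CommRingCat.of k)} (v : SchemeHomOver t' (specStr (k := k) A))
    {M : (XA c A).Modules} {L : cc.QCA A} (hC : D.Corr A M L) (y : T') :
    (chiTheory D hc0).chi t' (trSheaf v M) y = L.chi (v.1 y) := by
  have h1 := chiTheory_chi_pullback D hc0 v M (D.isInvertible hC) y
  have h2 := chiTheory_chi_affine D hc0 A M hC (v.1 y)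
  exact h1.trans h2

/-- The fibrewise Euler characteristic can be computed on a neighbourhood, on any sheaf
isomorphic to the restriction. -/
theorem chi_of_local_iso {T : Scheme.{u}} (t : T ⟶ Spec (CommRingCat.of k))
    (M : RigidifiedLineBundle c ε t) (W : T.Opens) (N : (pullback c (W.ι ≫ t)).Modules)
    (e : Nonempty ((restrictOpen M W).L ≅ N)) (y : T) (hy : y ∈ W) :
    (chiTheory D hc0).chi t M.L y = (chiTheory D hc0).chi (W.ι ≫ t) N ⟨y, hy⟩ := by
  have h1 := chiTheory_chi_pullback D hc0 (openIncl t W) M.L M.isInvertible ⟨y, hy⟩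
  have h2 := (chiTheory D hc0).chi_iso (W.ι ≫ t) (restrictOpen M W).L N
    (restrictOpen M W).isInvertible e
  have h3 : (openIncl t W).1 ⟨y, hy⟩ = y := rfl
  rw [h3] at h1
  rw [← h1]
  exact congrFun h2 ⟨y, hy⟩

/-- **Membership in the cut**, from the local description of the glued bundle. -/
theorem mem_chiCut_of_local (M₀ : RigidifiedLineBundle c ε c) {M0 : (XA c cc.B0).Modules}
    {M1 : (XA c cc.B1).Modules} {L0 : cc.QCA cc.B0} {L1 : cc.QCA cc.B1}
    (h0 : D.Corr cc.B0 M0 L0) (h1 : D.Corr cc.B1 M1 L1)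
    (hχ0 : ∀ p : PrimeSpectrum cc.B0, L0.chi p = chi0 cc)
    (hχ1 : ∀ p : PrimeSpectrum cc.B1, L1.chi p = chi0 cc)
    (hloc : ∀ x : C,
      (∃ (W : C.Opens) (hW : W ≤ cc.U0), x ∈ W ∧ Nonempty ((restrictOpen M₀ W).L ≅
        trSheaf (postComp (v0 cc) (openInclLE c hW)) M0)) ∨
      (∃ (W : C.Opens) (hW : W ≤ cc.U1), x ∈ W ∧ Nonempty ((restrictOpen M₀ W).L ≅
        trSheaf (postComp (v1 cc) (openInclLE c hW)) M1))) :
    (chiCut D hc0).P c M₀ := by
  rw [chiCut_iff_chi]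
  intro y
  rcases hloc y with ⟨W, hW, hyW, e⟩ | ⟨W, hW, hyW, e⟩
  · rw [chi_of_local_iso D hc0 c M₀ W _ e y hyW]
    exact (chi_trSheaf D hc0 _ h0 _).trans (hχ0 _)
  · rw [chi_of_local_iso D hc0 c M₀ W _ e y hyW]
    exact (chi_trSheaf D hc0 _ h1 _).trans (hχ1 _)

/-- **The one-point bundle in the cut.**  Two lines `L0` over `B0`, `L1` over `B1` of fibrewise
Euler characteristic `chi0` which become isomorphic after base change to `B01` define a
rigidified line bundle `M₀` on `C × C` over the base `T = C` in the cut `chiCut D hc0`, which is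
locally on the base the transport of the dictionary sheaves of `L0`, `L1`. -/
theorem exists_bundle_in_cut (hS : ClassesIsSheaf c ε) {L0 : cc.QCA cc.B0}
    {L1 : cc.QCA cc.B1} (hL0 : L0.IsLine) (hL1 : L1.IsLine)
    (hχ0 : ∀ p : PrimeSpectrum cc.B0, L0.chi p = chi0 cc)
    (hχ1 : ∀ p : PrimeSpectrum cc.B1, L1.chi p = chi0 cc) {L0' L1' : cc.QCA cc.B01}
    (l0 : LiftData L0 L0') (l1 : LiftData L1 L1') (e : Nonempty (QC2.Iso L0' L1')) :
    ∃ (M0 : (XA c cc.B0).Modules) (M1 : (XA c cc.B1).Modules)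
      (M₀ : RigidifiedLineBundle c ε c), D.Corr cc.B0 M0 L0 ∧ D.Corr cc.B1 M1 L1 ∧
      (chiCut D hc0).P c M₀ ∧ ∀ x : C,
        (∃ (W : C.Opens) (hW : W ≤ cc.U0), x ∈ W ∧ Nonempty ((restrictOpen M₀ W).L ≅
          trSheaf (postComp (v0 cc) (openInclLE c hW)) M0)) ∨
        (∃ (W : C.Opens) (hW : W ≤ cc.U1), x ∈ W ∧ Nonempty ((restrictOpen M₀ W).L ≅
          trSheaf (postComp (v1 cc) (openInclLE c hW)) M1)) := by
  obtain ⟨M0, M1, M₀, h0, h1, hloc⟩ := exists_rigidified_of_lines D hS hL0 hL1 l0 l1 e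
  exact ⟨M0, M1, M₀, h0, h1, mem_chiCut_of_local D hc0 M₀ h0 h1 hχ0 hχ1 hloc, hloc⟩

/-- The same, with the local isomorphisms in the shape
`resLE c hW ((pullback (baseChangeSnd c (v_a cc))).obj M_a)` (the input shape of
`JGroup85EvalPt.lineClassPt_eval_chart0/1`). -/
theorem exists_bundle_in_cut_resLE (hS : ClassesIsSheaf c ε) {L0 : cc.QCA cc.B0}
    {L1 : cc.QCA cc.B1} (hL0 : L0.IsLine) (hL1 : L1.IsLine)
    (hχ0 : ∀ p : PrimeSpectrum cc.B0, L0.chi p = chi0 cc)
    (hχ1 : ∀ p : PrimeSpectrum cc.B1, L1.chi p = chi0 cc) {L0' L1' : cc.QCA cc.B01}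
    (l0 : LiftData L0 L0') (l1 : LiftData L1 L1') (e : Nonempty (QC2.Iso L0' L1')) :
    ∃ (M0 : (XA c cc.B0).Modules) (M1 : (XA c cc.B1).Modules)
      (M₀ : RigidifiedLineBundle c ε c), D.Corr cc.B0 M0 L0 ∧ D.Corr cc.B1 M1 L1 ∧
      (chiCut D hc0).P c M₀ ∧ ∀ x : C,
        (∃ (W : C.Opens) (hW : W ≤ cc.U0), x ∈ W ∧ Nonempty ((restrictOpen M₀ W).L ≅
          resLE c hW ((Scheme.Modules.pullback (baseChangeSnd c (v0 cc))).obj M0))) ∨
        (∃ (W : C.Opens) (hW : W ≤ cc.U1), x ∈ W ∧ Nonempty ((restrictOpen M₀ W).L ≅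
          resLE c hW ((Scheme.Modules.pullback (baseChangeSnd c (v1 cc))).obj M1))) := by
  obtain ⟨M0, M1, M₀, h0, h1, hP, hloc⟩ := exists_bundle_in_cut D hc0 hS hL0 hL1 hχ0 hχ1 l0 l1 e
  refine ⟨M0, M1, M₀, h0, h1, hP, fun x => ?_⟩
  rcases hloc x with ⟨W, hW, hxW, ⟨f⟩⟩ | ⟨W, hW, hxW, ⟨f⟩⟩
  · exact Or.inl ⟨W, hW, hxW, ⟨f ≪≫ (resLETrSheaf c hW (v0 cc) M0).symm⟩⟩
  · exact Or.inr ⟨W, hW, hxW, ⟨f ≪≫ (resLETrSheaf c hW (v1 cc) M1).symm⟩⟩

end Fermat.Agent.Jac.ChartTransport40Cut
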