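/-
Fermat/Agent/Jac/CutAlg79.lean  (helper79)

JAC bricks Q1/Q2, last input: the algebraic description `JGroup85Law.CutAlg` of THE cut of the
programme, `ChiDict36.chiCut D hc0` (helper36), on line two-chart modules:
`cutA A L := ∀ p : PrimeSpectrum A, L.chi p = chi0`.

* `cut_iff`    = `ChiDict36.chiCut_affine_iff` (helper36),
* `tensor_mem`, `inv_mem` = relative degree additivity `DegAdd79Rel.chi_tensor_rel` (helper79),
* `lift_mem`   = invariance of `χ` under base change (`ChiBC36.chi_liftData_tensor`, helper36)
  + `Spec A' → Spec A` is surjective for a nilpotent thickening.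

Consequently `classGroupLaw` and `classLifting` (helper85) hold for the Euler-characteristic cut.
-/
import Mathlib
import Fermat.Agent.Jac.JGroup85Law
import Fermat.Agent.Jac.ChiDict36
import Fermat.Agent.Jac.DegAdd79Rel

set_option autoImplicit false
set_option linter.style.haveILetI false
set_option linter.unusedSectionVars false

noncomputable section

universe u

open CategoryTheory CategoryTheory.Limits AlgebraicGeometry AlgebraicGeometry.RelPicard
  NeronModelInfra GoodReductionJacobian TensorProduct

namespace Fermat.Agent.Jac.CutAlg79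

open scoped Fermat.Agent.Jac.BaseChange75
open PointsBridge79 PointsBridge79Shell BridgeCharts33 JSmooth85Alg BaseChange75 LineOps39

variable {k : Type u} [Field k] {C : Scheme.{u}} {c : C ⟶ Spec (CommRingCat.of k)}
  {ε : SchemeHomOver (𝟙 (Spec (CommRingCat.of k))) c} {cc : CurveCharts c ε}

/-- Geometric integrality of the charts of the curve: all fibre charts are domains. -/
def ChartsGeomIntegral (cc : CurveCharts c ε) : Prop :=
  ∀ (K : Type u) [Field K] [Algebra k K],
    IsDomain (K ⊗[k] cc.B0) ∧ IsDomain (K ⊗[k] cc.B1) ∧ Nontrivial (K ⊗[k] cc.B01)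

/-- Over an algebraically closed field, integral charts are geometrically integral (brick G1). -/
theorem chartsGeomIntegral_of_isAlgClosed [IsAlgClosed k] (cc : CurveCharts c ε)
    [IsDomain cc.B0] [IsDomain cc.B1] [IsDomain cc.B01] : ChartsGeomIntegral cc :=
  fun K _ _ => DegAdd79Rel.hdom_of_isAlgClosed K

/-- Every prime of `A` comes from a prime of a nilpotent thickening quotient `A'`. -/
theorem exists_comap_eq {A A' : Type u} [CommRing A] [CommRing A'] [Algebra A A']
    (hs : Function.Surjective (algebraMap A A'))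
    (hn : IsNilpotent (RingHom.ker (algebraMap A A'))) (p : PrimeSpectrum A) :
    ∃ p' : PrimeSpectrum A', PrimeSpectrum.comap (algebraMap A A') p' = p := by
  have hp : p ∈ Set.range (PrimeSpectrum.comap (algebraMap A A')) := by
    rw [range_comap_of_surjective _ _ hs, PrimeSpectrum.mem_zeroLocus]
    obtain ⟨n, hn⟩ := hn
    have : RingHom.ker (algebraMap A A') ≤ p.asIdeal :=
      Ideal.IsPrime.le_of_pow_le (n := n) (by rw [hn]; exact bot_le)
    exact this
  exact hp

/-- **The algebraic description of the Euler-characteristic cut.** -/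
def chiCutAlg (D : AffineDictionary cc) (hc0 : cc.chart0.FiniteProjOverLine)
    (hdom : ChartsGeomIntegral cc) : JGroup85Law.CutAlg cc D (ChiDict36.chiCut D hc0) where
  cutA A _ _ L := ∀ p : PrimeSpectrum A, L.chi p = ChiDict36.chi0 cc
  cut_iff M L hC := ChiDict36.chiCut_affine_iff D hc0 _ M hC
  tensor_mem {A} _ _ {L M} hL hM _ _ h1 h2 p := by
    rw [DegAdd79Rel.chi_tensor_rel cc.chart0 hc0 hdom hL hM p, h1 p, h2 p, ChiBC36.chi_unit]
    unfold ChiDict36.chi0
    ring
  inv_mem {A} _ _ {L M} hL hM _ _ h1 e p := by
    have h := DegAdd79Rel.chi_tensor_rel cc.chart0 hc0 hdom hL hM p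
    rw [DegAdd79Rel.chi_congr_rel e p, h1 p, ChiBC36.chi_unit] at h
    unfold ChiDict36.chi0 at h ⊢
    linarith
  lift_mem {A A'} _ _ _ _ _ _ hs hn {L L'} _ _ h hcut p := by
    obtain ⟨p', rfl⟩ := exists_comap_eq hs hn p
    rw [← ChiBC36.chi_liftData_tensor A' h p']
    exact hcut p'

/-- **Q2 for the Euler-characteristic cut**: the group law on classes. -/
def classGroupLaw (D : AffineDictionary cc) (hc0 : cc.chart0.FiniteProjOverLine)
    (hdom : ChartsGeomIntegral cc) : ClassGroupLaw (ChiDict36.chiCut D hc0) :=
  JGroup85Law.classGroupLaw D (ChiDict36.chiCut D hc0) (chiCutAlg D hc0 hdom)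

/-- **Q1 for the Euler-characteristic cut**: infinitesimal lifting of classes. -/
theorem classLifting (D : AffineDictionary cc) (hc0 : cc.chart0.FiniteProjOverLine)
    (hdom : ChartsGeomIntegral cc) : ClassLifting (ChiDict36.chiCut D hc0) :=
  JGroup85Law.classLifting D (ChiDict36.chiCut D hc0) (chiCutAlg D hc0 hdom)

end Fermat.Agent.Jac.CutAlg79
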