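/-
Fermat/Agent/Jac/ChartsDomain79.lean  (helper79)

The chart rings `cc.B0`, `cc.B1`, `cc.B01` of a `CurveCharts` on an integral curve are domains;
hence over an algebraically closed field the charts are geometrically integral
(`CutAlg79.ChartsGeomIntegral`), which is the last hypothesis of `CutAlg79.classGroupLaw` /
`CutAlg79.classLifting`.
-/
import Mathlib
import Fermat.Agent.Jac.CutAlg79

set_option autoImplicit false
set_option linter.style.haveILetI false
set_option linter.unusedSectionVars false

noncomputable section

universe u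

open CategoryTheory CategoryTheory.Limits AlgebraicGeometry TopologicalSpace NeronModelInfra

namespace Fermat.Agent.Jac.ChartsDomain79

variable {k : Type u} [Field k] {C : Scheme.{u}} {c : C ⟶ Spec (CommRingCat.of k)}
  {ε : SchemeHomOver (𝟙 (Spec (CommRingCat.of k))) c}

theorem isDomain_B0 (cc : CurveCharts c ε) : IsDomain cc.B0 :=
  (cc.dedekind0).toIsDomain

theorem isDomain_B1 (cc : CurveCharts c ε) : IsDomain cc.B1 :=
  (cc.dedekind1).toIsDomain

/-- A chart with nontrivial ring of functions is nonempty. -/
theorem nonempty_of_nontrivial (U : C.Opens) [Nontrivial Γ(C, U)] : (U : Set C).Nonempty := by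
  by_contra h
  rw [Set.not_nonempty_iff_eq_empty] at h
  have hU : U = ⊥ := by
    ext x
    simp [h]
  subst hU
  exact not_subsingleton Γ(C, ⊥) inferInstance

theorem nonempty_U0 (cc : CurveCharts c ε) : (cc.U0 : Set C).Nonempty :=
  haveI : Nontrivial Γ(C, cc.U0) := (cc.dedekind0).toIsDomain.toNontrivial
  nonempty_of_nontrivial cc.U0

theorem nonempty_U1 (cc : CurveCharts c ε) : (cc.U1 : Set C).Nonempty :=
  haveI : Nontrivial Γ(C, cc.U1) := (cc.dedekind1).toIsDomain.toNontrivial
  nonempty_of_nontrivial cc.U1

theorem isDomain_B01 [IsIntegral C] (cc : CurveCharts c ε) : IsDomain cc.B01 := by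
  have hne : ((cc.U0 ⊓ cc.U1 : C.Opens) : Set C).Nonempty :=
    nonempty_preirreducible_inter cc.U0.isOpen cc.U1.isOpen (nonempty_U0 cc) (nonempty_U1 cc)
  haveI : Nonempty (cc.U0 ⊓ cc.U1 : C.Opens) := hne.to_subtype
  exact (inferInstance : IsDomain Γ(C, cc.U0 ⊓ cc.U1))

/-- **Geometric integrality of the charts** of an integral curve over an algebraically closed
field. -/
theorem chartsGeomIntegral [IsAlgClosed k] [IsIntegral C] (cc : CurveCharts c ε) :
    CutAlg79.ChartsGeomIntegral cc :=
  haveI := isDomain_B0 cc
  haveI := isDomain_B1 cc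
  haveI := isDomain_B01 cc
  CutAlg79.chartsGeomIntegral_of_isAlgClosed cc

/-- **Q2 for the Euler-characteristic cut** on an integral curve over an algebraically closed
field. -/
def classGroupLaw [IsAlgClosed k] [IsIntegral C] {cc : CurveCharts c ε}
    (D : AffineDictionary cc) (hc0 : cc.chart0.FiniteProjOverLine) :
    PointsBridge79Shell.ClassGroupLaw (ChiDict36.chiCut D hc0) :=
  CutAlg79.classGroupLaw D hc0 (chartsGeomIntegral cc)

/-- **Q1 for the Euler-characteristic cut** on an integral curve over an algebraically closed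
field. -/
theorem classLifting [IsAlgClosed k] [IsIntegral C] {cc : CurveCharts c ε}
    (D : AffineDictionary cc) (hc0 : cc.chart0.FiniteProjOverLine) :
    PointsBridge79Shell.ClassLifting (ChiDict36.chiCut D hc0) :=
  CutAlg79.classLifting D hc0 (chartsGeomIntegral cc)

end Fermat.Agent.Jac.ChartsDomain79
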