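/-
Programme JAC (S25), helper60, brick R2a piece (COV helper), requested by helper76 (msg 2570):
for a line bundle `M` over a FIELD `K ⊇ k` on the tensor rings, rigidifiable at a point at
infinity, of Euler characteristic `1`, with `H¹(M(-Q_i)) = 0` for all points at infinity
(`H1Vanish`): `M ≅ O(Z(I0))` for `I0 = sectionIdeal M`, the quotient `(K ⊗ B0) ⧸ I0` is finite
and `dim_K (K ⊗ B0) ⧸ sectionIdeal M = g`, when `χ(O) = 1 - g`.

* `exists_iso_divisorBundle_sectionIdeal` : the packaged structure (finite, invertible, iso);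
* `finrank_quot_sectionIdeal`             : `finrank K ((K ⊗ B0) ⧸ sectionIdeal M) = g`.
-/
import Mathlib
import Fermat.Agent.Jac.Chart43.Concrete
import Fermat.Agent.Jac.ConverseDiv60Tensor

set_option autoImplicit false
set_option linter.unusedSectionVars false
set_option linter.style.haveILetI false

open TensorProduct

namespace Fermat.Agent.Jac.ConverseDiv60Deg

open scoped Fermat.Agent.Jac.BaseChange75
open Fermat.Agent.Jac Fermat.Agent.Jac.LineOps39 Fermat.Agent.Jac.JSmooth85Alg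
open Fermat.Agent.Jac.BaseChange75 Fermat.Agent.Jac.AlgChart76
open Fermat.Agent.Jac.ConverseDiv60Props

universe u

variable {k : Type u} [Field k] {B0 B1 B01 : Type u} [CommRing B0] [CommRing B1] [CommRing B01]
  [Algebra k B0] [Algebra k B1] [Algebra k B01] [Algebra B0 B01] [Algebra B1 B01]
  [IsScalarTower k B0 B01] [IsScalarTower k B1 B01]
  (c0 : TwoChart k B0 B1 B01) {ιInf : Type} (e : ιInf → (B1 →ₐ[k] k))

/-- A `W`-object over any `A` is `O(Z(I0))` for `I0 = sectionIdeal M`, with `I0` invertible and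
`(A ⊗ B0) ⧸ I0` finite over `A`. -/
theorem exists_iso_divisorBundle_sectionIdeal (hc0 : c0.FiniteProjOverLine)
    (hInf : InfData c0 e) (i₀ : ιInf)
    (hB0 : ∀ (K : Type u) [Field K] [Algebra k K], IsDomain (K ⊗[k] B0))
    (hB1 : ∀ (K : Type u) [Field K] [Algebra k K], IsDomain (K ⊗[k] B1))
    {A : Type u} [CommRing A] [Algebra k A] (M : QCA k B0 B1 B01 A) (hM : M.IsLine)
    (hr : Rigidifiable (e i₀) M) (hχ : ∀ p : PrimeSpectrum A, M.chi p = 1)
    (hv : H1Vanish c0 e M) :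
    ∃ (_ : Module.Finite A ((A ⊗[k] B0) ⧸ sectionIdeal M))
      (_ : Module.Invertible (A ⊗[k] B0) (sectionIdeal M)),
      Nonempty (QC2.Iso M (divisorBundle (c0.baseChange A) (sectionIdeal M))) := by
  obtain ⟨-, -, -, σ, -, hcd⟩ :=
    Chart43.stdFam_chart_divisor c0 e hc0 hInf i₀ hB0 hB1 M hM hr hχ hv
  have hI : sectionIdeal M = Chart43.contentIdeal (A ⊗[k] B0) σ.1.1 := hcd.sectionIdeal_eq
  rw [hI]
  obtain ⟨hVB, ⟨f⟩⟩ := hcd.iso
  exact ⟨hcd.finite, hcd.inv0, ⟨f⟩⟩

/-- **Degree of the divisor of a `W`-object over a field**: `dim_K (K ⊗ B0) ⧸ sectionIdeal M = g`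
when `χ(M) = 1` and `χ(O) = 1 - g`. -/
theorem finrank_quot_sectionIdeal (hc0 : c0.FiniteProjOverLine)
    (hInf : InfData c0 e) (i₀ : ιInf)
    (hB0 : ∀ (K : Type u) [Field K] [Algebra k K], IsDomain (K ⊗[k] B0))
    (hB1 : ∀ (K : Type u) [Field K] [Algebra k K], IsDomain (K ⊗[k] B1))
    {g : ℕ} (hg : ChiBC36.chiUnit k B0 B1 B01 = 1 - g)
    {K : Type u} [Field K] [Algebra k K] (M : QCA k B0 B1 B01 K) (hM : M.IsLine)
    (hr : Rigidifiable (e i₀) M) (hχ : ∀ p : PrimeSpectrum K, M.chi p = 1)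
    (hv : H1Vanish c0 e M) :
    Module.finrank K ((K ⊗[k] B0) ⧸ sectionIdeal M) = g := by
  obtain ⟨hfin, hinv, ⟨f⟩⟩ :=
    exists_iso_divisorBundle_sectionIdeal c0 e hc0 hInf i₀ hB0 hB1 M hM hr hχ hv
  have p : PrimeSpectrum K := ⟨⊥, Ideal.isPrime_bot⟩
  have h1 : (divisorBundle (c0.baseChange K) (sectionIdeal M)).chi p = 1 := by
    rw [← ChiBC36.chi_iso f]
    exact hχ p
  rw [ChiBC36.chi_eq_chiField_of_field,
    chiField_divisorBundle (c0.baseChange K) (hc0.baseChange K) (sectionIdeal M),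
    ← ChiBC36.chi_eq_chiField_of_field _ p, ChiBC36.chi_unit K p, hg] at h1
  omega

end Fermat.Agent.Jac.ConverseDiv60Deg
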