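/-
Fermat/Agent/Jac/CurveBaseChange40.lean  (helper40)

Brick C1c of the S25 programme (share of helper40): the `k`-rational points of a curve chart `B`
after base change to an arbitrary field `K` over `k`.

For a `k`-point `q : B →ₐ[k] k` the ideal `ptIdeal K q = ker (K ⊗[k] B → K)` is maximal with
residue field `K`; distinct points give distinct ideals; a nonzero element of a projective module
over `K ⊗[k] B` "vanishes" at only finitely many of them when `B` is a Dedekind domain
(`finiteZeros`): this is the hypothesis `FiniteZeros` of the covering lemma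
(`RiemannCover82.Cover`).
-/
import Mathlib

set_option autoImplicit false

open TensorProduct

noncomputable section

namespace Fermat.Agent.Jac.CurveBaseChange40

section Points

variable {k : Type*} [Field k] (K : Type*) [Field K] [Algebra k K]
  {B : Type*} [CommRing B] [Algebra k B]

/-- Evaluation at a `k`-point of `B`, base changed to `K`: `a ⊗ b ↦ a * q b`. -/
def evK (q : B →ₐ[k] k) : K ⊗[k] B →ₐ[K] K :=
  Algebra.TensorProduct.lift (AlgHom.id K K) ((Algebra.ofId k K).comp q)
    (fun _ _ => Commute.all _ _)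

@[simp]
theorem evK_tmul (q : B →ₐ[k] k) (a : K) (b : B) :
    evK K q (a ⊗ₜ[k] b) = a * algebraMap k K (q b) := by
  simp [evK, Algebra.ofId_apply]

/-- The maximal ideal of `K ⊗[k] B` attached to a `k`-point of `B`. -/
def ptIdeal (q : B →ₐ[k] k) : Ideal (K ⊗[k] B) := RingHom.ker (evK K q)

theorem mem_ptIdeal {q : B →ₐ[k] k} {f : K ⊗[k] B} : f ∈ ptIdeal K q ↔ evK K q f = 0 :=
  Iff.rfl

theorem evK_surjective (q : B →ₐ[k] k) : Function.Surjective (evK K q) := fun a =>
  ⟨a ⊗ₜ 1, by simp⟩

instance ptIdeal_isMaximal (q : B →ₐ[k] k) : (ptIdeal K q).IsMaximal :=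
  RingHom.ker_isMaximal_of_surjective _ (evK_surjective K q)

/-- The residue field at a `k`-point is `K`. -/
theorem algebraMap_quotient_ptIdeal_surjective (q : B →ₐ[k] k) :
    Function.Surjective (algebraMap K ((K ⊗[k] B) ⧸ ptIdeal K q)) := by
  intro y
  obtain ⟨f, rfl⟩ := Ideal.Quotient.mk_surjective y
  refine ⟨evK K q f, ?_⟩
  rw [IsScalarTower.algebraMap_apply K (K ⊗[k] B) ((K ⊗[k] B) ⧸ ptIdeal K q),
    Ideal.Quotient.algebraMap_eq, Ideal.Quotient.eq, mem_ptIdeal, map_sub, AlgHom.commutes]
  simp

theorem one_tmul_sub_mem_ptIdeal (q : B →ₐ[k] k) (b : B) :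
    (1 : K) ⊗ₜ[k] (b - algebraMap k B (q b)) ∈ ptIdeal K q := by
  rw [mem_ptIdeal, evK_tmul]
  simp

/-- Distinct `k`-points give distinct ideals. -/
theorem ptIdeal_injective : Function.Injective (ptIdeal K (k := k) (B := B)) := by
  intro q q' h
  ext b
  have h1 := one_tmul_sub_mem_ptIdeal K q b
  rw [h, mem_ptIdeal, evK_tmul] at h1
  simp only [map_sub, AlgHom.commutes, one_mul] at h1
  have h2 : algebraMap k K (q' b - q b) = 0 := by simpa using h1
  have h3 := (map_eq_zero (algebraMap k K)).mp h2
  exact (sub_eq_zero.mp h3).symm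

/-- The point ideal is the extension of the maximal ideal `ker q` of `B`. -/
theorem ptIdeal_eq_map (q : B →ₐ[k] k) :
    ptIdeal K q =
      (RingHom.ker q).map (Algebra.TensorProduct.includeRight : B →ₐ[k] K ⊗[k] B) := by
  rw [← Algebra.TensorProduct.lTensor_ker (A := K) q (fun a => ⟨algebraMap k B a, q.commutes a⟩)]
  have h : ∀ f : K ⊗[k] B, evK K q f =
      Algebra.TensorProduct.rid k K K (Algebra.TensorProduct.map (AlgHom.id K K) q f) := by
    intro f
    induction f using TensorProduct.induction_on with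
    | zero => simp
    | tmul a b => simp [Algebra.smul_def, mul_comm]
    | add x y hx hy => simp only [map_add, hx, hy]
  ext f
  rw [mem_ptIdeal, h, RingHom.mem_ker, EmbeddingLike.map_eq_zero_iff]
  rfl

theorem infinite_range_ptIdeal [Infinite (B →ₐ[k] k)] :
    (Set.range (ptIdeal K (k := k) (B := B))).Infinite :=
  Set.infinite_range_of_injective (ptIdeal_injective K)

variable {K}

theorem evK_sum_basis {ι : Type*} (ℬ : Module.Basis ι k K) (q : B →ₐ[k] k) (c : ι →₀ B) :
    evK K q (c.sum fun i n => ℬ i ⊗ₜ[k] n) = c.sum fun i n => q n • ℬ i := by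
  rw [Finsupp.sum, map_sum]
  refine Finset.sum_congr rfl fun i _ => ?_
  rw [evK_tmul]
  show _ = q (c i) • ℬ i
  rw [Algebra.smul_def, mul_comm]

/-- Membership in a point ideal can be tested on the coordinates w.r.t. a `k`-basis of `K`. -/
theorem sum_basis_mem_ptIdeal_iff {ι : Type*} (ℬ : Module.Basis ι k K) (q : B →ₐ[k] k)
    (c : ι →₀ B) :
    (c.sum fun i n => ℬ i ⊗ₜ[k] n) ∈ ptIdeal K q ↔ ∀ i, q (c i) = 0 := by
  rw [mem_ptIdeal, evK_sum_basis]
  constructor
  · intro h i
    have h' : (Finsupp.linearCombination k ℬ) (c.mapRange q (map_zero q)) = 0 := by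
      rw [Finsupp.linearCombination_apply, Finsupp.sum_mapRange_index (by simp)]
      exact h
    have := (ℬ.linearIndependent.finsuppLinearCombination_injective
      (by rw [h', map_zero] : Finsupp.linearCombination k ℬ (c.mapRange q (map_zero q)) =
        Finsupp.linearCombination k ℬ 0))
    have hi := DFunLike.congr_fun this i
    simpa using hi
  · intro h
    rw [Finsupp.sum]
    refine Finset.sum_eq_zero fun i _ => ?_
    rw [h i, zero_smul]

/-- A nonzero element of `K ⊗[k] B` has a nonzero "coordinate" in `B` which vanishes at every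
`k`-point where the element vanishes. -/
theorem exists_ne_zero_of_ne_zero {f : K ⊗[k] B} (hf : f ≠ 0) :
    ∃ b : B, b ≠ 0 ∧ ∀ q : B →ₐ[k] k, f ∈ ptIdeal K q → q b = 0 := by
  classical
  let ℬ := Module.Basis.ofVectorSpace k K
  obtain ⟨c, rfl⟩ := TensorProduct.eq_repr_basis_left (N := B) ℬ f
  have hc : c ≠ 0 := by
    rintro rfl
    exact hf (by simp)
  obtain ⟨i, hi⟩ := Finsupp.ne_iff.mp hc
  exact ⟨c i, by simpa using hi, fun q hq => (sum_basis_mem_ptIdeal_iff ℬ q c).mp hq i⟩

end Points

/-! ### Finitely many zeros -/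

section Zeros

variable {k : Type*} [Field k] {B : Type*} [CommRing B] [Algebra k B]

theorem algHom_surjective (q : B →ₐ[k] k) : Function.Surjective q := fun a =>
  ⟨algebraMap k B a, q.commutes a⟩

/-- A `k`-point is determined by its kernel. -/
theorem ker_algHom_injective :
    Function.Injective (fun q : B →ₐ[k] k => RingHom.ker (q : B →+* k)) := by
  intro q q' h
  ext b
  have h1 : b - algebraMap k B (q b) ∈ RingHom.ker (q : B →+* k) := by
    rw [RingHom.mem_ker]; simp
  have h1' : b - algebraMap k B (q b) ∈ RingHom.ker (q' : B →+* k) := by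
    have h' : RingHom.ker (q : B →+* k) = RingHom.ker (q' : B →+* k) := h
    rw [← h']; exact h1
  rw [RingHom.mem_ker] at h1'
  have h2 : q' b - q b = 0 := by simpa using h1'
  exact (sub_eq_zero.mp h2).symm

/-- In a Dedekind domain a nonzero element vanishes at only finitely many `k`-points. -/
theorem finite_setOf_algHom_eq_zero [IsDedekindDomain B] {b : B} (hb : b ≠ 0) :
    {q : B →ₐ[k] k | q b = 0}.Finite := by
  classical
  have hI : Ideal.span {b} ≠ (0 : Ideal B) := by
    rw [Ne, Ideal.zero_eq_bot, Ideal.span_singleton_eq_bot]; exact hb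
  have hfin := Ideal.finite_factors hI
  -- the map `q ↦ ker q` into the height one spectrum
  have hmax : ∀ q : B →ₐ[k] k, (RingHom.ker (q : B →+* k)).IsMaximal := fun q =>
    RingHom.ker_isMaximal_of_surjective _ (algHom_surjective q)
  let v : {q : B →ₐ[k] k | q b = 0} → IsDedekindDomain.HeightOneSpectrum B := fun q =>
    { asIdeal := RingHom.ker ((q : B →ₐ[k] k) : B →+* k)
      isPrime := (hmax q).isPrime
      ne_bot := by
        intro h0
        have hbq : b ∈ RingHom.ker ((q : B →ₐ[k] k) : B →+* k) := q.2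
        rw [h0] at hbq
        exact hb ((Submodule.mem_bot B).mp hbq) }
  have hv : ∀ q, v q ∈ {w : IsDedekindDomain.HeightOneSpectrum B | w.asIdeal ∣ Ideal.span {b}} := by
    intro q
    change RingHom.ker ((q : B →ₐ[k] k) : B →+* k) ∣ Ideal.span {b}
    rw [Ideal.dvd_iff_le, Ideal.span_singleton_le_iff_mem]
    exact q.2
  have hinj : Function.Injective v := by
    intro q q' h
    have h' : RingHom.ker ((q : B →ₐ[k] k) : B →+* k) = RingHom.ker ((q' : B →ₐ[k] k) : B →+* k) :=
      congrArg IsDedekindDomain.HeightOneSpectrum.asIdeal h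
    exact Subtype.ext (ker_algHom_injective h')
  rw [← Set.finite_coe_iff]
  haveI : Finite {w : IsDedekindDomain.HeightOneSpectrum B | w.asIdeal ∣ Ideal.span {b}} :=
    Set.finite_coe_iff.mpr hfin
  exact Finite.of_injective (fun q => (⟨v q, hv q⟩ :
    {w : IsDedekindDomain.HeightOneSpectrum B | w.asIdeal ∣ Ideal.span {b}}))
    (fun q q' h => hinj (congrArg Subtype.val h))

/-- A nonzero element of a projective module is detected by a linear form. -/
theorem exists_dual_ne_zero {R : Type*} [CommRing R] {N : Type*} [AddCommGroup N] [Module R N]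
    [Module.Projective R N] {x : N} (hx : x ≠ 0) : ∃ φ : N →ₗ[R] R, φ x ≠ 0 := by
  obtain ⟨s, hs⟩ := (Module.projective_def' (R := R) (P := N)).mp inferInstance
  by_contra hcon0
  have hcon : ∀ φ : N →ₗ[R] R, φ x = 0 := fun φ => by_contra fun h => hcon0 ⟨φ, h⟩
  apply hx
  have hsx : s x = 0 := by
    ext n
    exact hcon ((Finsupp.lapply n).comp s)
  have := LinearMap.congr_fun hs x
  rw [LinearMap.comp_apply, hsx, map_zero] at this
  exact this.symm

theorem apply_mem_of_mem_smul_top {R : Type*} [CommRing R] {N : Type*} [AddCommGroup N]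
    [Module R N] (φ : N →ₗ[R] R) (m : Ideal R) {x : N}
    (hx : x ∈ m • (⊤ : Submodule R N)) : φ x ∈ m := by
  have h1 : φ x ∈ Submodule.map φ (m • (⊤ : Submodule R N)) := Submodule.mem_map_of_mem hx
  rw [Submodule.map_smul''] at h1
  have h2 : m • Submodule.map φ (⊤ : Submodule R N) ≤ m • (⊤ : Submodule R R) :=
    Submodule.smul_mono le_rfl le_top
  have h3 := h2 h1
  rwa [smul_eq_mul, Ideal.mul_top] at h3

variable (K : Type*) [Field K] [Algebra k K]

/-- A nonzero element of `K ⊗[k] B` lies in only finitely many point ideals. -/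
theorem finite_setOf_mem_ptIdeal [IsDedekindDomain B] {f : K ⊗[k] B} (hf : f ≠ 0) :
    {m ∈ Set.range (ptIdeal K (k := k) (B := B)) | f ∈ m}.Finite := by
  obtain ⟨b, hb, hq⟩ := exists_ne_zero_of_ne_zero hf
  refine ((finite_setOf_algHom_eq_zero (k := k) hb).image (ptIdeal K)).subset ?_
  rintro m ⟨⟨q, rfl⟩, hfm⟩
  exact ⟨q, hq q hfm, rfl⟩

/-- **FiniteZeros.** A nonzero element of a projective module over `K ⊗[k] B` (`B` a Dedekind
domain) vanishes at only finitely many `k`-rational points. -/
theorem finiteZeros [IsDedekindDomain B] (N : Type*) [AddCommGroup N]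
    [Module (K ⊗[k] B) N] [Module.Projective (K ⊗[k] B) N] {x : N} (hx : x ≠ 0) :
    {m ∈ Set.range (ptIdeal K (k := k) (B := B)) |
      x ∈ m • (⊤ : Submodule (K ⊗[k] B) N)}.Finite := by
  obtain ⟨φ, hφ⟩ := exists_dual_ne_zero (R := K ⊗[k] B) hx
  refine (finite_setOf_mem_ptIdeal K hφ).subset ?_
  rintro m ⟨hm, hxm⟩
  exact ⟨hm, apply_mem_of_mem_smul_top φ m hxm⟩

end Zeros

end Fermat.Agent.Jac.CurveBaseChange40
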