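/-
Programme JAC (S25), brick C1c (CurveBaseChange), part 2 (helper98).

Inputs of the covering lemma (`RiemannCover82.Cover.exists_twist_points`) for the base change
`c0.baseChange K` of a two-chart curve `c0` over an algebraically closed field `k` to an
arbitrary field `K` over `k`:

* `Pts := Set.range (CurveBaseChange40.ptIdeal K)` (helper40's point ideals `K ⊗ m_Q`) is infinite;
* every member of `Pts` is a `GoodPoint` of `c0.baseChange K`;
* `FiniteZeros Pts` (helper40).

Hypotheses on the first chart `B0`: finite type over `k`, Dedekind domain, not a field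
(all provided by C1: `CurveLocal98Dedekind` / `CurveLocal`).
-/
import Fermat.Agent.Jac.CurveBaseChange98Point
import Fermat.Agent.Jac.CurveBaseChange40
import Fermat.Agent.Jac.RiemannCover82.Cover
import Fermat.Agent.Jac.LineOps39.PatchInvertible
import Fermat.Agent.Jac.BaseChange75.Rings

set_option autoImplicit false

universe u

open TensorProduct

open scoped Fermat.Agent.Jac.BaseChange75

namespace Fermat.Agent.Jac.CurveBaseChange98Good

open Fermat.Agent.Jac.CurveBaseChange98Point Fermat.Agent.Jac.CurveBaseChange40
  Fermat.Agent.Jac.RiemannCover82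

/-! ### Ring level -/

section Ring

variable (k : Type*) [Field k] [IsAlgClosed k] (B : Type*) [CommRing B] [Algebra k B]
  [Algebra.FiniteType k B]

/-- A finite type domain over an algebraically closed field which is not a field has infinitely
many `k`-points. -/
theorem infinite_algHom [IsDomain B] (hB : ¬ IsField B) : Infinite (B →ₐ[k] k) := by
  have := CurveLocal98Dedekind.infinite_maximalSpectrum k B hB
  let f : (B →ₐ[k] k) → MaximalSpectrum B := fun q =>
    ⟨RingHom.ker q, RingHom.ker_isMaximal_of_surjective q (algHom_surjective q)⟩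
  refine Infinite.of_surjective f ?_
  intro m
  have := m.isMaximal
  obtain ⟨Q, hQ⟩ := exists_point_of_isMaximal k B m.asIdeal
  exact ⟨Q, MaximalSpectrum.ext hQ⟩

variable (K : Type*) [Field K] [Algebra k K]

omit [IsAlgClosed k] [Algebra.FiniteType k B] in
theorem ptIdeal_eq_extIdeal (q : B →ₐ[k] k) :
    ptIdeal K q = extIdeal k K (RingHom.ker q) :=
  ptIdeal_eq_map K q

omit [IsAlgClosed k] [Algebra.FiniteType k B] in
/-- helper40's point ideals are invertible modules (`B` Dedekind, not a field). -/
theorem invertible_ptIdeal [IsDedekindDomain B] (hB : ¬ IsField B) (q : B →ₐ[k] k) :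
    Module.Invertible (K ⊗[k] B) (ptIdeal K q) := by
  have hmax : (RingHom.ker q).IsMaximal :=
    RingHom.ker_isMaximal_of_surjective q (algHom_surjective q)
  have hm0 : RingHom.ker q ≠ ⊥ := by
    intro h0
    apply hB
    rw [Ring.isField_iff_maximal_bot, ← h0]
    exact hmax
  have := invertible_of_ne_bot (RingHom.ker q) hm0
  rw [ptIdeal_eq_extIdeal]
  exact invertible_extIdeal K (RingHom.ker q)

/-- The set of point ideals is infinite. -/
theorem infinite_pts [IsDomain B] (hB : ¬ IsField B) :
    (Set.range (ptIdeal K (k := k) (B := B))).Infinite := by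
  have := infinite_algHom k B hB
  exact infinite_range_ptIdeal K

end Ring

/-! ### Two-chart level -/

section TwoChart

variable {k : Type u} [Field k] [IsAlgClosed k] {B0 B1 B01 : Type u} [CommRing B0] [CommRing B1]
  [CommRing B01] [Algebra k B0] [Algebra k B1] [Algebra k B01] [Algebra B0 B01] [Algebra B1 B01]
  [IsScalarTower k B0 B01] [IsScalarTower k B1 B01]
  (c0 : TwoChart k B0 B1 B01) (K : Type u) [Field K] [Algebra k K]

omit [IsAlgClosed k] in
/-- Every `k`-point of the first chart gives a good point of the base-changed curve. -/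
theorem goodPoint_ptIdeal [IsDedekindDomain B0] (hB : ¬ IsField B0) (q : B0 →ₐ[k] k) :
    Step.GoodPoint (c0.baseChange K) (ptIdeal K q) := by
  have hrat := algebraMap_quotient_ptIdeal_surjective K q
  have h0 : Module.Invertible (K ⊗[k] B0) (ptIdeal K q) := invertible_ptIdeal k B0 K hB q
  obtain ⟨a, ha⟩ := Step.exists_const_sub_mem (ptIdeal K q) hrat (c0.baseChange K).t
  exact
    { isMaximal := ptIdeal_isMaximal K q
      rational := hrat
      inv0 := h0
      inv1 := LineOps39.invertible_ofChart0_I1 (c0.baseChange K) (ptIdeal K q) h0 a ha }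

omit [IsAlgClosed k] in
theorem goodPoint_of_mem [IsDedekindDomain B0] (hB : ¬ IsField B0) :
    ∀ m ∈ Set.range (ptIdeal K (k := k) (B := B0)), Step.GoodPoint (c0.baseChange K) m := by
  rintro _ ⟨q, rfl⟩
  exact goodPoint_ptIdeal c0 K hB q

omit [IsAlgClosed k] in
/-- helper40's finiteness of zeros, in the shape of `Cover.FiniteZeros`. -/
theorem finiteZeros_pts [IsDedekindDomain B0] :
    Cover.FiniteZeros (R0 := K ⊗[k] B0) (Set.range (ptIdeal K (k := k) (B := B0))) := by
  intro N _ _ _ x hx
  exact finiteZeros K N hx

/-- **All inputs of the covering lemma** for `c0.baseChange K`. -/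
theorem covering_inputs [Algebra.FiniteType k B0] [IsDedekindDomain B0] (hB : ¬ IsField B0) :
    (Set.range (ptIdeal K (k := k) (B := B0))).Infinite ∧
      (∀ m ∈ Set.range (ptIdeal K (k := k) (B := B0)), Step.GoodPoint (c0.baseChange K) m) ∧
      Cover.FiniteZeros (R0 := K ⊗[k] B0) (Set.range (ptIdeal K (k := k) (B := B0))) :=
  ⟨infinite_pts k B0 K hB, goodPoint_of_mem c0 K hB, finiteZeros_pts K⟩

end TwoChart

end Fermat.Agent.Jac.CurveBaseChange98Good
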