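/-
Programme JAC (S25), brick C1c (CurveBaseChange), part 3 (helper98).

Rational point pairs of the base-changed two-chart curve `c0.baseChange K` coming from `k`-points
of either chart of `c0`, with invertibility of both ideals: the inputs `hD`, `hD0`, `hD1` of
`Cover12.FieldCover.exists_cover` (points at infinity `D i = ofChart1 (ptIdeal K (e i))`).
-/
import Fermat.Agent.Jac.CurveBaseChange98Good
import Fermat.Agent.Jac.AbelJacobi73.ChiK

set_option autoImplicit false

universe u

open TensorProduct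

open scoped Fermat.Agent.Jac.BaseChange75

namespace Fermat.Agent.Jac.CurveBaseChange98Infty

open Fermat.Agent.Jac.CurveBaseChange98Point Fermat.Agent.Jac.CurveBaseChange40
  Fermat.Agent.Jac.CurveBaseChange98Good Fermat.Agent.Jac.RiemannCover82
  Fermat.Agent.Jac.LineOps39

variable {k : Type u} [Field k] {B0 B1 B01 : Type u} [CommRing B0] [CommRing B1]
  [CommRing B01] [Algebra k B0] [Algebra k B1] [Algebra k B01] [Algebra B0 B01] [Algebra B1 B01]
  [IsScalarTower k B0 B01] [IsScalarTower k B1 B01]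
  (c0 : TwoChart k B0 B1 B01) (K : Type u) [Field K] [Algebra k K]

/-- A `k`-point of chart 0 gives a rational point pair of the base-changed curve. -/
theorem isRatPointPair_ofChart0 (q : B0 →ₐ[k] k) :
    AbelJacobi73.IsRatPointPair (c0.baseChange K)
      (IdealPair.ofChart0 (c0.baseChange K) (ptIdeal K q)) :=
  Or.inl ⟨ptIdeal K q, ptIdeal_isMaximal K q, algebraMap_quotient_ptIdeal_surjective K q, rfl⟩

/-- A `k`-point of chart 1 gives a rational point pair of the base-changed curve. -/
theorem isRatPointPair_ofChart1 (e : B1 →ₐ[k] k) :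
    AbelJacobi73.IsRatPointPair (c0.baseChange K)
      (IdealPair.ofChart1 (c0.baseChange K) (ptIdeal K e)) :=
  Or.inr ⟨ptIdeal K e, ptIdeal_isMaximal K e, algebraMap_quotient_ptIdeal_surjective K e, rfl⟩

/-- Chart-0 pair: both ideals invertible. -/
theorem invertible_ofChart0 [IsDedekindDomain B0] (hB0 : ¬ IsField B0) (q : B0 →ₐ[k] k) :
    Module.Invertible (K ⊗[k] B0) (IdealPair.ofChart0 (c0.baseChange K) (ptIdeal K q)).I0 ∧
      Module.Invertible (K ⊗[k] B1) (IdealPair.ofChart0 (c0.baseChange K) (ptIdeal K q)).I1 :=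
  ⟨(goodPoint_ptIdeal c0 K hB0 q).inv0, (goodPoint_ptIdeal c0 K hB0 q).inv1⟩

/-- Chart-1 pair (e.g. a point at infinity): both ideals invertible. -/
theorem invertible_ofChart1 [IsDedekindDomain B1] (hB1 : ¬ IsField B1) (e : B1 →ₐ[k] k) :
    Module.Invertible (K ⊗[k] B0) (IdealPair.ofChart1 (c0.baseChange K) (ptIdeal K e)).I0 ∧
      Module.Invertible (K ⊗[k] B1) (IdealPair.ofChart1 (c0.baseChange K) (ptIdeal K e)).I1 := by
  have hrat := algebraMap_quotient_ptIdeal_surjective K e
  have h1 : Module.Invertible (K ⊗[k] B1) (ptIdeal K e) := invertible_ptIdeal k B1 K hB1 e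
  obtain ⟨a, ha⟩ := Step.exists_const_sub_mem (ptIdeal K e) hrat (c0.baseChange K).s
  exact ⟨LineOps39.invertible_ofChart1_I0 (c0.baseChange K) (ptIdeal K e) h1 a ha, h1⟩

/-- **Inputs `hD`, `hD0`, `hD1` of `Cover12.FieldCover.exists_cover`** for a family of `k`-points
of chart 1. -/
theorem pairs_ofChart1 [IsDedekindDomain B1] (hB1 : ¬ IsField B1) {ι : Type*}
    (e : ι → (B1 →ₐ[k] k)) :
    (∀ i, AbelJacobi73.IsRatPointPair (c0.baseChange K)
        (IdealPair.ofChart1 (c0.baseChange K) (ptIdeal K (e i)))) ∧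
      (∀ i, Module.Invertible (K ⊗[k] B0)
        (IdealPair.ofChart1 (c0.baseChange K) (ptIdeal K (e i))).I0) ∧
      (∀ i, Module.Invertible (K ⊗[k] B1)
        (IdealPair.ofChart1 (c0.baseChange K) (ptIdeal K (e i))).I1) :=
  ⟨fun i => isRatPointPair_ofChart1 c0 K (e i),
    fun i => (invertible_ofChart1 c0 K hB1 (e i)).1,
    fun i => (invertible_ofChart1 c0 K hB1 (e i)).2⟩

/-- The same for a family of `k`-points of chart 0. -/
theorem pairs_ofChart0 [IsDedekindDomain B0] (hB0 : ¬ IsField B0) {ι : Type*}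
    (q : ι → (B0 →ₐ[k] k)) :
    (∀ i, AbelJacobi73.IsRatPointPair (c0.baseChange K)
        (IdealPair.ofChart0 (c0.baseChange K) (ptIdeal K (q i)))) ∧
      (∀ i, Module.Invertible (K ⊗[k] B0)
        (IdealPair.ofChart0 (c0.baseChange K) (ptIdeal K (q i))).I0) ∧
      (∀ i, Module.Invertible (K ⊗[k] B1)
        (IdealPair.ofChart0 (c0.baseChange K) (ptIdeal K (q i))).I1) :=
  ⟨fun i => isRatPointPair_ofChart0 c0 K (q i),
    fun i => (invertible_ofChart0 c0 K hB0 (q i)).1,
    fun i => (invertible_ofChart0 c0 K hB0 (q i)).2⟩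

end Fermat.Agent.Jac.CurveBaseChange98Infty
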