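/-
Programme JAC (S25), brick C1 CurveLocal: umbrella file.
-/
import Fermat.Agent.Jac.CurveLocal.Cotangent
import Fermat.Agent.Jac.CurveLocal.Dedekind
import Fermat.Agent.Jac.CurveLocal.Stalk
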