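/-
JAC programme, brick G1 (helper36): ring-level core.

Over an algebraically closed field `k`, the tensor product of a `k`-algebra domain with a field
extension (more generally with another `k`-algebra domain) is again a domain.
Mathlib only.
-/
import Mathlib

set_option autoImplicit false

namespace Fermat.Agent.Jac.GeomInt36Ring

open TensorProduct

section Points

variable {k : Type*} [Field k] [IsAlgClosed k]

/-- In a reduced algebra of finite type over an algebraically closed field, `k`-points separate
elements from zero. -/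
theorem exists_algHom_ne_zero {A : Type*} [CommRing A] [Algebra k A] [Algebra.FiniteType k A]
    [IsReduced A] {a : A} (ha : a ≠ 0) : ∃ φ : A →ₐ[k] k, φ a ≠ 0 := by
  have : IsJacobsonRing A := isJacobsonRing_of_finiteType (A := k)
  have hjac : Ideal.jacobson (⊥ : Ideal A) = ⊥ :=
    IsJacobsonRing.out ‹_› Ideal.isRadical_bot
  have hnot : a ∉ Ideal.jacobson (⊥ : Ideal A) := by
    rw [hjac]; simpa using ha
  rw [Ideal.jacobson, Ideal.mem_sInf] at hnot
  push Not at hnot
  obtain ⟨m, ⟨-, hm⟩, ham⟩ := hnot
  have := hm
  let _ : Field (A ⧸ m) := Ideal.Quotient.field m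
  have : Algebra.FiniteType k (A ⧸ m) :=
    Algebra.FiniteType.of_surjective (Ideal.Quotient.mkₐ k m) (Ideal.Quotient.mkₐ_surjective k m)
  have : Module.Finite k (A ⧸ m) := finite_of_finite_type_of_isJacobsonRing k (A ⧸ m)
  have : Algebra.IsIntegral k (A ⧸ m) := Algebra.IsIntegral.of_finite k (A ⧸ m)
  have hbij : Function.Bijective (algebraMap k (A ⧸ m)) :=
    IsAlgClosed.algebraMap_bijective_of_isIntegral
  let e : k ≃ₐ[k] (A ⧸ m) := AlgEquiv.ofBijective (Algebra.ofId k (A ⧸ m)) hbij
  refine ⟨(e.symm : (A ⧸ m) →ₐ[k] k).comp (Ideal.Quotient.mkₐ k m), ?_⟩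
  intro h0
  apply ham
  have : (Ideal.Quotient.mkₐ k m) a = 0 := by
    have h1 : e.symm ((Ideal.Quotient.mkₐ k m) a) = 0 := h0
    simpa using congrArg e h1
  exact Ideal.Quotient.eq_zero_iff_mem.mp this

end Points

section Tensor

variable {k : Type*} [Field k]

/-- evaluation of the left factor at a `k`-point. -/
noncomputable def evalLeft {A : Type*} [CommRing A] [Algebra k A] (K : Type*) [CommRing K]
    [Algebra k K] (φ : A →ₐ[k] k) : A ⊗[k] K →ₐ[k] K :=
  (Algebra.TensorProduct.lid k K : k ⊗[k] K →ₐ[k] K).comp
    (Algebra.TensorProduct.map φ (AlgHom.id k K))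

@[simp]
theorem evalLeft_tmul {A : Type*} [CommRing A] [Algebra k A] {K : Type*} [CommRing K]
    [Algebra k K] (φ : A →ₐ[k] k) (a : A) (c : K) : evalLeft K φ (a ⊗ₜ c) = φ a • c := by
  simp [evalLeft]

theorem repr_evalLeft {A : Type*} [CommRing A] [Algebra k A] {K : Type*} [CommRing K]
    [Algebra k K] {ι : Type*} (b : Module.Basis ι k K) (φ : A →ₐ[k] k) (x : A ⊗[k] K) (i : ι) :
    b.repr (evalLeft K φ x) i = φ ((Algebra.TensorProduct.basis A b).repr x i) := by
  induction x using TensorProduct.induction_on with
  | zero => simp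
  | tmul a c =>
    simp
  | add x y hx hy => simp [hx, hy]

variable [IsAlgClosed k]

/-- Finite type case. -/
theorem noZeroDivisors_tensor_of_finiteType {A : Type*} [CommRing A] [Algebra k A] [IsDomain A]
    [Algebra.FiniteType k A] (K : Type*) [Field K] [Algebra k K] :
    NoZeroDivisors (A ⊗[k] K) := by
  refine ⟨fun {x y} hxy => ?_⟩
  by_contra hne
  push Not at hne
  obtain ⟨hx, hy⟩ := hne
  let b := Module.Basis.ofVectorSpace k K
  let B := Algebra.TensorProduct.basis A b
  have hx' : B.repr x ≠ 0 := fun h => hx (B.repr.map_eq_zero_iff.mp h)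
  have hy' : B.repr y ≠ 0 := fun h => hy (B.repr.map_eq_zero_iff.mp h)
  obtain ⟨i, hi⟩ := Finsupp.ne_iff.mp hx'
  obtain ⟨j, hj⟩ := Finsupp.ne_iff.mp hy'
  simp only [Finsupp.coe_zero, Pi.zero_apply] at hi hj
  obtain ⟨φ, hφ⟩ := exists_algHom_ne_zero (k := k) (mul_ne_zero hi hj)
  rw [map_mul] at hφ
  have h1 : evalLeft K φ x ≠ 0 := by
    intro h0
    have := repr_evalLeft b φ x i
    rw [h0] at this
    simp at this
    exact (mul_ne_zero_iff.mp hφ).1 this.symm
  have h2 : evalLeft K φ y ≠ 0 := by
    intro h0
    have := repr_evalLeft b φ y j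
    rw [h0] at this
    simp at this
    exact (mul_ne_zero_iff.mp hφ).2 this.symm
  apply mul_ne_zero h1 h2
  rw [← map_mul, hxy, map_zero]

omit [IsAlgClosed k] in
/-- The base change of the inclusion of a subalgebra. -/
theorem subalgebra_map_injective {A : Type*} [CommRing A] [Algebra k A] (K : Type*) [CommRing K]
    [Algebra k K] (A' : Subalgebra k A) :
    Function.Injective (Algebra.TensorProduct.map A'.val (AlgHom.id k K)) := by
  have h := TensorProduct.map_injective_of_flat_flat (R := k) A'.val.toLinearMap
    (LinearMap.id : K →ₗ[k] K) Subtype.val_injective Function.injective_id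
  intro x y hxy
  apply h
  have hx : ∀ z : A' ⊗[k] K, TensorProduct.map A'.val.toLinearMap (LinearMap.id : K →ₗ[k] K) z
      = Algebra.TensorProduct.map A'.val (AlgHom.id k K) z := by
    intro z
    induction z using TensorProduct.induction_on with
    | zero => simp
    | tmul a c => simp
    | add x y hx hy => simp [hx, hy]
  rw [hx, hx, hxy]

omit [IsAlgClosed k] in
theorem range_map_mono {A : Type*} [CommRing A] [Algebra k A] (K : Type*) [CommRing K]
    [Algebra k K] {A' A'' : Subalgebra k A} (h : A' ≤ A'') :
    (Algebra.TensorProduct.map A'.val (AlgHom.id k K)).range ≤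
      (Algebra.TensorProduct.map A''.val (AlgHom.id k K)).range := by
  rintro _ ⟨z, rfl⟩
  refine ⟨Algebra.TensorProduct.map (Subalgebra.inclusion h) (AlgHom.id k K) z, ?_⟩
  induction z using TensorProduct.induction_on with
  | zero => simp
  | tmul a c => simp
  | add x y hx hy =>
    simp only [map_add] at hx hy ⊢
    rw [hx, hy]

omit [IsAlgClosed k] in
theorem exists_finset_mem_range {A : Type*} [CommRing A] [Algebra k A] (K : Type*) [CommRing K]
    [Algebra k K] (z : A ⊗[k] K) : ∃ S : Finset A,
      z ∈ (Algebra.TensorProduct.map (Algebra.adjoin k (S : Set A)).val (AlgHom.id k K)).range := by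
  classical
  induction z using TensorProduct.induction_on with
  | zero => exact ⟨∅, Subalgebra.zero_mem _⟩
  | tmul a c =>
    refine ⟨{a}, ⟨(⟨a, Algebra.subset_adjoin (by simp)⟩ : Algebra.adjoin k _) ⊗ₜ c, by simp⟩⟩
  | add x y hx hy =>
    obtain ⟨S, hS⟩ := hx
    obtain ⟨T, hT⟩ := hy
    refine ⟨S ∪ T, Subalgebra.add_mem _ ?_ ?_⟩
    · exact range_map_mono K (Algebra.adjoin_mono (by simp)) hS
    · exact range_map_mono K (Algebra.adjoin_mono (by simp)) hT

/-- **Domain ⊗ field over an algebraically closed field has no zero divisors.** -/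
theorem noZeroDivisors_tensor {A : Type*} [CommRing A] [Algebra k A] [IsDomain A]
    (K : Type*) [Field K] [Algebra k K] : NoZeroDivisors (A ⊗[k] K) := by
  classical
  refine ⟨fun {x y} hxy => ?_⟩
  obtain ⟨S, hS⟩ := exists_finset_mem_range K x
  obtain ⟨T, hT⟩ := exists_finset_mem_range K y
  let A' : Subalgebra k A := Algebra.adjoin k ((S ∪ T : Finset A) : Set A)
  have hx : x ∈ (Algebra.TensorProduct.map A'.val (AlgHom.id k K)).range :=
    range_map_mono K (Algebra.adjoin_mono (by simp)) hS
  have hy : y ∈ (Algebra.TensorProduct.map A'.val (AlgHom.id k K)).range :=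
    range_map_mono K (Algebra.adjoin_mono (by simp)) hT
  obtain ⟨x', rfl⟩ := hx
  obtain ⟨y', rfl⟩ := hy
  have : Algebra.FiniteType k A' :=
    (Subalgebra.fg_iff_finiteType A').mp (Subalgebra.fg_adjoin_finset _)
  have hnzd := noZeroDivisors_tensor_of_finiteType (k := k) (A := A') K
  have hinj := subalgebra_map_injective K A'
  rw [← map_mul] at hxy
  have h0 : x' * y' = 0 := hinj (hxy.trans (map_zero _).symm)
  rcases mul_eq_zero.mp h0 with h | h
  · left; rw [h]; exact map_zero _
  · right; rw [h]; exact map_zero _

/-- **Domain ⊗ field over an algebraically closed field is a domain.** -/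
theorem isDomain_tensor_field {A : Type*} [CommRing A] [Algebra k A] [IsDomain A]
    (K : Type*) [Field K] [Algebra k K] : IsDomain (A ⊗[k] K) := by
  have := noZeroDivisors_tensor (k := k) (A := A) K
  have : Nontrivial (A ⊗[k] K) :=
    (Algebra.TensorProduct.includeLeft_injective (R := k) (S := k) (A := A) (B := K)
      (algebraMap k K).injective).nontrivial
  exact NoZeroDivisors.to_isDomain _

/-- **Tensor product of two domains over an algebraically closed field is a domain.** -/
theorem isDomain_tensor {A B : Type*} [CommRing A] [Algebra k A] [IsDomain A]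
    [CommRing B] [Algebra k B] [IsDomain B] : IsDomain (A ⊗[k] B) := by
  let K := FractionRing B
  have := isDomain_tensor_field (k := k) (A := A) K
  let f : A ⊗[k] B →ₐ[k] A ⊗[k] K :=
    Algebra.TensorProduct.map (AlgHom.id k A) (IsScalarTower.toAlgHom k B K)
  have hf : Function.Injective f := by
    have h := TensorProduct.map_injective_of_flat_flat' (R := k) (LinearMap.id : A →ₗ[k] A)
      (IsScalarTower.toAlgHom k B K).toLinearMap Function.injective_id
      (IsFractionRing.injective B K)
    intro x y hxy
    apply h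
    have hx : ∀ z : A ⊗[k] B, TensorProduct.map (LinearMap.id : A →ₗ[k] A)
        (IsScalarTower.toAlgHom k B K).toLinearMap z = f z := by
      intro z
      induction z using TensorProduct.induction_on with
      | zero => simp
      | tmul a c => simp [f]
      | add x y hx hy => simp only [map_add, hx, hy]
    rw [hx, hx, hxy]
  have : Nontrivial (A ⊗[k] B) :=
    (Algebra.TensorProduct.includeLeft_injective (R := k) (S := k) (A := A) (B := B)
      (algebraMap k B).injective).nontrivial
  have : NoZeroDivisors (A ⊗[k] B) := hf.noZeroDivisors f (map_zero f) (map_mul f)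
  exact NoZeroDivisors.to_isDomain _

end Tensor

end Fermat.Agent.Jac.GeomInt36Ring
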