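/-
JAC programme, brick G1 (helper36): scheme-level.

An integral scheme over an algebraically closed field is geometrically integral
(hence geometrically irreducible / connected / reduced).  Mathlib only
(+ the ring-level core `GeomInt36Ring`).
-/
import Mathlib
import Fermat.Agent.Jac.GeomInt36Ring

set_option autoImplicit false

namespace Fermat.Agent.Jac.GeomInt36Scheme

open CategoryTheory Limits AlgebraicGeometry TensorProduct

universe u

section General

/-- `IsIntegral` is closed under isomorphisms (missing Mathlib instance). -/
theorem isClosedUnderIsomorphisms_isIntegral :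
    ObjectProperty.IsClosedUnderIsomorphisms (C := Scheme.{u}) IsIntegral :=
  ⟨fun {X Y} e hX => by
    have : IsIntegral X := hX
    exact IsIntegral.of_isIso e.hom⟩

/-- Fibre product of an integral scheme with a geometrically integral, flat, universally open
morphism is integral (no noetherian hypothesis). -/
theorem isIntegral_pullback_of_geometricallyIntegral {X Y S : Scheme.{u}} (f : X ⟶ S) (g : Y ⟶ S)
    [GeometricallyIntegral g] [Flat g] [UniversallyOpen g] [IsIntegral X] :
    IsIntegral (pullback f g) := by
  rw [isIntegral_iff_irreducibleSpace_and_isReduced]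
  refine ⟨inferInstance, ?_⟩
  have : Finite (irreducibleComponents X) := by
    rw [irreducibleComponents_eq_singleton]
    exact Set.finite_singleton _
  exact GeometricallyReduced.isReduced_of_flat_of_finite_irreducibleComponents (pullback.fst f g)

/-- Symmetric version. -/
theorem isIntegral_pullback_of_geometricallyIntegral' {X Y S : Scheme.{u}} (f : X ⟶ S) (g : Y ⟶ S)
    [GeometricallyIntegral f] [Flat f] [UniversallyOpen f] [IsIntegral Y] :
    IsIntegral (pullback f g) := by
  rw [isIntegral_iff_irreducibleSpace_and_isReduced]
  refine ⟨inferInstance, ?_⟩
  have : Finite (irreducibleComponents Y) := by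
    rw [irreducibleComponents_eq_singleton]
    exact Set.finite_singleton _
  exact GeometricallyReduced.isReduced_of_flat_of_finite_irreducibleComponents (pullback.snd f g)

/-- Composition of geometrically integral morphisms (the first one flat and universally open). -/
theorem geometricallyIntegral_comp {X Y Z : Scheme.{u}} (f : X ⟶ Y) (g : Y ⟶ Z)
    [GeometricallyIntegral f] [Flat f] [UniversallyOpen f] [GeometricallyIntegral g] :
    GeometricallyIntegral (f ≫ g) := by
  have := isClosedUnderIsomorphisms_isIntegral.{u}
  refine ⟨geometrically_iff_of_isClosedUnderIsomorphisms.mpr fun K _ x => ?_⟩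
  have h1 : IsIntegral (pullback g x) :=
    GeometricallyIntegral.geometrically_isIntegral (f := g) x _ _ (.of_hasPullback _ _)
  have h2 : IsIntegral (pullback f (pullback.fst g x)) :=
    isIntegral_pullback_of_geometricallyIntegral' f (pullback.fst g x)
  exact IsIntegral.of_isIso (pullbackRightPullbackFstIso g x f).hom

/-- Geometrically irreducible morphisms are geometrically connected. -/
theorem geometricallyConnected_of_geometricallyIrreducible {X Y : Scheme.{u}} (f : X ⟶ Y)
    [GeometricallyIrreducible f] : GeometricallyConnected f :=
  ⟨fun K _ y Z fst snd h => by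
    have : IrreducibleSpace Z :=
      GeometricallyIrreducible.geometrically_irreducibleSpace (f := f) y fst snd h
    infer_instance⟩

/-- (Q4gen) The image of a geometrically connected `S`-scheme under a surjective `S`-morphism is
geometrically connected. -/
theorem geometricallyConnected_of_surjective {X Y S : Scheme.{u}} (f : X ⟶ Y) (q : Y ⟶ S)
    [Surjective f] [GeometricallyConnected (f ≫ q)] : GeometricallyConnected q := by
  refine ⟨geometrically_iff_of_isClosedUnderIsomorphisms.mpr fun K _ y => ?_⟩
  have h1 : ConnectedSpace ↥(pullback (f ≫ q) y) :=
    GeometricallyConnected.geometrically_connectedSpace (f := f ≫ q) y _ _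
      (.of_hasPullback _ _)
  have h2 : ConnectedSpace ↥(pullback f (pullback.fst q y)) :=
    (pullbackRightPullbackFstIso q y f).hom.homeomorph.connectedSpace_iff.mpr h1
  have hs : Function.Surjective (pullback.snd f (pullback.fst q y)) :=
    (inferInstance : Surjective (pullback.snd f (pullback.fst q y))).surj
  exact hs.connectedSpace (Scheme.Hom.continuous _)

/-- The image of a geometrically irreducible `S`-scheme under a surjective `S`-morphism is
geometrically irreducible. -/
theorem geometricallyIrreducible_of_surjective {X Y S : Scheme.{u}} (f : X ⟶ Y) (q : Y ⟶ S)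
    [Surjective f] [GeometricallyIrreducible (f ≫ q)] : GeometricallyIrreducible q := by
  refine ⟨geometrically_iff_of_isClosedUnderIsomorphisms.mpr fun K _ y => ?_⟩
  have h1 : IrreducibleSpace ↥(pullback (f ≫ q) y) :=
    GeometricallyIrreducible.geometrically_irreducibleSpace (f := f ≫ q) y _ _
      (.of_hasPullback _ _)
  have h2 : IrreducibleSpace ↥(pullback f (pullback.fst q y)) :=
    (pullbackRightPullbackFstIso q y f).hom.homeomorph.irreducibleSpace_iff.mpr h1
  have hs : Function.Surjective (pullback.snd f (pullback.fst q y)) :=
    (inferInstance : Surjective (pullback.snd f (pullback.fst q y))).surj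
  exact hs.irreducibleSpace (Scheme.Hom.continuous _)

/-- (Q3gen) The image of a proper `S`-scheme under a surjective `S`-morphism into a separated
`S`-scheme locally of finite type is proper. -/
theorem isProper_of_surjective {X Y S : Scheme.{u}} (f : X ⟶ Y) (q : Y ⟶ S)
    [Surjective f] [IsProper (f ≫ q)] [IsSeparated q] [LocallyOfFiniteType q] : IsProper q :=
  { toIsSeparated := inferInstance
    toUniversallyClosed := UniversallyClosed.of_comp_surjective f q
    toLocallyOfFiniteType := inferInstance }

end General

section Field

variable (k : Type u) [Field k] [IsAlgClosed k]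

/-- Over an algebraically closed field `k`, `Spec K ⟶ Spec k` is geometrically integral for every
field extension `K`. -/
theorem geometricallyIntegral_SpecMap_algebraMap (K : Type u) [Field K] [Algebra k K] :
    GeometricallyIntegral (Spec.map (CommRingCat.ofHom (algebraMap k K))) := by
  have := isClosedUnderIsomorphisms_isIntegral.{u}
  refine ⟨(geometrically_iff_of_commRing_of_isClosedUnderIsomorphisms
    (P := IsIntegral)).mpr fun L _ _ => ?_⟩
  have : IsDomain (K ⊗[k] L) := GeomInt36Ring.isDomain_tensor_field (k := k) (A := K) L
  have : IsIntegral (Spec (CommRingCat.of (K ⊗[k] L))) := inferInstance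
  exact IsIntegral.of_isIso (pullbackSpecIso k K L).inv

/-- **An integral scheme over an algebraically closed field is geometrically integral.** -/
theorem geometricallyIntegral_of_isAlgClosed {C : Scheme.{u}} (c : C ⟶ Spec (CommRingCat.of k))
    [IsIntegral C] : GeometricallyIntegral c := by
  have := isClosedUnderIsomorphisms_isIntegral.{u}
  refine ⟨(geometrically_iff_of_commRing_of_isClosedUnderIsomorphisms
    (P := IsIntegral)).mpr fun K _ _ => ?_⟩
  have := geometricallyIntegral_SpecMap_algebraMap k K
  exact isIntegral_pullback_of_geometricallyIntegral c _

/-- An integral scheme over an algebraically closed field is geometrically irreducible. -/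
theorem geometricallyIrreducible_of_isAlgClosed {C : Scheme.{u}}
    (c : C ⟶ Spec (CommRingCat.of k)) [IsIntegral C] : GeometricallyIrreducible c := by
  have := geometricallyIntegral_of_isAlgClosed k c
  infer_instance

/-- An integral scheme over an algebraically closed field is geometrically reduced. -/
theorem geometricallyReduced_of_isAlgClosed {C : Scheme.{u}}
    (c : C ⟶ Spec (CommRingCat.of k)) [IsIntegral C] : GeometricallyReduced c := by
  have := geometricallyIntegral_of_isAlgClosed k c
  infer_instance

/-- An integral scheme over an algebraically closed field is geometrically connected. -/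
theorem geometricallyConnected_of_isAlgClosed {C : Scheme.{u}}
    (c : C ⟶ Spec (CommRingCat.of k)) [IsIntegral C] : GeometricallyConnected c := by
  have := geometricallyIrreducible_of_isAlgClosed k c
  exact geometricallyConnected_of_geometricallyIrreducible c

end Field

section FibrePower

variable {X S : Scheme.{u}} (p : X ⟶ S)

/-- The `n`-fold fibre power of `p : X ⟶ S` with its structure map
(`X^0 = S`, `X^(n+1) = X ×[S] X^n`). -/
noncomputable def fibrePowerAux : ℕ → Σ Y : Scheme.{u}, (Y ⟶ S)
  | 0 => ⟨S, 𝟙 S⟩
  | n + 1 => ⟨pullback p (fibrePowerAux n).2,
      pullback.snd p (fibrePowerAux n).2 ≫ (fibrePowerAux n).2⟩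

/-- The `n`-fold fibre power of `X` over `S`. -/
noncomputable def fibrePowerObj (n : ℕ) : Scheme.{u} := (fibrePowerAux p n).1

/-- The structure map of the `n`-fold fibre power. -/
noncomputable def fibrePowerHom (n : ℕ) : fibrePowerObj p n ⟶ S := (fibrePowerAux p n).2

/-- first projection `X^(n+1) ⟶ X`. -/
noncomputable def fibrePowerFst (n : ℕ) : fibrePowerObj p (n + 1) ⟶ X :=
  pullback.fst p (fibrePowerHom p n)

/-- projection `X^(n+1) ⟶ X^n` forgetting the first factor. -/
noncomputable def fibrePowerSnd (n : ℕ) : fibrePowerObj p (n + 1) ⟶ fibrePowerObj p n :=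
  pullback.snd p (fibrePowerHom p n)

theorem fibrePowerObj_zero : fibrePowerObj p 0 = S := rfl

theorem fibrePowerObj_succ (n : ℕ) :
    fibrePowerObj p (n + 1) = pullback p (fibrePowerHom p n) := rfl

theorem fibrePowerHom_succ (n : ℕ) :
    fibrePowerHom p (n + 1) = fibrePowerSnd p n ≫ fibrePowerHom p n := rfl

theorem fibrePowerHom_succ' (n : ℕ) :
    fibrePowerHom p (n + 1) = fibrePowerFst p n ≫ p := by
  rw [fibrePowerHom_succ]
  exact pullback.condition.symm

theorem isPullback_fibrePower (n : ℕ) :
    IsPullback (fibrePowerFst p n) (fibrePowerSnd p n) p (fibrePowerHom p n) :=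
  IsPullback.of_hasPullback _ _

theorem fibrePower_geometricallyIntegral [GeometricallyIntegral p] [Flat p] [UniversallyOpen p]
    (n : ℕ) : GeometricallyIntegral (fibrePowerHom p n) ∧ Flat (fibrePowerHom p n) ∧
      UniversallyOpen (fibrePowerHom p n) := by
  induction n with
  | zero =>
    refine ⟨?_, (inferInstance : Flat (𝟙 S)), (inferInstance : UniversallyOpen (𝟙 S))⟩
    show GeometricallyIntegral (𝟙 S)
    refine ⟨fun K _ y Z fst snd h => ?_⟩
    have : IsIso snd := h.isIso_snd_of_isIso
    exact IsIntegral.of_isIso (inv snd)
  | succ n ih =>
    obtain ⟨h1, h2, h3⟩ := ih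
    have e1 : GeometricallyIntegral (fibrePowerSnd p n) :=
      (inferInstance : GeometricallyIntegral (pullback.snd p (fibrePowerHom p n)))
    have e2 : Flat (fibrePowerSnd p n) :=
      (inferInstance : Flat (pullback.snd p (fibrePowerHom p n)))
    have e3 : UniversallyOpen (fibrePowerSnd p n) :=
      (inferInstance : UniversallyOpen (pullback.snd p (fibrePowerHom p n)))
    rw [fibrePowerHom_succ]
    exact ⟨geometricallyIntegral_comp _ _, inferInstance, inferInstance⟩

theorem fibrePower_geometricallyConnected [GeometricallyConnected p] [UniversallyOpen p]
    (n : ℕ) : GeometricallyConnected (fibrePowerHom p n) ∧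
      UniversallyOpen (fibrePowerHom p n) := by
  induction n with
  | zero =>
    refine ⟨?_, (inferInstance : UniversallyOpen (𝟙 S))⟩
    show GeometricallyConnected (𝟙 S)
    refine ⟨fun K _ y Z fst snd h => ?_⟩
    have : IsIso snd := h.isIso_snd_of_isIso
    exact (asIso snd).hom.homeomorph.connectedSpace_iff.mpr inferInstance
  | succ n ih =>
    obtain ⟨h1, h3⟩ := ih
    have e1 : GeometricallyConnected (fibrePowerSnd p n) :=
      (inferInstance : GeometricallyConnected (pullback.snd p (fibrePowerHom p n)))
    have e3 : UniversallyOpen (fibrePowerSnd p n) :=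
      (inferInstance : UniversallyOpen (pullback.snd p (fibrePowerHom p n)))
    rw [fibrePowerHom_succ]
    exact ⟨GeometricallyConnected.comp _ _, inferInstance⟩

theorem fibrePower_isProper [IsProper p] (n : ℕ) : IsProper (fibrePowerHom p n) := by
  induction n with
  | zero => exact (inferInstance : IsProper (𝟙 S))
  | succ n ih =>
    have e1 : IsProper (fibrePowerSnd p n) :=
      (inferInstance : IsProper (pullback.snd p (fibrePowerHom p n)))
    rw [fibrePowerHom_succ]; infer_instance

theorem fibrePower_smooth [Smooth p] (n : ℕ) : Smooth (fibrePowerHom p n) := by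
  induction n with
  | zero => exact (inferInstance : Smooth (𝟙 S))
  | succ n ih =>
    have e1 : Smooth (fibrePowerSnd p n) :=
      (inferInstance : Smooth (pullback.snd p (fibrePowerHom p n)))
    rw [fibrePowerHom_succ]; infer_instance

end FibrePower

section FibrePowerField

variable (k : Type u) [Field k] [IsAlgClosed k] {C : Scheme.{u}}
  (c : C ⟶ Spec (CommRingCat.of k)) [IsIntegral C]

/-- Fibre powers of an integral scheme over an algebraically closed field are geometrically
integral. -/
theorem fibrePower_geometricallyIntegral_of_isAlgClosed (n : ℕ) :
    GeometricallyIntegral (fibrePowerHom c n) := by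
  have := geometricallyIntegral_of_isAlgClosed k c
  exact (fibrePower_geometricallyIntegral c n).1

/-- Fibre powers of an integral scheme over an algebraically closed field are integral. -/
theorem isIntegral_fibrePowerObj_of_isAlgClosed (n : ℕ) : IsIntegral (fibrePowerObj c n) := by
  have := fibrePower_geometricallyIntegral_of_isAlgClosed k c n
  exact GeometricallyIntegral.isIntegral_of_subsingleton (fibrePowerHom c n)

/-- Fibre powers of an integral scheme over an algebraically closed field are geometrically
connected. -/
theorem fibrePower_geometricallyConnected_of_isAlgClosed (n : ℕ) :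
    GeometricallyConnected (fibrePowerHom c n) := by
  have := fibrePower_geometricallyIntegral_of_isAlgClosed k c n
  exact geometricallyConnected_of_geometricallyIrreducible _

/-- Base change to any field extension `K` of an integral scheme over an algebraically closed
field is integral. -/
theorem isIntegral_pullback_SpecMap (K : Type u) [Field K] [Algebra k K] :
    IsIntegral (pullback c (Spec.map (CommRingCat.ofHom (algebraMap k K)))) := by
  have := geometricallyIntegral_of_isAlgClosed k c
  exact GeometricallyIntegral.geometrically_isIntegral (f := c) _ _ _ (.of_hasPullback _ _)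

end FibrePowerField

end Fermat.Agent.Jac.GeomInt36Scheme
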