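/-
JAC programme, brick B2 (helper36): `k`-based reformulation of the frozen `IsAlgEquivZero`.

The frozen definition of `FibrewiseAlgEquivZero` speaks about families on `C_s ×_K T'` where
`C_s = (C ×ₖ T) ×_T Spec K` is a nested pullback.  Here we show that it is equivalent to the
existence of a family on `C ×ₖ T'` (`IsAEZk`), the form in which the two-chart dictionary applies.
Pure pullback pasting; no geometry.
-/
import Mathlib
import Fermat.Prelude.Def_AlgebraicGeometry_RelPicardAlgEquivZeroCut
import Fermat.Agent.Jac.CutDeg36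
import Fermat.Agent.Jac.GeomInt36Scheme

set_option autoImplicit false

namespace Fermat.Agent.Jac.CutDeg36Paste

open CategoryTheory CategoryTheory.Limits AlgebraicGeometry AlgebraicGeometry.RelPicard
  NeronModelInfra
open Fermat.Agent.Jac.CutDeg36

universe u

variable {k : Type u} [CommRing k] {C : Scheme.{u}} {c : C ⟶ Spec (CommRingCat.of k)}

/-- A `K`-point `tt` of `h : T' ⟶ Spec K`, as a morphism over `Spec k` (for `σ : Spec K ⟶ Spec k`). -/
def pointOverK {K : Type u} [Field K] (σ : Spec (CommRingCat.of K) ⟶ Spec (CommRingCat.of k))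
    {T' : Scheme.{u}} (h : T' ⟶ Spec (CommRingCat.of K))
    (tt : SchemeHomOver (𝟙 (Spec (CommRingCat.of K))) h) : SchemeHomOver σ (h ≫ σ) :=
  ⟨tt.1, by rw [← Category.assoc, tt.2, Category.id_comp]⟩

/-- `k`-based form of algebraic equivalence to zero, for an invertible sheaf `L'` on
`C ×ₖ Spec K`: there is a family on `C ×ₖ T'`, `T'` geometrically integral and locally of finite
type over `K`, with two `K`-points of `T'` at which it specialises to `𝒪` and to `L'`. -/
def IsAEZk (c : C ⟶ Spec (CommRingCat.of k)) {K : Type u} [Field K]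
    (σ : Spec (CommRingCat.of K) ⟶ Spec (CommRingCat.of k)) (L' : (pullback c σ).Modules) : Prop :=
  ∃ (T' : Scheme.{u}) (h : T' ⟶ Spec (CommRingCat.of K)) (_ : LocallyOfFiniteType h)
    (_ : GeometricallyIntegral h) (M : (pullback c (h ≫ σ)).Modules)
    (_ : Scheme.Modules.IsInvertible M)
    (t₀ t₁ : SchemeHomOver (𝟙 (Spec (CommRingCat.of K))) h),
    Nonempty ((Scheme.Modules.pullback (baseChangeSnd c (pointOverK σ h t₀))).obj M ≅
      SheafOfModules.unit (pullback c σ).ringCatSheaf) ∧
    Nonempty ((Scheme.Modules.pullback (baseChangeSnd c (pointOverK σ h t₁))).obj M ≅ L')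

theorem IsAEZk.of_iso {K : Type u} [Field K]
    {σ : Spec (CommRingCat.of K) ⟶ Spec (CommRingCat.of k)} {L' L'' : (pullback c σ).Modules}
    (e : L' ≅ L'') (hL : IsAEZk c σ L') : IsAEZk c σ L'' := by
  obtain ⟨T', h, hft, hgi, M, hM, t₀, t₁, e₀, ⟨e₁⟩⟩ := hL
  exact ⟨T', h, hft, hgi, M, hM, t₀, t₁, e₀, ⟨e₁ ≪≫ e⟩⟩

section Pasting

variable {T : Scheme.{u}} (t : T ⟶ Spec (CommRingCat.of k))
  {K : Type u} [Field K] (s : Spec (CommRingCat.of K) ⟶ T)

instance isIso_fst_id : IsIso (pullback.fst (fibreAt c t s) (𝟙 (Spec (CommRingCat.of K)))) :=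
  inferInstance

theorem fibreComparison_fst :
    fibreComparison (c := c) t s ≫ pullback.fst (fibreAt c t s) (𝟙 _) =
      (isPullback_fibre (c := c) t s).isoPullback.inv := by
  simp only [fibreComparison, pullback.lift_fst]

instance isIso_fibreComparison : IsIso (fibreComparison (c := c) t s) := by
  have h : fibreComparison (c := c) t s =
      (isPullback_fibre (c := c) t s).isoPullback.inv ≫
        inv (pullback.fst (fibreAt c t s) (𝟙 (Spec (CommRingCat.of K)))) := by
    rw [← fibreComparison_fst, Category.assoc, IsIso.hom_inv_id, Category.comp_id]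
  rw [h]
  infer_instance

variable {T' : Scheme.{u}} (h : T' ⟶ Spec (CommRingCat.of K))

theorem comparison_square' (tt : SchemeHomOver (𝟙 (Spec (CommRingCat.of K))) h) :
    baseChangeSnd (fibreAt c t s) tt ≫ (isPullback_family (c := c) t s h).isoPullback.hom =
      inv (fibreComparison (c := c) t s) ≫ baseChangeSnd c (pointOver t s h tt) := by
  rw [IsIso.eq_inv_comp]
  have h1 := comparison_square (c := c) t s h tt
  calc fibreComparison t s ≫ baseChangeSnd (fibreAt c t s) tt ≫
        (isPullback_family (c := c) t s h).isoPullback.hom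
      = (baseChangeSnd c (pointOver t s h tt) ≫
          (isPullback_family (c := c) t s h).isoPullback.inv) ≫
          (isPullback_family (c := c) t s h).isoPullback.hom := by
        rw [h1, Category.assoc]
    _ = baseChangeSnd c (pointOver t s h tt) := by
        rw [Category.assoc, Iso.inv_hom_id, Category.comp_id]

theorem comparison_fst' :
    inv (fibreComparison (c := c) t s) ≫
        baseChangeSnd c (⟨s, rfl⟩ : SchemeHomOver (s ≫ t) t) =
      pullback.fst (fibreAt c t s) (𝟙 _) ≫ pullback.fst (pullback.snd c t) s := by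
  rw [IsIso.inv_comp_eq, comparison_fst]

theorem pointOver_eq (tt : SchemeHomOver (𝟙 (Spec (CommRingCat.of K))) h) :
    pointOver t s h tt = pointOverK (s ≫ t) h tt := rfl

end Pasting

section Iff

variable {T : Scheme.{u}} (t : T ⟶ Spec (CommRingCat.of k))
  {K : Type u} [Field K] (s : Spec (CommRingCat.of K) ⟶ T) (L : (pullback c t).Modules)

/-- frozen form ⇒ `k`-based form -/
theorem isAEZk_of_isAlgEquivZero
    (hAEZ : IsAlgEquivZero (fibreAt c t s)
      ((Scheme.Modules.pullback (pullback.fst (pullback.snd c t) s)).obj L)) :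
    IsAEZk c (s ≫ t)
      ((Scheme.Modules.pullback (baseChangeSnd c (⟨s, rfl⟩ : SchemeHomOver (s ≫ t) t))).obj L) := by
  obtain ⟨T', h, hft, hgi, Mfam, hMfam, t₀, t₁, ⟨e₀⟩, ⟨e₁⟩⟩ := hAEZ
  let ι := (isPullback_family (c := c) t s h).isoPullback
  have key : ∀ tt : SchemeHomOver (𝟙 (Spec (CommRingCat.of K))) h,
      Nonempty ((Scheme.Modules.pullback (baseChangeSnd c (pointOverK (s ≫ t) h tt))).obj
          ((Scheme.Modules.pullback ι.inv).obj Mfam) ≅
        (Scheme.Modules.pullback (fibreComparison t s)).obj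
          ((Scheme.Modules.pullback (baseChangeSnd (fibreAt c t s) tt)).obj Mfam)) := fun tt =>
    ⟨(Scheme.Modules.pullbackComp _ _).app Mfam ≪≫
      (Scheme.Modules.pullbackCongr (comparison_square t s h tt)).app Mfam ≪≫
      ((Scheme.Modules.pullbackComp _ _).app Mfam).symm⟩
  refine ⟨T', h, hft, hgi, (Scheme.Modules.pullback ι.inv).obj Mfam, hMfam.pullback ι.inv,
    t₀, t₁, ?_, ?_⟩
  · obtain ⟨e⟩ := key t₀
    exact ⟨e ≪≫ (Scheme.Modules.pullback (fibreComparison t s)).mapIso e₀ ≪≫
      Scheme.Modules.pullbackUnitIso _⟩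
  · obtain ⟨e⟩ := key t₁
    exact ⟨e ≪≫ (Scheme.Modules.pullback (fibreComparison t s)).mapIso e₁ ≪≫
      (Scheme.Modules.pullback (fibreComparison t s)).mapIso
        ((Scheme.Modules.pullbackComp _ _).app L) ≪≫
      (Scheme.Modules.pullbackComp _ _).app L ≪≫
      (Scheme.Modules.pullbackCongr (comparison_fst t s)).app L⟩

/-- `k`-based form ⇒ frozen form -/
theorem isAlgEquivZero_of_isAEZk
    (hAEZ : IsAEZk c (s ≫ t)
      ((Scheme.Modules.pullback (baseChangeSnd c (⟨s, rfl⟩ : SchemeHomOver (s ≫ t) t))).obj L)) :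
    IsAlgEquivZero (fibreAt c t s)
      ((Scheme.Modules.pullback (pullback.fst (pullback.snd c t) s)).obj L) := by
  obtain ⟨T', h, hft, hgi, M, hM, t₀, t₁, ⟨e₀⟩, ⟨e₁⟩⟩ := hAEZ
  let ι := (isPullback_family (c := c) t s h).isoPullback
  have key : ∀ tt : SchemeHomOver (𝟙 (Spec (CommRingCat.of K))) h,
      Nonempty ((Scheme.Modules.pullback (baseChangeSnd (fibreAt c t s) tt)).obj
          ((Scheme.Modules.pullback ι.hom).obj M) ≅
        (Scheme.Modules.pullback (inv (fibreComparison (c := c) t s))).obj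
          ((Scheme.Modules.pullback (baseChangeSnd c (pointOverK (s ≫ t) h tt))).obj M)) :=
    fun tt =>
    ⟨(Scheme.Modules.pullbackComp _ _).app M ≪≫
      (Scheme.Modules.pullbackCongr (comparison_square' t s h tt)).app M ≪≫
      ((Scheme.Modules.pullbackComp _ _).app M).symm⟩
  refine ⟨T', h, hft, hgi, (Scheme.Modules.pullback ι.hom).obj M, hM.pullback ι.hom,
    t₀, t₁, ?_, ?_⟩
  · obtain ⟨e⟩ := key t₀
    exact ⟨e ≪≫ (Scheme.Modules.pullback (inv (fibreComparison (c := c) t s))).mapIso e₀ ≪≫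
      Scheme.Modules.pullbackUnitIso _⟩
  · obtain ⟨e⟩ := key t₁
    exact ⟨e ≪≫ (Scheme.Modules.pullback (inv (fibreComparison (c := c) t s))).mapIso e₁ ≪≫
      (Scheme.Modules.pullbackComp _ _).app L ≪≫
      (Scheme.Modules.pullbackCongr (comparison_fst' t s)).app L ≪≫
      ((Scheme.Modules.pullbackComp _ _).app L).symm⟩

/-- **The frozen `IsAlgEquivZero` of a fibre is equivalent to its `k`-based form.** -/
theorem isAlgEquivZero_fibre_iff :
    IsAlgEquivZero (fibreAt c t s)
        ((Scheme.Modules.pullback (pullback.fst (pullback.snd c t) s)).obj L) ↔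
      IsAEZk c (s ≫ t)
        ((Scheme.Modules.pullback
          (baseChangeSnd c (⟨s, rfl⟩ : SchemeHomOver (s ≫ t) t))).obj L) :=
  ⟨isAEZk_of_isAlgEquivZero t s L, isAlgEquivZero_of_isAEZk t s L⟩

/-- `FibrewiseAlgEquivZero` in `k`-based form. -/
theorem fibrewiseAlgEquivZero_iff {ε : SchemeHomOver (𝟙 (Spec (CommRingCat.of k))) c}
    (M : RigidifiedLineBundle c ε t) :
    FibrewiseAlgEquivZero M ↔ ∀ (K : Type u) [Field K] [IsAlgClosed K]
      (s : Spec (CommRingCat.of K) ⟶ T),
      IsAEZk c (s ≫ t) ((Scheme.Modules.pullback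
        (baseChangeSnd c (⟨s, rfl⟩ : SchemeHomOver (s ≫ t) t))).obj M.L) :=
  ⟨fun h K _ _ s => isAEZk_of_isAlgEquivZero t s M.L (h K s),
    fun h K _ _ s => isAlgEquivZero_of_isAEZk t s M.L (h K s)⟩

end Iff

section Affine

variable {K : Type u} [Field K]

/-- `Spec A' ⟶ Spec K` for a `K`-algebra `A'`. -/
noncomputable def specK (A' : Type u) [CommRing A'] [Algebra K A'] :
    Spec (CommRingCat.of A') ⟶ Spec (CommRingCat.of K) :=
  Spec.map (CommRingCat.ofHom (algebraMap K A'))

/-- The `K`-point of `Spec A'` given by a `K`-algebra map `A' → K`. -/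
noncomputable def pointOfAlgHom {A' : Type u} [CommRing A'] [Algebra K A'] (τ : A' →ₐ[K] K) :
    SchemeHomOver (𝟙 (Spec (CommRingCat.of K))) (specK (K := K) A') :=
  ⟨Spec.map (CommRingCat.ofHom τ.toRingHom), by
    rw [specK, ← Spec.map_comp, ← CommRingCat.ofHom_comp]
    have : τ.toRingHom.comp (algebraMap K A') = RingHom.id K := by
      ext x; simp
    rw [this]
    exact Spec.map_id _⟩

/-- Affine parameter spaces: for `K` algebraically closed, a finite type `K`-algebra domain `A'`
with two `K`-points gives a witness of `IsAEZk`. -/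
theorem IsAEZk.of_affine [IsAlgClosed K]
    (σ : Spec (CommRingCat.of K) ⟶ Spec (CommRingCat.of k)) (L' : (pullback c σ).Modules)
    (A' : Type u) [CommRing A'] [IsDomain A'] [Algebra K A'] [Algebra.FiniteType K A']
    (M : (pullback c (specK (K := K) A' ≫ σ)).Modules) (hM : Scheme.Modules.IsInvertible M)
    (τ₀ τ₁ : A' →ₐ[K] K)
    (e₀ : Nonempty ((Scheme.Modules.pullback
      (baseChangeSnd c (pointOverK σ (specK A') (pointOfAlgHom τ₀)))).obj M ≅
        SheafOfModules.unit (pullback c σ).ringCatSheaf))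
    (e₁ : Nonempty ((Scheme.Modules.pullback
      (baseChangeSnd c (pointOverK σ (specK A') (pointOfAlgHom τ₁)))).obj M ≅ L')) :
    IsAEZk c σ L' := by
  have hft : LocallyOfFiniteType (specK (K := K) A') := by
    rw [specK, HasRingHomProperty.Spec_iff (P := @LocallyOfFiniteType)]
    exact (RingHom.finiteType_algebraMap (A := K) (B := A')).mpr inferInstance
  have hgi : GeometricallyIntegral (specK (K := K) A') :=
    GeomInt36Scheme.geometricallyIntegral_of_isAlgClosed K _
  exact ⟨_, specK A', hft, hgi, M, hM, pointOfAlgHom τ₀, pointOfAlgHom τ₁, e₀, e₁⟩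

end Affine

end Fermat.Agent.Jac.CutDeg36Paste
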