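/-
Fermat/Agent/Jac/DictCore15Semi.lean  (helper15) -- S25 programme, brick B1b, add-on to DictCore15.

From `h : Corr cc A M L` extract, chart by chart, the additive equivalences
`L.N_i ≃+ Γ(M, X_i)` which are semilinear along the ring isomorphisms `theta_i`
(`n ↦ d.e_i (1 ⊗ n)` for a `LiftData` `d` along the theta cube), compatible with the restriction
maps.  This is the input `j`, `hj` of helper33's `BridgeSheaf33.rigidified_iff_rigidMod`.
-/
import Mathlib
import Fermat.Agent.Jac.DictCore15

set_option autoImplicit false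
set_option linter.style.haveILetI false
set_option linter.unusedSectionVars false

open CategoryTheory CategoryTheory.Limits AlgebraicGeometry TopologicalSpace Opposite
open NeronModelInfra AlgebraicGeometry.RelPicard TensorProduct

universe u

noncomputable section

namespace Fermat.Agent.Jac.DictCore15

open scoped Fermat.Agent.Jac.BaseChange75
open Fermat.Agent.Jac.TwoCoverGammaSetting Fermat.Agent.Jac.BridgeCharts33
open Fermat.Agent.Jac.JSmooth85Alg Fermat.Agent.Jac.BaseChange75 Fermat.Agent.Jac.LineOps39

section Generic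

variable {R R' N N' : Type u} [CommRing R] [CommRing R'] [Algebra R R']
  [AddCommGroup N] [Module R N] [AddCommGroup N'] [Module R' N']

/-- For a bijective `algebraMap R R'`, the inverse as an `R`-linear map `R' → R`. -/
def invLin (hb : Function.Bijective (algebraMap R R')) : R' →ₗ[R] R where
  toFun := (RingEquiv.ofBijective (algebraMap R R') hb).symm
  map_add' x y := map_add _ x y
  map_smul' r x := by
    simp only [RingHom.id_apply, Algebra.smul_def, map_mul]
    congr 1
    exact (RingEquiv.ofBijective (algebraMap R R') hb).symm_apply_apply r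

theorem algebraMap_invLin (hb : Function.Bijective (algebraMap R R')) (x : R') :
    algebraMap R R' (invLin hb x) = x :=
  (RingEquiv.ofBijective (algebraMap R R') hb).apply_symm_apply x

theorem invLin_algebraMap (hb : Function.Bijective (algebraMap R R')) (r : R) :
    invLin hb (algebraMap R R' r) = r :=
  (RingEquiv.ofBijective (algebraMap R R') hb).symm_apply_apply r

/-- For a bijective `algebraMap R R'`: `N ≃+ R' ⊗[R] N`, `n ↦ 1 ⊗ n`. -/
def oneTmulEquiv (hb : Function.Bijective (algebraMap R R')) : N ≃+ R' ⊗[R] N where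
  toFun n := (1 : R') ⊗ₜ[R] n
  invFun x := TensorProduct.lid R N ((invLin hb).rTensor N x)
  left_inv n := by
    simp only [LinearMap.rTensor_tmul, TensorProduct.lid_tmul]
    have : invLin hb (1 : R') = 1 := by
      have := invLin_algebraMap hb (1 : R)
      rwa [map_one] at this
    rw [this, one_smul]
  right_inv x := by
    induction x using TensorProduct.induction_on with
    | zero => simp
    | add x y hx hy =>
      simp only [map_add, TensorProduct.tmul_add] at hx hy ⊢
      rw [hx, hy]
    | tmul r' n =>
      simp only [LinearMap.rTensor_tmul, TensorProduct.lid_tmul]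
      rw [TensorProduct.tmul_smul, TensorProduct.smul_tmul', Algebra.smul_def, mul_one,
        algebraMap_invLin]
  map_add' x y := TensorProduct.tmul_add _ x y

@[simp]
theorem oneTmulEquiv_apply (hb : Function.Bijective (algebraMap R R')) (n : N) :
    oneTmulEquiv (R' := R') hb n = (1 : R') ⊗ₜ[R] n := rfl

/-- For a bijective `algebraMap R R'` and `e : R' ⊗[R] N ≃ₗ[R'] N'`: the semilinear additive
equivalence `N ≃+ N'`, `n ↦ e (1 ⊗ n)`. -/
def semiEquiv (hb : Function.Bijective (algebraMap R R')) (e : R' ⊗[R] N ≃ₗ[R'] N') : N ≃+ N' :=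
  (oneTmulEquiv (R' := R') hb).trans e.toAddEquiv

@[simp]
theorem semiEquiv_apply (hb : Function.Bijective (algebraMap R R'))
    (e : R' ⊗[R] N ≃ₗ[R'] N') (n : N) : semiEquiv hb e n = e ((1 : R') ⊗ₜ[R] n) := rfl

theorem semiEquiv_smul (hb : Function.Bijective (algebraMap R R'))
    (e : R' ⊗[R] N ≃ₗ[R'] N') (r : R) (n : N) :
    semiEquiv hb e (r • n) = algebraMap R R' r • semiEquiv hb e n := by
  rw [semiEquiv_apply, semiEquiv_apply, ← map_smul, TensorProduct.tmul_smul,
    TensorProduct.smul_tmul', TensorProduct.smul_tmul', Algebra.smul_def, mul_one, smul_eq_mul,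
    mul_one]

end Generic

variable {k : Type u} [Field k] {C : Scheme.{u}} {c : C ⟶ Spec (CommRingCat.of k)}
  {ε : SchemeHomOver (𝟙 (Spec (CommRingCat.of k))) c}
variable (cc : CurveCharts c ε) (A : Type u) [CommRing A] [Algebra k A]

theorem bijective_up0 : Function.Bijective (algebraMap (A ⊗[k] cc.B0) (coverA cc A).R0) :=
  (theta0 cc A).bijective

theorem bijective_up1 : Function.Bijective (algebraMap (A ⊗[k] cc.B1) (coverA cc A).R1) :=
  (theta1 cc A).bijective

theorem bijective_up01 : Function.Bijective (algebraMap (A ⊗[k] cc.B01) (coverA cc A).R01) :=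
  (theta01 cc A).bijective

variable {cc A}

/-- From the correspondence: semilinear identifications of the chart modules of `L` with the
sections of `M` over the charts of `C_A`, compatible with the restriction maps. -/
theorem Corr.exists_semilinear {M : (XA c A).Modules} {L : cc.QCA A} (h : Corr cc A M L) :
    ∃ (j0 : L.N0 ≃+ (coverA cc A).N0 M) (j1 : L.N1 ≃+ (coverA cc A).N1 M)
      (j01 : L.N01 ≃+ (coverA cc A).N01 M),
      (∀ (t : A ⊗[k] cc.B0) (n : L.N0), j0 (t • n) = theta0 cc A t • j0 n) ∧
      (∀ (t : A ⊗[k] cc.B1) (n : L.N1), j1 (t • n) = theta1 cc A t • j1 n) ∧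
      (∀ (t : A ⊗[k] cc.B01) (n : L.N01), j01 (t • n) = theta01 cc A t • j01 n) ∧
      (∀ n : L.N0, j01 (L.r0 n) = (coverA cc A).r0 M (j0 n)) ∧
      (∀ n : L.N1, j01 (L.r1 n) = (coverA cc A).r1 M (j1 n)) := by
  obtain ⟨d⟩ := h.nonempty_liftData
  refine ⟨semiEquiv (bijective_up0 cc A) d.e0, semiEquiv (bijective_up1 cc A) d.e1,
    semiEquiv (bijective_up01 cc A) d.e01, ?_, ?_, ?_, ?_, ?_⟩
  · exact fun t n => semiEquiv_smul (bijective_up0 cc A) d.e0 t n
  · exact fun t n => semiEquiv_smul (bijective_up1 cc A) d.e1 t n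
  · exact fun t n => semiEquiv_smul (bijective_up01 cc A) d.e01 t n
  · exact fun n => d.comm0 n
  · exact fun n => d.comm1 n

/-- The second-chart part, in the exact shape of `BridgeSheaf33.rigidified_iff_rigidMod`. -/
theorem Corr.exists_semilinear1 {M : (XA c A).Modules} {L : cc.QCA A} (h : Corr cc A M L) :
    ∃ j : L.N1 ≃+ (coverA cc A).N1 M,
      ∀ (t : A ⊗[k] cc.B1) (n : L.N1), j (t • n) = theta1 cc A t • j n := by
  obtain ⟨_, j1, _, _, h1, _⟩ := h.exists_semilinear
  exact ⟨j1, h1⟩

end Fermat.Agent.Jac.DictCore15
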