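/-
Programme JAC (S25), brick A1d "FlatBC+Support", part (3)  (helper60).

Finite support lemma: a two-chart module `Q` (over a two-chart ring `c`) which is finitely
generated over the line on both charts and on which the coordinate `s` at infinity acts
surjectively on `Q.N1` (i.e. the support of `Q` misses the divisor `s = 0`) is concentrated on the
first chart and finite over the base:

* `Q.N0` is a finite `A`-module (`finite_N0_of_s_surjective`);
* `Q.r1 : Q.N1 → Q.N01` is bijective (`r1_bijective_of_s_surjective`);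
* `H¹(Q) = 0` and `H⁰(Q) ≃ Q.N0` (`d_surjective_of_s_surjective`, `H0EquivN0`).

Pure algebra inputs:
* `finite_of_monic_smul_eq_zero` : a finitely generated `A[X]`-module killed by a monic polynomial
  is finite over `A`;
* `exists_one_add_X_mul_smul_eq_zero` : Nakayama/Cayley–Hamilton for `X • M = M`.
-/
import Mathlib
import Fermat.Agent.Jac.Core

set_option autoImplicit false
set_option linter.unusedSectionVars false

open Polynomial

namespace Fermat.Agent.Jac.FlatBC60Support

universe u

/-! ### Pure algebra -/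

section Algebra

variable {A : Type*} [CommRing A] {M : Type*} [AddCommGroup M] [Module A M] [Module A[X] M]
  [IsScalarTower A A[X] M]

/-- A finitely generated `A[X]`-module killed by a monic polynomial is a finite `A`-module. -/
theorem finite_of_monic_smul_eq_zero [Module.Finite A[X] M] (P : A[X]) (hP : P.Monic)
    (hPM : ∀ m : M, P • m = 0) : Module.Finite A M := by
  classical
  by_cases hP1 : P = 1
  · have : Subsingleton M := ⟨fun a b => by
      have ha := hPM a
      have hb := hPM b
      rw [hP1, one_smul] at ha hb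
      rw [ha, hb]⟩
    infer_instance
  obtain ⟨S, hS⟩ := (Module.Finite.fg_top : (⊤ : Submodule A[X] M).FG)
  set n := P.natDegree with hn
  let G : Set M := ⋃ j ∈ Finset.range n, (fun m => (X ^ j : A[X]) • m) '' (S : Set M)
  have hGfin : G.Finite :=
    Set.Finite.biUnion (Finset.finite_toSet _) fun j _ => (S.finite_toSet.image _)
  let W : Submodule A M := Submodule.span A G
  have hWfg : W.FG := Submodule.fg_span hGfin
  have key : ∀ (p : A[X]) (m : M), m ∈ S → p • m ∈ W := by
    intro p m hm
    have h1 : p • m = (p %ₘ P) • m := by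
      conv_lhs => rw [← Polynomial.modByMonic_add_div p P]
      rw [add_smul, mul_smul, hPM, add_zero]
    rw [h1]
    have hdeg : (p %ₘ P).natDegree < n := Polynomial.natDegree_modByMonic_lt p hP hP1
    rw [Polynomial.as_sum_range' (p %ₘ P) n hdeg, Finset.sum_smul]
    refine Submodule.sum_mem _ fun j hj => ?_
    rw [← Polynomial.C_mul_X_pow_eq_monomial, mul_smul]
    have : (C ((p %ₘ P).coeff j) : A[X]) • ((X ^ j : A[X]) • m) =
        ((p %ₘ P).coeff j) • ((X ^ j : A[X]) • m) := by
      rw [Polynomial.C_eq_algebraMap, algebraMap_smul]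
    rw [this]
    refine Submodule.smul_mem _ _ (Submodule.subset_span ?_)
    exact Set.mem_biUnion hj ⟨m, hm, rfl⟩
  have hW : W = ⊤ := by
    rw [eq_top_iff]
    intro m' _
    have hm' : m' ∈ Submodule.span A[X] (S : Set M) := by rw [hS]; trivial
    refine Submodule.span_induction (p := fun x _ => x ∈ W) ?_ ?_ ?_ ?_ hm'
    · intro x hx
      have := key 1 x hx
      rwa [one_smul] at this
    · exact W.zero_mem
    · intro x y _ _ hx hy
      exact W.add_mem hx hy
    · intro p x hx _
      -- `x` is in the `A[X]`-span of `S`; show `p • x ∈ W` by a second induction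
      refine Submodule.span_induction (p := fun x _ => ∀ p : A[X], p • x ∈ W) ?_ ?_ ?_ ?_ hx p
      · intro y hy p
        exact key p y hy
      · intro p
        rw [smul_zero]
        exact W.zero_mem
      · intro y z _ _ hy hz p
        rw [smul_add]
        exact W.add_mem (hy p) (hz p)
      · intro q y _ hy p
        rw [← mul_smul]
        exact hy (p * q)
  exact ⟨hW ▸ hWfg⟩

/-- Nakayama: if `X` acts surjectively on a finitely generated `A[X]`-module `M`, then some
`1 + X * q` kills `M`. -/
theorem exists_one_add_X_mul_smul_eq_zero [Module.Finite A[X] M]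
    (hX : ∀ y : M, ∃ y' : M, (X : A[X]) • y' = y) :
    ∃ q : A[X], ∀ y : M, (1 + X * q) • y = 0 := by
  have hle : (⊤ : Submodule A[X] M) ≤ (Ideal.span {(X : A[X])}) • (⊤ : Submodule A[X] M) := by
    intro y _
    obtain ⟨y', rfl⟩ := hX y
    exact Submodule.smul_mem_smul (Ideal.subset_span rfl) trivial
  obtain ⟨r, hr, hr0⟩ := Submodule.exists_sub_one_mem_and_smul_eq_zero_of_fg_of_le_smul
    (Ideal.span {(X : A[X])}) (⊤ : Submodule A[X] M) Module.Finite.fg_top hle
  obtain ⟨q, hq⟩ := Ideal.mem_span_singleton'.mp hr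
  refine ⟨q, fun y => ?_⟩
  have : (1 + X * q : A[X]) = r := by
    rw [mul_comm, hq]
    ring
  rw [this]
  exact hr0 y trivial

end Algebra

/-! ### A polynomial identity: clearing denominators of `1 + σ q(σ)` -/

section Reflect

variable {A : Type*} [CommRing A] {B : Type*} [CommRing B] [Algebra A B]

/-- The monic polynomial `X^(N+1) + reflect N q` with `N = natDegree q`. -/
noncomputable def clearDenom (q : A[X]) : A[X] := X ^ (q.natDegree + 1) + reflect q.natDegree q

theorem clearDenom_monic (q : A[X]) : (clearDenom q).Monic := by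
  apply Polynomial.monic_X_pow_add
  have h1 : (reflect q.natDegree q).natDegree ≤ q.natDegree := by
    have := natDegree_reflect_le (N := q.natDegree) (p := q)
    simpa using this
  calc (reflect q.natDegree q).degree ≤ (reflect q.natDegree q).natDegree :=
        Polynomial.degree_le_natDegree
    _ ≤ (q.natDegree : WithBot ℕ) := by exact_mod_cast h1
    _ < ((q.natDegree + 1 : ℕ) : WithBot ℕ) := by exact_mod_cast Nat.lt_succ_self _

/-- If `τ σ = 1` then `(clearDenom q)(τ) = τ^(N+1) * (1 + σ * q(σ))`. -/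
theorem aeval_clearDenom (q : A[X]) (τ σ : B) (h : τ * σ = 1) :
    aeval τ (clearDenom q) = τ ^ (q.natDegree + 1) * (1 + σ * aeval σ q) := by
  let inst : Invertible σ := ⟨τ, h, by rw [mul_comm]; exact h⟩
  have h1 : aeval τ (reflect q.natDegree q) * σ ^ q.natDegree = aeval σ q := by
    have := @eval₂_reflect_mul_pow A _ B _ (algebraMap A B) σ inst q.natDegree q le_rfl
    have hinv : @Invertible.invOf B _ _ σ inst = τ := rfl
    rw [hinv] at this
    simpa [aeval_def] using this
  have h2 : τ ^ q.natDegree * σ ^ q.natDegree = 1 := by rw [← mul_pow, h, one_pow]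
  have h3 : aeval τ (reflect q.natDegree q) = aeval σ q * τ ^ q.natDegree := by
    rw [← h1, mul_assoc, mul_comm (σ ^ q.natDegree), h2, mul_one]
  rw [clearDenom, map_add, map_pow, aeval_X, h3, pow_succ]
  have h4 : τ ^ q.natDegree * τ * (1 + σ * aeval σ q) =
      τ ^ q.natDegree * τ + τ ^ q.natDegree * (τ * σ) * aeval σ q := by ring
  rw [h4, h, mul_one, mul_comm (aeval σ q)]

end Reflect

/-! ### Two-chart modules supported away from infinity -/

section QC2

variable {A R0 R1 R01 : Type u} [CommRing A] [CommRing R0] [CommRing R1] [CommRing R01]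
  [Algebra A R0] [Algebra A R1] [Algebra A R01] [Algebra R0 R01] [Algebra R1 R01]
  [IsScalarTower A R0 R01] [IsScalarTower A R1 R01]
  (c : TwoChart A R0 R1 R01) (Q : QC2 A R0 R1 R01)

/-- `Q.r0` is the localisation of `Q.N0` at the powers of `t`. -/
theorem isLocalizedModule_r0 : IsLocalizedModule (Submonoid.powers c.t) Q.r0 :=
  haveI := c.away0
  (isLocalizedModule_iff_isBaseChange (Submonoid.powers c.t) R01 Q.r0).mpr Q.bc0

/-- `Q.r1` is the localisation of `Q.N1` at the powers of `s`. -/
theorem isLocalizedModule_r1 : IsLocalizedModule (Submonoid.powers c.s) Q.r1 :=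
  haveI := c.away1
  (isLocalizedModule_iff_isBaseChange (Submonoid.powers c.s) R01 Q.r1).mpr Q.bc1

/-- An element of `R1` killing `Q.N1` kills `Q.N01`. -/
theorem smul_N01_eq_zero_of_smul_N1_eq_zero (u : R1) (hu : ∀ y : Q.N1, u • y = 0) (z : Q.N01) :
    (algebraMap R1 R01 u) • z = 0 := by
  refine Q.bc1.inductionOn z (fun z => (algebraMap R1 R01 u) • z = 0) ?_ ?_ ?_ ?_
  · exact smul_zero _
  · intro y
    rw [algebraMap_smul, ← map_smul, hu, map_zero]
  · intro a z hz
    rw [smul_comm, hz, smul_zero]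
  · intro z z' hz hz'
    rw [smul_add, hz, hz', add_zero]

/-- If `s` acts surjectively on `Q.N1` (finitely generated over `A[s]`), some `1 + s * q(s)`
kills `Q.N1`. -/
theorem exists_one_add_s_mul_smul_eq_zero
    (hfin1 : Module.Finite A[X] (Module.AEval A Q.N1 c.s))
    (hs : ∀ y : Q.N1, ∃ y' : Q.N1, c.s • y' = y) :
    ∃ q : A[X], ∀ y : Q.N1, (1 + c.s * aeval c.s q) • y = 0 := by
  have hX : ∀ y : Module.AEval A Q.N1 c.s, ∃ y', (X : A[X]) • y' = y := by
    intro y
    obtain ⟨y', hy'⟩ := hs ((Module.AEval.of A Q.N1 c.s).symm y)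
    refine ⟨Module.AEval.of A Q.N1 c.s y', ?_⟩
    rw [Module.AEval.X_smul_of, hy', LinearEquiv.apply_symm_apply]
  obtain ⟨q, hq⟩ := exists_one_add_X_mul_smul_eq_zero hX
  refine ⟨q, fun y => ?_⟩
  have := hq (Module.AEval.of A Q.N1 c.s y)
  rw [← Module.AEval.of_aeval_smul] at this
  have h2 := (Module.AEval.of A Q.N1 c.s).injective (this.trans (map_zero _).symm)
  simpa using h2

/-- `s` acts injectively on `Q.N1` as soon as some `1 + s * w` kills `Q.N1`. -/
theorem s_smul_injective_of_kill (w : R1) (hw : ∀ y : Q.N1, (1 + c.s * w) • y = 0) :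
    Function.Injective (fun y : Q.N1 => c.s • y) := by
  intro y y' h
  have h1 : ∀ y : Q.N1, y = -(w • (c.s • y)) := by
    intro y
    have := hw y
    rw [add_smul, one_smul, mul_comm, mul_smul] at this
    exact eq_neg_of_add_eq_zero_left this
  dsimp only at h
  rw [h1 y, h1 y', h]

/-- **Finite support lemma.** If `Q` is finitely generated over the line on both charts and `s` acts
surjectively on `Q.N1`, then `Q.N0` is a finite `A`-module. -/
theorem finite_N0_of_s_surjective (hfin : Q.FiniteOverLine c)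
    (hs : ∀ y : Q.N1, ∃ y' : Q.N1, c.s • y' = y) : Module.Finite A Q.N0 := by
  classical
  obtain ⟨q, hq⟩ := exists_one_add_s_mul_smul_eq_zero c Q hfin.fin1 hs
  set τ : R01 := algebraMap R0 R01 c.t with hτ
  set σ : R01 := algebraMap R1 R01 c.s with hσ
  have hτσ : τ * σ = 1 := c.ts
  set P : A[X] := clearDenom q with hPdef
  have hPmonic : P.Monic := clearDenom_monic q
  -- `P(τ)` kills `Q.N01`
  have hkill01 : ∀ z : Q.N01, (aeval τ P) • z = 0 := by
    intro z
    rw [hPdef, aeval_clearDenom q τ σ hτσ, mul_smul]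
    have h1 : (1 + σ * aeval σ q) = algebraMap R1 R01 (1 + c.s * aeval c.s q) := by
      rw [map_add, map_one, map_mul, ← Polynomial.aeval_algebraMap_apply]
    rw [h1, smul_N01_eq_zero_of_smul_N1_eq_zero Q _ hq z, smul_zero]
  -- hence `r0 (P(t) • y) = 0` for all `y`
  have hr0 : ∀ y : Q.N0, Q.r0 ((aeval c.t P) • y) = 0 := by
    intro y
    rw [map_smul, ← algebraMap_smul R01 (aeval c.t P) (Q.r0 y),
      ← Polynomial.aeval_algebraMap_apply]
    exact hkill01 _
  have := isLocalizedModule_r0 c Q
  have hloc : ∀ y : Q.N0, ∃ m : ℕ, (c.t ^ m) • ((aeval c.t P) • y) = 0 := by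
    intro y
    obtain ⟨⟨_, m, rfl⟩, hm⟩ :=
      (IsLocalizedModule.eq_zero_iff (Submonoid.powers c.t) Q.r0).mp (hr0 y)
    exact ⟨m, hm⟩
  -- uniform exponent on a finite generating set
  have := hfin.fin0
  obtain ⟨S, hS⟩ := (Module.Finite.fg_top : (⊤ : Submodule A[X] (Module.AEval A Q.N0 c.t)).FG)
  have hunif : ∃ m : ℕ, ∀ y ∈ S,
      (c.t ^ m) • ((aeval c.t P) • (Module.AEval.of A Q.N0 c.t).symm y) = 0 := by
    refine Finset.induction_on S ⟨0, fun y hy => absurd hy (Finset.notMem_empty y)⟩ ?_
    intro a T _ ⟨m, hm⟩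
    obtain ⟨m', hm'⟩ := hloc ((Module.AEval.of A Q.N0 c.t).symm a)
    refine ⟨m + m', fun y hy => ?_⟩
    rcases Finset.mem_insert.mp hy with rfl | hy
    · rw [pow_add, mul_smul, hm', smul_zero]
    · rw [pow_add, mul_comm, mul_smul, hm y hy, smul_zero]
  obtain ⟨m, hm⟩ := hunif
  -- the monic polynomial `X^m * P` kills the `A[X]`-module `AEval A Q.N0 t`
  have hkill : ∀ y : Module.AEval A Q.N0 c.t, (X ^ m * P : A[X]) • y = 0 := by
    intro y
    have hy : y ∈ Submodule.span A[X] (S : Set (Module.AEval A Q.N0 c.t)) := by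
      rw [hS]; trivial
    refine Submodule.span_induction (p := fun y _ => (X ^ m * P : A[X]) • y = 0) ?_ ?_ ?_ ?_ hy
    · intro y hy
      apply (Module.AEval.of A Q.N0 c.t).symm.injective
      rw [Module.AEval.of_symm_smul, map_mul, map_pow, aeval_X, mul_smul, map_zero]
      exact hm y hy
    · exact smul_zero _
    · intro y y' _ _ h h'
      rw [smul_add, h, h', add_zero]
    · intro p y _ h
      rw [smul_comm, h, smul_zero]
  have : Module.Finite A (Module.AEval A Q.N0 c.t) :=
    finite_of_monic_smul_eq_zero (X ^ m * P) ((monic_X_pow m).mul hPmonic) hkill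
  exact Module.Finite.equiv (Module.AEval.of A Q.N0 c.t).symm

/-- Under the hypotheses of the finite support lemma, `Q.r1` is bijective: `Q` lives on the
overlap as far as the chart at infinity is concerned. -/
theorem r1_bijective_of_s_surjective
    (hfin1 : Module.Finite A[X] (Module.AEval A Q.N1 c.s))
    (hs : ∀ y : Q.N1, ∃ y' : Q.N1, c.s • y' = y) : Function.Bijective Q.r1 := by
  obtain ⟨q, hq⟩ := exists_one_add_s_mul_smul_eq_zero c Q hfin1 hs
  have hinj : Function.Injective (fun y : Q.N1 => c.s • y) :=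
    s_smul_injective_of_kill c Q _ hq
  have hinjpow : ∀ m : ℕ, Function.Injective (fun y : Q.N1 => (c.s ^ m) • y) := by
    intro m
    induction m with
    | zero => intro y y' h; simpa using h
    | succ m ih =>
      intro y y' h
      simp only [pow_succ, mul_smul] at h
      exact hinj (ih h)
  have hsurjpow : ∀ (m : ℕ) (y : Q.N1), ∃ y' : Q.N1, (c.s ^ m) • y' = y := by
    intro m
    induction m with
    | zero => intro y; exact ⟨y, by simp⟩
    | succ m ih =>
      intro y
      obtain ⟨y1, hy1⟩ := ih y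
      obtain ⟨y2, hy2⟩ := hs y1
      exact ⟨y2, by rw [pow_succ, mul_smul, hy2, hy1]⟩
  have := isLocalizedModule_r1 c Q
  constructor
  · rw [injective_iff_map_eq_zero]
    intro y hy
    obtain ⟨⟨_, m, rfl⟩, hm⟩ :=
      (IsLocalizedModule.eq_zero_iff (Submonoid.powers c.s) Q.r1).mp hy
    exact hinjpow m ((hm : (c.s ^ m) • y = 0).trans (smul_zero _).symm)
  · intro z
    obtain ⟨⟨y, ⟨_, m, rfl⟩⟩, hy⟩ := IsLocalizedModule.surj (Submonoid.powers c.s) Q.r1 z
    obtain ⟨y', hy'⟩ := hsurjpow m y
    refine ⟨y', ?_⟩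
    have h1 : (c.s ^ m) • z = (c.s ^ m) • Q.r1 y' := by
      have : (c.s ^ m) • z = Q.r1 y := hy
      rw [this, ← map_smul, hy']
    have hunit : IsUnit (algebraMap R1 R01 (c.s ^ m)) := by
      rw [map_pow]
      exact (IsUnit.of_mul_eq_one _ (by rw [mul_comm]; exact c.ts)).pow m
    have h2 : (algebraMap R1 R01 (c.s ^ m)) • z = (algebraMap R1 R01 (c.s ^ m)) • Q.r1 y' := by
      rw [algebraMap_smul, algebraMap_smul]
      exact h1
    exact (hunit.smul_left_cancel.mp h2).symm

/-- Under the hypotheses of the finite support lemma, the Čech differential is surjective, i.e.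
`H¹(Q) = 0`. -/
theorem d_surjective_of_s_surjective
    (hfin1 : Module.Finite A[X] (Module.AEval A Q.N1 c.s))
    (hs : ∀ y : Q.N1, ∃ y' : Q.N1, c.s • y' = y) : Function.Surjective Q.d := by
  intro z
  obtain ⟨y, rfl⟩ := (r1_bijective_of_s_surjective c Q hfin1 hs).2 z
  refine ⟨(0, -y), ?_⟩
  simp [QC2.d]

theorem subsingleton_H1_of_s_surjective
    (hfin1 : Module.Finite A[X] (Module.AEval A Q.N1 c.s))
    (hs : ∀ y : Q.N1, ∃ y' : Q.N1, c.s • y' = y) : Subsingleton Q.H1 := by
  have hd := d_surjective_of_s_surjective c Q hfin1 hs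
  have : LinearMap.range Q.d = ⊤ := LinearMap.range_eq_top.mpr hd
  exact Submodule.Quotient.subsingleton_iff.mpr this

/-- Under the hypotheses of the finite support lemma, global sections are the sections on the first
chart: `H⁰(Q) ≃ Q.N0`. -/
noncomputable def H0EquivN0
    (hfin1 : Module.Finite A[X] (Module.AEval A Q.N1 c.s))
    (hs : ∀ y : Q.N1, ∃ y' : Q.N1, c.s • y' = y) : Q.H0 ≃ₗ[A] Q.N0 :=
  LinearEquiv.ofBijective ((LinearMap.fst A Q.N0 Q.N1) ∘ₗ Q.H0.subtype) (by
    have hr1 := r1_bijective_of_s_surjective c Q hfin1 hs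
    constructor
    · rw [injective_iff_map_eq_zero]
      rintro ⟨⟨x0, x1⟩, hx⟩ h0
      have h0' : x0 = 0 := h0
      have hx' : Q.r0 x0 - Q.r1 x1 = 0 := by
        have : Q.d (x0, x1) = 0 := hx
        simpa [QC2.d, sub_eq_add_neg] using this
      rw [h0', map_zero, zero_sub, neg_eq_zero] at hx'
      have hx1 : x1 = 0 := hr1.1 (hx'.trans (map_zero _).symm)
      apply Subtype.ext
      simp [h0', hx1]
    · intro x0
      obtain ⟨x1, hx1⟩ := hr1.2 (Q.r0 x0)
      refine ⟨⟨(x0, x1), ?_⟩, rfl⟩
      show Q.d (x0, x1) = 0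
      simp [QC2.d, hx1])

@[simp] theorem H0EquivN0_apply
    (hfin1 : Module.Finite A[X] (Module.AEval A Q.N1 c.s))
    (hs : ∀ y : Q.N1, ∃ y' : Q.N1, c.s • y' = y) (x : Q.H0) :
    H0EquivN0 c Q hfin1 hs x = x.1.1 := rfl

/-- Under the hypotheses of the finite support lemma, `H⁰(Q)` is a finite `A`-module. -/
theorem finite_H0_of_s_surjective (hfin : Q.FiniteOverLine c)
    (hs : ∀ y : Q.N1, ∃ y' : Q.N1, c.s • y' = y) : Module.Finite A Q.H0 := by
  have := finite_N0_of_s_surjective c Q hfin hs
  exact Module.Finite.equiv (H0EquivN0 c Q hfin.fin1 hs).symm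

end QC2

end Fermat.Agent.Jac.FlatBC60Support
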