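/-
Fermat/Agent/Jac/GammaTopBridge40.lean  (helper40)

Bridges from `GammaTopGeneral40` (`Γ(C × T, 𝒪) = Γ(T, 𝒪)` for all `T`, from the affine dictionary)
to the shapes of the hypothesis (HΓ) used by the two R1 developments:
* `Functor32.HGamma c ε` (helper32): restriction to the rigidifying section is injective on
  global functions;
* `ClassesGlue86.Assembly.GammaSurjective c` (helper86).
-/
import Mathlib
import Fermat.Agent.Jac.GammaTopGeneral40
import Fermat.Agent.Jac.Functor32.BaseOpen
import Fermat.Agent.Jac.ClassesGlue86.Assembly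

set_option autoImplicit false

open CategoryTheory CategoryTheory.Limits AlgebraicGeometry AlgebraicGeometry.RelPicard
open NeronModelInfra

universe u

noncomputable section

namespace Fermat.Agent.Jac.GammaTopBridge40

open Fermat.Agent.Jac.GammaTopGeneral40

variable {k : Type u} [Field k] {C : Scheme.{u}} {c : C ⟶ Spec (CommRingCat.of k)}

/-- (HΓ) in the shape of `ClassesGlue86`. -/
theorem gammaSurjective (hγ : GammaTopAffine c) : ClassesGlue86.Assembly.GammaSurjective c :=
  fun t U => (bijective_snd_app t hγ U).2

/-- (HΓ) in the shape of `Functor32`. -/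
theorem hGamma (ε : SchemeHomOver (𝟙 (Spec (CommRingCat.of k))) c) (hγ : GammaTopAffine c) :
    Functor32.HGamma c ε := by
  intro T t
  have hsec : rigSection c t ε ≫ pullback.snd c t = 𝟙 T := pullback.lift_snd _ _ _
  have hcomp : (pullback.snd c t).appTop ≫ (rigSection c t ε).appTop = 𝟙 _ := by
    rw [← Scheme.Hom.comp_appTop, hsec]
    rfl
  have hbij : Function.Bijective (pullback.snd c t).appTop := bijective_snd_app t hγ ⊤
  intro x y hxy
  obtain ⟨a, rfl⟩ := hbij.2 x
  obtain ⟨b, rfl⟩ := hbij.2 y
  have ha : (rigSection c t ε).appTop ((pullback.snd c t).appTop a) = a :=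
    congrArg (fun f => f.hom a) hcomp
  have hb : (rigSection c t ε).appTop ((pullback.snd c t).appTop b) = b :=
    congrArg (fun f => f.hom b) hcomp
  rw [ha, hb] at hxy
  rw [hxy]

end Fermat.Agent.Jac.GammaTopBridge40
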