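import Mathlib
import Fermat.Agent.Jac.JGroup85Chi
import Fermat.Agent.Jac.JGroup85Api

/-!
# JAC brick Q2/Q3 bridge: the group of classes over a field  (helper85)

Over a local ring (in particular a field) every line is rigidifiable; hence over a field `K` the
subgroup `pic D (chiCut D hc0) (cutAlg D hc0 hF) K` of `LinePic (cc.chartA K)` consists exactly of
the classes of lines `L` with `L.chiField K = chi0 cc`.
-/

set_option autoImplicit false
set_option linter.style.haveILetI false
set_option linter.unusedSectionVars false

noncomputable section

universe u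

open CategoryTheory CategoryTheory.Limits AlgebraicGeometry AlgebraicGeometry.RelPicard
  NeronModelInfra GoodReductionJacobian TensorProduct

namespace Fermat.Agent.Jac.JGroup85Field

open scoped Fermat.Agent.Jac.BaseChange75
open PointsBridge79 PointsBridge79Shell BridgeCharts33 JSmooth85Alg BaseChange75 LineOps39
  JGroup85Pic JGroup85Rig JGroup85Law JGroup85Chi ChiBC36 ChiDict36

/-- Over a local ring every invertible module is rigidifiable. -/
theorem isRig_of_isLocalRing {R A : Type u} [CommRing R] [CommRing A] [IsLocalRing A]
    (alg : Algebra R A) (N : Type u) [AddCommGroup N] [Module R N] [Module.Invertible R N] :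
    IsRig R A alg N := by
  letI := alg
  exact Module.Invertible.free_iff_linearEquiv.mp inferInstance

variable {k : Type u} [Field k] {C : Scheme.{u}} {c : C ⟶ Spec (CommRingCat.of k)}
  {ε : SchemeHomOver (𝟙 (Spec (CommRingCat.of k))) c} {cc : CurveCharts c ε}

/-- Over a local `k`-algebra every line is rigidifiable. -/
theorem rigidifiable_of_isLocalRing {A : Type u} [CommRing A] [Algebra k A] [IsLocalRing A]
    {L : cc.QCA A} (hL : L.IsLine) : cc.Rigidifiable L :=
  haveI := hL.inv1
  isRig_of_isLocalRing (cc.algEval A) L.N1

variable (D : AffineDictionary cc) (hc0 : cc.chart0.FiniteProjOverLine) (hF : FibreDomains cc)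

/-- Over a field, the classes in the Euler-characteristic cut are the classes of lines of Euler
characteristic `chi0`. -/
theorem mk_mem_pic_iff_of_field (K : Type u) [Field K] [Algebra k K] {L : cc.QCA K}
    (hL : L.IsLine) :
    LinePic.mk (cc.chartA K) L hL ∈ pic D (chiCut (ε := ε) D hc0) (cutAlg D hc0 hF) K ↔
      L.chiField K = chi0 cc := by
  rw [mk_mem_pic]
  constructor
  · rintro ⟨-, -, h⟩
    have p : PrimeSpectrum K := default
    rw [← chi_eq_chiField_of_field L p]
    exact h p
  · intro h
    refine ⟨hL, rigidifiable_of_isLocalRing hL, fun p => ?_⟩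
    rw [chi_eq_chiField_of_field L p]
    exact h

end Fermat.Agent.Jac.JGroup85Field

end
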