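/-
Programme JAC (S25), brick A5 "LiftNilp" (helper60).

Lifting along a surjective ring map `R → S` whose kernel consists of nilpotent elements
(more generally, for the Nakayama-type statements, whose kernel lies in the Jacobson radical):

* linear maps between base changes of projective modules lift;
* a lift of a bijective map between finitely generated projective modules is bijective,
  hence isomorphisms lift;
* finitely generated projective modules lift (idempotent matrix lifting);
* invertible modules lift to invertible modules;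
* units lift.

Everything is stated for `[Algebra R S]` with `Function.Surjective (algebraMap R S)`.
-/
import Mathlib

set_option autoImplicit false

namespace Fermat.Agent.Jac.LiftNilp

open TensorProduct

universe u v w w'

section Basics

variable {R : Type u} {S : Type v} [CommRing R] [CommRing S] [Algebra R S]

/-- For a surjective `algebraMap R S`, every element of `S ⊗[R] N` is of the form `1 ⊗ n`. -/
theorem mk_one_surjective (hs : Function.Surjective (algebraMap R S))
    (N : Type w) [AddCommGroup N] [Module R N] :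
    Function.Surjective (TensorProduct.mk R S N 1) := by
  intro x
  induction x using TensorProduct.induction_on with
  | zero => exact ⟨0, by simp⟩
  | tmul s n =>
    obtain ⟨r, rfl⟩ := hs s
    refine ⟨r • n, ?_⟩
    simp only [TensorProduct.mk_apply, TensorProduct.tmul_smul]
    rw [TensorProduct.smul_tmul', Algebra.smul_def, mul_one]
  | add x y hx hy =>
    obtain ⟨a, rfl⟩ := hx
    obtain ⟨b, rfl⟩ := hy
    exact ⟨a + b, map_add _ _ _⟩

/-- The `R`-linear equivalence `R ⧸ ker ≃ S` for a surjective `algebraMap R S`. -/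
noncomputable def quotKerEquiv (hs : Function.Surjective (algebraMap R S)) :
    (R ⧸ RingHom.ker (algebraMap R S)) ≃ₗ[R] S :=
  { RingHom.quotientKerEquivOfSurjective hs with
    map_smul' := by
      intro r x
      obtain ⟨y, rfl⟩ := Ideal.Quotient.mk_surjective x
      simp only [RingHom.id_apply]
      show RingHom.quotientKerEquivOfSurjective hs (r • Ideal.Quotient.mk _ y)
        = r • RingHom.quotientKerEquivOfSurjective hs (Ideal.Quotient.mk _ y)
      rw [Algebra.smul_def, Algebra.smul_def, map_mul]
      rfl }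

theorem quotKerEquiv_one (hs : Function.Surjective (algebraMap R S)) :
    quotKerEquiv hs 1 = 1 :=
  map_one (RingHom.quotientKerEquivOfSurjective hs)

/-- The kernel of `n ↦ 1 ⊗ n : N → S ⊗[R] N` is `ker(R → S) • N`. -/
theorem one_tmul_eq_zero_iff (hs : Function.Surjective (algebraMap R S))
    {N : Type w} [AddCommGroup N] [Module R N] (n : N) :
    (1 : S) ⊗ₜ[R] n = 0 ↔
      n ∈ (RingHom.ker (algebraMap R S)) • (⊤ : Submodule R N) := by
  constructor
  · intro h
    set I := RingHom.ker (algebraMap R S)
    let ψ : S ⊗[R] N →ₗ[R] N ⧸ (I • (⊤ : Submodule R N)) :=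
      (TensorProduct.quotTensorEquivQuotSMul N I).toLinearMap ∘ₗ
        ((quotKerEquiv hs).symm.toLinearMap.rTensor N)
    have h1 : ψ ((1 : S) ⊗ₜ[R] n) = Submodule.Quotient.mk n := by
      simp only [ψ, LinearMap.coe_comp, LinearEquiv.coe_coe, Function.comp_apply,
        LinearMap.rTensor_tmul]
      have : (quotKerEquiv hs).symm 1 = 1 := by
        rw [LinearEquiv.symm_apply_eq, quotKerEquiv_one]
      rw [this, TensorProduct.quotTensorEquivQuotSMul_mk_one_tmul]
    rw [h, map_zero] at h1
    exact (Submodule.Quotient.mk_eq_zero _).mp h1.symm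
  · intro h
    refine Submodule.smul_induction_on h ?_ ?_
    · intro r hr n _
      rw [TensorProduct.tmul_smul, TensorProduct.smul_tmul', Algebra.smul_def, mul_one,
        (RingHom.mem_ker).mp hr, TensorProduct.zero_tmul]
    · intro x y hx hy
      rw [TensorProduct.tmul_add, hx, hy, add_zero]

end Basics

section Nakayama

variable {R : Type u} {S : Type v} [CommRing R] [CommRing S] [Algebra R S]
variable {M : Type w} {N : Type w'} [AddCommGroup M] [AddCommGroup N] [Module R M] [Module R N]

/-- Nakayama: if `R → S` is surjective with kernel in the Jacobson radical, `N` is finitely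
generated and `S ⊗ φ` is surjective, then `φ` is surjective. -/
theorem surjective_of_baseChange_surjective (hs : Function.Surjective (algebraMap R S))
    (hjac : RingHom.ker (algebraMap R S) ≤ Ideal.jacobson ⊥) [Module.Finite R N]
    (φ : M →ₗ[R] N) (h : Function.Surjective (φ.baseChange S)) : Function.Surjective φ := by
  rw [← LinearMap.range_eq_top]
  apply le_antisymm le_top
  apply Submodule.le_of_le_smul_of_le_jacobson_bot Module.Finite.fg_top hjac
  intro n _
  obtain ⟨x, hx⟩ := h ((1 : S) ⊗ₜ n)
  obtain ⟨m, rfl⟩ := mk_one_surjective hs M x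
  rw [TensorProduct.mk_apply, LinearMap.baseChange_tmul] at hx
  have h0 : (1 : S) ⊗ₜ[R] (n - φ m) = 0 := by rw [TensorProduct.tmul_sub, hx, sub_self]
  rw [one_tmul_eq_zero_iff hs] at h0
  have hn : n = φ m + (n - φ m) := by abel
  rw [hn]
  exact Submodule.add_mem_sup (LinearMap.mem_range_self _ _) h0

/-- If `R → S` is surjective with kernel in the Jacobson radical, `M` is finitely generated,
`N` is finitely generated projective and `S ⊗ φ` is bijective, then `φ` is bijective. -/
theorem bijective_of_baseChange_bijective (hs : Function.Surjective (algebraMap R S))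
    (hjac : RingHom.ker (algebraMap R S) ≤ Ideal.jacobson ⊥)
    [Module.Finite R M] [Module.Finite R N] [Module.Projective R N]
    (φ : M →ₗ[R] N) (h : Function.Bijective (φ.baseChange S)) : Function.Bijective φ := by
  have hsurj := surjective_of_baseChange_surjective hs hjac φ h.2
  refine ⟨?_, hsurj⟩
  obtain ⟨σ, hσ⟩ := Module.projective_lifting_property φ LinearMap.id hsurj
  have hσ' : ∀ n, φ (σ n) = n := fun n => by
    have := LinearMap.congr_fun hσ n
    simpa using this
  set π : M →ₗ[R] M := LinearMap.id - σ ∘ₗ φ with hπ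
  have hπm : ∀ m ∈ LinearMap.ker φ, π m = m := by
    intro m hm
    simp [hπ, LinearMap.mem_ker.mp hm]
  have hK : LinearMap.ker φ = LinearMap.range π := by
    apply le_antisymm
    · intro m hm
      exact ⟨m, hπm m hm⟩
    · rintro _ ⟨m, rfl⟩
      rw [LinearMap.mem_ker]
      simp [hπ, hσ']
  have hfg : (LinearMap.ker φ).FG := by
    rw [hK, LinearMap.range_eq_map]
    exact Module.Finite.fg_top.map π
  rw [← LinearMap.ker_eq_bot]
  refine Submodule.eq_bot_of_le_smul_of_le_jacobson_bot _ _ hfg ?_ hjac
  intro m hm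
  have h0 : (1 : S) ⊗ₜ[R] m = 0 := by
    apply h.1
    rw [LinearMap.baseChange_tmul, LinearMap.mem_ker.mp hm, TensorProduct.tmul_zero, map_zero]
  rw [one_tmul_eq_zero_iff hs] at h0
  have h1 : π m ∈ Submodule.map π (RingHom.ker (algebraMap R S) • ⊤) :=
    Submodule.mem_map_of_mem h0
  rw [Submodule.map_smul'', Submodule.map_top, ← hK, hπm m hm] at h1
  exact h1

end Nakayama

section LiftMaps

variable {R : Type u} {S : Type v} [CommRing R] [CommRing S] [Algebra R S]
variable {M : Type w} {N : Type w'} [AddCommGroup M] [AddCommGroup N] [Module R M] [Module R N]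

/-- Two `S`-linear maps out of `S ⊗[R] M` agreeing on all `1 ⊗ m` are equal. -/
theorem baseChange_hom_ext {Q : Type*} [AddCommGroup Q] [Module S Q]
    {g g' : S ⊗[R] M →ₗ[S] Q} (h : ∀ m : M, g ((1 : S) ⊗ₜ m) = g' ((1 : S) ⊗ₜ m)) : g = g' := by
  apply LinearMap.ext
  intro x
  induction x using TensorProduct.induction_on with
  | zero => rw [map_zero, map_zero]
  | tmul s m =>
    have : s ⊗ₜ[R] m = s • ((1 : S) ⊗ₜ[R] m) := by
      rw [TensorProduct.smul_tmul', smul_eq_mul, mul_one]
    rw [this, map_smul, map_smul, h]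
  | add x y hx hy => rw [map_add, map_add, hx, hy]

/-- Linear maps between base changes lift, when the source is projective and `R → S` is
surjective. -/
theorem exists_lift_linearMap (hs : Function.Surjective (algebraMap R S))
    [Module.Projective R M] (g : S ⊗[R] M →ₗ[S] S ⊗[R] N) :
    ∃ φ : M →ₗ[R] N, φ.baseChange S = g := by
  let p : N →ₗ[R] S ⊗[R] N := TensorProduct.mk R S N 1
  let q : M →ₗ[R] S ⊗[R] N := (g.restrictScalars R) ∘ₗ TensorProduct.mk R S M 1
  obtain ⟨φ, hφ⟩ := Module.projective_lifting_property p q (mk_one_surjective hs N)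
  refine ⟨φ, baseChange_hom_ext fun m => ?_⟩
  have := LinearMap.congr_fun hφ m
  simpa [p, q] using this

/-- Isomorphisms between base changes of finitely generated projective modules lift, when
`R → S` is surjective with kernel in the Jacobson radical. -/
theorem exists_lift_linearEquiv (hs : Function.Surjective (algebraMap R S))
    (hjac : RingHom.ker (algebraMap R S) ≤ Ideal.jacobson ⊥)
    [Module.Finite R M] [Module.Projective R M] [Module.Finite R N] [Module.Projective R N]
    (g : S ⊗[R] M ≃ₗ[S] S ⊗[R] N) :
    ∃ e : M ≃ₗ[R] N, e.baseChange R S M N = g := by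
  obtain ⟨φ, hφ⟩ := exists_lift_linearMap hs (g : S ⊗[R] M →ₗ[S] S ⊗[R] N)
  have hbij : Function.Bijective φ := by
    apply bijective_of_baseChange_bijective hs hjac
    rw [hφ]
    exact g.bijective
  refine ⟨LinearEquiv.ofBijective φ hbij, ?_⟩
  apply LinearEquiv.toLinearMap_injective
  rw [LinearEquiv.coe_baseChange]
  exact hφ

/-- Any two lifts of the same module are isomorphic (compatibly). -/
theorem exists_linearEquiv_of_baseChange_equiv (hs : Function.Surjective (algebraMap R S))
    (hjac : RingHom.ker (algebraMap R S) ≤ Ideal.jacobson ⊥)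
    [Module.Finite R M] [Module.Projective R M] [Module.Finite R N] [Module.Projective R N]
    {P : Type*} [AddCommGroup P] [Module S P]
    (a : S ⊗[R] M ≃ₗ[S] P) (b : S ⊗[R] N ≃ₗ[S] P) :
    ∃ e : M ≃ₗ[R] N, ∀ m : M, b ((1 : S) ⊗ₜ e m) = a ((1 : S) ⊗ₜ m) := by
  obtain ⟨e, he⟩ := exists_lift_linearEquiv hs hjac (a.trans b.symm)
  refine ⟨e, fun m => ?_⟩
  have := LinearEquiv.congr_fun he ((1 : S) ⊗ₜ m)
  rw [LinearEquiv.baseChange_tmul, LinearEquiv.trans_apply] at this
  rw [this, LinearEquiv.apply_symm_apply]

end LiftMaps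

section Matrices

/-- A square matrix all of whose entries are killed by `f` is nilpotent, if all elements of
`ker f` are nilpotent. -/
theorem isNilpotent_of_mem_ker_mapMatrix {R : Type*} {S : Type*} [CommRing R] [CommRing S]
    (f : R →+* S) (hnil : ∀ x ∈ RingHom.ker f, IsNilpotent x)
    {n : Type*} [Fintype n] [DecidableEq n]
    (A : Matrix n n R) (hA : A ∈ RingHom.ker (f.mapMatrix (m := n))) : IsNilpotent A := by
  classical
  let J : Ideal R := Ideal.span (Set.range fun p : n × n => A p.1 p.2)
  have hJfg : J.FG := Submodule.fg_span (Set.finite_range _)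
  have hJle : J ≤ nilradical R := by
    rw [Ideal.span_le]
    rintro _ ⟨p, rfl⟩
    apply hnil
    have h := RingHom.mem_ker.mp hA
    have := congrArg (fun M : Matrix n n S => M p.1 p.2) h
    simpa using this
  obtain ⟨k, hk⟩ := (hJfg.isNilpotent_iff_le_nilradical).mpr hJle
  have key : ∀ j : ℕ, ∀ a b, (A ^ j) a b ∈ J ^ j := by
    intro j
    induction j with
    | zero => intro a b; simp
    | succ j ih =>
      intro a b
      rw [pow_succ J, pow_succ A, Matrix.mul_apply]
      exact Ideal.sum_mem _ fun c _ =>
        Ideal.mul_mem_mul (ih a c) (Ideal.subset_span ⟨(c, b), rfl⟩)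
  refine ⟨k, ?_⟩
  ext a b
  have := key k a b
  rw [hk] at this
  simpa using this

theorem mapMatrix_surjective {R : Type*} {S : Type*} [CommRing R] [CommRing S]
    (f : R →+* S) (hf : Function.Surjective f) {n : Type*} [Fintype n] [DecidableEq n] :
    Function.Surjective (f.mapMatrix (m := n)) := by
  intro E
  choose g hg using hf
  exact ⟨Matrix.of fun i j => g (E i j), by ext i j; simp [hg]⟩

/-- Idempotent matrices lift along a surjection with nil kernel. -/
theorem exists_idempotent_matrix_lift {R : Type*} {S : Type*} [CommRing R] [CommRing S]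
    (f : R →+* S) (hf : Function.Surjective f) (hnil : ∀ x ∈ RingHom.ker f, IsNilpotent x)
    {n : Type*} [Fintype n] [DecidableEq n] (E : Matrix n n S) (hE : E * E = E) :
    ∃ E' : Matrix n n R, E' * E' = E' ∧ E'.map f = E := by
  obtain ⟨E', h1, h2⟩ := exists_isIdempotentElem_eq_of_ker_isNilpotent (f.mapMatrix (m := n))
    (fun A hA => isNilpotent_of_mem_ker_mapMatrix f hnil A hA) E
    (by obtain ⟨A, hA⟩ := mapMatrix_surjective f hf E; exact ⟨A, hA⟩) hE
  exact ⟨E', h1, h2⟩

end Matrices

section Projective

/-- Two retracts of the same module with the same associated idempotent are isomorphic. -/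
def equivOfRetracts {A : Type*} [CommRing A] {X Y Z : Type*}
    [AddCommGroup X] [AddCommGroup Y] [AddCommGroup Z] [Module A X] [Module A Y] [Module A Z]
    (i₁ : X →ₗ[A] Z) (s₁ : Z →ₗ[A] X) (h₁ : s₁ ∘ₗ i₁ = LinearMap.id)
    (i₂ : Y →ₗ[A] Z) (s₂ : Z →ₗ[A] Y) (h₂ : s₂ ∘ₗ i₂ = LinearMap.id)
    (h : i₁ ∘ₗ s₁ = i₂ ∘ₗ s₂) : X ≃ₗ[A] Y :=
  LinearEquiv.ofLinearMap (s₂ ∘ₗ i₁) (s₁ ∘ₗ i₂)
    (by
      ext y
      have e1 : ∀ z, i₁ (s₁ z) = i₂ (s₂ z) := fun z => LinearMap.congr_fun h z
      have e2 : ∀ y, s₂ (i₂ y) = y := fun y => LinearMap.congr_fun h₂ y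
      simp [e1, e2])
    (by
      ext x
      have e1 : ∀ z, i₂ (s₂ z) = i₁ (s₁ z) := fun z => (LinearMap.congr_fun h z).symm
      have e2 : ∀ x, s₁ (i₁ x) = x := fun x => LinearMap.congr_fun h₁ x
      simp [e1, e2])

variable {R : Type u} {S : Type v} [CommRing R] [CommRing S] [Algebra R S]

/-- Finitely generated projective modules lift along a surjection with nil kernel. -/
theorem exists_lift_projective (hs : Function.Surjective (algebraMap R S))
    (hnil : ∀ x ∈ RingHom.ker (algebraMap R S), IsNilpotent x)
    (P : Type w) [AddCommGroup P] [Module S P] [Module.Finite S P] [Module.Projective S P] :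
    ∃ (P' : Type u) (_ : AddCommGroup P') (_ : Module R P'),
      Module.Finite R P' ∧ Module.Projective R P' ∧ Nonempty (S ⊗[R] P' ≃ₗ[S] P) := by
  classical
  obtain ⟨n, fP, g, -, -, hfg⟩ := Module.Finite.exists_comp_eq_id_of_projective S P
  have hfg' : ∀ p, fP (g p) = p := fun p => LinearMap.congr_fun hfg p
  let ε : (Fin n → S) →ₗ[S] (Fin n → S) := g ∘ₗ fP
  have hεε : ε ∘ₗ ε = ε := by
    apply LinearMap.ext
    intro v
    simp [ε, hfg']
  let E : Matrix (Fin n) (Fin n) S := LinearMap.toMatrix' ε
  have hE : E * E = E := by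
    rw [← LinearMap.toMatrix'_comp, hεε]
  obtain ⟨E', hE', hmap⟩ := exists_idempotent_matrix_lift (algebraMap R S) hs hnil E hE
  let ε' : (Fin n → R) →ₗ[R] (Fin n → R) := Matrix.toLin' E'
  have hε' : ε' ∘ₗ ε' = ε' := by rw [← Matrix.toLin'_mul, hE']
  have hε'' : ∀ v, ε' (ε' v) = ε' v := fun v => LinearMap.congr_fun hε' v
  let P' : Submodule R (Fin n → R) := LinearMap.range ε'
  let i' : P' →ₗ[R] (Fin n → R) := P'.subtype
  let s' : (Fin n → R) →ₗ[R] P' := ε'.rangeRestrict
  have hs'i' : s' ∘ₗ i' = LinearMap.id := by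
    apply LinearMap.ext
    rintro ⟨_, ⟨v, rfl⟩⟩
    apply Subtype.ext
    simp [s', i', hε'']
  have hi's' : i' ∘ₗ s' = ε' := by
    apply LinearMap.ext
    intro v
    rfl
  refine ⟨P', inferInstance, inferInstance, ?_, ?_, ⟨?_⟩⟩
  · exact Module.Finite.range ε'
  · exact Module.Projective.of_split i' s' hs'i'
  · let c : S ⊗[R] (Fin n → R) ≃ₗ[S] (Fin n → S) := TensorProduct.piScalarRight R S S (Fin n)
    have hc : c.toLinearMap ∘ₗ ε'.baseChange S = ε ∘ₗ c.toLinearMap := by
      apply baseChange_hom_ext
      intro v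
      ext j
      have h1 : ε = Matrix.toLin' E := (Matrix.toLin'_toMatrix' ε).symm
      simp only [LinearMap.coe_comp, LinearEquiv.coe_coe, Function.comp_apply,
        LinearMap.baseChange_tmul, c, TensorProduct.piScalarRight_apply,
        TensorProduct.piScalarRightHom_tmul]
      rw [h1, Matrix.toLin'_apply, ← hmap]
      have h2 : (fun j => v j • (1 : S)) = (algebraMap R S) ∘ v := by
        ext j
        simp [Algebra.smul_def]
      rw [h2, Matrix.toLin'_apply, ← RingHom.map_mulVec, Algebra.smul_def, mul_one]
    refine equivOfRetracts (c.toLinearMap ∘ₗ i'.baseChange S)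
      (s'.baseChange S ∘ₗ c.symm.toLinearMap) ?_ g fP hfg ?_
    · rw [LinearMap.comp_assoc, ← LinearMap.comp_assoc _ _ c.symm.toLinearMap]
      simp only [LinearEquiv.symm_comp, LinearMap.id_comp]
      rw [← LinearMap.baseChange_comp, hs'i', LinearMap.baseChange_id]
    · rw [LinearMap.comp_assoc, ← LinearMap.comp_assoc _ _ (i'.baseChange S),
        ← LinearMap.baseChange_comp, hi's', ← LinearMap.comp_assoc, hc, LinearMap.comp_assoc]
      simp only [LinearEquiv.comp_symm, LinearMap.comp_id]
      rfl

end Projective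

section Invertible

variable {R : Type u} {S : Type v} [CommRing R] [CommRing S] [Algebra R S]

/-- A kernel consisting of nilpotent elements lies in the Jacobson radical. -/
theorem ker_le_jacobson_of_nil (hnil : ∀ x ∈ RingHom.ker (algebraMap R S), IsNilpotent x) :
    RingHom.ker (algebraMap R S) ≤ Ideal.jacobson ⊥ := by
  intro x hx
  rw [Ideal.jacobson_bot]
  exact nilradical_le_jacobson R (mem_nilradical.mpr (hnil x hx))

/-- If `R → S` is surjective with nil kernel, a finitely generated projective `R`-module whose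
base change to `S` is invertible is invertible. -/
theorem invertible_of_baseChange_invertible (hs : Function.Surjective (algebraMap R S))
    (hnil : ∀ x ∈ RingHom.ker (algebraMap R S), IsNilpotent x)
    (P' : Type w) [AddCommGroup P'] [Module R P'] [Module.Finite R P'] [Module.Projective R P']
    [Module.Invertible S (S ⊗[R] P')] : Module.Invertible R P' := by
  obtain ⟨Q', _, _, hQfin, hQproj, ⟨eQ⟩⟩ :=
    exists_lift_projective hs hnil (Module.Dual S (S ⊗[R] P'))
  have e1 : S ⊗[R] (P' ⊗[R] Q') ≃ₗ[S] S ⊗[R] R :=
    (TensorProduct.AlgebraTensorModule.distribBaseChange R S P' Q') ≪≫ₗ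
    (TensorProduct.congr (LinearEquiv.refl S (S ⊗[R] P')) eQ) ≪≫ₗ
    (TensorProduct.comm S (S ⊗[R] P') (Module.Dual S (S ⊗[R] P'))) ≪≫ₗ
    (Module.Invertible.linearEquiv S (S ⊗[R] P')) ≪≫ₗ
    (TensorProduct.AlgebraTensorModule.rid R S S).symm
  obtain ⟨e, -⟩ := exists_lift_linearEquiv hs (ker_le_jacobson_of_nil hnil) e1
  exact Module.Invertible.left e

/-- Invertible modules lift along a surjection with nil kernel. -/
theorem exists_lift_invertible (hs : Function.Surjective (algebraMap R S))
    (hnil : ∀ x ∈ RingHom.ker (algebraMap R S), IsNilpotent x)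
    (P : Type w) [AddCommGroup P] [Module S P] [Module.Invertible S P] :
    ∃ (P' : Type u) (_ : AddCommGroup P') (_ : Module R P'),
      Module.Invertible R P' ∧ Nonempty (S ⊗[R] P' ≃ₗ[S] P) := by
  obtain ⟨P', _, _, hfin, hproj, ⟨e⟩⟩ := exists_lift_projective hs hnil P
  have : Module.Invertible S (S ⊗[R] P') := Module.Invertible.congr e.symm
  exact ⟨P', inferInstance, inferInstance,
    invertible_of_baseChange_invertible hs hnil P', ⟨e⟩⟩

end Invertible

section Units

variable {R : Type u} {S : Type v} [CommRing R] [CommRing S] [Algebra R S]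

/-- If `R → S` has nil kernel, an element mapping to a unit is a unit. -/
theorem isUnit_of_isUnit_algebraMap
    (hnil : ∀ x ∈ RingHom.ker (algebraMap R S), IsNilpotent x)
    (hs : Function.Surjective (algebraMap R S))
    (x : R) (hx : IsUnit (algebraMap R S x)) : IsUnit x := by
  obtain ⟨u, hu⟩ := hx
  obtain ⟨y, hy⟩ := hs (↑u⁻¹ : S)
  have h1 : x * y - 1 ∈ RingHom.ker (algebraMap R S) := by
    rw [RingHom.mem_ker, map_sub, map_mul, map_one, hy, ← hu, Units.mul_inv, sub_self]
  have h2 : IsUnit (x * y) := by
    have := (hnil _ h1).isUnit_add_one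
    simpa using this
  exact isUnit_of_mul_isUnit_left h2

/-- Units lift along a surjection with nil kernel. -/
theorem units_map_surjective
    (hnil : ∀ x ∈ RingHom.ker (algebraMap R S), IsNilpotent x)
    (hs : Function.Surjective (algebraMap R S)) :
    Function.Surjective (Units.map (algebraMap R S : R →* S)) := by
  intro u
  obtain ⟨x, hx⟩ := hs (u : S)
  have hxu : IsUnit x := isUnit_of_isUnit_algebraMap hnil hs x (hx ▸ u.isUnit)
  refine ⟨hxu.unit, Units.ext ?_⟩
  simpa using hx

end Units

section TensorNil

/-- A nilpotent kernel (as an ideal) consists of nilpotent elements. -/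
theorem nil_of_isNilpotent_ideal {R : Type*} [CommRing R] (I : Ideal R) (hI : IsNilpotent I) :
    ∀ x ∈ I, IsNilpotent x := by
  intro x hx
  obtain ⟨n, hn⟩ := hI
  refine ⟨n, ?_⟩
  have : x ^ n ∈ I ^ n := Ideal.pow_mem_pow hx n
  rw [hn] at this
  simpa using this

variable {k A A₀ B : Type*} [CommRing k] [CommRing A] [CommRing A₀] [CommRing B]
  [Algebra k A] [Algebra k A₀] [Algebra k B]

/-- Base change (on the right) of a surjection with nil kernel has nil kernel. -/
theorem ker_map_id_nil (f : A →ₐ[k] A₀) (hf : Function.Surjective f)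
    (hnil : ∀ x ∈ RingHom.ker f, IsNilpotent x) :
    ∀ x ∈ RingHom.ker (Algebra.TensorProduct.map f (AlgHom.id k B)), IsNilpotent x := by
  intro x hx
  rw [Algebra.TensorProduct.rTensor_ker f hf] at hx
  have hle : (RingHom.ker f).map (Algebra.TensorProduct.includeLeft : A →ₐ[k] A ⊗[k] B) ≤
      nilradical (A ⊗[k] B) := by
    rw [Ideal.map_le_iff_le_comap]
    intro a ha
    rw [Ideal.mem_comap, mem_nilradical]
    exact (hnil a ha).map _
  exact mem_nilradical.mp (hle hx)

/-- Base change (on the left) of a surjection with nil kernel has nil kernel. -/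
theorem ker_id_map_nil (f : A →ₐ[k] A₀) (hf : Function.Surjective f)
    (hnil : ∀ x ∈ RingHom.ker f, IsNilpotent x) :
    ∀ x ∈ RingHom.ker (Algebra.TensorProduct.map (AlgHom.id k B) f), IsNilpotent x := by
  intro x hx
  rw [Algebra.TensorProduct.lTensor_ker f hf] at hx
  have hle : (RingHom.ker f).map (Algebra.TensorProduct.includeRight : A →ₐ[k] B ⊗[k] A) ≤
      nilradical (B ⊗[k] A) := by
    rw [Ideal.map_le_iff_le_comap]
    intro a ha
    rw [Ideal.mem_comap, mem_nilradical]
    exact (hnil a ha).map _
  exact mem_nilradical.mp (hle hx)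

theorem map_id_surjective (f : A →ₐ[k] A₀) (hf : Function.Surjective f) :
    Function.Surjective (Algebra.TensorProduct.map f (AlgHom.id k B)) :=
  Algebra.TensorProduct.map_surjective f (AlgHom.id k B) hf Function.surjective_id

theorem id_map_surjective (f : A →ₐ[k] A₀) (hf : Function.Surjective f) :
    Function.Surjective (Algebra.TensorProduct.map (AlgHom.id k B) f) :=
  Algebra.TensorProduct.map_surjective (AlgHom.id k B) f Function.surjective_id hf

end TensorNil

end Fermat.Agent.Jac.LiftNilp
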