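import Mathlib

/-!
# JAC brick A5: lifting along nilpotent thickenings

`A → B` a surjective ring map with nilpotent kernel (given as an algebra `[Algebra A B]`).

* `ker_mk_one` : `ker (m ↦ 1 ⊗ m : M → B ⊗[A] M) = ker(A → B) • ⊤`.
* `exists_lift_linearMap` : `B`-linear maps between base changes lift (source projective).
* `bijective_of_baseChange_eq_id` : an endomorphism that is the identity after base change
  is bijective.
* `exists_lift_linearEquiv` : `B`-linear isomorphisms between base changes of projective
  modules lift to `A`-linear isomorphisms.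
* `exists_lift_unit` : units lift.
* `exists_lift_projective` : finite projective `B`-modules lift to finite projective `A`-modules.
* `invertible_of_baseChange`, `exists_lift_invertible` : invertible modules lift.
-/

set_option autoImplicit false

open TensorProduct

namespace Fermat.Agent.Jac.LiftNilp75

universe u v w

variable {A : Type u} {B : Type v} [CommRing A] [CommRing B] [Algebra A B]

/-- Kernel of `m ↦ 1 ⊗ m` for a surjective `A → B`. -/
theorem ker_mk_one (hs : Function.Surjective (algebraMap A B))
    (M : Type w) [AddCommGroup M] [Module A M] :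
    LinearMap.ker (TensorProduct.mk A B M 1) =
      RingHom.ker (algebraMap A B) • (⊤ : Submodule A M) := by
  have hs' : Function.Surjective (Algebra.ofId A B) := hs
  let e : (A ⧸ RingHom.ker (Algebra.ofId A B)) ≃ₐ[A] B :=
    Ideal.quotientKerAlgEquivOfSurjective hs'
  have h1 : TensorProduct.mk A B M 1 =
      (e.toLinearEquiv.rTensor M).toLinearMap ∘ₗ
        TensorProduct.mk A (A ⧸ RingHom.ker (Algebra.ofId A B)) M 1 := by
    ext m
    simp
  rw [h1, LinearEquiv.ker_comp, LinearMap.ker_tensorProductMk]
  rfl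

theorem one_tmul_eq_zero_iff (hs : Function.Surjective (algebraMap A B))
    {M : Type w} [AddCommGroup M] [Module A M] (m : M) :
    (1 : B) ⊗ₜ[A] m = 0 ↔ m ∈ RingHom.ker (algebraMap A B) • (⊤ : Submodule A M) := by
  rw [← ker_mk_one hs M, LinearMap.mem_ker, TensorProduct.mk_apply]

/-- `B`-linear maps between base changes lift to `A`-linear maps (source projective). -/
theorem exists_lift_linearMap (hs : Function.Surjective (algebraMap A B))
    {M : Type w} {M' : Type*} [AddCommGroup M] [Module A M] [AddCommGroup M'] [Module A M']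
    [Module.Projective A M] (g : B ⊗[A] M →ₗ[B] B ⊗[A] M') :
    ∃ φ : M →ₗ[A] M', φ.baseChange B = g := by
  obtain ⟨φ, hφ⟩ := Module.projective_lifting_property (TensorProduct.mk A B M' 1)
    ((g.restrictScalars A) ∘ₗ TensorProduct.mk A B M 1) (TensorProduct.mk_surjective A M' B hs)
  refine ⟨φ, ?_⟩
  ext m
  simpa using LinearMap.congr_fun hφ m

section Nilpotent

variable (hs : Function.Surjective (algebraMap A B))
  (hn : IsNilpotent (RingHom.ker (algebraMap A B)))

include hs in
/-- A map which dies after base change has image in `I • ⊤`. -/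
theorem mem_smul_top_of_baseChange_eq_zero
    {M : Type w} {M' : Type*} [AddCommGroup M] [Module A M] [AddCommGroup M'] [Module A M']
    (δ : M →ₗ[A] M') (h : δ.baseChange B = 0) (m : M) :
    δ m ∈ RingHom.ker (algebraMap A B) • (⊤ : Submodule A M') := by
  rw [← one_tmul_eq_zero_iff hs]
  have := LinearMap.congr_fun h ((1 : B) ⊗ₜ[A] m)
  simpa using this

include hs in
theorem pow_apply_mem_of_baseChange_eq_zero
    {M : Type w} [AddCommGroup M] [Module A M]
    (δ : Module.End A M) (h : δ.baseChange B = 0) (j : ℕ) (m : M) :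
    (δ ^ j) m ∈ (RingHom.ker (algebraMap A B)) ^ j • (⊤ : Submodule A M) := by
  induction j generalizing m with
  | zero => simp
  | succ j ih =>
    rw [pow_succ δ j, Module.End.mul_apply]
    have h1 := mem_smul_top_of_baseChange_eq_zero hs δ h m
    -- `δ m ∈ I • ⊤`; apply `δ^j`, which maps `I • ⊤` into `I^(j+1) • ⊤`
    refine Submodule.smul_induction_on h1 (fun a ha x _ => ?_) (fun x y hx hy => ?_)
    · rw [map_smul, pow_succ' (RingHom.ker (algebraMap A B)) j, Submodule.mul_smul]
      exact Submodule.smul_mem_smul ha (ih x)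
    · rw [map_add]
      exact add_mem hx hy

include hs hn in
/-- An endomorphism dying after base change along a nilpotent thickening is nilpotent. -/
theorem isNilpotent_of_baseChange_eq_zero
    {M : Type w} [AddCommGroup M] [Module A M]
    (δ : Module.End A M) (h : δ.baseChange B = 0) : IsNilpotent δ := by
  obtain ⟨k, hk⟩ := hn
  refine ⟨k, LinearMap.ext fun m => ?_⟩
  have := pow_apply_mem_of_baseChange_eq_zero hs δ h k m
  rw [hk] at this
  simpa using this

include hs hn in
/-- An endomorphism which is the identity after base change along a nilpotent thickening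
is bijective. -/
theorem bijective_of_baseChange_eq_id
    {M : Type w} [AddCommGroup M] [Module A M]
    (θ : Module.End A M) (h : θ.baseChange B = LinearMap.id) : Function.Bijective θ := by
  have hδ : (θ - 1 : Module.End A M).baseChange B = 0 := by
    have h1 : ((θ - 1 : Module.End A M)) = θ + (-1 : A) • (1 : Module.End A M) := by
      simp [sub_eq_add_neg]
    rw [h1, LinearMap.baseChange_add, LinearMap.baseChange_smul, h]
    ext x
    simp
  have hnil := isNilpotent_of_baseChange_eq_zero hs hn _ hδ
  have hu : IsUnit (1 + (θ - 1)) := hnil.isUnit_one_add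
  rw [add_sub_cancel] at hu
  exact (Module.End.isUnit_iff θ).1 hu

include hs hn in
/-- Isomorphisms between base changes of projective modules lift along nilpotent
thickenings. -/
theorem exists_lift_linearEquiv
    {M : Type w} {M' : Type*} [AddCommGroup M] [Module A M] [AddCommGroup M'] [Module A M']
    [Module.Projective A M] [Module.Projective A M'] (e : B ⊗[A] M ≃ₗ[B] B ⊗[A] M') :
    ∃ φ : M ≃ₗ[A] M', (φ : M →ₗ[A] M').baseChange B = e := by
  obtain ⟨φ, hφ⟩ := exists_lift_linearMap hs (e : B ⊗[A] M →ₗ[B] B ⊗[A] M')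
  obtain ⟨ψ, hψ⟩ := exists_lift_linearMap hs (e.symm : B ⊗[A] M' →ₗ[B] B ⊗[A] M)
  have h1 : Function.Bijective (ψ ∘ₗ φ) := by
    apply bijective_of_baseChange_eq_id hs hn (ψ ∘ₗ φ)
    rw [LinearMap.baseChange_comp, hφ, hψ]
    ext x
    simp
  have h2 : Function.Bijective (φ ∘ₗ ψ) := by
    apply bijective_of_baseChange_eq_id hs hn (φ ∘ₗ ψ)
    rw [LinearMap.baseChange_comp, hφ, hψ]
    ext x
    simp
  have hinj : Function.Injective φ := by
    have := h1.1
    rw [LinearMap.coe_comp] at this
    exact Function.Injective.of_comp this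
  have hsurj : Function.Surjective φ := by
    have := h2.2
    rw [LinearMap.coe_comp] at this
    exact Function.Surjective.of_comp this
  exact ⟨LinearEquiv.ofBijective φ ⟨hinj, hsurj⟩, by rw [← hφ]; rfl⟩

include hs hn in
/-- Units lift along nilpotent thickenings. -/
theorem exists_lift_unit (b : Bˣ) : ∃ a : Aˣ, algebraMap A B a = b := by
  obtain ⟨a, ha⟩ := hs b
  obtain ⟨a', ha'⟩ := hs ((b⁻¹ : Bˣ) : B)
  have hmem : a * a' - 1 ∈ RingHom.ker (algebraMap A B) := by
    rw [RingHom.mem_ker, map_sub, map_mul, ha, ha', map_one, Units.mul_inv, sub_self]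
  obtain ⟨k, hk⟩ := hn
  have hnil : IsNilpotent (a * a' - 1) := ⟨k, by
    have := Ideal.pow_mem_pow hmem k
    rw [hk] at this
    simpa using this⟩
  have hu : IsUnit (1 + (a * a' - 1)) := hnil.isUnit_one_add
  rw [add_sub_cancel] at hu
  have hua : IsUnit a := isUnit_of_mul_isUnit_left hu
  exact ⟨hua.unit, by simpa using ha⟩

/-- Base change of endomorphisms as a ring homomorphism (with transparent `toFun`). -/
def endBaseChangeRingHom (A : Type u) (B : Type v) [CommRing A] [CommRing B] [Algebra A B]
    (P : Type w) [AddCommGroup P] [Module A P] :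
    Module.End A P →+* Module.End B (B ⊗[A] P) where
  toFun x := x.baseChange B
  map_one' := LinearMap.baseChange_one A P
  map_mul' := LinearMap.baseChange_mul
  map_zero' := LinearMap.baseChange_zero
  map_add' := fun x y => LinearMap.baseChange_add x y

theorem endBaseChangeRingHom_apply {P : Type w} [AddCommGroup P] [Module A P]
    (x : Module.End A P) : endBaseChangeRingHom A B P x = x.baseChange B := rfl

include hs hn in
/-- Idempotent endomorphisms of the base change of a projective module lift. -/
theorem exists_lift_idempotent {P : Type w} [AddCommGroup P] [Module A P]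
    [Module.Projective A P] (ebar : Module.End B (B ⊗[A] P)) (hidem : IsIdempotentElem ebar) :
    ∃ p : Module.End A P, IsIdempotentElem p ∧ p.baseChange B = ebar := by
  have := exists_isIdempotentElem_eq_of_ker_isNilpotent
    (endBaseChangeRingHom A B P) ?_ ebar ?_ ?_
  · obtain ⟨p, hp, hpe⟩ := this
    exact ⟨p, hp, hpe⟩
  · intro x hx
    have hx' : x.baseChange B = 0 := hx
    exact isNilpotent_of_baseChange_eq_zero hs hn x hx'
  · obtain ⟨φ, hφ⟩ := exists_lift_linearMap hs ebar
    exact ⟨φ, hφ⟩
  · exact hidem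

theorem subtype_comp_rangeRestrict {P : Type w} [AddCommGroup P] [Module A P]
    (p : Module.End A P) : (LinearMap.range p).subtype ∘ₗ p.rangeRestrict = p :=
  LinearMap.ext fun _ => rfl

theorem rangeRestrict_comp_subtype {P : Type w} [AddCommGroup P] [Module A P]
    (p : Module.End A P) (hp : IsIdempotentElem p) :
    p.rangeRestrict ∘ₗ (LinearMap.range p).subtype = LinearMap.id := by
  refine LinearMap.ext fun m => Subtype.ext ?_
  obtain ⟨x, hx⟩ := m.2
  show p (m : P) = m
  rw [← hx]
  exact LinearMap.congr_fun hp.eq x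

theorem rangeRestrict_comp_comp_subtype {P : Type w} [AddCommGroup P] [Module A P]
    (p : Module.End A P) (hp : IsIdempotentElem p) :
    (p.rangeRestrict ∘ₗ p) ∘ₗ (LinearMap.range p).subtype = LinearMap.id := by
  refine LinearMap.ext fun m => Subtype.ext ?_
  obtain ⟨x, hx⟩ := m.2
  show p (p (m : P)) = m
  rw [← hx]
  have h := LinearMap.congr_fun hp.eq x
  rw [Module.End.mul_apply] at h
  rw [h, h]

/-- The base change of the range of an idempotent `p` is any retract `N` of `B ⊗ P` cut out
by `p.baseChange B`. -/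
theorem nonempty_baseChange_range_equiv {P : Type w} [AddCommGroup P] [Module A P]
    {N : Type*} [AddCommGroup N] [Module B N]
    (p : Module.End A P) (hp : IsIdempotentElem p)
    (f : B ⊗[A] P →ₗ[B] N) (s : N →ₗ[B] B ⊗[A] P) (hfs : f ∘ₗ s = LinearMap.id)
    (hsf : s ∘ₗ f = p.baseChange B) :
    Nonempty (B ⊗[A] (LinearMap.range p) ≃ₗ[B] N) := by
  refine ⟨LinearEquiv.ofLinearMap (f ∘ₗ (LinearMap.range p).subtype.baseChange B)
    (p.rangeRestrict.baseChange B ∘ₗ s) ?_ ?_⟩
  · calc (f ∘ₗ (LinearMap.range p).subtype.baseChange B) ∘ₗ (p.rangeRestrict.baseChange B ∘ₗ s)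
        = f ∘ₗ (((LinearMap.range p).subtype ∘ₗ p.rangeRestrict).baseChange B) ∘ₗ s := by
          rw [LinearMap.baseChange_comp]; rfl
      _ = f ∘ₗ (s ∘ₗ f) ∘ₗ s := by rw [subtype_comp_rangeRestrict, hsf]
      _ = (f ∘ₗ s) ∘ₗ (f ∘ₗ s) := rfl
      _ = LinearMap.id := by rw [hfs, LinearMap.id_comp]
  · calc (p.rangeRestrict.baseChange B ∘ₗ s) ∘ₗ (f ∘ₗ (LinearMap.range p).subtype.baseChange B)
        = p.rangeRestrict.baseChange B ∘ₗ (s ∘ₗ f) ∘ₗ (LinearMap.range p).subtype.baseChange B :=
          rfl
      _ = ((p.rangeRestrict ∘ₗ p) ∘ₗ (LinearMap.range p).subtype).baseChange B := by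
          rw [hsf, LinearMap.baseChange_comp, LinearMap.baseChange_comp]; rfl
      _ = LinearMap.id := by
          rw [rangeRestrict_comp_comp_subtype p hp, LinearMap.baseChange_id]

theorem projective_range_of_idempotent {P : Type w} [AddCommGroup P] [Module A P]
    [Module.Projective A P] (p : Module.End A P) (hp : IsIdempotentElem p) :
    Module.Projective A (LinearMap.range p) :=
  Module.Projective.of_split (LinearMap.range p).subtype p.rangeRestrict
    (rangeRestrict_comp_subtype p hp)

include hs hn in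
/-- Finite projective modules lift along nilpotent thickenings. -/
theorem exists_lift_projective (N : Type*) [AddCommGroup N] [Module B N]
    [Module.Finite B N] [Module.Projective B N] :
    ∃ (M : Type u) (_ : AddCommGroup M) (_ : Module A M), Module.Finite A M ∧
      Module.Projective A M ∧ Nonempty (B ⊗[A] M ≃ₗ[B] N) := by
  obtain ⟨n, f0, hf0⟩ := Module.Finite.exists_fin' B N
  have hf : Function.Surjective
      (f0 ∘ₗ (TensorProduct.piScalarRight A B B (Fin n)).toLinearMap) := by
    rw [LinearMap.coe_comp]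
    exact hf0.comp (TensorProduct.piScalarRight A B B (Fin n)).surjective
  obtain ⟨s, hs'⟩ := Module.projective_lifting_property _ LinearMap.id hf
  have hidem : IsIdempotentElem
      (s ∘ₗ (f0 ∘ₗ (TensorProduct.piScalarRight A B B (Fin n)).toLinearMap) :
        Module.End B (B ⊗[A] (Fin n → A))) := by
    show (s ∘ₗ _) ∘ₗ (s ∘ₗ _) = s ∘ₗ _
    rw [LinearMap.comp_assoc, ← LinearMap.comp_assoc _ s _, hs', LinearMap.id_comp]
  obtain ⟨p, hp, hpe⟩ := exists_lift_idempotent hs hn _ hidem
  exact ⟨LinearMap.range p, inferInstance, inferInstance, Module.Finite.range p,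
    projective_range_of_idempotent p hp,
    nonempty_baseChange_range_equiv p hp _ s hs' hpe.symm⟩

include hs hn in
/-- A finite projective module whose base change along a nilpotent thickening is invertible
is invertible. -/
theorem invertible_of_baseChange {M : Type w} [AddCommGroup M] [Module A M]
    [Module.Projective A M] (h : Module.Invertible B (B ⊗[A] M)) : Module.Invertible A M := by
  obtain ⟨M', _, _, _, _, ⟨e'⟩⟩ :=
    exists_lift_projective hs hn (Module.Dual B (B ⊗[A] M))
  let e1 : B ⊗[A] (M ⊗[A] M') ≃ₗ[B] (B ⊗[A] M) ⊗[B] (B ⊗[A] M') :=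
    AlgebraTensorModule.distribBaseChange A B M M'
  let e2 : (B ⊗[A] M) ⊗[B] (B ⊗[A] M') ≃ₗ[B] (B ⊗[A] M) ⊗[B] Module.Dual B (B ⊗[A] M) :=
    TensorProduct.congr (LinearEquiv.refl B _) e'
  let e3 : (B ⊗[A] M) ⊗[B] Module.Dual B (B ⊗[A] M) ≃ₗ[B] B :=
    TensorProduct.comm B _ _ ≪≫ₗ Module.Invertible.linearEquiv B (B ⊗[A] M)
  let e4 : B ≃ₗ[B] B ⊗[A] A := (AlgebraTensorModule.rid A B B).symm
  obtain ⟨φ, -⟩ := exists_lift_linearEquiv hs hn (e1 ≪≫ₗ e2 ≪≫ₗ e3 ≪≫ₗ e4)
  exact Module.Invertible.left φ

include hs hn in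
/-- Invertible modules lift along nilpotent thickenings. -/
theorem exists_lift_invertible (N : Type*) [AddCommGroup N] [Module B N]
    [Module.Invertible B N] :
    ∃ (M : Type u) (_ : AddCommGroup M) (_ : Module A M), Module.Invertible A M ∧
      Nonempty (B ⊗[A] M ≃ₗ[B] N) := by
  obtain ⟨M, _, _, _, _, ⟨e⟩⟩ := exists_lift_projective hs hn N
  have h : Module.Invertible B (B ⊗[A] M) := Module.Invertible.congr e.symm
  exact ⟨M, inferInstance, inferInstance, invertible_of_baseChange hs hn h, ⟨e⟩⟩

include hs hn in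
/-- `IsBaseChange` form of `exists_lift_linearEquiv`: an isomorphism between two `B`-modules
which are base changes of projective `A`-modules lifts. -/
theorem exists_lift_linearEquiv_of_isBaseChange
    {M : Type w} {M' : Type*} {N N' : Type*}
    [AddCommGroup M] [Module A M] [AddCommGroup M'] [Module A M']
    [AddCommGroup N] [Module A N] [Module B N] [IsScalarTower A B N]
    [AddCommGroup N'] [Module A N'] [Module B N'] [IsScalarTower A B N']
    [Module.Projective A M] [Module.Projective A M']
    {ι : M →ₗ[A] N} (hι : IsBaseChange B ι) {ι' : M' →ₗ[A] N'} (hι' : IsBaseChange B ι')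
    (e : N ≃ₗ[B] N') :
    ∃ φ : M ≃ₗ[A] M', ∀ m, ι' (φ m) = e (ι m) := by
  obtain ⟨φ, hφ⟩ := exists_lift_linearEquiv hs hn (hι.equiv ≪≫ₗ e ≪≫ₗ hι'.equiv.symm)
  refine ⟨φ, fun m => ?_⟩
  have h1 := LinearMap.congr_fun hφ ((1 : B) ⊗ₜ[A] m)
  have h2 : (1 : B) ⊗ₜ[A] φ m = hι'.equiv.symm (e (hι.equiv ((1 : B) ⊗ₜ[A] m))) := by
    simpa using h1
  have h3 := congrArg hι'.equiv h2
  rw [LinearEquiv.apply_symm_apply, IsBaseChange.equiv_tmul, IsBaseChange.equiv_tmul,
    one_smul, one_smul] at h3
  exact h3

include hs hn in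
/-- `IsBaseChange` form of `exists_lift_invertible`. -/
theorem exists_lift_invertible_isBaseChange (N : Type*) [AddCommGroup N] [Module A N]
    [Module B N] [IsScalarTower A B N] [Module.Invertible B N] :
    ∃ (M : Type u) (_ : AddCommGroup M) (_ : Module A M) (ι : M →ₗ[A] N),
      Module.Invertible A M ∧ IsBaseChange B ι := by
  obtain ⟨M, _, _, hM, ⟨e⟩⟩ := exists_lift_invertible hs hn N
  refine ⟨M, inferInstance, inferInstance,
    (e.toLinearMap.restrictScalars A) ∘ₗ TensorProduct.mk A B M 1, hM, ?_⟩
  exact IsBaseChange.of_equiv e (fun x => rfl)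

include hs hn in
/-- `IsBaseChange` form of `exists_lift_projective`. -/
theorem exists_lift_projective_isBaseChange (N : Type*) [AddCommGroup N] [Module A N]
    [Module B N] [IsScalarTower A B N] [Module.Finite B N] [Module.Projective B N] :
    ∃ (M : Type u) (_ : AddCommGroup M) (_ : Module A M) (ι : M →ₗ[A] N),
      Module.Finite A M ∧ Module.Projective A M ∧ IsBaseChange B ι := by
  obtain ⟨M, _, _, hf, hp, ⟨e⟩⟩ := exists_lift_projective hs hn N
  refine ⟨M, inferInstance, inferInstance,
    (e.toLinearMap.restrictScalars A) ∘ₗ TensorProduct.mk A B M 1, hf, hp, ?_⟩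
  exact IsBaseChange.of_equiv e (fun x => rfl)

end Nilpotent

section Quotient

variable (I : Ideal A)

theorem quotient_surjective : Function.Surjective (algebraMap A (A ⧸ I)) :=
  Ideal.Quotient.mk_surjective

theorem quotient_ker : RingHom.ker (algebraMap A (A ⧸ I)) = I := by
  rw [Ideal.Quotient.algebraMap_eq, Ideal.mk_ker]

theorem quotient_ker_isNilpotent (hI : IsNilpotent I) :
    IsNilpotent (RingHom.ker (algebraMap A (A ⧸ I))) := by
  rwa [quotient_ker]

theorem isNilpotent_of_sq_eq_bot (hI : I ^ 2 = ⊥) : IsNilpotent I := ⟨2, hI⟩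

/-- Invertible modules lift along `A → A ⧸ I` for nilpotent `I`. -/
theorem exists_lift_invertible_quotient (hI : IsNilpotent I) (N : Type*) [AddCommGroup N]
    [Module (A ⧸ I) N] [Module.Invertible (A ⧸ I) N] :
    ∃ (M : Type u) (_ : AddCommGroup M) (_ : Module A M), Module.Invertible A M ∧
      Nonempty ((A ⧸ I) ⊗[A] M ≃ₗ[A ⧸ I] N) :=
  exists_lift_invertible (quotient_surjective I) (quotient_ker_isNilpotent I hI) N

/-- Isomorphisms of base changes of projective modules lift along `A → A ⧸ I` for
nilpotent `I`. -/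
theorem exists_lift_linearEquiv_quotient (hI : IsNilpotent I)
    {M : Type w} {M' : Type*} [AddCommGroup M] [Module A M] [AddCommGroup M'] [Module A M']
    [Module.Projective A M] [Module.Projective A M']
    (e : (A ⧸ I) ⊗[A] M ≃ₗ[A ⧸ I] (A ⧸ I) ⊗[A] M') :
    ∃ φ : M ≃ₗ[A] M', (φ : M →ₗ[A] M').baseChange (A ⧸ I) = e :=
  exists_lift_linearEquiv (quotient_surjective I) (quotient_ker_isNilpotent I hI) e

/-- Units lift along `A → A ⧸ I` for nilpotent `I`. -/
theorem exists_lift_unit_quotient (hI : IsNilpotent I) (b : (A ⧸ I)ˣ) :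
    ∃ a : Aˣ, Ideal.Quotient.mk I a = b :=
  exists_lift_unit (quotient_surjective I) (quotient_ker_isNilpotent I hI) b

end Quotient

end Fermat.Agent.Jac.LiftNilp75
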