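/-
Fermat/Agent/Jac/LineEnd42.lean  (helper42, part (E) of brick A3 of programme JAC / S25)

Endomorphisms of a line bundle `L : QC2 A R0 R1 R01` are the global functions:
`QC2.Hom L L ≃ H⁰(unit)`.  If moreover `H⁰(unit) = A` (as for the base change of a proper
geometrically integral curve), every endomorphism is multiplication by a unique scalar `a : A`, and
every automorphism by a unit.
-/
import Fermat.Agent.Jac.Core

set_option autoImplicit false
set_option linter.unusedSectionVars false

universe u

open TensorProduct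

namespace Fermat.Agent.Jac.LineEnd42

noncomputable section

variable {A R0 R1 R01 : Type u} [CommRing A] [CommRing R0] [CommRing R1] [CommRing R01]
  [Algebra A R0] [Algebra A R1] [Algebra A R01] [Algebra R0 R01] [Algebra R1 R01]
  [IsScalarTower A R0 R01] [IsScalarTower A R1 R01]

/-- Two morphisms of two-chart modules with the same components are equal. -/
theorem hom_ext {L M : QC2 A R0 R1 R01} {φ ψ : QC2.Hom L M} (h0 : φ.f0 = ψ.f0) (h1 : φ.f1 = ψ.f1)
    (h01 : φ.f01 = ψ.f01) : φ = ψ := by
  cases φ; cases ψ; simp only at h0 h1 h01; subst h0 h1 h01; rfl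

/-- The overlap component of a morphism is determined by the component on the first chart. -/
theorem f01_eq_of_f0_eq {L M : QC2 A R0 R1 R01} {φ ψ : QC2.Hom L M} (h0 : φ.f0 = ψ.f0) :
    φ.f01 = ψ.f01 := by
  apply L.bc0.algHom_ext
  intro x
  rw [φ.comm0, ψ.comm0, h0]

/-- The structure sheaf with explicit ring arguments. -/
abbrev unit' (A R0 R1 R01 : Type u) [CommRing A] [CommRing R0] [CommRing R1] [CommRing R01]
    [Algebra A R0] [Algebra A R1] [Algebra A R01] [Algebra R0 R01] [Algebra R1 R01]
    [IsScalarTower A R0 R01] [IsScalarTower A R1 R01] : QC2 A R0 R1 R01 :=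
  QC2.unit (A := A) (R0 := R0) (R1 := R1) (R01 := R01)

/-- The `A`-algebra of global functions: pairs `(a0, a1) : R0 × R1` agreeing on the overlap. -/
def globalFn (A R0 R1 R01 : Type u) [CommRing A] [CommRing R0] [CommRing R1] [CommRing R01]
    [Algebra A R0] [Algebra A R1] [Algebra A R01] [Algebra R0 R01] [Algebra R1 R01]
    [IsScalarTower A R0 R01] [IsScalarTower A R1 R01] : Subalgebra A (R0 × R1) :=
  AlgHom.equalizer ((IsScalarTower.toAlgHom A R0 R01).comp (AlgHom.fst A R0 R1))
    ((IsScalarTower.toAlgHom A R1 R01).comp (AlgHom.snd A R0 R1))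

lemma mem_globalFn (a : R0 × R1) :
    a ∈ globalFn A R0 R1 R01 ↔ algebraMap R0 R01 a.1 = algebraMap R1 R01 a.2 :=
  Iff.rfl

lemma globalFn_eq (a : globalFn A R0 R1 R01) :
    algebraMap R0 R01 a.1.1 = algebraMap R1 R01 a.1.2 := a.2

/-- The global functions are the global sections `H⁰` of the structure sheaf `QC2.unit`. -/
lemma mem_unit_H0 (a0 : R0) (a1 : R1) :
    ((a0, a1) : (unit' A R0 R1 R01).N0 × (unit' A R0 R1 R01).N1) ∈ (unit' A R0 R1 R01).H0 ↔
      ((a0, a1) : R0 × R1) ∈ globalFn A R0 R1 R01 := by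
  change algebraMap R0 R01 a0 + -(algebraMap R1 R01 a1) = 0 ↔
    algebraMap R0 R01 a0 = algebraMap R1 R01 a1
  rw [← sub_eq_add_neg, sub_eq_zero]

/-- `H⁰(unit)` and the global functions are the same `A`-module. -/
def unitH0Equiv : (unit' A R0 R1 R01).H0 ≃ₗ[A] globalFn A R0 R1 R01 where
  toFun a := ⟨(a.1.1, a.1.2), (mem_unit_H0 (A := A) (R0 := R0) (R1 := R1) (R01 := R01) a.1.1 a.1.2).1 a.2⟩
  invFun a := ⟨(a.1.1, a.1.2), (mem_unit_H0 (A := A) (R0 := R0) (R1 := R1) (R01 := R01) a.1.1 a.1.2).2 a.2⟩
  left_inv _ := rfl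
  right_inv _ := rfl
  map_add' _ _ := rfl
  map_smul' _ _ := rfl

/-- Multiplication by a global function, as an endomorphism of `L`. -/
def smulHom (L : QC2 A R0 R1 R01) (a : globalFn A R0 R1 R01) : QC2.Hom L L where
  f0 := a.1.1 • LinearMap.id
  f1 := a.1.2 • LinearMap.id
  f01 := algebraMap R0 R01 a.1.1 • LinearMap.id
  comm0 x := by
    simp only [LinearMap.smul_apply, LinearMap.id_coe, id_eq, map_smul, algebraMap_smul]
  comm1 x := by
    rw [globalFn_eq a]
    simp only [LinearMap.smul_apply, LinearMap.id_coe, id_eq, map_smul, algebraMap_smul]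

@[simp] lemma smulHom_f0 (L : QC2 A R0 R1 R01) (a : globalFn A R0 R1 R01) :
    (smulHom L a).f0 = a.1.1 • LinearMap.id := rfl

@[simp] lemma smulHom_f1 (L : QC2 A R0 R1 R01) (a : globalFn A R0 R1 R01) :
    (smulHom L a).f1 = a.1.2 • LinearMap.id := rfl

@[simp] lemma smulHom_f01 (L : QC2 A R0 R1 R01) (a : globalFn A R0 R1 R01) :
    (smulHom L a).f01 = algebraMap R0 R01 a.1.1 • LinearMap.id := rfl

lemma smulHom_f01' (L : QC2 A R0 R1 R01) (a : globalFn A R0 R1 R01) :
    (smulHom L a).f01 = algebraMap R1 R01 a.1.2 • LinearMap.id := by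
  rw [smulHom_f01, globalFn_eq a]

/-- The overlap module of a line bundle is invertible. -/
theorem invertible_N01 {L : QC2 A R0 R1 R01} (hL : L.IsLine) : Module.Invertible R01 L.N01 := by
  have := hL.inv0
  exact Module.Invertible.congr L.bc0.equiv

/-- (A3.E) Endomorphisms of a line bundle are exactly the multiplications by global functions. -/
theorem smulHom_bijective {L : QC2 A R0 R1 R01} (hL : L.IsLine) :
    Function.Bijective (smulHom L) := by
  have i0 := hL.inv0
  have i1 := hL.inv1
  have i01 := invertible_N01 hL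
  constructor
  · intro a b hab
    have h0 : (smulHom L a).f0 = (smulHom L b).f0 := by rw [hab]
    have h1 : (smulHom L a).f1 = (smulHom L b).f1 := by rw [hab]
    have e0 : a.1.1 = b.1.1 :=
      (Module.Invertible.toModuleEnd_bijective R0 L.N0).injective h0
    have e1 : a.1.2 = b.1.2 :=
      (Module.Invertible.toModuleEnd_bijective R1 L.N1).injective h1
    exact Subtype.ext (Prod.ext e0 e1)
  · intro φ
    obtain ⟨a0, ha0⟩ := (Module.Invertible.toModuleEnd_bijective R0 L.N0).surjective φ.f0
    obtain ⟨a1, ha1⟩ := (Module.Invertible.toModuleEnd_bijective R1 L.N1).surjective φ.f1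
    have h0 : φ.f01 = algebraMap R0 R01 a0 • LinearMap.id := by
      apply L.bc0.algHom_ext
      intro x
      rw [φ.comm0, ← ha0]
      simp only [LinearMap.smul_apply, LinearMap.id_coe, id_eq, algebraMap_smul]
      exact map_smul L.r0 a0 x
    have h1 : φ.f01 = algebraMap R1 R01 a1 • LinearMap.id := by
      apply L.bc1.algHom_ext
      intro x
      rw [φ.comm1, ← ha1]
      simp only [LinearMap.smul_apply, LinearMap.id_coe, id_eq, algebraMap_smul]
      exact map_smul L.r1 a1 x
    have hmem : ((a0, a1) : R0 × R1) ∈ globalFn A R0 R1 R01 := by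
      rw [mem_globalFn]
      exact (Module.Invertible.toModuleEnd_bijective R01 L.N01).injective (h0.symm.trans h1)
    refine ⟨⟨(a0, a1), hmem⟩, ?_⟩
    exact hom_ext ha0 ha1 h0.symm

/-- The structure map `A → globalFn`, `a ↦ (a, a)` (this is `algebraMap A (globalFn ..)`). -/
abbrev scalarFn (A R0 R1 R01 : Type u) [CommRing A] [CommRing R0] [CommRing R1] [CommRing R01]
    [Algebra A R0] [Algebra A R1] [Algebra A R01] [Algebra R0 R01] [Algebra R1 R01]
    [IsScalarTower A R0 R01] [IsScalarTower A R1 R01] : A →+* globalFn A R0 R1 R01 :=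
  algebraMap A (globalFn A R0 R1 R01)

@[simp] lemma scalarFn_fst (a : A) :
    ((scalarFn A R0 R1 R01 a : globalFn A R0 R1 R01) : R0 × R1).1 = algebraMap A R0 a := rfl

@[simp] lemma scalarFn_snd (a : A) :
    ((scalarFn A R0 R1 R01 a : globalFn A R0 R1 R01) : R0 × R1).2 = algebraMap A R1 a := rfl

/-- Multiplication by a scalar of the base ring, as an endomorphism of `L`. -/
def scalarHom (L : QC2 A R0 R1 R01) (a : A) : QC2.Hom L L := smulHom L (scalarFn A R0 R1 R01 a)

lemma scalarHom_f0_apply (L : QC2 A R0 R1 R01) (a : A) (x : L.N0) :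
    (scalarHom L a).f0 x = a • x := by
  simp [scalarHom, smulHom]

lemma scalarHom_f1_apply (L : QC2 A R0 R1 R01) (a : A) (x : L.N1) :
    (scalarHom L a).f1 x = a • x := by
  simp [scalarHom, smulHom]

lemma scalarHom_f01_apply (L : QC2 A R0 R1 R01) (a : A) (x : L.N01) :
    (scalarHom L a).f01 x = a • x := by
  simp only [scalarHom, smulHom, scalarFn_fst, LinearMap.smul_apply, LinearMap.id_coe, id_eq,
    algebraMap_smul]

/-- If `H⁰(unit) = A`, every endomorphism of a line bundle is multiplication by a unique scalar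
of the base ring. -/
theorem scalarHom_bijective {L : QC2 A R0 R1 R01} (hL : L.IsLine)
    (hA : Function.Bijective (scalarFn A R0 R1 R01)) : Function.Bijective (scalarHom L) :=
  (smulHom_bijective hL).comp hA

/-- If `H⁰(unit) = A`, every automorphism of a line bundle is multiplication by a unit of `A`. -/
theorem exists_unit_of_iso {L : QC2 A R0 R1 R01} (hL : L.IsLine)
    (hA : Function.Bijective (scalarFn A R0 R1 R01)) (e : QC2.Iso L L) :
    ∃ a : Aˣ, (∀ x, e.e0 x = (a : A) • x) ∧ (∀ x, e.e1 x = (a : A) • x) ∧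
      (∀ x, e.e01 x = (a : A) • x) := by
  let φ : QC2.Hom L L := ⟨e.e0, e.e1, e.e01, e.comm0, e.comm1⟩
  let ψ : QC2.Hom L L := ⟨e.e0.symm, e.e1.symm, e.e01.symm,
    fun x => by
      rw [LinearEquiv.coe_coe, LinearEquiv.symm_apply_eq, e.comm0, LinearEquiv.coe_coe,
        LinearEquiv.apply_symm_apply],
    fun x => by
      rw [LinearEquiv.coe_coe, LinearEquiv.symm_apply_eq, e.comm1, LinearEquiv.coe_coe,
        LinearEquiv.apply_symm_apply]⟩
  obtain ⟨a, ha⟩ := (scalarHom_bijective hL hA).surjective φ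
  obtain ⟨b, hb⟩ := (scalarHom_bijective hL hA).surjective ψ
  have hab : scalarHom L (a * b) = scalarHom L 1 := by
    apply hom_ext
    · ext x
      rw [scalarHom_f0_apply, scalarHom_f0_apply, mul_smul, one_smul, ← scalarHom_f0_apply L b,
        ← scalarHom_f0_apply L a, ha, hb]
      exact e.e0.apply_symm_apply x
    · ext x
      rw [scalarHom_f1_apply, scalarHom_f1_apply, mul_smul, one_smul, ← scalarHom_f1_apply L b,
        ← scalarHom_f1_apply L a, ha, hb]
      exact e.e1.apply_symm_apply x
    · ext x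
      rw [scalarHom_f01_apply, scalarHom_f01_apply, mul_smul, one_smul,
        ← scalarHom_f01_apply L b, ← scalarHom_f01_apply L a, ha, hb]
      exact e.e01.apply_symm_apply x
  have hab1 : a * b = 1 := (scalarHom_bijective hL hA).injective hab
  refine ⟨⟨a, b, hab1, by rw [mul_comm]; exact hab1⟩, ?_, ?_, ?_⟩
  · intro x
    rw [Units.val_mk, ← scalarHom_f0_apply, ha]
    rfl
  · intro x
    rw [Units.val_mk, ← scalarHom_f1_apply, ha]
    rfl
  · intro x
    rw [Units.val_mk, ← scalarHom_f01_apply, ha]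
    rfl

end

end Fermat.Agent.Jac.LineEnd42
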