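/-
Fermat/Agent/Jac/LineRigid42.lean  (helper42, part (R) of brick A3 of programme JAC / S25)

Rigidification of two-chart modules at an `A`-point of the second chart.

An `A`-point of the second chart is an `A`-algebra map `ε : R1 →ₐ[A] A`.  The fibre of `L` at `ε` is
`L.N1 ⧸ (ker ε) • ⊤`, an `A`-module (it is `A ⊗[R1] L.N1`, see `fibreEquivTensor`).  `L` is
*rigidifiable* at `ε` if its fibre is free of rank one.  We prove functoriality in `L`, the case
of the structure sheaf, that the fibre of a line bundle is an invertible `A`-module, and that an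
automorphism of a line bundle inducing the identity on the fibre is the identity when
`H⁰(unit) = A`.
-/
import Fermat.Agent.Jac.LineEnd42
import Fermat.Agent.Jac.LineOps39.Basic

set_option autoImplicit false
set_option linter.unusedSectionVars false

universe u

open TensorProduct

namespace Fermat.Agent.Jac.LineRigid42

open Fermat.Agent.Jac.LineOps39

noncomputable section

variable {A R0 R1 R01 : Type u} [CommRing A] [CommRing R0] [CommRing R1] [CommRing R01]
  [Algebra A R0] [Algebra A R1] [Algebra A R01] [Algebra R0 R01] [Algebra R1 R01]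
  [IsScalarTower A R0 R01] [IsScalarTower A R1 R01]

variable (ε : R1 →ₐ[A] A)

/-- The submodule `(ker ε) • N1` of sections vanishing at the point `ε`. -/
abbrev vanishing (L : QC2 A R0 R1 R01) : Submodule R1 L.N1 :=
  (RingHom.ker ε.toRingHom • ⊤ : Submodule R1 L.N1)

/-- The fibre of `L` at the `A`-point `ε` of the second chart. -/
abbrev fibre (L : QC2 A R0 R1 R01) : Type u := L.N1 ⧸ vanishing ε L

/-- The evaluation map `N1 → fibre`, as an `A`-linear map. -/
def eval (L : QC2 A R0 R1 R01) : L.N1 →ₗ[A] fibre ε L :=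
  (vanishing ε L).mkQ.restrictScalars A

lemma eval_surjective (L : QC2 A R0 R1 R01) : Function.Surjective (eval ε L) :=
  (vanishing ε L).mkQ_surjective

lemma sub_algebraMap_mem_ker (r : R1) : r - algebraMap A R1 (ε r) ∈ RingHom.ker ε.toRingHom := by
  rw [RingHom.mem_ker]
  simp

/-- On the fibre, `R1` acts through `ε`. -/
lemma smul_eval (L : QC2 A R0 R1 R01) (r : R1) (x : L.N1) :
    eval ε L (r • x) = ε r • eval ε L x := by
  have h : (r - algebraMap A R1 (ε r)) • x ∈ vanishing ε L :=
    Submodule.smul_mem_smul (sub_algebraMap_mem_ker ε r) Submodule.mem_top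
  have h2 : eval ε L ((r - algebraMap A R1 (ε r)) • x) = 0 :=
    (Submodule.Quotient.mk_eq_zero _).2 h
  rw [sub_smul, map_sub, sub_eq_zero, algebraMap_smul] at h2
  rw [h2, map_smul]

lemma eval_eq_zero_iff (L : QC2 A R0 R1 R01) (x : L.N1) :
    eval ε L x = 0 ↔ x ∈ vanishing ε L :=
  Submodule.Quotient.mk_eq_zero _

/-! ### Functoriality -/

/-- The map induced on fibres by a morphism of two-chart modules. -/
def fibreMap {L M : QC2 A R0 R1 R01} (f : QC2.Hom L M) : fibre ε L →ₗ[A] fibre ε M :=
  (Submodule.mapQ (vanishing ε L) (vanishing ε M) f.f1 (by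
    rw [← Submodule.map_le_iff_le_comap, Submodule.map_smul'']
    exact smul_mono_right _ le_top)).restrictScalars A

@[simp] lemma fibreMap_eval {L M : QC2 A R0 R1 R01} (f : QC2.Hom L M) (x : L.N1) :
    fibreMap ε f (eval ε L x) = eval ε M (f.f1 x) := rfl

lemma fibreMap_id (L : QC2 A R0 R1 R01) : fibreMap ε (homId L) = LinearMap.id := by
  refine LinearMap.ext fun x => ?_
  obtain ⟨x, rfl⟩ := eval_surjective ε L x
  rfl

lemma fibreMap_comp {L M N : QC2 A R0 R1 R01} (g : QC2.Hom M N) (f : QC2.Hom L M) :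
    fibreMap ε (homComp g f) = (fibreMap ε g).comp (fibreMap ε f) := by
  refine LinearMap.ext fun x => ?_
  obtain ⟨x, rfl⟩ := eval_surjective ε L x
  rfl

/-- An isomorphism of two-chart modules induces an isomorphism of fibres. -/
def fibreIso {L M : QC2 A R0 R1 R01} (e : QC2.Iso L M) : fibre ε L ≃ₗ[A] fibre ε M :=
  LinearEquiv.ofLinearMap (fibreMap ε (isoHom e)) (fibreMap ε (isoHom (isoSymm e)))
    (by rw [← fibreMap_comp, homComp_isoHom_symm', fibreMap_id])
    (by rw [← fibreMap_comp, homComp_isoHom_symm, fibreMap_id])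

@[simp] lemma fibreIso_eval {L M : QC2 A R0 R1 R01} (e : QC2.Iso L M) (x : L.N1) :
    fibreIso ε e (eval ε L x) = eval ε M (e.e1 x) := rfl

/-! ### Rigidifiability -/

/-- `L` is rigidifiable at `ε`: its fibre is free of rank one. -/
def IsRigidifiable (L : QC2 A R0 R1 R01) : Prop := Nonempty (fibre ε L ≃ₗ[A] A)

lemma isRigidifiable_of_iso {L M : QC2 A R0 R1 R01} (e : QC2.Iso L M)
    (h : IsRigidifiable ε L) : IsRigidifiable ε M := by
  obtain ⟨ρ⟩ := h
  exact ⟨(fibreIso ε e).symm.trans ρ⟩

lemma isRigidifiable_iff_of_iso {L M : QC2 A R0 R1 R01} (e : QC2.Iso L M) :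
    IsRigidifiable ε L ↔ IsRigidifiable ε M :=
  ⟨isRigidifiable_of_iso ε e, isRigidifiable_of_iso ε (isoSymm e)⟩

/-! ### Maps out of the fibre -/

/-- An `A`-linear map out of `N1` killing `(ker ε) • N1` descends to the fibre. -/
def fibreLift (L : QC2 A R0 R1 R01) {P : Type*} [AddCommGroup P] [Module A P]
    (g : L.N1 →ₗ[A] P) (hg : ∀ r ∈ RingHom.ker ε.toRingHom, ∀ x, g (r • x) = 0) :
    fibre ε L →ₗ[A] P :=
  (Submodule.liftQ ((vanishing ε L).restrictScalars A) g (by
    intro x hx
    rw [LinearMap.mem_ker]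
    have hx' : x ∈ vanishing ε L := hx
    refine Submodule.smul_induction_on hx' (fun r hr n _ => hg r hr n) ?_
    intro x y hx hy
    rw [map_add, hx, hy, add_zero])) ∘ₗ
    (Submodule.Quotient.restrictScalarsEquiv A (vanishing ε L)).symm.toLinearMap

@[simp] lemma fibreLift_eval (L : QC2 A R0 R1 R01) {P : Type*} [AddCommGroup P] [Module A P]
    (g : L.N1 →ₗ[A] P) (hg : ∀ r ∈ RingHom.ker ε.toRingHom, ∀ x, g (r • x) = 0) (x : L.N1) :
    fibreLift ε L g hg (eval ε L x) = g x := rfl

/-- Two linear maps out of the fibre agreeing on all `eval x` are equal. -/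
lemma fibre_hom_ext (L : QC2 A R0 R1 R01) {P : Type*} [AddCommGroup P] [Module A P]
    {g h : fibre ε L →ₗ[A] P} (H : ∀ x, g (eval ε L x) = h (eval ε L x)) : g = h := by
  refine LinearMap.ext fun y => ?_
  obtain ⟨x, rfl⟩ := eval_surjective ε L y
  exact H x

/-! ### The structure sheaf -/

/-- The fibre of the structure sheaf is `A`. -/
def fibreUnit : fibre ε (LineEnd42.unit' A R0 R1 R01) ≃ₗ[A] A :=
  LinearEquiv.ofLinearMap
    (fibreLift ε (LineEnd42.unit' A R0 R1 R01)
      (ε.toLinearMap : R1 →ₗ[A] A) (by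
      intro r hr (x : R1)
      change ε (r * x) = 0
      have hr' : ε r = 0 := hr
      rw [map_mul, hr', zero_mul]))
    ((eval ε (LineEnd42.unit' A R0 R1 R01)).comp (Algebra.linearMap A R1 : A →ₗ[A] R1))
    (by
      refine LinearMap.ext_ring ?_
      change ε (algebraMap A R1 1) = 1
      simp)
    (by
      apply fibre_hom_ext
      intro (x : R1)
      change eval ε (LineEnd42.unit' A R0 R1 R01) (algebraMap A R1 (ε x) : R1) =
        eval ε (LineEnd42.unit' A R0 R1 R01) x
      have h : (x - algebraMap A R1 (ε x) : R1) ∈ vanishing ε (LineEnd42.unit' A R0 R1 R01) := by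
        have h1 := Submodule.smul_mem_smul (N := (⊤ : Submodule R1 R1))
          (sub_algebraMap_mem_ker ε x) (Submodule.mem_top (x := (1 : R1)))
        have h2 : (x - algebraMap A R1 (ε x)) • (1 : R1) = x - algebraMap A R1 (ε x) :=
          mul_one _
        rw [h2] at h1
        exact h1
      have h2 := (eval_eq_zero_iff ε (LineEnd42.unit' A R0 R1 R01)
        (x - algebraMap A R1 (ε x) : R1)).2 h
      have h3 : eval ε (LineEnd42.unit' A R0 R1 R01) (x - algebraMap A R1 (ε x) : R1) =
          eval ε (LineEnd42.unit' A R0 R1 R01) x -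
            eval ε (LineEnd42.unit' A R0 R1 R01) (algebraMap A R1 (ε x) : R1) :=
        map_sub (eval ε (LineEnd42.unit' A R0 R1 R01)) x (algebraMap A R1 (ε x) : R1)
      rw [h3, sub_eq_zero] at h2
      exact h2.symm)

lemma fibreUnit_eval (x : R1) :
    fibreUnit ε (eval ε (LineEnd42.unit' A R0 R1 R01) x) = ε x := rfl

lemma isRigidifiable_unit : IsRigidifiable ε (LineEnd42.unit' A R0 R1 R01) := ⟨fibreUnit ε⟩

/-! ### Comparison with the tensor product -/

lemma smul_eval' (L : QC2 A R0 R1 R01) (r : R1) (x : L.N1) :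
    r • eval ε L x = eval ε L (r • x) := rfl

section Tensor

variable [Algebra R1 A] (hε : ∀ r, algebraMap R1 A r = ε r)

include hε in
/-- On the fibre, the actions of `R1` and of `A` are compatible when `A` is regarded as an
`R1`-algebra through `ε`. -/
lemma isScalarTower_fibre (L : QC2 A R0 R1 R01) : IsScalarTower R1 A (fibre ε L) := by
  refine ⟨fun r a y => ?_⟩
  obtain ⟨x, rfl⟩ := eval_surjective ε L y
  rw [Algebra.smul_def, hε, mul_smul, ← map_smul (eval ε L) a x, smul_eval', smul_eval]

include hε in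
lemma one_tmul_smul (L : QC2 A R0 R1 R01) (r : R1) (x : L.N1) :
    (1 : A) ⊗ₜ[R1] (r • x) = (ε r) ⊗ₜ[R1] x := by
  rw [← TensorProduct.smul_tmul, Algebra.smul_def, hε, mul_one]

/-- The `A`-linear map `N1 → A ⊗[R1] N1`, `x ↦ 1 ⊗ x`. -/
def oneTmul (L : QC2 A R0 R1 R01) : L.N1 →ₗ[A] A ⊗[R1] L.N1 where
  toFun x := (1 : A) ⊗ₜ[R1] x
  map_add' x y := TensorProduct.tmul_add _ _ _
  map_smul' a x := by
    rw [RingHom.id_apply, ← algebraMap_smul R1 a x, one_tmul_smul ε hε, AlgHom.commutes]
    simp [TensorProduct.smul_tmul']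

include hε in
/-- The fibre is the base change `A ⊗[R1] N1` along `ε`. -/
def fibreEquivTensor (L : QC2 A R0 R1 R01) : A ⊗[R1] L.N1 ≃ₗ[A] fibre ε L :=
  haveI := isScalarTower_fibre ε hε L
  LinearEquiv.ofLinearMap
    (TensorProduct.AlgebraTensorModule.lift
      ((LinearMap.lsmul A (L.N1 →ₗ[R1] fibre ε L)).flip (vanishing ε L).mkQ))
    (fibreLift ε L (oneTmul ε hε L) (by
      intro r hr x
      have hr' : ε r = 0 := hr
      change (1 : A) ⊗ₜ[R1] (r • x) = 0
      rw [one_tmul_smul ε hε, hr', TensorProduct.zero_tmul]))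
    (by
      apply fibre_hom_ext
      intro x
      simp only [LinearMap.coe_comp, Function.comp_apply, fibreLift_eval, LinearMap.id_coe,
        id_eq]
      change (TensorProduct.AlgebraTensorModule.lift
        ((LinearMap.lsmul A (L.N1 →ₗ[R1] fibre ε L)).flip (vanishing ε L).mkQ))
          ((1 : A) ⊗ₜ[R1] x) = eval ε L x
      rw [TensorProduct.AlgebraTensorModule.lift_tmul]
      simp [eval])
    (by
      refine LinearMap.ext fun z => ?_
      induction z using TensorProduct.induction_on with
      | zero => rw [map_zero, map_zero]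
      | tmul a x =>
        rw [LinearMap.comp_apply, TensorProduct.AlgebraTensorModule.lift_tmul,
          LinearMap.id_apply]
        change fibreLift ε L (oneTmul ε hε L) _ (a • eval ε L x) = a ⊗ₜ[R1] x
        rw [map_smul, fibreLift_eval]
        change a • ((1 : A) ⊗ₜ[R1] x) = a ⊗ₜ[R1] x
        rw [TensorProduct.smul_tmul', smul_eq_mul, mul_one]
      | add x y hx hy => rw [map_add, hx, hy, map_add])

include hε in
lemma fibreEquivTensor_tmul (L : QC2 A R0 R1 R01) (a : A) (x : L.N1) :
    fibreEquivTensor ε hε L (a ⊗ₜ[R1] x) = a • eval ε L x := by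
  have := isScalarTower_fibre ε hε L
  change (TensorProduct.AlgebraTensorModule.lift
    ((LinearMap.lsmul A (L.N1 →ₗ[R1] fibre ε L)).flip (vanishing ε L).mkQ)) (a ⊗ₜ[R1] x) = _
  rw [TensorProduct.AlgebraTensorModule.lift_tmul]
  rfl

include hε in
lemma fibreEquivTensor_symm_eval (L : QC2 A R0 R1 R01) (x : L.N1) :
    (fibreEquivTensor ε hε L).symm (eval ε L x) = (1 : A) ⊗ₜ[R1] x := rfl

end Tensor

/-- The fibre of a line bundle is an invertible `A`-module. -/
theorem invertible_fibre {L : QC2 A R0 R1 R01} (hL : L.IsLine) :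
    Module.Invertible A (fibre ε L) := by
  let _ : Algebra R1 A := ε.toRingHom.toAlgebra
  have := hL.inv1
  exact Module.Invertible.congr (fibreEquivTensor ε (fun _ => rfl) L)

/-- The fibre of a vector bundle is a finitely generated projective `A`-module. -/
theorem finite_projective_fibre {L : QC2 A R0 R1 R01} (hL : L.IsVB) :
    Module.Finite A (fibre ε L) ∧ Module.Projective A (fibre ε L) := by
  let _ : Algebra R1 A := ε.toRingHom.toAlgebra
  have := hL.fin1
  have := hL.proj1
  exact ⟨Module.Finite.equiv (fibreEquivTensor ε (fun _ => rfl) L),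
    Module.Projective.of_equiv (fibreEquivTensor ε (fun _ => rfl) L)⟩

/-! ### Scalars and rigid automorphisms -/

/-- Multiplication by a scalar of `A` on `L` induces multiplication by the same scalar on the
fibre. -/
lemma fibreMap_scalarHom (L : QC2 A R0 R1 R01) (a : A) :
    fibreMap ε (LineEnd42.scalarHom L a) = a • LinearMap.id := by
  apply fibre_hom_ext
  intro x
  rw [fibreMap_eval, LineEnd42.scalarHom_f1_apply, map_smul]
  rfl

/-- A rigidification: a trivialisation of the fibre at `ε`. -/
abbrev Rigidification (L : QC2 A R0 R1 R01) : Type u := fibre ε L ≃ₗ[A] A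

/-- An isomorphism of line bundles respecting given rigidifications. -/
def RespectsRigidification {L M : QC2 A R0 R1 R01} (e : QC2.Iso L M) (ρ : Rigidification ε L)
    (ρ' : Rigidification ε M) : Prop :=
  ∀ y, ρ' (fibreIso ε e y) = ρ y

/-- If `H⁰(unit) = A`, an automorphism of a rigidifiable line bundle inducing the identity on the
fibre at `ε` is the identity. -/
theorem iso_eq_id_of_fibreIso_eq {L : QC2 A R0 R1 R01} (hL : L.IsLine)
    (hA : Function.Bijective (LineEnd42.scalarFn A R0 R1 R01)) (ρ : Rigidification ε L)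
    (e : QC2.Iso L L) (he : ∀ y, fibreIso ε e y = y) :
    (∀ x, e.e0 x = x) ∧ (∀ x, e.e1 x = x) ∧ (∀ x, e.e01 x = x) := by
  obtain ⟨a, h0, h1, h01⟩ := LineEnd42.exists_unit_of_iso hL hA e
  obtain ⟨x, hx⟩ := eval_surjective ε L (ρ.symm 1)
  have h := he (eval ε L x)
  rw [fibreIso_eval, h1, map_smul, hx] at h
  have h' := congrArg ρ h
  rw [map_smul, LinearEquiv.apply_symm_apply, smul_eq_mul, mul_one] at h'
  simp only [h'] at h0 h1 h01
  exact ⟨fun x => by rw [h0, one_smul], fun x => by rw [h1, one_smul],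
    fun x => by rw [h01, one_smul]⟩

/-- If `H⁰(unit) = A`, two isomorphisms of rigidified line bundles respecting the rigidifications
are equal. -/
theorem iso_unique_of_respects {L M : QC2 A R0 R1 R01} (hL : L.IsLine)
    (hA : Function.Bijective (LineEnd42.scalarFn A R0 R1 R01)) (ρ : Rigidification ε L)
    (ρ' : Rigidification ε M) (e e' : QC2.Iso L M) (he : RespectsRigidification ε e ρ ρ')
    (he' : RespectsRigidification ε e' ρ ρ') :
    (∀ x, e.e0 x = e'.e0 x) ∧ (∀ x, e.e1 x = e'.e1 x) ∧ (∀ x, e.e01 x = e'.e01 x) := by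
  have key := iso_eq_id_of_fibreIso_eq ε hL hA ρ (isoTrans e (isoSymm e')) (by
    intro y
    obtain ⟨x, rfl⟩ := eval_surjective ε L y
    have h1 := he (eval ε L x)
    have h2 := he' (eval ε L ((isoTrans e (isoSymm e')).e1 x))
    rw [fibreIso_eval] at h1 h2 ⊢
    have h3 : e'.e1 ((isoTrans e (isoSymm e')).e1 x) = e.e1 x := by
      simp [isoTrans, isoSymm]
    rw [h3, h1] at h2
    exact ρ.injective h2.symm)
  obtain ⟨k0, k1, k01⟩ := key
  refine ⟨fun x => ?_, fun x => ?_, fun x => ?_⟩
  · have := congrArg e'.e0 (k0 x)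
    simpa [isoTrans, isoSymm] using this
  · have := congrArg e'.e1 (k1 x)
    simpa [isoTrans, isoSymm] using this
  · have := congrArg e'.e01 (k01 x)
    simpa [isoTrans, isoSymm] using this

/-- Given rigidified line bundles and an isomorphism between them, the isomorphism can be rescaled
by a unit of `A` so as to respect the rigidifications. -/
theorem exists_unit_smul_respects {L M : QC2 A R0 R1 R01} (ρ : Rigidification ε L)
    (ρ' : Rigidification ε M) (e : QC2.Iso L M) :
    ∃ a : Aˣ, ∀ y, ρ' (fibreIso ε e y) = (a : A) * ρ y := by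
  -- the automorphism `ρ' ∘ fibreIso e ∘ ρ⁻¹` of `A` is multiplication by a unit
  let φ : A ≃ₗ[A] A := (ρ.symm.trans (fibreIso ε e)).trans ρ'
  have hφ : ∀ b : A, φ b = φ 1 * b := by
    intro b
    have : φ (b • (1 : A)) = b • φ 1 := map_smul φ b 1
    rw [smul_eq_mul, mul_one, smul_eq_mul, mul_comm] at this
    exact this
  have hψ : ∀ b : A, φ.symm b = φ.symm 1 * b := by
    intro b
    have : φ.symm (b • (1 : A)) = b • φ.symm 1 := map_smul φ.symm b 1
    rw [smul_eq_mul, mul_one, smul_eq_mul, mul_comm] at this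
    exact this
  have h1 : φ 1 * φ.symm 1 = 1 := by
    rw [← hφ, LinearEquiv.apply_symm_apply]
  refine ⟨⟨φ 1, φ.symm 1, h1, by rw [mul_comm]; exact h1⟩, fun y => ?_⟩
  have := hφ (ρ y)
  simp only [φ, LinearEquiv.trans_apply, LinearEquiv.symm_apply_apply] at this
  exact this

end

end Fermat.Agent.Jac.LineRigid42
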