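/-
Fermat/Agent/Jac/LineRigid42Tensor.lean  (helper42, part (R) of brick A3 of programme JAC / S25)

Compatibility of fibres / rigidifications (`LineRigid42`) with the tensor product of two-chart
modules (`LineOps39.tensor`): `fibre ε (L ⊗ M) ≃ fibre ε L ⊗[A] fibre ε M`; the tensor product of
rigidifiable modules is rigidifiable, with an explicit product rigidification.
-/
import Fermat.Agent.Jac.LineRigid42
import Fermat.Agent.Jac.LineOps39.Tensor

set_option autoImplicit false
set_option linter.unusedSectionVars false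

universe u

open TensorProduct

namespace Fermat.Agent.Jac.LineRigid42

open Fermat.Agent.Jac.LineOps39

noncomputable section

variable {A R0 R1 R01 : Type u} [CommRing A] [CommRing R0] [CommRing R1] [CommRing R01]
  [Algebra A R0] [Algebra A R1] [Algebra A R01] [Algebra R0 R01] [Algebra R1 R01]
  [IsScalarTower A R0 R01] [IsScalarTower A R1 R01]

variable (ε : R1 →ₐ[A] A)

/-- The fibre of a tensor product is the tensor product of the fibres. -/
def fibreTensor (L M : QC2 A R0 R1 R01) :
    fibre ε (tensor L M) ≃ₗ[A] fibre ε L ⊗[A] fibre ε M :=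
  letI : Algebra R1 A := ε.toRingHom.toAlgebra
  ((fibreEquivTensor ε (fun _ => rfl) (tensor L M)).symm.trans
    (TensorProduct.AlgebraTensorModule.distribBaseChange R1 A L.N1 M.N1)).trans
    (TensorProduct.congr (fibreEquivTensor ε (fun _ => rfl) L)
      (fibreEquivTensor ε (fun _ => rfl) M))

lemma fibreTensor_eval_tmul (L M : QC2 A R0 R1 R01) (x : L.N1) (y : M.N1) :
    fibreTensor ε L M (eval ε (tensor L M) (x ⊗ₜ[R1] y)) = eval ε L x ⊗ₜ[A] eval ε M y := by
  let _ : Algebra R1 A := ε.toRingHom.toAlgebra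
  change (TensorProduct.congr (fibreEquivTensor ε (fun _ => rfl) L)
      (fibreEquivTensor ε (fun _ => rfl) M))
    ((TensorProduct.AlgebraTensorModule.distribBaseChange R1 A L.N1 M.N1)
      ((1 : A) ⊗ₜ[R1] (x ⊗ₜ[R1] y))) = _
  rw [TensorProduct.AlgebraTensorModule.distribBaseChange_tmul, TensorProduct.congr_tmul,
    fibreEquivTensor_tmul, fibreEquivTensor_tmul, one_smul, one_smul]

/-- The product of two rigidifications. -/
def Rigidification.tensor {L M : QC2 A R0 R1 R01} (ρ : Rigidification ε L)
    (ρ' : Rigidification ε M) : Rigidification ε (LineOps39.tensor L M) :=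
  ((fibreTensor ε L M).trans (TensorProduct.congr ρ ρ')).trans (TensorProduct.lid A A)

lemma Rigidification.tensor_eval_tmul {L M : QC2 A R0 R1 R01} (ρ : Rigidification ε L)
    (ρ' : Rigidification ε M) (x : L.N1) (y : M.N1) :
    Rigidification.tensor ε ρ ρ' (eval ε (LineOps39.tensor L M) (x ⊗ₜ[R1] y)) =
      ρ (eval ε L x) * ρ' (eval ε M y) := by
  change (TensorProduct.lid A A) ((TensorProduct.congr ρ ρ')
    (fibreTensor ε L M (eval ε (LineOps39.tensor L M) (x ⊗ₜ[R1] y)))) = _
  rw [fibreTensor_eval_tmul, TensorProduct.congr_tmul, TensorProduct.lid_tmul, smul_eq_mul]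

lemma isRigidifiable_tensor {L M : QC2 A R0 R1 R01} (hL : IsRigidifiable ε L)
    (hM : IsRigidifiable ε M) : IsRigidifiable ε (LineOps39.tensor L M) := by
  obtain ⟨ρ⟩ := hL
  obtain ⟨ρ'⟩ := hM
  exact ⟨Rigidification.tensor ε ρ ρ'⟩

end

end Fermat.Agent.Jac.LineRigid42
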