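/-
Fermat/Agent/Jac/ModGlueKer.lean  (helper70)

JAC programme, brick M1b' (hedge of M1b): gluing of sheaves of modules along a TWO-element family
of opens `U`, `V` of a scheme `X` by the "kernel of pushforwards" technique.

Given `MU : (↑U).Modules`, `MV : (↑V).Modules` and an isomorphism
`φ : MU|_{U ⊓ V} ≅ MV|_{U ⊓ V}`, the glued module is the fibre product in `X.Modules`
  `glue MU MV φ := j_{U*} MU ×_{j_{UV*} (MV|_{UV})} j_{V*} MV`
(equivalently the kernel of the difference map).  We prove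

* `glueIsoL : (glue MU MV φ).restrict U.ι ≅ MU`, `glueIsoR : (glue MU MV φ).restrict V.ι ≅ MV`;
* `isIso_glueFst_app` / `isIso_glueSnd_app`: on opens `O ≤ U` (resp. `O ≤ V`) the projection
  `Γ(glue, O) ⟶ Γ(MU, U.ι ⁻¹ᵁ O)` (resp. to `MV`) is an isomorphism;
* `glue_condition`, `glue_condition_app`: compatibility of the two projections with `φ`
  (pushforward form / sections form).

No cocycle condition is needed for two opens, and `U ⊔ V = ⊤` is not needed for these statements.
-/
import Mathlib.AlgebraicGeometry.Modules.Sheaf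
import Mathlib.AlgebraicGeometry.Restrict

set_option autoImplicit false

universe u

open CategoryTheory Limits AlgebraicGeometry TopologicalSpace

namespace Fermat.Agent.Jac.ModGlueKer

open AlgebraicGeometry.Scheme

variable {X : Scheme.{u}}

/-- A restriction map of a sheaf of modules between equal opens is an isomorphism. -/
lemma isIso_presheaf_map_of_eq {Y : Scheme.{u}} (M : Y.Modules) {A B : Y.Opens} (i : A ⟶ B)
    (h : A = B) : IsIso (M.presheaf.map i.op) := by
  subst h
  have : i = 𝟙 _ := Subsingleton.elim _ _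
  subst this
  simp only [op_id, CategoryTheory.Functor.map_id]
  infer_instance

lemma presheaf_map_comp_eq {Y : Scheme.{u}} (M : Y.Modules) {A B C : Y.Opens} (i : B ⟶ A)
    (j : C ⟶ B) (k : C ⟶ A) :
    M.presheaf.map i.op ≫ M.presheaf.map j.op = M.presheaf.map k.op := by
  rw [← Functor.map_comp, ← op_comp]
  congr 1

/-- Naturality of the action on sections of a morphism of sheaves of modules. -/
lemma app_naturality {Y : Scheme.{u}} {M N : Y.Modules} (φ : M ⟶ N) {A B : Y.Opens} (i : A ⟶ B) :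
    M.presheaf.map i.op ≫ φ.app A = φ.app B ≫ N.presheaf.map i.op :=
  φ.mapPresheaf.naturality i.op

/-- The functor of sections over a fixed open. -/
noncomputable def sectionsFunctor (Y : Scheme.{u}) (O : Y.Opens) : Y.Modules ⥤ Ab :=
  Modules.toPresheaf Y ⋙ (evaluation (Y.Opens)ᵒᵖ Ab.{u}).obj (Opposite.op O)

noncomputable instance (Y : Scheme.{u}) (O : Y.Opens) :
    PreservesLimitsOfShape WalkingCospan (sectionsFunctor Y O) := by
  have h1 : PreservesLimitsOfShape WalkingCospan (Modules.toPresheaf Y) := inferInstance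
  have h2 : PreservesLimitsOfShape WalkingCospan
    ((evaluation (Y.Opens)ᵒᵖ Ab.{u}).obj (Opposite.op O)) := inferInstance
  exact comp_preservesLimitsOfShape (Modules.toPresheaf Y) 
    ((evaluation (Y.Opens)ᵒᵖ Ab.{u}).obj (Opposite.op O))

lemma sectionsFunctor_map {Y : Scheme.{u}} (O : Y.Opens) {M N : Y.Modules} (f : M ⟶ N) :
    (sectionsFunctor Y O).map f = f.app O := rfl

lemma restrictFunctor_map_app {Y Z : Scheme.{u}} (f : Y ⟶ Z) [IsOpenImmersion f] {M N : Z.Modules}
    (g : M ⟶ N) (O : Y.Opens) : ((Modules.restrictFunctor f).map g).app O = g.app (f ''ᵁ O) := rfl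

lemma isPullback_app {Y : Scheme.{u}} {M N P Q : Y.Modules} {f : M ⟶ N} {g : M ⟶ P} {h : N ⟶ Q}
    {i : P ⟶ Q} (H : IsPullback f g h i) (O : Y.Opens) :
    IsPullback (f.app O) (g.app O) (h.app O) (i.app O) :=
  H.map (sectionsFunctor Y O)

section TwoCover

variable (U V : X.Opens)

/-- The inclusion `U ⊓ V ⟶ U`. -/
noncomputable abbrev iL : (↑(U ⊓ V) : Scheme.{u}) ⟶ ↑U := X.homOfLE inf_le_left

/-- The inclusion `U ⊓ V ⟶ V`. -/
noncomputable abbrev iR : (↑(U ⊓ V) : Scheme.{u}) ⟶ ↑V := X.homOfLE inf_le_right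

variable {U V}

/-- General version: for `W ≤ V`, the "restriction" map `j_{V*} M ⟶ j_{W*} (M|_W)`. -/
noncomputable def res {W V : X.Opens} (h : W ≤ V) (M : (↑V : Scheme.{u}).Modules) :
    (Modules.pushforward V.ι).obj M ⟶
      (Modules.pushforward W.ι).obj (M.restrict (X.homOfLE h)) :=
  (Modules.pushforward V.ι).map ((Modules.restrictAdjunction (X.homOfLE h)).unit.app M) ≫
    (Modules.pushforwardComp (X.homOfLE h) V.ι).hom.app _ ≫
    (Modules.pushforwardCongr (X.homOfLE_ι h)).hom.app _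

lemma res_le {W V : X.Opens} (h : W ≤ V) (O : X.Opens) :
    X.homOfLE h ''ᵁ (W.ι ⁻¹ᵁ O) ≤ V.ι ⁻¹ᵁ O := by
  have : W.ι ⁻¹ᵁ O = X.homOfLE h ⁻¹ᵁ (V.ι ⁻¹ᵁ O) := by
    rw [← Scheme.Hom.comp_preimage, X.homOfLE_ι]
  rw [this]
  exact (X.homOfLE h).image_preimage_le _

lemma res_eq {W V : X.Opens} (h : W ≤ V) (O : X.Opens) (hO : O ⊓ V ≤ W) :
    X.homOfLE h ''ᵁ (W.ι ⁻¹ᵁ O) = V.ι ⁻¹ᵁ O := by
  have : W.ι ⁻¹ᵁ O = X.homOfLE h ⁻¹ᵁ (V.ι ⁻¹ᵁ O) := by
    rw [← Scheme.Hom.comp_preimage, X.homOfLE_ι]
  rw [this, Scheme.Hom.image_preimage_eq_opensRange_inf, Scheme.opensRange_homOfLE]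
  rw [inf_eq_right]
  intro x hx
  exact hO ⟨hx, x.2⟩

lemma res_app {W V : X.Opens} (h : W ≤ V) (M : (↑V : Scheme.{u}).Modules) (O : X.Opens) :
    (res h M).app O = M.presheaf.map (homOfLE (res_le h O)).op := by
  simp only [res, Modules.Hom.comp_app, Modules.pushforward_map_app,
    Modules.restrictAdjunction_unit_app_app, Modules.pushforwardComp_hom_app_app,
    Modules.pushforwardCongr_hom_app_app]
  erw [Category.id_comp]
  exact presheaf_map_comp_eq M _ _ _

lemma isIso_res_app {W V : X.Opens} (h : W ≤ V) (M : (↑V : Scheme.{u}).Modules) (O : X.Opens)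
    (hO : O ⊓ V ≤ W) : IsIso ((res h M).app O) := by
  rw [res_app]
  exact isIso_presheaf_map_of_eq _ _ (res_eq h O hO)


variable (MU : (↑U : Scheme.{u}).Modules) (MV : (↑V : Scheme.{u}).Modules)
  (φ : MU.restrict (iL U V) ≅ MV.restrict (iR U V))

/-- The left leg `j_{U*} M_U ⟶ j_{UV*} (M_V|_{UV})` of the gluing cospan: restrict to the
overlap, then apply the gluing isomorphism. -/
noncomputable def dL : (Modules.pushforward U.ι).obj MU ⟶
    (Modules.pushforward (U ⊓ V).ι).obj (MV.restrict (iR U V)) :=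
  res inf_le_left MU ≫ (Modules.pushforward (U ⊓ V).ι).map φ.hom

/-- The right leg `j_{V*} M_V ⟶ j_{UV*} (M_V|_{UV})` of the gluing cospan. -/
noncomputable def dR : (Modules.pushforward V.ι).obj MV ⟶
    (Modules.pushforward (U ⊓ V).ι).obj (MV.restrict (iR U V)) :=
  res inf_le_right MV

/-- The glued module: the fibre product of `j_{U*} M_U` and `j_{V*} M_V` over
`j_{UV*} (M_V|_{UV})`, i.e. the kernel of the difference map. -/
noncomputable def glue : X.Modules := pullback (dL MU MV φ) (dR (U := U) MV)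

/-- The projection `M ⟶ j_{U*} M_U`. -/
noncomputable def glueFst : glue MU MV φ ⟶ (Modules.pushforward U.ι).obj MU :=
  pullback.fst _ _

/-- The projection `M ⟶ j_{V*} M_V`. -/
noncomputable def glueSnd : glue MU MV φ ⟶ (Modules.pushforward V.ι).obj MV :=
  pullback.snd _ _

lemma glue_isPullback :
    IsPullback (glueFst MU MV φ) (glueSnd MU MV φ) (dL MU MV φ) (dR (U := U) MV) :=
  IsPullback.of_hasPullback _ _

lemma isIso_dR_app (O : X.Opens) (hO : O ≤ U) : IsIso ((dR (U := U) MV).app O) :=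
  isIso_res_app _ _ _ (inf_le_inf_right V hO)

lemma isIso_dL_app (O : X.Opens) (hO : O ≤ V) : IsIso ((dL MU MV φ).app O) := by
  have := isIso_res_app (inf_le_left : U ⊓ V ≤ U) MU O
    ((inf_le_inf_right U hO).trans (le_of_eq (inf_comm _ _)))
  rw [dL, Modules.Hom.comp_app]
  infer_instance

/-- On opens contained in `U`, the projection to `j_{U*} M_U` is bijective on sections. -/
lemma isIso_glueFst_app (O : X.Opens) (hO : O ≤ U) : IsIso ((glueFst MU MV φ).app O) :=
  have := isIso_dR_app (U := U) MV O hO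
  (isPullback_app (glue_isPullback MU MV φ) O).isIso_fst_of_isIso

/-- On opens contained in `V`, the projection to `j_{V*} M_V` is bijective on sections. -/
lemma isIso_glueSnd_app (O : X.Opens) (hO : O ≤ V) : IsIso ((glueSnd MU MV φ).app O) :=
  have := isIso_dL_app MU MV φ O hO
  (isPullback_app (glue_isPullback MU MV φ) O).isIso_snd_of_isIso

/-- The comparison map `M|_U ⟶ M_U`. -/
noncomputable def glueRestrictL : (glue MU MV φ).restrict U.ι ⟶ MU :=
  (Modules.restrictFunctor U.ι).map (glueFst MU MV φ) ≫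
    (Modules.restrictAdjunction U.ι).counit.app MU

/-- The comparison map `M|_V ⟶ M_V`. -/
noncomputable def glueRestrictR : (glue MU MV φ).restrict V.ι ⟶ MV :=
  (Modules.restrictFunctor V.ι).map (glueSnd MU MV φ) ≫
    (Modules.restrictAdjunction V.ι).counit.app MV

lemma ι_image_le (U : X.Opens) (O : (↑U : Scheme.{u}).Opens) : U.ι ''ᵁ O ≤ U := by
  rintro _ ⟨x, -, rfl⟩
  exact x.2

instance : IsIso (glueRestrictL MU MV φ) := by
  rw [Modules.Hom.isIso_iff_isIso_app]
  intro O
  have h1 := isIso_glueFst_app MU MV φ (U.ι ''ᵁ O) (ι_image_le U O)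
  have h2 : IsIso (((Modules.restrictAdjunction U.ι).counit.app MU).app O) := inferInstance
  rw [glueRestrictL, Modules.Hom.comp_app, restrictFunctor_map_app]
  exact IsIso.comp_isIso' h1 h2

instance : IsIso (glueRestrictR MU MV φ) := by
  rw [Modules.Hom.isIso_iff_isIso_app]
  intro O
  have h1 := isIso_glueSnd_app MU MV φ (V.ι ''ᵁ O) (ι_image_le V O)
  have h2 : IsIso (((Modules.restrictAdjunction V.ι).counit.app MV).app O) := inferInstance
  rw [glueRestrictR, Modules.Hom.comp_app, restrictFunctor_map_app]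
  exact IsIso.comp_isIso' h1 h2

/-- `M|_U ≅ M_U`. -/
noncomputable def glueIsoL : (glue MU MV φ).restrict U.ι ≅ MU := asIso (glueRestrictL MU MV φ)

/-- `M|_V ≅ M_V`. -/
noncomputable def glueIsoR : (glue MU MV φ).restrict V.ι ≅ MV := asIso (glueRestrictR MU MV φ)


lemma glue_condition : glueFst MU MV φ ≫ dL MU MV φ = glueSnd MU MV φ ≫ dR (U := U) MV :=
  pullback.condition

variable (U V) in
/-- The canonical identification `(N|_U)|_{U ⊓ V} ≅ (N|_V)|_{U ⊓ V}`. -/
noncomputable def overlapIso (N : X.Modules) :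
    (N.restrict U.ι).restrict (iL U V) ≅ (N.restrict V.ι).restrict (iR U V) :=
  (Modules.restrictFunctorComp (iL U V) U.ι).symm.app N ≪≫
    (Modules.restrictFunctorCongr (by simp : iL U V ≫ U.ι = iR U V ≫ V.ι)).app N ≪≫
    (Modules.restrictFunctorComp (iR U V) V.ι).app N

/-- Sections form of the gluing condition: for every open `A` of `X`, the two ways of mapping
`Γ(M, A)` to `Γ(M_V, A ∩ U ∩ V)` agree. -/
lemma glue_condition_app (A : X.Opens) :
    (glueFst MU MV φ).app A ≫ MU.presheaf.map (homOfLE (res_le inf_le_left A)).op ≫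
        φ.hom.app ((U ⊓ V).ι ⁻¹ᵁ A) =
      (glueSnd MU MV φ).app A ≫ MV.presheaf.map (homOfLE (res_le inf_le_right A)).op := by
  have cond := congr_arg (fun f => Modules.Hom.app f A) (glue_condition MU MV φ)
  simp only [Modules.Hom.comp_app, dL, dR, res_app, Modules.pushforward_map_app] at cond
  exact cond

end TwoCover

end Fermat.Agent.Jac.ModGlueKer
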