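/-
Fermat/Agent/Jac/ModGlueKer2.lean  (helper70)

JAC programme, brick M1b' (continued): restriction-form compatibility of the two-open gluing
`glue MU MV φ` of `ModGlueKer.lean` with the gluing isomorphism `φ`:

  `(restrictFunctor iL).map glueIsoL.hom ≫ φ.hom = overlapIso.hom ≫ (restrictFunctor iR).map glueIsoR.hom`

i.e. under the identifications `M|_U ≅ MU`, `M|_V ≅ MV` the canonical identification
`(M|_U)|_{U ⊓ V} ≅ (M|_V)|_{U ⊓ V}` corresponds to `φ`.
-/
import Fermat.Agent.Jac.ModGlueKer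

set_option autoImplicit false

universe u

open CategoryTheory Limits AlgebraicGeometry TopologicalSpace

namespace Fermat.Agent.Jac.ModGlueKer

open AlgebraicGeometry.Scheme

variable {X : Scheme.{u}} {U V : X.Opens}
variable (MU : (↑U : Scheme.{u}).Modules) (MV : (↑V : Scheme.{u}).Modules)
  (φ : MU.restrict (iL U V) ≅ MV.restrict (iR U V))

lemma image_congr {Y Z : Scheme.{u}} {f g : Y ⟶ Z} [IsOpenImmersion f] [IsOpenImmersion g]
    (h : f = g) (O : Y.Opens) : f ''ᵁ O = g ''ᵁ O := by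
  subst h; rfl

lemma image_image_L (O : (↑(U ⊓ V) : Scheme.{u}).Opens) :
    U.ι ''ᵁ iL U V ''ᵁ O = (U ⊓ V).ι ''ᵁ O := by
  rw [← Scheme.Hom.comp_image]
  exact image_congr (X.homOfLE_ι _) O

lemma image_image_R (O : (↑(U ⊓ V) : Scheme.{u}).Opens) :
    V.ι ''ᵁ iR U V ''ᵁ O = (U ⊓ V).ι ''ᵁ O := by
  rw [← Scheme.Hom.comp_image]
  exact image_congr (X.homOfLE_ι _) O

lemma image_image_RL (O : (↑(U ⊓ V) : Scheme.{u}).Opens) :
    V.ι ''ᵁ iR U V ''ᵁ O = U.ι ''ᵁ iL U V ''ᵁ O :=
  (image_image_R O).trans (image_image_L O).symm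

lemma presheaf_map_comp_eq₂ {Y : Scheme.{u}} (M : Y.Modules) {A B B' C : Y.Opens} (i : B ⟶ A)
    (j : C ⟶ B) (i' : B' ⟶ A) (j' : C ⟶ B') :
    M.presheaf.map i.op ≫ M.presheaf.map j.op = M.presheaf.map i'.op ≫ M.presheaf.map j'.op := by
  rw [← Functor.map_comp, ← op_comp, ← Functor.map_comp, ← op_comp]
  congr 1

lemma presheaf_map_comp_eq₃ {Y : Scheme.{u}} (M : Y.Modules) {A B C D : Y.Opens} (i : B ⟶ A)
    (j : C ⟶ B) (l : D ⟶ C) (k : D ⟶ A) :
    M.presheaf.map i.op ≫ M.presheaf.map j.op ≫ M.presheaf.map l.op = M.presheaf.map k.op := by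
  rw [← Functor.map_comp, ← op_comp, ← Functor.map_comp, ← op_comp]
  congr 1

lemma overlapIso_hom_app (N : X.Modules) (O : (↑(U ⊓ V) : Scheme.{u}).Opens) :
    (overlapIso U V N).hom.app O = N.presheaf.map (eqToHom (image_image_RL O)).op := by
  simp only [overlapIso, Modules.Hom.comp_app, Iso.trans_hom, Iso.app_hom, Iso.symm_hom,
    Modules.restrictFunctorComp_hom_app_app, Modules.restrictFunctorComp_inv_app_app,
    Modules.restrictFunctorCongr_hom_app_app]
  exact presheaf_map_comp_eq₃ N _ _ _ _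

/-- A flexible form of `glue_condition_app`: the open of `U ⊓ V` and the identifications of
opens may be given up to propositional equality. -/
lemma glue_condition_app' (A : X.Opens) (O : (↑(U ⊓ V) : Scheme.{u}).Opens)
    (hO : (U ⊓ V).ι ⁻¹ᵁ A = O) (e1 : iL U V ''ᵁ O = U.ι ⁻¹ᵁ A) (e2 : iR U V ''ᵁ O = V.ι ⁻¹ᵁ A) :
    (glueFst MU MV φ).app A ≫ MU.presheaf.map (eqToHom e1).op ≫ φ.hom.app O =
      (glueSnd MU MV φ).app A ≫ MV.presheaf.map (eqToHom e2).op := by
  subst hO
  exact glue_condition_app MU MV φ A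

theorem glue_compat :
    (Modules.restrictFunctor (iL U V)).map (glueRestrictL MU MV φ) ≫ φ.hom =
      (overlapIso U V (glue MU MV φ)).hom ≫
        (Modules.restrictFunctor (iR U V)).map (glueRestrictR MU MV φ) := by
  refine Modules.hom_ext _ _ fun O => ?_
  simp only [overlapIso_hom_app, glueRestrictL, glueRestrictR, restrictFunctor_map_app,
    Modules.Hom.comp_app, Modules.restrictAdjunction_counit_app_app]
  have key : ∀ (B : X.Opens) (hBA : B = U.ι ''ᵁ iL U V ''ᵁ O)
      (e1 : iL U V ''ᵁ O = U.ι ⁻¹ᵁ (U.ι ''ᵁ iL U V ''ᵁ O)) (e2 : iR U V ''ᵁ O = V.ι ⁻¹ᵁ B),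
      ((glueFst MU MV φ).app (U.ι ''ᵁ iL U V ''ᵁ O) ≫ MU.presheaf.map (eqToHom e1).op) ≫
        φ.hom.app O =
      (glue MU MV φ).presheaf.map (eqToHom hBA).op ≫ (glueSnd MU MV φ).app B ≫
        MV.presheaf.map (eqToHom e2).op := by
    intro B hBA e1 e2
    subst hBA
    rw [eqToHom_refl, op_id, CategoryTheory.Functor.map_id, Category.id_comp]
    refine (Category.assoc _ _ _).trans ?_
    refine glue_condition_app' MU MV φ _ O ?_ e1 e2
    rw [image_image_L, Scheme.Hom.preimage_image_eq]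
  exact key _ (image_image_RL O) _ _

/-- Restriction-form compatibility, stated for the isomorphisms `glueIsoL`, `glueIsoR`. -/
theorem glueIso_compat :
    (Modules.restrictFunctor (iL U V)).map (glueIsoL MU MV φ).hom ≫ φ.hom =
      (overlapIso U V (glue MU MV φ)).hom ≫
        (Modules.restrictFunctor (iR U V)).map (glueIsoR MU MV φ).hom :=
  glue_compat MU MV φ

/-- The gluing isomorphism is recovered from the glued module. -/
theorem glueIso_compat' :
    φ.hom = (Modules.restrictFunctor (iL U V)).map (glueIsoL MU MV φ).inv ≫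
      (overlapIso U V (glue MU MV φ)).hom ≫
        (Modules.restrictFunctor (iR U V)).map (glueIsoR MU MV φ).hom := by
  rw [← glueIso_compat, ← Category.assoc, ← Functor.map_comp, Iso.inv_hom_id,
    CategoryTheory.Functor.map_id, Category.id_comp]

end Fermat.Agent.Jac.ModGlueKer
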