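/-
Fermat/Agent/Jac/ModGlueKer3.lean  (helper70)

JAC programme, brick M1b' (continued): pullback-form isomorphisms and invertibility of the
two-open gluing `glue MU MV φ` of `ModGlueKer.lean`.

* `gluePullbackIsoL : (pullback U.ι).obj (glue MU MV φ) ≅ MU` (and `R`);
* `isInvertible_glue`: if `U ⊔ V = ⊤` and `MU`, `MV` are invertible (frozen predicate
  `Scheme.Modules.IsInvertible`), then so is `glue MU MV φ`.
-/
import Fermat.Agent.Jac.ModGlueKer
import Fermat.Agent.Jac.AffineDict34.LocallyTrivial

set_option autoImplicit false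

universe u

open CategoryTheory Limits AlgebraicGeometry TopologicalSpace

namespace Fermat.Agent.Jac.ModGlueKer

open AlgebraicGeometry.Scheme

variable {X : Scheme.{u}} {U V : X.Opens}
variable (MU : (↑U : Scheme.{u}).Modules) (MV : (↑V : Scheme.{u}).Modules)
  (φ : MU.restrict (iL U V) ≅ MV.restrict (iR U V))

/-- Pullback form of `glueIsoL`. -/
noncomputable def gluePullbackIsoL : (Modules.pullback U.ι).obj (glue MU MV φ) ≅ MU :=
  ((Modules.restrictFunctorIsoPullback U.ι).app (glue MU MV φ)).symm ≪≫ glueIsoL MU MV φ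

/-- Pullback form of `glueIsoR`. -/
noncomputable def gluePullbackIsoR : (Modules.pullback V.ι).obj (glue MU MV φ) ≅ MV :=
  ((Modules.restrictFunctorIsoPullback V.ι).app (glue MU MV φ)).symm ≪≫ glueIsoR MU MV φ

/-- If the pullback of `L` to an open `U` is invertible, then `L` is locally trivial at every
point of `U`. -/
lemma exists_triv_of_pullback_isInvertible (L : X.Modules) (U : X.Opens)
    (h : Scheme.Modules.IsInvertible ((Modules.pullback U.ι).obj L)) (x : X) (hx : x ∈ U) :
    ∃ (W : Scheme.{u}) (j : W ⟶ X) (_ : IsOpenImmersion j), x ∈ Set.range j.base ∧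
      Nonempty ((Modules.pullback j).obj L ≅ SheafOfModules.unit W.ringCatSheaf) := by
  obtain ⟨U', hxU', ⟨e⟩⟩ := h.exists_trivialization ⟨x, hx⟩
  refine ⟨↑U', U'.ι ≫ U.ι, inferInstance, ⟨⟨⟨x, hx⟩, hxU'⟩, rfl⟩, ⟨?_⟩⟩
  exact (AffineDict34.pullbackObjCompIso U'.ι U.ι (U'.ι ≫ U.ι) rfl L).symm ≪≫ e

/-- Invertibility is local: if the pullbacks of `L` to two opens covering `X` are invertible,
then `L` is invertible. -/
theorem isInvertible_of_two_cover (L : X.Modules) (hUV : U ⊔ V = ⊤)
    (hU : Scheme.Modules.IsInvertible ((Modules.pullback U.ι).obj L))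
    (hV : Scheme.Modules.IsInvertible ((Modules.pullback V.ι).obj L)) :
    Scheme.Modules.IsInvertible L := by
  apply AffineDict34.isInvertible_of_openImmersions
  intro x
  have hx : x ∈ U ⊔ V := by rw [hUV]; trivial
  rcases hx with hx | hx
  · exact exists_triv_of_pullback_isInvertible L U hU x hx
  · exact exists_triv_of_pullback_isInvertible L V hV x hx

/-- The glued module of two invertible modules on a two-element open cover is invertible. -/
theorem isInvertible_glue (hUV : U ⊔ V = ⊤) (hMU : Scheme.Modules.IsInvertible MU)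
    (hMV : Scheme.Modules.IsInvertible MV) :
    Scheme.Modules.IsInvertible (glue MU MV φ) :=
  isInvertible_of_two_cover _ hUV
    (AffineDict34.isInvertible_of_iso (gluePullbackIsoL MU MV φ).symm hMU)
    (AffineDict34.isInvertible_of_iso (gluePullbackIsoR MU MV φ).symm hMV)

end Fermat.Agent.Jac.ModGlueKer
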