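/-
Fermat/Agent/Jac/P1CohH0x42.lean  (helper42, hedge of brick A1b of programme JAC / S25)

(T5) For a two-chart module `L` over `c : TwoChart A R0 R1 R01` that is finite and projective over
the line, with `N01` projective over `A` and `H¹(L) = 0`:
`H⁰(L)` is a finitely generated projective `A`-module and commutes with every base change.

Route: `d` is surjective onto the `A`-projective module `N01`, so it splits and `H⁰ = ker d` is a
retract of `N0 × N1`; dual-basis coordinates on `N0` and `N1` have bounded degree on `H⁰`, so `H⁰`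
lies in a finitely generated `A`-submodule `F` of `N0 × N1`, and `H⁰` is the image of `F` under the
retraction.
-/
import Fermat.Agent.Jac.P1CohH1

set_option autoImplicit false
set_option linter.unusedSectionVars false

universe u

open TensorProduct Polynomial

namespace Fermat.Agent.Jac.P1CohH0x42

open Fermat.Agent.Jac.P1CohH1

noncomputable section

variable {A R0 R1 R01 : Type u} [CommRing A] [CommRing R0] [CommRing R1] [CommRing R01]
  [Algebra A R0] [Algebra A R1] [Algebra A R01] [Algebra R0 R01] [Algebra R1 R01]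
  [IsScalarTower A R0 R01] [IsScalarTower A R1 R01]

/-! ### Swapping the two charts -/

/-- The two-chart ring with the charts exchanged. -/
def swapChart (c : TwoChart A R0 R1 R01) : TwoChart A R1 R0 R01 where
  t := c.s
  s := c.t
  away0 := c.away1
  away1 := c.away0
  ts := by rw [mul_comm]; exact c.ts

/-- The two-chart module with the charts exchanged. -/
def swapQC (L : QC2 A R0 R1 R01) : QC2 A R1 R0 R01 where
  N0 := L.N1
  N1 := L.N0
  N01 := L.N01
  r0 := L.r1
  r1 := L.r0
  bc0 := L.bc1
  bc1 := L.bc0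

/-! ### The degree bound -/

section DegreeBound

variable (c : TwoChart A R0 R1 R01) (L : QC2 A R0 R1 R01)

/-- `t • s • z = z` on the overlap. -/
lemma t_smul_s_smul (z : L.N01) : c.t • c.s • z = z := by
  rw [← algebraMap_smul R01 c.t, ← algebraMap_smul R01 c.s, smul_smul, c.ts, one_smul]

/-- Two elements of `N0` with the same restriction to the overlap agree after multiplication by a
power of `t`. -/
lemma exists_pow_smul_eq_of_r0_eq {x y : L.N0} (h : L.r0 x = L.r0 y) :
    ∃ k : ℕ, c.t ^ k • x = c.t ^ k • y := by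
  have := c.away0
  have : IsLocalizedModule (Submonoid.powers c.t) L.r0 :=
    (isLocalizedModule_iff_isBaseChange (Submonoid.powers c.t) R01 L.r0).mpr L.bc0
  exact IsLocalizedModule.Away.exists_of_eq c.t h

/-- Every section over the overlap is `r0 y` up to a power of `t`. -/
lemma exists_pow_smul_eq_r0 (z : L.N01) : ∃ (n : ℕ) (y : L.N0), c.t ^ n • z = L.r0 y := by
  have := c.away0
  have : IsLocalizedModule (Submonoid.powers c.t) L.r0 :=
    (isLocalizedModule_iff_isBaseChange (Submonoid.powers c.t) R01 L.r0).mpr L.bc0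
  exact IsLocalizedModule.Away.surj L.r0 c.t z

variable {n : ℕ} (φ : Module.AEval A L.N0 c.t →ₗ[A[X]] (Fin n → A[X]))

/-- Auxiliary predicate: `t^(N+e) • r1 x` is the restriction of a section `y` of `N0` all of whose
`φ`-coordinates have degree at most `D + e`. -/
def Good (N D : ℕ) (x : L.N1) (e : ℕ) : Prop :=
  ∃ y : L.N0, c.t ^ (N + e) • L.r1 x = L.r0 y ∧
    ∀ a, (φ (Module.AEval.of A L.N0 c.t y) a).natDegree ≤ D + e

lemma Good.succ {N D : ℕ} {x : L.N1} {e : ℕ} (h : Good c L φ N D x e) :
    Good c L φ N D x (e + 1) := by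
  obtain ⟨y, hy, hd⟩ := h
  refine ⟨c.t • y, ?_, fun a => ?_⟩
  · rw [map_smul, ← hy, ← add_assoc, pow_succ', mul_smul]
  · rw [← Module.AEval.X_smul_of, map_smul, Pi.smul_apply, smul_eq_mul]
    calc (X * φ (Module.AEval.of A L.N0 c.t y) a).natDegree
        ≤ (X : A[X]).natDegree + (φ (Module.AEval.of A L.N0 c.t y) a).natDegree :=
          natDegree_mul_le
      _ ≤ 1 + (D + e) := add_le_add natDegree_X_le (hd a)
      _ = D + (e + 1) := by ring

lemma Good.mono {N D : ℕ} {x : L.N1} {e e' : ℕ} (h : Good c L φ N D x e) (hee : e ≤ e') :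
    Good c L φ N D x e' := by
  induction e', hee using Nat.le_induction with
  | base => exact h
  | succ k _ ih => exact ih.succ

lemma Good.s_smul {N D : ℕ} {x : L.N1} {e : ℕ} (h : Good c L φ N D x e) :
    Good c L φ N D (c.s • x) (e + 1) := by
  obtain ⟨y, hy, hd⟩ := h
  refine ⟨y, ?_, fun a => (hd a).trans (by omega)⟩
  rw [map_smul, ← hy, ← add_assoc, pow_succ, mul_smul, t_smul_s_smul]

lemma Good.base_smul {N D : ℕ} {x : L.N1} {e : ℕ} (h : Good c L φ N D x e) (a : A) :
    Good c L φ N D (a • x) e := by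
  obtain ⟨y, hy, hd⟩ := h
  refine ⟨a • y, ?_, fun i => ?_⟩
  · rw [LinearMap.map_smul_of_tower, LinearMap.map_smul_of_tower, smul_comm, hy]
  · rw [map_smul, ← Module.AEval.C_smul, map_smul, Pi.smul_apply, smul_eq_mul]
    exact (natDegree_C_mul_le _ _).trans (hd i)

lemma Good.add {N D : ℕ} {x x' : L.N1} {e e' : ℕ} (h : Good c L φ N D x e)
    (h' : Good c L φ N D x' e') : Good c L φ N D (x + x') (max e e') := by
  obtain ⟨y, hy, hd⟩ := h.mono c L φ (le_max_left e e')
  obtain ⟨y', hy', hd'⟩ := h'.mono c L φ (le_max_right e e')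
  refine ⟨y + y', ?_, fun a => ?_⟩
  · rw [map_add, map_add, smul_add, hy, hy']
  · rw [map_add, map_add, Pi.add_apply]
    exact (natDegree_add_le _ _).trans (max_le (hd a) (hd' a))

lemma Good.zero (N D : ℕ) : Good c L φ N D 0 0 :=
  ⟨0, by simp, fun a => by simp⟩

/-- The sections of `N1` which are good for some exponent form an `A[s]`-submodule. -/
def goodSubmodule (N D : ℕ) : Submodule A[X] (Module.AEval A L.N1 c.s) where
  carrier := {x | ∃ e, Good c L φ N D ((Module.AEval.of A L.N1 c.s).symm x) e}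
  add_mem' := by
    rintro x x' ⟨e, he⟩ ⟨e', he'⟩
    exact ⟨max e e', by rw [map_add]; exact he.add c L φ he'⟩
  zero_mem' := ⟨0, by rw [map_zero]; exact Good.zero c L φ N D⟩
  smul_mem' := by
    intro p x hx
    have hX : ∀ (k : ℕ) (x : Module.AEval A L.N1 c.s),
        (∃ e, Good c L φ N D ((Module.AEval.of A L.N1 c.s).symm x) e) →
        ∃ e, Good c L φ N D ((Module.AEval.of A L.N1 c.s).symm ((X : A[X]) ^ k • x)) e := by
      intro k
      induction k with
      | zero => intro x hx; simpa using hx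
      | succ k ih =>
        intro x hx
        obtain ⟨e, he⟩ := ih x hx
        refine ⟨e + 1, ?_⟩
        rw [pow_succ', mul_smul, Module.AEval.of_symm_X_smul]
        exact he.s_smul c L φ
    induction p using Polynomial.induction_on' with
    | add p q hp hq =>
      obtain ⟨e, he⟩ := hp
      obtain ⟨e', he'⟩ := hq
      exact ⟨max e e', by rw [add_smul, map_add]; exact he.add c L φ he'⟩
    | monomial k a =>
      obtain ⟨e, he⟩ := hX k x hx
      refine ⟨e, ?_⟩
      rw [← C_mul_X_pow_eq_monomial, mul_smul, Module.AEval.C_smul, map_smul]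
      exact he.base_smul c L φ a

/-- **Degree bound.**  If `N1` is finite over `A[s]`, then for every `A[t]`-linear family of
coordinates `φ` on `N0` there is a bound `D` such that all `φ`-coordinates of the first component
of every global section have degree at most `D`. -/
theorem exists_degree_bound (h1 : Module.Finite A[X] (Module.AEval A L.N1 c.s)) :
    ∃ D : ℕ, ∀ (x0 : L.N0) (x1 : L.N1), L.r0 x0 = L.r1 x1 →
      ∀ a, (φ (Module.AEval.of A L.N0 c.t x0) a).natDegree ≤ D := by
  classical
  obtain ⟨S, hS⟩ := (Module.finite_def (R := A[X]) (M := Module.AEval A L.N1 c.s)).1 h1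
  choose nn yy hyy using fun f : L.N1 => exists_pow_smul_eq_r0 c L (L.r1 f)
  let S' : Finset L.N1 := S.image (Module.AEval.of A L.N1 c.s).symm
  let N : ℕ := S'.sup nn
  let y' : L.N1 → L.N0 := fun f => c.t ^ (N - nn f) • yy f
  have hy' : ∀ f ∈ S', c.t ^ N • L.r1 f = L.r0 (y' f) := by
    intro f hf
    have hle : nn f ≤ N := Finset.le_sup hf
    simp only [y']
    rw [map_smul, ← hyy f, smul_smul, ← pow_add, Nat.sub_add_cancel hle]
  let D : ℕ := S'.sup fun f => Finset.univ.sup fun a =>
    (φ (Module.AEval.of A L.N0 c.t (y' f)) a).natDegree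
  have hD : ∀ f ∈ S', ∀ a, (φ (Module.AEval.of A L.N0 c.t (y' f)) a).natDegree ≤ D := by
    intro f hf a
    exact le_trans (Finset.le_sup (f := fun a =>
      (φ (Module.AEval.of A L.N0 c.t (y' f)) a).natDegree) (Finset.mem_univ a))
      (Finset.le_sup (f := fun f => Finset.univ.sup fun a =>
        (φ (Module.AEval.of A L.N0 c.t (y' f)) a).natDegree) hf)
  have hgood : goodSubmodule c L φ N D = ⊤ := by
    rw [eq_top_iff, ← hS, Submodule.span_le]
    intro f hf
    have hf' : (Module.AEval.of A L.N1 c.s).symm f ∈ S' := Finset.mem_image_of_mem _ hf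
    exact ⟨0, y' _, by rw [add_zero]; exact hy' _ hf', fun a => by
      rw [add_zero]; exact hD _ hf' a⟩
  refine ⟨D, fun x0 x1 hx a => ?_⟩
  have hx1 : Module.AEval.of A L.N1 c.s x1 ∈ goodSubmodule c L φ N D := hgood ▸ Submodule.mem_top
  obtain ⟨e, y, hy, hd⟩ := hx1
  rw [LinearEquiv.symm_apply_apply] at hy
  have hr : L.r0 (c.t ^ (N + e) • x0) = L.r0 y := by rw [map_smul, hx, hy]
  obtain ⟨k, hk⟩ := exists_pow_smul_eq_of_r0_eq c L hr
  set p := φ (Module.AEval.of A L.N0 c.t x0) a with hp
  set q := φ (Module.AEval.of A L.N0 c.t y) a with hq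
  have hpq : X ^ k * (X ^ (N + e) * p) = X ^ k * q := by
    have := congrArg (fun w => φ (Module.AEval.of A L.N0 c.t w) a) hk
    simp only [← Module.AEval.X_pow_smul_of, map_smul, Pi.smul_apply, smul_eq_mul] at this
    exact this
  by_cases hp0 : p = 0
  · rw [hp0]; simp
  · have hnt : Nontrivial A := by
      by_contra h
      rw [not_nontrivial_iff_subsingleton] at h
      exact hp0 (Subsingleton.elim _ _)
    have hne : X ^ (N + e) * p ≠ 0 := (monic_X_pow (N + e)).mul_right_ne_zero hp0
    have h1 : (X ^ k * (X ^ (N + e) * p)).natDegree = p.natDegree + (N + e) + k := by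
      rw [natDegree_X_pow_mul k hne, natDegree_X_pow_mul (N + e) hp0]
    have h2 : (X ^ k * q).natDegree ≤ k + (D + e) :=
      natDegree_mul_le.trans (add_le_add (natDegree_X_pow_le k) (hd a))
    rw [hpq] at h1
    omega

end DegreeBound

/-! ### Assembly -/

section Main

variable (c : TwoChart A R0 R1 R01) (L : QC2 A R0 R1 R01)

/-- A pair of sections is a global section iff the two restrictions to the overlap agree. -/
lemma mem_H0_iff (x : L.N0 × L.N1) : x ∈ L.H0 ↔ L.r0 x.1 = L.r1 x.2 := by
  change L.r0 x.1 + -(L.r1 x.2) = 0 ↔ _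
  rw [← sub_eq_add_neg, sub_eq_zero]

/-- Sections of `N0` whose coordinates (with respect to a retraction onto a finite free
`A[t]`-module) have bounded degree lie in a finitely generated `A`-submodule. -/
theorem exists_fg_of_degree_le {n : ℕ} (φ : Module.AEval A L.N0 c.t →ₗ[A[X]] (Fin n → A[X]))
    (π : (Fin n → A[X]) →ₗ[A[X]] Module.AEval A L.N0 c.t) (hπφ : π ∘ₗ φ = LinearMap.id) (D : ℕ) :
    ∃ F : Submodule A L.N0, F.FG ∧
      ∀ x0 : L.N0, (∀ a, (φ (Module.AEval.of A L.N0 c.t x0) a).natDegree ≤ D) → x0 ∈ F := by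
  let ι : (Fin n → degreeLT A (D + 1)) →ₗ[A] (Fin n → A[X]) :=
    LinearMap.pi fun a => (degreeLT A (D + 1)).subtype ∘ₗ LinearMap.proj a
  let ψ : (Fin n → degreeLT A (D + 1)) →ₗ[A] L.N0 :=
    (Module.AEval.of A L.N0 c.t).symm.toLinearMap ∘ₗ (π.restrictScalars A) ∘ₗ ι
  have hfin : Module.Finite A (degreeLT A (D + 1)) :=
    Module.Finite.equiv (degreeLTEquiv A (D + 1)).symm
  have hfin' : Module.Finite A (Fin n → degreeLT A (D + 1)) := inferInstance
  refine ⟨LinearMap.range ψ, ?_, fun x0 hx0 => ?_⟩
  · have := Module.Finite.range ψ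
    exact Module.Finite.iff_fg.1 this
  · refine ⟨fun a => ⟨φ (Module.AEval.of A L.N0 c.t x0) a, ?_⟩, ?_⟩
    · rw [mem_degreeLT]
      refine (degree_le_natDegree.trans (Nat.cast_le.2 (hx0 a))).trans_lt ?_
      exact_mod_cast Nat.lt_succ_self D
    · have h : π (φ (Module.AEval.of A L.N0 c.t x0)) = Module.AEval.of A L.N0 c.t x0 :=
        LinearMap.congr_fun hπφ _
      change (Module.AEval.of A L.N0 c.t).symm (π (φ (Module.AEval.of A L.N0 c.t x0))) = x0
      rw [h, LinearEquiv.symm_apply_apply]

/-- If `N0` is a retract of a finite free `A[t]`-module, it is projective over `A`. -/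
theorem projective_of_retract {n : ℕ} (φ : Module.AEval A L.N0 c.t →ₗ[A[X]] (Fin n → A[X]))
    (π : (Fin n → A[X]) →ₗ[A[X]] Module.AEval A L.N0 c.t) (hπφ : π ∘ₗ φ = LinearMap.id) :
    Module.Projective A L.N0 := by
  refine Module.Projective.of_split
    ((φ.restrictScalars A) ∘ₗ (Module.AEval.of A L.N0 c.t).toLinearMap)
    ((Module.AEval.of A L.N0 c.t).symm.toLinearMap ∘ₗ (π.restrictScalars A)) ?_
  ext x
  have h : π (φ (Module.AEval.of A L.N0 c.t x)) = Module.AEval.of A L.N0 c.t x :=
    LinearMap.congr_fun hπφ _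
  change (Module.AEval.of A L.N0 c.t).symm (π (φ (Module.AEval.of A L.N0 c.t x))) = x
  rw [h, LinearEquiv.symm_apply_apply]

/-- (T5) If `L` is finite and projective over the line, `N01` is projective over `A` and
`H¹(L) = 0`, then `H⁰(L)` is a finitely generated projective `A`-module whose formation commutes
with every base change. -/
theorem T5 (hf : L.FiniteOverLine c) (hp : L.ProjOverLine c) (hN01 : Module.Projective A L.N01)
    (hH1 : Subsingleton L.H1) :
    Module.Finite A L.H0 ∧ Module.Projective A L.H0 ∧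
      ∀ (A' : Type u) [CommRing A'] [Algebra A A'], Function.Bijective (L.H0BCMap A') := by
  have hfin0 := hf.fin0
  have hfin1 := hf.fin1
  have hproj0 := hp.proj0
  have hproj1 := hp.proj1
  -- the Čech differential is surjective and splits
  have hd : Function.Surjective L.d := by
    rw [← LinearMap.range_eq_top]
    exact Submodule.Quotient.subsingleton_iff.1 hH1
  obtain ⟨σ, hσ⟩ := Module.projective_lifting_property L.d LinearMap.id hd
  have hσ' : ∀ z, L.d (σ z) = z := fun z => LinearMap.congr_fun hσ z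
  -- the retraction onto `H⁰`
  let ρ : (L.N0 × L.N1) →ₗ[A] L.H0 :=
    LinearMap.codRestrict L.H0 (LinearMap.id - σ ∘ₗ L.d) (fun x => by
      change L.d ((LinearMap.id - σ ∘ₗ L.d : (L.N0 × L.N1) →ₗ[A] (L.N0 × L.N1)) x) = 0
      simp [hσ'])
  have hρ : ∀ h : L.H0, ρ h.1 = h := by
    intro h
    apply Subtype.ext
    have h0 : L.d h.1 = 0 := h.2
    simp [ρ, h0]
  have hρsub : L.H0.subtype ∘ₗ ρ = LinearMap.id - σ ∘ₗ L.d := by
    ext x <;> rfl
  have hρid : ρ ∘ₗ L.H0.subtype = LinearMap.id := by
    ext h : 1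
    exact hρ h
  -- coordinates on both charts
  obtain ⟨n0, π0, φ0, -, -, hπφ0⟩ :=
    Module.Finite.exists_comp_eq_id_of_projective A[X] (Module.AEval A L.N0 c.t)
  obtain ⟨n1, π1, φ1, -, -, hπφ1⟩ :=
    Module.Finite.exists_comp_eq_id_of_projective A[X] (Module.AEval A L.N1 c.s)
  have hP0 : Module.Projective A L.N0 := projective_of_retract c L φ0 π0 hπφ0
  have hP1 : Module.Projective A L.N1 :=
    projective_of_retract (swapChart c) (swapQC L) (φ := φ1) π1 hπφ1
  refine ⟨?_, ?_, ?_⟩
  · -- finiteness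
    obtain ⟨D0, hD0⟩ := exists_degree_bound c L φ0 hfin1
    obtain ⟨D1, hD1⟩ := exists_degree_bound (swapChart c) (swapQC L) (φ := φ1) hfin0
    obtain ⟨F0, hF0, hF0mem⟩ := exists_fg_of_degree_le c L φ0 π0 hπφ0 D0
    obtain ⟨F1, hF1, hF1mem⟩ :=
      exists_fg_of_degree_le (swapChart c) (swapQC L) (φ := φ1) π1 hπφ1 D1
    have hFG : (F0.prod F1).FG := hF0.prod hF1
    have hle : ∀ h : L.H0, h.1 ∈ F0.prod F1 := by
      intro h
      have h0 : L.r0 h.1.1 = L.r1 h.1.2 := (mem_H0_iff L h.1).1 h.2
      exact ⟨hF0mem _ (hD0 _ _ h0), hF1mem _ (hD1 _ _ h0.symm)⟩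
    have : Module.Finite A (F0.prod F1) := Module.Finite.iff_fg.2 hFG
    refine Module.Finite.of_surjective (ρ ∘ₗ (F0.prod F1).subtype) (fun h => ?_)
    exact ⟨⟨h.1, hle h⟩, hρ h⟩
  · -- projectivity
    exact Module.Projective.of_split L.H0.subtype ρ hρid
  · -- base change
    intro A' _ _
    constructor
    · intro x y hxy
      have h1 : (L.H0.subtype.baseChange A') x = (L.H0.subtype.baseChange A') y :=
        congrArg Subtype.val hxy
      have h2 := congrArg (ρ.baseChange A') h1
      rw [← LinearMap.comp_apply, ← LinearMap.comp_apply, ← LinearMap.baseChange_comp, hρid,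
        LinearMap.baseChange_id] at h2
      exact h2
    · intro y
      refine ⟨(ρ.baseChange A') y.1, Subtype.ext ?_⟩
      have hy : (L.d.baseChange A') y.1 = 0 := y.2
      change (L.H0.subtype.baseChange A') ((ρ.baseChange A') y.1) = y.1
      rw [← LinearMap.comp_apply, ← LinearMap.baseChange_comp, hρsub, LinearMap.baseChange_sub,
        LinearMap.baseChange_id, LinearMap.baseChange_comp, LinearMap.sub_apply,
        LinearMap.comp_apply, hy, map_zero, sub_zero, LinearMap.id_apply]

end Main

end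

end Fermat.Agent.Jac.P1CohH0x42
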