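/-
Fermat/Agent/Jac/SmallClasses42.lean  (helper42, brick S1 part (1) of programme JAC / S25)

Smallness of the isomorphism classes of line two-chart modules: every two-chart module whose chart
modules are finitely generated is isomorphic to one whose underlying modules are quotients of
`Fin n → R`, and the latter are parametrised by a type `SmallData R0 R1 R01 : Type u`.
Hence `Quotient (lineSetoid A R0 R1 R01)` is `u`-small.
-/
import Fermat.Agent.Jac.LineOps39.Basic

set_option autoImplicit false
set_option linter.unusedSectionVars false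

universe u

open TensorProduct

namespace Fermat.Agent.Jac.SmallClasses42

open Fermat.Agent.Jac.LineOps39

variable (A R0 R1 R01 : Type u) [CommRing A] [CommRing R0] [CommRing R1] [CommRing R01]
  [Algebra A R0] [Algebra A R1] [Algebra A R01] [Algebra R0 R01] [Algebra R1 R01]
  [IsScalarTower A R0 R01] [IsScalarTower A R1 R01]

/-- Presentation data of a two-chart module with finitely generated chart modules: the three
modules are quotients of standard free modules.  This lives in `Type u`. -/
structure SmallData : Type u where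
  n0 : ℕ
  n1 : ℕ
  n01 : ℕ
  K0 : Submodule R0 (Fin n0 → R0)
  K1 : Submodule R1 (Fin n1 → R1)
  K01 : Submodule R01 (Fin n01 → R01)
  r0 : ((Fin n0 → R0) ⧸ K0) →ₗ[R0] ((Fin n01 → R01) ⧸ K01)
  r1 : ((Fin n1 → R1) ⧸ K1) →ₗ[R1] ((Fin n01 → R01) ⧸ K01)
  bc0 : IsBaseChange R01 r0
  bc1 : IsBaseChange R01 r1

variable {A R0 R1 R01}

/-- The two-chart module presented by the data. -/
def SmallData.toQC2 (d : SmallData R0 R1 R01) : QC2 A R0 R1 R01 where
  N0 := (Fin d.n0 → R0) ⧸ d.K0
  N1 := (Fin d.n1 → R1) ⧸ d.K1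
  N01 := (Fin d.n01 → R01) ⧸ d.K01
  r0 := d.r0
  r1 := d.r1
  bc0 := d.bc0
  bc1 := d.bc1

/-- Every two-chart module with finitely generated chart modules is isomorphic to one presented
by `SmallData`. -/
theorem exists_smallData_iso (L : QC2 A R0 R1 R01) (h0 : Module.Finite R0 L.N0)
    (h1 : Module.Finite R1 L.N1) :
    ∃ d : SmallData R0 R1 R01, Nonempty (QC2.Iso (d.toQC2 (A := A)) L) := by
  have h01 : Module.Finite R01 L.N01 := Module.Finite.equiv L.bc0.equiv
  obtain ⟨n0, f0, hf0⟩ := Module.Finite.exists_fin' R0 L.N0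
  obtain ⟨n1, f1, hf1⟩ := Module.Finite.exists_fin' R1 L.N1
  obtain ⟨n01, f01, hf01⟩ := Module.Finite.exists_fin' R01 L.N01
  let e0 : ((Fin n0 → R0) ⧸ LinearMap.ker f0) ≃ₗ[R0] L.N0 := f0.quotKerEquivOfSurjective hf0
  let e1 : ((Fin n1 → R1) ⧸ LinearMap.ker f1) ≃ₗ[R1] L.N1 := f1.quotKerEquivOfSurjective hf1
  let e01 : ((Fin n01 → R01) ⧸ LinearMap.ker f01) ≃ₗ[R01] L.N01 :=
    f01.quotKerEquivOfSurjective hf01
  let r0' : ((Fin n0 → R0) ⧸ LinearMap.ker f0) →ₗ[R0] ((Fin n01 → R01) ⧸ LinearMap.ker f01) :=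
    (e01.symm.restrictScalars R0).toLinearMap ∘ₗ L.r0 ∘ₗ e0.toLinearMap
  let r1' : ((Fin n1 → R1) ⧸ LinearMap.ker f1) →ₗ[R1] ((Fin n01 → R01) ⧸ LinearMap.ker f01) :=
    (e01.symm.restrictScalars R1).toLinearMap ∘ₗ L.r1 ∘ₗ e1.toLinearMap
  have hbc0 : IsBaseChange R01 r0' := by
    refine (IsBaseChange.iff_of_equiv_comm (f := L.r0) (f' := r0') e0.symm e01.symm ?_).1 L.bc0
    ext x
    simp [r0']
  have hbc1 : IsBaseChange R01 r1' := by
    refine (IsBaseChange.iff_of_equiv_comm (f := L.r1) (f' := r1') e1.symm e01.symm ?_).1 L.bc1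
    ext x
    simp [r1']
  refine ⟨⟨n0, n1, n01, LinearMap.ker f0, LinearMap.ker f1, LinearMap.ker f01, r0', r1', hbc0,
    hbc1⟩, ⟨⟨e0, e1, e01, ?_, ?_⟩⟩⟩
  · intro x
    change e01 (e01.symm (L.r0 (e0 x))) = L.r0 (e0 x)
    rw [LinearEquiv.apply_symm_apply]
  · intro x
    change e01 (e01.symm (L.r1 (e1 x))) = L.r1 (e1 x)
    rw [LinearEquiv.apply_symm_apply]

variable (A R0 R1 R01)

/-- Isomorphism of line two-chart modules, as an equivalence relation. -/
def lineSetoid : Setoid {L : QC2 A R0 R1 R01 // L.IsLine} where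
  r L M := Nonempty (QC2.Iso L.1 M.1)
  iseqv :=
    ⟨fun L => ⟨isoRefl L.1⟩, fun ⟨e⟩ => ⟨isoSymm e⟩, fun ⟨e⟩ ⟨f⟩ => ⟨isoTrans e f⟩⟩

/-- Isomorphism of two-chart vector bundles, as an equivalence relation. -/
def vbSetoid : Setoid {L : QC2 A R0 R1 R01 // L.IsVB} where
  r L M := Nonempty (QC2.Iso L.1 M.1)
  iseqv :=
    ⟨fun L => ⟨isoRefl L.1⟩, fun ⟨e⟩ => ⟨isoSymm e⟩, fun ⟨e⟩ ⟨f⟩ => ⟨isoTrans e f⟩⟩

/-- The isomorphism classes of line two-chart modules. -/
abbrev LineClasses : Type (u + 1) := Quotient (lineSetoid A R0 R1 R01)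

/-- The isomorphism classes of two-chart vector bundles. -/
abbrev VBClasses : Type (u + 1) := Quotient (vbSetoid A R0 R1 R01)

variable {A R0 R1 R01}

/-- Being a line bundle is invariant under isomorphism. -/
theorem isLine_of_iso {L M : QC2 A R0 R1 R01} (e : QC2.Iso L M) (hL : L.IsLine) : M.IsLine := by
  have := hL.inv0
  have := hL.inv1
  exact ⟨Module.Invertible.congr e.e0, Module.Invertible.congr e.e1⟩

open Classical in
/-- The class of the two-chart module presented by `d` if it is a line bundle, the class of the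
structure sheaf otherwise. -/
noncomputable def classOfData (d : SmallData R0 R1 R01) : LineClasses A R0 R1 R01 :=
  if h : (d.toQC2 (A := A)).IsLine then Quotient.mk _ ⟨d.toQC2, h⟩
  else Quotient.mk _ ⟨QC2.unit, ⟨inferInstanceAs (Module.Invertible R0 R0),
    inferInstanceAs (Module.Invertible R1 R1)⟩⟩

theorem classOfData_surjective :
    Function.Surjective (classOfData : SmallData R0 R1 R01 → LineClasses A R0 R1 R01) := by
  intro q
  obtain ⟨⟨L, hL⟩, rfl⟩ := Quotient.exists_rep q
  have i0 := hL.inv0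
  have i1 := hL.inv1
  obtain ⟨d, ⟨e⟩⟩ := exists_smallData_iso L inferInstance inferInstance
  have hd : (d.toQC2 (A := A)).IsLine := isLine_of_iso (isoSymm e) hL
  refine ⟨d, ?_⟩
  rw [classOfData, dif_pos hd]
  exact Quotient.sound ⟨e⟩

/-- **Smallness.**  The isomorphism classes of line two-chart modules over fixed rings in
`Type u` form a `u`-small type. -/
instance small_lineClasses : Small.{u} (LineClasses A R0 R1 R01) :=
  small_of_surjective classOfData_surjective

/-- Flexible form of smallness: a `u`-small family of two-chart modules meeting every isomorphism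
class of two-chart modules with finitely generated chart modules (in particular every line bundle
and every vector bundle). -/
theorem exists_small_family :
    ∃ (D : Type u) (F : D → QC2 A R0 R1 R01), ∀ L : QC2 A R0 R1 R01,
      Module.Finite R0 L.N0 → Module.Finite R1 L.N1 → ∃ d, Nonempty (QC2.Iso (F d) L) :=
  ⟨SmallData R0 R1 R01, fun d => d.toQC2, fun L h0 h1 => exists_smallData_iso L h0 h1⟩

/-- Being a vector bundle is invariant under isomorphism. -/
theorem isVB_of_iso {L M : QC2 A R0 R1 R01} (e : QC2.Iso L M) (hL : L.IsVB) : M.IsVB := by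
  have := hL.fin0
  have := hL.fin1
  have := hL.proj0
  have := hL.proj1
  exact ⟨Module.Finite.equiv e.e0, Module.Projective.of_equiv e.e0, Module.Finite.equiv e.e1,
    Module.Projective.of_equiv e.e1⟩

open Classical in
/-- The class of the two-chart module presented by `d` if it is a vector bundle, the class of the
structure sheaf otherwise. -/
noncomputable def vbClassOfData (d : SmallData R0 R1 R01) : VBClasses A R0 R1 R01 :=
  if h : (d.toQC2 (A := A)).IsVB then Quotient.mk _ ⟨d.toQC2, h⟩
  else Quotient.mk _ ⟨QC2.unit, ⟨inferInstanceAs (Module.Finite R0 R0),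
    inferInstanceAs (Module.Projective R0 R0), inferInstanceAs (Module.Finite R1 R1),
    inferInstanceAs (Module.Projective R1 R1)⟩⟩

theorem vbClassOfData_surjective :
    Function.Surjective (vbClassOfData : SmallData R0 R1 R01 → VBClasses A R0 R1 R01) := by
  intro q
  obtain ⟨⟨L, hL⟩, rfl⟩ := Quotient.exists_rep q
  obtain ⟨d, ⟨e⟩⟩ := exists_smallData_iso L hL.fin0 hL.fin1
  have hd : (d.toQC2 (A := A)).IsVB := isVB_of_iso (isoSymm e) hL
  refine ⟨d, ?_⟩
  rw [vbClassOfData, dif_pos hd]
  exact Quotient.sound ⟨e⟩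

/-- The isomorphism classes of two-chart vector bundles form a `u`-small type. -/
instance small_vbClasses : Small.{u} (VBClasses A R0 R1 R01) :=
  small_of_surjective vbClassOfData_surjective

end Fermat.Agent.Jac.SmallClasses42
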