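/-
Fermat/Agent/Jac/TwoCoverSheafBasic.lean  (helper15, brick M3b of the S25 programme)

General lemmas on `X.Modules` used to glue a sheaf of modules on a two-element affine cover as a
fibre product of pushforwards:

* `secFunctor W` : sections over `W` as a limit-preserving functor `X.Modules ⥤ Ab`;
* `IsIsoOn φ U` : `φ` induces isomorphisms on sections over every open `W ≤ U`;
* the projections of a fibre product in `X.Modules` are `IsIsoOn U` when the opposite leg is;
* `IsIsoOn φ U` gives an isomorphism of the restrictions to `U`;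
* a criterion for `Scheme.Modules.IsInvertible` in terms of restrictions.
-/
import Mathlib
import Fermat.Prelude.Def_AlgebraicGeometry_RelativePicardFunctor

set_option autoImplicit false

universe u

open CategoryTheory CategoryTheory.Limits AlgebraicGeometry TopologicalSpace Opposite

namespace Fermat.Agent.Jac.TwoCoverSheaf

variable {X : Scheme.{u}}

/-! ### Sections as a functor -/

/-- Evaluation of abelian presheaves at `W`. -/
noncomputable def evalAt (W : X.Opens) : TopCat.Presheaf Ab.{u} X ⥤ Ab.{u} :=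
  (evaluation (Opens ↥X)ᵒᵖ Ab.{u}).obj (op W)

noncomputable instance evalAt_preservesLimits (W : X.Opens) :
    PreservesLimits (evalAt (X := X) W) :=
  inferInstanceAs (PreservesLimits ((evaluation (Opens ↥X)ᵒᵖ Ab.{u}).obj (op W)))

/-- The sections functor over `W`, valued in abelian groups. -/
noncomputable def secFunctor (W : X.Opens) : X.Modules ⥤ Ab :=
  Scheme.Modules.toPresheaf X ⋙ evalAt W

noncomputable instance secFunctor_preservesLimits (W : X.Opens) :
    PreservesLimits (secFunctor (X := X) W) :=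
  comp_preservesLimits _ _

lemma secFunctor_map {F G : X.Modules} (φ : F ⟶ G) (W : X.Opens) :
    (secFunctor W).map φ = φ.app W := rfl

/-! ### Morphisms that are isomorphisms over an open set -/

/-- `φ` induces isomorphisms on sections over every open contained in `U`. -/
def IsIsoOn {F G : X.Modules} (φ : F ⟶ G) (U : X.Opens) : Prop :=
  ∀ W : X.Opens, W ≤ U → IsIso (φ.app W)

lemma IsIsoOn.mono {F G : X.Modules} {φ : F ⟶ G} {U V : X.Opens} (h : IsIsoOn φ U)
    (hVU : V ≤ U) : IsIsoOn φ V :=
  fun W hW => h W (hW.trans hVU)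

lemma IsIsoOn.of_isIso {F G : X.Modules} (φ : F ⟶ G) [IsIso φ] (U : X.Opens) : IsIsoOn φ U :=
  fun _ _ => inferInstance

lemma IsIsoOn.comp {F G H : X.Modules} {φ : F ⟶ G} {ψ : G ⟶ H} {U : X.Opens}
    (h₁ : IsIsoOn φ U) (h₂ : IsIsoOn ψ U) : IsIsoOn (φ ≫ ψ) U := by
  intro W hW
  have := h₁ W hW
  have := h₂ W hW
  rw [Scheme.Modules.Hom.comp_app]
  infer_instance

lemma IsIsoOn.bijective {F G : X.Modules} {φ : F ⟶ G} {U : X.Opens} (h : IsIsoOn φ U)
    {W : X.Opens} (hW : W ≤ U) : Function.Bijective (φ.app W) := by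
  have := h W hW
  exact ConcreteCategory.bijective_of_isIso (φ.app W)

/-- The first projection of a fibre product is an isomorphism on sections over `W` as soon as
the second leg is. -/
lemma isIso_fst_app {F0 F1 F01 : X.Modules} (a0 : F0 ⟶ F01) (a1 : F1 ⟶ F01) (W : X.Opens)
    (h : IsIso (a1.app W)) : IsIso ((pullback.fst a0 a1).app W) := by
  have sq := (IsPullback.of_hasPullback a0 a1).map (secFunctor W)
  simp only [secFunctor_map] at sq
  exact sq.isIso_fst_of_isIso h

/-- The second projection of a fibre product is an isomorphism on sections over `W` as soon as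
the first leg is. -/
lemma isIso_snd_app {F0 F1 F01 : X.Modules} (a0 : F0 ⟶ F01) (a1 : F1 ⟶ F01) (W : X.Opens)
    (h : IsIso (a0.app W)) : IsIso ((pullback.snd a0 a1).app W) := by
  have sq := (IsPullback.of_hasPullback a0 a1).map (secFunctor W)
  simp only [secFunctor_map] at sq
  exact sq.isIso_snd_of_isIso h

lemma isIsoOn_fst {F0 F1 F01 : X.Modules} (a0 : F0 ⟶ F01) (a1 : F1 ⟶ F01) {U : X.Opens}
    (h : IsIsoOn a1 U) : IsIsoOn (pullback.fst a0 a1) U :=
  fun W hW => isIso_fst_app a0 a1 W (h W hW)

lemma isIsoOn_snd {F0 F1 F01 : X.Modules} (a0 : F0 ⟶ F01) (a1 : F1 ⟶ F01) {U : X.Opens}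
    (h : IsIsoOn a0 U) : IsIsoOn (pullback.snd a0 a1) U :=
  fun W hW => isIso_snd_app a0 a1 W (h W hW)

lemma pullback_condition_app {F0 F1 F01 : X.Modules} (a0 : F0 ⟶ F01) (a1 : F1 ⟶ F01)
    (W : X.Opens) (x : Γ(pullback a0 a1, W)) :
    a0.app W ((pullback.fst a0 a1).app W x) = a1.app W ((pullback.snd a0 a1).app W x) := by
  have := congrArg (fun ψ => (Scheme.Modules.Hom.app ψ W) x) (pullback.condition (f := a0) (g := a1))
  simpa using this

/-! ### Restriction to an open subscheme -/

lemma restrictFunctor_map_app {Y : Scheme.{u}} (f : Y ⟶ X) [IsOpenImmersion f] {F G : X.Modules}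
    (φ : F ⟶ G) (V : Y.Opens) :
    ((Scheme.Modules.restrictFunctor f).map φ).app V = φ.app (f ''ᵁ V) := rfl

lemma isIso_restrictFunctor_map {Y : Scheme.{u}} (f : Y ⟶ X) [IsOpenImmersion f]
    {F G : X.Modules} {φ : F ⟶ G} (h : IsIsoOn φ f.opensRange) :
    IsIso ((Scheme.Modules.restrictFunctor f).map φ) := by
  rw [Scheme.Modules.Hom.isIso_iff_isIso_app]
  intro V
  rw [restrictFunctor_map_app]
  exact h _ (f.image_le_opensRange V)

lemma isIsoOn_of_isIso_restrictFunctor_map {Y : Scheme.{u}} (f : Y ⟶ X) [IsOpenImmersion f]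
    {F G : X.Modules} {φ : F ⟶ G} (h : IsIso ((Scheme.Modules.restrictFunctor f).map φ)) :
    IsIsoOn φ f.opensRange := by
  intro W hW
  have hW' : f ''ᵁ (f ⁻¹ᵁ W) = W := by
    rw [Scheme.Hom.image_preimage_eq_opensRange_inf]
    exact inf_eq_right.mpr hW
  rw [← hW', ← restrictFunctor_map_app]
  exact Scheme.Modules.Hom.isIso_iff_isIso_app.mp h _

/-- A morphism which is an isomorphism over `U` induces an isomorphism between restrictions. -/
noncomputable def IsIsoOn.restrictIso {F G : X.Modules} {φ : F ⟶ G} {U : X.Opens}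
    (h : IsIsoOn φ U) : F.restrict U.ι ≅ G.restrict U.ι :=
  haveI : IsIso ((Scheme.Modules.restrictFunctor U.ι).map φ) :=
    isIso_restrictFunctor_map U.ι (by rwa [Scheme.Opens.opensRange_ι])
  asIso ((Scheme.Modules.restrictFunctor U.ι).map φ)

/-! ### Invertibility from local trivialisations of the restrictions -/

/-- If every point has an open neighbourhood `U` such that the restriction of `M` to `U` is
isomorphic to the restriction of the structure sheaf, then `M` is invertible. -/
theorem isInvertible_of_restrict_iso (M : X.Modules)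
    (h : ∀ x : X, ∃ U : X.Opens, x ∈ U ∧
      Nonempty (M.restrict U.ι ≅
        Scheme.Modules.restrict (SheafOfModules.unit X.ringCatSheaf) U.ι)) :
    Scheme.Modules.IsInvertible M := by
  refine ⟨fun x => ?_⟩
  obtain ⟨U, hxU, ⟨e⟩⟩ := h x
  exact ⟨U, hxU, ⟨((Scheme.Modules.restrictFunctorIsoPullback U.ι).app M).symm ≪≫ e ≪≫
    Scheme.Modules.restrictUnitIso U.ι⟩⟩

end Fermat.Agent.Jac.TwoCoverSheaf
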